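import Mathlib
import Fermat.Prelude.Def_ModularCurve_GenusNumerics

/-!
# helper227: the number of `T`-orbits on `SL(2, ℤ) ⧸ Γ₀(N)` is `cuspCount N`

Main result: `Fermat.Agent.S24.helper227.card_orbits_T`.
Method (no `ℙ¹(ℤ/N)` model): cosets are detected by first columns
(`coset_eq_iff`); `T`-orbits are parametrised by `d ∣ N` and a unit mod `gcd d (N / d)`.
-/

set_option autoImplicit false

open CongruenceSubgroup MatrixGroups

namespace Fermat.Agent.S24.helper227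


section basics

variable (N : ℕ)

/-- Coset criterion: `g₁ Γ₀(N) = g₂ Γ₀(N)` iff `N ∣ a₁ c₂ - c₁ a₂`. -/
theorem coset_eq_iff (g₁ g₂ : SL(2, ℤ)) :
    ((g₁ : SL(2, ℤ) ⧸ Gamma0 N) = (g₂ : SL(2, ℤ) ⧸ Gamma0 N)) ↔
      (N : ℤ) ∣ g₁ 0 0 * g₂ 1 0 - g₁ 1 0 * g₂ 0 0 := by
  rw [QuotientGroup.eq, Gamma0_mem, ZMod.intCast_zmod_eq_zero_iff_dvd]
  have : (g₁⁻¹ * g₂) 1 0 = g₁ 0 0 * g₂ 1 0 - g₁ 1 0 * g₂ 0 0 := by
    rw [Matrix.SpecialLinearGroup.coe_mul, Matrix.SpecialLinearGroup.coe_inv,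
      Matrix.adjugate_fin_two, Matrix.mul_apply, Fin.sum_univ_two]
    simp
    ring
  rw [this]

theorem T_zpow_smul_00 (k : ℤ) (g : SL(2, ℤ)) :
    (ModularGroup.T ^ k * g) 0 0 = g 0 0 + k * g 1 0 := by
  rw [Matrix.SpecialLinearGroup.coe_mul, ModularGroup.coe_T_zpow, Matrix.mul_apply,
    Fin.sum_univ_two]
  simp

theorem T_zpow_smul_10 (k : ℤ) (g : SL(2, ℤ)) :
    (ModularGroup.T ^ k * g) 1 0 = g 1 0 := by
  rw [Matrix.SpecialLinearGroup.coe_mul, ModularGroup.coe_T_zpow, Matrix.mul_apply,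
    Fin.sum_univ_two]
  simp

theorem isCoprime_col (g : SL(2, ℤ)) : IsCoprime (g 0 0) (g 1 0) := by
  have h := g.det_coe
  rw [Matrix.det_fin_two] at h
  exact ⟨g 1 1, -(g 0 1), by linarith⟩

end basics


theorem nt1 {N d d' : ℕ} (hd : d ∣ N) (hd' : d' ∣ N) {a a' k : ℤ}
    (ha : IsCoprime a (d : ℤ)) (ha' : IsCoprime a' (d' : ℤ))
    (h : (N : ℤ) ∣ (a + k * d) * d' - d * a') : d = d' := by
  have hdN : (d : ℤ) ∣ (N : ℤ) := Int.natCast_dvd_natCast.mpr hd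
  have hd'N : (d' : ℤ) ∣ (N : ℤ) := Int.natCast_dvd_natCast.mpr hd'
  have h1 : (d : ℤ) ∣ (a + k * d) * d' := by
    have := hdN.trans h
    have h2 : (d : ℤ) ∣ d * a' := dvd_mul_right _ _
    have := dvd_add this h2
    simpa using this
  have hc : IsCoprime (d : ℤ) (a + k * d) := (IsCoprime.add_mul_right_left ha k).symm
  have h3 : (d : ℤ) ∣ d' := hc.dvd_of_dvd_mul_left h1
  have h4 : (d' : ℤ) ∣ d * a' := by
    have := hd'N.trans h
    have h2 : (d' : ℤ) ∣ (a + k * d) * d' := dvd_mul_left _ _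
    have := dvd_sub h2 this
    simpa using this
  have h5 : (d' : ℤ) ∣ d := ha'.symm.dvd_of_dvd_mul_right h4
  exact Nat.dvd_antisymm (Int.natCast_dvd_natCast.mp h3) (Int.natCast_dvd_natCast.mp h5)

theorem nt2 {N d : ℕ} (hd : d ∣ N) (hd0 : d ≠ 0) {a a' k : ℤ}
    (h : (N : ℤ) ∣ (a + k * d) * d - d * a') :
    ((Nat.gcd d (N / d) : ℕ) : ℤ) ∣ a - a' := by
  have hN : (N : ℤ) = (d : ℤ) * ((N / d : ℕ) : ℤ) := by
    rw [← Nat.cast_mul, Nat.mul_div_cancel' hd]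
  have h1 : (d : ℤ) * ((N / d : ℕ) : ℤ) ∣ (d : ℤ) * (a + k * d - a') := by
    rw [← hN]; convert h using 1; ring
  have h2 : ((N / d : ℕ) : ℤ) ∣ a + k * d - a' :=
    (mul_dvd_mul_iff_left (Int.natCast_ne_zero.mpr hd0)).mp h1
  have hg1 : ((Nat.gcd d (N / d) : ℕ) : ℤ) ∣ ((N / d : ℕ) : ℤ) :=
    Int.natCast_dvd_natCast.mpr (Nat.gcd_dvd_right _ _)
  have hg2 : ((Nat.gcd d (N / d) : ℕ) : ℤ) ∣ (d : ℤ) :=
    Int.natCast_dvd_natCast.mpr (Nat.gcd_dvd_left _ _)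
  have h3 := hg1.trans h2
  have h4 : ((Nat.gcd d (N / d) : ℕ) : ℤ) ∣ k * d := Dvd.dvd.mul_left hg2 k
  have h5 := dvd_sub h3 h4
  have e : a + k * d - a' - k * d = a - a' := by ring
  rwa [e] at h5

theorem nt3 {d m : ℕ} {γ t : ℤ} (hγ : IsCoprime γ (m : ℤ))
    (ht : ((Nat.gcd d m : ℕ) : ℤ) ∣ t) : ∃ k : ℤ, (m : ℤ) ∣ t + k * (d * γ) := by
  obtain ⟨t', rfl⟩ := ht
  obtain ⟨γ', s, hγs⟩ := hγ
  have hb : ((Nat.gcd d m : ℕ) : ℤ) = d * Nat.gcdA d m + m * Nat.gcdB d m := Nat.gcd_eq_gcd_ab d m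
  refine ⟨-t' * Nat.gcdA d m * γ', ⟨t' * (Nat.gcdB d m + Nat.gcdA d m * d * s), ?_⟩⟩
  rw [hb]
  have : γ' * γ = 1 - s * m := by linarith
  linear_combination (-(t' * Nat.gcdA d m * d)) * this

theorem isUnit_intCast_of_isCoprime {n : ℕ} {a : ℤ} (h : IsCoprime a (n : ℤ)) :
    IsUnit ((a : ℤ) : ZMod n) := by
  obtain ⟨u, v, huv⟩ := h
  have h1 : ((u : ℤ) : ZMod n) * (a : ZMod n) = 1 := by
    have := congrArg (Int.cast : ℤ → ZMod n) huv
    push_cast at this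
    simpa using this
  exact IsUnit.of_mul_eq_one _ (by rw [mul_comm]; exact h1)

section main

variable (N : ℕ) [NeZero N]

omit [NeZero N] in
/-- Orbit criterion for the action of `⟨T⟩` on `SL(2, ℤ) ⧸ Γ₀(N)`. -/
theorem orbit_mk_eq_iff (g₁ g₂ : SL(2, ℤ)) :
    ((Quotient.mk'' (g₁ : SL(2, ℤ) ⧸ Gamma0 N) :
        MulAction.orbitRel.Quotient (Subgroup.zpowers ModularGroup.T) (SL(2, ℤ) ⧸ Gamma0 N)) =
      Quotient.mk'' (g₂ : SL(2, ℤ) ⧸ Gamma0 N)) ↔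
      ∃ k : ℤ, (N : ℤ) ∣ (g₂ 0 0 + k * g₂ 1 0) * g₁ 1 0 - g₂ 1 0 * g₁ 0 0 := by
  rw [Quotient.eq'', MulAction.orbitRel_apply, MulAction.mem_orbit_iff]
  constructor
  · rintro ⟨⟨t, ht⟩, h⟩
    obtain ⟨k, rfl⟩ := Subgroup.mem_zpowers_iff.mp ht
    refine ⟨k, ?_⟩
    change (ModularGroup.T ^ k) • (g₂ : SL(2, ℤ) ⧸ Gamma0 N) = _ at h
    rw [MulAction.Quotient.smul_mk, smul_eq_mul] at h
    have := (coset_eq_iff N _ _).mp h
    rw [T_zpow_smul_00, T_zpow_smul_10] at this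
    exact this
  · rintro ⟨k, hk⟩
    refine ⟨⟨ModularGroup.T ^ k, Subgroup.zpow_mem_zpowers _ k⟩, ?_⟩
    change (ModularGroup.T ^ k) • (g₂ : SL(2, ℤ) ⧸ Gamma0 N) = _
    rw [MulAction.Quotient.smul_mk, smul_eq_mul]
    apply (coset_eq_iff N _ _).mpr
    rw [T_zpow_smul_00, T_zpow_smul_10]
    exact hk

theorem exists_rep (d : ℕ) (hd : d ∣ N) (u : (ZMod (Nat.gcd d (N / d)))ˣ) :
    ∃ g : SL(2, ℤ), g 1 0 = (d : ℤ) ∧ ((g 0 0 : ℤ) : ZMod (Nat.gcd d (N / d))) = u := by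
  have hd0 : d ≠ 0 := by
    rintro rfl
    exact NeZero.ne N (Nat.eq_zero_of_zero_dvd hd)
  have : NeZero d := ⟨hd0⟩
  obtain ⟨v, hv⟩ := ZMod.unitsMap_surjective (Nat.gcd_dvd_left d (N / d)) u
  have hcop : IsCoprime (((v : ZMod d).val : ℕ) : ℤ) (d : ℤ) :=
    Nat.isCoprime_iff_coprime.mpr (ZMod.val_coe_unit_coprime v)
  obtain ⟨g, hg0, hg1⟩ := hcop.exists_SL2_col 0
  refine ⟨g, hg1, ?_⟩
  rw [hg0, ← hv]
  simp [ZMod.unitsMap_def]

/-- The index type for cusps of `Γ₀(N)`. -/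
abbrev CuspIdx : Type := Σ d : {d : ℕ // d ∈ N.divisors}, (ZMod (Nat.gcd d (N / d)))ˣ

/-- Chosen representative with first column `(a, d)`, `a ≡ u`. -/
noncomputable def rep (x : CuspIdx N) : SL(2, ℤ) :=
  Classical.choose (exists_rep N x.1.1 (Nat.dvd_of_mem_divisors x.1.2) x.2)

theorem rep_10 (x : CuspIdx N) : rep N x 1 0 = (x.1.1 : ℤ) :=
  (Classical.choose_spec (exists_rep N x.1.1 (Nat.dvd_of_mem_divisors x.1.2) x.2)).1

theorem rep_00 (x : CuspIdx N) :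
    ((rep N x 0 0 : ℤ) : ZMod (Nat.gcd x.1.1 (N / x.1.1))) = x.2 :=
  (Classical.choose_spec (exists_rep N x.1.1 (Nat.dvd_of_mem_divisors x.1.2) x.2)).2

theorem rep_spec' (d : ℕ) (hd : d ∈ N.divisors) (u : (ZMod (Nat.gcd d (N / d)))ˣ) :
    rep N ⟨⟨d, hd⟩, u⟩ 1 0 = (d : ℤ) ∧
      ((rep N ⟨⟨d, hd⟩, u⟩ 0 0 : ℤ) : ZMod (Nat.gcd d (N / d))) = u :=
  ⟨rep_10 N ⟨⟨d, hd⟩, u⟩, rep_00 N ⟨⟨d, hd⟩, u⟩⟩

/-- The map from the index type to the set of `T`-orbits. -/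
noncomputable def cuspMap (x : CuspIdx N) :
    MulAction.orbitRel.Quotient (Subgroup.zpowers ModularGroup.T) (SL(2, ℤ) ⧸ Gamma0 N) :=
  Quotient.mk'' (rep N x : SL(2, ℤ) ⧸ Gamma0 N)

theorem cuspMap_injective : Function.Injective (cuspMap N) := by
  rintro ⟨⟨d, hd⟩, u⟩ ⟨⟨d', hd'⟩, u'⟩ h
  obtain ⟨k, hk⟩ := (orbit_mk_eq_iff N _ _).mp h
  have h10 := rep_10 N ⟨⟨d, hd⟩, u⟩
  have h10' := rep_10 N ⟨⟨d', hd'⟩, u'⟩
  have h00 := rep_00 N ⟨⟨d, hd⟩, u⟩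
  have h00' := rep_00 N ⟨⟨d', hd'⟩, u'⟩
  have hc := isCoprime_col (rep N ⟨⟨d, hd⟩, u⟩)
  have hc' := isCoprime_col (rep N ⟨⟨d', hd'⟩, u'⟩)
  simp only at h10 h10' h00 h00'
  rw [h10] at hc hk
  rw [h10'] at hc' hk
  have hdd : d' = d :=
    nt1 (Nat.dvd_of_mem_divisors hd') (Nat.dvd_of_mem_divisors hd) hc' hc hk
  subst hdd
  have hd0 : d' ≠ 0 := by
    rintro rfl
    exact NeZero.ne N (Nat.eq_zero_of_zero_dvd (Nat.dvd_of_mem_divisors hd))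
  have h2 := nt2 (Nat.dvd_of_mem_divisors hd) hd0 hk
  have huu : u = u' := by
    apply Units.ext
    rw [← h00, ← h00']
    exact (ZMod.intCast_eq_intCast_iff_dvd_sub _ _ _).mpr h2
  rw [huu]

theorem cuspMap_surjective : Function.Surjective (cuspMap N) := by
  intro q
  induction q using Quotient.inductionOn' with
  | h x =>
    induction x using QuotientGroup.induction_on with
    | H g =>
      set a := g 0 0 with ha
      set c := g 1 0 with hc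
      have hcop : IsCoprime a c := isCoprime_col g
      have hN0 : (N : ℤ) ≠ 0 := Int.natCast_ne_zero.mpr (NeZero.ne N)
      set d : ℕ := Int.gcd c N with hd
      have hdN : d ∣ N := Int.natCast_dvd_natCast.mp (Int.gcd_dvd_right c N)
      have hd0 : d ≠ 0 := by
        intro h0
        rw [h0] at hdN
        exact NeZero.ne N (Nat.eq_zero_of_zero_dvd hdN)
      obtain ⟨γ, hγ⟩ : (d : ℤ) ∣ c := Int.gcd_dvd_left c N
      obtain ⟨m, hm⟩ := hdN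
      have hNd : N / d = m := by rw [hm]; exact Nat.mul_div_cancel_left m (Nat.pos_of_ne_zero hd0)
      have hγm : IsCoprime γ (m : ℤ) := by
        obtain ⟨x, y, hb⟩ : ∃ x y : ℤ, (d : ℤ) = c * x + N * y :=
          ⟨_, _, Int.gcd_eq_gcd_ab c N⟩
        refine ⟨x, y, ?_⟩
        have hd0' : (d : ℤ) ≠ 0 := Int.natCast_ne_zero.mpr hd0
        apply mul_left_cancel₀ hd0'
        have hm' : (N : ℤ) = d * m := by exact_mod_cast hm
        rw [hγ, hm'] at hb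
        linear_combination -hb
      set e : ℕ := Nat.gcd d (N / d) with he
      have hed : (e : ℤ) ∣ c := (Int.natCast_dvd_natCast.mpr (Nat.gcd_dvd_left d (N / d))).trans
        (Int.gcd_dvd_left c N)
      have hem : (e : ℤ) ∣ (m : ℤ) := by
        rw [← hNd]; exact Int.natCast_dvd_natCast.mpr (Nat.gcd_dvd_right d (N / d))
      have hua : IsUnit ((a : ℤ) : ZMod e) :=
        isUnit_intCast_of_isCoprime (hcop.of_isCoprime_of_dvd_right hed)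
      have huγ : IsUnit ((γ : ℤ) : ZMod e) :=
        isUnit_intCast_of_isCoprime (hγm.of_isCoprime_of_dvd_right hem)
      have hdmem : d ∈ N.divisors := Nat.mem_divisors.mpr ⟨⟨m, hm⟩, NeZero.ne N⟩
      refine ⟨⟨⟨d, hdmem⟩, hua.unit * huγ.unit⁻¹⟩, ?_⟩
      obtain ⟨h10, h00⟩ := rep_spec' N d hdmem (hua.unit * huγ.unit⁻¹)
      apply (orbit_mk_eq_iff N _ _).mpr
      rw [h10]
      -- gcd(d, m) ∣ a - γ * a₀
      have ht : ((Nat.gcd d m : ℕ) : ℤ) ∣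
          a - γ * rep N ⟨⟨d, hdmem⟩, hua.unit * huγ.unit⁻¹⟩ 0 0 := by
        rw [← hNd, ← he]
        rw [← ZMod.intCast_eq_intCast_iff_dvd_sub]
        push_cast
        rw [h00]
        simp only [Units.val_mul, IsUnit.unit_spec]
        rw [mul_comm ((a : ℤ) : ZMod e), ← mul_assoc]
        simp
      obtain ⟨k, hk⟩ := nt3 (d := d) (m := m) (γ := γ) hγm ht
      refine ⟨k, ?_⟩
      obtain ⟨w, hw⟩ := hk
      refine ⟨w, ?_⟩
      have hm' : (N : ℤ) = d * m := by exact_mod_cast hm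
      rw [hm', ← hc, hγ]
      linear_combination (d : ℤ) * hw

/-- The number of `T`-orbits on `SL(2, ℤ) ⧸ Γ₀(N)` is the number of cusps of `Γ₀(N)`. -/
theorem card_orbits_T :
    Nat.card (MulAction.orbitRel.Quotient (Subgroup.zpowers ModularGroup.T) (SL(2, ℤ) ⧸ Gamma0 N))
      = ModularCurve.cuspCount N := by
  have hne : ∀ d : {d : ℕ // d ∈ N.divisors}, NeZero (Nat.gcd d (N / d)) := by
    rintro ⟨d, hd⟩
    refine ⟨fun h => ?_⟩
    have hd0 : d = 0 := (Nat.gcd_eq_zero_iff.mp h).1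
    exact (Nat.pos_of_mem_divisors hd).ne' hd0
  rw [← Nat.card_congr (Equiv.ofBijective (cuspMap N) ⟨cuspMap_injective N, cuspMap_surjective N⟩)]
  rw [Nat.card_sigma]
  unfold ModularCurve.cuspCount
  rw [← Finset.sum_coe_sort N.divisors (fun d => Nat.totient (Nat.gcd d (N / d)))]
  refine Finset.sum_congr rfl (fun d _ => ?_)
  have := hne d
  rw [Nat.card_eq_fintype_card, ZMod.card_units_eq_totient]

end main

end Fermat.Agent.S24.helper227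

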