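import Mathlib
import Fermat.Prelude.Def_ModularCurve_X0

set_option autoImplicit false

open Filter Topology

namespace Fermat.Agent.S24.helper1644

noncomputable section

/-! ### Taylor series at `0` of a function `ℂ → ℂ`, as a formal power series -/

/-- Taylor series at `0` as a formal power series. -/
def taylorPS (f : ℂ → ℂ) : PowerSeries ℂ :=
  PowerSeries.mk fun n => (n.factorial : ℂ)⁻¹ * iteratedDeriv n f 0

@[simp] lemma coeff_taylorPS (f : ℂ → ℂ) (n : ℕ) :
    PowerSeries.coeff n (taylorPS f) = (n.factorial : ℂ)⁻¹ * iteratedDeriv n f 0 := by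
  simp [taylorPS]

lemma hasSum_taylorPS {f : ℂ → ℂ} {r : ℝ} (hf : DifferentiableOn ℂ f (Metric.ball 0 r)) {z : ℂ}
    (hz : ‖z‖ < r) : HasSum (fun n => PowerSeries.coeff n (taylorPS f) * z ^ n) (f z) := by
  have h1 := Complex.hasSum_taylorSeries_on_ball hf (z := z) (by simpa using hz)
  have h2 : (fun n => PowerSeries.coeff n (taylorPS f) * z ^ n) =
      fun n => ((n.factorial : ℂ))⁻¹ • (z - 0) ^ n • iteratedDeriv n f 0 := by
    funext n
    simp only [coeff_taylorPS, sub_zero, smul_eq_mul]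
    ring
  rw [h2]
  exact h1

lemma taylorPS_mul {f g : ℂ → ℂ} (hf : AnalyticAt ℂ f 0) (hg : AnalyticAt ℂ g 0) :
    taylorPS (f * g) = taylorPS f * taylorPS g := by
  ext n
  simp only [coeff_taylorPS, iteratedDeriv_mul hf.contDiffAt hg.contDiffAt, Finset.mul_sum,
    PowerSeries.coeff_mul, Finset.Nat.sum_antidiagonal_eq_sum_range_succ_mk, Nat.succ_eq_add_one]
  refine Finset.sum_congr rfl fun i hi ↦ ?_
  rw [Nat.cast_choose _ (by grind)]
  field_simp [Nat.factorial_ne_zero]

lemma hasFPowerSeriesOnBall_of_hasSum {f : ℂ → ℂ} {c : ℕ → ℂ} {r : NNReal} (hr : 0 < r)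
    (h : ∀ z : ℂ, ‖z‖ < r → HasSum (fun n => c n * z ^ n) (f z)) :
    HasFPowerSeriesOnBall f (FormalMultilinearSeries.ofScalars ℂ c) 0 r := by
  constructor
  · refine le_of_forall_lt_imp_le_of_dense fun s hs ↦ ?_
    lift s to NNReal using hs.ne_top
    have hs' : (s : ℝ) < r := by exact_mod_cast hs
    let : FiniteDimensional ℝ ℂ := Complex.basisOneI.finiteDimensional_of_finite
    apply FormalMultilinearSeries.le_radius_of_summable
    have := (h (s : ℝ) (by simpa using hs')).summable.norm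
    simpa [smul_eq_mul, norm_mul, mul_comm, mul_left_comm, mul_assoc] using this
  · exact_mod_cast hr
  · intro y hy
    have hy' : ‖y‖ < r := by simpa using hy
    simpa [mul_comm] using h y hy'

lemma taylorPS_eq_of_hasSum {f : ℂ → ℂ} {c : ℕ → ℂ} {r : ℝ} (hr : 0 < r)
    (h : ∀ z : ℂ, ‖z‖ < r → HasSum (fun n => c n * z ^ n) (f z)) :
    taylorPS f = PowerSeries.mk c := by
  lift r to NNReal using hr.le
  have h1 := (hasFPowerSeriesOnBall_of_hasSum (by exact_mod_cast hr) h).hasFPowerSeriesAt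
  have h2 := h1.analyticAt.hasFPowerSeriesAt
  ext n
  have := congr_arg (FormalMultilinearSeries.coeff · n) (h1.eq_formalMultilinearSeries h2)
  simp only [FormalMultilinearSeries.coeff_ofScalars] at this
  simp [this, div_eq_mul_inv, mul_comm]

/-! ### Coefficient convergence and the Euler product -/


lemma tendstoLocallyUniformlyOn_iteratedDeriv {ι : Type*} {φ : Filter ι} {F : ι → ℂ → ℂ}
    {f : ℂ → ℂ} {U : Set ℂ} (hU : IsOpen U) (hF : TendstoLocallyUniformlyOn F f φ U)
    (hd : ∀ᶠ n in φ, DifferentiableOn ℂ (F n) U) (k : ℕ) :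
    TendstoLocallyUniformlyOn (fun n => iteratedDeriv k (F n)) (iteratedDeriv k f) φ U ∧
      ∀ᶠ n in φ, DifferentiableOn ℂ (iteratedDeriv k (F n)) U := by
  induction k with
  | zero =>
    simp only [iteratedDeriv_zero]
    exact ⟨hF, hd⟩
  | succ k ih =>
    obtain ⟨ih1, ih2⟩ := ih
    refine ⟨?_, ?_⟩
    · have := ih1.deriv ih2 hU
      simp only [iteratedDeriv_succ]
      exact this
    · filter_upwards [ih2] with n hn
      rw [iteratedDeriv_succ]
      exact hn.deriv hU

lemma tendsto_coeff_taylorPS {ι : Type*} {φ : Filter ι} {F : ι → ℂ → ℂ}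
    {f : ℂ → ℂ} {U : Set ℂ} (hU : IsOpen U) (h0 : (0 : ℂ) ∈ U)
    (hF : TendstoLocallyUniformlyOn F f φ U)
    (hd : ∀ᶠ n in φ, DifferentiableOn ℂ (F n) U) (k : ℕ) :
    Tendsto (fun n => PowerSeries.coeff k (taylorPS (F n))) φ
      (𝓝 (PowerSeries.coeff k (taylorPS f))) := by
  have h1 := ((tendstoLocallyUniformlyOn_iteratedDeriv hU hF hd k).1).tendsto_at h0
  simp only [coeff_taylorPS]
  exact h1.const_mul _

lemma taylorPS_polynomial (p : Polynomial ℂ) :
    taylorPS (fun z => p.eval z) = (p : PowerSeries ℂ) := by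
  rw [taylorPS_eq_of_hasSum (c := fun n => p.coeff n) (r := 1) one_pos]
  · ext n
    simp
  · intro z _
    rw [Polynomial.eval_eq_sum_range]
    refine hasSum_sum_of_ne_finset_zero ?_
    intro b hb
    have : p.natDegree < b := by
      simp only [Finset.mem_range, not_lt] at hb
      omega
    simp [Polynomial.coeff_eq_zero_of_natDegree_lt this]

/-- The analytic Euler function `∏ (1 - q^(n+1))`. -/
def eulerFun (q : ℂ) : ℂ := ∏' n : ℕ, (1 - q ^ (n + 1))

lemma differentiableOn_eulerFun : DifferentiableOn ℂ eulerFun (Metric.ball 0 1) :=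
  ModularForm.differentiableOn_tprod_one_sub_pow

open scoped PowerSeries.WithPiTopology in
lemma taylorPS_eulerFun :
    taylorPS eulerFun = ModularCurve.etaProd.map (Int.castRingHom ℂ) := by
  ext k
  -- analytic side
  have hA := tendsto_coeff_taylorPS (φ := atTop)
    (F := fun (s : Finset ℕ) (q : ℂ) => ∏ n ∈ s, (1 - q ^ (n + 1))) (f := eulerFun)
    Metric.isOpen_ball (Metric.mem_ball_self one_pos)
    ModularForm.multipliableLocallyUniformlyOn_one_sub_pow.hasProdLocallyUniformlyOn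
    (Eventually.of_forall fun s => by fun_prop) k
  -- formal side
  have hF : Tendsto (fun s : Finset ℕ => ∏ n ∈ s, ((1 : PowerSeries ℤ) - PowerSeries.X ^ (n + 1)))
      atTop (𝓝 ModularCurve.etaProd) :=
    (PowerSeries.WithPiTopology.multipliable_one_sub_X_pow ℤ).hasProd
  have hF2 : Tendsto (fun s : Finset ℕ =>
      ((PowerSeries.coeff k (∏ n ∈ s, ((1 : PowerSeries ℤ) - PowerSeries.X ^ (n + 1))) : ℤ) : ℂ))
      atTop (𝓝 ((PowerSeries.coeff k ModularCurve.etaProd : ℤ) : ℂ)) :=
    ((continuous_of_discreteTopology (f := fun n : ℤ => (n : ℂ))).tendsto _).comp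
      (((PowerSeries.WithPiTopology.continuous_coeff ℤ k).tendsto _).comp hF)
  have hEq : ∀ s : Finset ℕ,
      PowerSeries.coeff k (taylorPS (fun q : ℂ => ∏ n ∈ s, (1 - q ^ (n + 1)))) =
      ((PowerSeries.coeff k (∏ n ∈ s, ((1 : PowerSeries ℤ) - PowerSeries.X ^ (n + 1))) : ℤ) : ℂ) := by
    intro s
    have h1 : (fun q : ℂ => ∏ n ∈ s, (1 - q ^ (n + 1))) =
        fun q => (∏ n ∈ s, ((1 : Polynomial ℂ) - Polynomial.X ^ (n + 1))).eval q := by
      funext q
      simp [Polynomial.eval_prod]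
    rw [h1, taylorPS_polynomial]
    have h2 : ((∏ n ∈ s, ((1 : Polynomial ℂ) - Polynomial.X ^ (n + 1)) : Polynomial ℂ) :
        PowerSeries ℂ) = (∏ n ∈ s, ((1 : PowerSeries ℤ) - PowerSeries.X ^ (n + 1))).map
          (Int.castRingHom ℂ) := by
      rw [← Polynomial.coeToPowerSeries.ringHom_apply, map_prod, map_prod]
      refine Finset.prod_congr rfl fun n _ => ?_
      simp
    rw [h2, PowerSeries.coeff_map]
    simp
  have hA' := hA.congr hEq
  rw [PowerSeries.coeff_map]
  exact tendsto_nhds_unique hA' hF2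


/-! ### The analytic `j` function and its `q`-expansion -/

open UpperHalfPlane ModularForm EisensteinSeries Function.Periodic MatrixGroups CongruenceSubgroup




lemma taylorPS_congr {f g : ℂ → ℂ} (h : f =ᶠ[𝓝 0] g) : taylorPS f = taylorPS g := by
  ext n
  simp only [coeff_taylorPS, h.iteratedDeriv_eq n]

lemma taylorPS_one : taylorPS (1 : ℂ → ℂ) = 1 := by
  have := taylorPS_polynomial 1
  simpa [Pi.one_def] using this

lemma taylorPS_pow {f : ℂ → ℂ} (hf : AnalyticAt ℂ f 0) (n : ℕ) :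
    taylorPS (f ^ n) = taylorPS f ^ n := by
  induction n with
  | zero => simp [taylorPS_one]
  | succ n ih => rw [pow_succ, taylorPS_mul (hf.pow n) hf, ih, pow_succ]

lemma eulerFun_ne_zero {q : ℂ} (hq : ‖q‖ < 1) : eulerFun q ≠ 0 := by
  by_cases hq0 : q = 0
  · simp [eulerFun, hq0]
  · have him := Function.Periodic.im_invQParam_pos_of_norm_lt_one one_pos hq hq0
    have := ModularForm.eta_tprod_ne_zero (z := Function.Periodic.invQParam 1 q) him
    simpa [eulerFun, ModularForm.eta_q, Function.Periodic.qParam_right_inv one_ne_zero hq0]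
      using this




/-- The cusp function of `E₄` (a holomorphic function on the unit disc). -/
def e4Fun : ℂ → ℂ := cuspFunction 1 E₄

lemma differentiableOn_e4Fun : DifferentiableOn ℂ e4Fun (Metric.ball 0 1) := fun q hq =>
  (ModularFormClass.differentiableAt_cuspFunction E₄ one_pos one_mem_strictPeriods_SL
    (by simpa using hq)).differentiableWithinAt

lemma e4Fun_qParam (τ : ℍ) : e4Fun (qParam 1 (τ : ℂ)) = E₄ τ :=
  SlashInvariantFormClass.eq_cuspFunction E₄ τ one_mem_strictPeriods_SL one_ne_zero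

lemma taylorPS_e4Fun : taylorPS e4Fun = ModularCurve.eisenstein4.map (Int.castRingHom ℂ) := by
  ext m
  have h := E_qExpansion_coeff (k := 4) (by norm_num) ⟨2, rfl⟩ m
  rw [qExpansion_coeff] at h
  rw [coeff_taylorPS]
  change (m.factorial : ℂ)⁻¹ * iteratedDeriv m (cuspFunction 1 E₄) 0 = _
  rw [h]
  simp only [PowerSeries.coeff_map, ModularCurve.eisenstein4, PowerSeries.coeff_mk]
  by_cases hm : m = 0
  · simp [hm]
  · simp only [hm, if_false]
    rw [show bernoulli 4 = -1 / 30 by decide +kernel]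
    simp [ArithmeticFunction.sigma_apply]
    norm_num




/-- The function `q ↦ E₄(q)^3 / ∏ (1 - q^n)^24` on the unit disc; `jnFun (e^{2πiτ}) = e^{2πiτ} j(τ)`. -/
def jnFun (q : ℂ) : ℂ := e4Fun q ^ 3 / eulerFun q ^ 24

lemma differentiableOn_jnFun : DifferentiableOn ℂ jnFun (Metric.ball 0 1) :=
  (differentiableOn_e4Fun.pow 3).div (differentiableOn_eulerFun.pow 24)
    (fun q hq => pow_ne_zero _ (eulerFun_ne_zero (by simpa using hq)))

lemma ball_mem_nhds_zero : Metric.ball (0 : ℂ) 1 ∈ 𝓝 (0 : ℂ) := Metric.ball_mem_nhds 0 one_pos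

lemma formal_jNum_mul :
    ModularCurve.jNum * ModularCurve.etaProd ^ 24 = ModularCurve.eisenstein4 ^ 3 := by
  have h := ModularCurve.dedekindEtaUnit_mul_inv
  rw [ModularCurve.dedekindEtaUnit] at h
  rw [ModularCurve.jNum, mul_assoc, mul_comm ModularCurve.dedekindEtaUnitInv, h, mul_one]

lemma taylorPS_jnFun : taylorPS jnFun = ModularCurve.jNum.map (Int.castRingHom ℂ) := by
  have hE := differentiableOn_e4Fun.analyticAt ball_mem_nhds_zero
  have hP := differentiableOn_eulerFun.analyticAt ball_mem_nhds_zero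
  have hJ := differentiableOn_jnFun.analyticAt ball_mem_nhds_zero
  have h1 : jnFun * eulerFun ^ 24 =ᶠ[𝓝 0] e4Fun ^ 3 := by
    filter_upwards [ball_mem_nhds_zero] with q hq
    have hne : eulerFun q ^ 24 ≠ 0 := pow_ne_zero _ (eulerFun_ne_zero (by simpa using hq))
    simp only [Pi.mul_apply, Pi.pow_apply, jnFun]
    exact div_mul_cancel₀ _ hne
  have h2 := taylorPS_congr h1
  rw [taylorPS_mul hJ (hP.pow 24), taylorPS_pow hP, taylorPS_pow hE, taylorPS_eulerFun,
    taylorPS_e4Fun] at h2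
  have h3 := congrArg (PowerSeries.map (Int.castRingHom ℂ)) formal_jNum_mul
  rw [map_mul, map_pow, map_pow] at h3
  have hne : (PowerSeries.map (Int.castRingHom ℂ) ModularCurve.etaProd) ^ 24 ≠ 0 := by
    apply pow_ne_zero
    intro h0
    have := congrArg (PowerSeries.constantCoeff (R := ℂ)) h0
    rw [← PowerSeries.coeff_zero_eq_constantCoeff, PowerSeries.coeff_map,
      PowerSeries.coeff_zero_eq_constantCoeff, ModularCurve.constantCoeff_etaProd] at this
    simp at this
  exact mul_right_cancel₀ hne (h2.trans h3.symm)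

/-- The analytic `j`-function on the upper half plane. -/
def jFun (τ : ℍ) : ℂ := E₄ τ ^ 3 / discriminant τ

lemma jnFun_qParam (τ : ℍ) : jnFun (qParam 1 (τ : ℂ)) = qParam 1 (τ : ℂ) * jFun τ := by
  have hq : qParam 1 (τ : ℂ) ≠ 0 := Function.Periodic.qParam_ne_zero _
  have hmul : Multipliable fun n : ℕ => 1 - qParam 1 (τ : ℂ) ^ (n + 1) :=
    ModularForm.multipliable_one_sub_pow (Function.Periodic.norm_qParam_lt_one one_pos τ.im_pos)
  have hΔ : discriminant τ = qParam 1 (τ : ℂ) * eulerFun (qParam 1 (τ : ℂ)) ^ 24 := by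
    rw [discriminant_eq_q_prod, eulerFun, ← hmul.tprod_pow]
  have hne : eulerFun (qParam 1 (τ : ℂ)) ^ 24 ≠ 0 :=
    pow_ne_zero _ (eulerFun_ne_zero (Function.Periodic.norm_qParam_lt_one one_pos τ.im_pos))
  rw [jnFun, jFun, e4Fun_qParam, hΔ]
  field_simp

lemma coeff_jNumQ_cast (n : ℕ) :
    ((PowerSeries.coeff n ModularCurve.jNumQ : ℚ) : ℂ) =
      PowerSeries.coeff n (ModularCurve.jNum.map (Int.castRingHom ℂ)) := by
  simp [ModularCurve.jNumQ]

/-- **q-expansion of the analytic `j`**: the formal series `jNumQ` of the Prelude (so that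
`jq = q⁻¹ * jNumQ`) converges on the upper half plane to `q * j(τ)`. -/
theorem hasSum_jNumQ (τ : ℍ) :
    HasSum (fun n : ℕ => ((PowerSeries.coeff n ModularCurve.jNumQ : ℚ) : ℂ) *
      (qParam 1 (τ : ℂ)) ^ n) (qParam 1 (τ : ℂ) * jFun τ) := by
  have h := hasSum_taylorPS differentiableOn_jnFun
    (Function.Periodic.norm_qParam_lt_one one_pos τ.im_pos)
  rw [taylorPS_jnFun, jnFun_qParam] at h
  simpa only [coeff_jNumQ_cast] using h

/-- The same statement for an arbitrary point of the open unit disc. -/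
theorem hasSum_jNumQ_disc {z : ℂ} (hz : ‖z‖ < 1) :
    HasSum (fun n : ℕ => ((PowerSeries.coeff n ModularCurve.jNumQ : ℚ) : ℂ) * z ^ n)
      (jnFun z) := by
  have h := hasSum_taylorPS differentiableOn_jnFun hz
  rw [taylorPS_jnFun] at h
  simpa only [coeff_jNumQ_cast] using h

theorem summable_norm_jNumQ {r : ℝ} (hr0 : 0 ≤ r) (hr : r < 1) :
    Summable (fun n : ℕ => ‖((PowerSeries.coeff n ModularCurve.jNumQ : ℚ) : ℂ)‖ * r ^ n) := by
  have h := (hasSum_jNumQ_disc (z := (r : ℂ)) (by simpa [abs_of_nonneg hr0] using hr)).summable.norm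
  simpa [norm_mul, norm_pow, abs_of_nonneg hr0] using h


/-! ### Invariance, holomorphy, surjectivity, Laurent form of the expansion -/

open scoped Manifold



lemma E₄_smul (γ : SL(2, ℤ)) (τ : ℍ) : E₄ (γ • τ) = denom γ τ ^ 4 * E₄ τ := by
  have : SlashInvariantFormClass (ModularForm 𝒮ℒ 4) Γ(1) 4 := Gamma_one_coe_eq_SL ▸ inferInstance
  exact_mod_cast SlashInvariantForm.slash_action_eqn_SL'' E₄ (mem_Gamma_one γ) τ

lemma discriminant_smul (γ : SL(2, ℤ)) (τ : ℍ) :
    discriminant (γ • τ) = denom γ τ ^ 12 * discriminant τ := by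
  have : SlashInvariantFormClass (CuspForm 𝒮ℒ 12) Γ(1) 12 := Gamma_one_coe_eq_SL ▸ inferInstance
  exact_mod_cast SlashInvariantForm.slash_action_eqn_SL'' CuspForm.discriminant (mem_Gamma_one γ) τ

/-- `SL(2, ℤ)`-invariance of the analytic `j`-function. -/
theorem jFun_smul (γ : SL(2, ℤ)) (τ : ℍ) : jFun (γ • τ) = jFun τ := by
  have hd : denom γ τ ≠ 0 := denom_ne_zero γ τ
  have hΔ : discriminant τ ≠ 0 := discriminant_ne_zero τ
  rw [jFun, jFun, E₄_smul, discriminant_smul]
  field_simp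

/-- Holomorphy of the analytic `j`-function. -/
theorem mdifferentiable_jFun : MDiff jFun :=
  (E₄.holo'.pow 3).div CuspForm.discriminant.holo' discriminant_ne_zero

theorem differentiableOn_jFun_comp_ofComplex :
    DifferentiableOn ℂ (jFun ∘ ofComplex) upperHalfPlaneSet :=
  UpperHalfPlane.mdifferentiable_iff.mp mdifferentiable_jFun

lemma tendsto_E₄_atImInfty : Tendsto (fun τ : ℍ => E₄ τ) atImInfty (𝓝 1) := by
  have h0 : e4Fun 0 = 1 := by
    have h := congrArg (PowerSeries.coeff 0) taylorPS_e4Fun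
    simpa [ModularCurve.eisenstein4] using h
  have hc : ContinuousAt e4Fun 0 :=
    (differentiableOn_e4Fun.analyticAt ball_mem_nhds_zero).continuousAt
  have h1 : Tendsto (fun τ : ℍ => e4Fun (qParam 1 (τ : ℂ))) atImInfty (𝓝 (e4Fun 0)) :=
    hc.tendsto.comp (UpperHalfPlane.qParam_tendsto_atImInfty one_pos)
  rw [h0] at h1
  exact h1.congr fun τ => e4Fun_qParam τ





lemma inv_sub_slash (c : ℂ) (γ : SL(2, ℤ)) :
    (fun τ : ℍ => (E₄ τ ^ 3 - c * discriminant τ)⁻¹) ∣[(-12 : ℤ)] γ =
      fun τ : ℍ => (E₄ τ ^ 3 - c * discriminant τ)⁻¹ := by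
  ext τ
  have hd : denom γ τ ≠ 0 := denom_ne_zero γ τ
  rw [SL_slash_apply, E₄_smul, discriminant_smul]
  simp only [neg_neg]
  rw [show (denom γ τ) ^ (12 : ℤ) = denom γ τ ^ 12 by norm_cast]
  rw [show (denom γ τ ^ 4 * E₄ τ) ^ 3 - c * (denom γ τ ^ 12 * discriminant τ) =
    denom γ τ ^ 12 * (E₄ τ ^ 3 - c * discriminant τ) by ring, mul_inv]
  field_simp

/-- The analytic `j`-function is surjective (no valence formula needed: otherwise
`1 / (E₄³ - c Δ)` would be a nonzero level one modular form of weight `-12`). -/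
theorem jFun_surjective : Function.Surjective jFun := by
  intro c
  by_contra hne
  push Not at hne
  have hF : ∀ τ : ℍ, E₄ τ ^ 3 - c * discriminant τ ≠ 0 := by
    intro τ h0
    apply hne τ
    rw [jFun, div_eq_iff (discriminant_ne_zero τ)]
    linear_combination h0
  have hholo : MDiff (fun τ : ℍ => E₄ τ ^ 3 - c * discriminant τ) :=
    (E₄.holo'.pow 3).sub (mdifferentiable_const.mul CuspForm.discriminant.holo')
  let g : ModularForm 𝒮ℒ (-12) :=
    { toFun := fun τ => (E₄ τ ^ 3 - c * discriminant τ)⁻¹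
      slash_action_eq' := fun _ ⟨γ, hγ⟩ ↦ hγ ▸ inv_sub_slash c γ
      holo' := by
        have h1 : MDiff (fun τ : ℍ => (1 : ℂ) / (E₄ τ ^ 3 - c * discriminant τ)) :=
          mdifferentiable_const.div hholo hF
        simp only [one_div] at h1
        exact h1
      bdd_at_cusps' := fun {c'} hc => by
        rw [Subgroup.IsArithmetic.isCusp_iff_isCusp_SL2Z] at hc
        rw [OnePoint.isBoundedAt_iff_forall_SL2Z hc]
        intro γ _
        rw [inv_sub_slash c γ, IsBoundedAtImInfty, BoundedAtFilter]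
        have h1 : Tendsto (fun τ : ℍ => E₄ τ ^ 3 - c * discriminant τ) atImInfty
            (𝓝 (1 ^ 3 - c * 0)) :=
          (tendsto_E₄_atImInfty.pow 3).sub (discriminant_isZeroAtImInfty.const_mul c)
        have h2 := h1.inv₀ (by norm_num)
        exact h2.isBigO_one ℝ }
  have h0 := ModularFormClass.levelOne_neg_weight_eq_zero (by norm_num : (-12 : ℤ) < 0) g
  have h1 := congrFun h0 UpperHalfPlane.I
  exact inv_ne_zero (hF _) h1




lemma coeff_jq (k : ℤ) :
    ModularCurve.jq.coeff k = (HahnSeries.ofPowerSeries ℤ ℚ ModularCurve.jNumQ).coeff (k + 1) := by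
  rw [ModularCurve.jq, HahnSeries.coeff_single_mul, one_mul, sub_neg_eq_add]

lemma coeff_jq_natCast_sub_one (n : ℕ) :
    ModularCurve.jq.coeff ((n : ℤ) - 1) = PowerSeries.coeff n ModularCurve.jNumQ := by
  rw [coeff_jq, sub_add_cancel, HahnSeries.ofPowerSeries_apply_coeff]

lemma coeff_jq_of_lt {k : ℤ} (hk : k < -1) : ModularCurve.jq.coeff k = 0 :=
  ModularCurve.coeff_jq_of_lt hk

/-- **q-expansion of the analytic `j`**, Laurent form: `j(τ) = ∑_{k ∈ ℤ} c_k q^k` where `c_k` are
the coefficients of the Prelude's formal `jq`. -/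
theorem hasSum_jq (τ : ℍ) :
    HasSum (fun k : ℤ => ((ModularCurve.jq.coeff k : ℚ) : ℂ) * (qParam 1 (τ : ℂ)) ^ k)
      (jFun τ) := by
  have hq : qParam 1 (τ : ℂ) ≠ 0 := Function.Periodic.qParam_ne_zero _
  have hi : Function.Injective (fun n : ℕ => (n : ℤ) - 1) := by
    intro a b h
    simpa using h
  rw [← hi.hasSum_iff]
  · have h := (hasSum_jNumQ τ).mul_right (qParam 1 (τ : ℂ))⁻¹
    rw [mul_comm (qParam 1 (τ : ℂ)) (jFun τ), mul_assoc, mul_inv_cancel₀ hq, mul_one] at h
    have hfun : ((fun k : ℤ => ((ModularCurve.jq.coeff k : ℚ) : ℂ) * qParam 1 (τ : ℂ) ^ k) ∘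
        fun n : ℕ => (n : ℤ) - 1) = fun n : ℕ =>
          ((PowerSeries.coeff n ModularCurve.jNumQ : ℚ) : ℂ) * qParam 1 (τ : ℂ) ^ n *
            (qParam 1 (τ : ℂ))⁻¹ := by
      funext n
      simp only [Function.comp_apply, coeff_jq_natCast_sub_one]
      rw [zpow_sub₀ hq, zpow_natCast, zpow_one, div_eq_mul_inv, mul_assoc]
    rw [hfun]
    exact h
  · intro k hk
    have hk' : k < -1 := by
      by_contra hcon
      apply hk
      refine ⟨(k + 1).toNat, ?_⟩
      simp only
      omega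
    simp [coeff_jq_of_lt hk']

theorem jFun_sub_1728 (τ : ℍ) : jFun τ - 1728 = E₆ τ ^ 2 / discriminant τ := by
  have hΔ : discriminant τ ≠ 0 := discriminant_ne_zero τ
  have h := discriminant_eq_E₄_cube_sub_E₆_sq τ
  rw [jFun, div_sub' hΔ, div_left_inj' hΔ]
  linear_combination (-1728 : ℂ) * h


end

end Fermat.Agent.S24.helper1644
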