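import Mathlib

/-!
# S24, MODULE C2: surjectivity of the analytic `J = E₄³ / Δ`

Mathlib-only.  `J` is written as `fun τ => E₄ τ ^ 3 / Δ τ`.
-/

set_option autoImplicit false

namespace Fermat.Agent.S24.helper454

open UpperHalfPlane ModularForm SlashInvariantForm SlashInvariantFormClass ModularFormClass
  CuspFormClass MatrixGroups OnePoint Filter EisensteinSeries Asymptotics Complex
  CongruenceSubgroup

open scoped Topology Manifold

local notation "Δ" => ModularForm.discriminant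

/-- A level one modular form tends, at `i∞`, to the constant term of its `q`-expansion. -/
theorem tendsto_atImInfty_coeff_zero {k : ℤ} (f : ModularForm 𝒮ℒ k) :
    Tendsto (fun τ : ℍ => f τ) atImInfty (𝓝 ((qExpansion 1 f).coeff 0)) := by
  have hanal := ModularFormClass.analyticAt_cuspFunction_zero f one_pos one_mem_strictPeriods_SL
  have hper := periodic_comp_ofComplex f one_mem_strictPeriods_SL
  rw [qExpansion_coeff_zero one_pos hanal hper, ← cuspFunction_apply_zero one_pos hanal hper]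
  exact (hanal.continuousAt.tendsto.comp (qParam_tendsto_atImInfty one_pos)).congr
    (fun τ ↦ SlashInvariantFormClass.eq_cuspFunction f τ one_mem_strictPeriods_SL one_ne_zero)

/-- `E₄ → 1` at `i∞`. -/
theorem tendsto_E4_atImInfty : Tendsto (fun τ : ℍ => E₄ τ) atImInfty (𝓝 1) := by
  have h := tendsto_atImInfty_coeff_zero E₄
  rwa [E_qExpansion_coeff_zero (by norm_num) (by decide)] at h

/-- `E₆ → 1` at `i∞`. -/
theorem tendsto_E6_atImInfty : Tendsto (fun τ : ℍ => E₆ τ) atImInfty (𝓝 1) := by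
  have h := tendsto_atImInfty_coeff_zero E₆
  rwa [E_qExpansion_coeff_zero (by norm_num) (by decide)] at h

/-- `Δ → 0` at `i∞`. -/
theorem tendsto_discriminant_atImInfty : Tendsto (fun τ : ℍ => Δ τ) atImInfty (𝓝 0) :=
  discriminant_isZeroAtImInfty

theorem E4_smul (γ : SL(2, ℤ)) (z : ℍ) : E₄ (γ • z) = denom γ z ^ (4 : ℤ) * E₄ z := by
  have : SlashInvariantFormClass (ModularForm 𝒮ℒ 4) Γ(1) 4 := Gamma_one_coe_eq_SL ▸ inferInstance
  exact slash_action_eqn_SL'' E₄ (CongruenceSubgroup.mem_Gamma_one γ) z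

theorem E6_smul (γ : SL(2, ℤ)) (z : ℍ) : E₆ (γ • z) = denom γ z ^ (6 : ℤ) * E₆ z := by
  have : SlashInvariantFormClass (ModularForm 𝒮ℒ 6) Γ(1) 6 := Gamma_one_coe_eq_SL ▸ inferInstance
  exact slash_action_eqn_SL'' E₆ (CongruenceSubgroup.mem_Gamma_one γ) z

theorem discriminant_smul (γ : SL(2, ℤ)) (z : ℍ) : Δ (γ • z) = denom γ z ^ (12 : ℤ) * Δ z := by
  have : SlashInvariantFormClass (CuspForm 𝒮ℒ 12) Γ(1) 12 := Gamma_one_coe_eq_SL ▸ inferInstance
  exact slash_action_eqn_SL'' CuspForm.discriminant (CongruenceSubgroup.mem_Gamma_one γ) z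

/-- For every `c`, the weight 12 form `E₄³ - c Δ` has a zero on `ℍ`. -/
theorem exists_E4_cube_eq_mul_discriminant (c : ℂ) : ∃ τ : ℍ, E₄ τ ^ 3 = c * Δ τ := by
  by_contra hne
  have hG : ∀ τ : ℍ, E₄ τ ^ 3 - c * Δ τ ≠ 0 := fun τ h => hne ⟨τ, sub_eq_zero.mp h⟩
  -- the weight zero form `Δ / (E₄³ - cΔ)`
  let hfun : ℍ → ℂ := fun z => Δ z / (E₄ z ^ 3 - c * Δ z)
  have hinv : ∀ (γ : SL(2, ℤ)) (z : ℍ), hfun (γ • z) = hfun z := by
    intro γ z
    simp only [hfun]
    rw [E4_smul, discriminant_smul]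
    have hd : denom γ z ≠ 0 := denom_ne_zero γ z
    have h12 : denom γ z ^ (12 : ℤ) ≠ 0 := zpow_ne_zero _ hd
    have : (denom γ z ^ (4 : ℤ) * E₄ z) ^ 3 - c * (denom γ z ^ (12 : ℤ) * Δ z)
        = denom γ z ^ (12 : ℤ) * (E₄ z ^ 3 - c * Δ z) := by
      rw [mul_pow, ← zpow_natCast (denom γ z ^ (4 : ℤ)) 3, ← zpow_mul]
      norm_num
      ring
    rw [this, mul_div_mul_left _ _ h12]
  have hslash : ∀ γ : SL(2, ℤ), hfun ∣[(0 : ℤ)] γ = hfun := by
    intro γ
    ext z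
    rw [SL_slash_apply, hinv]
    simp
  have hholo : MDiff hfun := by
    have h4 : MDiff (fun z : ℍ => E₄ z ^ 3 - c * Δ z) :=
      (E₄.holo'.pow 3).sub (mdifferentiable_const.mul CuspForm.discriminant.holo')
    exact CuspForm.discriminant.holo'.div h4 hG
  have htend : Tendsto hfun atImInfty (𝓝 0) := by
    have h1 : Tendsto (fun z : ℍ => E₄ z ^ 3 - c * Δ z) atImInfty (𝓝 (1 ^ 3 - c * 0)) :=
      (tendsto_E4_atImInfty.pow 3).sub (tendsto_discriminant_atImInfty.const_mul c)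
    have h2 := tendsto_discriminant_atImInfty.div h1 (by norm_num)
    have h3 : (0 : ℂ) / (1 ^ 3 - c * 0) = 0 := by simp
    rw [h3] at h2
    exact h2
  let F : ModularForm 𝒮ℒ 0 :=
    { toFun := hfun
      slash_action_eq' := fun _ ⟨γ, hγ⟩ ↦ hγ ▸ hslash γ
      holo' := hholo
      bdd_at_cusps' := fun {c} hc => by
        rw [Subgroup.IsArithmetic.isCusp_iff_isCusp_SL2Z] at hc
        rw [isBoundedAt_iff_forall_SL2Z hc]
        intro γ _
        rw [hslash γ]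
        exact htend.isBigO_one ℝ }
  obtain ⟨c', hc'⟩ := levelOne_weight_zero_const F
  have hFc : hfun = Function.const _ c' := hc'
  have hc0 : c' = 0 := by
    have h1 : Tendsto hfun atImInfty (𝓝 c') := by
      rw [hFc]; exact tendsto_const_nhds
    exact tendsto_nhds_unique h1 htend
  have h0 : hfun UpperHalfPlane.I = 0 := by
    rw [hFc, hc0]; rfl
  simp only [hfun, div_eq_zero_iff] at h0
  rcases h0 with h | h
  · exact discriminant_ne_zero _ h
  · exact hG _ h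

/-- **Module C2**: the analytic `J = E₄³/Δ` is surjective `ℍ → ℂ`. -/
theorem jSurjective : Function.Surjective (fun τ : ℍ => E₄ τ ^ 3 / Δ τ) := by
  intro c
  obtain ⟨τ, h⟩ := exists_E4_cube_eq_mul_discriminant c
  exact ⟨τ, by
    show E₄ τ ^ 3 / Δ τ = c
    rw [h, mul_div_cancel_right₀ _ (discriminant_ne_zero τ)]⟩

/-- `J = E₄³/Δ` is `SL(2, ℤ)`-invariant. -/
theorem jInvariant (γ : SL(2, ℤ)) (τ : ℍ) :
    E₄ (γ • τ) ^ 3 / Δ (γ • τ) = E₄ τ ^ 3 / Δ τ := by
  rw [E4_smul, discriminant_smul]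
  have hd : denom γ τ ≠ 0 := denom_ne_zero γ τ
  have h12 : denom γ τ ^ (12 : ℤ) ≠ 0 := zpow_ne_zero _ hd
  have : (denom γ τ ^ (4 : ℤ) * E₄ τ) ^ 3 = denom γ τ ^ (12 : ℤ) * E₄ τ ^ 3 := by
    rw [mul_pow, ← zpow_natCast (denom γ τ ^ (4 : ℤ)) 3, ← zpow_mul]
    norm_num
  rw [this, mul_div_mul_left _ _ h12]

/-- `J - 1728 = E₆² / Δ`. -/
theorem j_sub_1728 (τ : ℍ) : E₄ τ ^ 3 / Δ τ - 1728 = E₆ τ ^ 2 / Δ τ := by
  have h := discriminant_eq_E₄_cube_sub_E₆_sq τ
  have hΔ := discriminant_ne_zero τ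
  field_simp
  rw [h]
  ring

/-- `E₆` vanishes at every fixed point of `S` (i.e. at `i`). -/
theorem E6_eq_zero_of_S_smul {τ : ℍ} (h : ModularGroup.S • τ = τ) : E₆ τ = 0 := by
  have h6 := E6_smul ModularGroup.S τ
  rw [h, ModularGroup.denom_S] at h6
  -- `τ² = -1`
  have hτ : (τ : ℂ) * τ = -1 := by
    have h1 := congrArg (fun z : ℍ => (z : ℂ)) h
    simp only [modular_S_smul, UpperHalfPlane.coe_mk] at h1
    have hne : (τ : ℂ) ≠ 0 := ne_zero τ
    field_simp at h1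
    linear_combination -h1
  have h6' : ((τ : ℂ)) ^ (6 : ℤ) = -1 := by
    have : ((τ : ℂ)) ^ (6 : ℤ) = ((τ : ℂ) * τ) ^ 3 := by
      rw [show (6 : ℤ) = ((6 : ℕ) : ℤ) from rfl, zpow_natCast]; ring
    rw [this, hτ]; norm_num
  rw [h6'] at h6
  have : 2 * E₆ τ = 0 := by linear_combination h6
  simpa using this

/-- `E₄` vanishes at every fixed point of `S * T` (i.e. at `ρ`). -/
theorem E4_eq_zero_of_ST_smul {τ : ℍ} (h : (ModularGroup.S * ModularGroup.T) • τ = τ) :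
    E₄ τ = 0 := by
  have h4 := E4_smul (ModularGroup.S * ModularGroup.T) τ
  rw [h] at h4
  have hden : denom ((ModularGroup.S * ModularGroup.T : SL(2, ℤ)) : GL (Fin 2) ℝ) τ
      = (τ : ℂ) + 1 := by
    have e10 : (ModularGroup.S * ModularGroup.T : SL(2, ℤ)) 1 0 = 1 := by decide
    have e11 : (ModularGroup.S * ModularGroup.T : SL(2, ℤ)) 1 1 = 1 := by decide
    rw [ModularGroup.denom_apply, e10, e11]
    simp
  rw [hden] at h4
  -- `τ² + τ + 1 = 0`
  have hτ : (τ : ℂ) * τ + τ + 1 = 0 := by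
    have h1 := congrArg (fun z : ℍ => (z : ℂ)) h
    simp only [mul_smul, modular_S_smul, modular_T_smul, UpperHalfPlane.coe_mk,
      UpperHalfPlane.coe_vadd] at h1
    have hne : ((1 : ℝ) : ℂ) + (τ : ℂ) ≠ 0 := by
      intro h0
      have := congrArg Complex.im h0
      simp at this
      exact (ne_of_gt τ.im_pos) this
    field_simp at h1
    push_cast at h1
    linear_combination -h1
  have h4' : ((τ : ℂ) + 1) ^ (4 : ℤ) = (τ : ℂ) * τ := by
    have : ((τ : ℂ) + 1) ^ (4 : ℤ) = ((τ : ℂ) + 1) ^ 4 := by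
      rw [show (4 : ℤ) = ((4 : ℕ) : ℤ) from rfl, zpow_natCast]
    rw [this]
    linear_combination ((τ : ℂ) ^ 2 + 3 * τ + 1) * hτ
  rw [h4'] at h4
  -- `(1 - τ²) E₄ = 0` and `τ² ≠ 1`
  have hne1 : (τ : ℂ) * τ ≠ 1 := by
    intro h1
    have h2 : (τ : ℂ) = -2 := by linear_combination hτ - h1
    have := congrArg Complex.im h2
    simp at this
    exact (ne_of_gt τ.im_pos) this
  have : (1 - (τ : ℂ) * τ) * E₄ τ = 0 := by linear_combination h4
  rcases mul_eq_zero.mp this with h0 | h0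
  · exact absurd (by linear_combination -h0) hne1
  · exact h0

/-- `J = 1728` at every fixed point of `S`. -/
theorem j_eq_1728_of_S_smul {τ : ℍ} (h : ModularGroup.S • τ = τ) :
    E₄ τ ^ 3 / Δ τ = 1728 := by
  have h1 := j_sub_1728 τ
  rw [E6_eq_zero_of_S_smul h] at h1
  have : E₄ τ ^ 3 / Δ τ - 1728 = 0 := by rw [h1]; simp
  linear_combination this

/-- `J = 0` at every fixed point of `S * T`. -/
theorem j_eq_zero_of_ST_smul {τ : ℍ} (h : (ModularGroup.S * ModularGroup.T) • τ = τ) :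
    E₄ τ ^ 3 / Δ τ = 0 := by
  rw [E4_eq_zero_of_ST_smul h]; simp

/-- `S` fixes `i`. -/
theorem S_smul_I : ModularGroup.S • UpperHalfPlane.I = UpperHalfPlane.I := by
  rw [UpperHalfPlane.ext_iff, modular_S_smul]
  simp

/-- `J(i) = 1728`. -/
theorem j_I : E₄ UpperHalfPlane.I ^ 3 / Δ UpperHalfPlane.I = 1728 :=
  j_eq_1728_of_S_smul S_smul_I

/-- The point `ρ = -1/2 + (√3/2) i` of the upper half plane. -/
noncomputable def rho : ℍ :=
  ⟨-1 / 2 + ((Real.sqrt 3 / 2 : ℝ) : ℂ) * Complex.I, by simp⟩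

theorem coe_rho : ((rho : ℍ) : ℂ) = -1 / 2 + ((Real.sqrt 3 / 2 : ℝ) : ℂ) * Complex.I := rfl

/-- `S * T` fixes `ρ`. -/
theorem ST_smul_rho : (ModularGroup.S * ModularGroup.T) • rho = rho := by
  rw [UpperHalfPlane.ext_iff, mul_smul, modular_S_smul, modular_T_smul]
  simp only [UpperHalfPlane.coe_mk, UpperHalfPlane.coe_vadd, rho]
  have h3 : ((Real.sqrt 3 : ℝ) : ℂ) ^ 2 = 3 := by
    norm_cast
    exact Real.sq_sqrt (by norm_num)
  have hI : Complex.I ^ 2 = -1 := Complex.I_sq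
  rw [inv_eq_iff_eq_inv]
  refine eq_inv_of_mul_eq_one_left ?_
  push_cast
  linear_combination (-Complex.I ^ 2 / 4) * h3 - (3 / 4 : ℂ) * hI

/-- `J(ρ) = 0`. -/
theorem j_rho : E₄ rho ^ 3 / Δ rho = 0 :=
  j_eq_zero_of_ST_smul ST_smul_rho

/-- `E₄(ρ) = 0`. -/
theorem E4_rho : E₄ rho = 0 := E4_eq_zero_of_ST_smul ST_smul_rho

/-- `E₆(i) = 0`. -/
theorem E6_I : E₆ UpperHalfPlane.I = 0 := E6_eq_zero_of_S_smul S_smul_I

/-- For every `c` there is `τ₀` with `J τ₀ = c` (pointwise form of `jSurjective`). -/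
theorem exists_j_eq (c : ℂ) : ∃ τ : ℍ, E₄ τ ^ 3 / Δ τ = c := jSurjective c

end Fermat.Agent.S24.helper454
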