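import Fermat.Statements.S24

/-!
# S24 specification file (captain helper24)

Genus of the modular function field = classical genus formula.
Every intermediate result of the project is a `Prop`-valued definition `Stmt_*` below.
Workers prove implications between them in hypothesis-passing style
(`theorem foo (h1 : Stmt_A) (h2 : Stmt_B) : Stmt_C`), each in a file of their own,
so that nothing waits for anything and the final assembly is a composition.

Conventions: `Kbar = AlgebraicClosure ℚ`, `FN N = ↥(modularFunctionFieldBar N)`,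
`XN N = SL(2, ℤ) ⧸ Gamma0 N` (left cosets, left multiplication action).
All generic algebra statements are stated for `K F : Type` (universe 0 is all we need).
-/

set_option autoImplicit false

open ModularCurve AlgebraicCurve KaehlerDifferential IntermediateField CongruenceSubgroup
open scoped MatrixGroups

namespace Fermat.Agent.S24.helper24

/-! ## Basic objects -/

/-- The base field `ℚ̄`. -/
abbrev Kbar : Type := AlgebraicClosure ℚ

/-- The function field of `X₀(N)` over `ℚ̄` (as a type). -/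
abbrev FN (N : ℕ) : Type := ↥(modularFunctionFieldBar N)

/-- The formal series `j(q^d)` with coefficients in `ℚ̄`. -/
noncomputable def jSeries (d : ℕ) [NeZero d] : LaurentSeries Kbar :=
  coeffEmb Kbar (qExpand ℚ d jq)

theorem jSeries_mem (N d : ℕ) [NeZero d] (hd : d ∣ N) :
    jSeries d ∈ modularFunctionFieldBar N :=
  coeffEmb_mem_laurentBaseChange Kbar (jqd_mem_full N hd)

/-- `j(q^d)` as an element of the function field of level `N`, for `d ∣ N`. -/
noncomputable def jBarD (N d : ℕ) [NeZero d] (hd : d ∣ N) : FN N :=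
  ⟨jSeries d, jSeries_mem N d hd⟩

/-- The function `j` as an element of the function field. -/
noncomputable def jBar (N : ℕ) : FN N :=
  jBarD N 1 (one_dvd N)

theorem coe_jBar (N : ℕ) : ((jBar N : FN N) : LaurentSeries Kbar) = coeffEmb Kbar jq := by
  show coeffEmb Kbar (qExpand ℚ 1 jq) = coeffEmb Kbar jq
  rw [qExpand_one_apply]

/-- The coset space `SL(2, ℤ) ⧸ Γ₀(N)`; `SL(2, ℤ)` acts by left multiplication. -/
abbrev XN (N : ℕ) : Type := SL(2, ℤ) ⧸ Gamma0 N

/-- The analytic `j`-function on the upper half plane. -/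
noncomputable def jFun (τ : UpperHalfPlane) : ℂ :=
  ModularForm.E₄ τ ^ 3 / ModularForm.discriminant τ

/-! ## Generic function field statements (`K` algebraically closed of characteristic 0,
`x : F` transcendental over `K`, `F` finite over `K⟮x⟯`) -/

/-- G1. Fundamental identity: the zeros of a transcendental element `y` are finitely many
and their orders add up to `[F : K(y)]`. (For poles apply it to `y⁻¹`.) -/
def Stmt_FundId : Prop :=
  ∀ (K F : Type) [Field K] [Field F] [Algebra K F] [IsAlgClosed K] [CharZero K] (y : F),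
    Transcendental K y → ∀ [FiniteDimensional K⟮y⟯ F],
    ∃ s : Finset (Place K F), (∀ v : Place K F, v ∈ s ↔ 0 < v.ord y) ∧
      ∑ v ∈ s, v.ord y = (Module.finrank K⟮y⟯ F : ℤ)

/-- G2. Every place has residue field `K`. -/
def Stmt_ResidueK : Prop :=
  ∀ (K F : Type) [Field K] [Field F] [Algebra K F] [IsAlgClosed K] [CharZero K] (x : F),
    Transcendental K x → ∀ [FiniteDimensional K⟮x⟯ F] (v : Place K F),
    Function.Surjective (algebraMap K v.ResidueField)

/-- G3. Every place is a pole of `x` or a zero of `x - c` for some `c : K`. -/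
def Stmt_Center : Prop :=
  ∀ (K F : Type) [Field K] [Field F] [Algebra K F] [IsAlgClosed K] [CharZero K] (x : F),
    Transcendental K x → ∀ [FiniteDimensional K⟮x⟯ F] (v : Place K F),
    v.ord x < 0 ∨ ∃ c : K, 0 < v.ord (x - algebraMap K F c)

/-- G4. Principal divisors have degree zero. -/
def Stmt_PrincipalDegZero : Prop :=
  ∀ (K F : Type) [Field K] [Field F] [Algebra K F] [IsAlgClosed K] [CharZero K] (x : F),
    Transcendental K x → ∀ [FiniteDimensional K⟮x⟯ F] (f : F), f ≠ 0 →
    ∀ D : Divisor K F, (∀ v : Place K F, D v = v.ord f) → Divisor.degree D = 0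

/-- G5. The module of Kähler differentials is spanned by `dx`, and `dx ≠ 0`. -/
def Stmt_KaehlerSpan : Prop :=
  ∀ (K F : Type) [Field K] [Field F] [Algebra K F] [CharZero K] (x : F),
    Transcendental K x → ∀ [FiniteDimensional K⟮x⟯ F],
    Submodule.span F {D K F x} = ⊤ ∧ D K F x ≠ 0

/-- G6. Local differential lemma: `d(uniformizer)` generates, and `ord_v(du) = ord_v(u) - 1`
whenever `ord_v(u) ≠ 0`. -/
def Stmt_LocalDiff : Prop :=
  ∀ (K F : Type) [Field K] [Field F] [Algebra K F] [IsAlgClosed K] [CharZero K] (x : F),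
    Transcendental K x → ∀ [FiniteDimensional K⟮x⟯ F] (v : Place K F),
    v.DCoordGenerates ∧ ∀ u : F, v.ord u ≠ 0 → v.ordDifferential (D K F u) = v.ord u - 1

/-- G7. Riemann–Hurwitz bookkeeping: if `x` is unramified outside the finite set `S` of finite
values, the degree of the divisor of any nonzero differential is
`∑_{c ∈ S} (n - r_c) - n - r_∞`. -/
def Stmt_RH : Prop :=
  ∀ (K F : Type) [Field K] [Field F] [Algebra K F] [IsAlgClosed K] [CharZero K] (x : F),
    Transcendental K x → ∀ [FiniteDimensional K⟮x⟯ F] (S : Finset K),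
    (∀ c : K, c ∉ S → ∀ v : Place K F, 0 < v.ord (x - algebraMap K F c) →
      v.ord (x - algebraMap K F c) = 1) →
    ∀ ω : Ω[F⁄K], ω ≠ 0 → ∀ D : Divisor K F, (∀ v : Place K F, D v = v.ordDifferential ω) →
    Divisor.degree D =
      ∑ c ∈ S, ((Module.finrank K⟮x⟯ F : ℤ)
          - (Nat.card {v : Place K F // 0 < v.ord (x - algebraMap K F c)} : ℤ))
        - (Module.finrank K⟮x⟯ F : ℤ) - (Nat.card {v : Place K F // v.ord x < 0} : ℤ)

/-- G8. Orbit counting ("LOC"): given `n = [F : K(y)]` distinct `K`-embeddings of `F` into a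
discretely valued field `Ω`, all sending `y` to the same element of valuation `m > 0`, permuted
by an automorphism `σ` of `Ω` with the divisibility property `hdiv`, the number of zeros of `y`
is the number of orbits. -/
def Stmt_LOC : Prop :=
  ∀ (K F : Type) [Field K] [Field F] [Algebra K F] [IsAlgClosed K] [CharZero K]
    (Ω : Type) [Field Ω] [Algebra K Ω] (y : F), Transcendental K y →
    ∀ [FiniteDimensional K⟮y⟯ F] (w : AddValuation Ω (WithTop ℤ)),
    (∀ a : K, a ≠ 0 → w (algebraMap K Ω a) = 0) →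
    ∀ (X : Type) [Fintype X], Fintype.card X = Module.finrank K⟮y⟯ F →
    ∀ (ι : X → (F →ₐ[K] Ω)), Function.Injective ι →
    ∀ (ξ : Ω), (∀ i, ι i y = ξ) → ∀ (m : ℕ), 0 < m → w ξ = ((m : ℤ) : WithTop ℤ) →
    ∀ (σ : Ω ≃ₐ[K] Ω), (∀ z, w (σ z) = w z) →
    ∀ (ρ : Equiv.Perm X), (∀ i f, σ (ι i f) = ι (ρ i) f) →
    (∀ (k : ℕ) (z : Ω), z ≠ 0 → (σ ^ k) z = z →
      ∃ l : ℤ, w z = (((m / Nat.gcd k m : ℕ) * l : ℤ) : WithTop ℤ)) →
    Nat.card {v : Place K F // 0 < v.ord y}
      = Nat.card (MulAction.orbitRel.Quotient (Subgroup.zpowers ρ) X)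

/-! ## Modular statements -/

/-- Local embedding datum at a point: the hypotheses of `Stmt_LOC` for the function field of
level `N`, the local parameter `y` downstairs, ramification index `m` of the chosen point and
stabilizer generator `g`; the index set is `XN N` and `σ` permutes the embeddings like left
multiplication by `g` or by `g⁻¹`. -/
def LocalDatum (N : ℕ) (y : FN N) (m : ℕ) (g : SL(2, ℤ)) : Prop :=
  ∃ (Ω : Type) (_ : Field Ω) (_ : Algebra Kbar Ω) (w : AddValuation Ω (WithTop ℤ))
    (ι : XN N → (FN N →ₐ[Kbar] Ω)) (σ : Ω ≃ₐ[Kbar] Ω) (ξ : Ω),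
    (∀ a : Kbar, a ≠ 0 → w (algebraMap Kbar Ω a) = 0) ∧
    Function.Injective ι ∧ (∀ i, ι i y = ξ) ∧ 0 < m ∧ w ξ = ((m : ℤ) : WithTop ℤ) ∧
    (∀ z, w (σ z) = w z) ∧
    ((∀ i f, σ (ι i f) = ι (g • i) f) ∨ (∀ i f, σ (ι i f) = ι (g⁻¹ • i) f)) ∧
    (∀ (k : ℕ) (z : Ω), z ≠ 0 → (σ ^ k) z = z →
      ∃ l : ℤ, w z = (((m / Nat.gcd k m : ℕ) * l : ℤ) : WithTop ℤ))

/-- M1. `j` is transcendental over `ℚ̄`. -/
def Stmt_JTranscendental : Prop :=
  ∀ (N : ℕ) [NeZero N], Transcendental Kbar (jBar N)

/-- M2. `[F_N : ℚ̄(j)] = [SL₂(ℤ) : Γ₀(N)]`. -/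
def Stmt_JFinrank : Prop :=
  ∀ (N : ℕ) [NeZero N], FiniteDimensional Kbar⟮jBar N⟯ (FN N) ∧
    Module.finrank Kbar⟮jBar N⟯ (FN N) = Nat.card (XN N)

/-- M3. Local datum over a value `c ∉ {0, 1728}` (trivial stabilizer, unramified). -/
def Stmt_LocalGeneric : Prop :=
  ∀ (N : ℕ) [NeZero N] (c : Kbar), c ≠ 0 → c ≠ 1728 →
    LocalDatum N (jBar N - algebraMap Kbar (FN N) c) 1 1

/-- M4. Local datum over `j = 1728` (point `i`, stabilizer generated by `S`). -/
def Stmt_Local1728 : Prop :=
  ∀ (N : ℕ) [NeZero N],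
    LocalDatum N (jBar N - algebraMap Kbar (FN N) 1728) 2 ModularGroup.S

/-- M5. Local datum over `j = 0` (point `ρ`, stabilizer generated by `S * T`). -/
def Stmt_LocalZero : Prop :=
  ∀ (N : ℕ) [NeZero N], LocalDatum N (jBar N) 3 (ModularGroup.S * ModularGroup.T)

/-- M6. Local datum at the cusp (`y = 1/j`, width `N`, stabilizer generated by `T`). -/
def Stmt_LocalInf : Prop :=
  ∀ (N : ℕ) [NeZero N], LocalDatum N (jBar N)⁻¹ N ModularGroup.T

/-! ## Combinatorial statements on `XN N = SL(2, ℤ) ⧸ Γ₀(N)` -/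

/-- C1. The index of `Γ₀(N)`. -/
def Stmt_Index : Prop :=
  ∀ (N : ℕ) [NeZero N], Nat.card (XN N) = dedekindPsi N

/-- C2. Number of `T`-orbits = number of cusps. -/
def Stmt_OrbitsT : Prop :=
  ∀ (N : ℕ) [NeZero N],
    Nat.card (MulAction.orbitRel.Quotient (Subgroup.zpowers ModularGroup.T) (XN N)) = cuspCount N

/-- C3. Number of `S`-orbits. -/
def Stmt_OrbitsS : Prop :=
  ∀ (N : ℕ) [NeZero N],
    2 * Nat.card (MulAction.orbitRel.Quotient (Subgroup.zpowers ModularGroup.S) (XN N))
      = dedekindPsi N + nuTwo N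

/-- C4. Number of `ST`-orbits. -/
def Stmt_OrbitsST : Prop :=
  ∀ (N : ℕ) [NeZero N],
    3 * Nat.card (MulAction.orbitRel.Quotient
        (Subgroup.zpowers (ModularGroup.S * ModularGroup.T)) (XN N))
      = dedekindPsi N + 2 * nuThree N

/-- C5. Hurwitz genus of the permutation triple (parity by signs, nonnegativity by Scott's
lemma). -/
def Stmt_Hurwitz : Prop :=
  ∀ (N : ℕ) [NeZero N], ∃ g : ℕ,
    (Nat.card (XN N) : ℤ) + 2 = 2 * g
      + Nat.card (MulAction.orbitRel.Quotient (Subgroup.zpowers ModularGroup.S) (XN N))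
      + Nat.card (MulAction.orbitRel.Quotient (Subgroup.zpowers ModularGroup.T) (XN N))
      + Nat.card (MulAction.orbitRel.Quotient
          (Subgroup.zpowers (ModularGroup.S * ModularGroup.T)) (XN N))

/-- The genus formula takes natural number values. -/
def Stmt_INT : Prop :=
  ∀ (N : ℕ) [NeZero N], ∃ g : ℕ, (g : ℚ) = genusFormula N

/-! ## Assembly statements -/

/-- The numbers of places of `F_N` over `j = c` (all that Riemann–Hurwitz needs). -/
def Stmt_Places : Prop :=
  ∀ (N : ℕ) [NeZero N],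
    (∀ c : Kbar, c ≠ 0 → c ≠ 1728 → ∀ v : Place Kbar (FN N),
      0 < v.ord (jBar N - algebraMap Kbar (FN N) c) →
      v.ord (jBar N - algebraMap Kbar (FN N) c) = 1) ∧
    2 * Nat.card {v : Place Kbar (FN N) // 0 < v.ord (jBar N - algebraMap Kbar (FN N) 1728)}
      = dedekindPsi N + nuTwo N ∧
    3 * Nat.card {v : Place Kbar (FN N) // 0 < v.ord (jBar N - algebraMap Kbar (FN N) 0)}
      = dedekindPsi N + 2 * nuThree N ∧
    Nat.card {v : Place Kbar (FN N) // v.ord (jBar N) < 0} = cuspCount N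

/-- The degree of the divisor of any nonzero differential is `2g - 2`. -/
def Stmt_DEG : Prop :=
  ∀ (N : ℕ) [NeZero N] (ω : Ω[FN N⁄Kbar]), ω ≠ 0 →
    ∀ D : Divisor Kbar (FN N), (∀ v : Place Kbar (FN N), D v = v.ordDifferential ω) →
    (Divisor.degree D : ℚ) = 2 * genusFormula N - 2

/-- The final statement (= frozen statement S24). -/
def Stmt_S24 : Prop :=
  ∀ (N : ℕ) [NeZero N]
    [AlgebraicCurve.HasCanonicalDivisor (K := AlgebraicClosure ℚ)
      (F := ↥(ModularCurve.modularFunctionFieldBar N))],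
    (AlgebraicCurve.genus (AlgebraicClosure ℚ) ↥(ModularCurve.modularFunctionFieldBar N) : ℚ)
      = ModularCurve.genusFormula N

end Fermat.Agent.S24.helper24
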