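import Mathlib
import Fermat.Prelude.Def_AlgebraicCurve_DivisorClassGroup

/-!
# S24, module FF-A1/A2/A3: places of a function field over an algebraically closed field

Generic function-field algebra (no modular input).  `K` is algebraically closed of
characteristic zero, `x : F` is transcendental over `K` and `F` is finite over `K⟮x⟯`.

* `exists_finset_zeros`: the places with `0 < ord (x - c)` are finitely many and the orders
  sum to `[F : K(x)]`.
* `exists_finset_poles`: same for the poles of `x`.
* `place_center`, `place_deg_eq_one`, `hasPrincipalDivisors`.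
-/

set_option autoImplicit false

namespace Fermat.Agent.S24.helper204

open AlgebraicCurve IntermediateField IsDedekindDomain WithZero Polynomial

variable {K F : Type*} [Field K] [Field F] [Algebra K F]

/-- Membership in the valuation ring of a place in terms of `ord`. -/
theorem mem_of_ord_nonneg (v : Place K F) {f : F} (hf : 0 ≤ v.ord f) :
    f ∈ v.toValuationSubring := by
  rcases eq_or_ne f 0 with rfl | hf0
  · exact zero_mem _
  obtain ⟨π, hπ⟩ := IsDiscreteValuationRing.exists_irreducible v.toValuationSubring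
  obtain ⟨u, hu⟩ := v.exists_unit_mul_zpow hf0 hπ
  rw [hu]
  refine mul_mem u.1.2 ?_
  obtain ⟨n, hn⟩ := Int.eq_ofNat_of_zero_le hf
  rw [hn, zpow_natCast]
  exact pow_mem π.2 n

theorem ord_nonneg_of_mem (v : Place K F) {f : F} (hf : f ∈ v.toValuationSubring) :
    0 ≤ v.ord f := by
  have h := v.adicValuation_coe ⟨f, hf⟩
  have h1 := v.heightOneSpectrum.intValuation_le_one ⟨f, hf⟩
  rw [← h] at h1
  simp only [Place.ord]
  rcases eq_or_ne f 0 with rfl | hf0
  · simp
  have hne := v.adicValuation_ne_zero hf0
  have : log (v.adicValuation f) ≤ 0 := by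
    rw [log_le_iff_le_exp hne, exp_zero]
    exact h1
  omega

theorem ord_nonneg_iff (v : Place K F) {f : F} : 0 ≤ v.ord f ↔ f ∈ v.toValuationSubring :=
  ⟨mem_of_ord_nonneg v, ord_nonneg_of_mem v⟩

/-- A valuation subring contains everything integral over a subalgebra it contains. -/
theorem mem_of_isIntegral_of_le (O : ValuationSubring F) (S : Subalgebra K F)
    (hS : ∀ s ∈ S, s ∈ O) {b : F} (hb : IsIntegral S b) : b ∈ O := by
  letI : Algebra S O := RingHom.toAlgebra
    { toFun := fun s => ⟨s, hS s s.2⟩
      map_one' := rfl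
      map_mul' := fun _ _ => rfl
      map_zero' := rfl
      map_add' := fun _ _ => rfl }
  haveI : IsScalarTower S O F := IsScalarTower.of_algebraMap_eq (fun _ => rfl)
  have h : IsIntegral O b := hb.tower_top
  obtain ⟨y, hy⟩ := IsIntegrallyClosed.isIntegral_iff.mp h
  rw [← hy]
  exact y.2

section ofHeightOneSpectrum

variable {R : Type*} [CommRing R] [IsDedekindDomain R] [Algebra R F] [IsFractionRing R F]
  [Algebra K R] [IsScalarTower K R F]

/-- An element of valuation one is a unit of the valuation ring of the place. -/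
theorem ord_eq_zero_of_valuation_eq_one (w : HeightOneSpectrum R) {g : F}
    (hg : w.valuation F g = 1) : (Place.ofHeightOneSpectrum (K := K) (F := F) w).ord g = 0 := by
  set v := Place.ofHeightOneSpectrum (K := K) (F := F) w with hv
  have hg0 : g ≠ 0 := by
    rintro rfl
    simp at hg
  have h1 : g ∈ v.toValuationSubring := by
    rw [hv, Place.ofHeightOneSpectrum_toValuationSubring, Valuation.mem_valuationSubring_iff, hg]
  have h2 : g⁻¹ ∈ v.toValuationSubring := by
    rw [hv, Place.ofHeightOneSpectrum_toValuationSubring, Valuation.mem_valuationSubring_iff,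
      map_inv₀, hg, inv_one]
  let u : v.toValuationSubringˣ := ⟨⟨g, h1⟩, ⟨g⁻¹, h2⟩, by ext; simp [hg0], by ext; simp [hg0]⟩
  exact v.ord_coe_unit u

theorem ord_uniformizer_eq_one (w : HeightOneSpectrum R) {π : F}
    (hπ : w.valuation F π = exp (-1 : ℤ)) : (Place.ofHeightOneSpectrum (K := K) (F := F) w).ord π = 1 := by
  set v := Place.ofHeightOneSpectrum (K := K) (F := F) w with hv
  have hmem : ∀ a : F, a ∈ v.toValuationSubring ↔ w.valuation F a ≤ 1 := fun a => by
    rw [hv, Place.ofHeightOneSpectrum_toValuationSubring, Valuation.mem_valuationSubring_iff]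
  have hπ0 : π ≠ 0 := by
    rintro rfl
    rw [map_zero] at hπ
    exact exp_ne_zero hπ.symm
  have hπmem : π ∈ v.toValuationSubring := by
    rw [hmem, hπ, ← exp_zero, exp_le_exp]; norm_num
  have hirr : Irreducible (⟨π, hπmem⟩ : v.toValuationSubring) := by
    rw [IsDiscreteValuationRing.irreducible_iff_uniformizer]
    ext a
    rw [Ideal.mem_span_singleton, IsLocalRing.mem_maximalIdeal, mem_nonunits_iff]
    constructor
    · intro ha
      -- a is a nonunit, so valuation < 1
      have ha1 : w.valuation F (a : F) ≤ 1 := (hmem _).mp a.2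
      have ha2 : w.valuation F (a : F) ≠ 1 := by
        intro h
        apply ha
        have h2 : (a : F)⁻¹ ∈ v.toValuationSubring := by
          rw [hmem, map_inv₀, h, inv_one]
        have ha0 : (a : F) ≠ 0 := by
          intro h0; rw [h0] at h; simp at h
        exact ⟨⟨a, ⟨(a : F)⁻¹, h2⟩, by ext; simp [ha0], by ext; simp [ha0]⟩, rfl⟩
      have ha3 : w.valuation F (a : F) < 1 := lt_of_le_of_ne ha1 ha2
      have ha4 : w.valuation F (a : F) ≤ exp (-1 : ℤ) := by
        rcases eq_or_ne (w.valuation F (a : F)) 0 with h0 | h0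
        · rw [h0]; exact zero_le
        · rw [← log_le_iff_le_exp h0]
          have : log (w.valuation F (a : F)) < 0 := by
            rw [log_lt_iff_lt_exp h0, exp_zero]; exact ha3
          omega
      have hq : (a : F) / π ∈ v.toValuationSubring := by
        rw [hmem, map_div₀, hπ]
        exact div_le_one_of_le₀ ha4 zero_le
      exact ⟨⟨(a : F) / π, hq⟩, by ext; simp; field_simp⟩
    · rintro ⟨b, rfl⟩ hu
      obtain ⟨c, hc⟩ := hu.exists_right_inv
      have hb : w.valuation F (b : F) ≤ 1 := (hmem _).mp b.2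
      have hc' : w.valuation F (c : F) ≤ 1 := (hmem _).mp c.2
      have h1 : w.valuation F ((π : F) * b * c) = 1 := by
        have := congrArg (fun z : v.toValuationSubring => (z : F)) hc
        simp only [MulMemClass.coe_mul, OneMemClass.coe_one] at this
        rw [this, map_one]
      rw [map_mul, map_mul, hπ] at h1
      have h2 : exp (-1 : ℤ) * w.valuation F (b : F) * w.valuation F (c : F) ≤ exp (-1 : ℤ) := by
        calc exp (-1 : ℤ) * w.valuation F (b : F) * w.valuation F (c : F)
            ≤ exp (-1 : ℤ) * 1 * 1 := by gcongr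
          _ = exp (-1 : ℤ) := by simp
      rw [h1] at h2
      rw [← exp_zero, exp_le_exp] at h2
      omega
  exact v.ord_coe_irreducible hirr

/-- The order function of the place attached to a height-one prime is the additive form of the
adic valuation. -/
theorem ord_ofHeightOneSpectrum (w : HeightOneSpectrum R) (f : F) :
    (Place.ofHeightOneSpectrum (K := K) (F := F) w).ord f = -(log (w.valuation F f)) := by
  set v := Place.ofHeightOneSpectrum (K := K) (F := F) w with hv
  rcases eq_or_ne f 0 with rfl | hf
  · simp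
  obtain ⟨π, hπ⟩ := w.valuation_exists_uniformizer F
  have hπ0 : π ≠ 0 := by
    rintro rfl
    rw [map_zero] at hπ
    exact exp_ne_zero hπ.symm
  set n : ℤ := -(log (w.valuation F f)) with hn
  have hvf : w.valuation F f ≠ 0 := (Valuation.ne_zero_iff _).mpr hf
  set g : F := f * π ^ (-n) with hg
  have hg0 : g ≠ 0 := mul_ne_zero hf (zpow_ne_zero _ hπ0)
  have hvg0 : w.valuation F g ≠ 0 := (Valuation.ne_zero_iff _).mpr hg0
  have hvg : w.valuation F g = 1 := by
    have h1 : log (w.valuation F g) = 0 := by
      rw [hg, map_mul, map_zpow₀, log_mul hvf (zpow_ne_zero _ ((Valuation.ne_zero_iff _).mpr hπ0)),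
        log_zpow, hπ, log_exp]
      simp only [smul_eq_mul]
      omega
    rw [← exp_log hvg0, h1, exp_zero]
  have hfg : f = g * π ^ n := by
    rw [hg, mul_assoc, ← zpow_add₀ hπ0]
    simp
  have h1 := ord_eq_zero_of_valuation_eq_one (K := K) w hvg
  have h2 := ord_uniformizer_eq_one (K := K) w hπ
  rw [hfg, v.ord_mul hg0 (zpow_ne_zero _ hπ0), v.ord_zpow, h1, h2]
  ring

theorem ofHeightOneSpectrum_injective :
    Function.Injective (Place.ofHeightOneSpectrum (K := K) (F := F) (R := R)) := by
  intro w₁ w₂ h
  have h' := congrArg Place.toValuationSubring h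
  rw [Place.ofHeightOneSpectrum_toValuationSubring, Place.ofHeightOneSpectrum_toValuationSubring,
    ← Valuation.isEquiv_iff_valuationSubring] at h'
  exact HeightOneSpectrum.eq_of_valuation_isEquiv_valuation h'

/-- A place whose valuation ring contains `R` and whose maximal ideal meets `R` in the prime
`w` is the place attached to `w`. -/
theorem ofHeightOneSpectrum_eq_of_le (v : Place K F) (w : HeightOneSpectrum R)
    (hR : ∀ r : R, algebraMap R F r ∈ v.toValuationSubring)
    (hw : ∀ r : R, r ∉ w.asIdeal → (algebraMap R F r)⁻¹ ∈ v.toValuationSubring) :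
    Place.ofHeightOneSpectrum (K := K) (F := F) w = v := by
  apply Place.ext
  rw [Place.ofHeightOneSpectrum_toValuationSubring,
    ← HeightOneSpectrum.valuationSubringAtPrime_eq_valuationSubring]
  refine ValuationSubring.eq_of_le_of_ne_top _ ?_ v.ne_top'
  intro f hf
  rw [HeightOneSpectrum.valuationSubringAtPrime_eq_valuationSubring,
    Valuation.mem_valuationSubring_iff] at hf
  obtain ⟨n, d, hnd⟩ := w.exists_primeCompl_mul_eq_of_integer f hf
  have hd0 : algebraMap R F (d : R) ≠ 0 := by
    intro h0
    have := (FaithfulSMul.algebraMap_injective R F) (h0.trans (map_zero _).symm)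
    exact d.2 (this ▸ w.asIdeal.zero_mem)
  have : f = algebraMap R F n * (algebraMap R F (d : R))⁻¹ := by
    rw [← hnd, mul_assoc, mul_inv_cancel₀ hd0, mul_one]
  rw [this]
  exact mul_mem (hR n) (hw d d.2)

end ofHeightOneSpectrum

section BaseRing

variable (K) (x : F)

/-- The generator `x` as an element of `K[x]`. -/
def gen : Algebra.adjoin K {x} := ⟨x, Algebra.self_mem_adjoin_singleton K x⟩

@[simp] theorem coe_gen : ((gen K x : Algebra.adjoin K {x}) : F) = x := rfl

theorem aeval_gen_surjective :
    Function.Surjective (Polynomial.aeval (R := K) (gen K x)) := by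
  intro a
  have h : (a : F) ∈ (Polynomial.aeval (R := K) x).range := by
    rw [← Algebra.adjoin_singleton_eq_range_aeval]
    exact a.2
  obtain ⟨q, hq⟩ := h
  refine ⟨q, Subtype.ext ?_⟩
  rw [Polynomial.aeval_subalgebra_coe]
  exact hq

instance isPrincipalIdealRing_adjoin : IsPrincipalIdealRing (Algebra.adjoin K {x}) :=
  IsPrincipalIdealRing.of_surjective (Polynomial.aeval (R := K) (gen K x)).toRingHom
    (aeval_gen_surjective K x)

/-- The ideal `(x - c)` of `K[x]`. -/
def pc (c : K) : Ideal (Algebra.adjoin K {x}) :=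
  Ideal.span {gen K x - algebraMap K _ c}

variable {K x}

theorem sub_ne_zero_of_transcendental (hx : Transcendental K x) (c : K) :
    x - algebraMap K F c ≠ 0 := by
  intro h
  apply hx
  rw [sub_eq_zero] at h
  rw [h]
  exact isAlgebraic_algebraMap c

theorem pc_ne_bot (hx : Transcendental K x) (c : K) : pc K x c ≠ ⊥ := by
  rw [pc, Ne, Ideal.span_singleton_eq_bot]
  intro h
  apply sub_ne_zero_of_transcendental hx c
  have := congrArg (fun a : Algebra.adjoin K {x} => (a : F)) h
  simpa using this

theorem exists_eq_const_add_mul (c : K) (a : Algebra.adjoin K {x}) :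
    ∃ (k : K) (r : Algebra.adjoin K {x}),
      a = algebraMap K _ k + (gen K x - algebraMap K _ c) * r := by
  obtain ⟨q, rfl⟩ := aeval_gen_surjective K x a
  refine ⟨q.eval c, Polynomial.aeval (gen K x) (q /ₘ (X - C c)), ?_⟩
  have h := Polynomial.modByMonic_add_div q (X - C c)
  rw [Polynomial.modByMonic_X_sub_C_eq_C_eval] at h
  conv_lhs => rw [← h]
  simp [Polynomial.aeval_C]

theorem pc_isMaximal (hx : Transcendental K x) (c : K) : (pc K x c).IsMaximal := by
  have hinj : Function.Injective (Polynomial.aeval (R := K) x) :=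
    transcendental_iff_injective.mp hx
  rw [Ideal.isMaximal_iff]
  constructor
  · intro h1
    rw [pc, Ideal.mem_span_singleton'] at h1
    obtain ⟨r, hr⟩ := h1
    obtain ⟨q, rfl⟩ := aeval_gen_surjective K x r
    have h2 : Polynomial.aeval x (q * (X - C c)) = Polynomial.aeval x (1 : K[X]) := by
      have := congrArg (fun a : Algebra.adjoin K {x} => (a : F)) hr
      simp only [MulMemClass.coe_mul, Polynomial.aeval_subalgebra_coe, coe_gen,
        AddSubgroupClass.coe_sub, OneMemClass.coe_one] at this
      simpa using this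
    have h3 := hinj h2
    have h4 := congrArg (Polynomial.eval c) h3
    simp at h4
  · intro J a hJ ha haJ
    obtain ⟨k, r, hkr⟩ := exists_eq_const_add_mul c a
    have hmem : (gen K x - algebraMap K _ c) * r ∈ pc K x c :=
      Ideal.mul_mem_right _ _ (Ideal.subset_span rfl)
    have hk : k ≠ 0 := by
      rintro rfl
      apply ha
      rw [hkr, map_zero, zero_add]
      exact hmem
    have hkJ : algebraMap K (Algebra.adjoin K {x}) k ∈ J := by
      have : algebraMap K (Algebra.adjoin K {x}) k = a - (gen K x - algebraMap K _ c) * r := by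
        rw [hkr]; ring
      rw [this]
      exact J.sub_mem haJ (hJ hmem)
    have : (1 : Algebra.adjoin K {x}) = algebraMap K _ k⁻¹ * algebraMap K _ k := by
      rw [← map_mul, inv_mul_cancel₀ hk, map_one]
    rw [this]
    exact J.mul_mem_left _ hkJ

end BaseRing

section IntegralClosure

open scoped IntermediateField.algebraAdjoinAdjoin

variable (K) (x : F) [CharZero K] [FiniteDimensional K⟮x⟯ F]

instance isDedekindDomain_B : IsDedekindDomain (integralClosure (Algebra.adjoin K {x}) F) :=
  integralClosure.isDedekindDomain (Algebra.adjoin K {x}) K⟮x⟯ F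

instance finite_B : Module.Finite (Algebra.adjoin K {x}) (integralClosure (Algebra.adjoin K {x}) F) :=
  IsIntegralClosure.finite (Algebra.adjoin K {x}) K⟮x⟯ F _

omit [CharZero K] in
instance isFractionRing_B : IsFractionRing (integralClosure (Algebra.adjoin K {x}) F) F :=
  integralClosure.isFractionRing_of_finite_extension K⟮x⟯ F

variable {K x}

omit [CharZero K] [FiniteDimensional K⟮x⟯ F] in
/-- The valuation ring of a place at which `x` is integral contains `K[x]`. -/
theorem adjoin_le_of_mem (v : Place K F) (hxv : x ∈ v.toValuationSubring) :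
    ∀ a ∈ Algebra.adjoin K {x}, a ∈ v.toValuationSubring := by
  let Ov : Subalgebra K F :=
    { v.toValuationSubring.toSubring with
      algebraMap_mem' := v.algebraMap_mem' }
  have h : Algebra.adjoin K {x} ≤ Ov := Algebra.adjoin_le (Set.singleton_subset_iff.mpr hxv)
  exact fun a ha => h ha

omit [CharZero K] [FiniteDimensional K⟮x⟯ F] in
theorem integralClosure_le_of_mem (v : Place K F) (hxv : x ∈ v.toValuationSubring)
    (b : integralClosure (Algebra.adjoin K {x}) F) : (b : F) ∈ v.toValuationSubring :=
  mem_of_isIntegral_of_le v.toValuationSubring (Algebra.adjoin K {x}) (adjoin_le_of_mem v hxv) b.2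

theorem exists_heightOneSpectrum_of_ord_pos (hx : Transcendental K x)
    (c : K) (v : Place K F) (hv : 0 < v.ord (x - algebraMap K F c)) :
    ∃ w : HeightOneSpectrum (integralClosure (Algebra.adjoin K {x}) F),
      w.asIdeal.LiesOver (pc K x c) ∧ Place.ofHeightOneSpectrum (K := K) (F := F) w = v := by
  have hxc : x - algebraMap K F c ∈ v.toValuationSubring := mem_of_ord_nonneg v hv.le
  have hxv : x ∈ v.toValuationSubring := by
    have := add_mem hxc (v.algebraMap_mem' c)
    simpa using this
  -- the ring hom B → O_v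
  let φ : integralClosure (Algebra.adjoin K {x}) F →+* v.toValuationSubring :=
    { toFun := fun b => ⟨b, integralClosure_le_of_mem v hxv b⟩
      map_one' := rfl
      map_mul' := fun _ _ => rfl
      map_zero' := rfl
      map_add' := fun _ _ => rfl }
  let P : Ideal (integralClosure (Algebra.adjoin K {x}) F) :=
    Ideal.comap φ (IsLocalRing.maximalIdeal v.toValuationSubring)
  have hPprime : P.IsPrime := Ideal.comap_isPrime φ _
  -- the element x - c of B
  let xc : integralClosure (Algebra.adjoin K {x}) F :=
    algebraMap (Algebra.adjoin K {x}) _ (gen K x - algebraMap K _ c)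
  have hxc_coe : (xc : F) = x - algebraMap K F c := rfl
  have hxc_mem : xc ∈ P := by
    show φ xc ∈ IsLocalRing.maximalIdeal v.toValuationSubring
    rw [IsLocalRing.mem_maximalIdeal, mem_nonunits_iff]
    intro hu
    have h0 := v.ord_coe_unit hu.unit
    rw [IsUnit.unit_spec] at h0
    have : ((φ xc : v.toValuationSubring) : F) = x - algebraMap K F c := rfl
    rw [this] at h0
    omega
  have hxc_ne : xc ≠ 0 := by
    intro h0
    have := congrArg (fun b : integralClosure (Algebra.adjoin K {x}) F => (b : F)) h0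
    simp only [hxc_coe, ZeroMemClass.coe_zero] at this
    exact sub_ne_zero_of_transcendental hx c this
  have hPne : P ≠ ⊥ := fun h => hxc_ne (by rw [h] at hxc_mem; exact hxc_mem)
  let w : HeightOneSpectrum (integralClosure (Algebra.adjoin K {x}) F) := ⟨P, hPprime, hPne⟩
  refine ⟨w, ?_, ?_⟩
  · -- lies over
    constructor
    have hmax := pc_isMaximal hx c
    have hle : pc K x c ≤ P.under (Algebra.adjoin K {x}) := by
      rw [pc, Ideal.span_le, Set.singleton_subset_iff]
      exact hxc_mem
    have hne : P.under (Algebra.adjoin K {x}) ≠ ⊤ := by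
      have : (P.under (Algebra.adjoin K {x})).IsPrime := Ideal.IsPrime.under _ _
      exact this.ne_top
    exact hmax.eq_of_le hne hle
  · apply ofHeightOneSpectrum_eq_of_le
    · intro r
      exact integralClosure_le_of_mem v hxv r
    · intro r hr
      have hr' : ¬ (φ r ∈ IsLocalRing.maximalIdeal v.toValuationSubring) := hr
      rw [IsLocalRing.mem_maximalIdeal, mem_nonunits_iff, not_not] at hr'
      obtain ⟨u, hu⟩ := hr'
      have h1 : ((u⁻¹ : v.toValuationSubringˣ) : v.toValuationSubring) * φ r = 1 := by
        rw [← hu]; simp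
      have h2 := congrArg (fun z : v.toValuationSubring => (z : F)) h1
      simp only [MulMemClass.coe_mul, OneMemClass.coe_one] at h2
      have h3 : ((φ r : v.toValuationSubring) : F) = algebraMap _ F r := rfl
      rw [h3] at h2
      have h4 : (algebraMap (integralClosure (Algebra.adjoin K {x}) F) F r)⁻¹
          = ((u⁻¹ : v.toValuationSubringˣ) : v.toValuationSubring) :=
        (eq_inv_of_mul_eq_one_left h2).symm
      rw [h4]
      exact SetLike.coe_mem _

/-- The order of `x - c` at the place of a prime is the ramification index. -/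
theorem ord_ofHeightOneSpectrum_eq_ramificationIdx (hx : Transcendental K x) (c : K)
    (w : HeightOneSpectrum (integralClosure (Algebra.adjoin K {x}) F)) :
    (Place.ofHeightOneSpectrum (K := K) (F := F) w).ord (x - algebraMap K F c)
      = ((pc K x c).ramificationIdx' w.asIdeal : ℤ) := by
  rw [ord_ofHeightOneSpectrum]
  have h1 : x - algebraMap K F c = algebraMap (integralClosure (Algebra.adjoin K {x}) F) F
      (algebraMap (Algebra.adjoin K {x}) _ (gen K x - algebraMap K _ c)) := rfl
  have hne : algebraMap (Algebra.adjoin K {x}) (integralClosure (Algebra.adjoin K {x}) F)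
      (gen K x - algebraMap K _ c) ≠ 0 := by
    intro h0
    have := congrArg (algebraMap (integralClosure (Algebra.adjoin K {x}) F) F) h0
    rw [← h1, map_zero] at this
    exact sub_ne_zero_of_transcendental hx c this
  have hmap : Ideal.map (algebraMap (Algebra.adjoin K {x}) (integralClosure (Algebra.adjoin K {x}) F))
      (pc K x c) = Ideal.span {algebraMap (Algebra.adjoin K {x}) _ (gen K x - algebraMap K _ c)} := by
    rw [pc, Ideal.map_span, Set.image_singleton]
  have hmap0 : Ideal.map (algebraMap (Algebra.adjoin K {x})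
      (integralClosure (Algebra.adjoin K {x}) F)) (pc K x c) ≠ ⊥ := by
    rw [hmap, Ne, Ideal.span_singleton_eq_bot]
    exact hne
  rw [h1, HeightOneSpectrum.valuation_of_algebraMap, w.intValuation_eq_exp_neg_multiplicity hne,
    log_exp, neg_neg, Ideal.IsDedekindDomain.ramificationIdx'_eq_multiplicity hmap0 w.isPrime, hmap]

omit [CharZero K] [FiniteDimensional K⟮x⟯ F] in
theorem inertiaDeg_eq_one [IsAlgClosed K] (hx : Transcendental K x) (c : K)
    (P : Ideal (integralClosure (Algebra.adjoin K {x}) F)) [P.IsPrime] [P.LiesOver (pc K x c)] :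
    (pc K x c).inertiaDeg' P = 1 := by
  haveI := pc_isMaximal hx c
  rw [Ideal.inertiaDeg'_algebraMap]
  have hsurj : Function.Surjective (algebraMap K (Algebra.adjoin K {x} ⧸ pc K x c)) := by
    intro y
    obtain ⟨a, rfl⟩ := Ideal.Quotient.mk_surjective y
    obtain ⟨k, r, hkr⟩ := exists_eq_const_add_mul c a
    refine ⟨k, ?_⟩
    rw [hkr, map_add, map_mul]
    have : Ideal.Quotient.mk (pc K x c) (gen K x - algebraMap K _ c) = 0 :=
      Ideal.Quotient.eq_zero_iff_mem.mpr (Ideal.subset_span rfl)
    rw [this, zero_mul, add_zero]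
    rfl
  haveI : Algebra.IsIntegral K (Algebra.adjoin K {x} ⧸ pc K x c) :=
    Algebra.isIntegral_of_surjective hsurj
  haveI : Algebra.IsIntegral K (integralClosure (Algebra.adjoin K {x}) F ⧸ P) :=
    Algebra.IsIntegral.trans (R := K) (A := Algebra.adjoin K {x} ⧸ pc K x c)
  have hbij := IsAlgClosed.algebraMap_bijective_of_isIntegral (k := K)
    (K := integralClosure (Algebra.adjoin K {x}) F ⧸ P)
  have hbij2 : Function.Bijective (Algebra.linearMap (Algebra.adjoin K {x} ⧸ pc K x c)
      (integralClosure (Algebra.adjoin K {x}) F ⧸ P)) := by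
    constructor
    · exact FaithfulSMul.algebraMap_injective _ _
    · intro y
      obtain ⟨k, hk⟩ := hbij.2 y
      refine ⟨algebraMap K _ k, ?_⟩
      rw [Algebra.linearMap_apply, ← IsScalarTower.algebraMap_apply]
      exact hk
  have e := LinearEquiv.ofBijective (Algebra.linearMap (Algebra.adjoin K {x} ⧸ pc K x c)
      (integralClosure (Algebra.adjoin K {x}) F ⧸ P)) hbij2
  exact e.finrank_eq.symm.trans (Module.finrank_self _)

/-- (FF-A1) zeros of `x - c`: finitely many, and the orders sum to the degree. -/
theorem exists_finset_zeros [IsAlgClosed K] (hx : Transcendental K x) (c : K) :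
    ∃ s : Finset (Place K F), (∀ v, v ∈ s ↔ 0 < v.ord (x - algebraMap K F c)) ∧
      ∑ v ∈ s, v.ord (x - algebraMap K F c) = Module.finrank K⟮x⟯ F := by
  classical
  haveI := pc_isMaximal hx c
  have hp0 := pc_ne_bot hx c
  set S := IsDedekindDomain.primesOverFinset (pc K x c)
    (integralClosure (Algebra.adjoin K {x}) F) with hSdef
  have hS : ∀ P ∈ S, P.IsPrime ∧ P.LiesOver (pc K x c) := fun P hP =>
    (IsDedekindDomain.mem_primesOverFinset_iff hp0 _).mp hP
  let g : {P // P ∈ S} → HeightOneSpectrum (integralClosure (Algebra.adjoin K {x}) F) :=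
    fun P => ⟨P.1, (hS P.1 P.2).1,
      haveI := (hS P.1 P.2).2
      Ideal.ne_bot_of_liesOver_of_ne_bot hp0 P.1⟩
  have hg : Function.Injective g := by
    intro P Q h
    have := congrArg HeightOneSpectrum.asIdeal h
    exact Subtype.ext this
  let pl : {P // P ∈ S} → Place K F := fun P => Place.ofHeightOneSpectrum (K := K) (F := F) (g P)
  have hpl : Function.Injective pl := ofHeightOneSpectrum_injective.comp hg
  refine ⟨S.attach.image pl, ?_, ?_⟩
  · intro v
    rw [Finset.mem_image]
    constructor
    · rintro ⟨P, -, rfl⟩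
      show 0 < (Place.ofHeightOneSpectrum (K := K) (F := F) (g P)).ord (x - algebraMap K F c)
      rw [ord_ofHeightOneSpectrum_eq_ramificationIdx hx c]
      have hmap0 : Ideal.map (algebraMap (Algebra.adjoin K {x})
          (integralClosure (Algebra.adjoin K {x}) F)) (pc K x c) ≠ ⊥ := by
        rw [Ne, Ideal.map_eq_bot_iff_of_injective (FaithfulSMul.algebraMap_injective _ _)]
        exact hp0
      haveI := (hS P.1 P.2).2
      have hle : Ideal.map (algebraMap (Algebra.adjoin K {x})
          (integralClosure (Algebra.adjoin K {x}) F)) (pc K x c) ≤ P.1 := by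
        rw [Ideal.map_le_iff_le_comap]
        exact le_of_eq (Ideal.over_def P.1 (pc K x c))
      have := Ideal.IsDedekindDomain.ramificationIdx'_ne_zero hmap0 (hS P.1 P.2).1 hle
      show (0 : ℤ) < ((pc K x c).ramificationIdx' (g P).asIdeal : ℤ)
      exact_mod_cast Nat.pos_of_ne_zero this
    · intro hv
      obtain ⟨w, hw1, hw2⟩ := exists_heightOneSpectrum_of_ord_pos hx c v hv
      have hwS : w.asIdeal ∈ S := (IsDedekindDomain.mem_primesOverFinset_iff hp0 _).mpr ⟨w.isPrime, hw1⟩
      refine ⟨⟨w.asIdeal, hwS⟩, Finset.mem_attach _ _, ?_⟩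
      rw [← hw2]
  · rw [Finset.sum_image (fun a _ b _ h => hpl h)]
    have h1 : ∀ P ∈ S.attach, (pl P).ord (x - algebraMap K F c)
        = (((pc K x c).ramificationIdx' P.1 * (pc K x c).inertiaDeg' P.1 : ℕ) : ℤ) := by
      intro P _
      haveI := (hS P.1 P.2).1
      haveI := (hS P.1 P.2).2
      rw [inertiaDeg_eq_one hx c P.1, mul_one]
      exact ord_ofHeightOneSpectrum_eq_ramificationIdx hx c (g P)
    rw [Finset.sum_congr rfl h1, Finset.sum_attach S
      (fun P => (((pc K x c).ramificationIdx' P * (pc K x c).inertiaDeg' P : ℕ) : ℤ)),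
      ← Nat.cast_sum]
    congr 1
    exact Ideal.sum_ramification_inertia (integralClosure (Algebra.adjoin K {x}) F) K⟮x⟯ F hp0

end IntegralClosure

theorem ord_algebraMap_eq_zero (v : Place K F) (k : K) : v.ord (algebraMap K F k) = 0 := by
  rcases eq_or_ne k 0 with rfl | hk
  · simp
  have h1 := ord_nonneg_of_mem v (v.algebraMap_mem' k)
  have h2 := ord_nonneg_of_mem v (v.algebraMap_mem' k⁻¹)
  rw [map_inv₀, v.ord_inv] at h2
  omega

theorem ord_pos_iff (v : Place K F) {f : F} :
    0 < v.ord f ↔ f ≠ 0 ∧ ∃ h : f ∈ v.toValuationSubring,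
      (⟨f, h⟩ : v.toValuationSubring) ∈ IsLocalRing.maximalIdeal v.toValuationSubring := by
  constructor
  · intro hf
    have hf0 : f ≠ 0 := by
      rintro rfl
      simp at hf
    refine ⟨hf0, mem_of_ord_nonneg v hf.le, ?_⟩
    rw [IsLocalRing.mem_maximalIdeal, mem_nonunits_iff]
    intro hu
    have h0 := v.ord_coe_unit hu.unit
    rw [IsUnit.unit_spec] at h0
    simp only at h0
    omega
  · rintro ⟨hf0, h, hmem⟩
    have h1 := ord_nonneg_of_mem v h
    rcases h1.lt_or_eq with h2 | h2
    · exact h2
    exfalso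
    obtain ⟨π, hπ⟩ := IsDiscreteValuationRing.exists_irreducible v.toValuationSubring
    obtain ⟨u, hu⟩ := v.exists_unit_mul_zpow hf0 hπ
    rw [← h2, zpow_zero, mul_one] at hu
    rw [IsLocalRing.mem_maximalIdeal, mem_nonunits_iff] at hmem
    apply hmem
    have : (⟨f, h⟩ : v.toValuationSubring) = u := Subtype.ext hu
    rw [this]
    exact u.isUnit

theorem ord_sub_pos (v : Place K F) {f g : F} (hf : 0 < v.ord f) (hg : 0 < v.ord g)
    (hfg : f - g ≠ 0) : 0 < v.ord (f - g) := by
  obtain ⟨-, hf1, hf2⟩ := (ord_pos_iff v).mp hf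
  obtain ⟨-, hg1, hg2⟩ := (ord_pos_iff v).mp hg
  refine (ord_pos_iff v).mpr ⟨hfg, sub_mem hf1 hg1, ?_⟩
  exact (IsLocalRing.maximalIdeal v.toValuationSubring).sub_mem hf2 hg2

/-- A valuation subring contains everything integral over a ring whose image it contains. -/
theorem mem_of_isIntegral_of_range_le (O : ValuationSubring F) {S : Type*} [CommRing S]
    [Algebra S F] (hS : ∀ s : S, algebraMap S F s ∈ O) {b : F} (hb : IsIntegral S b) : b ∈ O := by
  let _ : Algebra S O := RingHom.toAlgebra ((algebraMap S F).codRestrict O.toSubring hS)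
  have : IsScalarTower S O F := IsScalarTower.of_algebraMap_eq (fun _ => rfl)
  have h : IsIntegral O b := hb.tower_top
  obtain ⟨y, hy⟩ := IsIntegrallyClosed.isIntegral_iff.mp h
  rw [← hy]
  exact y.2

section Center

open scoped IntermediateField.algebraAdjoinAdjoin

variable {x : F}

theorem ord_prod_sub_eq_zero (v : Place K F) (hx : Transcendental K x)
    (h0 : ∀ c : K, v.ord (x - algebraMap K F c) = 0) (s : Multiset K) :
    (s.map (fun r => x - algebraMap K F r)).prod ≠ 0 ∧
      v.ord (s.map (fun r => x - algebraMap K F r)).prod = 0 := by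
  induction s using Multiset.induction_on with
  | empty => simp
  | cons a s ih =>
    rw [Multiset.map_cons, Multiset.prod_cons]
    have ha := sub_ne_zero_of_transcendental hx a
    refine ⟨mul_ne_zero ha ih.1, ?_⟩
    rw [v.ord_mul ha ih.1, h0 a, ih.2, add_zero]

theorem ord_aeval_eq_zero [IsAlgClosed K] (v : Place K F) (hx : Transcendental K x)
    (h0 : ∀ c : K, v.ord (x - algebraMap K F c) = 0) (q : K[X]) (hq : q ≠ 0) :
    v.ord (Polynomial.aeval x q) = 0 := by
  have hsplit := IsAlgClosed.splits q
  have hq' := hsplit.eq_prod_roots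
  have h1 : Polynomial.aeval x q = algebraMap K F q.leadingCoeff *
      (q.roots.map (fun r => x - algebraMap K F r)).prod := by
    conv_lhs => rw [hq']
    rw [map_mul, Polynomial.aeval_C, map_multiset_prod, Multiset.map_map]
    congr 2
    apply Multiset.map_congr rfl
    intro r _
    simp
  have hlc : algebraMap K F q.leadingCoeff ≠ 0 := by
    rw [Ne, map_eq_zero]
    exact Polynomial.leadingCoeff_ne_zero.mpr hq
  obtain ⟨hp1, hp2⟩ := ord_prod_sub_eq_zero v hx h0 q.roots
  rw [h1, v.ord_mul hlc hp1, ord_algebraMap_eq_zero, hp2, add_zero]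

/-- (FF-A2') every place lies over a unique point of the `x`-line. -/
theorem place_center [IsAlgClosed K] (x : F) (hx : Transcendental K x)
    [FiniteDimensional K⟮x⟯ F] (v : Place K F) :
    v.ord x < 0 ∨ ∃! c : K, 0 < v.ord (x - algebraMap K F c) := by
  by_cases hneg : v.ord x < 0
  · exact Or.inl hneg
  right
  have hxv : x ∈ v.toValuationSubring := mem_of_ord_nonneg v (not_lt.mp hneg)
  have hex : ∃ c : K, 0 < v.ord (x - algebraMap K F c) := by
    by_contra hno
    simp only [not_exists, not_lt] at hno
    have h0 : ∀ c : K, v.ord (x - algebraMap K F c) = 0 := fun c =>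
      le_antisymm (hno c) (ord_nonneg_of_mem v (sub_mem hxv (v.algebraMap_mem' c)))
    -- every nonzero element of K[x] is a unit of O_v
    have hA : ∀ a : Algebra.adjoin K {x}, a ≠ 0 → ((a : F))⁻¹ ∈ v.toValuationSubring := by
      intro a ha
      obtain ⟨q, rfl⟩ := aeval_gen_surjective K x a
      have hq : q ≠ 0 := by
        rintro rfl
        simp at ha
      have : v.ord (Polynomial.aeval x q) = 0 := ord_aeval_eq_zero v hx h0 q hq
      apply mem_of_ord_nonneg
      rw [Polynomial.aeval_subalgebra_coe, coe_gen, v.ord_inv, this, neg_zero]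
    -- hence K(x) ⊆ O_v
    have hKx : ∀ y : K⟮x⟯, algebraMap K⟮x⟯ F y ∈ v.toValuationSubring := by
      intro y
      obtain ⟨a, b, hb, rfl⟩ := IsFractionRing.div_surjective (A := Algebra.adjoin K {x}) y
      have hb0 : b ≠ 0 := nonZeroDivisors.ne_zero hb
      have : algebraMap K⟮x⟯ F (algebraMap (Algebra.adjoin K {x}) K⟮x⟯ a /
          algebraMap (Algebra.adjoin K {x}) K⟮x⟯ b) = (a : F) * ((b : F))⁻¹ := by
        rw [map_div₀, div_eq_mul_inv]
        rfl
      rw [this]
      exact mul_mem (adjoin_le_of_mem v hxv a a.2) (hA b hb0)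
    apply v.ne_top'
    rw [eq_top_iff]
    intro b _
    exact mem_of_isIntegral_of_range_le v.toValuationSubring hKx
      (Algebra.IsIntegral.isIntegral (R := K⟮x⟯) b)
  obtain ⟨c, hc⟩ := hex
  refine ⟨c, hc, ?_⟩
  intro c' hc'
  by_contra hne
  have hsub : (x - algebraMap K F c) - (x - algebraMap K F c') = algebraMap K F (c' - c) := by
    rw [map_sub]; ring
  have hne' : (x - algebraMap K F c) - (x - algebraMap K F c') ≠ 0 := by
    rw [hsub, Ne, map_eq_zero, sub_eq_zero]
    exact hne
  have := ord_sub_pos v hc hc' hne'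
  rw [hsub, ord_algebraMap_eq_zero] at this
  exact lt_irrefl _ this

end Center

section Degree

variable {R : Type*} [CommRing R] [IsDedekindDomain R] [Algebra R F] [IsFractionRing R F]
  [Algebra K R] [IsScalarTower K R F]

theorem mem_maximalIdeal_of_valuation_lt_one (w : HeightOneSpectrum R)
    (a : (Place.ofHeightOneSpectrum (K := K) (F := F) w).toValuationSubring)
    (ha : w.valuation F (a : F) < 1) :
    a ∈ IsLocalRing.maximalIdeal (Place.ofHeightOneSpectrum (K := K) (F := F) w).toValuationSubring := by
  rw [IsLocalRing.mem_maximalIdeal, mem_nonunits_iff]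
  intro hu
  obtain ⟨b, hb⟩ := hu.exists_right_inv
  have hb1 : w.valuation F (b : F) ≤ 1 := b.2
  have h1 : w.valuation F ((a : F) * (b : F)) = 1 := by
    have := congrArg (fun z : (Place.ofHeightOneSpectrum (K := K) (F := F) w).toValuationSubring =>
      (z : F)) hb
    simp only [MulMemClass.coe_mul, OneMemClass.coe_one] at this
    rw [this, map_one]
  rw [map_mul] at h1
  have h2 : w.valuation F (a : F) * w.valuation F (b : F) < 1 := by
    calc w.valuation F (a : F) * w.valuation F (b : F)
        ≤ w.valuation F (a : F) * 1 := by gcongr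
      _ = w.valuation F (a : F) := mul_one _
      _ < 1 := ha
  exact absurd h1 h2.ne

/-- If the residue field of `R` at `w` is `K`, the place attached to `w` has degree one. -/
theorem deg_ofHeightOneSpectrum_eq_one (w : HeightOneSpectrum R)
    (hsurj : Function.Surjective (algebraMap K (R ⧸ w.asIdeal))) :
    (Place.ofHeightOneSpectrum (K := K) (F := F) w).deg = 1 := by
  set v := Place.ofHeightOneSpectrum (K := K) (F := F) w with hv
  -- elements of `R` reduce to constants
  have key : ∀ r : R, ∃ k : K, ∀ hr : algebraMap R F r ∈ v.toValuationSubring,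
      IsLocalRing.residue v.toValuationSubring ⟨algebraMap R F r, hr⟩
        = algebraMap K v.ResidueField k ∧ (k = 0 → r ∈ w.asIdeal) := by
    intro r
    obtain ⟨k, hk⟩ := hsurj (Ideal.Quotient.mk _ r)
    have hmem : r - algebraMap K R k ∈ w.asIdeal := by
      rw [← Ideal.Quotient.eq, ← hk]
      rfl
    refine ⟨k, fun hr => ⟨?_, ?_⟩⟩
    · have hlt : w.valuation F (algebraMap R F (r - algebraMap K R k)) < 1 :=
        (w.valuation_lt_one_iff_mem _).mpr hmem
      have hsub : algebraMap R F (r - algebraMap K R k) ∈ v.toValuationSubring :=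
        hlt.le
      have h1 := mem_maximalIdeal_of_valuation_lt_one (K := K) w ⟨_, hsub⟩ hlt
      rw [← IsLocalRing.residue_eq_zero_iff] at h1
      have h2 : (⟨algebraMap R F (r - algebraMap K R k), hsub⟩ : v.toValuationSubring)
          = ⟨algebraMap R F r, hr⟩ - algebraMap K v.toValuationSubring k := by
        apply Subtype.ext
        simp only [map_sub, AddSubgroupClass.coe_sub, Place.coe_algebraMap]
        rw [← IsScalarTower.algebraMap_apply]
      rw [h2, map_sub, sub_eq_zero] at h1
      rw [h1]
      rfl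
    · rintro rfl
      simpa using hmem
  rw [Place.deg, finrank_eq_one_iff_of_nonzero' (1 : v.ResidueField) one_ne_zero]
  intro y
  obtain ⟨t, rfl⟩ := IsLocalRing.residue_surjective y
  have ht : w.valuation F (t : F) ≤ 1 := t.2
  obtain ⟨n, d, hnd⟩ := w.exists_primeCompl_mul_eq_of_integer (t : F) ht
  have hn : algebraMap R F n ∈ v.toValuationSubring := w.valuation_le_one n
  have hd : algebraMap R F (d : R) ∈ v.toValuationSubring := w.valuation_le_one d
  obtain ⟨kn, hkn⟩ := key n
  obtain ⟨kd, hkd⟩ := key d
  have hkd0 : kd ≠ 0 := fun h0 => d.2 ((hkd hd).2 h0)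
  have hmul : t * ⟨algebraMap R F (d : R), hd⟩ = ⟨algebraMap R F n, hn⟩ := Subtype.ext hnd
  have hres := congrArg (IsLocalRing.residue v.toValuationSubring) hmul
  rw [map_mul, (hkn hn).1, (hkd hd).1] at hres
  refine ⟨kn / kd, ?_⟩
  rw [Algebra.smul_def, mul_one, map_div₀, div_eq_iff]
  · exact hres.symm
  · rw [Ne, map_eq_zero]
    exact hkd0

end Degree

section Main

open scoped IntermediateField.algebraAdjoinAdjoin

variable {x : F}

theorem algebraMap_quotient_surjective [IsAlgClosed K] (c : K)
    (P : Ideal (integralClosure (Algebra.adjoin K {x}) F)) [P.IsPrime] [P.LiesOver (pc K x c)] :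
    Function.Surjective (algebraMap K (integralClosure (Algebra.adjoin K {x}) F ⧸ P)) := by
  have hsurj : Function.Surjective (algebraMap K (Algebra.adjoin K {x} ⧸ pc K x c)) := by
    intro y
    obtain ⟨a, rfl⟩ := Ideal.Quotient.mk_surjective y
    obtain ⟨k, r, hkr⟩ := exists_eq_const_add_mul c a
    refine ⟨k, ?_⟩
    rw [hkr, map_add, map_mul]
    have : Ideal.Quotient.mk (pc K x c) (gen K x - algebraMap K _ c) = 0 :=
      Ideal.Quotient.eq_zero_iff_mem.mpr (Ideal.subset_span rfl)
    rw [this, zero_mul, add_zero]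
    rfl
  haveI : Algebra.IsIntegral K (Algebra.adjoin K {x} ⧸ pc K x c) :=
    Algebra.isIntegral_of_surjective hsurj
  haveI : Algebra.IsIntegral K (integralClosure (Algebra.adjoin K {x}) F ⧸ P) :=
    Algebra.IsIntegral.trans (R := K) (A := Algebra.adjoin K {x} ⧸ pc K x c)
  exact (IsAlgClosed.algebraMap_bijective_of_isIntegral (k := K)
    (K := integralClosure (Algebra.adjoin K {x}) F ⧸ P)).2

theorem deg_eq_one_of_ord_pos [IsAlgClosed K] [CharZero K] [FiniteDimensional K⟮x⟯ F]
    (hx : Transcendental K x) (c : K) (v : Place K F)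
    (hv : 0 < v.ord (x - algebraMap K F c)) : v.deg = 1 := by
  obtain ⟨w, hw1, hw2⟩ := exists_heightOneSpectrum_of_ord_pos hx c v hv
  rw [← hw2]
  haveI := w.isPrime
  exact deg_ofHeightOneSpectrum_eq_one w (algebraMap_quotient_surjective c w.asIdeal)

theorem transcendental_inv (hx : Transcendental K x) : Transcendental K x⁻¹ := fun h =>
  hx (by simpa using h.inv)

theorem adjoin_inv_eq (x : F) : K⟮x⁻¹⟯ = K⟮x⟯ := by
  apply le_antisymm
  · rw [adjoin_simple_le_iff]
    exact inv_mem (mem_adjoin_simple_self K x)
  · rw [adjoin_simple_le_iff]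
    have := inv_mem (mem_adjoin_simple_self K x⁻¹)
    rwa [inv_inv] at this

theorem finiteDimensional_adjoin_inv [FiniteDimensional K⟮x⟯ F] : FiniteDimensional K⟮x⁻¹⟯ F := by
  rw [adjoin_inv_eq]
  infer_instance

/-- (FF-A2) every place has degree one. -/
theorem place_deg_eq_one [IsAlgClosed K] [CharZero K] (x : F) (hx : Transcendental K x)
    [FiniteDimensional K⟮x⟯ F] (v : Place K F) : v.deg = 1 := by
  rcases place_center x hx v with hneg | ⟨c, hc, -⟩
  · haveI : FiniteDimensional K⟮x⁻¹⟯ F := finiteDimensional_adjoin_inv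
    apply deg_eq_one_of_ord_pos (x := x⁻¹) (transcendental_inv hx) 0 v
    rw [map_zero, sub_zero, v.ord_inv]
    omega
  · exact deg_eq_one_of_ord_pos hx c v hc

/-- (FF-A1∞) poles of `x`: finitely many, and the pole orders sum to the degree. -/
theorem exists_finset_poles [IsAlgClosed K] [CharZero K] (x : F) (hx : Transcendental K x)
    [FiniteDimensional K⟮x⟯ F] :
    ∃ s : Finset (Place K F), (∀ v, v ∈ s ↔ v.ord x < 0) ∧
      ∑ v ∈ s, -v.ord x = Module.finrank K⟮x⟯ F := by
  haveI : FiniteDimensional K⟮x⁻¹⟯ F := finiteDimensional_adjoin_inv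
  obtain ⟨s, hs1, hs2⟩ := exists_finset_zeros (x := x⁻¹) (transcendental_inv hx) 0
  have hfin : Module.finrank K⟮x⁻¹⟯ F = Module.finrank K⟮x⟯ F := by
    rw [adjoin_inv_eq]
  refine ⟨s, fun v => ?_, ?_⟩
  · rw [hs1 v, map_zero, sub_zero, v.ord_inv]
    omega
  · rw [← hfin, ← hs2]
    apply Finset.sum_congr rfl
    intro v _
    rw [map_zero, sub_zero, v.ord_inv]

/-- Exchange: if `F` is finite over `K(x)` and `f` is transcendental, `F` is finite over
`K(f)`. -/
theorem finiteDimensional_adjoin_of_transcendental [FiniteDimensional K⟮x⟯ F]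
    {f : F} (hf : Transcendental K f) : FiniteDimensional K⟮f⟯ F := by
  haveI : Algebra.IsAlgebraic (Algebra.adjoin K {x}) F :=
    Algebra.IsAlgebraic.trans (Algebra.adjoin K {x}) K⟮x⟯ F
  have h1 : Algebra.trdeg K F ≤ 1 := by
    have := Algebra.IsAlgebraic.trdeg_le_cardinalMk K ({x} : Set F)
    rwa [Cardinal.mk_singleton] at this
  haveI : Algebra.Transcendental K K⟮f⟯ := by
    refine ⟨⟨AdjoinSimple.gen K f, ?_⟩⟩
    rw [← transcendental_algebraMap_iff (FaithfulSMul.algebraMap_injective K⟮f⟯ F)]
    exact hf
  have h2 : 0 < Algebra.trdeg K K⟮f⟯ := trdeg_pos K K⟮f⟯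
  have h3 := trdeg_add_eq K K⟮f⟯ (A := F)
  have h4 : Algebra.trdeg K⟮f⟯ F = 0 := by
    by_contra hne
    have h5 : 1 ≤ Algebra.trdeg K⟮f⟯ F := Cardinal.one_le_iff_ne_zero.mpr hne
    have h6 : 1 ≤ Algebra.trdeg K K⟮f⟯ := Cardinal.one_le_iff_pos.mpr h2
    have h7 : (1 : Cardinal) + 1 ≤ 1 := by
      calc (1 : Cardinal) + 1 ≤ Algebra.trdeg K K⟮f⟯ + Algebra.trdeg K⟮f⟯ F := add_le_add h6 h5
        _ = Algebra.trdeg K F := h3
        _ ≤ 1 := h1
    rw [one_add_one_eq_two] at h7
    exact absurd h7 (not_le.mpr Cardinal.one_lt_two)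
  haveI : Algebra.IsAlgebraic K⟮f⟯ F := trdeg_eq_zero_iff.mp h4
  haveI : Algebra.EssFiniteType K K⟮x⟯ := by
    rw [IntermediateField.essFiniteType_iff]
    have := IntermediateField.fg_adjoin_finset (F := K) ({x} : Finset F)
    simpa using this
  haveI : Algebra.EssFiniteType K F := Algebra.EssFiniteType.comp K K⟮x⟯ F
  haveI : Algebra.EssFiniteType K⟮f⟯ F := Algebra.EssFiniteType.of_comp K K⟮f⟯ F
  exact Algebra.finite_of_essFiniteType_of_isAlgebraic

theorem transcendental_of_not_mem_range [IsAlgClosed K] {f : F}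
    (hf : f ∉ Set.range (algebraMap K F)) : Transcendental K f := by
  intro halg
  apply hf
  haveI : Algebra.IsAlgebraic K K⟮f⟯ := isAlgebraic_adjoin_simple halg.isIntegral
  have hbot := IntermediateField.eq_bot_of_isAlgClosed_of_isAlgebraic K⟮f⟯
  have hmem : f ∈ K⟮f⟯ := mem_adjoin_simple_self K f
  rw [hbot, IntermediateField.mem_bot] at hmem
  exact hmem

/-- (FF-A3) principal divisors exist and have degree zero. -/
theorem hasPrincipalDivisors [IsAlgClosed K] [CharZero K] (x : F) (hx : Transcendental K x)
    [FiniteDimensional K⟮x⟯ F] : HasPrincipalDivisors K F := by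
  classical
  refine ⟨fun f hf => ?_⟩
  by_cases hfK : f ∈ Set.range (algebraMap K F)
  · obtain ⟨k, rfl⟩ := hfK
    exact ⟨0, fun v => by rw [ord_algebraMap_eq_zero]; rfl, map_zero _⟩
  · have hft : Transcendental K f := transcendental_of_not_mem_range hfK
    haveI : FiniteDimensional K⟮f⟯ F := finiteDimensional_adjoin_of_transcendental (x := x) hft
    obtain ⟨s0, hs0, hsum0⟩ := exists_finset_zeros (x := f) hft 0
    obtain ⟨sI, hsI, hsumI⟩ := exists_finset_poles f hft
    simp only [map_zero, sub_zero] at hs0 hsum0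
    have hsupp : ∀ v : Place K F, v.ord f ≠ 0 → v ∈ s0 ∪ sI := by
      intro v hv
      rcases lt_trichotomy (v.ord f) 0 with h | h | h
      · exact Finset.mem_union_right _ ((hsI v).mpr h)
      · exact absurd h hv
      · exact Finset.mem_union_left _ ((hs0 v).mpr h)
    refine ⟨Finsupp.onFinset (s0 ∪ sI) (fun v => v.ord f) hsupp, fun v => rfl, ?_⟩
    have hdeg : ∀ v : Place K F, v.deg = 1 := place_deg_eq_one x hx
    have hdisj : Disjoint s0 sI := by
      rw [Finset.disjoint_left]
      intro v h0 hI
      have a := (hs0 v).mp h0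
      have b := (hsI v).mp hI
      omega
    rw [Divisor.degree, Finsupp.liftAddHom_apply, Finsupp.onFinset_sum]
    · simp only [AddMonoidHom.coe_mulRight, hdeg, Nat.cast_one, mul_one]
      rw [Finset.sum_union hdisj, hsum0]
      have : ∑ v ∈ sI, v.ord f = -(Module.finrank K⟮f⟯ F : ℤ) := by
        rw [← hsumI, Finset.sum_neg_distrib, neg_neg]
      rw [this]
      ring
    · intro v
      simp

end Main

end Fermat.Agent.S24.helper204
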