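/-
S24, MODULE M4-FIELD (helper1200).

The valued field at the cusp `i∞` inside a field of meromorphic functions on the upper half
plane, in the local parameter `t = exp (2πiτ/N)`.

Everything is generic in a commutative domain `R` with a ring hom `ev : R →+* (ℍ → ℂ)`
satisfying the identity-theorem hypothesis `hid` (an element whose function vanishes near `i∞`
is zero), and a fraction field `M` of `R`.  It is meant to be instantiated with `R` the ring of
holomorphic functions on `ℍ` and `M` its fraction field.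
-/
import Mathlib

set_option autoImplicit false
set_option linter.unusedSectionVars false

namespace Fermat.Agent.S24.helper1200

open Filter Topology UpperHalfPlane Complex

noncomputable section

/-- The local parameter `t = exp (2πiτ/N)` at the cusp `i∞`. -/
def cuspT (N : ℕ) (τ : ℍ) : ℂ := Function.Periodic.qParam (N : ℝ) (τ : ℂ)

theorem cuspT_ne_zero (N : ℕ) (τ : ℍ) : cuspT N τ ≠ 0 :=
  Function.Periodic.qParam_ne_zero _

theorem tendsto_cuspT (N : ℕ) [NeZero N] : Tendsto (cuspT N) atImInfty (𝓝[≠] 0) :=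
  (Function.Periodic.qParam_tendsto
    (Nat.cast_pos.mpr (NeZero.pos N))).comp tendsto_coe_atImInfty

/-- The primitive `N`-th root of unity `exp (2πi/N)`. -/
def cuspZeta (N : ℕ) : ℂ := Complex.exp (2 * Real.pi * Complex.I / N)

theorem cuspZeta_ne_zero (N : ℕ) : cuspZeta N ≠ 0 := Complex.exp_ne_zero _

theorem cuspZeta_isPrimitiveRoot (N : ℕ) [NeZero N] : IsPrimitiveRoot (cuspZeta N) N :=
  Complex.isPrimitiveRoot_exp N (NeZero.ne N)

theorem cuspT_vadd_one (N : ℕ) (τ : ℍ) :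
    cuspT N ((1 : ℝ) +ᵥ τ) = cuspZeta N * cuspT N τ := by
  unfold cuspT cuspZeta Function.Periodic.qParam
  rw [← Complex.exp_add]
  congr 1
  rw [UpperHalfPlane.coe_vadd]
  push_cast
  ring

theorem tendsto_vadd_atImInfty (r : ℝ) :
    Tendsto (fun τ : ℍ => r +ᵥ τ) atImInfty atImInfty := by
  unfold atImInfty
  rw [tendsto_comap_iff]
  have : (UpperHalfPlane.im ∘ fun τ : ℍ => r +ᵥ τ) = UpperHalfPlane.im := by
    funext τ
    simp [UpperHalfPlane.vadd_im]
  rw [this]
  exact tendsto_comap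

section Generic

variable {R : Type*} [CommRing R] [IsDomain R] (ev : R →+* (ℍ → ℂ))
  (M : Type*) [Field M] [Algebra R M] [IsFractionRing R M] (N : ℕ)

/-- `H` is a germ at `t = 0` of the element `x` of `M = Frac R`: `x = a / b` with
`a τ = H (t τ) * b τ` for `Im τ` large, `H` meromorphic at `0`. -/
def IsCuspGerm (x : M) (H : ℂ → ℂ) : Prop :=
  MeromorphicAt H 0 ∧ ∃ a b : R, b ≠ 0 ∧ algebraMap R M a = x * algebraMap R M b ∧
    ∀ᶠ τ in atImInfty, ev a τ = H (cuspT N τ) * ev b τ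

variable {ev M N}

theorem IsCuspGerm.meromorphicAt {x : M} {H : ℂ → ℂ} (h : IsCuspGerm ev M N x H) :
    MeromorphicAt H 0 := h.1

theorem isCuspGerm_algebraMap {a : R} {H : ℂ → ℂ} (hH : MeromorphicAt H 0)
    (h : ∀ᶠ τ in atImInfty, ev a τ = H (cuspT N τ)) :
    IsCuspGerm ev M N (algebraMap R M a) H := by
  refine ⟨hH, a, 1, one_ne_zero, by simp, ?_⟩
  filter_upwards [h] with τ hτ
  simp [hτ]

theorem isCuspGerm_zero : IsCuspGerm ev M N (0 : M) (fun _ => 0) := by
  have h := isCuspGerm_algebraMap (ev := ev) (M := M) (N := N) (a := 0) (H := fun _ => 0)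
    (MeromorphicAt.const 0 0) (by simp)
  simpa using h

theorem isCuspGerm_one : IsCuspGerm ev M N (1 : M) (fun _ => 1) := by
  have h := isCuspGerm_algebraMap (ev := ev) (M := M) (N := N) (a := 1) (H := fun _ => 1)
    (MeromorphicAt.const 1 0) (by simp)
  simpa using h

theorem IsCuspGerm.add {x y : M} {H H' : ℂ → ℂ} (hx : IsCuspGerm ev M N x H)
    (hy : IsCuspGerm ev M N y H') : IsCuspGerm ev M N (x + y) (H + H') := by
  obtain ⟨hH, a, b, hb, hab, hev⟩ := hx
  obtain ⟨hH', a', b', hb', hab', hev'⟩ := hy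
  refine ⟨hH.add hH', a * b' + a' * b, b * b', mul_ne_zero hb hb', ?_, ?_⟩
  · simp only [map_add, map_mul, hab, hab']
    ring
  · filter_upwards [hev, hev'] with τ h1 h2
    simp only [map_add, map_mul, Pi.add_apply, Pi.mul_apply, h1, h2]
    ring

theorem IsCuspGerm.mul {x y : M} {H H' : ℂ → ℂ} (hx : IsCuspGerm ev M N x H)
    (hy : IsCuspGerm ev M N y H') : IsCuspGerm ev M N (x * y) (H * H') := by
  obtain ⟨hH, a, b, hb, hab, hev⟩ := hx
  obtain ⟨hH', a', b', hb', hab', hev'⟩ := hy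
  refine ⟨hH.mul hH', a * a', b * b', mul_ne_zero hb hb', ?_, ?_⟩
  · simp only [map_mul, hab, hab']
    ring
  · filter_upwards [hev, hev'] with τ h1 h2
    simp only [map_mul, Pi.mul_apply, h1, h2]
    ring

theorem IsCuspGerm.neg {x : M} {H : ℂ → ℂ} (hx : IsCuspGerm ev M N x H) :
    IsCuspGerm ev M N (-x) (-H) := by
  obtain ⟨hH, a, b, hb, hab, hev⟩ := hx
  refine ⟨hH.neg, -a, b, hb, ?_, ?_⟩
  · simp only [map_neg, hab]
    ring
  · filter_upwards [hev] with τ h1
    simp only [map_neg, Pi.neg_apply, h1]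
    ring

theorem IsCuspGerm.sub {x y : M} {H H' : ℂ → ℂ} (hx : IsCuspGerm ev M N x H)
    (hy : IsCuspGerm ev M N y H') : IsCuspGerm ev M N (x - y) (H - H') := by
  simpa [sub_eq_add_neg] using hx.add hy.neg

theorem IsCuspGerm.congr {x : M} {H H' : ℂ → ℂ} [NeZero N] (hx : IsCuspGerm ev M N x H)
    (hH' : H =ᶠ[𝓝[≠] 0] H') : IsCuspGerm ev M N x H' := by
  obtain ⟨hH, a, b, hb, hab, hev⟩ := hx
  refine ⟨hH.congr hH', a, b, hb, hab, ?_⟩
  filter_upwards [hev, (tendsto_cuspT N).eventually hH'] with τ h1 h2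
  rw [h1, h2]

/-- The identity-theorem hypothesis on `(R, ev)`. -/
def IdentityAtCusp (ev : R →+* (ℍ → ℂ)) : Prop :=
  ∀ c : R, (∀ᶠ τ in atImInfty, ev c τ = 0) → c = 0

theorem IsCuspGerm.eventually_eq_zero [NeZero N] (hid : IdentityAtCusp ev) {H : ℂ → ℂ}
    (h : IsCuspGerm ev M N (0 : M) H) : ∀ᶠ t in 𝓝[≠] (0 : ℂ), H t = 0 := by
  obtain ⟨hH, a, b, hb, hab, hev⟩ := h
  have ha : a = 0 := by
    apply IsFractionRing.injective R M
    simpa using hab
  subst ha
  rcases hH.eventually_eq_zero_or_eventually_ne_zero with h1 | h2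
  · exact h1
  · exfalso
    apply hb
    apply hid
    filter_upwards [hev, (tendsto_cuspT N).eventually h2] with τ h3 h4
    simp only [map_zero, Pi.zero_apply] at h3
    rcases mul_eq_zero.mp h3.symm with h5 | h5
    · exact absurd h5 h4
    · exact h5

/-- Uniqueness of the germ. -/
theorem IsCuspGerm.eventuallyEq [NeZero N] (hid : IdentityAtCusp ev) {x : M} {H H' : ℂ → ℂ}
    (h : IsCuspGerm ev M N x H) (h' : IsCuspGerm ev M N x H') : H =ᶠ[𝓝[≠] 0] H' := by
  have h0 : IsCuspGerm ev M N (0 : M) (H - H') := by simpa using h.sub h'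
  filter_upwards [h0.eventually_eq_zero hid] with t ht
  simpa [sub_eq_zero] using ht

theorem IsCuspGerm.eq_zero_iff [NeZero N] (hid : IdentityAtCusp ev) {x : M} {H : ℂ → ℂ}
    (h : IsCuspGerm ev M N x H) : x = 0 ↔ ∀ᶠ t in 𝓝[≠] (0 : ℂ), H t = 0 := by
  constructor
  · rintro rfl
    exact h.eventually_eq_zero hid
  · intro h0
    obtain ⟨hH, a, b, hb, hab, hev⟩ := h
    have ha : a = 0 := by
      apply hid
      filter_upwards [hev, (tendsto_cuspT N).eventually h0] with τ h1 h2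
      rw [h1, h2, zero_mul]
    subst ha
    have hb' : algebraMap R M b ≠ 0 := fun hb0 => hb (IsFractionRing.injective R M (by simpa using hb0))
    rw [map_zero] at hab
    rcases mul_eq_zero.mp hab.symm with h5 | h5
    · exact h5
    · exact absurd h5 hb'

theorem IsCuspGerm.inv [NeZero N] (hid : IdentityAtCusp ev) {x : M} {H : ℂ → ℂ}
    (hx : IsCuspGerm ev M N x H) : IsCuspGerm ev M N x⁻¹ H⁻¹ := by
  by_cases hx0 : x = 0
  · subst hx0
    have h0 := hx.eventually_eq_zero hid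
    rw [inv_zero]
    refine (isCuspGerm_zero (ev := ev) (M := M) (N := N)).congr ?_
    filter_upwards [h0] with t ht
    simp [ht]
  · have hne : ∀ᶠ t in 𝓝[≠] (0 : ℂ), H t ≠ 0 := by
      rcases hx.meromorphicAt.eventually_eq_zero_or_eventually_ne_zero with h1 | h2
      · exact absurd ((hx.eq_zero_iff hid).mpr h1) hx0
      · exact h2
    obtain ⟨hH, a, b, hb, hab, hev⟩ := hx
    have hb' : algebraMap R M b ≠ 0 :=
      fun hb0 => hb (IsFractionRing.injective R M (by simpa using hb0))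
    have ha : a ≠ 0 := by
      rintro rfl
      rw [map_zero] at hab
      rcases mul_eq_zero.mp hab.symm with h5 | h5
      · exact hx0 h5
      · exact hb' h5
    refine ⟨hH.inv, b, a, ha, ?_, ?_⟩
    · rw [hab]
      field_simp
    · filter_upwards [hev, (tendsto_cuspT N).eventually hne] with τ h1 h2
      rw [h1, Pi.inv_apply]
      field_simp

theorem IsCuspGerm.div [NeZero N] (hid : IdentityAtCusp ev) {x y : M} {H H' : ℂ → ℂ}
    (hx : IsCuspGerm ev M N x H) (hy : IsCuspGerm ev M N y H') :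
    IsCuspGerm ev M N (x / y) (H / H') := by
  simpa [div_eq_mul_inv] using hx.mul (hy.inv hid)

variable (ev M N) in
/-- The subfield of `M` of elements having a germ at the cusp. -/
def cuspField [NeZero N] (hid : IdentityAtCusp ev) : Subfield M where
  carrier := {x | ∃ H, IsCuspGerm ev M N x H}
  mul_mem' := by
    rintro x y ⟨H, hH⟩ ⟨H', hH'⟩
    exact ⟨_, hH.mul hH'⟩
  one_mem' := ⟨_, isCuspGerm_one⟩
  add_mem' := by
    rintro x y ⟨H, hH⟩ ⟨H', hH'⟩
    exact ⟨_, hH.add hH'⟩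
  zero_mem' := ⟨_, isCuspGerm_zero⟩
  neg_mem' := by
    rintro x ⟨H, hH⟩
    exact ⟨_, hH.neg⟩
  inv_mem' := by
    rintro x ⟨H, hH⟩
    exact ⟨_, hH.inv hid⟩

theorem mem_cuspField [NeZero N] (hid : IdentityAtCusp ev) {x : M} :
    x ∈ cuspField ev M N hid ↔ ∃ H, IsCuspGerm ev M N x H := Iff.rfl

variable (ev M N) in
/-- The order at the cusp (in the parameter `t`) of an element of `M`; junk value `⊤` if the
element has no germ. -/
def cuspOrd (x : M) : WithTop ℤ :=
  open Classical in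
  if h : ∃ H, IsCuspGerm ev M N x H then meromorphicOrderAt h.choose 0 else ⊤

theorem IsCuspGerm.cuspOrd_eq [NeZero N] (hid : IdentityAtCusp ev) {x : M} {H : ℂ → ℂ}
    (h : IsCuspGerm ev M N x H) : cuspOrd ev M N x = meromorphicOrderAt H 0 := by
  have hex : ∃ H, IsCuspGerm ev M N x H := ⟨H, h⟩
  rw [cuspOrd, dif_pos hex]
  exact meromorphicOrderAt_congr (hex.choose_spec.eventuallyEq hid h)

theorem cuspOrd_zero [NeZero N] (hid : IdentityAtCusp ev) : cuspOrd ev M N (0 : M) = ⊤ := by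
  rw [(isCuspGerm_zero (ev := ev) (M := M) (N := N)).cuspOrd_eq hid, meromorphicOrderAt_eq_top_iff]
  exact Eventually.of_forall fun _ => rfl

theorem IsCuspGerm.cuspOrd_eq_top_iff [NeZero N] (hid : IdentityAtCusp ev) {x : M} {H : ℂ → ℂ}
    (h : IsCuspGerm ev M N x H) : cuspOrd ev M N x = ⊤ ↔ x = 0 := by
  rw [h.cuspOrd_eq hid, meromorphicOrderAt_eq_top_iff, h.eq_zero_iff hid]

theorem cuspOrd_one [NeZero N] (hid : IdentityAtCusp ev) : cuspOrd ev M N (1 : M) = 0 := by
  rw [(isCuspGerm_one (ev := ev) (M := M) (N := N)).cuspOrd_eq hid]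
  have h := meromorphicOrderAt_const (𝕜 := ℂ) (0 : ℂ) (1 : ℂ)
  simpa using h

theorem IsCuspGerm.cuspOrd_mul [NeZero N] (hid : IdentityAtCusp ev) {x y : M} {H H' : ℂ → ℂ}
    (hx : IsCuspGerm ev M N x H) (hy : IsCuspGerm ev M N y H') :
    cuspOrd ev M N (x * y) = cuspOrd ev M N x + cuspOrd ev M N y := by
  rw [(hx.mul hy).cuspOrd_eq hid, hx.cuspOrd_eq hid, hy.cuspOrd_eq hid,
    meromorphicOrderAt_mul hx.meromorphicAt hy.meromorphicAt]

theorem IsCuspGerm.cuspOrd_add [NeZero N] (hid : IdentityAtCusp ev) {x y : M} {H H' : ℂ → ℂ}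
    (hx : IsCuspGerm ev M N x H) (hy : IsCuspGerm ev M N y H') :
    min (cuspOrd ev M N x) (cuspOrd ev M N y) ≤ cuspOrd ev M N (x + y) := by
  rw [(hx.add hy).cuspOrd_eq hid, hx.cuspOrd_eq hid, hy.cuspOrd_eq hid]
  exact meromorphicOrderAt_add hx.meromorphicAt hy.meromorphicAt

variable (ev M N) in
/-- The order at the cusp as an additive valuation on `cuspField`. -/
def cuspVal [NeZero N] (hid : IdentityAtCusp ev) :
    AddValuation (cuspField ev M N hid) (WithTop ℤ) :=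
  AddValuation.of (fun x => cuspOrd ev M N (x : M)) (cuspOrd_zero hid) (cuspOrd_one hid)
    (fun x y => by
      obtain ⟨H, hH⟩ := x.2
      obtain ⟨H', hH'⟩ := y.2
      exact hH.cuspOrd_add hid hH')
    (fun x y => by
      obtain ⟨H, hH⟩ := x.2
      obtain ⟨H', hH'⟩ := y.2
      exact hH.cuspOrd_mul hid hH')

theorem cuspVal_apply [NeZero N] (hid : IdentityAtCusp ev) (x : cuspField ev M N hid) :
    cuspVal ev M N hid x = cuspOrd ev M N (x : M) := rfl

/-! ### Translations `τ ↦ c + τ` -/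

theorem IsCuspGerm.map_shift (c : ℝ) (ζ : ℂ) (hζ : ∀ τ : ℍ, cuspT N (c +ᵥ τ) = ζ * cuspT N τ)
    (s : R ≃+* R) (hs : ∀ (a : R) (τ : ℍ), ev (s a) τ = ev a (c +ᵥ τ))
    (σ : M ≃+* M) (hσ : ∀ a : R, σ (algebraMap R M a) = algebraMap R M (s a))
    {x : M} {H : ℂ → ℂ} (hx : IsCuspGerm ev M N x H) :
    IsCuspGerm ev M N (σ x) (fun t => H (ζ * t)) := by
  obtain ⟨hH, a, b, hb, hab, hev⟩ := hx
  refine ⟨?_, s a, s b, (map_ne_zero_iff s s.injective).mpr hb, ?_, ?_⟩
  · have h0 : MeromorphicAt H ((fun t : ℂ => ζ * t) 0) := by simpa using hH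
    exact h0.comp_analyticAt (by fun_prop)
  · rw [← hσ, ← hσ, hab, map_mul]
  · filter_upwards [(tendsto_vadd_atImInfty c).eventually hev] with τ h1
    rw [hs, hs, h1, hζ]

theorem meromorphicOrderAt_comp_mul_left (H : ℂ → ℂ) {ζ : ℂ} (hζ : ζ ≠ 0) :
    meromorphicOrderAt (fun t => H (ζ * t)) 0 = meromorphicOrderAt H 0 := by
  have h := meromorphicOrderAt_comp_of_deriv_ne_zero (f := H) (g := fun t : ℂ => ζ * t)
    (x := (0 : ℂ)) (by fun_prop) (by simpa using hζ)
  simpa [Function.comp_def] using h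

theorem IsCuspGerm.cuspOrd_map_shift [NeZero N] (hid : IdentityAtCusp ev)
    (c : ℝ) (ζ : ℂ) (hζ0 : ζ ≠ 0) (hζ : ∀ τ : ℍ, cuspT N (c +ᵥ τ) = ζ * cuspT N τ)
    (s : R ≃+* R) (hs : ∀ (a : R) (τ : ℍ), ev (s a) τ = ev a (c +ᵥ τ))
    (σ : M ≃+* M) (hσ : ∀ a : R, σ (algebraMap R M a) = algebraMap R M (s a))
    {x : M} {H : ℂ → ℂ} (hx : IsCuspGerm ev M N x H) :
    cuspOrd ev M N (σ x) = cuspOrd ev M N x := by
  rw [(hx.map_shift c ζ hζ s hs σ hσ).cuspOrd_eq hid, hx.cuspOrd_eq hid,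
    meromorphicOrderAt_comp_mul_left H hζ0]

theorem cuspT_vadd_neg_one (N : ℕ) (τ : ℍ) :
    cuspT N ((-1 : ℝ) +ᵥ τ) = (cuspZeta N)⁻¹ * cuspT N τ := by
  have h := cuspT_vadd_one N ((-1 : ℝ) +ᵥ τ)
  rw [vadd_vadd, add_neg_cancel, zero_vadd] at h
  rw [h, ← mul_assoc, inv_mul_cancel₀ (cuspZeta_ne_zero N), one_mul]

/-- Data of the translation `τ ↦ τ + 1` on `R` and `M`. -/
structure ShiftData (ev : R →+* (ℍ → ℂ)) (M : Type*) [Field M] [Algebra R M] where
  /-- the translation on `R` -/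
  s : R ≃+* R
  /-- the translation on `M` -/
  σ : M ≃+* M
  hs : ∀ (a : R) (τ : ℍ), ev (s a) τ = ev a ((1 : ℝ) +ᵥ τ)
  hσ : ∀ a : R, σ (algebraMap R M a) = algebraMap R M (s a)

theorem ShiftData.hs_symm (S : ShiftData ev M) (a : R) (τ : ℍ) :
    ev (S.s.symm a) τ = ev a ((-1 : ℝ) +ᵥ τ) := by
  have h := S.hs (S.s.symm a) ((-1 : ℝ) +ᵥ τ)
  rw [vadd_vadd, add_neg_cancel, zero_vadd, RingEquiv.apply_symm_apply] at h
  exact h.symm

theorem ShiftData.hσ_symm (S : ShiftData ev M) (a : R) :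
    S.σ.symm (algebraMap R M a) = algebraMap R M (S.s.symm a) := by
  rw [RingEquiv.symm_apply_eq, S.hσ, RingEquiv.apply_symm_apply]

theorem IsCuspGerm.sigma (S : ShiftData ev M) {x : M} {H : ℂ → ℂ}
    (hx : IsCuspGerm ev M N x H) :
    IsCuspGerm ev M N (S.σ x) (fun t => H (cuspZeta N * t)) :=
  hx.map_shift 1 _ (cuspT_vadd_one N) S.s S.hs S.σ S.hσ

theorem IsCuspGerm.sigma_symm (S : ShiftData ev M) {x : M} {H : ℂ → ℂ}
    (hx : IsCuspGerm ev M N x H) :
    IsCuspGerm ev M N (S.σ.symm x) (fun t => H ((cuspZeta N)⁻¹ * t)) :=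
  hx.map_shift (-1) _ (cuspT_vadd_neg_one N) S.s.symm S.hs_symm S.σ.symm S.hσ_symm

theorem IsCuspGerm.cuspOrd_sigma [NeZero N] (hid : IdentityAtCusp ev) (S : ShiftData ev M)
    {x : M} {H : ℂ → ℂ} (hx : IsCuspGerm ev M N x H) :
    cuspOrd ev M N (S.σ x) = cuspOrd ev M N x :=
  hx.cuspOrd_map_shift hid 1 _ (cuspZeta_ne_zero N) (cuspT_vadd_one N) S.s S.hs S.σ S.hσ

theorem IsCuspGerm.sigma_pow (S : ShiftData ev M) {x : M} {H : ℂ → ℂ}
    (hx : IsCuspGerm ev M N x H) (k : ℕ) :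
    IsCuspGerm ev M N ((S.σ ^ k) x) (fun t => H (cuspZeta N ^ k * t)) := by
  induction k with
  | zero => simpa using hx
  | succ k ih =>
    have h := ih.sigma S
    have e : (S.σ ^ (k + 1)) x = S.σ ((S.σ ^ k) x) := by
      rw [pow_succ']
      rfl
    rw [e]
    have e2 : (fun t => H (cuspZeta N ^ (k + 1) * t))
        = fun t => H (cuspZeta N ^ k * (cuspZeta N * t)) := by
      funext t
      congr 1
      ring
    rw [e2]
    exact h

/-! ### The divisibility property -/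

theorem tendsto_mul_left_nhdsNE {c : ℂ} (hc : c ≠ 0) :
    Tendsto (fun t : ℂ => c * t) (𝓝[≠] 0) (𝓝[≠] 0) := by
  apply tendsto_nhdsWithin_of_tendsto_nhds_of_eventually_within
  · have h : Tendsto (fun t : ℂ => c * t) (𝓝 0) (𝓝 (c * 0)) :=
      (continuous_const.mul continuous_id).tendsto 0
    rw [mul_zero] at h
    exact h.mono_left nhdsWithin_le_nhds
  · filter_upwards [self_mem_nhdsWithin] with t ht
    exact mul_ne_zero hc ht

/-- Core of `hdiv`: a germ invariant under `t ↦ c t` has order `n` with `c ^ n = 1`. -/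
theorem zpow_order_eq_one_of_invariant {H : ℂ → ℂ} (hH : MeromorphicAt H 0) {c : ℂ} (hc : c ≠ 0)
    (hinv : H =ᶠ[𝓝[≠] 0] fun t => H (c * t)) {n : ℤ}
    (hn : meromorphicOrderAt H 0 = n) : c ^ n = 1 := by
  obtain ⟨G, hG, hG0, hGeq⟩ := (meromorphicOrderAt_eq_int_iff hH).mp hn
  have h1 : ∀ᶠ t in 𝓝[≠] (0 : ℂ), G t = c ^ n * G (c * t) := by
    filter_upwards [hGeq, (tendsto_mul_left_nhdsNE hc).eventually hGeq, hinv,
      self_mem_nhdsWithin] with t h2 h3 h4 h5
    have ht : t ≠ 0 := h5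
    rw [h2, h3] at h4
    simp only [sub_zero, smul_eq_mul] at h4
    rw [mul_zpow] at h4
    have ht' : t ^ n ≠ 0 := zpow_ne_zero n ht
    have : t ^ n * G t = t ^ n * (c ^ n * G (c * t)) := by rw [h4]; ring
    exact mul_left_cancel₀ ht' this
  have hl1 : Tendsto G (𝓝[≠] 0) (𝓝 (G 0)) := hG.continuousAt.tendsto.mono_left nhdsWithin_le_nhds
  have hl2 : Tendsto (fun t => c ^ n * G (c * t)) (𝓝[≠] 0) (𝓝 (c ^ n * G 0)) := by
    apply Tendsto.const_mul
    exact (hG.continuousAt.tendsto.mono_left nhdsWithin_le_nhds).comp (tendsto_mul_left_nhdsNE hc)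
  have hl3 : Tendsto G (𝓝[≠] 0) (𝓝 (c ^ n * G 0)) := hl2.congr' (h1.mono fun t ht => ht.symm)
  have h := tendsto_nhds_unique hl1 hl3
  have h' : (c ^ n - 1) * G 0 = 0 := by rw [sub_mul, one_mul, ← h, sub_self]
  rcases mul_eq_zero.mp h' with h6 | h6
  · exact sub_eq_zero.mp h6
  · exact absurd h6 hG0

theorem dvd_of_dvd_mul_gcd {N k : ℕ} (hN : 0 < N) {n : ℤ} (h : (N : ℤ) ∣ (k : ℤ) * n) :
    ((N / Nat.gcd k N : ℕ) : ℤ) ∣ n := by
  have hg : 0 < Nat.gcd k N := Nat.gcd_pos_of_pos_right k hN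
  have hcop : Nat.Coprime (k / Nat.gcd k N) (N / Nat.gcd k N) := Nat.coprime_div_gcd_div_gcd hg
  have hN' : Nat.gcd k N * (N / Nat.gcd k N) = N := Nat.mul_div_cancel' (Nat.gcd_dvd_right k N)
  have hk' : Nat.gcd k N * (k / Nat.gcd k N) = k := Nat.mul_div_cancel' (Nat.gcd_dvd_left k N)
  generalize Nat.gcd k N = g at hg hcop hN' hk' ⊢
  generalize N / g = N' at hcop hN' ⊢
  generalize k / g = k' at hcop hk'
  have h2 : ((g : ℤ) * N') ∣ (g : ℤ) * (k' * n) := by
    have e1 : ((g : ℤ) * N') = N := by exact_mod_cast hN'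
    have e2 : (g : ℤ) * (k' * n) = (k : ℤ) * n := by
      have : (k : ℤ) = (g : ℤ) * k' := by exact_mod_cast hk'.symm
      rw [this]; ring
    rw [e1, e2]; exact h
  have h3 : (N' : ℤ) ∣ (k' : ℤ) * n :=
    (mul_dvd_mul_iff_left (by exact_mod_cast hg.ne')).mp h2
  have hcop' : IsCoprime (N' : ℤ) (k' : ℤ) := by
    rw [Int.isCoprime_iff_gcd_eq_one]
    simpa [Nat.coprime_comm] using hcop
  exact hcop'.dvd_of_dvd_mul_left h3

/-- The divisibility property `hdiv` at the cusp. -/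
theorem IsCuspGerm.exists_cuspOrd_eq_of_fixed [NeZero N] (hid : IdentityAtCusp ev)
    (S : ShiftData ev M) {x : M} {H : ℂ → ℂ} (hx : IsCuspGerm ev M N x H) (hx0 : x ≠ 0)
    (k : ℕ) (hk : (S.σ ^ k) x = x) :
    ∃ l : ℤ, cuspOrd ev M N x = (((N / Nat.gcd k N : ℕ) * l : ℤ) : WithTop ℤ) := by
  have hne : meromorphicOrderAt H 0 ≠ ⊤ := by
    rw [← hx.cuspOrd_eq hid]
    exact fun h => hx0 ((hx.cuspOrd_eq_top_iff hid).mp h)
  obtain ⟨n, hn⟩ := WithTop.ne_top_iff_exists.mp hne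
  have hinv : H =ᶠ[𝓝[≠] 0] fun t => H (cuspZeta N ^ k * t) := by
    have h := hx.sigma_pow S k
    rw [hk] at h
    exact hx.eventuallyEq hid h
  have h1 := zpow_order_eq_one_of_invariant hx.meromorphicAt
    (pow_ne_zero k (cuspZeta_ne_zero N)) hinv hn.symm
  rw [← zpow_natCast, ← zpow_mul, (cuspZeta_isPrimitiveRoot N).zpow_eq_one_iff_dvd] at h1
  obtain ⟨l, hl⟩ := dvd_of_dvd_mul_gcd (NeZero.pos N) h1
  refine ⟨l, ?_⟩
  rw [hx.cuspOrd_eq hid, ← hn, hl]

/-! ### Constants and the `K`-algebra structure -/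

theorem isCuspGerm_of_const {a : R} {c : ℂ} (h : ∀ τ, ev a τ = c) :
    IsCuspGerm ev M N (algebraMap R M a) (fun _ => c) :=
  isCuspGerm_algebraMap (MeromorphicAt.const c 0) (Eventually.of_forall h)

theorem ev_injective_of_identity [NeZero N] (hid : IdentityAtCusp ev) : Function.Injective ev := by
  intro a b hab
  have : a - b = 0 := by
    apply hid
    refine Eventually.of_forall fun τ => ?_
    rw [map_sub, hab, sub_self]
    rfl
  exact sub_eq_zero.mp this

variable (ev M) in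
/-- Every constant of `K` is (the class of) a constant function. -/
def ConstantsAreConst (K : Type*) [Field K] [Algebra K M] : Prop :=
  ∀ c : K, ∃ (a : R) (c' : ℂ), algebraMap K M c = algebraMap R M a ∧ ∀ τ, ev a τ = c'

section Packaging

variable {K : Type*} [Field K] [Algebra K M]

variable (ev M N) in
/-- The cusp field as an intermediate field of `M / K`. -/
def cuspIF [NeZero N] (hid : IdentityAtCusp ev) (hK : ConstantsAreConst ev M K) :
    IntermediateField K M :=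
  (cuspField ev M N hid).toIntermediateField (fun c => by
    obtain ⟨a, c', h1, h2⟩ := hK c
    rw [h1]
    exact ⟨_, isCuspGerm_of_const h2⟩)

theorem mem_cuspIF [NeZero N] (hid : IdentityAtCusp ev) (hK : ConstantsAreConst ev M K) {x : M} :
    x ∈ cuspIF ev M N hid hK ↔ ∃ H, IsCuspGerm ev M N x H := Iff.rfl

theorem cuspOrd_algebraMap [NeZero N] (hid : IdentityAtCusp ev) (hK : ConstantsAreConst ev M K)
    {c : K} (hc : c ≠ 0) : cuspOrd ev M N (algebraMap K M c) = 0 := by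
  obtain ⟨a, c', h1, h2⟩ := hK c
  have hc' : c' ≠ 0 := by
    rintro rfl
    have ha : a = 0 := hid a (Eventually.of_forall h2)
    rw [ha, map_zero] at h1
    exact hc ((map_eq_zero (algebraMap K M)).mp h1)
  rw [h1, (isCuspGerm_of_const (N := N) h2).cuspOrd_eq hid]
  have h := meromorphicOrderAt_const (𝕜 := ℂ) (0 : ℂ) c'
  simpa [hc'] using h

variable (ev M N) in
/-- The order at the cusp as an additive valuation on `cuspIF`. -/
def cuspValIF [NeZero N] (hid : IdentityAtCusp ev) (hK : ConstantsAreConst ev M K) :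
    AddValuation (cuspIF ev M N hid hK) (WithTop ℤ) :=
  AddValuation.of (fun x => cuspOrd ev M N (x : M)) (cuspOrd_zero hid) (cuspOrd_one hid)
    (fun x y => by
      obtain ⟨H, hH⟩ := x.2
      obtain ⟨H', hH'⟩ := y.2
      exact hH.cuspOrd_add hid hH')
    (fun x y => by
      obtain ⟨H, hH⟩ := x.2
      obtain ⟨H', hH'⟩ := y.2
      exact hH.cuspOrd_mul hid hH')

theorem cuspValIF_apply [NeZero N] (hid : IdentityAtCusp ev) (hK : ConstantsAreConst ev M K)
    (x : cuspIF ev M N hid hK) : cuspValIF ev M N hid hK x = cuspOrd ev M N (x : M) := rfl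

theorem ShiftData.sigma_algebraMap [NeZero N] (hid : IdentityAtCusp ev)
    (hK : ConstantsAreConst ev M K) (S : ShiftData ev M) (c : K) :
    S.σ (algebraMap K M c) = algebraMap K M c := by
  obtain ⟨a, c', h1, h2⟩ := hK c
  rw [h1, S.hσ]
  congr 1
  apply ev_injective_of_identity (N := N) hid
  funext τ
  rw [S.hs, h2, h2]

variable (ev M N) in
/-- The translation `τ ↦ τ + 1` as a `K`-automorphism of `cuspIF`. -/
def cuspSigmaIF [NeZero N] (hid : IdentityAtCusp ev) (hK : ConstantsAreConst ev M K)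
    (S : ShiftData ev M) : cuspIF ev M N hid hK ≃ₐ[K] cuspIF ev M N hid hK where
  toFun x := ⟨S.σ x, by
    obtain ⟨H, hH⟩ := x.2
    exact ⟨_, hH.sigma S⟩⟩
  invFun x := ⟨S.σ.symm x, by
    obtain ⟨H, hH⟩ := x.2
    exact ⟨_, hH.sigma_symm S⟩⟩
  left_inv x := Subtype.ext (S.σ.symm_apply_apply _)
  right_inv x := Subtype.ext (S.σ.apply_symm_apply _)
  map_mul' x y := Subtype.ext (map_mul S.σ _ _)
  map_add' x y := Subtype.ext (map_add S.σ _ _)
  commutes' c := Subtype.ext (S.sigma_algebraMap (N := N) hid hK c)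

theorem coe_cuspSigmaIF [NeZero N] (hid : IdentityAtCusp ev) (hK : ConstantsAreConst ev M K)
    (S : ShiftData ev M) (x : cuspIF ev M N hid hK) :
    ((cuspSigmaIF ev M N hid hK S x : cuspIF ev M N hid hK) : M) = S.σ (x : M) := rfl

theorem coe_cuspSigmaIF_pow [NeZero N] (hid : IdentityAtCusp ev) (hK : ConstantsAreConst ev M K)
    (S : ShiftData ev M) (k : ℕ) (x : cuspIF ev M N hid hK) :
    (((cuspSigmaIF ev M N hid hK S ^ k) x : cuspIF ev M N hid hK) : M) = (S.σ ^ k) (x : M) := by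
  induction k generalizing x with
  | zero => rfl
  | succ k ih =>
    rw [pow_succ, pow_succ]
    exact ih _

/-- Membership in the cusp field can be checked on field generators. -/
theorem forall_isCuspGerm_of_generators [NeZero N] (hid : IdentityAtCusp ev)
    (hK : ConstantsAreConst ev M K) {F : Type*} [Field F] [Algebra K F] (φ : F →ₐ[K] M)
    (G : Set F) (hG : IntermediateField.adjoin K G = ⊤)
    (h : ∀ f ∈ G, ∃ H, IsCuspGerm ev M N (φ f) H) (f : F) :
    ∃ H, IsCuspGerm ev M N (φ f) H := by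
  have hle : IntermediateField.adjoin K G ≤ (cuspIF ev M N hid hK).comap φ := by
    rw [IntermediateField.adjoin_le_iff]
    intro g hg
    exact h g hg
  rw [hG] at hle
  exact hle (IntermediateField.mem_top (x := f))

/-- **The local datum at the cusp**, in generic form: the hypotheses of orbit counting for the
embeddings `ι i : F →ₐ[K] M` whose images consist of elements with a germ at the cusp. -/
theorem exists_cusp_localDatum [NeZero N] (hid : IdentityAtCusp ev)
    (hK : ConstantsAreConst ev M K) (S : ShiftData ev M)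
    {F : Type*} [Field F] [Algebra K F] {X : Type*} (ι : X → (F →ₐ[K] M))
    (hι : Function.Injective ι) (hmem : ∀ i f, ∃ H, IsCuspGerm ev M N (ι i f) H)
    (y : F) (ξ : M) (hξ : ∀ i, ι i y = ξ) (Hξ : ℂ → ℂ) (hξH : IsCuspGerm ev M N ξ Hξ)
    (hord : meromorphicOrderAt Hξ 0 = ((N : ℤ) : WithTop ℤ))
    (ρ : X → X) (hρ : ∀ i f, S.σ (ι i f) = ι (ρ i) f) :
    ∃ (w : AddValuation (cuspIF ev M N hid hK) (WithTop ℤ))
      (ι' : X → (F →ₐ[K] cuspIF ev M N hid hK))
      (σ : cuspIF ev M N hid hK ≃ₐ[K] cuspIF ev M N hid hK) (ξ' : cuspIF ev M N hid hK),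
      (∀ a : K, a ≠ 0 → w (algebraMap K (cuspIF ev M N hid hK) a) = 0) ∧
      Function.Injective ι' ∧ (∀ i, ι' i y = ξ') ∧ w ξ' = ((N : ℤ) : WithTop ℤ) ∧
      (∀ z, w (σ z) = w z) ∧ (∀ i f, σ (ι' i f) = ι' (ρ i) f) ∧
      (∀ (k : ℕ) (z : cuspIF ev M N hid hK), z ≠ 0 → (σ ^ k) z = z →
        ∃ l : ℤ, w z = (((N / Nat.gcd k N : ℕ) * l : ℤ) : WithTop ℤ)) := by
  refine ⟨cuspValIF ev M N hid hK,
    fun i => (ι i).codRestrict (cuspIF ev M N hid hK).toSubalgebra (hmem i),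
    cuspSigmaIF ev M N hid hK S, ⟨ξ, Hξ, hξH⟩, ?_, ?_, ?_, ?_, ?_, ?_, ?_⟩
  · intro a ha
    exact cuspOrd_algebraMap hid hK ha
  · intro i i' hii'
    apply hι
    ext f
    have := congrArg (fun φ : F →ₐ[K] cuspIF ev M N hid hK => ((φ f : cuspIF ev M N hid hK) : M))
      hii'
    exact this
  · intro i
    exact Subtype.ext (hξ i)
  · rw [cuspValIF_apply]
    exact (hξH.cuspOrd_eq hid).trans hord
  · intro z
    obtain ⟨H, hH⟩ := z.2
    exact hH.cuspOrd_sigma hid S
  · intro i f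
    exact Subtype.ext (hρ i f)
  · intro k z hz hk
    obtain ⟨H, hH⟩ := z.2
    have hz' : (z : M) ≠ 0 := fun h => hz (Subtype.ext h)
    have hk' : (S.σ ^ k) (z : M) = z := by
      rw [← coe_cuspSigmaIF_pow hid hK S k z, hk]
    exact hH.exists_cuspOrd_eq_of_fixed hid S hz' k hk'

end Packaging

/-! ### Germs of functions of the form `Jc (ζ * t ^ k)` -/

theorem meromorphicAt_comp_mul_pow {Jc : ℂ → ℂ} (hJ : MeromorphicAt Jc 0) (ζ : ℂ) (k : ℕ)
    (hk : k ≠ 0) : MeromorphicAt (fun t => Jc (ζ * t ^ k)) 0 := by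
  have h0 : MeromorphicAt Jc ((fun t : ℂ => ζ * t ^ k) 0) := by simpa [hk] using hJ
  exact MeromorphicAt.comp_analyticAt (f := Jc) (g := fun t : ℂ => ζ * t ^ k) h0 (by fun_prop)

theorem meromorphicOrderAt_comp_pow {Jc : ℂ → ℂ} (hJ : MeromorphicAt Jc 0) (k : ℕ)
    (hk : k ≠ 0) :
    meromorphicOrderAt (fun t => Jc (t ^ k)) 0 = meromorphicOrderAt Jc 0 * ((k : ℤ) : WithTop ℤ) := by
  have h0 : MeromorphicAt Jc ((fun t : ℂ => t ^ k) 0) := by simpa [hk] using hJ
  have hg : AnalyticAt ℂ (fun t : ℂ => t ^ k) 0 := by fun_prop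
  have hord : analyticOrderAt (fun t : ℂ => (fun t : ℂ => t ^ k) t - (fun t : ℂ => t ^ k) 0) 0
      = k := by
    have : (fun t : ℂ => (fun t : ℂ => t ^ k) t - (fun t : ℂ => t ^ k) 0)
        = fun t : ℂ => (t - 0) ^ k := by
      funext t
      simp [hk]
    rw [this]
    exact analyticOrderAt_centeredMonomial
  have hnc : ¬ EventuallyConst (fun t : ℂ => t ^ k) (𝓝 0) := by
    rw [eventuallyConst_iff_analyticOrderAt_sub_eq_top, hord]
    exact ENat.natCast_ne_top k
  have h := MeromorphicAt.meromorphicOrderAt_comp (f := Jc) (g := fun t : ℂ => t ^ k)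
    (x := (0 : ℂ)) h0 hg hnc
  rw [hord] at h
  rw [zero_pow hk] at h
  rw [show (fun t => Jc (t ^ k)) = Jc ∘ fun t : ℂ => t ^ k from rfl, h]
  rfl

end Generic

end

end Fermat.Agent.S24.helper1200
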