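import Mathlib

/-!
# S24 helper (helper288): Hermite form of `diag(d,1) * g` and consequences for `J(d * (g • τ))`

Mathlib-only.  Everything lives in `Fermat.Agent.S24.helper288`.
-/

set_option autoImplicit false

open UpperHalfPlane ModularForm EisensteinSeries MatrixGroups CongruenceSubgroup Filter Topology
open scoped Real

namespace Fermat.Agent.S24.helper288

/-! ## Part 1: Hermite decomposition of integer matrices -/

/-- Entry-wise Hermite form: for `p s - q r = 1` and `d ≠ 0` there are `x y z w` with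
`x w - y z = 1` and `a > 0`, `b`, `e > 0` with `a e = d` and
`[[d p, d q], [r, s]] = [[x, y], [z, w]] * [[a, b], [0, e]]`. -/
theorem hermite_entries (p q r s : ℤ) (hdet : p * s - q * r = 1) (d : ℤ) (hd : 0 < d) :
    ∃ x y z w a b e : ℤ, x * w - y * z = 1 ∧ 0 < a ∧ 0 < e ∧ a * e = d ∧
      a = Int.gcd d r ∧
      d * p = x * a ∧ d * q = x * b + y * e ∧ r = z * a ∧ s = z * b + w * e := by
  set a : ℤ := (Int.gcd (d * p) r : ℤ) with ha_def
  have ha_ne : a ≠ 0 := by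
    intro h0
    have h1 : d * p = 0 ∧ r = 0 := by
      have h2 : Int.gcd (d * p) r = 0 := by
        rw [ha_def] at h0
        exact_mod_cast h0
      exact Int.gcd_eq_zero_iff.mp h2
    have hp : p = 0 := by
      rcases mul_eq_zero.mp h1.1 with h | h
      · exact absurd h hd.ne'
      · exact h
    rw [hp, h1.2] at hdet
    simp at hdet
  have ha_pos : 0 < a := lt_of_le_of_ne (by positivity) (Ne.symm ha_ne)
  obtain ⟨x, hx⟩ : a ∣ d * p := Int.gcd_dvd_left _ _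
  obtain ⟨z, hz⟩ : a ∣ r := Int.gcd_dvd_right _ _
  have hbez : a = d * p * Int.gcdA (d * p) r + r * Int.gcdB (d * p) r := Int.gcd_eq_gcd_ab _ _
  set u := Int.gcdA (d * p) r
  set v := Int.gcdB (d * p) r
  have hxz : x * u + z * v = 1 := by
    have h1 : a * (x * u + z * v) = a * 1 := by
      rw [mul_one]
      conv_rhs => rw [hbez, hx, hz]
      ring
    exact mul_left_cancel₀ ha_ne h1
  -- `e = d / a`
  have hae : a * (x * s - z * (d * q)) = d := by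
    have : a * (x * s - z * (d * q)) = (a * x) * s - (a * z) * (d * q) := by ring
    rw [this, ← hx, ← hz]
    linear_combination d * hdet
  have hgcd : a = Int.gcd d r := by
    have hpr : Int.gcd p r = 1 := by
      rw [← Int.isCoprime_iff_gcd_eq_one]
      exact ⟨s, -q, by linear_combination hdet⟩
    rw [ha_def, mul_comm d p, Int.gcd_mul_right_left_of_gcd_eq_one hpr]
  have he_pos : 0 < x * s - z * (d * q) := by
    by_contra hneg
    rw [not_lt] at hneg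
    have : a * (x * s - z * (d * q)) ≤ 0 := mul_nonpos_of_nonneg_of_nonpos ha_pos.le hneg
    omega
  refine ⟨x, -v, z, u, a, u * (d * q) + v * s, x * s - z * (d * q), ?_, ha_pos, he_pos, hae, hgcd,
    ?_, ?_, ?_, ?_⟩
  · linear_combination hxz
  · rw [hx]; ring
  · linear_combination (-(d * q)) * hxz
  · rw [hz]; ring
  · linear_combination (-s) * hxz

/-- Hermite form: for `g ∈ SL(2,ℤ)` and `d > 0` there are `γ ∈ SL(2,ℤ)` and integers
`a > 0`, `b`, `e > 0` with `a * e = d`, `a = gcd(d, g₁₀)` and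
`diag(d,1) * g = γ * [[a, b], [0, e]]` (stated entry-wise). -/
theorem hermite (g : SL(2, ℤ)) (d : ℕ) (hd : 0 < d) :
    ∃ (γ : SL(2, ℤ)) (a b e : ℤ), 0 < a ∧ 0 < e ∧ a * e = d ∧ a = Int.gcd d (g 1 0) ∧
      (d : ℤ) * g 0 0 = γ 0 0 * a ∧ (d : ℤ) * g 0 1 = γ 0 0 * b + γ 0 1 * e ∧
      g 1 0 = γ 1 0 * a ∧ g 1 1 = γ 1 0 * b + γ 1 1 * e := by
  have hdet : g 0 0 * g 1 1 - g 0 1 * g 1 0 = 1 := by
    have := g.det_coe
    rwa [Matrix.det_fin_two] at this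
  obtain ⟨x, y, z, w, a, b, e, hγ, ha, he, hae, hgcd, h1, h2, h3, h4⟩ :=
    hermite_entries (g 0 0) (g 0 1) (g 1 0) (g 1 1) hdet (d : ℤ) (by exact_mod_cast hd)
  refine ⟨⟨!![x, y; z, w], by rw [Matrix.det_fin_two_of]; exact hγ⟩, a, b, e, ha, he, hae, hgcd,
    ?_, ?_, ?_, ?_⟩
  · simpa using h1
  · simpa using h2
  · simpa using h3
  · simpa using h4

/-! ## Part 2: the action on the upper half plane -/

/-- The point `(a τ + b) / e` of the upper half plane (`a, e > 0`). -/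
noncomputable def affinePt (a b e : ℤ) (ha : 0 < a) (he : 0 < e) (τ : ℍ) : ℍ :=
  ⟨((a : ℂ) * (τ : ℂ) + (b : ℂ)) / (e : ℂ), by
    have he' : (0 : ℝ) < e := by exact_mod_cast he
    have ha' : (0 : ℝ) < a := by exact_mod_cast ha
    have h1 : (((a : ℂ) * (τ : ℂ) + (b : ℂ)) / (e : ℂ)).im = (a : ℝ) * τ.im / (e : ℝ) := by
      have : ((e : ℂ)) = ((e : ℝ) : ℂ) := by push_cast; rfl
      rw [this, Complex.div_ofReal_im]
      simp
    rw [h1]
    have := τ.im_pos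
    positivity⟩

@[simp] theorem coe_affinePt (a b e : ℤ) (ha : 0 < a) (he : 0 < e) (τ : ℍ) :
    ((affinePt a b e ha he τ : ℍ) : ℂ) = ((a : ℂ) * (τ : ℂ) + (b : ℂ)) / (e : ℂ) := rfl

theorem im_affinePt (a b e : ℤ) (ha : 0 < a) (he : 0 < e) (τ : ℍ) :
    (affinePt a b e ha he τ).im = (a : ℝ) * τ.im / (e : ℝ) := by
  have : ((e : ℂ)) = ((e : ℝ) : ℂ) := by push_cast; rfl
  rw [← UpperHalfPlane.coe_im, coe_affinePt, this, Complex.div_ofReal_im]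
  simp

theorem sl_coe_smul (g : SL(2, ℤ)) (τ : ℍ) :
    ((g • τ : ℍ) : ℂ) = ((g 0 0 : ℤ) * (τ : ℂ) + (g 0 1 : ℤ)) / ((g 1 0 : ℤ) * (τ : ℂ) + (g 1 1 : ℤ)) := by
  rw [UpperHalfPlane.coe_specialLinearGroup_apply]
  simp

theorem sl_denom_ne_zero (g : SL(2, ℤ)) (τ : ℍ) :
    ((g 1 0 : ℤ) : ℂ) * (τ : ℂ) + ((g 1 1 : ℤ) : ℂ) ≠ 0 := by
  have h := UpperHalfPlane.denom_ne_zero (g : GL (Fin 2) ℝ) τ
  simpa [UpperHalfPlane.denom] using h

/-- The key identity: if `diag(d,1) * g = γ * [[a,b],[0,e]]` entry-wise then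
`d * (g • τ) = γ • ((a τ + b)/e)`. -/
theorem mul_smul_eq_smul_affinePt (g γ : SL(2, ℤ)) (d a b e : ℤ) (ha : 0 < a) (he : 0 < e)
    (h1 : d * g 0 0 = γ 0 0 * a) (h2 : d * g 0 1 = γ 0 0 * b + γ 0 1 * e)
    (h3 : g 1 0 = γ 1 0 * a) (h4 : g 1 1 = γ 1 0 * b + γ 1 1 * e) (τ : ℍ) :
    (d : ℂ) * ((g • τ : ℍ) : ℂ) = ((γ • affinePt a b e ha he τ : ℍ) : ℂ) := by
  rw [sl_coe_smul, sl_coe_smul, coe_affinePt]
  have hden := sl_denom_ne_zero g τ
  have hden' := sl_denom_ne_zero γ (affinePt a b e ha he τ)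
  rw [coe_affinePt] at hden'
  have he0 : (e : ℂ) ≠ 0 := by exact_mod_cast he.ne'
  have h1' : (d : ℂ) * (g 0 0 : ℤ) = (γ 0 0 : ℤ) * (a : ℂ) := by exact_mod_cast congrArg (Int.cast : ℤ → ℂ) h1
  have h2' : (d : ℂ) * (g 0 1 : ℤ) = (γ 0 0 : ℤ) * (b : ℂ) + (γ 0 1 : ℤ) * (e : ℂ) := by
    exact_mod_cast congrArg (Int.cast : ℤ → ℂ) h2
  have h3' : ((g 1 0 : ℤ) : ℂ) = (γ 1 0 : ℤ) * (a : ℂ) := by exact_mod_cast congrArg (Int.cast : ℤ → ℂ) h3
  have h4' : ((g 1 1 : ℤ) : ℂ) = (γ 1 0 : ℤ) * (b : ℂ) + (γ 1 1 : ℤ) * (e : ℂ) := by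
    exact_mod_cast congrArg (Int.cast : ℤ → ℂ) h4
  have hnum : (d : ℂ) * (((g 0 0 : ℤ) : ℂ) * (τ : ℂ) + ((g 0 1 : ℤ) : ℂ)) =
      (((γ 0 0 : ℤ) : ℂ) * ((a : ℂ) * (τ : ℂ) + (b : ℂ)) + ((γ 0 1 : ℤ) : ℂ) * (e : ℂ)) := by
    linear_combination (τ : ℂ) * h1' + h2'
  have hdenEq : (((g 1 0 : ℤ) : ℂ) * (τ : ℂ) + ((g 1 1 : ℤ) : ℂ)) =
      (((γ 1 0 : ℤ) : ℂ) * ((a : ℂ) * (τ : ℂ) + (b : ℂ)) + ((γ 1 1 : ℤ) : ℂ) * (e : ℂ)) := by
    rw [h3', h4']; ring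
  have hR : (((γ 0 0 : ℤ) : ℂ) * (((a : ℂ) * (τ : ℂ) + (b : ℂ)) / (e : ℂ)) + ((γ 0 1 : ℤ) : ℂ)) /
      (((γ 1 0 : ℤ) : ℂ) * (((a : ℂ) * (τ : ℂ) + (b : ℂ)) / (e : ℂ)) + ((γ 1 1 : ℤ) : ℂ)) =
      (((γ 0 0 : ℤ) : ℂ) * ((a : ℂ) * (τ : ℂ) + (b : ℂ)) + ((γ 0 1 : ℤ) : ℂ) * (e : ℂ)) /
      (((γ 1 0 : ℤ) : ℂ) * ((a : ℂ) * (τ : ℂ) + (b : ℂ)) + ((γ 1 1 : ℤ) : ℂ) * (e : ℂ)) := by
    have e1 : (((γ 0 0 : ℤ) : ℂ) * (((a : ℂ) * (τ : ℂ) + (b : ℂ)) / (e : ℂ)) + ((γ 0 1 : ℤ) : ℂ)) =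
        (((γ 0 0 : ℤ) : ℂ) * ((a : ℂ) * (τ : ℂ) + (b : ℂ)) + ((γ 0 1 : ℤ) : ℂ) * (e : ℂ)) / (e : ℂ) := by
      field_simp
    have e2 : (((γ 1 0 : ℤ) : ℂ) * (((a : ℂ) * (τ : ℂ) + (b : ℂ)) / (e : ℂ)) + ((γ 1 1 : ℤ) : ℂ)) =
        (((γ 1 0 : ℤ) : ℂ) * ((a : ℂ) * (τ : ℂ) + (b : ℂ)) + ((γ 1 1 : ℤ) : ℂ) * (e : ℂ)) / (e : ℂ) := by
      field_simp
    rw [e1, e2, div_div_div_cancel_right₀ he0]
  rw [hR, mul_div_assoc', hnum, hdenEq]


/-! ## Part 3: the `j`-function, invariance, Hermite transport -/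

/-- The `j`-function `E₄³/Δ` on the upper half plane. -/
noncomputable def jFn (τ : ℍ) : ℂ := E₄ τ ^ 3 / ModularForm.discriminant τ

theorem jFn_apply (τ : ℍ) : jFn τ = E₄ τ ^ 3 / ModularForm.discriminant τ := rfl

theorem E4_smul (γ : SL(2, ℤ)) (τ : ℍ) : E₄ (γ • τ) = denom γ τ ^ (4 : ℤ) * E₄ τ :=
  SlashInvariantForm.slash_action_eqn'' E₄ (γ := (Matrix.SpecialLinearGroup.mapGL ℝ γ))
    (MonoidHom.mem_range.mpr ⟨γ, rfl⟩) τ

theorem discriminant_smul (γ : SL(2, ℤ)) (τ : ℍ) :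
    ModularForm.discriminant (γ • τ) = denom γ τ ^ (12 : ℤ) * ModularForm.discriminant τ :=
  SlashInvariantForm.slash_action_eqn'' CuspForm.discriminant
    (γ := (Matrix.SpecialLinearGroup.mapGL ℝ γ)) (MonoidHom.mem_range.mpr ⟨γ, rfl⟩) τ

/-- `J` is `SL(2,ℤ)`-invariant. -/
theorem jFn_smul (γ : SL(2, ℤ)) (τ : ℍ) : jFn (γ • τ) = jFn τ := by
  have hden : denom γ τ ≠ 0 := UpperHalfPlane.denom_ne_zero _ τ
  have hΔ : ModularForm.discriminant τ ≠ 0 := ModularForm.discriminant_ne_zero τ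
  rw [jFn_apply, jFn_apply, E4_smul, discriminant_smul, mul_pow, ← zpow_natCast (denom γ τ ^ (4 : ℤ)) 3,
    ← zpow_mul]
  norm_num
  rw [mul_div_mul_left _ _ (pow_ne_zero 12 hden)]

/-- Transport along the Hermite form: an `SL(2,ℤ)`-invariant function evaluated at
`d * (g • τ)` equals its value at `(a τ + b)/e`. -/
theorem invariant_mul_smul (f : ℍ → ℂ) (hf : ∀ (γ : SL(2, ℤ)) (τ : ℍ), f (γ • τ) = f τ)
    (g γ : SL(2, ℤ)) (d a b e : ℤ) (ha : 0 < a) (he : 0 < e)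
    (h1 : d * g 0 0 = γ 0 0 * a) (h2 : d * g 0 1 = γ 0 0 * b + γ 0 1 * e)
    (h3 : g 1 0 = γ 1 0 * a) (h4 : g 1 1 = γ 1 0 * b + γ 1 1 * e) (τ : ℍ) :
    f (ofComplex ((d : ℂ) * ((g • τ : ℍ) : ℂ))) = f (affinePt a b e ha he τ) := by
  rw [mul_smul_eq_smul_affinePt g γ d a b e ha he h1 h2 h3 h4 τ, UpperHalfPlane.ofComplex_apply, hf]

/-- Existence form of the Hermite transport for an arbitrary invariant function. -/
theorem exists_affinePt_of_invariant (g : SL(2, ℤ)) (d : ℕ) (hd : 0 < d) :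
    ∃ (a b e : ℤ) (ha : 0 < a) (he : 0 < e), a * e = d ∧ a = Int.gcd d (g 1 0) ∧ a ∣ g 1 0 ∧
      (∀ τ : ℍ, ∃ γ : SL(2, ℤ),
        (d : ℂ) * ((g • τ : ℍ) : ℂ) = ((γ • affinePt a b e ha he τ : ℍ) : ℂ)) ∧
      ∀ (f : ℍ → ℂ), (∀ (γ : SL(2, ℤ)) (τ : ℍ), f (γ • τ) = f τ) → ∀ τ : ℍ,
        f (ofComplex ((d : ℂ) * ((g • τ : ℍ) : ℂ))) = f (affinePt a b e ha he τ) := by
  obtain ⟨γ, a, b, e, ha, he, hae, hgcd, h1, h2, h3, h4⟩ := hermite g d hd
  refine ⟨a, b, e, ha, he, hae, hgcd, ⟨γ 1 0, by rw [h3, mul_comm]⟩, fun τ => ⟨γ, ?_⟩,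
    fun f hf τ => ?_⟩
  · exact_mod_cast mul_smul_eq_smul_affinePt g γ d a b e ha he h1 h2 h3 h4 τ
  · exact_mod_cast invariant_mul_smul f hf g γ d a b e ha he h1 h2 h3 h4 τ

/-- `J (d * (g • τ)) = J ((a τ + b)/e)`. -/
theorem exists_jFn_mul_smul (g : SL(2, ℤ)) (d : ℕ) (hd : 0 < d) :
    ∃ (a b e : ℤ) (ha : 0 < a) (he : 0 < e), a * e = d ∧ a = Int.gcd d (g 1 0) ∧ a ∣ g 1 0 ∧
      ∀ τ : ℍ, jFn (ofComplex ((d : ℂ) * ((g • τ : ℍ) : ℂ))) = jFn (affinePt a b e ha he τ) := by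
  obtain ⟨a, b, e, ha, he, hae, hgcd, hdvd, -, h⟩ := exists_affinePt_of_invariant g d hd
  exact ⟨a, b, e, ha, he, hae, hgcd, hdvd, h jFn jFn_smul⟩

/-! ## Part 4: leading asymptotics at `i∞` -/

local notation "𝕢" => Function.Periodic.qParam

theorem tendsto_E4_atImInfty : Tendsto (fun τ : ℍ => E₄ τ) atImInfty (𝓝 1) := by
  have han : AnalyticAt ℂ (cuspFunction 1 E₄) 0 :=
    ModularFormClass.analyticAt_cuspFunction_zero E₄ one_pos one_mem_strictPeriods_SL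
  have h0 : cuspFunction 1 E₄ 0 = 1 := by
    have := E_qExpansion_coeff_zero (k := 4) (by norm_num) (by decide)
    simpa [qExpansion_coeff] using this
  have hcomp : (cuspFunction 1 E₄ ∘ fun τ : ℍ => 𝕢 1 τ) = E₄ :=
    funext fun τ => SlashInvariantFormClass.eq_cuspFunction E₄ τ
      one_mem_strictPeriods_SL one_ne_zero
  have := han.continuousAt.tendsto.comp (qParam_tendsto_atImInfty one_pos)
  rw [h0, hcomp] at this
  exact this

/-- `J(τ) * q(τ) → 1` as `im τ → ∞`. -/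
theorem tendsto_J_mul_q :
    Tendsto (fun τ : ℍ => jFn τ * 𝕢 1 (τ : ℂ)) atImInfty (𝓝 1) := by
  have h1 : Tendsto (fun τ : ℍ => E₄ τ ^ 3 / ∏' (n : ℕ), (1 - eta_q n (τ : ℂ)) ^ 24) atImInfty
      (𝓝 (1 ^ 3 / 1)) :=
    (tendsto_E4_atImInfty.pow 3).div tendsto_atImInfty_tprod_one_sub_eta_q_pow one_ne_zero
  rw [one_pow, div_one] at h1
  refine h1.congr fun τ => ?_
  have hq : 𝕢 1 (τ : ℂ) ≠ 0 := Function.Periodic.qParam_ne_zero _
  rw [jFn_apply, discriminant_eq_q_prod]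
  field_simp


/-! ## Part 5: growth bounds -/

theorem tendsto_affinePt_atImInfty (a b e : ℤ) (ha : 0 < a) (he : 0 < e) :
    Tendsto (affinePt a b e ha he) atImInfty atImInfty := by
  rw [atImInfty, tendsto_comap_iff]
  have h : (UpperHalfPlane.im ∘ affinePt a b e ha he) = fun τ : ℍ => ((a : ℝ) / (e : ℝ)) * τ.im := by
    funext τ
    simp only [Function.comp_apply, im_affinePt]
    ring
  rw [h]
  have hpos : (0 : ℝ) < (a : ℝ) / (e : ℝ) := by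
    have he' : (0 : ℝ) < e := by exact_mod_cast he
    have ha' : (0 : ℝ) < a := by exact_mod_cast ha
    positivity
  exact (tendsto_comap (f := UpperHalfPlane.im) (x := atTop)).const_mul_atTop hpos

/-- Explicit bound near `i∞`: `‖J τ‖ ≤ 2 exp(2π im τ)` for `im τ` large. -/
theorem exists_norm_jFn_le :
    ∃ A : ℝ, ∀ τ : ℍ, A ≤ τ.im → ‖jFn τ‖ ≤ 2 * Real.exp (2 * π * τ.im) := by
  have h := tendsto_J_mul_q.eventually (Metric.ball_mem_nhds (1 : ℂ) one_pos)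
  rw [Filter.Eventually, UpperHalfPlane.atImInfty_mem] at h
  obtain ⟨A, hA⟩ := h
  refine ⟨A, fun τ hτ => ?_⟩
  have h1 : ‖jFn τ * 𝕢 1 (τ : ℂ) - 1‖ < 1 := by
    have := hA τ hτ
    simpa [dist_eq_norm] using this
  have h2 : ‖jFn τ * 𝕢 1 (τ : ℂ)‖ ≤ 2 := by
    have := norm_sub_norm_le (jFn τ * 𝕢 1 (τ : ℂ)) 1
    rw [norm_one] at this
    linarith
  have hq : ‖𝕢 1 (τ : ℂ)‖ = Real.exp (-(2 * π * τ.im)) := by
    rw [Function.Periodic.norm_qParam]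
    congr 1
    simp
  rw [norm_mul, hq] at h2
  have hpos := Real.exp_pos (2 * π * τ.im)
  calc ‖jFn τ‖ = ‖jFn τ‖ * Real.exp (-(2 * π * τ.im)) * Real.exp (2 * π * τ.im) := by
        rw [mul_assoc, ← Real.exp_add]; simp
    _ ≤ 2 * Real.exp (2 * π * τ.im) := mul_le_mul_of_nonneg_right h2 hpos.le

/-- Growth at every cusp: `‖J(d * (g • τ))‖ ≤ 2 exp(2π d im τ)` for `im τ` large. -/
theorem exists_norm_jFn_mul_smul_le (g : SL(2, ℤ)) (d : ℕ) (hd : 0 < d) :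
    ∃ A : ℝ, ∀ τ : ℍ, A ≤ τ.im →
      ‖jFn (ofComplex ((d : ℂ) * ((g • τ : ℍ) : ℂ)))‖ ≤ 2 * Real.exp (2 * π * d * τ.im) := by
  obtain ⟨a, b, e, ha, he, hae, -, -, hJ⟩ := exists_jFn_mul_smul g d hd
  obtain ⟨A, hA⟩ := exists_norm_jFn_le
  have ha' : (1 : ℝ) ≤ a := by exact_mod_cast ha
  have he' : (1 : ℝ) ≤ e := by exact_mod_cast he
  have hae' : (a : ℝ) * e = d := by exact_mod_cast hae
  have hd' : (0 : ℝ) < d := by exact_mod_cast hd
  have had : (a : ℝ) ≤ d := by nlinarith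
  have hed : (e : ℝ) ≤ d := by nlinarith
  refine ⟨d * |A|, fun τ hτ => ?_⟩
  have hτpos := τ.im_pos
  have him : (affinePt a b e ha he τ).im = (a : ℝ) * τ.im / (e : ℝ) := im_affinePt a b e ha he τ
  have hlow : A ≤ (affinePt a b e ha he τ).im := by
    rw [him, le_div_iff₀ (by linarith)]
    calc A * e ≤ |A| * d := by
          have := le_abs_self A
          have h0 := abs_nonneg A
          nlinarith
      _ ≤ τ.im := by linarith
      _ ≤ a * τ.im := by nlinarith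
  have hup : (affinePt a b e ha he τ).im ≤ d * τ.im := by
    rw [him, div_le_iff₀ (by linarith)]
    calc (a : ℝ) * τ.im ≤ d * τ.im := mul_le_mul_of_nonneg_right had hτpos.le
      _ = d * τ.im * 1 := (mul_one _).symm
      _ ≤ d * τ.im * e := mul_le_mul_of_nonneg_left he' (by positivity)
  rw [hJ τ]
  refine (hA _ hlow).trans ?_
  have : 2 * π * (affinePt a b e ha he τ).im ≤ 2 * π * d * τ.im := by
    have := Real.pi_pos
    nlinarith
  have := Real.exp_le_exp.mpr this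
  linarith

/-- `IsBigO` form of the growth bound. -/
theorem jFn_mul_smul_isBigO (g : SL(2, ℤ)) (d : ℕ) (hd : 0 < d) :
    (fun τ : ℍ => jFn (ofComplex ((d : ℂ) * ((g • τ : ℍ) : ℂ)))) =O[atImInfty]
      fun τ : ℍ => Real.exp (2 * π * d * τ.im) := by
  obtain ⟨A, hA⟩ := exists_norm_jFn_mul_smul_le g d hd
  refine Asymptotics.IsBigO.of_bound 2 ?_
  rw [Filter.Eventually, UpperHalfPlane.atImInfty_mem]
  refine ⟨A, fun τ hτ => ?_⟩
  show ‖jFn (ofComplex ((d : ℂ) * ((g • τ : ℍ) : ℂ)))‖ ≤ 2 * ‖Real.exp (2 * π * d * τ.im)‖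
  rw [Real.norm_of_nonneg (Real.exp_pos _).le]
  exact hA τ hτ


/-! ## Part 6: coset injectivity (E5) -/

/-- Two functions tending to `1` at `i∞` cannot differ by a factor `exp (c * im τ)`, `c > 0`. -/
theorem false_of_tendsto_one_of_exp (u v : ℍ → ℝ) (c : ℝ) (hc : 0 < c)
    (hu : Tendsto u atImInfty (𝓝 1)) (hv : Tendsto v atImInfty (𝓝 1))
    (h : ∀ τ : ℍ, u τ = v τ * Real.exp (c * τ.im)) : False := by
  have h1 : Tendsto (fun τ : ℍ => Real.exp (c * τ.im)) atImInfty atTop :=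
    Real.tendsto_exp_atTop.comp
      ((tendsto_comap (f := UpperHalfPlane.im) (x := atTop)).const_mul_atTop hc)
  have h2 : Tendsto (fun τ : ℍ => v τ * Real.exp (c * τ.im)) atImInfty atTop :=
    hv.pos_mul_atTop one_pos h1
  have h3 : Tendsto u atImInfty atTop := h2.congr fun τ => (h τ).symm
  exact not_tendsto_nhds_of_tendsto_atTop h3 1 hu

theorem norm_qParam_affinePt (a b e : ℤ) (ha : 0 < a) (he : 0 < e) (τ : ℍ) :
    ‖𝕢 1 ((affinePt a b e ha he τ : ℍ) : ℂ)‖ = Real.exp (-(2 * π * ((a : ℝ) / (e : ℝ)) * τ.im)) := by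
  rw [Function.Periodic.norm_qParam, UpperHalfPlane.coe_im, im_affinePt]
  congr 1
  field_simp

theorem tendsto_norm_jFn_affinePt (a b e : ℤ) (ha : 0 < a) (he : 0 < e) :
    Tendsto (fun τ : ℍ => ‖jFn (affinePt a b e ha he τ)‖ *
      Real.exp (-(2 * π * ((a : ℝ) / (e : ℝ)) * τ.im))) atImInfty (𝓝 1) := by
  have h := (tendsto_J_mul_q.comp (tendsto_affinePt_atImInfty a b e ha he)).norm
  rw [norm_one] at h
  refine h.congr fun τ => ?_
  simp only [Function.comp_apply]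
  rw [norm_mul, norm_qParam_affinePt]

/-- If `J((a τ + b)/e) = J((a' τ + b')/e')` for all `τ` then `a/e = a'/e'`. -/
theorem affine_ratio_eq_of_jFn_eq (a b e a' b' e' : ℤ) (ha : 0 < a) (he : 0 < e)
    (ha' : 0 < a') (he' : 0 < e')
    (h : ∀ τ : ℍ, jFn (affinePt a b e ha he τ) = jFn (affinePt a' b' e' ha' he' τ)) :
    a * e' = a' * e := by
  have hu := tendsto_norm_jFn_affinePt a b e ha he
  have hv := tendsto_norm_jFn_affinePt a' b' e' ha' he'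
  have heR : (0 : ℝ) < e := by exact_mod_cast he
  have heR' : (0 : ℝ) < e' := by exact_mod_cast he'
  by_contra hne
  rcases lt_or_gt_of_ne hne with hlt | hgt
  · -- `a/e < a'/e'`
    have hc : 0 < 2 * π * ((a' : ℝ) / e' - (a : ℝ) / e) := by
      have h1 : (a : ℝ) / e < (a' : ℝ) / e' := by
        rw [div_lt_div_iff₀ heR heR']
        exact_mod_cast hlt
      have := Real.pi_pos
      nlinarith
    refine false_of_tendsto_one_of_exp _ _ _ hc hu hv fun τ => ?_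
    have hexp : Real.exp (-(2 * π * ((a : ℝ) / (e : ℝ)) * τ.im)) =
        Real.exp (-(2 * π * ((a' : ℝ) / (e' : ℝ)) * τ.im)) *
          Real.exp (2 * π * ((a' : ℝ) / e' - (a : ℝ) / e) * τ.im) := by
      rw [← Real.exp_add]
      congr 1
      ring
    rw [h τ, hexp]
    ring
  · have hc : 0 < 2 * π * ((a : ℝ) / e - (a' : ℝ) / e') := by
      have h1 : (a' : ℝ) / e' < (a : ℝ) / e := by
        rw [div_lt_div_iff₀ heR' heR]
        exact_mod_cast hgt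
      have := Real.pi_pos
      nlinarith
    refine false_of_tendsto_one_of_exp _ _ _ hc hv hu fun τ => ?_
    have hexp : Real.exp (-(2 * π * ((a' : ℝ) / (e' : ℝ)) * τ.im)) =
        Real.exp (-(2 * π * ((a : ℝ) / (e : ℝ)) * τ.im)) *
          Real.exp (2 * π * ((a : ℝ) / e - (a' : ℝ) / e') * τ.im) := by
      rw [← Real.exp_add]
      congr 1
      ring
    rw [h τ, hexp]
    ring

theorem affinePt_zero_one (d : ℤ) (hd : 0 < d) (τ : ℍ) :
    affinePt d 0 1 hd one_pos τ = ofComplex ((d : ℂ) * (τ : ℂ)) := by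
  have him : 0 < ((d : ℂ) * (τ : ℂ)).im := by
    have h := (affinePt d 0 1 hd one_pos τ).coe_im_pos
    simpa using h
  rw [UpperHalfPlane.ofComplex_apply_of_im_pos him]
  apply UpperHalfPlane.ext
  simp

/-- **E5, coset injectivity**: if `J(N * (g • τ)) = J(N * τ)` for all `τ` then `g ∈ Γ₀(N)`. -/
theorem mem_Gamma0_of_jFn_eq (N : ℕ) [NeZero N] (g : SL(2, ℤ))
    (h : ∀ τ : ℍ, jFn (ofComplex ((N : ℂ) * ((g • τ : ℍ) : ℂ))) =
      jFn (ofComplex ((N : ℂ) * (τ : ℂ)))) :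
    g ∈ Gamma0 N := by
  have hN : 0 < N := NeZero.pos N
  have hNz : (0 : ℤ) < N := by exact_mod_cast hN
  obtain ⟨a, b, e, ha, he, hae, -, hdvd, hJ⟩ := exists_jFn_mul_smul g N hN
  have key : a * 1 = (N : ℤ) * e := by
    refine affine_ratio_eq_of_jFn_eq a b e N 0 1 ha he hNz one_pos fun τ => ?_
    rw [← hJ τ, h τ, affinePt_zero_one]
    norm_cast
  rw [mul_one] at key
  have he1 : e = 1 := by
    have h1 : (N : ℤ) * (e * e) = N * 1 := by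
      rw [mul_one, ← mul_assoc, ← key, hae]
    have h2 : e * e = 1 := mul_left_cancel₀ hNz.ne' h1
    nlinarith
  rw [he1, mul_one] at key
  rw [Gamma0_mem, ZMod.intCast_zmod_eq_zero_iff_dvd]
  rw [key] at hdvd
  exact hdvd

/-- Two-coset form of E5. -/
theorem mul_inv_mem_Gamma0_of_jFn_eq (N : ℕ) [NeZero N] (g g' : SL(2, ℤ))
    (h : ∀ τ : ℍ, jFn (ofComplex ((N : ℂ) * ((g • τ : ℍ) : ℂ))) =
      jFn (ofComplex ((N : ℂ) * ((g' • τ : ℍ) : ℂ)))) :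
    g * g'⁻¹ ∈ Gamma0 N := by
  refine mem_Gamma0_of_jFn_eq N _ fun τ => ?_
  have := h (g'⁻¹ • τ)
  rwa [← mul_smul, ← mul_smul, mul_inv_cancel, one_smul] at this

/-! ## Part 7: `Γ₀(N)`-invariance of `f(d τ)` for `d ∣ N` -/

theorem invariant_mul_smul_of_mem_Gamma0 (N d : ℕ) (hd0 : 0 < d) (hd : d ∣ N) (g : SL(2, ℤ))
    (hg : g ∈ Gamma0 N) (f : ℍ → ℂ) (hf : ∀ (γ : SL(2, ℤ)) (τ : ℍ), f (γ • τ) = f τ) (τ : ℍ) :
    f (ofComplex ((d : ℂ) * ((g • τ : ℍ) : ℂ))) = f (ofComplex ((d : ℂ) * (τ : ℂ))) := by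
  have hdz : (0 : ℤ) < d := by exact_mod_cast hd0
  have hNr : (N : ℤ) ∣ g 1 0 := by
    rw [Gamma0_mem, ZMod.intCast_zmod_eq_zero_iff_dvd] at hg
    exact hg
  obtain ⟨r', hr'⟩ : (d : ℤ) ∣ g 1 0 := (Int.natCast_dvd_natCast.mpr hd).trans hNr
  have hdet : g 0 0 * g 1 1 - g 0 1 * g 1 0 = 1 := by
    have := g.det_coe
    rwa [Matrix.det_fin_two] at this
  let g' : SL(2, ℤ) := ⟨!![g 0 0, d * g 0 1; r', g 1 1], by
    rw [Matrix.det_fin_two_of]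
    rw [hr'] at hdet
    linear_combination hdet⟩
  have h := invariant_mul_smul f hf g g' d d 0 1 hdz one_pos (by simp [g', mul_comm])
    (by simp [g']) (by simp [g', hr', mul_comm]) (by simp [g']) τ
  rw [affinePt_zero_one] at h
  exact_mod_cast h

theorem jFn_mul_smul_of_mem_Gamma0 (N d : ℕ) (hd0 : 0 < d) (hd : d ∣ N) (g : SL(2, ℤ))
    (hg : g ∈ Gamma0 N) (τ : ℍ) :
    jFn (ofComplex ((d : ℂ) * ((g • τ : ℍ) : ℂ))) = jFn (ofComplex ((d : ℂ) * (τ : ℂ))) :=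
  invariant_mul_smul_of_mem_Gamma0 N d hd0 hd g hg jFn jFn_smul τ

/-! ## Part 8: the `q^(1/N)`-substitution -/

/-- `q((a τ + b)/e) = ζ_e^b * (q^(1/N))^(a * N / e)` where `N = e * k`. -/
theorem qParam_affinePt (a b e : ℤ) (ha : 0 < a) (he : 0 < e) (N k : ℕ) (hN : 0 < N)
    (hk : e * k = N) (τ : ℍ) :
    𝕢 1 ((affinePt a b e ha he τ : ℍ) : ℂ) =
      Complex.exp (2 * π * Complex.I * b / e) * 𝕢 N (τ : ℂ) ^ (a.toNat * k) := by
  have he0 : (e : ℂ) ≠ 0 := by exact_mod_cast he.ne'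
  have hN0 : (N : ℂ) ≠ 0 := by exact_mod_cast hN.ne'
  have hk' : (e : ℂ) * (k : ℂ) = (N : ℂ) := by exact_mod_cast congrArg (Int.cast : ℤ → ℂ) hk
  have hat : ((a.toNat : ℕ) : ℂ) = (a : ℂ) := by
    have : ((a.toNat : ℕ) : ℤ) = a := Int.toNat_of_nonneg ha.le
    exact_mod_cast congrArg (Int.cast : ℤ → ℂ) this
  rw [Function.Periodic.qParam, Function.Periodic.qParam, ← Complex.exp_nat_mul, ← Complex.exp_add,
    coe_affinePt]
  congr 1
  push_cast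
  rw [hat, ← hk']
  have hk0 : (k : ℂ) ≠ 0 := by
    intro h0
    rw [h0, mul_zero] at hk'
    exact hN0 hk'.symm
  field_simp
  ring

end Fermat.Agent.S24.helper288
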