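import Fermat.Agent.S24.helper24_Spec

/-!
# S24, module M1a (helper3176): algebraic unwrapping of the modular function field

`modularFunctionFieldBar N = laurentBaseChange ℚ̄ (modularFunctionFieldFull N)` is the
field generated over `ℚ̄` by the formal series `j(q^d)`, `d ∣ N`; it is the field of fractions of
the `ℚ̄`-algebra `AN N` generated by these series, and `j` is transcendental over `ℚ̄`.
-/

set_option autoImplicit false

open ModularCurve HahnSeries IntermediateField

namespace Fermat.Agent.S24.helper3176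

open Fermat.Agent.S24.helper24

/-! ## Generic coefficient field -/

section Generic

variable (K : Type*) [Field K] [Algebra ℚ K]

/-- The generating set `{ j(q^d) : d ∣ N }` with coefficients in `K`. -/
def genSet (N : ℕ) : Set (LaurentSeries K) := ⇑(coeffEmb K) '' (divisorExpansions N)

theorem mem_genSet {N d : ℕ} [NeZero d] (hd : d ∣ N) :
    coeffEmb K (qExpand ℚ d jq) ∈ genSet K N :=
  ⟨_, mem_divisorExpansions N hd, rfl⟩

theorem mem_genSet_iff {N : ℕ} {x : LaurentSeries K} :
    x ∈ genSet K N ↔ ∃ (d : ℕ) (_ : NeZero d), d ∣ N ∧ x = coeffEmb K (qExpand ℚ d jq) := by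
  constructor
  · rintro ⟨y, ⟨d, hd0, hd, rfl⟩, rfl⟩
    exact ⟨d, hd0, hd, rfl⟩
  · rintro ⟨d, hd0, hd, rfl⟩
    exact mem_genSet K hd

theorem coeffEmb_algebraMap_rat (r : ℚ) :
    coeffEmb K (algebraMap ℚ (LaurentSeries ℚ) r)
      = algebraMap K (LaurentSeries K) (algebraMap ℚ K r) := by
  rw [algebraMap_laurentSeries_eq_single, algebraMap_laurentSeries_eq_single, coeffEmb,
    coeffMap_single]

theorem coeffEmb_mem_adjoin_genSet {N : ℕ} {x : LaurentSeries ℚ}
    (hx : x ∈ modularFunctionFieldFull N) : coeffEmb K x ∈ adjoin K (genSet K N) := by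
  unfold modularFunctionFieldFull at hx
  induction hx using IntermediateField.adjoin_induction with
  | mem x hx => exact subset_adjoin K _ ⟨x, hx, rfl⟩
  | algebraMap r =>
      rw [coeffEmb_algebraMap_rat]
      exact (adjoin K (genSet K N)).algebraMap_mem _
  | add x y _ _ hx hy => rw [map_add]; exact add_mem hx hy
  | inv x _ hx => rw [map_inv₀]; exact inv_mem hx
  | mul x y _ _ hx hy => rw [map_mul]; exact mul_mem hx hy

/-- The base-changed modular function field is generated over `K` by the `j(q^d)`, `d ∣ N`. -/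
theorem laurentBaseChange_full_eq_adjoin (N : ℕ) :
    laurentBaseChange K (modularFunctionFieldFull N) = adjoin K (genSet K N) := by
  apply le_antisymm
  · rw [laurentBaseChange, adjoin_le_iff]
    rintro _ ⟨x, hx, rfl⟩
    exact coeffEmb_mem_adjoin_genSet K hx
  · refine adjoin.mono K _ _ ?_
    rintro _ ⟨x, hx, rfl⟩
    exact ⟨x, subset_adjoin ℚ _ hx, rfl⟩

/-- Every element of the base-changed modular function field is a quotient of two elements of
the `K`-algebra generated by the `j(q^d)`. -/
theorem exists_div_of_mem_laurentBaseChange {N : ℕ} {x : LaurentSeries K}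
    (hx : x ∈ laurentBaseChange K (modularFunctionFieldFull N)) :
    ∃ a ∈ Algebra.adjoin K (genSet K N), ∃ b ∈ Algebra.adjoin K (genSet K N),
      b ≠ 0 ∧ x = a / b := by
  rw [laurentBaseChange_full_eq_adjoin, mem_adjoin_iff_div] at hx
  obtain ⟨r, hr, s, hs, rfl⟩ := hx
  by_cases hs0 : s = 0
  · exact ⟨0, zero_mem _, 1, one_mem _, one_ne_zero, by simp [hs0]⟩
  · exact ⟨r, hr, s, hs, hs0, rfl⟩

/-- `coeffMap` commutes with `qExpand`. -/
theorem coeffMap_qExpand {R S : Type*} [CommRing R] [CommRing S] (f : R →+* S) (d : ℕ) [NeZero d]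
    (x : LaurentSeries R) : coeffMap f (qExpand R d x) = qExpand S d (coeffMap f x) := by
  ext k
  by_cases hk : (d : ℤ) ∣ k
  · obtain ⟨m, rfl⟩ := hk
    rw [coeffMap_coeff, qExpand_coeff_mul, qExpand_coeff_mul, coeffMap_coeff]
  · rw [coeffMap_coeff, qExpand_coeff_of_not_dvd d x hk, qExpand_coeff_of_not_dvd d _ hk,
      map_zero]

theorem coeffEmb_qExpand (d : ℕ) [NeZero d] (x : LaurentSeries ℚ) :
    coeffEmb K (qExpand ℚ d x) = qExpand K d (coeffEmb K x) :=
  coeffMap_qExpand (algebraMap ℚ K) d x

/-- The coefficient of `q^(-n)` in `j^n` is `1`. -/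
theorem coeff_coeffEmb_jq_pow_self (n : ℕ) : ((coeffEmb K jq) ^ n).coeff (-(n : ℤ)) = 1 := by
  rw [← map_pow, coeffEmb_coeff, coeff_jq_pow_self, map_one]

/-- The coefficient of `q^m` in `j^n` vanishes for `m < -n`. -/
theorem coeff_coeffEmb_jq_pow_of_lt {n : ℕ} {m : ℤ} (hm : m < -(n : ℤ)) :
    ((coeffEmb K jq) ^ n).coeff m = 0 := by
  rw [← map_pow, coeffEmb_coeff, coeff_jq_pow_of_lt hm, map_zero]

/-- Coefficients of a constant multiple (for the `K`-algebra structure on `LaurentSeries K`). -/
theorem coeff_algebraMap_mul {L : Type*} [Field L] (c : L) (x : LaurentSeries L) (k : ℤ) :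
    (algebraMap L (LaurentSeries L) c * x).coeff k = c * x.coeff k := by
  rw [algebraMap_laurentSeries_eq_single, HahnSeries.coeff_single_mul, sub_zero]

/-- The formal `j` is transcendental over the coefficient field. -/
theorem transcendental_coeffEmb_jq : Transcendental K (coeffEmb K jq) := by
  intro halg
  obtain ⟨P, hP0, hP⟩ := halg
  have hcoeff : (Polynomial.aeval (coeffEmb K jq) P).coeff (-(P.natDegree : ℤ))
      = P.leadingCoeff := by
    rw [Polynomial.aeval_eq_sum_range, HahnSeries.coeff_sum, Finset.sum_eq_single P.natDegree]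
    · rw [Algebra.smul_def, coeff_algebraMap_mul, coeff_coeffEmb_jq_pow_self, mul_one]
      rfl
    · intro i hi hne
      have hlt : i < P.natDegree :=
        lt_of_le_of_ne (Nat.lt_succ_iff.mp (Finset.mem_range.mp hi)) hne
      have hlt' : -(P.natDegree : ℤ) < -(i : ℤ) := by
        have : (i : ℤ) < (P.natDegree : ℤ) := by exact_mod_cast hlt
        omega
      rw [Algebra.smul_def, coeff_algebraMap_mul, coeff_coeffEmb_jq_pow_of_lt K hlt', mul_zero]
    · intro h
      exact absurd (Finset.mem_range.mpr (Nat.lt_succ_self _)) h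
  rw [hP, HahnSeries.coeff_zero] at hcoeff
  exact hP0 (Polynomial.leadingCoeff_eq_zero.mp hcoeff.symm)

end Generic

/-! ## The function field `FN N` over `ℚ̄` -/

section Bar

variable (N : ℕ)

theorem coe_jBarD (d : ℕ) [NeZero d] (hd : d ∣ N) :
    ((jBarD N d hd : FN N) : LaurentSeries Kbar) = jSeries d := rfl

theorem jSeries_eq_qExpand (d : ℕ) [NeZero d] :
    jSeries d = qExpand Kbar d (coeffEmb Kbar jq) :=
  coeffEmb_qExpand Kbar d jq

/-- The generators `j(q^d)`, `d ∣ N`, as elements of the function field. -/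
def genSetF : Set (FN N) := {x | ∃ (d : ℕ) (_ : NeZero d) (hd : d ∣ N), x = jBarD N d hd}

theorem jBarD_mem_genSetF (d : ℕ) [NeZero d] (hd : d ∣ N) : jBarD N d hd ∈ genSetF N :=
  ⟨d, inferInstance, hd, rfl⟩

theorem val_image_genSetF :
    (fun x : FN N => (x : LaurentSeries Kbar)) '' genSetF N = genSet Kbar N := by
  ext x
  rw [mem_genSet_iff]
  constructor
  · rintro ⟨y, ⟨d, hd0, hd, rfl⟩, rfl⟩
    exact ⟨d, hd0, hd, rfl⟩
  · rintro ⟨d, hd0, hd, rfl⟩
    exact ⟨jBarD N d hd, ⟨d, hd0, hd, rfl⟩, rfl⟩

/-- The `ℚ̄`-subalgebra of the function field generated by the `j(q^d)`, `d ∣ N`. -/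
noncomputable def AN : Subalgebra Kbar (FN N) := Algebra.adjoin Kbar (genSetF N)

theorem jBarD_mem_AN (d : ℕ) [NeZero d] (hd : d ∣ N) : jBarD N d hd ∈ AN N :=
  Algebra.subset_adjoin (jBarD_mem_genSetF N d hd)

theorem jBar_mem_AN : jBar N ∈ AN N := jBarD_mem_AN N 1 (one_dvd N)

theorem map_val_AN :
    (AN N).map (modularFunctionFieldBar N).val = Algebra.adjoin Kbar (genSet Kbar N) := by
  rw [AN, AlgHom.map_adjoin, ← val_image_genSetF]
  rfl

/-- Every element of the function field is a quotient of two elements of `AN N`. -/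
theorem exists_div_AN (z : FN N) : ∃ a b : AN N, (b : FN N) ≠ 0 ∧ z = (a : FN N) / (b : FN N) := by
  obtain ⟨r, hr, s, hs, hs0, hz⟩ := exists_div_of_mem_laurentBaseChange Kbar z.2
  rw [← map_val_AN] at hr hs
  obtain ⟨a, ha, rfl⟩ := hr
  obtain ⟨b, hb, rfl⟩ := hs
  refine ⟨⟨a, ha⟩, ⟨b, hb⟩, ?_, ?_⟩
  · intro hb0
    apply hs0
    show (modularFunctionFieldBar N).val b = 0
    rw [show b = 0 from hb0, map_zero]
  · apply Subtype.ext
    rw [hz]
    show (modularFunctionFieldBar N).val a / (modularFunctionFieldBar N).val b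
      = (modularFunctionFieldBar N).val (a / b)
    rw [map_div₀]

/-- The function field is the field of fractions of `AN N`. -/
instance isFractionRing_AN : IsFractionRing (AN N) (FN N) :=
  IsFractionRing.of_field _ _ fun z => by
    obtain ⟨a, b, _, hz⟩ := exists_div_AN N z
    exact ⟨a, b, hz⟩

/-- An injective ring hom out of `AN N` into a field extends to the function field. -/
theorem exists_ringHom_extension {Ω : Type*} [Field Ω] (g : AN N →+* Ω)
    (hg : Function.Injective g) :
    ∃ f : FN N →+* Ω, ∀ a : AN N, f (a : FN N) = g a :=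
  ⟨IsFractionRing.lift hg, fun a => IsFractionRing.lift_algebraMap hg a⟩

/-- An injective algebra hom out of `AN N` into a field extends to the function field. -/
theorem exists_algHom_extension {Ω : Type*} [Field Ω] [Algebra Kbar Ω] (g : AN N →ₐ[Kbar] Ω)
    (hg : Function.Injective g) :
    ∃ f : FN N →ₐ[Kbar] Ω, ∀ a : AN N, f (a : FN N) = g a :=
  ⟨IsFractionRing.liftAlgHom hg, fun a => IsFractionRing.lift_algebraMap hg a⟩

/-- Two ring homs out of the function field into a field that agree on `AN N` are equal. -/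
theorem ringHom_ext_of_AN {Ω : Type*} [Field Ω] {f g : FN N →+* Ω}
    (h : ∀ a : AN N, f (a : FN N) = g (a : FN N)) : f = g := by
  ext z
  obtain ⟨a, b, _, rfl⟩ := exists_div_AN N z
  rw [map_div₀, map_div₀, h a, h b]

/-- Two ring homs out of the function field into a field that agree on constants and on the
generators `j(q^d)`, `d ∣ N`, are equal. -/
theorem ringHom_ext_of_gen {Ω : Type*} [Field Ω] {f g : FN N →+* Ω}
    (hK : ∀ c : Kbar, f (algebraMap Kbar (FN N) c) = g (algebraMap Kbar (FN N) c))
    (hgen : ∀ (d : ℕ) [NeZero d] (hd : d ∣ N), f (jBarD N d hd) = g (jBarD N d hd)) : f = g := by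
  apply ringHom_ext_of_AN
  rintro ⟨a, ha⟩
  show f a = g a
  unfold AN at ha
  induction ha using Algebra.adjoin_induction with
  | mem x hx =>
      obtain ⟨d, hd0, hd, rfl⟩ := hx
      exact hgen d hd
  | algebraMap c => exact hK c
  | add x y _ _ hx hy => rw [map_add, map_add, hx, hy]
  | mul x y _ _ hx hy => rw [map_mul, map_mul, hx, hy]

/-- `j` is transcendental over `ℚ̄` (the statement `Stmt_JTranscendental` of the spec). -/
theorem transcendental_jBar : Transcendental Kbar (jBar N) := by
  intro halg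
  apply transcendental_coeffEmb_jq Kbar
  have h := halg.algHom (modularFunctionFieldBar N).val
  have hval : (modularFunctionFieldBar N).val (jBar N) = coeffEmb Kbar jq := coe_jBar N
  rwa [hval] at h

theorem stmt_JTranscendental : Stmt_JTranscendental := fun N _ => transcendental_jBar N

end Bar

end Fermat.Agent.S24.helper3176
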