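/-
S24, MODULE M4 (helper1200): the local datum at the cusp (`Stmt_LocalInf` of the specification)
from an evaluation datum `Stmt_EvGen` (ring hom from `ℚ̄[j(q^d) : d ∣ N]` to functions on the
upper half plane with the expected values on generators, injective).

Route: `Ω` is the subfield of `Frac(Hol)` of elements meromorphic at `i∞` in the parameter
`t = exp(2πiτ/N)` (file `helper1200_CuspField`), with the order in `t` as valuation and the
translation `τ ↦ τ + 1` as automorphism.  No Laurent series are used.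
-/
import Fermat.Agent.S24.helper24_Spec
import Fermat.Agent.S24.helper3176_FieldAlg
import Fermat.Agent.S24.helper288_Hermite
import Fermat.Agent.S24.helper1644_AnalyticJ
import Fermat.Agent.S24.helper1200_CuspField

set_option autoImplicit false
set_option linter.unusedSectionVars false

open Filter Topology UpperHalfPlane Complex ModularCurve CongruenceSubgroup
open scoped MatrixGroups Manifold

namespace Fermat.Agent.S24.helper1200

open Fermat.Agent.S24.helper24

noncomputable section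

/-! ### The ring of holomorphic functions on the upper half plane -/

/-- Holomorphic functions on the upper half plane. -/
def Hol : Subring (ℍ → ℂ) where
  carrier := {f | DifferentiableOn ℂ (f ∘ ofComplex) {z : ℂ | 0 < z.im}}
  mul_mem' := fun {f g} hf hg => by
    have h : DifferentiableOn ℂ (fun z => (f ∘ ofComplex) z * (g ∘ ofComplex) z)
        {z : ℂ | 0 < z.im} := hf.mul hg
    exact h
  one_mem' := differentiableOn_const (1 : ℂ)
  add_mem' := fun {f g} hf hg => by
    have h : DifferentiableOn ℂ (fun z => (f ∘ ofComplex) z + (g ∘ ofComplex) z)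
        {z : ℂ | 0 < z.im} := hf.add hg
    exact h
  zero_mem' := differentiableOn_const (0 : ℂ)
  neg_mem' := fun {f} hf => by
    have h : DifferentiableOn ℂ (fun z => -(f ∘ ofComplex) z) {z : ℂ | 0 < z.im} := hf.neg
    exact h

theorem mem_Hol_iff {f : ℍ → ℂ} :
    f ∈ Hol ↔ DifferentiableOn ℂ (f ∘ ofComplex) {z : ℂ | 0 < z.im} := Iff.rfl

theorem mem_Hol_of_mdiff {f : ℍ → ℂ} (hf : MDiff f) : f ∈ Hol :=
  UpperHalfPlane.mdifferentiable_iff.mp hf

theorem mdiff_coe_Hol (f : Hol) : MDiff (f : ℍ → ℂ) :=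
  UpperHalfPlane.mdifferentiable_iff.mpr f.2

instance : NoZeroDivisors Hol where
  eq_zero_or_eq_zero_of_mul_eq_zero := by
    intro a b hab
    have h : (a : ℍ → ℂ) * (b : ℍ → ℂ) = 0 := congrArg Subtype.val hab
    rcases (UpperHalfPlane.mul_eq_zero_iff (mdiff_coe_Hol a) (mdiff_coe_Hol b)).mp h with h | h
    · exact Or.inl (Subtype.ext h)
    · exact Or.inr (Subtype.ext h)

instance : IsDomain Hol := NoZeroDivisors.to_isDomain _

/-- Evaluation of holomorphic functions. -/
def holEv : Hol →+* (ℍ → ℂ) := Hol.subtype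

@[simp] theorem holEv_apply (f : Hol) : holEv f = (f : ℍ → ℂ) := rfl

theorem identityAtCusp_holEv : IdentityAtCusp holEv := by
  intro c hc
  rw [Filter.Eventually, atImInfty_mem] at hc
  obtain ⟨A, hA⟩ := hc
  have hf : DifferentiableOn ℂ ((c : ℍ → ℂ) ∘ ofComplex) {z : ℂ | 0 < z.im} := c.2
  have han := hf.analyticOnNhd isOpen_upperHalfPlaneSet
  have hz₀ : ((|A| + 1 : ℝ) : ℂ) * Complex.I ∈ {z : ℂ | 0 < z.im} := by
    show 0 < (((|A| + 1 : ℝ) : ℂ) * Complex.I).im
    rw [Complex.mul_im, Complex.ofReal_re, Complex.I_im, Complex.ofReal_im, Complex.I_re]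
    have := abs_nonneg A
    linarith
  have hev : ((c : ℍ → ℂ) ∘ ofComplex) =ᶠ[𝓝 (((|A| + 1 : ℝ) : ℂ) * Complex.I)] 0 := by
    have hopen : IsOpen {z : ℂ | A < z.im ∧ 0 < z.im} :=
      (isOpen_lt continuous_const Complex.continuous_im).inter
        (isOpen_lt continuous_const Complex.continuous_im)
    have hmem : ((|A| + 1 : ℝ) : ℂ) * Complex.I ∈ {z : ℂ | A < z.im ∧ 0 < z.im} := by
      refine ⟨?_, hz₀⟩
      show A < (((|A| + 1 : ℝ) : ℂ) * Complex.I).im
      rw [Complex.mul_im, Complex.ofReal_re, Complex.I_im, Complex.ofReal_im, Complex.I_re]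
      linarith [le_abs_self A]
    filter_upwards [hopen.mem_nhds hmem] with z hz
    have him : (ofComplex z).im = z.im := by
      rw [ofComplex_apply_of_im_pos hz.2]
      rfl
    exact hA (ofComplex z) (by rw [him]; exact hz.1.le)
  have h0 := han.eqOn_zero_of_preconnected_of_eventuallyEq_zero
    (Complex.isConnected_of_upperHalfPlane subset_rfl (by grind)).isPreconnected hz₀ hev
  apply Subtype.ext
  funext τ
  have h1 := h0 τ.im_pos
  simpa [ofComplex_apply] using h1

/-- Meromorphic functions on the upper half plane. -/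
abbrev Mer : Type := FractionRing Hol

/-- Constant functions. -/
def constHol : ℂ →+* Hol where
  toFun c := ⟨fun _ => c, differentiableOn_const c⟩
  map_one' := rfl
  map_mul' _ _ := rfl
  map_zero' := rfl
  map_add' _ _ := rfl

@[simp] theorem constHol_apply (c : ℂ) (τ : ℍ) : (constHol c : ℍ → ℂ) τ = c := rfl

/-- Precomposition with the action of an element of `SL(2, ℤ)`. -/
def compHol (g : SL(2, ℤ)) : Hol →+* Hol where
  toFun f := ⟨fun τ => (f : ℍ → ℂ) (g • τ), mem_Hol_of_mdiff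
    ((mdiff_coe_Hol f).comp (mdifferentiable_smul (g := (g : GL (Fin 2) ℝ)) (by simp)))⟩
  map_one' := rfl
  map_mul' _ _ := rfl
  map_zero' := rfl
  map_add' _ _ := rfl

@[simp] theorem compHol_apply (g : SL(2, ℤ)) (f : Hol) (τ : ℍ) :
    (compHol g f : ℍ → ℂ) τ = (f : ℍ → ℂ) (g • τ) := rfl

theorem compHol_compHol (g h : SL(2, ℤ)) (f : Hol) :
    compHol g (compHol h f) = compHol (h * g) f := by
  apply Subtype.ext
  funext τ
  simp only [compHol_apply, mul_smul]

theorem compHol_one (f : Hol) : compHol 1 f = f := by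
  apply Subtype.ext
  funext τ
  simp only [compHol_apply, one_smul]

theorem compHol_injective (g : SL(2, ℤ)) : Function.Injective (compHol g) := by
  intro f f' h
  have := congrArg (compHol g⁻¹) h
  simpa [compHol_compHol, compHol_one] using this

theorem compHol_constHol (g : SL(2, ℤ)) (c : ℂ) : compHol g (constHol c) = constHol c := rfl

/-- The translation `τ ↦ τ + 1` on `Hol`. -/
def shiftHol : Hol ≃+* Hol :=
  RingEquiv.ofRingHom (compHol ModularGroup.T) (compHol ModularGroup.T⁻¹)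
    (by ext f : 1; simp [compHol_compHol, compHol_one])
    (by ext f : 1; simp [compHol_compHol, compHol_one])

theorem shiftHol_apply (f : Hol) : shiftHol f = compHol ModularGroup.T f := rfl

/-- The translation data on `Hol` and `Mer`. -/
def holShiftData : ShiftData holEv Mer where
  s := shiftHol
  σ := IsFractionRing.ringEquivOfRingEquiv shiftHol
  hs := by
    intro a τ
    rw [holEv_apply, holEv_apply, shiftHol_apply, compHol_apply, modular_T_smul]
  hσ := fun a => IsFractionRing.ringEquivOfRingEquiv_algebraMap shiftHol a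

/-! ### The cusp function of `j` -/

/-- `Jc q = jnFun q / q`, so that `j(τ) = Jc (exp (2πiτ))`. -/
def Jc (q : ℂ) : ℂ := helper1644.jnFun q / q

/-- `JcInv q = q / jnFun q`, so that `1 / j(τ) = JcInv (exp (2πiτ))`. -/
def JcInv (q : ℂ) : ℂ := q / helper1644.jnFun q

theorem jFun_eq_Jc (τ : ℍ) : jFun τ = Jc (Function.Periodic.qParam 1 (τ : ℂ)) := by
  have hq : Function.Periodic.qParam 1 (τ : ℂ) ≠ 0 := Function.Periodic.qParam_ne_zero _
  have h := helper1644.jnFun_qParam τ
  rw [Jc, h, mul_div_cancel_left₀ _ hq]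
  rfl

theorem jFn_eq_jFun : helper288.jFn = jFun := by
  funext τ
  rw [helper288.jFn_apply]
  rfl

theorem jFun_smul (γ : SL(2, ℤ)) (τ : ℍ) : jFun (γ • τ) = jFun τ :=
  helper1644.jFun_smul γ τ

theorem analyticAt_jnFun : AnalyticAt ℂ helper1644.jnFun 0 :=
  helper1644.differentiableOn_jnFun.analyticAt helper1644.ball_mem_nhds_zero

theorem jnFun_zero : helper1644.jnFun 0 = 1 := by
  have h := helper1644.hasSum_jNumQ_disc (z := 0) (by simp)
  have h2 : HasSum (fun n : ℕ => ((PowerSeries.coeff n ModularCurve.jNumQ : ℚ) : ℂ) * (0 : ℂ) ^ n)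
      1 := by
    have h3 := hasSum_single
      (f := fun n : ℕ => ((PowerSeries.coeff n ModularCurve.jNumQ : ℚ) : ℂ) * (0 : ℂ) ^ n) 0
      (by intro n hn; simp [hn])
    simpa [PowerSeries.coeff_zero_eq_constantCoeff] using h3
  exact h.unique h2

theorem meromorphicAt_Jc : MeromorphicAt Jc 0 :=
  analyticAt_jnFun.meromorphicAt.fun_div analyticAt_id.meromorphicAt

theorem meromorphicAt_JcInv : MeromorphicAt JcInv 0 :=
  analyticAt_id.meromorphicAt.fun_div analyticAt_jnFun.meromorphicAt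

theorem Jc_inv : Jc⁻¹ = JcInv := by
  funext q
  simp [Jc, JcInv]

theorem meromorphicOrderAt_JcInv : meromorphicOrderAt JcInv 0 = ((1 : ℤ) : WithTop ℤ) := by
  rw [meromorphicOrderAt_eq_int_iff meromorphicAt_JcInv]
  refine ⟨fun q => (helper1644.jnFun q)⁻¹, analyticAt_jnFun.inv (by simp [jnFun_zero]),
    by simp [jnFun_zero], ?_⟩
  filter_upwards with q
  simp [JcInv, div_eq_mul_inv]

theorem qParam_one_eq_cuspT_pow (N : ℕ) [NeZero N] (τ : ℍ) :
    Function.Periodic.qParam 1 (τ : ℂ) = cuspT N τ ^ N := by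
  unfold cuspT Function.Periodic.qParam
  rw [← Complex.exp_nat_mul]
  congr 1
  have hN : (N : ℂ) ≠ 0 := Nat.cast_ne_zero.mpr (NeZero.ne N)
  push_cast
  field_simp

/-! ### The evaluation datum -/

section Main

open helper3176

variable {N : ℕ} [NeZero N]

/-- Induction principle for the algebra `AN N = ℚ̄[j(q^d) : d ∣ N]`. -/
theorem AN_induction {P : AN N → Prop}
    (hgen : ∀ (d : ℕ) [NeZero d] (hd : d ∣ N), P ⟨jBarD N d hd, jBarD_mem_AN N d hd⟩)
    (hc : ∀ c : Kbar, P (algebraMap Kbar (AN N) c))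
    (hadd : ∀ a b, P a → P b → P (a + b)) (hmul : ∀ a b, P a → P b → P (a * b))
    (a : AN N) : P a := by
  obtain ⟨x, hx⟩ := a
  have key : ∀ (x : FN N) (hx : x ∈ Algebra.adjoin Kbar (genSetF N)),
      P ⟨x, hx⟩ := by
    intro x hx
    induction hx using Algebra.adjoin_induction with
    | mem x hx =>
      obtain ⟨d, hd0, hd, rfl⟩ := hx
      exact hgen d hd
    | algebraMap c => exact hc c
    | add x y hx hy hPx hPy => exact hadd ⟨x, hx⟩ ⟨y, hy⟩ hPx hPy
    | mul x y hx hy hPx hPy => exact hmul ⟨x, hx⟩ ⟨y, hy⟩ hPx hPy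
  exact key x hx

/-- The hypotheses on an evaluation datum. -/
structure IsEvGen (N : ℕ) [NeZero N] (i0 : Kbar →+* ℂ) (ev : AN N →+* (ℍ → ℂ)) : Prop where
  const : ∀ c : Kbar, ev (algebraMap Kbar (AN N) c) = fun _ => i0 c
  gen : ∀ (d : ℕ) [NeZero d] (hd : d ∣ N),
    ev ⟨jBarD N d hd, jBarD_mem_AN N d hd⟩ = fun τ : ℍ => jFun (ofComplex ((d : ℂ) * (τ : ℂ)))
  inj : Function.Injective ev

variable {i0 : Kbar →+* ℂ} {ev : AN N →+* (ℍ → ℂ)}

theorem jFun_mul_mem_Hol (d : ℕ) [NeZero d] :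
    (fun τ : ℍ => jFun (ofComplex ((d : ℂ) * (τ : ℂ)))) ∈ Hol := by
  rw [mem_Hol_iff]
  have hd : (0 : ℝ) < d := Nat.cast_pos.mpr (NeZero.pos d)
  have hmaps : Set.MapsTo (fun z : ℂ => (d : ℂ) * z) {z : ℂ | 0 < z.im} {z : ℂ | 0 < z.im} := by
    intro z hz
    show 0 < ((d : ℂ) * z).im
    rw [Complex.mul_im, Complex.natCast_re, Complex.natCast_im, zero_mul, add_zero]
    exact mul_pos hd hz
  have h1 : DifferentiableOn ℂ ((helper1644.jFun ∘ ofComplex) ∘ fun z : ℂ => (d : ℂ) * z)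
      {z : ℂ | 0 < z.im} :=
    helper1644.differentiableOn_jFun_comp_ofComplex.comp
      ((differentiable_id.const_mul (d : ℂ)).differentiableOn) hmaps
  refine h1.congr ?_
  intro z hz
  show jFun (ofComplex ((d : ℂ) * ((ofComplex z : ℍ) : ℂ))) = helper1644.jFun (ofComplex ((d : ℂ) * z))
  rw [ofComplex_apply_of_im_pos hz]
  rfl

theorem IsEvGen.mem_Hol (h : IsEvGen N i0 ev) (a : AN N) : ev a ∈ Hol := by
  induction a using AN_induction with
  | hgen d hd => rw [h.gen d hd]; exact jFun_mul_mem_Hol d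
  | hc c => rw [h.const c]; exact (constHol (i0 c)).2
  | hadd a b ha hb => rw [map_add]; exact Hol.add_mem ha hb
  | hmul a b ha hb => rw [map_mul]; exact Hol.mul_mem ha hb

/-- Invariance under `Γ₀(N)`. -/
theorem IsEvGen.apply_smul_of_mem_Gamma0 (h : IsEvGen N i0 ev) (a : AN N) (γ : SL(2, ℤ))
    (hγ : γ ∈ Gamma0 N) (τ : ℍ) : ev a (γ • τ) = ev a τ := by
  induction a using AN_induction with
  | hgen d hd =>
    rw [h.gen d hd]
    have := helper288.jFn_mul_smul_of_mem_Gamma0 N d (NeZero.pos d) hd γ hγ τ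
    rw [jFn_eq_jFun] at this
    exact this
  | hc c => rw [h.const c]
  | hadd a b ha hb => rw [map_add, Pi.add_apply, Pi.add_apply, ha, hb]
  | hmul a b ha hb => rw [map_mul, Pi.mul_apply, Pi.mul_apply, ha, hb]

/-- Every conjugate of an element of `AN N` is a meromorphic function of `t = exp(2πiτ/N)`. -/
theorem IsEvGen.exists_germ (h : IsEvGen N i0 ev) (g : SL(2, ℤ)) (a : AN N) :
    ∃ H : ℂ → ℂ, MeromorphicAt H 0 ∧ ∀ τ : ℍ, ev a (g • τ) = H (cuspT N τ) := by
  induction a using AN_induction with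
  | hgen d hd =>
    obtain ⟨a, b, e, ha, he, hae, -, -, hJ⟩ := helper288.exists_jFn_mul_smul g d (NeZero.pos d)
    have hedvd : e ∣ (N : ℤ) :=
      (Dvd.intro_left a hae).trans (Int.natCast_dvd_natCast.mpr hd)
    obtain ⟨k', hk'⟩ := hedvd
    have hNpos : (0 : ℤ) < N := by exact_mod_cast NeZero.pos N
    have hk'pos : 0 < k' := by
      rw [hk'] at hNpos
      by_contra hneg
      rw [not_lt] at hneg
      nlinarith
    have hk : e * ((k'.toNat : ℕ) : ℤ) = (N : ℤ) := by
      rw [Int.toNat_of_nonneg hk'pos.le, ← hk']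
    have hq := helper288.qParam_affinePt a b e ha he N k'.toNat (NeZero.pos N) hk
    have hm : a.toNat * k'.toNat ≠ 0 := by
      have h1 : 0 < a.toNat := by omega
      have h2 : 0 < k'.toNat := by omega
      exact (Nat.mul_pos h1 h2).ne'
    refine ⟨fun t => Jc (Complex.exp (2 * Real.pi * Complex.I * b / e) * t ^ (a.toNat * k'.toNat)),
      meromorphicAt_comp_mul_pow meromorphicAt_Jc _ _ hm, fun τ => ?_⟩
    rw [h.gen d hd]
    show jFun (ofComplex ((d : ℂ) * ((g • τ : ℍ) : ℂ))) = _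
    have h3 := hJ τ
    rw [jFn_eq_jFun] at h3
    rw [h3, jFun_eq_Jc, hq τ]
    rfl
  | hc c => exact ⟨fun _ => i0 c, MeromorphicAt.const _ _, fun τ => by rw [h.const c]⟩
  | hadd a b ha hb =>
    obtain ⟨H, hH, hH'⟩ := ha
    obtain ⟨H2, hH2, hH2'⟩ := hb
    exact ⟨H + H2, hH.add hH2, fun τ => by
      rw [map_add, Pi.add_apply, Pi.add_apply, hH', hH2']⟩
  | hmul a b ha hb =>
    obtain ⟨H, hH, hH'⟩ := ha
    obtain ⟨H2, hH2, hH2'⟩ := hb
    exact ⟨H * H2, hH.mul hH2, fun τ => by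
      rw [map_mul, Pi.mul_apply, Pi.mul_apply, hH', hH2']⟩

/-- The evaluation as a ring hom into `Hol`. -/
def IsEvGen.evHol (h : IsEvGen N i0 ev) : AN N →+* Hol :=
  ev.codRestrict Hol h.mem_Hol

theorem IsEvGen.evHol_apply (h : IsEvGen N i0 ev) (a : AN N) (τ : ℍ) :
    (h.evHol a : ℍ → ℂ) τ = ev a τ := rfl

theorem IsEvGen.evHol_injective (h : IsEvGen N i0 ev) : Function.Injective h.evHol := by
  intro a b hab
  apply h.inj
  exact congrArg Subtype.val hab

/-- The conjugate embedding `a ↦ (ev a) ∘ g⁻¹` on `AN N`, with values in `Mer`. -/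
def IsEvGen.phi (h : IsEvGen N i0 ev) (g : SL(2, ℤ)) : AN N →+* Mer :=
  (algebraMap Hol Mer).comp ((compHol g⁻¹).comp h.evHol)

theorem IsEvGen.phi_apply (h : IsEvGen N i0 ev) (g : SL(2, ℤ)) (a : AN N) :
    h.phi g a = algebraMap Hol Mer (compHol g⁻¹ (h.evHol a)) := rfl

theorem IsEvGen.phi_injective (h : IsEvGen N i0 ev) (g : SL(2, ℤ)) :
    Function.Injective (h.phi g) :=
  (IsFractionRing.injective Hol Mer).comp ((compHol_injective g⁻¹).comp h.evHol_injective)

/-- The conjugate embedding `f ↦ (ev f) ∘ g⁻¹` of the function field into `Mer`. -/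
def IsEvGen.iotaG (h : IsEvGen N i0 ev) (g : SL(2, ℤ)) : FN N →+* Mer :=
  IsFractionRing.lift (h.phi_injective g)

theorem IsEvGen.iotaG_coe (h : IsEvGen N i0 ev) (g : SL(2, ℤ)) (a : AN N) :
    h.iotaG g (a : FN N) = h.phi g a :=
  IsFractionRing.lift_algebraMap (h.phi_injective g) a

theorem IsEvGen.isCuspGerm_phi (h : IsEvGen N i0 ev) (g : SL(2, ℤ)) (a : AN N) :
    ∃ H, IsCuspGerm holEv Mer N (h.phi g a) H := by
  obtain ⟨H, hH, hH'⟩ := h.exists_germ g⁻¹ a
  exact ⟨H, isCuspGerm_algebraMap hH (Eventually.of_forall fun τ => hH' τ)⟩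

theorem IsEvGen.isCuspGerm_iotaG (h : IsEvGen N i0 ev) (g : SL(2, ℤ)) (f : FN N) :
    ∃ H, IsCuspGerm holEv Mer N (h.iotaG g f) H := by
  obtain ⟨a, b, -, rfl⟩ := exists_div_AN N f
  obtain ⟨H, hH⟩ := h.isCuspGerm_phi g a
  obtain ⟨H', hH'⟩ := h.isCuspGerm_phi g b
  refine ⟨H / H', ?_⟩
  rw [map_div₀, h.iotaG_coe, h.iotaG_coe]
  exact hH.div identityAtCusp_holEv hH'

theorem IsEvGen.iotaG_eq_of_mem (h : IsEvGen N i0 ev) {g g' : SL(2, ℤ)}
    (hgg' : g⁻¹ * g' ∈ Gamma0 N) : h.iotaG g = h.iotaG g' := by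
  apply ringHom_ext_of_AN
  intro a
  rw [h.iotaG_coe, h.iotaG_coe, h.phi_apply, h.phi_apply]
  congr 1
  apply Subtype.ext
  funext τ
  rw [compHol_apply, compHol_apply, h.evHol_apply, h.evHol_apply]
  have hγ : g'⁻¹ * g ∈ Gamma0 N := by
    have := (Gamma0 N).inv_mem hgg'
    simpa [mul_inv_rev] using this
  have h1 := h.apply_smul_of_mem_Gamma0 a (g'⁻¹ * g) hγ (g⁻¹ • τ)
  rw [← mul_smul, mul_assoc, mul_inv_cancel, mul_one] at h1
  exact h1.symm

theorem IsEvGen.sigma_iotaG (h : IsEvGen N i0 ev) (g : SL(2, ℤ)) (f : FN N) :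
    holShiftData.σ (h.iotaG g f) = h.iotaG (ModularGroup.T⁻¹ * g) f := by
  have key : (holShiftData.σ : Mer →+* Mer).comp (h.iotaG g)
      = h.iotaG (ModularGroup.T⁻¹ * g) := by
    apply ringHom_ext_of_AN
    intro a
    rw [RingHom.comp_apply, h.iotaG_coe, h.iotaG_coe, h.phi_apply, h.phi_apply]
    show holShiftData.σ (algebraMap Hol Mer (compHol g⁻¹ (h.evHol a))) = _
    rw [holShiftData.hσ]
    show algebraMap Hol Mer (compHol ModularGroup.T (compHol g⁻¹ (h.evHol a))) = _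
    rw [compHol_compHol, mul_inv_rev, inv_inv]
  exact congrArg (fun φ : FN N →+* Mer => φ f) key

theorem IsEvGen.mem_of_iotaG_eq (h : IsEvGen N i0 ev) {g g' : SL(2, ℤ)}
    (hgg' : h.iotaG g = h.iotaG g') : g⁻¹ * g' ∈ Gamma0 N := by
  have h1 : h.phi g ⟨jBarD N N dvd_rfl, jBarD_mem_AN N N dvd_rfl⟩
      = h.phi g' ⟨jBarD N N dvd_rfl, jBarD_mem_AN N N dvd_rfl⟩ := by
    rw [← h.iotaG_coe, ← h.iotaG_coe, hgg']
  rw [h.phi_apply, h.phi_apply] at h1
  have h2 := IsFractionRing.injective Hol Mer h1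
  have h3 : ∀ τ : ℍ, helper288.jFn (ofComplex ((N : ℂ) * ((g⁻¹ • τ : ℍ) : ℂ)))
      = helper288.jFn (ofComplex ((N : ℂ) * ((g'⁻¹ • τ : ℍ) : ℂ))) := by
    intro τ
    have h4 := congrArg (fun φ : Hol => (φ : ℍ → ℂ) τ) h2
    simp only [compHol_apply, h.evHol_apply] at h4
    rw [h.gen N dvd_rfl] at h4
    rw [jFn_eq_jFun]
    exact h4
  have h5 := helper288.mul_inv_mem_Gamma0_of_jFn_eq N g⁻¹ g'⁻¹ h3
  simpa using h5

/-- The class of `j` in `Mer`. -/
def jHol : Hol := ⟨jFun, mem_Hol_of_mdiff helper1644.mdifferentiable_jFun⟩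

theorem IsEvGen.iotaG_jBar (h : IsEvGen N i0 ev) (g : SL(2, ℤ)) :
    h.iotaG g (jBar N) = algebraMap Hol Mer jHol := by
  have h1 : h.iotaG g ((⟨jBar N, jBar_mem_AN N⟩ : AN N) : FN N) = h.phi g ⟨jBar N, jBar_mem_AN N⟩ :=
    h.iotaG_coe g _
  rw [show ((⟨jBar N, jBar_mem_AN N⟩ : AN N) : FN N) = jBar N from rfl] at h1
  rw [h1, h.phi_apply]
  congr 1
  apply Subtype.ext
  funext τ
  rw [compHol_apply, h.evHol_apply]
  have h2 := h.gen 1 (one_dvd N)
  have h3 : ev ⟨jBar N, jBar_mem_AN N⟩ = fun τ : ℍ => jFun (ofComplex (((1 : ℕ) : ℂ) * (τ : ℂ))) :=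
    h2
  rw [h3]
  show jFun (ofComplex (((1 : ℕ) : ℂ) * ((g⁻¹ • τ : ℍ) : ℂ))) = jFun τ
  rw [Nat.cast_one, one_mul, ofComplex_apply, jFun_smul]

theorem isCuspGerm_jHol (N : ℕ) [NeZero N] :
    IsCuspGerm holEv Mer N (algebraMap Hol Mer jHol) (fun t => Jc (t ^ N)) := by
  refine isCuspGerm_algebraMap ?_ (Eventually.of_forall fun τ => ?_)
  · have := meromorphicAt_comp_mul_pow meromorphicAt_Jc 1 N (NeZero.ne N)
    simpa using this
  · show jFun τ = Jc (cuspT N τ ^ N)
    rw [jFun_eq_Jc, qParam_one_eq_cuspT_pow N]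

theorem isCuspGerm_jHol_inv (N : ℕ) [NeZero N] :
    IsCuspGerm holEv Mer N (algebraMap Hol Mer jHol)⁻¹ (fun t => JcInv (t ^ N)) := by
  have h := (isCuspGerm_jHol N).inv identityAtCusp_holEv
  have e : (fun t => Jc (t ^ N))⁻¹ = fun t => JcInv (t ^ N) := by
    funext t
    rw [← Jc_inv]
    rfl
  rwa [e] at h

theorem meromorphicOrderAt_JcInv_pow (N : ℕ) [NeZero N] :
    meromorphicOrderAt (fun t => JcInv (t ^ N)) 0 = ((N : ℤ) : WithTop ℤ) := by
  rw [meromorphicOrderAt_comp_pow meromorphicAt_JcInv N (NeZero.ne N), meromorphicOrderAt_JcInv]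
  simp

/-- **The local datum at the cusp** from an evaluation datum. -/
theorem localDatum_cusp_of_isEvGen (h : IsEvGen N i0 ev) :
    LocalDatum N (jBar N)⁻¹ N ModularGroup.T := by
  let alg : Algebra Kbar Mer := ((algebraMap Hol Mer).comp (constHol.comp i0)).toAlgebra
  have halg : ∀ c : Kbar, algebraMap Kbar Mer c = algebraMap Hol Mer (constHol (i0 c)) :=
    fun _ => rfl
  have hK : ConstantsAreConst holEv Mer Kbar :=
    fun c => ⟨constHol (i0 c), i0 c, halg c, fun τ => rfl⟩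
  have hcomm : ∀ (g : SL(2, ℤ)) (c : Kbar),
      h.iotaG g (algebraMap Kbar (FN N) c) = algebraMap Kbar Mer c := by
    intro g c
    have h1 : h.iotaG g ((algebraMap Kbar (AN N) c : AN N) : FN N)
        = h.phi g (algebraMap Kbar (AN N) c) := h.iotaG_coe g _
    rw [show ((algebraMap Kbar (AN N) c : AN N) : FN N) = algebraMap Kbar (FN N) c from rfl] at h1
    rw [h1, h.phi_apply, halg]
    congr 1
    apply Subtype.ext
    funext τ
    rw [compHol_apply, h.evHol_apply, h.const c]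
    rfl
  let ι : XN N → (FN N →ₐ[Kbar] Mer) := fun x =>
    { h.iotaG x.out with commutes' := fun c => hcomm x.out c }
  have hι_apply : ∀ x f, ι x f = h.iotaG x.out f := fun _ _ => rfl
  have hι : Function.Injective ι := by
    intro x x' hxx'
    have h1 : h.iotaG x.out = h.iotaG x'.out := by
      ext f
      rw [← hι_apply, ← hι_apply, hxx']
    have h2 := h.mem_of_iotaG_eq h1
    have h3 : (QuotientGroup.mk x.out : XN N) = QuotientGroup.mk x'.out := QuotientGroup.eq.mpr h2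
    rwa [QuotientGroup.out_eq', QuotientGroup.out_eq'] at h3
  have hmem : ∀ x f, ∃ H, IsCuspGerm holEv Mer N (ι x f) H := fun x f => h.isCuspGerm_iotaG x.out f
  have hξ : ∀ x, ι x (jBar N)⁻¹ = (algebraMap Hol Mer jHol)⁻¹ := by
    intro x
    rw [hι_apply, map_inv₀, h.iotaG_jBar]
  have hρ : ∀ x f, holShiftData.σ (ι x f) = ι (ModularGroup.T⁻¹ • x) f := by
    intro x f
    rw [hι_apply, hι_apply, h.sigma_iotaG]
    have h1 : (QuotientGroup.mk (ModularGroup.T⁻¹ * x.out) : XN N)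
        = QuotientGroup.mk (ModularGroup.T⁻¹ • x).out := by
      rw [QuotientGroup.out_eq']
      conv_rhs => rw [← QuotientGroup.out_eq' x]
      rfl
    rw [h.iotaG_eq_of_mem (QuotientGroup.eq.mp h1)]
  obtain ⟨w, ι', σ, ξ', h1, h2, h3, h4, h5, h6, h7⟩ :=
    exists_cusp_localDatum (N := N) identityAtCusp_holEv hK holShiftData ι hι hmem
      (jBar N)⁻¹ (algebraMap Hol Mer jHol)⁻¹ hξ (fun t => JcInv (t ^ N)) (isCuspGerm_jHol_inv N)
      (meromorphicOrderAt_JcInv_pow N) (fun x => ModularGroup.T⁻¹ • x) hρ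
  exact ⟨_, inferInstance, inferInstance, w, ι', σ, ξ', h1, h2, h3, NeZero.pos N, h4, h5,
    Or.inr h6, h7⟩

end Main

/-- The evaluation datum: for every level `N`, an injective ring hom from
`AN N = ℚ̄[j(q^d) : d ∣ N]` to functions on the upper half plane, sending constants to constants
(through an embedding `i0 : ℚ̄ → ℂ`) and `j(q^d)` to `τ ↦ j(dτ)`. -/
def Stmt_EvGen : Prop :=
  ∀ (N : ℕ) [NeZero N], ∃ (i0 : Kbar →+* ℂ) (ev : helper3176.AN N →+* (ℍ → ℂ)),
    (∀ c : Kbar, ev (algebraMap Kbar (helper3176.AN N) c) = fun _ => i0 c) ∧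
    (∀ (d : ℕ) [NeZero d] (hd : d ∣ N),
      ev ⟨jBarD N d hd, helper3176.jBarD_mem_AN N d hd⟩
        = fun τ : ℍ => jFun (ofComplex ((d : ℂ) * (τ : ℂ)))) ∧
    Function.Injective ev

/-- `Stmt_LocalInf` (the local datum at the cusp) from an evaluation datum. -/
theorem stmt_LocalInf_of_evGen (h : Stmt_EvGen) : Stmt_LocalInf := by
  intro N _
  obtain ⟨i0, ev, h1, h2, h3⟩ := h N
  exact localDatum_cusp_of_isEvGen ⟨h1, h2, h3⟩

end

end Fermat.Agent.S24.helper1200
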