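/-
S24, module M2-AN (helper167): symmetric functions of a finite family of holomorphic functions
on the upper half plane that is permuted by SL(2, Z) and has at most exponential growth at
i*infinity are polynomials in J = E4^3 / Delta.  Contains a self-contained version of "C4":
an SL(2, Z)-invariant holomorphic function f with Delta^m * f bounded at i*infinity is a
polynomial of degree at most m in J.  Mathlib only; hypothesis-passing.
-/
import Mathlib

set_option autoImplicit false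

open UpperHalfPlane ModularForm ModularFormClass MatrixGroups EisensteinSeries Filter
open scoped Manifold Topology

namespace Fermat.Agent.S24.helper167

local notation "Δ" => ModularForm.discriminant

/-- Every level-one modular form of weight `12 m` is `Δ^m` times a polynomial of degree `≤ m`
in `J = E₄^3 / Δ`. -/
theorem modularForm_eq_disc_pow_mul_poly (m : ℕ) :
    ∀ (k : ℤ), k = 12 * (m : ℤ) → ∀ g : ModularForm 𝒮ℒ k,
      ∃ P : Polynomial ℂ, P.natDegree ≤ m ∧
        ∀ τ : ℍ, g τ = Δ τ ^ m * P.eval (E₄ τ ^ 3 / Δ τ) := by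
  induction m with
  | zero =>
    intro k hk g
    have hk0 : k = 0 := by simpa using hk
    subst hk0
    obtain ⟨c, hc⟩ := levelOne_weight_zero_const g
    exact ⟨Polynomial.C c, by simp, fun τ => by simp [hc]⟩
  | succ m ih =>
    intro k hk g
    have hk' : ((3 * (m + 1) : ℕ) : ℤ) * 4 = k := by rw [hk]; push_cast; ring
    let E : ModularForm 𝒮ℒ k := ModularForm.mcast hk' (E₄.pow (3 * (m + 1)))
    have hE : ∀ τ, E τ = E₄ τ ^ (3 * (m + 1)) := fun τ =>
      congrFun (ModularForm.coe_pow E₄ (3 * (m + 1))) τ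
    have hE0 : (qExpansion 1 E).coeff 0 = 1 := by
      simp only [E, ModularForm.qExpansion_mcast,
        ModularForm.qExpansion_pow one_pos one_mem_strictPeriods_SL]
      rw [PowerSeries.coeff_zero_eq_constantCoeff, map_pow,
        ← PowerSeries.coeff_zero_eq_constantCoeff, E_qExpansion_coeff_zero _ ⟨2, rfl⟩, one_pow]
    obtain ⟨f, hf⟩ := sub_smul_isCuspForm g E hE0
    have hfg : ∀ τ, f τ = g τ - (qExpansion 1 g).coeff 0 * E τ := fun τ => by
      have := congrArg (fun F : ModularForm 𝒮ℒ k => F τ) hf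
      simpa using this
    obtain ⟨P, hP, hPe⟩ := ih (k - 12) (by rw [hk]; push_cast; ring) (CuspForm.discriminantEquiv f)
    refine ⟨P + Polynomial.C ((qExpansion 1 g).coeff 0) * Polynomial.X ^ (m + 1), ?_, fun τ => ?_⟩
    · refine (Polynomial.natDegree_add_le _ _).trans (max_le (hP.trans (Nat.le_succ m)) ?_)
      exact Polynomial.natDegree_C_mul_X_pow_le _ _
    · have hΔ : Δ τ ≠ 0 := discriminant_ne_zero τ
      have h1 := hPe τ
      rw [CuspForm.discriminantEquiv_apply, hfg τ, hE τ] at h1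
      have hJ : Δ τ ^ (m + 1) * (E₄ τ ^ 3 / Δ τ) ^ (m + 1) = E₄ τ ^ (3 * (m + 1)) := by
        rw [← mul_pow, mul_div_cancel₀ _ hΔ, ← pow_mul]
      have h2 : g τ = Δ τ * (Δ τ ^ m * Polynomial.eval (E₄ τ ^ 3 / Δ τ) P)
          + (qExpansion 1 g).coeff 0 * E₄ τ ^ (3 * (m + 1)) := by
        rw [← h1]
        field_simp
        ring
      rw [Polynomial.eval_add, Polynomial.eval_mul, Polynomial.eval_C, Polynomial.eval_pow,
        Polynomial.eval_X, h2, ← hJ]
      ring

/-- A holomorphic function with weight-`k` slash invariance under `SL(2, ℤ)` that is bounded at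
`i∞` is a level-one modular form. -/
noncomputable def levelOneOfInvariant (F : ℍ → ℂ) (k : ℤ) (hF : MDiff F)
    (hslash : ∀ γ : SL(2, ℤ), F ∣[k] γ = F) (hbdd : IsBoundedAtImInfty F) :
    ModularForm 𝒮ℒ k where
  toFun := F
  slash_action_eq' := fun _ ⟨γ, hγ⟩ => hγ ▸ hslash γ
  holo' := hF
  bdd_at_cusps' {c} hc := by
    rw [Subgroup.IsArithmetic.isCusp_iff_isCusp_SL2Z] at hc
    rw [OnePoint.isBoundedAt_iff_forall_SL2Z hc]
    intro γ _
    rw [hslash γ]
    exact hbdd

@[simp]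
theorem levelOneOfInvariant_apply (F : ℍ → ℂ) (k : ℤ) (hF : MDiff F)
    (hslash : ∀ γ : SL(2, ℤ), F ∣[k] γ = F) (hbdd : IsBoundedAtImInfty F) (τ : ℍ) :
    levelOneOfInvariant F k hF hslash hbdd τ = F τ := rfl

theorem discriminant_smul_eq (γ : SL(2, ℤ)) (τ : ℍ) :
    Δ (γ • τ) = denom γ τ ^ (12 : ℤ) * Δ τ := by
  have h := congrFun (SlashInvariantForm.slash_action_generators_SL2Z
    discriminant_S_invariant discriminant_T_invariant γ) τ
  rw [SL_slash_apply] at h
  have hd : denom γ τ ≠ 0 := denom_ne_zero γ τ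
  rw [← h, zpow_neg]
  field_simp

/-- **C4.** An `SL(2, ℤ)`-invariant holomorphic function `f` on `ℍ` such that `Δ^m * f` is bounded
at `i∞` is a polynomial of degree `≤ m` in `J = E₄^3 / Δ`. -/
theorem polyInJ_of_invariant (f : ℍ → ℂ) (hf : MDiff f)
    (hinv : ∀ (γ : SL(2, ℤ)) (τ : ℍ), f (γ • τ) = f τ) (m : ℕ)
    (hbdd : IsBoundedAtImInfty (fun τ => Δ τ ^ m * f τ)) :
    ∃ P : Polynomial ℂ, P.natDegree ≤ m ∧ ∀ τ : ℍ, f τ = P.eval (E₄ τ ^ 3 / Δ τ) := by
  have hslash : ∀ γ : SL(2, ℤ),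
      (fun τ => Δ τ ^ m * f τ) ∣[(12 * (m : ℤ))] γ = fun τ => Δ τ ^ m * f τ := by
    intro γ
    ext τ
    rw [SL_slash_apply, discriminant_smul_eq, hinv]
    have hd : denom γ τ ≠ 0 := denom_ne_zero γ τ
    rw [mul_pow, ← zpow_natCast (denom γ τ ^ (12 : ℤ)) m, ← zpow_mul, zpow_neg]
    field_simp
  have hhol : MDiff (fun τ => Δ τ ^ m * f τ) :=
    (CuspForm.discriminant.holo'.pow m).mul hf
  obtain ⟨P, hP, hPe⟩ := modularForm_eq_disc_pow_mul_poly m (12 * (m : ℤ)) rfl
    (levelOneOfInvariant _ _ hhol hslash hbdd)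
  refine ⟨P, hP, fun τ => ?_⟩
  have h := hPe τ
  rw [levelOneOfInvariant_apply] at h
  exact mul_left_cancel₀ (pow_ne_zero m (discriminant_ne_zero τ)) h

/-! ### Exponential growth at `i∞` -/

/-- `f` has at most exponential growth at `i∞`, uniformly in the real part:
`‖f τ‖ ≤ C * exp (2 π m im τ)` for `im τ ≥ 1`. -/
def HasExpGrowth (f : ℍ → ℂ) : Prop :=
  ∃ (m : ℕ) (C : ℝ), ∀ τ : ℍ, 1 ≤ τ.im → ‖f τ‖ ≤ C * Real.exp (2 * Real.pi * m * τ.im)

theorem exp_growth_mono {m m' : ℕ} (h : m ≤ m') {y : ℝ} (hy : 0 ≤ y) :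
    Real.exp (2 * Real.pi * m * y) ≤ Real.exp (2 * Real.pi * m' * y) := by
  apply Real.exp_le_exp.mpr
  have : (m : ℝ) ≤ m' := by exact_mod_cast h
  have h2 : 0 ≤ 2 * Real.pi := by positivity
  nlinarith [mul_le_mul_of_nonneg_left this h2, mul_nonneg h2 hy]

/-- Normal form: the constant can be taken `≥ 1` and the exponent as large as we like. -/
theorem HasExpGrowth.exists_ge {f : ℍ → ℂ} (hf : HasExpGrowth f) (m₀ : ℕ) :
    ∃ (m : ℕ) (C : ℝ), m₀ ≤ m ∧ 1 ≤ C ∧
      ∀ τ : ℍ, 1 ≤ τ.im → ‖f τ‖ ≤ C * Real.exp (2 * Real.pi * m * τ.im) := by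
  obtain ⟨m, C, h⟩ := hf
  refine ⟨max m m₀, max C 1, le_max_right _ _, le_max_right _ _, fun τ hτ => ?_⟩
  have hy : 0 ≤ τ.im := by linarith
  calc ‖f τ‖ ≤ C * Real.exp (2 * Real.pi * m * τ.im) := h τ hτ
    _ ≤ max C 1 * Real.exp (2 * Real.pi * m * τ.im) :=
        mul_le_mul_of_nonneg_right (le_max_left _ _) (Real.exp_pos _).le
    _ ≤ max C 1 * Real.exp (2 * Real.pi * (max m m₀ : ℕ) * τ.im) :=
        mul_le_mul_of_nonneg_left (exp_growth_mono (le_max_left _ _) hy)
          (le_trans zero_le_one (le_max_right _ _))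

theorem hasExpGrowth_const (c : ℂ) : HasExpGrowth (fun _ => c) :=
  ⟨0, ‖c‖, fun τ _ => by simp⟩

theorem HasExpGrowth.add {f g : ℍ → ℂ} (hf : HasExpGrowth f) (hg : HasExpGrowth g) :
    HasExpGrowth (fun τ => f τ + g τ) := by
  obtain ⟨m, C, -, hC, h⟩ := hf.exists_ge 0
  obtain ⟨m', C', hm', hC', h'⟩ := hg.exists_ge m
  refine ⟨m', C + C', fun τ hτ => ?_⟩
  have hy : 0 ≤ τ.im := by linarith
  calc ‖f τ + g τ‖ ≤ ‖f τ‖ + ‖g τ‖ := norm_add_le _ _
    _ ≤ C * Real.exp (2 * Real.pi * m * τ.im) + C' * Real.exp (2 * Real.pi * m' * τ.im) :=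
        add_le_add (h τ hτ) (h' τ hτ)
    _ ≤ C * Real.exp (2 * Real.pi * m' * τ.im) + C' * Real.exp (2 * Real.pi * m' * τ.im) := by
        have := exp_growth_mono hm' hy
        nlinarith [mul_le_mul_of_nonneg_left this (le_trans zero_le_one hC)]
    _ = (C + C') * Real.exp (2 * Real.pi * m' * τ.im) := by ring

theorem HasExpGrowth.mul {f g : ℍ → ℂ} (hf : HasExpGrowth f) (hg : HasExpGrowth g) :
    HasExpGrowth (fun τ => f τ * g τ) := by
  obtain ⟨m, C, -, hC, h⟩ := hf.exists_ge 0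
  obtain ⟨m', C', -, hC', h'⟩ := hg.exists_ge 0
  refine ⟨m + m', C * C', fun τ hτ => ?_⟩
  calc ‖f τ * g τ‖ = ‖f τ‖ * ‖g τ‖ := norm_mul _ _
    _ ≤ (C * Real.exp (2 * Real.pi * m * τ.im)) * (C' * Real.exp (2 * Real.pi * m' * τ.im)) :=
        mul_le_mul (h τ hτ) (h' τ hτ) (norm_nonneg _)
          (mul_nonneg (by linarith) (Real.exp_pos _).le)
    _ = (C * C') * Real.exp (2 * Real.pi * (m + m' : ℕ) * τ.im) := by
        rw [mul_mul_mul_comm, ← Real.exp_add]
        push_cast
        ring_nf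

theorem HasExpGrowth.neg {f : ℍ → ℂ} (hf : HasExpGrowth f) : HasExpGrowth (fun τ => -f τ) := by
  obtain ⟨m, C, h⟩ := hf
  exact ⟨m, C, fun τ hτ => by simpa using h τ hτ⟩

theorem HasExpGrowth.sub {f g : ℍ → ℂ} (hf : HasExpGrowth f) (hg : HasExpGrowth g) :
    HasExpGrowth (fun τ => f τ - g τ) := by
  simpa [sub_eq_add_neg] using hf.add hg.neg

theorem HasExpGrowth.pow {f : ℍ → ℂ} (hf : HasExpGrowth f) (n : ℕ) :
    HasExpGrowth (fun τ => f τ ^ n) := by
  induction n with
  | zero => simpa using hasExpGrowth_const 1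
  | succ n ih => simpa [pow_succ] using ih.mul hf

theorem hasExpGrowth_finset_sum {ι : Type*} (s : Finset ι) (F : ι → ℍ → ℂ)
    (h : ∀ i ∈ s, HasExpGrowth (F i)) : HasExpGrowth (fun τ => ∑ i ∈ s, F i τ) := by
  classical
  induction s using Finset.induction_on with
  | empty => simpa using hasExpGrowth_const 0
  | insert a s ha ih =>
    simp only [Finset.sum_insert ha]
    exact (h a (Finset.mem_insert_self a s)).add
      (ih fun i hi => h i (Finset.mem_insert_of_mem hi))

theorem hasExpGrowth_finset_prod {ι : Type*} (s : Finset ι) (F : ι → ℍ → ℂ)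
    (h : ∀ i ∈ s, HasExpGrowth (F i)) : HasExpGrowth (fun τ => ∏ i ∈ s, F i τ) := by
  classical
  induction s using Finset.induction_on with
  | empty => simpa using hasExpGrowth_const 1
  | insert a s ha ih =>
    simp only [Finset.prod_insert ha]
    exact (h a (Finset.mem_insert_self a s)).mul
      (ih fun i hi => h i (Finset.mem_insert_of_mem hi))

/-- Exponential growth of exponent `m` is killed by `Δ^m`. -/
theorem isBoundedAtImInfty_disc_pow_mul {f : ℍ → ℂ} {m : ℕ} {C : ℝ}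
    (h : ∀ τ : ℍ, 1 ≤ τ.im → ‖f τ‖ ≤ C * Real.exp (2 * Real.pi * m * τ.im)) :
    IsBoundedAtImInfty (fun τ => Δ τ ^ m * f τ) := by
  have hO : (CuspForm.discriminant : ℍ → ℂ) =O[atImInfty]
      fun τ => Real.exp (-2 * Real.pi * τ.im / 1) :=
    CuspFormClass.exp_decay_atImInfty (f := CuspForm.discriminant) one_pos
      one_mem_strictPeriods_SL
  obtain ⟨c, hc, hcO⟩ := hO.exists_pos
  have hev := hcO.bound
  rw [Filter.Eventually, atImInfty_mem] at hev
  obtain ⟨A, hA⟩ := hev
  rw [isBoundedAtImInfty_iff]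
  refine ⟨c ^ m * C, max A 1, fun τ hτ => ?_⟩
  have h1 : ‖Δ τ‖ ≤ c * Real.exp (-2 * Real.pi * τ.im) := by
    have := hA τ (le_trans (le_max_left _ _) hτ)
    simpa [Real.norm_of_nonneg (Real.exp_pos _).le] using this
  have h2 := h τ (le_trans (le_max_right _ _) hτ)
  calc ‖Δ τ ^ m * f τ‖ = ‖Δ τ‖ ^ m * ‖f τ‖ := by rw [norm_mul, norm_pow]
    _ ≤ (c * Real.exp (-2 * Real.pi * τ.im)) ^ m * (C * Real.exp (2 * Real.pi * m * τ.im)) :=
        mul_le_mul (pow_le_pow_left₀ (norm_nonneg _) h1 m) h2 (norm_nonneg _) (by positivity)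
    _ = c ^ m * C := by
        rw [mul_pow, ← Real.exp_nat_mul, mul_mul_mul_comm, ← Real.exp_add]
        have : (m : ℝ) * (-2 * Real.pi * τ.im) + 2 * Real.pi * m * τ.im = 0 := by ring
        rw [this, Real.exp_zero, mul_one]

/-! ### Coefficients of `∏ (Y - φ x)` -/

theorem mdiff_finset_sum {ι : Type*} (s : Finset ι) (F : ι → ℍ → ℂ)
    (h : ∀ i ∈ s, MDiff (F i)) : MDiff (fun τ : ℍ => ∑ i ∈ s, F i τ) := by
  classical
  induction s using Finset.induction_on with
  | empty => simpa using (mdifferentiable_const : MDiff (fun _ : ℍ => (0 : ℂ)))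
  | insert a s ha ih =>
    simp only [Finset.sum_insert ha]
    exact (h a (Finset.mem_insert_self a s)).add
      (ih fun i hi => h i (Finset.mem_insert_of_mem hi))

/-- The coefficients of `∏ x ∈ s, (Y - φ x τ)` are holomorphic in `τ`. -/
theorem mdiff_coeff_prod_X_sub_C {X : Type*} (φ : X → ℍ → ℂ) (hol : ∀ x, MDiff (φ x))
    (s : Finset X) : ∀ k : ℕ,
      MDiff ((fun τ => (∏ x ∈ s, (Polynomial.X - Polynomial.C (φ x τ))).coeff k) : ℍ → ℂ) := by
  classical
  induction s using Finset.induction_on with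
  | empty =>
    intro k
    simp only [Finset.prod_empty, Polynomial.coeff_one]
    exact mdifferentiable_const
  | insert a s ha ih =>
    intro k
    simp only [Finset.prod_insert ha]
    rcases k with _ | k
    · have : (fun τ => ((Polynomial.X - Polynomial.C (φ a τ)) *
          ∏ x ∈ s, (Polynomial.X - Polynomial.C (φ x τ))).coeff 0)
          = fun τ => -(φ a τ) * (∏ x ∈ s, (Polynomial.X - Polynomial.C (φ x τ))).coeff 0 := by
        funext τ
        rw [Polynomial.mul_coeff_zero]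
        simp
      rw [this]
      exact (hol a).neg.mul (ih 0)
    · have : (fun τ => ((Polynomial.X - Polynomial.C (φ a τ)) *
          ∏ x ∈ s, (Polynomial.X - Polynomial.C (φ x τ))).coeff (k + 1))
          = fun τ => (∏ x ∈ s, (Polynomial.X - Polynomial.C (φ x τ))).coeff k
            - (∏ x ∈ s, (Polynomial.X - Polynomial.C (φ x τ))).coeff (k + 1) * φ a τ := by
        funext τ
        rw [mul_comm, Polynomial.coeff_mul_X_sub_C]
      rw [this]
      exact (ih k).sub ((ih (k + 1)).mul (hol a))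

/-- Crude bound for the coefficients of `∏ x ∈ s, (Y - a x)`. -/
theorem norm_coeff_prod_X_sub_C_le {X : Type*} (a : X → ℂ) (B : ℝ) (hB0 : 0 ≤ B)
    (s : Finset X) (hB : ∀ x ∈ s, ‖a x‖ ≤ B) : ∀ k : ℕ,
      ‖(∏ x ∈ s, (Polynomial.X - Polynomial.C (a x))).coeff k‖ ≤ (1 + B) ^ s.card := by
  classical
  induction s using Finset.induction_on with
  | empty =>
    intro k
    simp only [Finset.prod_empty, Polynomial.coeff_one, Finset.card_empty, pow_zero]
    split_ifs <;> simp
  | insert b s hb ih =>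
    intro k
    have ih' := ih fun x hx => hB x (Finset.mem_insert_of_mem hx)
    have hb' : ‖a b‖ ≤ B := hB b (Finset.mem_insert_self b s)
    have h1B : (0 : ℝ) ≤ 1 + B := by linarith
    rw [Finset.prod_insert hb, Finset.card_insert_of_notMem hb, pow_succ]
    rcases k with _ | k
    · rw [Polynomial.mul_coeff_zero]
      have : (Polynomial.X - Polynomial.C (a b)).coeff 0 = -(a b) := by simp
      rw [this, norm_mul, norm_neg, mul_comm]
      exact mul_le_mul (ih' 0) (by linarith) (norm_nonneg _) (pow_nonneg h1B _)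
    · rw [mul_comm, Polynomial.coeff_mul_X_sub_C]
      calc ‖(∏ x ∈ s, (Polynomial.X - Polynomial.C (a x))).coeff k
            - (∏ x ∈ s, (Polynomial.X - Polynomial.C (a x))).coeff (k + 1) * a b‖
          ≤ ‖(∏ x ∈ s, (Polynomial.X - Polynomial.C (a x))).coeff k‖
            + ‖(∏ x ∈ s, (Polynomial.X - Polynomial.C (a x))).coeff (k + 1)‖ * ‖a b‖ := by
            rw [← norm_mul]; exact norm_sub_le _ _
        _ ≤ (1 + B) ^ s.card + (1 + B) ^ s.card * B :=
            add_le_add (ih' k) (mul_le_mul (ih' (k + 1)) hb' (norm_nonneg _) (pow_nonneg h1B _))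
        _ = (1 + B) ^ s.card * (1 + B) := by ring

/-! ### The main statement -/

/-- **M2-AN.** Let `φ x : ℍ → ℂ` (`x` in a finite type `X`) be holomorphic functions which are
permuted by `SL(2, ℤ)` and have at most exponential growth at `i∞`.  Then there is a monic
polynomial `P ∈ ℂ[J][Y]` of `Y`-degree `card X` such that for every `τ`, specialising the
coefficients at `J τ = E₄ τ ^ 3 / Δ τ` gives `∏ x, (Y - φ x τ)`. -/
theorem exists_monic_relation {X : Type*} [Fintype X] (φ : X → ℍ → ℂ)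
    (hol : ∀ x, MDiff (φ x))
    (hperm : ∀ g : SL(2, ℤ), ∃ s : Equiv.Perm X, ∀ (x : X) (τ : ℍ), φ x (g • τ) = φ (s x) τ)
    (hgrowth : ∀ x, HasExpGrowth (φ x)) :
    ∃ P : Polynomial (Polynomial ℂ), P.Monic ∧ P.natDegree = Fintype.card X ∧
      ∀ τ : ℍ, P.map (Polynomial.evalRingHom (E₄ τ ^ 3 / Δ τ))
        = ∏ x, (Polynomial.X - Polynomial.C (φ x τ)) := by
  classical
  set n := Fintype.card X with hn
  -- uniform growth
  have hunif : ∃ (m : ℕ) (C : ℝ), 1 ≤ C ∧
      ∀ x (τ : ℍ), 1 ≤ τ.im → ‖φ x τ‖ ≤ C * Real.exp (2 * Real.pi * m * τ.im) := by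
    choose mx Cx hm hC hb using fun x => (hgrowth x).exists_ge 0
    refine ⟨∑ x, mx x, 1 + ∑ x, Cx x, ?_, fun x τ hτ => ?_⟩
    · have : 0 ≤ ∑ x, Cx x := Finset.sum_nonneg fun x _ => by linarith [hC x]
      linarith
    · have hy : 0 ≤ τ.im := by linarith
      have h1 : Cx x ≤ 1 + ∑ x, Cx x := by
        have := Finset.single_le_sum (f := Cx) (fun y _ => by linarith [hC y])
          (Finset.mem_univ x)
        linarith
      have h2 : mx x ≤ ∑ x, mx x :=
        Finset.single_le_sum (f := mx) (fun y _ => Nat.zero_le _) (Finset.mem_univ x)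
      calc ‖φ x τ‖ ≤ Cx x * Real.exp (2 * Real.pi * mx x * τ.im) := hb x τ hτ
        _ ≤ (1 + ∑ x, Cx x) * Real.exp (2 * Real.pi * (∑ x, mx x : ℕ) * τ.im) :=
          mul_le_mul h1 (exp_growth_mono h2 hy) (Real.exp_pos _).le (by linarith [hC x])
  obtain ⟨m, C, hC1, hb⟩ := hunif
  -- the coefficient functions
  let c : ℕ → ℍ → ℂ := fun k τ => (∏ x, (Polynomial.X - Polynomial.C (φ x τ))).coeff k
  have hc_hol : ∀ k, MDiff (c k) := fun k => mdiff_coeff_prod_X_sub_C φ hol Finset.univ k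
  have hc_inv : ∀ k (γ : SL(2, ℤ)) (τ : ℍ), c k (γ • τ) = c k τ := by
    intro k γ τ
    obtain ⟨s, hs⟩ := hperm γ
    show (∏ x, (Polynomial.X - Polynomial.C (φ x (γ • τ)))).coeff k = _
    simp_rw [hs]
    rw [Equiv.prod_comp s (fun x => Polynomial.X - Polynomial.C (φ x τ))]
  have hc_bdd : ∀ k, IsBoundedAtImInfty (fun τ => Δ τ ^ (m * n) * c k τ) := by
    intro k
    apply isBoundedAtImInfty_disc_pow_mul (C := (1 + C) ^ n)
    intro τ hτ
    have hy : 0 ≤ τ.im := by linarith
    have hB0 : 0 ≤ C * Real.exp (2 * Real.pi * m * τ.im) := by positivity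
    have h1 := norm_coeff_prod_X_sub_C_le (fun x => φ x τ) _ hB0 Finset.univ
      (fun x _ => hb x τ hτ) k
    rw [Finset.card_univ] at h1
    have hexp1 : 1 ≤ Real.exp (2 * Real.pi * m * τ.im) := Real.one_le_exp (by positivity)
    calc ‖c k τ‖ ≤ (1 + C * Real.exp (2 * Real.pi * m * τ.im)) ^ n := h1
      _ ≤ ((1 + C) * Real.exp (2 * Real.pi * m * τ.im)) ^ n := by
          apply pow_le_pow_left₀ (by positivity)
          nlinarith
      _ = (1 + C) ^ n * Real.exp (2 * Real.pi * (m * n : ℕ) * τ.im) := by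
          rw [mul_pow, ← Real.exp_nat_mul]
          congr 2
          push_cast
          ring
  choose p hpdeg hp using fun k =>
    polyInJ_of_invariant (c k) (hc_hol k) (hc_inv k) (m * n) (hc_bdd k)
  have hQmonic : ∀ τ : ℍ, (∏ x, (Polynomial.X - Polynomial.C (φ x τ))).Monic := fun τ =>
    Polynomial.monic_prod_of_monic _ _ fun x _ => Polynomial.monic_X_sub_C _
  have hQdeg : ∀ τ : ℍ, (∏ x, (Polynomial.X - Polynomial.C (φ x τ))).natDegree = n := fun τ => by
    rw [Polynomial.natDegree_finsetProd_X_sub_C_eq_card, Finset.card_univ]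
  have hlt : (∑ i ∈ Finset.range n, Polynomial.C (p i) * Polynomial.X ^ i :
      Polynomial (Polynomial ℂ)).degree < n := by
    refine (Polynomial.degree_sum_le _ _).trans_lt
      ((Finset.sup_lt_iff (WithBot.bot_lt_coe n)).mpr fun i hi => ?_)
    exact (Polynomial.degree_C_mul_X_pow_le i _).trans_lt
      (WithBot.coe_lt_coe.mpr (Finset.mem_range.mp hi))
  have hnat : (Polynomial.X ^ n + ∑ i ∈ Finset.range n, Polynomial.C (p i) * Polynomial.X ^ i :
      Polynomial (Polynomial ℂ)).natDegree = n := by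
    rw [Polynomial.natDegree_add_eq_left_of_degree_lt (by rwa [Polynomial.degree_X_pow]),
      Polynomial.natDegree_X_pow]
  refine ⟨Polynomial.X ^ n + ∑ i ∈ Finset.range n, Polynomial.C (p i) * Polynomial.X ^ i,
    Polynomial.monic_X_pow_add hlt, hnat, fun τ => ?_⟩
  conv_rhs => rw [(hQmonic τ).as_sum, hQdeg τ]
  simp only [Polynomial.map_add, Polynomial.map_pow, Polynomial.map_X, Polynomial.map_sum,
    Polynomial.map_mul, Polynomial.map_C, Polynomial.coe_evalRingHom]
  congr 1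
  refine Finset.sum_congr rfl fun i _ => ?_
  rw [← hp i τ]

/-- Consumer form of `exists_monic_relation`: a monic relation of `Y`-degree `card X` with
coefficients in `ℂ[J]` satisfied by every `φ x`, written out as a finite sum. -/
theorem exists_monic_relation_sum {X : Type*} [Fintype X] (φ : X → ℍ → ℂ)
    (hol : ∀ x, MDiff (φ x))
    (hperm : ∀ g : SL(2, ℤ), ∃ s : Equiv.Perm X, ∀ (x : X) (τ : ℍ), φ x (g • τ) = φ (s x) τ)
    (hgrowth : ∀ x, HasExpGrowth (φ x)) :
    ∃ P : Polynomial (Polynomial ℂ), P.Monic ∧ P.natDegree = Fintype.card X ∧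
      ∀ (x : X) (τ : ℍ), ∑ i ∈ Finset.range (Fintype.card X + 1),
        (P.coeff i).eval (E₄ τ ^ 3 / Δ τ) * φ x τ ^ i = 0 := by
  obtain ⟨P, hmonic, hdeg, hP⟩ := exists_monic_relation φ hol hperm hgrowth
  refine ⟨P, hmonic, hdeg, fun x τ => ?_⟩
  have h0 : (P.map (Polynomial.evalRingHom (E₄ τ ^ 3 / Δ τ))).eval (φ x τ) = 0 := by
    rw [hP τ, Polynomial.eval_prod]
    exact Finset.prod_eq_zero (Finset.mem_univ x) (by simp)
  rw [Polynomial.eval_eq_sum_range, hmonic.natDegree_map, hdeg] at h0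
  simpa [Polynomial.coeff_map] using h0

end Fermat.Agent.S24.helper167
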