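import Fermat.Agent.S24.helper1944_Dict
import Fermat.Agent.S24.helper3176_FieldAlg
import Fermat.Agent.S24.helper288_Hermite
import Fermat.Agent.S24.helper167_SymmetricJ

/-!
# S24, MOD core (helper1944): the analytic evaluation `evFun` on `A_N = ℚ̄[j(q^d) : d ∣ N]`

For `a` in the `ℚ̄`-algebra `helper3176.AN N` generated by the formal series `j(q^d)`, `d ∣ N`
(whose fraction field is the function field `FN N`), the formal series of `a`, with coefficients
pushed to `ℂ` along a fixed embedding `kappa : ℚ̄ → ℂ`, converges on the whole upper half plane;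
its sum `evFun N a : ℍ → ℂ` is

* additive and multiplicative in `a`, `evFun (const c) = kappa c`,
  `evFun (j(q^d)) τ = jFun (d τ)`;
* holomorphic, `Γ₀(N)`-invariant, of exponential growth at every cusp;
* injective in `a` and separating the cosets of `Γ₀(N)` (E5).
-/

set_option autoImplicit false

open ModularCurve UpperHalfPlane Filter Topology CongruenceSubgroup
open scoped MatrixGroups Manifold

namespace Fermat.Agent.S24.helper1944

open Fermat.Agent.S24.helper24

noncomputable section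

/-! ### Base points -/

/-- A fixed embedding `ℚ̄ → ℂ`. -/
def kappa : Kbar →+* ℂ := by
  haveI : Algebra.IsAlgebraic ℚ (AlgebraicClosure ℚ) := AlgebraicClosure.isAlgebraic ℚ
  exact ((IsAlgClosed.lift : AlgebraicClosure ℚ →ₐ[ℚ] ℂ) : AlgebraicClosure ℚ →+* ℂ)

theorem kappa_injective : Function.Injective kappa := kappa.injective

theorem kappa_algebraMap_rat (r : ℚ) : kappa (algebraMap ℚ Kbar r) = (r : ℂ) := by
  rw [eq_ratCast, map_ratCast]

/-- The nome `q = exp(2πiτ)`. -/
def qq (τ : ℍ) : ℂ := Function.Periodic.qParam 1 (τ : ℂ)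

theorem qq_ne_zero (τ : ℍ) : qq τ ≠ 0 := Function.Periodic.qParam_ne_zero _

theorem norm_qq_lt_one (τ : ℍ) : ‖qq τ‖ < 1 :=
  Function.Periodic.norm_qParam_lt_one one_pos τ.im_pos

theorem norm_qq (τ : ℍ) : ‖qq τ‖ = Real.exp (-(2 * Real.pi * τ.im)) := by
  rw [qq, Function.Periodic.norm_qParam]
  congr 1
  simp

theorem exists_qq_eq {z : ℂ} (hz : z ≠ 0) (hz1 : ‖z‖ < 1) : ∃ τ : ℍ, qq τ = z :=
  ⟨⟨Function.Periodic.invQParam 1 z,
      Function.Periodic.im_invQParam_pos_of_norm_lt_one one_pos hz1 hz⟩,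
    Function.Periodic.qParam_right_inv one_ne_zero hz⟩

/-- The point `d τ` of the upper half plane. -/
def mulPt (d : ℕ) (τ : ℍ) : ℍ := ofComplex ((d : ℂ) * (τ : ℂ))

theorem im_natCast_mul_pos {d : ℕ} (hd : 0 < d) {z : ℂ} (hz : 0 < z.im) :
    0 < ((d : ℂ) * z).im := by
  have hd' : (0 : ℝ) < d := by exact_mod_cast hd
  simpa using mul_pos hd' hz

theorem coe_mulPt {d : ℕ} (hd : 0 < d) (τ : ℍ) : ((mulPt d τ : ℍ) : ℂ) = (d : ℂ) * τ := by
  rw [mulPt, ofComplex_apply_of_im_pos (im_natCast_mul_pos hd τ.im_pos)]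

theorem im_mulPt {d : ℕ} (hd : 0 < d) (τ : ℍ) : (mulPt d τ).im = d * τ.im := by
  rw [← UpperHalfPlane.coe_im, coe_mulPt hd]
  simp

theorem qq_mulPt {d : ℕ} (hd : 0 < d) (τ : ℍ) : qq (mulPt d τ) = qq τ ^ d := by
  rw [qq, qq, coe_mulPt hd, Function.Periodic.qParam, Function.Periodic.qParam,
    ← Complex.exp_nat_mul]
  congr 1
  ring

theorem jFun_eq_helper1644 : (jFun : ℍ → ℂ) = helper1644.jFun := rfl

theorem jFun_eq_helper288 : (jFun : ℍ → ℂ) = helper288.jFn := rfl

theorem jFun_smul (γ : SL(2, ℤ)) (τ : ℍ) : jFun (γ • τ) = jFun τ :=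
  helper1644.jFun_smul γ τ

/-! ### Evaluation of formal series over `ℚ̄` -/

/-- Evaluation of a formal Laurent series over `ℚ̄` at `q(τ)` (junk if divergent). -/
def evS (x : LaurentSeries Kbar) (τ : ℍ) : ℂ := lsEval (coeffMap kappa x) (qq τ)

/-- The series converges at `q(τ)` for every `τ` in the upper half plane. -/
def ConvS (x : LaurentSeries Kbar) : Prop := ∀ τ : ℍ, LsSummable (coeffMap kappa x) (qq τ)

theorem ConvS.hasSum {x : LaurentSeries Kbar} (h : ConvS x) (τ : ℍ) :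
    HasSum (lsTerm (coeffMap kappa x) (qq τ)) (evS x τ) := (h τ).hasSum

theorem convS_of_hasSum {x : LaurentSeries Kbar} {f : ℍ → ℂ}
    (h : ∀ τ, HasSum (lsTerm (coeffMap kappa x) (qq τ)) (f τ)) : ConvS x :=
  fun τ => (h τ).summable

theorem evS_of_hasSum {x : LaurentSeries Kbar} {τ : ℍ} {s : ℂ}
    (h : HasSum (lsTerm (coeffMap kappa x) (qq τ)) s) : evS x τ = s :=
  lsEval_eq_of_hasSum h

theorem ConvS.add {x y : LaurentSeries Kbar} (hx : ConvS x) (hy : ConvS y) : ConvS (x + y) :=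
  fun τ => by
    have h := hasSum_lsTerm_add (hx.hasSum τ) (hy.hasSum τ)
    rw [← map_add] at h
    exact h.summable

theorem evS_add {x y : LaurentSeries Kbar} (hx : ConvS x) (hy : ConvS y) (τ : ℍ) :
    evS (x + y) τ = evS x τ + evS y τ := by
  have h := hasSum_lsTerm_add (hx.hasSum τ) (hy.hasSum τ)
  rw [← map_add] at h
  exact evS_of_hasSum h

theorem ConvS.mul {x y : LaurentSeries Kbar} (hx : ConvS x) (hy : ConvS y) : ConvS (x * y) :=
  fun τ => by
    have h := hasSum_lsTerm_mul (qq_ne_zero τ) (hx.hasSum τ) (hy.hasSum τ)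
    rw [← map_mul] at h
    exact h.summable

theorem evS_mul {x y : LaurentSeries Kbar} (hx : ConvS x) (hy : ConvS y) (τ : ℍ) :
    evS (x * y) τ = evS x τ * evS y τ := by
  have h := hasSum_lsTerm_mul (qq_ne_zero τ) (hx.hasSum τ) (hy.hasSum τ)
  rw [← map_mul] at h
  exact evS_of_hasSum h

theorem hasSum_algebraMap (c : Kbar) (τ : ℍ) :
    HasSum (lsTerm (coeffMap kappa (algebraMap Kbar (LaurentSeries Kbar) c)) (qq τ)) (kappa c) := by
  rw [algebraMap_laurentSeries_eq_single, coeffMap_single]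
  exact hasSum_lsTerm_C (kappa c) (qq τ)

theorem convS_algebraMap (c : Kbar) : ConvS (algebraMap Kbar (LaurentSeries Kbar) c) :=
  convS_of_hasSum (f := fun _ => kappa c) (hasSum_algebraMap c)

theorem evS_algebraMap (c : Kbar) (τ : ℍ) :
    evS (algebraMap Kbar (LaurentSeries Kbar) c) τ = kappa c :=
  evS_of_hasSum (hasSum_algebraMap c τ)

/-- The formal series `j(q^d)` converges to `j(dτ)`. -/
theorem hasSum_jSeries (d : ℕ) [NeZero d] (τ : ℍ) :
    HasSum (lsTerm (coeffMap kappa (jSeries d)) (qq τ)) (jFun (mulPt d τ)) := by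
  have hd : 0 < d := NeZero.pos d
  have h := helper1644.hasSum_jq (mulPt d τ)
  have hE : HasSum (lsTerm (coeffMap (algebraMap ℚ ℂ) jq) (qq τ ^ d)) (jFun (mulPt d τ)) := by
    rw [← qq_mulPt hd]
    have hfun : lsTerm (coeffMap (algebraMap ℚ ℂ) jq) (qq (mulPt d τ)) =
        fun k : ℤ => ((jq.coeff k : ℚ) : ℂ) * (Function.Periodic.qParam 1 (mulPt d τ : ℂ)) ^ k := by
      funext k
      simp only [lsTerm, coeffMap_coeff, eq_ratCast]
      rfl
    rw [hfun]
    exact h
  refine (hasSum_lsTerm_embDomain d hd (coeffMap (algebraMap ℚ ℂ) jq)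
    (coeffMap kappa (jSeries d)) ?_ ?_ (qq τ) _).mpr hE
  · intro k
    simp only [jSeries, coeffMap_coeff, coeffEmb_coeff, qExpand_coeff_mul, eq_ratCast,
      map_ratCast]
  · intro k hk
    simp only [jSeries, coeffMap_coeff, coeffEmb_coeff, qExpand_coeff_of_not_dvd d jq hk,
      map_zero]

theorem convS_jSeries (d : ℕ) [NeZero d] : ConvS (jSeries d) :=
  convS_of_hasSum (f := fun τ => jFun (mulPt d τ)) (hasSum_jSeries d)

theorem evS_jSeries (d : ℕ) [NeZero d] (τ : ℍ) : evS (jSeries d) τ = jFun (mulPt d τ) :=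
  evS_of_hasSum (hasSum_jSeries d τ)

theorem coeffMap_kappa_injective : Function.Injective (coeffMap kappa) := by
  intro x y h
  ext k
  have := congrArg (fun E : LaurentSeries ℂ => E.coeff k) h
  simp only [coeffMap_coeff] at this
  exact kappa_injective this

/-- **Identity theorem**: a convergent formal series whose sum vanishes identically is zero. -/
theorem eq_zero_of_evS_eq_zero {x : LaurentSeries Kbar} (hx : ConvS x)
    (h : ∀ τ : ℍ, evS x τ = 0) : x = 0 := by
  have h0 : coeffMap kappa x = 0 := by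
    refine eq_zero_of_hasSum_lsTerm_zero _ fun z hz hz1 => ?_
    obtain ⟨τ, rfl⟩ := exists_qq_eq hz hz1
    have := hx.hasSum τ
    rwa [h τ] at this
  exact coeffMap_kappa_injective (h0.trans (map_zero _).symm)

/-! ### Growth of `j` on `im τ ≥ ε` -/

theorem exists_norm_jFun_le (ε : ℝ) (hε : 0 < ε) :
    ∃ C : ℝ, 0 ≤ C ∧ ∀ σ : ℍ, ε ≤ σ.im → ‖jFun σ‖ ≤ C * Real.exp (2 * Real.pi * σ.im) := by
  set r : ℝ := Real.exp (-(2 * Real.pi * ε)) with hr
  have hr0 : 0 ≤ r := (Real.exp_pos _).le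
  have hr1 : r < 1 := by
    rw [hr, Real.exp_lt_one_iff]
    have := Real.pi_pos
    nlinarith
  have hsum := helper1644.summable_norm_jNumQ hr0 hr1
  refine ⟨∑' n : ℕ, ‖((PowerSeries.coeff n ModularCurve.jNumQ : ℚ) : ℂ)‖ * r ^ n,
    tsum_nonneg fun n => by positivity, fun σ hσ => ?_⟩
  have hq : ‖qq σ‖ = Real.exp (-(2 * Real.pi * σ.im)) := norm_qq σ
  have hqr : ‖qq σ‖ ≤ r := by
    rw [hq, hr]
    apply Real.exp_le_exp.mpr
    have := Real.pi_pos
    nlinarith
  have h := helper1644.hasSum_jNumQ σ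
  have hbound : ‖qq σ * jFun σ‖ ≤
      ∑' n : ℕ, ‖((PowerSeries.coeff n ModularCurve.jNumQ : ℚ) : ℂ)‖ * r ^ n := by
    have h' : HasSum (fun n : ℕ => ((PowerSeries.coeff n ModularCurve.jNumQ : ℚ) : ℂ) *
        (qq σ) ^ n) (qq σ * jFun σ) := h
    rw [← h'.tsum_eq]
    refine (norm_tsum_le_tsum_norm h'.summable.norm).trans ?_
    refine Summable.tsum_le_tsum (fun n => ?_) h'.summable.norm hsum
    rw [norm_mul, norm_pow]
    gcongr
  rw [norm_mul, hq] at hbound
  calc ‖jFun σ‖ = Real.exp (-(2 * Real.pi * σ.im)) * ‖jFun σ‖ * Real.exp (2 * Real.pi * σ.im) := by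
        rw [mul_comm (Real.exp _) ‖jFun σ‖, mul_assoc, ← Real.exp_add]
        simp
    _ ≤ _ := mul_le_mul_of_nonneg_right hbound (Real.exp_pos _).le

/-! ### The generators as functions -/

theorem mulPt_eq_ofComplex (d : ℕ) (τ : ℍ) : mulPt d τ = ofComplex ((d : ℂ) * (τ : ℂ)) := rfl

theorem mdiff_jFun_mulPt {d : ℕ} (hd : 0 < d) : MDiff (fun τ : ℍ => jFun (mulPt d τ)) := by
  rw [UpperHalfPlane.mdifferentiable_iff]
  have h1 : DifferentiableOn ℂ (jFun ∘ ofComplex) {z : ℂ | 0 < z.im} :=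
    helper1644.differentiableOn_jFun_comp_ofComplex
  have h2 : DifferentiableOn ℂ (fun z : ℂ => (d : ℂ) * z) {z : ℂ | 0 < z.im} :=
    (differentiable_id.const_mul (d : ℂ)).differentiableOn
  have hmaps : Set.MapsTo (fun z : ℂ => (d : ℂ) * z) {z : ℂ | 0 < z.im} {z : ℂ | 0 < z.im} :=
    fun z hz => im_natCast_mul_pos hd hz
  refine (h1.comp h2 hmaps).congr fun z hz => ?_
  have hz' : 0 < z.im := hz
  simp only [Function.comp_apply, mulPt]
  rw [ofComplex_apply_of_im_pos hz']

theorem jFun_mulPt_smul_of_mem_Gamma0 {N d : ℕ} (hd0 : 0 < d) (hd : d ∣ N) (g : SL(2, ℤ))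
    (hg : g ∈ Gamma0 N) (τ : ℍ) : jFun (mulPt d (g • τ)) = jFun (mulPt d τ) :=
  helper288.jFn_mul_smul_of_mem_Gamma0 N d hd0 hd g hg τ

theorem hasExpGrowth_jFun_mulPt_smul {d : ℕ} (hd : 0 < d) (g : SL(2, ℤ)) :
    helper167.HasExpGrowth (fun τ : ℍ => jFun (mulPt d (g • τ))) := by
  obtain ⟨a, b, e, ha, he, hae, -, -, hJ⟩ := helper288.exists_jFn_mul_smul g d hd
  have hd' : (0 : ℝ) < d := by exact_mod_cast hd
  obtain ⟨C, hC0, hC⟩ := exists_norm_jFun_le (1 / d) (by positivity)
  have ha' : (1 : ℝ) ≤ a := by exact_mod_cast ha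
  have he' : (1 : ℝ) ≤ e := by exact_mod_cast he
  have hae' : (a : ℝ) * e = d := by exact_mod_cast hae
  have had : (a : ℝ) ≤ d := by nlinarith
  have hed : (e : ℝ) ≤ d := by nlinarith
  refine ⟨d, C, fun τ hτ => ?_⟩
  have hτpos := τ.im_pos
  have him : (helper288.affinePt a b e ha he τ).im = (a : ℝ) * τ.im / (e : ℝ) :=
    helper288.im_affinePt a b e ha he τ
  have hlow : 1 / (d : ℝ) ≤ (helper288.affinePt a b e ha he τ).im := by
    rw [him, div_le_div_iff₀ hd' (by linarith)]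
    have h1 : (1 : ℝ) ≤ a * τ.im := by nlinarith
    calc (1 : ℝ) * e ≤ 1 * d := by linarith
      _ ≤ a * τ.im * d := mul_le_mul_of_nonneg_right h1 hd'.le
  have hup : (helper288.affinePt a b e ha he τ).im ≤ d * τ.im := by
    rw [him, div_le_iff₀ (by linarith)]
    calc (a : ℝ) * τ.im ≤ d * τ.im := mul_le_mul_of_nonneg_right had hτpos.le
      _ = d * τ.im * 1 := (mul_one _).symm
      _ ≤ d * τ.im * e := mul_le_mul_of_nonneg_left he' (by positivity)
  have hJ' : jFun (mulPt d (g • τ)) = jFun (helper288.affinePt a b e ha he τ) := hJ τ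
  show ‖jFun (mulPt d (g • τ))‖ ≤ _
  rw [hJ']
  refine (hC _ hlow).trans ?_
  have h2 : 2 * Real.pi * (helper288.affinePt a b e ha he τ).im ≤ 2 * Real.pi * d * τ.im := by
    have := Real.pi_pos
    nlinarith
  exact mul_le_mul_of_nonneg_left (Real.exp_le_exp.mpr h2) hC0

/-! ### The evaluation on the function field -/

/-- The analytic function attached to an element of the function field (meaningful on
`helper3176.AN N`). -/
def evFun (N : ℕ) (a : FN N) : ℍ → ℂ := evS (a : LaurentSeries Kbar)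

/-- Induction principle for the algebra `AN N` generated by the `j(q^d)`. -/
theorem AN_induction (N : ℕ) {p : FN N → Prop}
    (hgen : ∀ (d : ℕ) [NeZero d] (hd : d ∣ N), p (jBarD N d hd))
    (hconst : ∀ c : Kbar, p (algebraMap Kbar (FN N) c))
    (hadd : ∀ x y, x ∈ helper3176.AN N → y ∈ helper3176.AN N → p x → p y → p (x + y))
    (hmul : ∀ x y, x ∈ helper3176.AN N → y ∈ helper3176.AN N → p x → p y → p (x * y)) :
    ∀ a ∈ helper3176.AN N, p a := by
  intro a ha
  unfold helper3176.AN at ha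
  induction ha using Algebra.adjoin_induction with
  | mem x hx =>
      obtain ⟨d, hd0, hd, rfl⟩ := hx
      exact hgen d hd
  | algebraMap c => exact hconst c
  | add x y hx' hy' hx hy => exact hadd x y hx' hy' hx hy
  | mul x y hx' hy' hx hy => exact hmul x y hx' hy' hx hy

theorem coe_algebraMap_FN (N : ℕ) (c : Kbar) :
    ((algebraMap Kbar (FN N) c : FN N) : LaurentSeries Kbar)
      = algebraMap Kbar (LaurentSeries Kbar) c := rfl

theorem convS_of_mem_AN (N : ℕ) : ∀ a ∈ helper3176.AN N, ConvS (a : LaurentSeries Kbar) :=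
  AN_induction N (p := fun a => ConvS (a : LaurentSeries Kbar))
    (fun d _ _ => convS_jSeries d) (fun c => convS_algebraMap c)
    (fun _ _ _ _ hx hy => hx.add hy) (fun _ _ _ _ hx hy => hx.mul hy)

theorem evFun_add (N : ℕ) {a b : FN N} (ha : a ∈ helper3176.AN N) (hb : b ∈ helper3176.AN N) :
    evFun N (a + b) = evFun N a + evFun N b :=
  funext fun τ => evS_add (convS_of_mem_AN N a ha) (convS_of_mem_AN N b hb) τ

theorem evFun_mul (N : ℕ) {a b : FN N} (ha : a ∈ helper3176.AN N) (hb : b ∈ helper3176.AN N) :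
    evFun N (a * b) = evFun N a * evFun N b :=
  funext fun τ => evS_mul (convS_of_mem_AN N a ha) (convS_of_mem_AN N b hb) τ

theorem evFun_algebraMap (N : ℕ) (c : Kbar) :
    evFun N (algebraMap Kbar (FN N) c) = fun _ => kappa c :=
  funext fun τ => evS_algebraMap c τ

theorem evFun_jBarD (N d : ℕ) [NeZero d] (hd : d ∣ N) :
    evFun N (jBarD N d hd) = fun τ => jFun (mulPt d τ) :=
  funext fun τ => evS_jSeries d τ

theorem mulPt_one (τ : ℍ) : mulPt 1 τ = τ := by
  apply UpperHalfPlane.ext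
  rw [coe_mulPt one_pos]
  simp

theorem evFun_jBar (N : ℕ) : evFun N (jBar N) = jFun := by
  have h := evFun_jBarD N 1 (one_dvd N)
  funext τ
  have := congrFun h τ
  rw [mulPt_one] at this
  exact this

/-- All the function-level properties of `evFun N a` that are proved by induction on `a`. -/
structure EvGood (N : ℕ) (a : FN N) : Prop where
  mdiff : MDiff (evFun N a)
  inv : ∀ γ ∈ Gamma0 N, ∀ τ : ℍ, evFun N a (γ • τ) = evFun N a τ
  growth : ∀ g : SL(2, ℤ), helper167.HasExpGrowth (fun τ : ℍ => evFun N a (g • τ))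

theorem evGood_of_mem_AN (N : ℕ) : ∀ a ∈ helper3176.AN N, EvGood N a := by
  refine AN_induction N ?_ ?_ ?_ ?_
  · intro d hd0 hd
    have hdpos : 0 < d := NeZero.pos d
    have he := evFun_jBarD N d hd
    refine ⟨?_, ?_, ?_⟩
    · rw [he]
      exact mdiff_jFun_mulPt hdpos
    · intro γ hγ τ
      rw [he]
      exact jFun_mulPt_smul_of_mem_Gamma0 hdpos hd γ hγ τ
    · intro g
      rw [he]
      exact hasExpGrowth_jFun_mulPt_smul hdpos g
  · intro c
    have he := evFun_algebraMap N c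
    refine ⟨?_, ?_, ?_⟩
    · rw [he]
      exact mdifferentiable_const
    · intro γ _ τ
      rw [he]
    · intro g
      rw [he]
      exact helper167.hasExpGrowth_const (kappa c)
  · intro x y hx hy hgx hgy
    have he := evFun_add N hx hy
    refine ⟨?_, ?_, ?_⟩
    · rw [he]
      exact hgx.mdiff.add hgy.mdiff
    · intro γ hγ τ
      rw [he]
      simp only [Pi.add_apply, hgx.inv γ hγ τ, hgy.inv γ hγ τ]
    · intro g
      rw [he]
      exact (hgx.growth g).add (hgy.growth g)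
  · intro x y hx hy hgx hgy
    have he := evFun_mul N hx hy
    refine ⟨?_, ?_, ?_⟩
    · rw [he]
      exact hgx.mdiff.mul hgy.mdiff
    · intro γ hγ τ
      rw [he]
      simp only [Pi.mul_apply, hgx.inv γ hγ τ, hgy.inv γ hγ τ]
    · intro g
      rw [he]
      exact (hgx.growth g).mul (hgy.growth g)

/-- `evFun` is injective on `AN N`. -/
theorem eq_zero_of_evFun_eq_zero (N : ℕ) {a : FN N} (ha : a ∈ helper3176.AN N)
    (h : ∀ τ : ℍ, evFun N a τ = 0) : a = 0 := by
  have h0 := eq_zero_of_evS_eq_zero (convS_of_mem_AN N a ha) h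
  exact Subtype.ext h0

/-- **Separation (E5)**: an element of `SL(2, ℤ)` fixing all the functions `evFun N a`,
`a ∈ AN N` (already: fixing `j(Nτ)`) lies in `Γ₀(N)`. -/
theorem mem_Gamma0_of_evFun_jBarD (N : ℕ) [NeZero N] (g : SL(2, ℤ))
    (h : ∀ τ : ℍ, evFun N (jBarD N N dvd_rfl) (g • τ) = evFun N (jBarD N N dvd_rfl) τ) :
    g ∈ Gamma0 N := by
  refine helper288.mem_Gamma0_of_jFn_eq N g fun τ => ?_
  have h1 := h τ
  rw [evFun_jBarD] at h1
  exact h1

/-- Coset form of the separation property. -/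
theorem coset_eq_of_evFun_jBarD (N : ℕ) [NeZero N] (g g' : SL(2, ℤ))
    (h : ∀ τ : ℍ, evFun N (jBarD N N dvd_rfl) (g⁻¹ • τ) = evFun N (jBarD N N dvd_rfl) (g'⁻¹ • τ)) :
    (g : XN N) = (g' : XN N) := by
  rw [QuotientGroup.eq]
  have h2 := helper288.mul_inv_mem_Gamma0_of_jFn_eq N g⁻¹ g'⁻¹ fun τ => by
    have h1 := h τ
    rw [evFun_jBarD] at h1
    exact h1
  rwa [inv_inv] at h2

/-! ### The ring homomorphism -/

/-- `evFun` as a ring homomorphism on `AN N`. -/
def evHom (N : ℕ) : helper3176.AN N →+* (ℍ → ℂ) where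
  toFun a := evFun N (a : FN N)
  map_one' := by
    have h := evFun_algebraMap N 1
    rw [map_one, map_one] at h
    exact h
  map_mul' a b := evFun_mul N a.2 b.2
  map_zero' := by
    have h := evFun_algebraMap N 0
    rw [map_zero, map_zero] at h
    exact h
  map_add' a b := evFun_add N a.2 b.2

theorem evHom_apply (N : ℕ) (a : helper3176.AN N) : evHom N a = evFun N (a : FN N) := rfl

theorem evHom_injective (N : ℕ) : Function.Injective (evHom N) := by
  rw [injective_iff_map_eq_zero]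
  intro a ha
  apply Subtype.ext
  exact eq_zero_of_evFun_eq_zero N a.2 fun τ => congrFun ha τ

/-- **The analytic datum of level `N`**, in existential form for hypothesis-passing users. -/
theorem exists_evDatum (N : ℕ) [NeZero N] :
    ∃ (κ : Kbar →+* ℂ) (ev : helper3176.AN N →+* (ℍ → ℂ)),
      (∀ c : Kbar, ev (algebraMap Kbar (helper3176.AN N) c) = fun _ => κ c) ∧
      (∀ (d : ℕ) [NeZero d] (hd : d ∣ N),
        ev ⟨jBarD N d hd, helper3176.jBarD_mem_AN N d hd⟩
          = fun τ : ℍ => jFun (ofComplex ((d : ℂ) * (τ : ℂ)))) ∧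
      (ev ⟨jBar N, helper3176.jBar_mem_AN N⟩ = jFun) ∧
      (∀ a, MDiff (ev a)) ∧
      Function.Injective ev ∧
      (∀ γ ∈ Gamma0 N, ∀ a (τ : ℍ), ev a (γ • τ) = ev a τ) ∧
      (∀ g : SL(2, ℤ), (∀ a (τ : ℍ), ev a (g • τ) = ev a τ) → g ∈ Gamma0 N) ∧
      (∀ a (g : SL(2, ℤ)), helper167.HasExpGrowth (fun τ : ℍ => ev a (g • τ))) := by
  refine ⟨kappa, evHom N, fun c => evFun_algebraMap N c, fun d _ hd => evFun_jBarD N d hd,
    evFun_jBar N, fun a => (evGood_of_mem_AN N a a.2).mdiff, evHom_injective N,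
    fun γ hγ a τ => (evGood_of_mem_AN N a a.2).inv γ hγ τ, fun g hg => ?_,
    fun a g => (evGood_of_mem_AN N a a.2).growth g⟩
  exact mem_Gamma0_of_evFun_jBarD N g fun τ =>
    hg ⟨jBarD N N dvd_rfl, helper3176.jBarD_mem_AN N N dvd_rfl⟩ τ

end

end Fermat.Agent.S24.helper1944
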