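/-
S24 (helper1200): `Stmt_LocalInf` of the specification (the local datum at the cusp), with no
remaining hypothesis: `helper1200.stmt_LocalInf_of_evGen` applied to the evaluation datum
`helper1944.exists_evDatum`.
-/
import Fermat.Agent.S24.helper1200_CuspLocal
import Fermat.Agent.S24.helper1944_Ev

set_option autoImplicit false

namespace Fermat.Agent.S24.helper1200

open Fermat.Agent.S24.helper24

/-- The evaluation datum exists (from `helper1944.exists_evDatum`). -/
theorem stmt_EvGen : Stmt_EvGen := by
  intro N _
  obtain ⟨κ, ev, h1, h2, -, -, h5, -⟩ := helper1944.exists_evDatum N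
  exact ⟨κ, ev, h1, h2, h5⟩

/-- **M6 of the specification**: the local datum at the cusp. -/
theorem stmt_LocalInf : Stmt_LocalInf :=
  stmt_LocalInf_of_evGen stmt_EvGen

end Fermat.Agent.S24.helper1200
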