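/-
S24, M2-GLUE (helper167): `Stmt_JFinrank` from one local datum (lower bound: the embeddings of
any `LocalDatum`) and an analytic realisation `EvDatum` of `A_N = K[j_d]` (upper bound: the
conjugates of `ev a` are permuted by `SL(2, ℤ)`, so `ev a` satisfies a monic relation of degree
`[SL(2, ℤ) : Γ₀(N)]` over `ℂ[J]`, which is transported to formal Laurent series and descended
to `ℚ̄` by `helper102.finrank_eq_card_of_monic`).
-/
import Fermat.Agent.S24.helper24_Spec
import Fermat.Agent.S24.helper102_DegreeAlg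
import Fermat.Agent.S24.helper167_SymmetricJ
import Fermat.Agent.S24.helper3176_FieldAlg

set_option autoImplicit false

open UpperHalfPlane ModularForm MatrixGroups CongruenceSubgroup ModularCurve IntermediateField
open scoped Manifold

namespace Fermat.Agent.S24.helper167

open Fermat.Agent.S24.helper24 Fermat.Agent.S24.helper3176

/-- Analytic realisation of `A_N = ℚ̄[j(q^d) : d ∣ N]` by holomorphic functions on `ℍ`, in plain
vocabulary: a ring hom `ev` into functions with holomorphic, `Γ₀(N)`-invariant values of at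
most exponential growth along every coset, sending `j` to the analytic `j`-function, and such
that `ℂ`-linear relations between the functions `ev b` hold between the formal series. -/
def EvDatum (N : ℕ) [NeZero N] : Prop :=
  ∃ (i0 : Kbar →+* ℂ) (ev : AN N →+* (ℍ → ℂ)),
    (∀ a, MDiff (ev a)) ∧
    (∀ a, ∀ γ ∈ Gamma0 N, ∀ τ : ℍ, ev a (γ • τ) = ev a τ) ∧
    (∀ a, ∀ g : SL(2, ℤ), HasExpGrowth (fun τ => ev a (g • τ))) ∧
    (∀ τ : ℍ, ev ⟨jBar N, jBar_mem_AN N⟩ τ = jFun τ) ∧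
    (∀ (s : Finset (ℕ × ℕ)) (c : ℕ × ℕ → ℂ) (b : ℕ × ℕ → AN N),
      (∀ τ : ℍ, ∑ i ∈ s, c i * ev (b i) τ = 0) →
      ∑ i ∈ s, c i • coeffMap i0 (((b i : AN N) : FN N) : LaurentSeries Kbar) = 0)

theorem mdiff_comp_smul {f : ℍ → ℂ} (hf : MDiff f) (g : SL(2, ℤ)) :
    MDiff (fun τ : ℍ => f (g • τ)) := by
  have h := MDifferentiable.slash hf 0 (g : GL (Fin 2) ℝ)
  have h2 : (f ∣[(0 : ℤ)] (g : GL (Fin 2) ℝ)) = fun τ : ℍ => f (g • τ) := by
    funext τ
    rw [← SL_slash, SL_slash_apply]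
    simp
  rwa [h2] at h

/-- The monic relation over `ℂ[J]` satisfied by `ev a`. -/
theorem exists_monic_relation_ev (N : ℕ) [NeZero N] [Fintype (XN N)] (ev : AN N →+* (ℍ → ℂ))
    (hol : ∀ a, MDiff (ev a))
    (hinv : ∀ a, ∀ γ ∈ Gamma0 N, ∀ τ : ℍ, ev a (γ • τ) = ev a τ)
    (hgr : ∀ a, ∀ g : SL(2, ℤ), HasExpGrowth (fun τ => ev a (g • τ))) (a : AN N) :
    ∃ P : Polynomial (Polynomial ℂ), P.Monic ∧ P.natDegree = Fintype.card (XN N) ∧
      ∀ τ : ℍ, ∑ i ∈ Finset.range (Fintype.card (XN N) + 1),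
        (P.coeff i).eval (jFun τ) * ev a τ ^ i = 0 := by
  classical
  let φ : XN N → ℍ → ℂ := fun x τ => ev a ((Quotient.out x)⁻¹ • τ)
  have hφhol : ∀ x, MDiff (φ x) := fun x => mdiff_comp_smul (hol a) _
  have hφgr : ∀ x, HasExpGrowth (φ x) := fun x => hgr a _
  have hφperm : ∀ g : SL(2, ℤ), ∃ s : Equiv.Perm (XN N), ∀ (x : XN N) (τ : ℍ),
      φ x (g • τ) = φ (s x) τ := by
    intro g
    refine ⟨MulAction.toPerm g⁻¹, fun x τ => ?_⟩
    obtain ⟨h, hh, hout⟩ : ∃ h ∈ Gamma0 N,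
        Quotient.out (g⁻¹ • x) = g⁻¹ * Quotient.out x * h := by
      have hx : g⁻¹ • x = ((g⁻¹ * Quotient.out x : SL(2, ℤ)) : XN N) := by
        conv_lhs => rw [← QuotientGroup.out_eq' x]
        rfl
      rw [hx]
      obtain ⟨h, hh⟩ := QuotientGroup.mk_out_eq_mul (Gamma0 N) (g⁻¹ * Quotient.out x)
      exact ⟨h, h.2, hh⟩
    show ev a ((Quotient.out x)⁻¹ • g • τ) = ev a ((Quotient.out (g⁻¹ • x))⁻¹ • τ)
    rw [hout, mul_inv_rev, mul_inv_rev, inv_inv, mul_smul, mul_smul,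
      hinv a h⁻¹ (inv_mem hh)]
  obtain ⟨P, hmonic, hdeg, hP⟩ := exists_monic_relation_sum φ hφhol hφperm hφgr
  refine ⟨P, hmonic, hdeg, fun τ => ?_⟩
  obtain ⟨h, hh⟩ := QuotientGroup.mk_out_eq_mul (Gamma0 N) (1 : SL(2, ℤ))
  have h1 := hP ((1 : SL(2, ℤ)) : XN N) τ
  have h2 : φ ((1 : SL(2, ℤ)) : XN N) τ = ev a τ := by
    show ev a ((Quotient.out ((1 : SL(2, ℤ)) : XN N))⁻¹ • τ) = ev a τ
    rw [hh, one_mul]
    exact hinv a _ (inv_mem h.2) τ
  rw [h2] at h1
  exact h1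

/-- The formal monic relation needed by `helper102.finrank_eq_card_of_monic`. -/
theorem exists_formal_relation (N : ℕ) [NeZero N] [Fintype (XN N)] (i0 : Kbar →+* ℂ)
    (ev : AN N →+* (ℍ → ℂ))
    (hol : ∀ a, MDiff (ev a))
    (hinv : ∀ a, ∀ γ ∈ Gamma0 N, ∀ τ : ℍ, ev a (γ • τ) = ev a τ)
    (hgr : ∀ a, ∀ g : SL(2, ℤ), HasExpGrowth (fun τ => ev a (g • τ)))
    (hj : ∀ τ : ℍ, ev ⟨jBar N, jBar_mem_AN N⟩ τ = jFun τ)
    (htr : ∀ (s : Finset (ℕ × ℕ)) (c : ℕ × ℕ → ℂ) (b : ℕ × ℕ → AN N),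
      (∀ τ : ℍ, ∑ i ∈ s, c i * ev (b i) τ = 0) →
      ∑ i ∈ s, c i • coeffMap i0 (((b i : AN N) : FN N) : LaurentSeries Kbar) = 0)
    (a : AN N) :
    ∃ P : ℕ → Polynomial ℂ,
      coeffMap i0 (((a : AN N) : FN N) : LaurentSeries Kbar) ^ Fintype.card (XN N)
        + ∑ k ∈ Finset.range (Fintype.card (XN N)),
          Polynomial.aeval (coeffMap i0 ((jBar N : FN N) : LaurentSeries Kbar)) (P k)
            * coeffMap i0 (((a : AN N) : FN N) : LaurentSeries Kbar) ^ k = 0 := by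
  classical
  obtain ⟨P, hmonic, hdeg, hP⟩ := exists_monic_relation_ev N ev hol hinv hgr a
  set n := Fintype.card (XN N) with hn
  set jA : AN N := ⟨jBar N, jBar_mem_AN N⟩ with hjA
  -- a common bound for the degrees of the coefficients
  obtain ⟨D, hD⟩ : ∃ D : ℕ, ∀ i ∈ Finset.range (n + 1), (P.coeff i).natDegree < D :=
    ⟨(Finset.range (n + 1)).sup (fun i => (P.coeff i).natDegree) + 1, fun i hi =>
      Nat.lt_succ_of_le (Finset.le_sup (f := fun i => (P.coeff i).natDegree) hi)⟩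
  -- the analytic relation as a linear relation between the `ev (j^l a^i)`
  have hlin : ∀ τ : ℍ, ∑ p ∈ Finset.range (n + 1) ×ˢ Finset.range D,
      (P.coeff p.1).coeff p.2 * ev (jA ^ p.2 * a ^ p.1) τ = 0 := by
    intro τ
    rw [Finset.sum_product, ← hP τ]
    refine Finset.sum_congr rfl fun i hi => ?_
    rw [Polynomial.eval_eq_sum_range' (hD i hi), Finset.sum_mul]
    refine Finset.sum_congr rfl fun l _ => ?_
    rw [map_mul, map_pow, map_pow, Pi.mul_apply, Pi.pow_apply, Pi.pow_apply, hj τ]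
    ring
  have hformal := htr (Finset.range (n + 1) ×ˢ Finset.range D)
    (fun p => (P.coeff p.1).coeff p.2) (fun p => jA ^ p.2 * a ^ p.1) hlin
  -- rewrite the formal relation
  set EJ : LaurentSeries ℂ := coeffMap i0 ((jBar N : FN N) : LaurentSeries Kbar) with hEJ
  set EA : LaurentSeries ℂ := coeffMap i0 (((a : AN N) : FN N) : LaurentSeries Kbar) with hEA
  have hterm : ∀ p : ℕ × ℕ,
      coeffMap i0 ((((jA ^ p.2 * a ^ p.1 : AN N) : AN N) : FN N) : LaurentSeries Kbar)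
        = EJ ^ p.2 * EA ^ p.1 := by
    intro p
    have : ((((jA ^ p.2 * a ^ p.1 : AN N) : AN N) : FN N) : LaurentSeries Kbar)
        = ((jBar N : FN N) : LaurentSeries Kbar) ^ p.2
          * (((a : AN N) : FN N) : LaurentSeries Kbar) ^ p.1 := by
      push_cast
      rfl
    rw [this, map_mul, map_pow, map_pow]
  have hsmul : ∀ (c : ℂ) (y : LaurentSeries ℂ),
      algebraMap ℂ (LaurentSeries ℂ) c * y = c • y := fun c y => by
    rw [ModularCurve.algebraMap_laurentSeries_eq_single, HahnSeries.single_zero_mul_eq_smul]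
  have hsum : ∑ i ∈ Finset.range (n + 1), Polynomial.aeval EJ (P.coeff i) * EA ^ i = 0 := by
    rw [← hformal, Finset.sum_product]
    refine Finset.sum_congr rfl fun i hi => ?_
    rw [Polynomial.aeval_eq_sum_range' (hD i hi), Finset.sum_mul]
    refine Finset.sum_congr rfl fun l _ => ?_
    rw [hterm (i, l), ← hsmul, Algebra.smul_def, mul_assoc]
  refine ⟨fun k => P.coeff k, ?_⟩
  rw [Finset.sum_range_succ] at hsum
  have hlead : P.coeff n = 1 := by
    rw [← hdeg]
    exact hmonic.coeff_natDegree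
  rw [hlead, map_one, one_mul] at hsum
  rw [add_comm]
  exact hsum

/-- **M2.** `[F_N : ℚ̄(j)] = [SL(2, ℤ) : Γ₀(N)]`, from an analytic realisation of `A_N` and the
embeddings of one local datum (any `y` with `ι x y` independent of `x` and `K⟮y⟯ = K⟮j⟯` would
do; we use the cusp datum, `y = j⁻¹`). -/
theorem jFinrank_of (N : ℕ) [NeZero N] (hE : EvDatum N) (m : ℕ) (g : SL(2, ℤ))
    (hL : LocalDatum N (jBar N)⁻¹ m g) :
    FiniteDimensional Kbar⟮jBar N⟯ (FN N) ∧
      Module.finrank Kbar⟮jBar N⟯ (FN N) = Nat.card (XN N) := by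
  classical
  let _ : Fintype (XN N) := Fintype.ofFinite _
  obtain ⟨i0, ev, hol, hinv, hgr, hj, htr⟩ := hE
  obtain ⟨Ω, instF, instA, w, ι, σ, ξ, -, hι, hξ, -⟩ := hL
  have key := helper102.finrank_eq_card_of_monic (X := XN N) i0
    (modularFunctionFieldBar N).val (jBar N) (transcendental_jBar N) (AN N) (jBar_mem_AN N)
    (fun x => by
      obtain ⟨a, b, -, hx⟩ := exists_div_AN N x
      exact ⟨a, a.2, b, b.2, hx⟩)
    (fun a ha => exists_formal_relation N i0 ev hol hinv hgr hj htr ⟨a, ha⟩)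
    (fun x => ((ι x : FN N →ₐ[Kbar] Ω) : FN N →+* Ω))
    (fun x y hxy => hι (AlgHom.coe_ringHom_injective hxy))
    (fun x y c => by
      show ι x (algebraMap Kbar (FN N) c) = ι y (algebraMap Kbar (FN N) c)
      rw [AlgHom.commutes, AlgHom.commutes])
    (fun x y => by
      show ι x (jBar N) = ι y (jBar N)
      have hx := hξ x
      have hy := hξ y
      rw [map_inv₀] at hx hy
      exact inv_injective (hx.trans hy.symm))
  rw [Nat.card_eq_fintype_card]
  exact key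

/-- `Stmt_JFinrank` from the cusp datum and an analytic realisation of `A_N`. -/
theorem stmt_JFinrank_of (hE : ∀ (N : ℕ) [NeZero N], EvDatum N) (hInf : Stmt_LocalInf) :
    Stmt_JFinrank := fun N _ => jFinrank_of N (hE N) N ModularGroup.T (hInf N)

end Fermat.Agent.S24.helper167
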