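import Fermat.Agent.S24.helper6180_Ev
import Fermat.Agent.S24.helper167_JFinrank

/-!
# S24 / MOD (helper6180): `helper167.EvDatum N` holds, hence `Stmt_LocalInf → Stmt_JFinrank`

The analytic evaluation `ev` of `helper6180_Ev` satisfies all clauses of `helper167.EvDatum`.
-/

set_option autoImplicit false

open ModularCurve CongruenceSubgroup UpperHalfPlane
open scoped MatrixGroups Manifold

namespace Fermat.Agent.S24.helper6180

open Fermat.Agent.S24.helper24

/-- The analytic realisation of `A_N = ℚ̄[j(q^d) : d ∣ N]` exists. -/
theorem evDatum (N : ℕ) [NeZero N] : helper167.EvDatum N :=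
  ⟨i0, evHom N, ev_package N⟩

/-- `Stmt_JFinrank` follows from the cusp datum alone. -/
theorem stmt_JFinrank_of_localInf (hInf : Stmt_LocalInf) : Stmt_JFinrank :=
  helper167.stmt_JFinrank_of (fun N _ => evDatum N) hInf

end Fermat.Agent.S24.helper6180
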