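/-
S24, module J5 (helper2064): the Rankin-Cohen / Ramanujan identity
`4 E₄ D E₆ - 6 E₆ D E₄ = -3456 Δ` for the level-one Eisenstein series, the derivative of
`J = E₄ ^ 3 / Δ`, and the local orders of `J - J τ₀` at every point `τ₀` of the upper half plane:
order `3` where `J = 0`, order `2` where `J = 1728`, order `1` elsewhere.
Imports Mathlib only.
-/
import Mathlib

namespace Fermat.Agent.S24.helper2064

open UpperHalfPlane hiding I
open ModularForm EisensteinSeries MatrixGroups Derivative Filter Complex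
open scoped Manifold Topology ModularForm Real

local notation "Δ" => ModularForm.discriminant
local notation "𝕢" => Function.Periodic.qParam

/-- The `q`-parameter has derivative `2πi q`. -/
theorem hasDerivAt_qParam_one (z : ℂ) :
    HasDerivAt (𝕢 1) (2 * π * I * 𝕢 1 z) z := by
  have h1 : HasDerivAt (fun w : ℂ => 2 * π * I * w / ((1 : ℝ) : ℂ)) (2 * π * I) z := by
    have := ((hasDerivAt_id z).const_mul (2 * π * I)).div_const ((1 : ℝ) : ℂ)
    simpa using this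
  have h2 : HasDerivAt (𝕢 1) (cexp (2 * π * I * z / ((1 : ℝ) : ℂ)) * (2 * π * I)) z := h1.cexp
  have h3 : 𝕢 1 z = cexp (2 * π * I * z / ((1 : ℝ) : ℂ)) := rfl
  rw [h3, mul_comm]
  exact h2

/-- For a level-one modular form, `D f z = deriv (cuspFunction 1 f) (q z) * q z`. -/
theorem D_eq_deriv_cuspFunction {k : ℤ} (f : ModularForm 𝒮ℒ k) (z : ℍ) :
    D f z = deriv (cuspFunction 1 f) (𝕢 1 z) * 𝕢 1 z := by
  have hcf : DifferentiableAt ℂ (cuspFunction 1 f) (𝕢 1 z) :=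
    ModularFormClass.differentiableAt_cuspFunction f one_pos one_mem_strictPeriods_SL
      (Function.Periodic.norm_qParam_lt_one one_pos z.im_pos)
  have hev : (f ∘ ofComplex) =ᶠ[𝓝 (z : ℂ)] (cuspFunction 1 f) ∘ (𝕢 1) := by
    filter_upwards [isOpen_upperHalfPlaneSet.mem_nhds z.im_pos] with w hw
    have := SlashInvariantFormClass.eq_cuspFunction (h := 1) f ⟨w, hw⟩
      one_mem_strictPeriods_SL one_ne_zero
    simp only [Function.comp_apply, ofComplex_apply_of_im_pos hw]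
    exact this.symm
  have hd : HasDerivAt ((cuspFunction 1 f) ∘ (𝕢 1))
      (deriv (cuspFunction 1 f) (𝕢 1 z) * (2 * π * I * 𝕢 1 z)) z :=
    hcf.hasDerivAt.comp (z : ℂ) (hasDerivAt_qParam_one z)
  have h2 : deriv (f ∘ ofComplex) z = deriv (cuspFunction 1 f) (𝕢 1 z) * (2 * π * I * 𝕢 1 z) :=
    (hd.congr_of_eventuallyEq hev).deriv
  have hpi : (2 * π * I : ℂ) ≠ 0 := by
    simp [Real.pi_ne_zero, I_ne_zero]
  simp only [normalizedDerivOfComplex, h2]
  field_simp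

/-- The derivative of the cusp function along `q z` tends to the first `q`-coefficient. -/
theorem tendsto_deriv_cuspFunction {k : ℤ} (f : ModularForm 𝒮ℒ k) :
    Tendsto (fun z : ℍ => deriv (cuspFunction 1 f) (𝕢 1 z)) atImInfty
      (𝓝 ((qExpansion 1 f).coeff 1)) := by
  have han : AnalyticAt ℂ (cuspFunction 1 f) 0 :=
    ModularFormClass.analyticAt_cuspFunction_zero f one_pos one_mem_strictPeriods_SL
  have hc : ContinuousAt (deriv (cuspFunction 1 f)) 0 := han.deriv.continuousAt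
  have h1 : (qExpansion 1 f).coeff 1 = deriv (cuspFunction 1 f) 0 := by
    simp [qExpansion_coeff]
  rw [h1]
  exact hc.tendsto.comp (qParam_tendsto_atImInfty one_pos)

/-- `D f / q` tends to the first `q`-coefficient at `i∞`. -/
theorem D_isZeroAtImInfty {k : ℤ} (f : ModularForm 𝒮ℒ k) : IsZeroAtImInfty (D f) := by
  have h := (tendsto_deriv_cuspFunction f).mul (qParam_tendsto_atImInfty one_pos)
  simp only [mul_zero] at h
  refine h.congr fun z => ?_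
  exact (D_eq_deriv_cuspFunction f z).symm

/-- A level-one modular form tends to its constant `q`-coefficient at `i∞`. -/
theorem tendsto_atImInfty_coeff_zero {k : ℤ} (f : ModularForm 𝒮ℒ k) :
    Tendsto (fun z : ℍ => f z) atImInfty (𝓝 ((qExpansion 1 f).coeff 0)) := by
  have han : AnalyticAt ℂ (cuspFunction 1 f) 0 :=
    ModularFormClass.analyticAt_cuspFunction_zero f one_pos one_mem_strictPeriods_SL
  have h1 : (qExpansion 1 f).coeff 0 = cuspFunction 1 f 0 := by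
    simp [qExpansion_coeff]
  rw [h1]
  have := han.continuousAt.tendsto.comp (qParam_tendsto_atImInfty one_pos)
  refine this.congr fun z => ?_
  exact SlashInvariantFormClass.eq_cuspFunction (h := 1) f z one_mem_strictPeriods_SL one_ne_zero

/-- The Rankin–Cohen bracket `4 E₄ D E₆ - 6 E₆ D E₄` as a function on `ℍ`. -/
noncomputable def rcFun : ℍ → ℂ := fun z => 4 * E₄ z * D E₆ z - 6 * E₆ z * D E₄ z

theorem rcFun_eq_serre :
    rcFun = (4 : ℂ) • ((E₄ : ℍ → ℂ) * serreDerivative ((6 : ℤ) : ℂ) E₆)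
      - (6 : ℂ) • ((E₆ : ℍ → ℂ) * serreDerivative ((4 : ℤ) : ℂ) E₄) := by
  funext z
  simp only [rcFun, Pi.sub_apply, Pi.smul_apply, Pi.mul_apply, serreDerivative_apply, smul_eq_mul]
  push_cast
  ring

theorem E₄_slash (γ : SL(2, ℤ)) : (E₄ : ℍ → ℂ) ∣[(4 : ℤ)] γ = E₄ := by
  have hγ : (γ : GL (Fin 2) ℝ) ∈ 𝒮ℒ := ⟨γ, rfl⟩
  rw [SL_slash, SlashInvariantForm.slash_action_eqn _ _ hγ]

theorem E₆_slash (γ : SL(2, ℤ)) : (E₆ : ℍ → ℂ) ∣[(6 : ℤ)] γ = E₆ := by
  have hγ : (γ : GL (Fin 2) ℝ) ∈ 𝒮ℒ := ⟨γ, rfl⟩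
  rw [SL_slash, SlashInvariantForm.slash_action_eqn _ _ hγ]

theorem rcFun_slash (γ : SL(2, ℤ)) : rcFun ∣[(12 : ℤ)] γ = rcFun := by
  have h4 : serreDerivative ((4 : ℤ) : ℂ) E₄ ∣[(6 : ℤ)] γ = serreDerivative ((4 : ℤ) : ℂ) E₄ :=
    serreDerivative_slash_invariant (k := 4) (ModularFormClass.holo E₄) (E₄_slash γ)
  have h6 : serreDerivative ((6 : ℤ) : ℂ) E₆ ∣[(8 : ℤ)] γ = serreDerivative ((6 : ℤ) : ℂ) E₆ :=
    serreDerivative_slash_invariant (k := 6) (ModularFormClass.holo E₆) (E₆_slash γ)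
  have hA : ((E₄ : ℍ → ℂ) * serreDerivative ((6 : ℤ) : ℂ) E₆) ∣[(12 : ℤ)] γ
      = (E₄ : ℍ → ℂ) * serreDerivative ((6 : ℤ) : ℂ) E₆ := by
    have := mul_slash_SL2 4 8 γ (E₄ : ℍ → ℂ) (serreDerivative ((6 : ℤ) : ℂ) E₆)
    rw [E₄_slash, h6] at this
    exact this
  have hB : ((E₆ : ℍ → ℂ) * serreDerivative ((4 : ℤ) : ℂ) E₄) ∣[(12 : ℤ)] γ
      = (E₆ : ℍ → ℂ) * serreDerivative ((4 : ℤ) : ℂ) E₄ := by
    have := mul_slash_SL2 6 6 γ (E₆ : ℍ → ℂ) (serreDerivative ((4 : ℤ) : ℂ) E₄)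
    rw [E₆_slash, h4] at this
    exact this
  rw [rcFun_eq_serre, sub_eq_add_neg, SlashAction.add_slash, SlashAction.neg_slash,
    SL_smul_slash, SL_smul_slash, hA, hB]

theorem rcFun_mdifferentiable : MDiff rcFun := by
  have h4 : MDiff (E₄ : ℍ → ℂ) := ModularFormClass.holo E₄
  have h6 : MDiff (E₆ : ℍ → ℂ) := ModularFormClass.holo E₆
  have hD4 : MDiff (D (E₄ : ℍ → ℂ)) := normalizedDerivOfComplex_mdifferentiable h4
  have hD6 : MDiff (D (E₆ : ℍ → ℂ)) := normalizedDerivOfComplex_mdifferentiable h6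
  have hc4 : MDiff (fun _ : ℍ => (4 : ℂ)) := mdifferentiable_const
  have hc6 : MDiff (fun _ : ℍ => (6 : ℂ)) := mdifferentiable_const
  exact ((hc4.mul h4).mul hD6).sub ((hc6.mul h6).mul hD4)

theorem rcFun_isZeroAtImInfty : IsZeroAtImInfty rcFun := by
  have h4 := tendsto_atImInfty_coeff_zero E₄
  have h6 := tendsto_atImInfty_coeff_zero E₆
  have hD4 : Tendsto (D (E₄ : ℍ → ℂ)) atImInfty (𝓝 0) := D_isZeroAtImInfty E₄
  have hD6 : Tendsto (D (E₆ : ℍ → ℂ)) atImInfty (𝓝 0) := D_isZeroAtImInfty E₆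
  have := ((h4.const_mul 4).mul hD6).sub ((h6.const_mul 6).mul hD4)
  simp only [mul_zero, sub_zero] at this
  refine this.congr fun z => ?_
  simp only [rcFun]

/-- The Rankin–Cohen bracket as a cusp form of weight 12 and level one. -/
noncomputable def rcCuspForm : CuspForm 𝒮ℒ 12 where
  toFun := rcFun
  slash_action_eq' A hA := by
    obtain ⟨A, rfl⟩ := hA
    exact rcFun_slash A
  holo' := rcFun_mdifferentiable
  zero_at_cusps' hc := by
    rw [Subgroup.IsArithmetic.isCusp_iff_isCusp_SL2Z] at hc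
    rw [OnePoint.isZeroAt_iff_forall_SL2Z hc]
    intro γ _
    rw [rcFun_slash γ]
    exact rcFun_isZeroAtImInfty


/-- **Rankin–Cohen / Ramanujan identity**: `4 E₄ D E₆ - 6 E₆ D E₄ = -3456 Δ`. -/
theorem rcFun_eq (z : ℍ) : rcFun z = -3456 * Δ z := by
  obtain ⟨c, hc⟩ := CuspForm.exists_smul_discriminant_of_weight_eq_twelve rcCuspForm
  have hcz : ∀ w : ℍ, c * Δ w = rcFun w := fun w => by
    have := congrArg (fun f : CuspForm 𝒮ℒ 12 => f w) hc
    exact this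
  suffices hc' : c = -3456 by rw [← hcz z, hc']
  -- compare the leading terms at `i∞`
  have hq : ∀ w : ℍ, 𝕢 1 (w : ℂ) ≠ 0 := fun w => by
    simp [Function.Periodic.qParam]
  have key : ∀ w : ℍ, c * (∏' n, (1 - eta_q n w) ^ 24)
      = 4 * E₄ w * deriv (cuspFunction 1 E₆) (𝕢 1 w) - 6 * E₆ w * deriv (cuspFunction 1 E₄) (𝕢 1 w) := by
    intro w
    have h1 := hcz w
    rw [discriminant_eq_q_prod] at h1
    simp only [rcFun, D_eq_deriv_cuspFunction] at h1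
    have h2 : 𝕢 1 (w : ℂ) * (c * (∏' n, (1 - eta_q n w) ^ 24)) = 𝕢 1 (w : ℂ) *
        (4 * E₄ w * deriv (cuspFunction 1 E₆) (𝕢 1 w)
          - 6 * E₆ w * deriv (cuspFunction 1 E₄) (𝕢 1 w)) := by
      linear_combination h1
    exact mul_left_cancel₀ (hq w) h2
  have hL : Tendsto (fun w : ℍ => c * (∏' n, (1 - eta_q n w) ^ 24)) atImInfty (𝓝 (c * 1)) :=
    tendsto_atImInfty_tprod_one_sub_eta_q_pow.const_mul c
  have hR : Tendsto (fun w : ℍ => 4 * E₄ w * deriv (cuspFunction 1 E₆) (𝕢 1 w)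
      - 6 * E₆ w * deriv (cuspFunction 1 E₄) (𝕢 1 w)) atImInfty
      (𝓝 (4 * 1 * (-504) - 6 * 1 * 240)) := by
    have h4 := tendsto_atImInfty_coeff_zero E₄
    have h6 := tendsto_atImInfty_coeff_zero E₆
    rw [E_qExpansion_coeff_zero _ ⟨2, rfl⟩] at h4
    rw [E_qExpansion_coeff_zero _ ⟨3, rfl⟩] at h6
    have hd4 := tendsto_deriv_cuspFunction E₄
    have hd6 := tendsto_deriv_cuspFunction E₆
    rw [E₄_qExpansion_coeff_one] at hd4
    rw [E₆_qExpansion_coeff_one] at hd6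
    exact ((h4.const_mul 4).mul hd6).sub ((h6.const_mul 6).mul hd4)
  have := tendsto_nhds_unique (hL.congr key) hR
  linear_combination this

/-- `E₄` as a function on `ℂ`. -/
noncomputable def e4 : ℂ → ℂ := fun z => E₄ (ofComplex z)
/-- `E₆` as a function on `ℂ`. -/
noncomputable def e6 : ℂ → ℂ := fun z => E₆ (ofComplex z)

theorem e4_analyticAt (τ : ℍ) : AnalyticAt ℂ e4 (τ : ℂ) := by
  have h : DifferentiableOn ℂ ((E₄ : ℍ → ℂ) ∘ ofComplex) upperHalfPlaneSet :=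
    UpperHalfPlane.mdifferentiable_iff.mp (ModularFormClass.holo E₄)
  exact h.analyticAt (isOpen_upperHalfPlaneSet.mem_nhds τ.im_pos)

theorem e6_analyticAt (τ : ℍ) : AnalyticAt ℂ e6 (τ : ℂ) := by
  have h : DifferentiableOn ℂ ((E₆ : ℍ → ℂ) ∘ ofComplex) upperHalfPlaneSet :=
    UpperHalfPlane.mdifferentiable_iff.mp (ModularFormClass.holo E₆)
  exact h.analyticAt (isOpen_upperHalfPlaneSet.mem_nhds τ.im_pos)

theorem e4_apply (τ : ℍ) : e4 (τ : ℂ) = E₄ τ := by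
  simp [e4, ofComplex_apply]

theorem e6_apply (τ : ℍ) : e6 (τ : ℂ) = E₆ τ := by
  simp [e6, ofComplex_apply]

/-- The discriminant in terms of `e4`, `e6` at every complex number. -/
theorem discriminant_ofComplex (z : ℂ) :
    Δ (ofComplex z) = (e4 z ^ 3 - e6 z ^ 2) / 1728 :=
  discriminant_eq_E₄_cube_sub_E₆_sq (ofComplex z)

theorem e4_cube_sub_e6_sq_ne_zero (z : ℂ) : e4 z ^ 3 - e6 z ^ 2 ≠ 0 := by
  intro h
  have := discriminant_ne_zero (ofComplex z)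
  rw [discriminant_ofComplex, h] at this
  simp at this

/-- The Rankin–Cohen identity in terms of complex derivatives. -/
theorem rc_deriv (τ : ℍ) :
    2 * e4 τ * deriv e6 τ - 3 * e6 τ * deriv e4 τ
      = -(2 * π * I) * (e4 τ ^ 3 - e6 τ ^ 2) := by
  have h := rcFun_eq τ
  have hpi : (2 * π * I : ℂ) ≠ 0 := by
    simp [Real.pi_ne_zero, I_ne_zero]
  have hΔ : Δ τ = (e4 τ ^ 3 - e6 τ ^ 2) / 1728 := by
    have := discriminant_ofComplex (τ : ℂ)
    rwa [ofComplex_apply] at this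
  have h4 : D (E₄ : ℍ → ℂ) τ = (2 * π * I)⁻¹ * deriv e4 τ := rfl
  have h6 : D (E₆ : ℍ → ℂ) τ = (2 * π * I)⁻¹ * deriv e6 τ := rfl
  simp only [rcFun] at h
  rw [h4, h6, hΔ, ← e4_apply, ← e6_apply] at h
  field_simp at h
  linear_combination h / 3456


/-- The inverse of the discriminant as a function on `ℂ`. -/
noncomputable def dinv : ℂ → ℂ := fun z => (Δ (ofComplex z))⁻¹

theorem dinv_eq : dinv = fun z => ((e4 z ^ 3 - e6 z ^ 2) / 1728)⁻¹ := by
  funext z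
  simp only [dinv, discriminant_ofComplex]

theorem dinv_analyticAt (τ : ℍ) : AnalyticAt ℂ dinv (τ : ℂ) := by
  rw [dinv_eq]
  have h4 := e4_analyticAt τ
  have h6 := e6_analyticAt τ
  have hne : (e4 (τ : ℂ) ^ 3 - e6 (τ : ℂ) ^ 2) / 1728 ≠ 0 :=
    div_ne_zero (e4_cube_sub_e6_sq_ne_zero _) (by norm_num)
  exact (((h4.pow 3).sub (h6.pow 2)).div analyticAt_const (by norm_num)).inv hne

theorem dinv_ne_zero (z : ℂ) : dinv z ≠ 0 :=
  inv_ne_zero (discriminant_ne_zero _)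

theorem analyticOrderAt_dinv (τ : ℍ) : analyticOrderAt dinv (τ : ℂ) = 0 :=
  (dinv_analyticAt τ).analyticOrderAt_eq_zero.mpr (dinv_ne_zero _)

/-- At a zero of `E₄` the derivative of `E₄` does not vanish. -/
theorem deriv_e4_ne_zero (τ : ℍ) (h : E₄ τ = 0) : deriv e4 τ ≠ 0 := by
  intro hd
  have hrc := rc_deriv τ
  have h4 : e4 (τ : ℂ) = 0 := by rw [e4_apply]; exact h
  have hpi : (2 * π * I : ℂ) ≠ 0 := by
    simp [Real.pi_ne_zero, I_ne_zero]
  rw [h4, hd] at hrc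
  have hne := e4_cube_sub_e6_sq_ne_zero (τ : ℂ)
  rw [h4] at hne
  have : (2 * π * I : ℂ) * ((0 : ℂ) ^ 3 - e6 (τ : ℂ) ^ 2) = 0 := by linear_combination hrc
  rcases mul_eq_zero.mp this with h1 | h1
  · exact hpi h1
  · exact hne h1

/-- At a zero of `E₆` the derivative of `E₆` does not vanish. -/
theorem deriv_e6_ne_zero (τ : ℍ) (h : E₆ τ = 0) : deriv e6 τ ≠ 0 := by
  intro hd
  have hrc := rc_deriv τ
  have h6 : e6 (τ : ℂ) = 0 := by rw [e6_apply]; exact h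
  have hpi : (2 * π * I : ℂ) ≠ 0 := by
    simp [Real.pi_ne_zero, I_ne_zero]
  rw [h6, hd] at hrc
  have hne := e4_cube_sub_e6_sq_ne_zero (τ : ℂ)
  rw [h6] at hne
  have : (2 * π * I : ℂ) * (e4 (τ : ℂ) ^ 3 - (0 : ℂ) ^ 2) = 0 := by linear_combination hrc
  rcases mul_eq_zero.mp this with h1 | h1
  · exact hpi h1
  · exact hne h1

theorem analyticOrderAt_e4 (τ : ℍ) (h : E₄ τ = 0) : analyticOrderAt e4 (τ : ℂ) = 1 :=
  (e4_analyticAt τ).analyticOrderAt_eq_one_of_zero_deriv_ne_zero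
    (by rw [e4_apply]; exact h) (deriv_e4_ne_zero τ h)

theorem analyticOrderAt_e6 (τ : ℍ) (h : E₆ τ = 0) : analyticOrderAt e6 (τ : ℂ) = 1 :=
  (e6_analyticAt τ).analyticOrderAt_eq_one_of_zero_deriv_ne_zero
    (by rw [e6_apply]; exact h) (deriv_e6_ne_zero τ h)

/-- **Order 3 at the zeros of `J`** (i.e. the zeros of `E₄`). -/
theorem analyticOrderAt_J_of_E₄_eq_zero (τ0 : ℍ) (h : E₄ τ0 = 0) :
    analyticOrderAt (fun z : ℂ => E₄ (ofComplex z) ^ 3 / Δ (ofComplex z) - E₄ τ0 ^ 3 / Δ τ0)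
      (τ0 : ℂ) = 3 := by
  have hfun : (fun z : ℂ => E₄ (ofComplex z) ^ 3 / Δ (ofComplex z) - E₄ τ0 ^ 3 / Δ τ0)
      = e4 ^ 3 * dinv := by
    funext z
    simp only [h, Pi.mul_apply, Pi.pow_apply, e4, dinv]
    ring
  rw [hfun, analyticOrderAt_mul ((e4_analyticAt τ0).pow 3) (dinv_analyticAt τ0),
    analyticOrderAt_pow (e4_analyticAt τ0), analyticOrderAt_e4 τ0 h, analyticOrderAt_dinv]
  rfl

/-- **Order 2 where `J = 1728`** (i.e. at the zeros of `E₆`). -/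
theorem analyticOrderAt_J_of_E₆_eq_zero (τ0 : ℍ) (h : E₆ τ0 = 0) :
    analyticOrderAt (fun z : ℂ => E₄ (ofComplex z) ^ 3 / Δ (ofComplex z) - E₄ τ0 ^ 3 / Δ τ0)
      (τ0 : ℂ) = 2 := by
  have hΔ0 : Δ τ0 = E₄ τ0 ^ 3 / 1728 := by
    rw [discriminant_eq_E₄_cube_sub_E₆_sq, h]; ring
  have hΔne := discriminant_ne_zero τ0
  have h1728 : E₄ τ0 ^ 3 / Δ τ0 = 1728 := by
    rw [div_eq_iff hΔne, hΔ0]; ring
  have hfun : (fun z : ℂ => E₄ (ofComplex z) ^ 3 / Δ (ofComplex z) - E₄ τ0 ^ 3 / Δ τ0)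
      = e6 ^ 2 * dinv := by
    funext z
    have hz := discriminant_ne_zero (ofComplex z)
    have hz' := discriminant_eq_E₄_cube_sub_E₆_sq (ofComplex z)
    simp only [h1728, Pi.mul_apply, Pi.pow_apply, e6, dinv]
    field_simp
    rw [hz']
    ring
  rw [hfun, analyticOrderAt_mul ((e6_analyticAt τ0).pow 2) (dinv_analyticAt τ0),
    analyticOrderAt_pow (e6_analyticAt τ0), analyticOrderAt_e6 τ0 h, analyticOrderAt_dinv]
  rfl


/-- `J` as a function on `ℂ`. -/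
noncomputable def jc : ℂ → ℂ := fun z => E₄ (ofComplex z) ^ 3 / Δ (ofComplex z)

theorem jc_eq : jc = fun z => 1728 * e4 z ^ 3 / (e4 z ^ 3 - e6 z ^ 2) := by
  funext z
  have hne := e4_cube_sub_e6_sq_ne_zero z
  simp only [jc, discriminant_ofComplex]
  simp only [e4]
  field_simp

theorem jc_analyticAt (τ : ℍ) : AnalyticAt ℂ jc (τ : ℂ) := by
  have h : jc = e4 ^ 3 * dinv := by
    funext z
    simp only [jc, Pi.mul_apply, Pi.pow_apply, e4, dinv]
    ring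
  rw [h]
  exact ((e4_analyticAt τ).pow 3).mul (dinv_analyticAt τ)

/-- **Derivative of `J`**: `Δ · J' = -2πi E₄² E₆`. -/
theorem deriv_jc (τ : ℍ) :
    deriv jc τ = -(2 * π * I) * E₄ τ ^ 2 * E₆ τ / Δ τ := by
  have h4 : HasDerivAt e4 (deriv e4 τ) τ := (e4_analyticAt τ).differentiableAt.hasDerivAt
  have h6 : HasDerivAt e6 (deriv e6 τ) τ := (e6_analyticAt τ).differentiableAt.hasDerivAt
  have hne := e4_cube_sub_e6_sq_ne_zero (τ : ℂ)
  have hq := ((h4.fun_pow 3).const_mul (1728 : ℂ)).fun_div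
    ((h4.fun_pow 3).fun_sub (h6.fun_pow 2)) hne
  have hmul : (fun z => 1728 * e4 z ^ 3 / (e4 z ^ 3 - e6 z ^ 2))
      = (fun y => (fun y => 1728 * e4 y ^ 3) y / (fun i => e4 i ^ 3 - e6 i ^ 2) y) := rfl
  rw [jc_eq, hmul, hq.deriv]
  have hrc := rc_deriv τ
  have hΔ : Δ τ = (e4 τ ^ 3 - e6 τ ^ 2) / 1728 := by
    have := discriminant_ofComplex (τ : ℂ)
    rwa [ofComplex_apply] at this
  rw [hΔ, ← e4_apply, ← e6_apply]
  field_simp
  linear_combination (e4 (τ : ℂ) ^ 2 * e6 (τ : ℂ)) * hrc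

/-- **Order 1 away from the zeros of `E₄` and `E₆`.** -/
theorem analyticOrderAt_J_of_ne_zero (τ0 : ℍ) (h4 : E₄ τ0 ≠ 0) (h6 : E₆ τ0 ≠ 0) :
    analyticOrderAt (fun z : ℂ => E₄ (ofComplex z) ^ 3 / Δ (ofComplex z) - E₄ τ0 ^ 3 / Δ τ0)
      (τ0 : ℂ) = 1 := by
  have hd : deriv jc τ0 ≠ 0 := by
    rw [deriv_jc]
    have hpi : (2 * π * I : ℂ) ≠ 0 := by
      simp [Real.pi_ne_zero, I_ne_zero]
    exact div_ne_zero (mul_ne_zero (mul_ne_zero (neg_ne_zero.mpr hpi) (pow_ne_zero 2 h4)) h6)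
      (discriminant_ne_zero τ0)
  have := (jc_analyticAt τ0).analyticOrderAt_sub_eq_one_of_deriv_ne_zero hd
  have hfun : (fun z : ℂ => E₄ (ofComplex z) ^ 3 / Δ (ofComplex z) - E₄ τ0 ^ 3 / Δ τ0)
      = (fun z => jc z - jc (τ0 : ℂ)) := by
    funext z
    simp only [jc, ofComplex_apply]
  rw [hfun]
  exact this


/-! ## Final shape: the `j`-function and its local orders -/

/-- The `j`-function on the upper half plane. -/
noncomputable def J (τ : ℍ) : ℂ := E₄ τ ^ 3 / Δ τ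

theorem J_eq_zero_iff (τ : ℍ) : J τ = 0 ↔ E₄ τ = 0 := by
  have hΔ := discriminant_ne_zero τ
  simp [J, hΔ]

theorem J_eq_1728_iff (τ : ℍ) : J τ = 1728 ↔ E₆ τ = 0 := by
  have hΔ := discriminant_ne_zero τ
  have h := discriminant_eq_E₄_cube_sub_E₆_sq τ
  rw [J, div_eq_iff hΔ]
  constructor
  · intro h1
    have : E₆ τ ^ 2 = 0 := by rw [h] at h1; linear_combination h1
    exact pow_eq_zero_iff (two_ne_zero) |>.mp this
  · intro h6
    rw [h, h6]; ring

/-- **Local order of `j - j(τ0)` is `3` over `j = 0`.** -/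
theorem analyticOrderAt_J_sub_of_eq_zero (τ0 : ℍ) (h : J τ0 = 0) :
    analyticOrderAt (fun z : ℂ => J (ofComplex z) - J τ0) (τ0 : ℂ) = 3 :=
  analyticOrderAt_J_of_E₄_eq_zero τ0 ((J_eq_zero_iff τ0).mp h)

/-- **Local order of `j - j(τ0)` is `2` over `j = 1728`.** -/
theorem analyticOrderAt_J_sub_of_eq_1728 (τ0 : ℍ) (h : J τ0 = 1728) :
    analyticOrderAt (fun z : ℂ => J (ofComplex z) - J τ0) (τ0 : ℂ) = 2 :=
  analyticOrderAt_J_of_E₆_eq_zero τ0 ((J_eq_1728_iff τ0).mp h)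

/-- **Local order of `j - j(τ0)` is `1` away from `j ∈ {0, 1728}`.** -/
theorem analyticOrderAt_J_sub_of_ne (τ0 : ℍ) (h0 : J τ0 ≠ 0) (h1 : J τ0 ≠ 1728) :
    analyticOrderAt (fun z : ℂ => J (ofComplex z) - J τ0) (τ0 : ℂ) = 1 :=
  analyticOrderAt_J_of_ne_zero τ0 (fun h => h0 ((J_eq_zero_iff τ0).mpr h))
    (fun h => h1 ((J_eq_1728_iff τ0).mpr h))

/-- `J ∘ ofComplex` is analytic at every point of the upper half plane. -/
theorem J_analyticAt (τ : ℍ) : AnalyticAt ℂ (fun z : ℂ => J (ofComplex z)) (τ : ℂ) :=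
  jc_analyticAt τ

/-- Derivative of `J ∘ ofComplex`. -/
theorem deriv_J (τ : ℍ) :
    deriv (fun z : ℂ => J (ofComplex z)) τ = -(2 * π * I) * E₄ τ ^ 2 * E₆ τ / Δ τ :=
  deriv_jc τ

/-- The three local orders for any function `j` which is pointwise `E₄ ^ 3 / Δ`
(e.g. `Fermat.Agent.S24.helper24.jFun` with `fun _ => rfl`). -/
theorem analyticOrderAt_sub_of_eq (j : ℍ → ℂ) (hj : ∀ τ, j τ = E₄ τ ^ 3 / Δ τ) (τ0 : ℍ) :
    (j τ0 = 0 → analyticOrderAt (fun z : ℂ => j (ofComplex z) - j τ0) (τ0 : ℂ) = 3) ∧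
    (j τ0 = 1728 → analyticOrderAt (fun z : ℂ => j (ofComplex z) - j τ0) (τ0 : ℂ) = 2) ∧
    (j τ0 ≠ 0 → j τ0 ≠ 1728 →
      analyticOrderAt (fun z : ℂ => j (ofComplex z) - j τ0) (τ0 : ℂ) = 1) := by
  have hjJ : j = J := funext hj
  subst hjJ
  exact ⟨analyticOrderAt_J_sub_of_eq_zero τ0, analyticOrderAt_J_sub_of_eq_1728 τ0,
    analyticOrderAt_J_sub_of_ne τ0⟩

end Fermat.Agent.S24.helper2064
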