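import Fermat.Agent.S24.helper481_LocalFinite
import Fermat.Agent.S24.helper454_JSurj
import Fermat.Agent.S24.helper2064_JOrder

/-!
# S24: the analytic leaves of `helper481.local_of_package` are closed

`Stmt_JSurj`, `Stmt_JGeneric`, `Stmt_JElliptic` (exact shapes of `helper481_LocalFinite`) are
proved here from `helper454_JSurj` (surjectivity, fixed points) and `helper2064_JOrder`
(local orders of `j`).  Hence the three finite-point local data of the Spec follow from
`Stmt_MerPackage` alone.
-/

set_option autoImplicit false

open UpperHalfPlane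
open scoped MatrixGroups

namespace Fermat.Agent.S24.helper2064

open Fermat.Agent.S24.helper24 Fermat.Agent.S24.helper481

/-- C2 in the `helper481` shape. -/
theorem stmt_JSurj : Stmt_JSurj := fun c => helper454.exists_j_eq c

/-- J5 (generic part) in the `helper481` shape. -/
theorem stmt_JGeneric : Stmt_JGeneric := fun τ₀ h0 h1 =>
  (analyticOrderAt_sub_of_eq jFun (fun _ => rfl) τ₀).2.2 h0 h1

/-- J5 (elliptic part) in the `helper481` shape. -/
theorem stmt_JElliptic : Stmt_JElliptic := by
  refine ⟨⟨UpperHalfPlane.I, helper454.S_smul_I, helper454.j_I, ?_⟩,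
    ⟨helper454.rho, helper454.ST_smul_rho, helper454.j_rho, ?_⟩⟩
  · exact (analyticOrderAt_sub_of_eq jFun (fun _ => rfl) UpperHalfPlane.I).2.1 helper454.j_I
  · exact (analyticOrderAt_sub_of_eq jFun (fun _ => rfl) helper454.rho).1 helper454.j_rho

/-- The three finite-point local data follow from the abstract meromorphic package alone. -/
theorem local_of_merPackage (hP : Stmt_MerPackage) :
    Stmt_LocalGeneric ∧ Stmt_Local1728 ∧ Stmt_LocalZero :=
  local_of_package hP stmt_JSurj stmt_JGeneric stmt_JElliptic

end Fermat.Agent.S24.helper2064
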