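import Fermat.Agent.S24.helper24_Master
import Fermat.Agent.S24.helper167_JFinrank
import Fermat.Agent.S24.helper2064_JLeaves

/-!
# S24 master chain, modular part (helper24, captain)

`Stmt_S24` from the three analytic packages that are still being built:

* `helper167.EvDatum N`      — analytic realisation `ev` of `A_N = ℚ̄[j(q^d) : d ∣ N]`;
* `helper481.Stmt_MerPackage` — the finite-point package (field of meromorphic functions);
* `Stmt_LocalInf`             — the local datum at the cusp.
-/

set_option autoImplicit false

namespace Fermat.Agent.S24.helper24

/-- `Stmt_S24` from the three open analytic packages. -/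
theorem s24_of_packages (hEv : ∀ (N : ℕ) [NeZero N], helper167.EvDatum N)
    (hMP : helper481.Stmt_MerPackage) (hInf : Stmt_LocalInf) : Stmt_S24 :=
  have hloc := helper2064.local_of_merPackage hMP
  s24_of_mod (helper167.stmt_JFinrank_of hEv hInf) hloc.1 hloc.2.1 hloc.2.2 hInf

end Fermat.Agent.S24.helper24
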