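import Fermat.Agent.S24.helper580_HolMer
import Fermat.Agent.S24.helper3176_FieldAlg
import Fermat.Agent.S24.helper2064_JLeaves

/-!
# S24 (helper580): the meromorphic package from a function-level evaluation datum

`Stmt_EvFun` is a function-level description of the analytic evaluation of the function field:
an injective ring homomorphism `e` from the `ℚ̄`-algebra `AN N` generated by the `j(q^d)`, `d ∣ N`
into functions `ℍ → ℂ`, with holomorphic values, compatible with constants, sending `j` to the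
analytic `j`-function, with values invariant under `Γ₀(N)` and separating the cosets of `Γ₀(N)`.
It mentions no ring of holomorphic functions.

* `stmt_MerPackage : Stmt_EvFun → helper481.Stmt_MerPackage`
  (with `M = Mer`, `ord = ordAt`, `act g = pull g⁻¹` of `helper580_HolMer`);
* `stmt_LocalFinite : Stmt_EvFun → Stmt_LocalGeneric ∧ Stmt_Local1728 ∧ Stmt_LocalZero`.
-/

set_option autoImplicit false
set_option linter.style.haveILetI false

open UpperHalfPlane CongruenceSubgroup ModularCurve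
open scoped MatrixGroups Manifold

namespace Fermat.Agent.S24.helper580

open Fermat.Agent.S24.helper24

noncomputable section

/-- Function-level evaluation datum for the function field of level `N` (for every `N`). -/
def Stmt_EvFun : Prop :=
  ∀ (N : ℕ) [NeZero N], ∃ (i0 : Kbar →+* ℂ) (e : helper3176.AN N →+* (ℍ → ℂ)),
    Function.Injective e ∧
    (∀ a, MDifferentiable 𝓘(ℂ) 𝓘(ℂ) (e a)) ∧
    (∀ c : Kbar, e (algebraMap Kbar (helper3176.AN N) c) = fun _ => i0 c) ∧
    (e ⟨jBar N, helper3176.jBar_mem_AN N⟩ = jFun) ∧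
    (∀ γ ∈ Gamma0 N, ∀ (a : helper3176.AN N) (τ : ℍ), e a (γ • τ) = e a τ) ∧
    (∀ g : SL(2, ℤ), (∀ (a : helper3176.AN N) (τ : ℍ), e a (g • τ) = e a τ) → g ∈ Gamma0 N)

/-! ## Fixed points of `S` and `S * T` -/

theorem eq_I_of_S_smul {τ : ℍ} (h : ModularGroup.S • τ = τ) : τ = UpperHalfPlane.I := by
  have h1 : ((ModularGroup.S • τ : ℍ) : ℂ) = (τ : ℂ) := congrArg UpperHalfPlane.coe h
  rw [UpperHalfPlane.modular_S_smul] at h1
  have h1' : (-(τ : ℂ))⁻¹ = τ := h1
  have hτ : (τ : ℂ) ≠ 0 := UpperHalfPlane.ne_zero τ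
  have h2 : (τ : ℂ) ^ 2 = -1 := by
    have h3 : (-(τ : ℂ))⁻¹ * (-(τ : ℂ)) = 1 := inv_mul_cancel₀ (neg_ne_zero.mpr hτ)
    rw [h1'] at h3
    linear_combination -h3
  have h3 : ((τ : ℂ) - Complex.I) * ((τ : ℂ) + Complex.I) = 0 := by
    have hI : Complex.I ^ 2 = -1 := Complex.I_sq
    linear_combination h2 - hI
  rcases mul_eq_zero.mp h3 with h4 | h4
  · exact UpperHalfPlane.ext (sub_eq_zero.mp h4)
  · exfalso
    have h5 := congrArg Complex.im h4
    simp only [Complex.add_im, Complex.I_im, Complex.zero_im] at h5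
    have h6 : 0 < (τ : ℂ).im := τ.im_pos
    linarith

theorem eq_rho_of_ST_smul {τ : ℍ} (h : (ModularGroup.S * ModularGroup.T) • τ = τ) :
    τ = rho := by
  have h1 : (((ModularGroup.S * ModularGroup.T) • τ : ℍ) : ℂ) = (τ : ℂ) :=
    congrArg UpperHalfPlane.coe h
  rw [UpperHalfPlane.coe_specialLinearGroup_apply] at h1
  have h00 : (ModularGroup.S * ModularGroup.T : SL(2, ℤ)) 0 0 = 0 := by
    show ((ModularGroup.S * ModularGroup.T : SL(2, ℤ)) : Matrix (Fin 2) (Fin 2) ℤ) 0 0 = 0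
    rw [coe_ST]; rfl
  have h01 : (ModularGroup.S * ModularGroup.T : SL(2, ℤ)) 0 1 = -1 := by
    show ((ModularGroup.S * ModularGroup.T : SL(2, ℤ)) : Matrix (Fin 2) (Fin 2) ℤ) 0 1 = -1
    rw [coe_ST]; rfl
  have h10 : (ModularGroup.S * ModularGroup.T : SL(2, ℤ)) 1 0 = 1 := by
    show ((ModularGroup.S * ModularGroup.T : SL(2, ℤ)) : Matrix (Fin 2) (Fin 2) ℤ) 1 0 = 1
    rw [coe_ST]; rfl
  have h11 : (ModularGroup.S * ModularGroup.T : SL(2, ℤ)) 1 1 = 1 := by
    show ((ModularGroup.S * ModularGroup.T : SL(2, ℤ)) : Matrix (Fin 2) (Fin 2) ℤ) 1 1 = 1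
    rw [coe_ST]; rfl
  rw [h00, h01, h10, h11] at h1
  simp only [algebraMap_int_eq, Int.coe_castRingHom, Int.cast_zero, Int.cast_one, Int.cast_neg,
    Complex.ofReal_zero, Complex.ofReal_one, Complex.ofReal_neg, zero_mul, zero_add, one_mul]
    at h1
  have hne : (τ : ℂ) + 1 ≠ 0 := by
    intro h0
    have h5 := congrArg Complex.im h0
    simp only [Complex.add_im, Complex.one_im, Complex.zero_im, add_zero] at h5
    have h6 : 0 < (τ : ℂ).im := τ.im_pos
    linarith
  rw [div_eq_iff hne] at h1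
  have h2 : (τ : ℂ) ^ 2 + (τ : ℂ) + 1 = 0 := by linear_combination -h1
  have h3 : ((τ : ℂ) - (rho : ℂ)) * ((τ : ℂ) + (rho : ℂ) + 1) = 0 := by
    linear_combination h2 - rho_sq_add
  rcases mul_eq_zero.mp h3 with h4 | h4
  · exact UpperHalfPlane.ext (sub_eq_zero.mp h4)
  · exfalso
    have h5 := congrArg Complex.im h4
    simp only [Complex.add_im, Complex.one_im, Complex.zero_im, add_zero] at h5
    have h6 : 0 < (τ : ℂ).im := τ.im_pos
    have h7 : 0 < ((rho : ℍ) : ℂ).im := rho.im_pos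
    linarith

theorem iterate_pull_of_iterate_pull_inv {g : SL(2, ℤ)} {k : ℕ} {z : Mer}
    (h : (pull g⁻¹)^[k] z = z) : (pull g)^[k] z = z := by
  conv_lhs => rw [← h]
  rw [iterate_pull, iterate_pull, pull_pull, inv_pow, inv_mul_cancel, pull_one]

/-! ## `Mer` as a `ℚ̄`-algebra -/

/-- `Mer` as an algebra over `ℚ̄` through an embedding `i0 : ℚ̄ →+* ℂ`. -/
@[reducible] def algK (i0 : Kbar →+* ℂ) : Algebra Kbar Mer :=
  ((algebraMap ℂ Mer).comp i0).toAlgebra

theorem algK_algebraMap (i0 : Kbar →+* ℂ) (c : Kbar) :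
    @algebraMap Kbar Mer _ _ (algK i0) c = algebraMap ℂ Mer (i0 c) := rfl

/-- The action of `g` on `Mer` (`z ↦ z ∘ g⁻¹`) as a `ℚ̄`-algebra automorphism. -/
def actK (i0 : Kbar →+* ℂ) (g : SL(2, ℤ)) : @AlgEquiv Kbar Mer Mer _ _ _ (algK i0) (algK i0) :=
  letI := algK i0
  AlgEquiv.ofRingEquiv (f := (pull g⁻¹).toRingEquiv) (fun c => (pull g⁻¹).commutes (i0 c))

theorem actK_apply (i0 : Kbar →+* ℂ) (g : SL(2, ℤ)) (z : Mer) : actK i0 g z = pull g⁻¹ z := rfl

theorem actK_pow_apply (i0 : Kbar →+* ℂ) (g : SL(2, ℤ)) (k : ℕ) (z : Mer) :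
    letI := algK i0
    ((actK i0 g) ^ k) z = (pull g⁻¹)^[k] z := by
  letI := algK i0
  induction k generalizing z with
  | zero => rfl
  | succ k ih =>
    rw [pow_succ, AlgEquiv.mul_apply, ih, actK_apply, Function.iterate_succ_apply]

theorem hDiv_S (i0 : Kbar →+* ℂ) (τ : ℍ) (hτ : ModularGroup.S • τ = τ) :
    @helper481.HDiv Mer _ (algK i0) (ordAt τ) (actK i0 ModularGroup.S) 2 := by
  letI := algK i0
  intro k z hz hk
  rw [actK_pow_apply] at hk
  rw [eq_I_of_S_smul hτ]
  exact hdiv_S k z hz (iterate_pull_of_iterate_pull_inv hk)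

theorem hDiv_ST (i0 : Kbar →+* ℂ) (τ : ℍ)
    (hτ : (ModularGroup.S * ModularGroup.T) • τ = τ) :
    @helper481.HDiv Mer _ (algK i0) (ordAt τ)
      (actK i0 (ModularGroup.S * ModularGroup.T)) 3 := by
  letI := algK i0
  intro k z hz hk
  rw [actK_pow_apply] at hk
  rw [eq_rho_of_ST_smul hτ]
  exact hdiv_ST k z hz (iterate_pull_of_iterate_pull_inv hk)

/-! ## The evaluation map into `Mer` -/

section ev

variable {N : ℕ} (i0 : Kbar →+* ℂ) (e : helper3176.AN N →+* (ℍ → ℂ))
  (hmd : ∀ a, MDifferentiable 𝓘(ℂ) 𝓘(ℂ) (e a))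

/-- `e` with values in `Hol`. -/
def eHol : helper3176.AN N →+* Hol := e.codRestrict Hol hmd

theorem eHol_apply (a : helper3176.AN N) (τ : ℍ) : (eHol e hmd a : ℍ → ℂ) τ = e a τ := rfl

/-- `e` with values in `Mer`. -/
def eMer : helper3176.AN N →+* Mer := (algebraMap Hol Mer).comp (eHol e hmd)

theorem eMer_apply (a : helper3176.AN N) : eMer e hmd a = algebraMap Hol Mer (eHol e hmd a) := rfl

theorem eMer_injective (hinj : Function.Injective e) : Function.Injective (eMer e hmd) := by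
  intro a b h
  have h1 : eHol e hmd a = eHol e hmd b := IsFractionRing.injective Hol Mer h
  exact hinj (congrArg Subtype.val h1)

/-- `e` with values in `Mer`, as a `ℚ̄`-algebra homomorphism. -/
def eMerAlg (hconst : ∀ c : Kbar, e (algebraMap Kbar (helper3176.AN N) c) = fun _ => i0 c) :
    @AlgHom Kbar (helper3176.AN N) Mer _ _ _ _ (algK i0) :=
  letI := algK i0
  { eMer e hmd with
    commutes' := fun c => by
      show algebraMap Hol Mer (eHol e hmd (algebraMap Kbar _ c)) = algebraMap ℂ Mer (i0 c)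
      rw [IsScalarTower.algebraMap_apply ℂ Hol Mer]
      congr 1
      exact Hol.ext fun τ => by rw [eHol_apply, hconst]; rfl }

theorem eMerAlg_apply (hconst : ∀ c : Kbar, e (algebraMap Kbar (helper3176.AN N) c) = fun _ => i0 c)
    (a : helper3176.AN N) :
    letI := algK i0
    eMerAlg i0 e hmd hconst a = algebraMap Hol Mer (eHol e hmd a) := rfl

end ev

/-! ## The package -/

theorem stmt_MerPackage (hEv : Stmt_EvFun) : helper481.Stmt_MerPackage := by
  intro N _
  obtain ⟨i0, e, hinj, hmd, hconst, hj, hinv, hsep⟩ := hEv N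
  letI : Algebra Kbar Mer := algK i0
  obtain ⟨ev, hev⟩ := helper3176.exists_algHom_extension N (eMerAlg i0 e hmd hconst)
    (eMer_injective e hmd hinj)
  have hev' : ∀ a : helper3176.AN N, ev (a : FN N) = algebraMap Hol Mer (eHol e hmd a) := hev
  refine ⟨Mer, inferInstance, algK i0, i0, ordAt, actK i0, ev, ?_, ?_, ?_, ?_, ?_, ?_, ?_, ?_, ?_⟩
  · intro g h z
    show pull (g * h)⁻¹ z = pull g⁻¹ (pull h⁻¹ z)
    rw [pull_pull, mul_inv_rev]
  · intro τ a ha
    show ordAt τ (algebraMap ℂ Mer (i0 a)) = 0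
    exact ordAt_const τ ((map_ne_zero i0).mpr ha)
  · intro g τ z hfix
    show ordAt τ (pull g⁻¹ z) = ordAt τ z
    rw [ordAt_pull, inv_smul_eq_iff.mpr hfix.symm]
  · intro γ hγ
    have key : ((actK i0 γ : Mer ≃ₐ[Kbar] Mer) : Mer →+* Mer).comp (ev : FN N →+* Mer)
        = (ev : FN N →+* Mer) := by
      refine helper3176.ringHom_ext_of_AN N fun a => ?_
      show pull γ⁻¹ (ev (a : FN N)) = ev (a : FN N)
      rw [hev' a, pull_algebraMap]
      congr 1
      exact Hol.ext fun τ => hinv γ⁻¹ (inv_mem hγ) a τ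
    intro f
    exact congrArg (fun φ : FN N →+* Mer => φ f) key
  · intro g hg
    have h1 : g⁻¹ ∈ Gamma0 N := by
      apply hsep
      intro a τ
      have h2 : pull g⁻¹ (ev (a : FN N)) = ev (a : FN N) := hg (a : FN N)
      rw [hev' a, pull_algebraMap] at h2
      have h3 : pullHol g⁻¹ (eHol e hmd a) = eHol e hmd a := IsFractionRing.injective Hol Mer h2
      exact congrFun (congrArg Subtype.val h3) τ
    exact inv_mem_iff.mp h1
  · intro g
    show pull g⁻¹ (ev (jBar N)) = ev (jBar N)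
    have h1 := hev' ⟨jBar N, helper3176.jBar_mem_AN N⟩
    have h1' : ev (jBar N)
        = algebraMap Hol Mer (eHol e hmd ⟨jBar N, helper3176.jBar_mem_AN N⟩) := h1
    rw [h1', pull_algebraMap]
    congr 1
    refine Hol.ext fun τ => ?_
    rw [pullHol_apply, eHol_apply, eHol_apply, hj]
    exact helper454.jInvariant g⁻¹ τ
  · intro τ c hτ
    have h1 : ev (jBar N)
        = algebraMap Hol Mer (eHol e hmd ⟨jBar N, helper3176.jBar_mem_AN N⟩) :=
      hev' ⟨jBar N, helper3176.jBar_mem_AN N⟩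
    have h2 : algebraMap Kbar Mer c = algebraMap Hol Mer (algebraMap ℂ Hol (i0 c)) := by
      rw [← IsScalarTower.algebraMap_apply ℂ Hol Mer]
      rfl
    rw [h1, h2, ← map_sub, ordAt_algebraMap_eq_analyticOrderAt]
    have h3 : (((eHol e hmd ⟨jBar N, helper3176.jBar_mem_AN N⟩ - algebraMap ℂ Hol (i0 c) : Hol)
        : ℍ → ℂ) ∘ ofComplex) = fun z : ℂ => jFun (ofComplex z) - jFun τ := by
      funext z
      show e ⟨jBar N, helper3176.jBar_mem_AN N⟩ (ofComplex z) - i0 c = jFun (ofComplex z) - jFun τ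
      rw [hj, hτ]
    rw [h3]
  · exact fun τ hτ => hDiv_S i0 τ hτ
  · exact fun τ hτ => hDiv_ST i0 τ hτ

/-- The three finite-point local data of the Spec from a function-level evaluation datum. -/
theorem stmt_LocalFinite (hEv : Stmt_EvFun) :
    Stmt_LocalGeneric ∧ Stmt_Local1728 ∧ Stmt_LocalZero :=
  helper2064.local_of_merPackage (stmt_MerPackage hEv)

end

end Fermat.Agent.S24.helper580
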