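/-
S24 (helper1200): final composition of the landed modules into `Stmt_S24`.

* `helper580.Stmt_EvFun` from `helper1944.exists_evDatum`;
* `helper481.Stmt_MerPackage` from `helper580.stmt_MerPackage`;
* `Stmt_LocalInf` from `helper1200.stmt_LocalInf`;
* `helper167.EvDatum` from `helper6180.evDatum`;
* `Stmt_S24` from `helper24.s24_of_packages`.
-/
import Fermat.Agent.S24.helper24_MasterMod
import Fermat.Agent.S24.helper580_MerPackage
import Fermat.Agent.S24.helper6180_EvDatum
import Fermat.Agent.S24.helper1944_Ev
import Fermat.Agent.S24.helper1200_StmtLocalInf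

set_option autoImplicit false

namespace Fermat.Agent.S24.helper1200

open Fermat.Agent.S24.helper24

/-- The function-level evaluation datum of `helper580`, from `helper1944.exists_evDatum`. -/
theorem stmt_EvFun : helper580.Stmt_EvFun := by
  intro N _
  obtain ⟨κ, ev, h1, -, h3, h4, h5, h6, h7, -⟩ := helper1944.exists_evDatum N
  exact ⟨κ, ev, h5, h4, h1, h3, fun γ hγ a τ => h6 γ hγ a τ, h7⟩

/-- The finite-point package. -/
theorem stmt_MerPackage : helper481.Stmt_MerPackage :=
  helper580.stmt_MerPackage stmt_EvFun

/-- **S24, in the specification shape.** -/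
theorem stmt_S24 : Stmt_S24 :=
  s24_of_packages (fun N _ => helper6180.evDatum N) stmt_MerPackage stmt_LocalInf

end Fermat.Agent.S24.helper1200
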