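import Fermat.Agent.S24.helper288_Hermite
import Fermat.Agent.S24.helper167_SymmetricJ

/-!
# S24 helper (helper288): the conjugates `τ ↦ J(d * (g • τ))` are holomorphic and have
exponential growth uniformly on `im τ ≥ 1` (the `helper167.HasExpGrowth` shape).
-/

set_option autoImplicit false

open UpperHalfPlane ModularForm EisensteinSeries MatrixGroups CongruenceSubgroup Filter Topology
open scoped Real Manifold

namespace Fermat.Agent.S24.helper288

local notation "𝕢" => Function.Periodic.qParam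


theorem tprod_one_sub_pow_ne_zero {q : ℂ} (hq : ‖q‖ < 1) : ∏' n : ℕ, (1 - q ^ (n + 1)) ^ 24 ≠ 0 := by
  rw [(multipliable_one_sub_pow hq).tprod_pow 24]
  apply pow_ne_zero
  have h := tprod_one_add_ne_zero_of_summable (f := fun n : ℕ => -q ^ (n + 1)) ?_ ?_
  · simpa [sub_eq_add_neg] using h
  · intro i
    have : ‖q ^ (i + 1)‖ < 1 := by
      rw [norm_pow]
      exact pow_lt_one₀ (norm_nonneg _) hq (Nat.succ_ne_zero i)
    intro h0
    have h1 : q ^ (i + 1) = 1 := by
      have : (1 : ℂ) + -q ^ (i + 1) = 0 := h0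
      linear_combination -this
    rw [h1, norm_one] at this
    exact lt_irrefl _ this
  · simpa using (summable_nat_add_iff 1).mpr (summable_geometric_of_lt_one (norm_nonneg _) hq)


/-- Uniform bound on `im τ ≥ δ`: `‖J τ‖ ≤ C exp(2π im τ)`. -/
theorem exists_norm_jFn_le_of_im_ge (δ : ℝ) (hδ : 0 < δ) :
    ∃ C : ℝ, ∀ τ : ℍ, δ ≤ τ.im → ‖jFn τ‖ ≤ C * Real.exp (2 * π * τ.im) := by
  set r : ℝ := Real.exp (-(2 * π * δ)) with hr
  have hr1 : r < 1 := by
    rw [hr, Real.exp_lt_one_iff]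
    have := Real.pi_pos
    nlinarith
  have hsub : Metric.closedBall (0 : ℂ) r ⊆ Metric.ball (0 : ℂ) 1 :=
    Metric.closedBall_subset_ball hr1
  set Φ : ℂ → ℂ := fun q => cuspFunction 1 E₄ q ^ 3 / ∏' n : ℕ, (1 - q ^ (n + 1)) ^ 24 with hΦ
  have hcont : ContinuousOn Φ (Metric.closedBall (0 : ℂ) r) := by
    have h1 : ContinuousOn (cuspFunction 1 E₄) (Metric.ball (0 : ℂ) 1) := fun q hq =>
      (ModularFormClass.differentiableAt_cuspFunction E₄ one_pos one_mem_strictPeriods_SL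
        (by simpa using hq)).continuousAt.continuousWithinAt
    have h2 : ContinuousOn (fun q : ℂ => ∏' n : ℕ, (1 - q ^ (n + 1)) ^ 24) (Metric.ball (0 : ℂ) 1) :=
      (differentiableOn_tprod_one_sub_pow_pow 24).continuousOn
    exact ((h1.pow 3).div h2 fun q hq => tprod_one_sub_pow_ne_zero (by simpa using hq)).mono hsub
  obtain ⟨C, hC⟩ := (isCompact_closedBall (0 : ℂ) r).exists_bound_of_continuousOn hcont
  refine ⟨C, fun τ hτ => ?_⟩
  have hq : ‖𝕢 1 (τ : ℂ)‖ = Real.exp (-(2 * π * τ.im)) := by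
    rw [Function.Periodic.norm_qParam]
    congr 1
    simp
  have hqr : 𝕢 1 (τ : ℂ) ∈ Metric.closedBall (0 : ℂ) r := by
    rw [mem_closedBall_zero_iff, hq, hr, Real.exp_le_exp]
    have := Real.pi_pos
    nlinarith
  have hval : Φ (𝕢 1 (τ : ℂ)) = jFn τ * 𝕢 1 (τ : ℂ) := by
    have hq0 : 𝕢 1 (τ : ℂ) ≠ 0 := Function.Periodic.qParam_ne_zero _
    have hE : cuspFunction 1 E₄ (𝕢 1 (τ : ℂ)) = E₄ τ :=
      SlashInvariantFormClass.eq_cuspFunction E₄ τ one_mem_strictPeriods_SL one_ne_zero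
    simp only [hΦ]
    rw [hE, jFn_apply, discriminant_eq_q_prod]
    field_simp
  have h2 := hC _ hqr
  rw [hval, norm_mul, hq] at h2
  have hpos := Real.exp_pos (2 * π * τ.im)
  calc ‖jFn τ‖ = ‖jFn τ‖ * Real.exp (-(2 * π * τ.im)) * Real.exp (2 * π * τ.im) := by
        rw [mul_assoc, ← Real.exp_add]; simp
    _ ≤ C * Real.exp (2 * π * τ.im) := mul_le_mul_of_nonneg_right h2 hpos.le

/-- Growth of every conjugate, uniformly on `im τ ≥ 1`, in the `helper167.HasExpGrowth` shape. -/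
theorem hasExpGrowth_jFn_mul_smul (g : SL(2, ℤ)) (d : ℕ) (hd : 0 < d) :
    helper167.HasExpGrowth (fun τ : ℍ => jFn (ofComplex ((d : ℂ) * ((g • τ : ℍ) : ℂ)))) := by
  obtain ⟨a, b, e, ha, he, hae, -, -, hJ⟩ := exists_jFn_mul_smul g d hd
  have hd' : (0 : ℝ) < d := by exact_mod_cast hd
  obtain ⟨C, hC⟩ := exists_norm_jFn_le_of_im_ge (1 / d) (by positivity)
  have ha' : (1 : ℝ) ≤ a := by exact_mod_cast ha
  have he' : (1 : ℝ) ≤ e := by exact_mod_cast he
  have hae' : (a : ℝ) * e = d := by exact_mod_cast hae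
  have had : (a : ℝ) ≤ d := by nlinarith
  have hed : (e : ℝ) ≤ d := by nlinarith
  refine ⟨d, max C 0, fun τ hτ => ?_⟩
  have him : (affinePt a b e ha he τ).im = (a : ℝ) * τ.im / (e : ℝ) := im_affinePt a b e ha he τ
  have hlow : 1 / (d : ℝ) ≤ (affinePt a b e ha he τ).im := by
    rw [him, div_le_div_iff₀ hd' (by linarith)]
    calc (1 : ℝ) * e ≤ d := by linarith
      _ = 1 * 1 * d := by ring
      _ ≤ a * τ.im * d := by
          have : (1 : ℝ) * 1 ≤ a * τ.im := mul_le_mul ha' hτ zero_le_one (by linarith)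
          exact mul_le_mul_of_nonneg_right this hd'.le
  have hup : (affinePt a b e ha he τ).im ≤ d * τ.im := by
    rw [him, div_le_iff₀ (by linarith)]
    calc (a : ℝ) * τ.im ≤ d * τ.im := mul_le_mul_of_nonneg_right had (by linarith)
      _ = d * τ.im * 1 := (mul_one _).symm
      _ ≤ d * τ.im * e := mul_le_mul_of_nonneg_left he' (by nlinarith)
  show ‖jFn (ofComplex ((d : ℂ) * ((g • τ : ℍ) : ℂ)))‖ ≤ max C 0 * Real.exp (2 * Real.pi * d * τ.im)
  rw [hJ τ]
  refine (hC _ hlow).trans ?_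
  have h1 : Real.exp (2 * π * (affinePt a b e ha he τ).im) ≤ Real.exp (2 * π * d * τ.im) := by
    apply Real.exp_le_exp.mpr
    have := Real.pi_pos
    nlinarith
  calc C * Real.exp (2 * π * (affinePt a b e ha he τ).im)
      ≤ max C 0 * Real.exp (2 * π * (affinePt a b e ha he τ).im) :=
        mul_le_mul_of_nonneg_right (le_max_left _ _) (Real.exp_pos _).le
    _ ≤ max C 0 * Real.exp (2 * π * d * τ.im) :=
        mul_le_mul_of_nonneg_left h1 (le_max_right _ _)


/-! ## Holomorphy of the conjugates -/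

theorem mdiff_jFn : MDiff jFn := by
  rw [UpperHalfPlane.mdifferentiable_iff]
  have h4 : DifferentiableOn ℂ ((E₄ : ℍ → ℂ) ∘ ofComplex) {z | 0 < z.im} :=
    UpperHalfPlane.mdifferentiable_iff.mp (ModularFormClass.holo E₄)
  have h12 : DifferentiableOn ℂ ((CuspForm.discriminant : ℍ → ℂ) ∘ ofComplex) {z | 0 < z.im} :=
    UpperHalfPlane.mdifferentiable_iff.mp (ModularFormClass.holo CuspForm.discriminant)
  have h := (h4.pow 3).div h12 fun z _ => ModularForm.discriminant_ne_zero _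
  exact h

theorem mdiff_jFn_affinePt (a b e : ℤ) (ha : 0 < a) (he : 0 < e) :
    MDiff (fun τ : ℍ => jFn (affinePt a b e ha he τ)) := by
  rw [UpperHalfPlane.mdifferentiable_iff]
  have hJ : DifferentiableOn ℂ (jFn ∘ ofComplex) {z | 0 < z.im} :=
    UpperHalfPlane.mdifferentiable_iff.mp mdiff_jFn
  have he0 : (e : ℂ) ≠ 0 := by exact_mod_cast he.ne'
  have hmap : Set.MapsTo (fun z : ℂ => ((a : ℂ) * z + (b : ℂ)) / (e : ℂ)) {z | 0 < z.im}
      {z | 0 < z.im} := by
    intro z hz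
    exact (affinePt a b e ha he ⟨z, hz⟩).coe_im_pos
  have hlin : DifferentiableOn ℂ (fun z : ℂ => ((a : ℂ) * z + (b : ℂ)) / (e : ℂ)) {z | 0 < z.im} := by
    fun_prop
  refine (hJ.comp hlin hmap).congr fun z hz => ?_
  have hz' : 0 < z.im := hz
  simp only [Function.comp_apply]
  rw [UpperHalfPlane.ofComplex_apply_of_im_pos hz']
  congr 1
  rw [UpperHalfPlane.ofComplex_apply_of_im_pos (hmap hz)]
  rfl

theorem mdiff_jFn_mul_smul (g : SL(2, ℤ)) (d : ℕ) (hd : 0 < d) :
    MDiff (fun τ : ℍ => jFn (ofComplex ((d : ℂ) * ((g • τ : ℍ) : ℂ)))) := by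
  obtain ⟨a, b, e, ha, he, -, -, -, hJ⟩ := exists_jFn_mul_smul g d hd
  have := mdiff_jFn_affinePt a b e ha he
  convert this using 1
  funext τ
  exact hJ τ

end Fermat.Agent.S24.helper288
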