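import Fermat.Agent.S24.helper315_CuspExp

/-!
# S24 / MOD: the coefficient twist `t ↦ ζ t` on Laurent series and the translation `τ ↦ τ + 1`

* `twist ζ : LaurentSeries ℂ ≃+* LaurentSeries ℂ`, `coeff n ↦ ζ ^ n * coeff n`;
* `cuspExpFun_vadd_one`: the expansion at the cusp (period `N`) of `τ ↦ f (τ + 1)` is the twist
  of the expansion of `f` by `exp (2πi/N)`.
-/

set_option autoImplicit false

open Complex Filter Function Topology
open UpperHalfPlane hiding I
open scoped Real Manifold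

noncomputable section

namespace Fermat.Agent.S24.helper315

local notation "𝕢" => Periodic.qParam

/-! ## The twist -/

/-- Coefficientwise twist `a_n ↦ ζ^n a_n` of a Laurent series (the substitution `t ↦ ζ t`). -/
def twistFun (ζ : ℂˣ) (x : LaurentSeries ℂ) : LaurentSeries ℂ where
  coeff n := ((ζ ^ n : ℂˣ) : ℂ) * x.coeff n
  isPWO_support' := x.isPWO_support.mono (fun n hn => by
    rw [Function.mem_support] at hn
    rw [HahnSeries.mem_support]
    intro h0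
    exact hn (by rw [h0, mul_zero]))

@[simp]
theorem twistFun_coeff (ζ : ℂˣ) (x : LaurentSeries ℂ) (n : ℤ) :
    (twistFun ζ x).coeff n = ((ζ ^ n : ℂˣ) : ℂ) * x.coeff n := rfl

theorem twistFun_support (ζ : ℂˣ) (x : LaurentSeries ℂ) :
    (twistFun ζ x).support = x.support := by
  ext n
  rw [HahnSeries.mem_support, HahnSeries.mem_support, twistFun_coeff]
  exact mul_ne_zero_iff_left (Units.ne_zero _)

theorem twistFun_mul (ζ : ℂˣ) (x y : LaurentSeries ℂ) :
    twistFun ζ (x * y) = twistFun ζ x * twistFun ζ y := by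
  ext n
  rw [twistFun_coeff, HahnSeries.coeff_mul, HahnSeries.coeff_mul, Finset.mul_sum]
  have hfin : Finset.antidiagonal (twistFun ζ x).isPWO_support (twistFun ζ y).isPWO_support n
      = Finset.antidiagonal x.isPWO_support y.isPWO_support n := by
    ext ij
    simp only [Finset.mem_antidiagonal, twistFun_support]
  rw [hfin]
  refine Finset.sum_congr rfl (fun ij hij => ?_)
  have hsum : ij.1 + ij.2 = n := (Finset.mem_antidiagonal.mp hij).2.2
  rw [twistFun_coeff, twistFun_coeff, ← hsum, zpow_add, Units.val_mul]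
  ring

theorem twistFun_one (ζ : ℂˣ) : twistFun ζ 1 = 1 := by
  ext n
  rw [twistFun_coeff, HahnSeries.coeff_one]
  by_cases hn : n = 0
  · simp [hn]
  · simp [hn]

theorem twistFun_add (ζ : ℂˣ) (x y : LaurentSeries ℂ) :
    twistFun ζ (x + y) = twistFun ζ x + twistFun ζ y := by
  ext n
  simp [mul_add]

theorem twistFun_zero (ζ : ℂˣ) : twistFun ζ 0 = 0 := by
  ext n
  simp

theorem twistFun_twistFun (ζ ξ : ℂˣ) (x : LaurentSeries ℂ) :
    twistFun ζ (twistFun ξ x) = twistFun (ζ * ξ) x := by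
  ext n
  simp [mul_zpow, mul_assoc]

theorem twistFun_one_left (x : LaurentSeries ℂ) : twistFun 1 x = x := by
  ext n
  simp

/-- The twist as a ring automorphism of `LaurentSeries ℂ`. -/
def twist (ζ : ℂˣ) : LaurentSeries ℂ ≃+* LaurentSeries ℂ where
  toFun := twistFun ζ
  invFun := twistFun ζ⁻¹
  left_inv x := by rw [twistFun_twistFun, inv_mul_cancel, twistFun_one_left]
  right_inv x := by rw [twistFun_twistFun, mul_inv_cancel, twistFun_one_left]
  map_mul' := twistFun_mul ζ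
  map_add' := twistFun_add ζ

@[simp]
theorem twist_coeff (ζ : ℂˣ) (x : LaurentSeries ℂ) (n : ℤ) :
    (twist ζ x).coeff n = ((ζ ^ n : ℂˣ) : ℂ) * x.coeff n := rfl

theorem twist_C (ζ : ℂˣ) (c : ℂ) : twist ζ (HahnSeries.C c) = HahnSeries.C c := by
  ext n
  rw [twist_coeff, HahnSeries.C_apply, HahnSeries.coeff_single]
  by_cases hn : n = 0
  · simp [hn]
  · simp [hn]

theorem twist_pow_apply (ζ : ℂˣ) (k : ℕ) (x : LaurentSeries ℂ) :
    (twist ζ ^ k) x = twist (ζ ^ k) x := by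
  induction k generalizing x with
  | zero =>
    ext n
    simp
  | succ k ih =>
    rw [pow_succ, RingAut.mul_apply, ih]
    ext n
    simp only [twist_coeff, pow_succ, mul_zpow, Units.val_mul]
    ring

theorem order_twist (ζ : ℂˣ) (x : LaurentSeries ℂ) : (twist ζ x).order = x.order := by
  by_cases hx : x = 0
  · simp [hx]
  · have hx' : twist ζ x ≠ 0 := by simpa using hx
    rw [HahnSeries.order_of_ne hx', HahnSeries.order_of_ne hx]
    congr 1
    exact twistFun_support ζ x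

/-! ## Coefficients of the expansion with prescribed pole order -/

theorem ofPowerSeries_coeff_neg (P : PowerSeries ℂ) {k : ℤ} (hk : k < 0) :
    (HahnSeries.ofPowerSeries ℤ ℂ P).coeff k = 0 := by
  rw [HahnSeries.ofPowerSeries_apply]
  refine HahnSeries.embDomain_of_notMem_range ?_
  rintro ⟨m, rfl⟩
  exact absurd hk (not_lt.mpr (Int.natCast_nonneg m))

theorem coeff_single_neg_mul_ofPowerSeries (m : ℕ) (P : PowerSeries ℂ) (k : ℤ) :
    (HahnSeries.single (-(m : ℤ)) (1 : ℂ) * HahnSeries.ofPowerSeries ℤ ℂ P).coeff k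
      = if 0 ≤ k + m then P.coeff (k + m).toNat else 0 := by
  rw [HahnSeries.coeff_single_mul, one_mul, sub_neg_eq_add]
  split_ifs with hk
  · conv_lhs => rw [← Int.toNat_of_nonneg hk]
    rw [HahnSeries.ofPowerSeries_apply_coeff]
  · exact ofPowerSeries_coeff_neg P (not_le.mp hk)

/-! ## Translation by one -/

theorem qH_vadd_one (N : ℕ) [NeZero N] (τ : ℍ) :
    qH (N : ℝ) ((1 : ℝ) +ᵥ τ) = Complex.exp (2 * π * Complex.I / N) * qH (N : ℝ) τ := by
  simp only [qH_apply, coe_vadd, Periodic.qParam, ← Complex.exp_add]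
  congr 1
  push_cast
  ring

/-- The root of unity `exp (2πi/N)` as a unit. -/
def zetaN (N : ℕ) : ℂˣ :=
  Units.mk0 (Complex.exp (2 * π * Complex.I / N)) (Complex.exp_ne_zero _)

@[simp]
theorem coe_zetaN (N : ℕ) : (zetaN N : ℂ) = Complex.exp (2 * π * Complex.I / N) := rfl

theorem zetaN_pow (N : ℕ) [NeZero N] : zetaN N ^ N = 1 := by
  ext
  rw [Units.val_pow_eq_pow_val, coe_zetaN, ← Complex.exp_nat_mul, Units.val_one]
  have hN : (N : ℂ) ≠ 0 := Nat.cast_ne_zero.mpr (NeZero.ne N)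
  rw [mul_div_cancel₀ _ hN, Complex.exp_two_pi_mul_I]

theorem mdiff_comp_vadd {f : ℍ → ℂ} (hf : MDiff f) (x : ℝ) :
    MDiff (fun τ : ℍ => f (x +ᵥ τ)) := by
  rw [UpperHalfPlane.mdifferentiable_iff] at hf ⊢
  have hmaps : Set.MapsTo (fun z : ℂ => (x : ℂ) + z) {z : ℂ | 0 < z.im} {z : ℂ | 0 < z.im} := by
    intro z hz
    simpa using hz
  have h1 : DifferentiableOn ℂ ((f ∘ ofComplex) ∘ fun z : ℂ => (x : ℂ) + z) {z : ℂ | 0 < z.im} :=
    hf.comp (by fun_prop) hmaps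
  refine h1.congr (fun z hz => ?_)
  have hz' : 0 < ((x : ℂ) + z).im := hmaps hz
  simp only [comp_apply, ofComplex_apply_of_im_pos (show 0 < z.im from hz),
    ofComplex_apply_of_im_pos hz']
  congr 1

/-- Translation `τ ↦ τ + 1` twists the expansion at the cusp by `exp (2πi/N)`. -/
theorem cuspExpFun_vadd_one (N : ℕ) [NeZero N] {f : ℍ → ℂ} (hf : IsCuspMer (N : ℝ) f) :
    IsCuspMer (N : ℝ) (fun τ : ℍ => f ((1 : ℝ) +ᵥ τ)) ∧
      cuspExpFun (N : ℝ) (fun τ : ℍ => f ((1 : ℝ) +ᵥ τ))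
        = twist (zetaN N) (cuspExpFun (N : ℝ) f) := by
  have hN := natCast_pos' N
  obtain ⟨m, hm⟩ := id hf
  have hs : ∀ τ : ℍ, HasSum
      (fun n : ℕ => (((zetaN N ^ n : ℂˣ) : ℂ) * (((zetaN N)⁻¹ ^ m : ℂˣ) : ℂ)
        * (qExpansion (N : ℝ) (qH (N : ℝ) ^ m * f)).coeff n) * qH (N : ℝ) τ ^ n)
      (qH (N : ℝ) τ ^ m * f ((1 : ℝ) +ᵥ τ)) := by
    intro τ
    have h1 := hm.hasSum hN ((1 : ℝ) +ᵥ τ)
    simp only [Pi.mul_apply, Pi.pow_apply, qH_vadd_one, ← coe_zetaN] at h1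
    have h2 := h1.mul_left ((((zetaN N)⁻¹ ^ m : ℂˣ) : ℂ))
    have e1 : (((zetaN N)⁻¹ ^ m : ℂˣ) : ℂ)
          * ((((zetaN N : ℂˣ) : ℂ) * qH (N : ℝ) τ) ^ m * f ((1 : ℝ) +ᵥ τ))
        = qH (N : ℝ) τ ^ m * f ((1 : ℝ) +ᵥ τ) := by
      rw [mul_pow, ← mul_assoc, ← mul_assoc, ← Units.val_pow_eq_pow_val, ← Units.val_mul,
        ← mul_pow, inv_mul_cancel, one_pow, Units.val_one, one_mul]
    rw [e1] at h2
    have e2 : (fun n : ℕ => (((zetaN N ^ n : ℂˣ) : ℂ) * (((zetaN N)⁻¹ ^ m : ℂˣ) : ℂ)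
          * (qExpansion (N : ℝ) (qH (N : ℝ) ^ m * f)).coeff n) * qH (N : ℝ) τ ^ n)
        = fun n : ℕ => (((zetaN N)⁻¹ ^ m : ℂˣ) : ℂ)
          * ((qExpansion (N : ℝ) (qH (N : ℝ) ^ m * f)).coeff n
            * (((zetaN N : ℂˣ) : ℂ) * qH (N : ℝ) τ) ^ n) := by
      funext n
      rw [mul_pow, Units.val_pow_eq_pow_val]
      ring
    rw [e2]
    exact h2
  have hd : MDiff (fun τ : ℍ => f ((1 : ℝ) +ᵥ τ)) := mdiff_comp_vadd hf.mdiff 1
  have hp : HPeriodic (N : ℝ) (fun τ : ℍ => f ((1 : ℝ) +ᵥ τ)) := by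
    intro τ
    show f ((1 : ℝ) +ᵥ ((N : ℝ) +ᵥ τ)) = f ((1 : ℝ) +ᵥ τ)
    have h1 := hf.periodic hN ((1 : ℝ) +ᵥ τ)
    rw [← h1]
    congr 1
    ext
    simp only [coe_vadd]
    ring
  obtain ⟨h3, h4⟩ := cuspExpFun_eq_of_hasSum hN hd hp hs
  refine ⟨⟨m, h3⟩, ?_⟩
  rw [h4, cuspExpFun_eq hN hm, cuspExpAux]
  ext k
  rw [twist_coeff, coeff_single_neg_mul_ofPowerSeries, coeff_single_neg_mul_ofPowerSeries]
  split_ifs with hk
  · rw [PowerSeries.coeff_mk]
    congr 1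
    rw [← Units.val_mul]
    congr 1
    rw [← zpow_natCast, ← zpow_natCast, inv_zpow', ← zpow_add, Int.toNat_of_nonneg hk]
    congr 1
    ring
  · simp

end Fermat.Agent.S24.helper315
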