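import Fermat.Agent.S24.helper3176_FieldAlg
import Fermat.Agent.S24.helper315_Twist
import Fermat.Agent.S24.helper1644_AnalyticJ
import Fermat.Agent.S24.helper288_Conj

/-!
# S24 / MOD: the analytic evaluation `ev` of the function field (helper6180)

`AN N = ℚ̄[j(q^d) : d ∣ N]` (from `helper3176_FieldAlg`) is mapped to functions on the upper half
plane: `ev N a` is the unique function, holomorphic, `1`-periodic and meromorphic at the cusp,
whose `q`-expansion (`helper315.cuspExp 1`) is `coeffMap i0 a`.  It is a ring homomorphism,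
injective, sends `j(q^d)` to `τ ↦ J(dτ)`, constants to constants, its values are
`Γ₀(N)`-invariant, separate the cosets of `Γ₀(N)`, and all `SL(2,ℤ)`-translates are holomorphic
of exponential growth.
-/

set_option autoImplicit false

open ModularCurve CongruenceSubgroup UpperHalfPlane Filter
open scoped MatrixGroups Manifold

noncomputable section

namespace Fermat.Agent.S24.helper6180

open Fermat.Agent.S24.helper24

theorem isAlgebraic_Kbar : Algebra.IsAlgebraic ℚ Kbar := AlgebraicClosure.isAlgebraic ℚ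

/-- A fixed embedding of `ℚ̄` into `ℂ`, as an algebra hom over `ℚ`. -/
def i0Alg : Kbar →ₐ[ℚ] ℂ :=
  haveI := isAlgebraic_Kbar
  IsAlgClosed.lift (R := ℚ) (S := Kbar) (M := ℂ)

/-- A fixed embedding of `ℚ̄` into `ℂ`. -/
def i0 : Kbar →+* ℂ := i0Alg.toRingHom

theorem i0_algebraMap (r : ℚ) : i0 (algebraMap ℚ Kbar r) = (r : ℂ) := by
  have h := i0Alg.commutes r
  simp [i0] at h ⊢

theorem i0_injective : Function.Injective i0 := i0.injective

/-- The function `τ ↦ J(dτ)`. -/
def Jd (d : ℕ) (τ : ℍ) : ℂ := helper288.jFn (ofComplex ((d : ℂ) * (τ : ℂ)))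

theorem Jd_apply (d : ℕ) (τ : ℍ) : Jd d τ = helper288.jFn (ofComplex ((d : ℂ) * (τ : ℂ))) := rfl

theorem coe_ofComplex_mul (d : ℕ) (hd : 0 < d) (τ : ℍ) :
    ((ofComplex ((d : ℂ) * (τ : ℂ)) : ℍ) : ℂ) = (d : ℂ) * (τ : ℂ) := by
  have him : 0 < ((d : ℂ) * (τ : ℂ)).im := by
    have h1 : ((d : ℂ) * (τ : ℂ)).im = (d : ℝ) * τ.im := by simp
    rw [h1]
    have : (0 : ℝ) < d := by exact_mod_cast hd
    exact mul_pos this τ.im_pos
  rw [ofComplex_apply_of_im_pos him]

theorem Jd_one (τ : ℍ) : Jd 1 τ = helper288.jFn τ := by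
  rw [Jd_apply]
  congr 1
  apply UpperHalfPlane.ext
  rw [coe_ofComplex_mul 1 one_pos]
  simp

/-- Coefficients of the power series `q^d * J(dτ)` in `q`. -/
def cD (d : ℕ) (n : ℕ) : ℂ :=
  if d ∣ n then ((PowerSeries.coeff (n / d) ModularCurve.jNumQ : ℚ) : ℂ) else 0

theorem qH_one_eq (τ : ℍ) :
    helper315.qH ((1 : ℕ) : ℝ) τ = Function.Periodic.qParam 1 (τ : ℂ) := by
  simp [helper315.qH]

theorem hasSum_Jd (d : ℕ) (hd : 0 < d) (τ : ℍ) :
    HasSum (fun n : ℕ => cD d n * helper315.qH ((1 : ℕ) : ℝ) τ ^ n)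
      (helper315.qH ((1 : ℕ) : ℝ) τ ^ d * Jd d τ) := by
  rw [qH_one_eq]
  set q := Function.Periodic.qParam 1 (τ : ℂ) with hq
  have hq1 : ‖q‖ < 1 := Function.Periodic.norm_qParam_lt_one one_pos τ.im_pos
  have hqd : ‖q ^ d‖ < 1 := by
    rw [norm_pow]
    exact pow_lt_one₀ (norm_nonneg _) hq1 hd.ne'
  have h1 := helper1644.hasSum_jNumQ_disc hqd
  have h2 : helper1644.jnFun (q ^ d) = q ^ d * Jd d τ := by
    have h3 := helper1644.jnFun_qParam (ofComplex ((d : ℂ) * (τ : ℂ)))
    rw [coe_ofComplex_mul d hd τ] at h3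
    have hqq : Function.Periodic.qParam 1 ((d : ℂ) * (τ : ℂ)) = q ^ d := by
      simp only [hq, Function.Periodic.qParam]
      rw [← Complex.exp_nat_mul]
      congr 1
      push_cast
      ring
    rw [hqq] at h3
    exact h3
  rw [← h2]
  have hinj : Function.Injective (fun n : ℕ => d * n) :=
    fun a b h => Nat.eq_of_mul_eq_mul_left hd h
  rw [← hinj.hasSum_iff]
  · convert h1 using 2 with n
    simp [cD, Nat.mul_div_cancel_left _ hd, pow_mul]
  · intro n hn
    have hnd : ¬ d ∣ n := fun ⟨k, hk⟩ => hn ⟨k, hk.symm⟩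
    simp [cD, hnd]

theorem hPeriodic_Jd (d : ℕ) (hd : 0 < d) : helper315.HPeriodic ((1 : ℕ) : ℝ) (Jd d) := by
  intro τ
  have h1 := hasSum_Jd d hd ((((1 : ℕ) : ℝ)) +ᵥ τ)
  have h2 := hasSum_Jd d hd τ
  have hq : helper315.qH ((1 : ℕ) : ℝ) ((((1 : ℕ) : ℝ)) +ᵥ τ) = helper315.qH ((1 : ℕ) : ℝ) τ :=
    helper315.hPeriodic_qH (by norm_num) τ
  rw [hq] at h1
  have h3 := h1.unique h2
  exact mul_left_cancel₀ (pow_ne_zero d (helper315.qH_ne_zero _ τ)) h3

theorem mdiff_Jd (d : ℕ) (hd : 0 < d) : MDiff (Jd d) := by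
  have h := helper288.mdiff_jFn_mul_smul 1 d hd
  simp only [one_smul] at h
  exact h

theorem isCuspMer_Jd (d : ℕ) (hd : 0 < d) :
    helper315.IsCuspMer ((1 : ℕ) : ℝ) (Jd d) ∧
      helper315.cuspExpFun ((1 : ℕ) : ℝ) (Jd d) = HahnSeries.single (-(d : ℤ)) (1 : ℂ) *
        HahnSeries.ofPowerSeries ℤ ℂ (PowerSeries.mk (cD d)) := by
  have h := helper315.cuspExpFun_eq_of_hasSum (h := ((1 : ℕ) : ℝ)) (by norm_num)
    (mdiff_Jd d hd) (hPeriodic_Jd d hd) (m := d) (c := cD d) (hasSum_Jd d hd)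
  exact ⟨⟨d, h.1⟩, h.2⟩

theorem coeffMap_i0_jSeries (d : ℕ) [NeZero d] :
    coeffMap i0 (jSeries d) = HahnSeries.single (-(d : ℤ)) (1 : ℂ) *
      HahnSeries.ofPowerSeries ℤ ℂ (PowerSeries.mk (cD d)) := by
  have hd : 0 < d := NeZero.pos d
  have hdz : (0 : ℤ) < d := by exact_mod_cast hd
  ext k
  rw [helper315.coeff_single_neg_mul_ofPowerSeries, coeffMap_coeff, jSeries, coeffEmb_coeff,
    i0_algebraMap]
  by_cases hk : (d : ℤ) ∣ k
  · obtain ⟨m, rfl⟩ := hk
    rw [qExpand_coeff_mul, helper1644.coeff_jq]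
    by_cases hm : 0 ≤ m + 1
    · have h1 : 0 ≤ (d : ℤ) * m + d := by nlinarith
      rw [if_pos h1, PowerSeries.coeff_mk]
      have h2 : ((d : ℤ) * m + d).toNat = d * (m + 1).toNat := by
        zify
        rw [Int.toNat_of_nonneg h1, Int.toNat_of_nonneg hm]
        ring
      rw [h2, cD, if_pos (dvd_mul_right _ _), Nat.mul_div_cancel_left _ hd]
      conv_lhs => rw [← Int.toNat_of_nonneg hm]
      rw [HahnSeries.ofPowerSeries_apply_coeff]
    · have h1 : ¬ 0 ≤ (d : ℤ) * m + d := by nlinarith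
      rw [if_neg h1, ModularCurve.ofPowerSeries_coeff_of_neg _ (by omega)]
      simp
  · rw [qExpand_coeff_of_not_dvd d jq hk]
    by_cases h1 : 0 ≤ k + d
    · rw [if_pos h1, PowerSeries.coeff_mk, cD, if_neg]
      · simp
      · intro hdvd
        apply hk
        have h3 : (d : ℤ) ∣ ((k + d).toNat : ℤ) := Int.natCast_dvd_natCast.mpr hdvd
        rw [Int.toNat_of_nonneg h1] at h3
        exact (Int.dvd_add_left (dvd_refl _)).mp h3
    · rw [if_neg h1]
      simp

/-! ## The ring of functions and the expansion homomorphism -/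

/-- Holomorphic, `1`-periodic functions on `ℍ`, meromorphic at the cusp. -/
abbrev R1 : Subring (ℍ → ℂ) := helper315.cuspMer 1

/-- The `q`-expansion, an injective ring homomorphism. -/
abbrev E1 : R1 →+* LaurentSeries ℂ := helper315.cuspExp 1

theorem E1_injective : Function.Injective E1 := helper315.cuspExp_injective 1

theorem E1_apply (f : R1) : E1 f = helper315.cuspExpFun ((1 : ℕ) : ℝ) f.1 := rfl

/-- Constant functions, as elements of `R1`. -/
def constR (c : ℂ) : R1 := ⟨fun _ => c, (helper315.IsCuspHol.const _ c).isCuspMer⟩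

theorem E1_constR (c : ℂ) : E1 (constR c) = HahnSeries.C c :=
  helper315.cuspExpFun_const (by norm_num) c

/-- `τ ↦ J(dτ)` as an element of `R1`. -/
def JdR (d : ℕ) (hd : 0 < d) : R1 := ⟨Jd d, (isCuspMer_Jd d hd).1⟩

theorem E1_JdR (d : ℕ) [NeZero d] : E1 (JdR d (NeZero.pos d)) = coeffMap i0 (jSeries d) := by
  rw [coeffMap_i0_jSeries]
  exact (isCuspMer_Jd d (NeZero.pos d)).2

theorem coeffMap_i0_algebraMap (c : Kbar) :
    coeffMap i0 (algebraMap Kbar (LaurentSeries Kbar) c) = HahnSeries.C (i0 c) := by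
  rw [ModularCurve.algebraMap_laurentSeries_eq_single, coeffMap_single]
  rfl

theorem coeffMap_i0_injective : Function.Injective (coeffMap i0) := by
  intro x y h
  ext k
  have h1 := congrArg (fun z : LaurentSeries ℂ => z.coeff k) h
  simp only [coeffMap_coeff] at h1
  exact i0_injective h1

variable (N : ℕ)

/-- The formal side: `a ↦ coeffMap i0 a`. -/
def psi : helper3176.AN N →+* LaurentSeries ℂ :=
  (coeffMap i0).comp ((algebraMap (FN N) (LaurentSeries Kbar)).comp
    (helper3176.AN N).val.toRingHom)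

theorem psi_apply (a : helper3176.AN N) :
    psi N a = coeffMap i0 (((a : FN N)) : LaurentSeries Kbar) := rfl

theorem psi_injective : Function.Injective (psi N) := by
  intro a b h
  rw [psi_apply, psi_apply] at h
  exact Subtype.ext (Subtype.ext (coeffMap_i0_injective h))

theorem coeffMap_mem_range (x : FN N) (hx : x ∈ helper3176.AN N) :
    ∃ f : R1, E1 f = coeffMap i0 (x : LaurentSeries Kbar) := by
  unfold helper3176.AN at hx
  induction hx using Algebra.adjoin_induction with
  | mem x hx =>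
      obtain ⟨d, hd0, hd, rfl⟩ := hx
      exact ⟨JdR d (NeZero.pos d), E1_JdR d⟩
  | algebraMap c =>
      exact ⟨constR (i0 c), by rw [E1_constR]; exact (coeffMap_i0_algebraMap c).symm⟩
  | add x y _ _ hx hy =>
      obtain ⟨f, hf⟩ := hx
      obtain ⟨g, hg⟩ := hy
      refine ⟨f + g, ?_⟩
      rw [map_add, hf, hg]
      show _ = coeffMap i0 ((x : LaurentSeries Kbar) + (y : LaurentSeries Kbar))
      rw [map_add]
  | mul x y _ _ hx hy =>
      obtain ⟨f, hf⟩ := hx
      obtain ⟨g, hg⟩ := hy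
      refine ⟨f * g, ?_⟩
      rw [map_mul, hf, hg]
      show _ = coeffMap i0 ((x : LaurentSeries Kbar) * (y : LaurentSeries Kbar))
      rw [map_mul]

theorem psi_mem_range (a : helper3176.AN N) : ∃ f : R1, E1 f = psi N a :=
  coeffMap_mem_range N a.1 a.2

/-- The evaluation homomorphism `AN N → R1`: the inverse of the `q`-expansion. -/
def evR : helper3176.AN N →+* R1 where
  toFun a := (psi_mem_range N a).choose
  map_one' := E1_injective (by rw [(psi_mem_range N 1).choose_spec, map_one, map_one])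
  map_mul' a b := E1_injective (by
    rw [(psi_mem_range N (a * b)).choose_spec, map_mul, map_mul,
      (psi_mem_range N a).choose_spec, (psi_mem_range N b).choose_spec])
  map_zero' := E1_injective (by rw [(psi_mem_range N 0).choose_spec, map_zero, map_zero])
  map_add' a b := E1_injective (by
    rw [(psi_mem_range N (a + b)).choose_spec, map_add, map_add,
      (psi_mem_range N a).choose_spec, (psi_mem_range N b).choose_spec])

/-- **Key property**: the `q`-expansion of `ev a` is `coeffMap i0 a`. -/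
theorem E1_evR (a : helper3176.AN N) : E1 (evR N a) = psi N a :=
  (psi_mem_range N a).choose_spec

theorem evR_injective : Function.Injective (evR N) := by
  intro a b h
  apply psi_injective N
  rw [← E1_evR, ← E1_evR, h]

/-- The analytic evaluation of an element of `AN N`, as a function on the upper half plane. -/
def ev (a : helper3176.AN N) : ℍ → ℂ := (evR N a).1

theorem ev_def (a : helper3176.AN N) : ev N a = (evR N a).1 := rfl

theorem ev_add (a b : helper3176.AN N) : ev N (a + b) = ev N a + ev N b := by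
  rw [ev_def, map_add]; rfl

theorem ev_mul (a b : helper3176.AN N) : ev N (a * b) = ev N a * ev N b := by
  rw [ev_def, map_mul]; rfl

theorem ev_one : ev N 1 = 1 := by
  rw [ev_def, map_one]; rfl

theorem ev_zero : ev N 0 = 0 := by
  rw [ev_def, map_zero]; rfl

theorem ev_injective : Function.Injective (ev N) := by
  intro a b h
  exact evR_injective N (Subtype.ext h)

theorem ev_eq_zero_iff (a : helper3176.AN N) : ev N a = 0 ↔ a = 0 := by
  constructor
  · intro h
    apply ev_injective N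
    rw [h, ev_zero]
  · rintro rfl
    exact ev_zero N

/-- `ev` as a ring homomorphism into functions. -/
def evHom : helper3176.AN N →+* (ℍ → ℂ) := (Subring.subtype R1).comp (evR N)

theorem evHom_apply (a : helper3176.AN N) : evHom N a = ev N a := rfl

theorem evR_jBarD (d : ℕ) [NeZero d] (hd : d ∣ N) :
    evR N ⟨jBarD N d hd, helper3176.jBarD_mem_AN N d hd⟩ = JdR d (NeZero.pos d) := by
  apply E1_injective
  rw [E1_evR, E1_JdR]
  rfl

/-- `ev (j(q^d)) = J(dτ)`. -/
theorem ev_jBarD (d : ℕ) [NeZero d] (hd : d ∣ N) :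
    ev N ⟨jBarD N d hd, helper3176.jBarD_mem_AN N d hd⟩ = Jd d := by
  rw [ev_def, evR_jBarD]
  rfl

/-- `ev j = J`. -/
theorem ev_jBar : ev N ⟨jBar N, helper3176.jBar_mem_AN N⟩ = helper288.jFn := by
  have h := ev_jBarD N 1 (one_dvd N)
  funext τ
  rw [← Jd_one τ, ← h]
  rfl

theorem evR_algebraMap (c : Kbar) :
    evR N (algebraMap Kbar (helper3176.AN N) c) = constR (i0 c) := by
  apply E1_injective
  rw [E1_evR, E1_constR, psi_apply]
  exact coeffMap_i0_algebraMap c

/-- `ev` of a constant is the constant function. -/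
theorem ev_algebraMap (c : Kbar) :
    ev N (algebraMap Kbar (helper3176.AN N) c) = fun _ => i0 c := by
  rw [ev_def, evR_algebraMap]
  rfl

theorem isCuspMer_ev (a : helper3176.AN N) : helper315.IsCuspMer ((1 : ℕ) : ℝ) (ev N a) :=
  (evR N a).2

theorem mdiff_ev (a : helper3176.AN N) : MDiff (ev N a) := (isCuspMer_ev N a).mdiff

/-- Induction principle: a property of functions that holds for the `J(dτ)`, `d ∣ N`, for
constants, and is stable under sums and products holds for all `ev a`. -/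
theorem ev_induction (p : (ℍ → ℂ) → Prop)
    (hgen : ∀ d : ℕ, 0 < d → d ∣ N → p (Jd d))
    (hconst : ∀ c : ℂ, p (fun _ => c))
    (hadd : ∀ f g, p f → p g → p (f + g))
    (hmul : ∀ f g, p f → p g → p (f * g)) (a : helper3176.AN N) : p (ev N a) := by
  obtain ⟨x, hx⟩ := a
  have key : ∀ (x : FN N) (hx : x ∈ Algebra.adjoin Kbar (helper3176.genSetF N)),
      p (ev N ⟨x, hx⟩) := by
    intro x hx
    induction hx using Algebra.adjoin_induction with
    | mem x hx =>
        obtain ⟨d, hd0, hd, rfl⟩ := hx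
        have h := ev_jBarD N d hd
        rw [show (⟨jBarD N d hd, _⟩ : helper3176.AN N)
          = ⟨jBarD N d hd, helper3176.jBarD_mem_AN N d hd⟩ from rfl, h]
        exact hgen d (NeZero.pos d) hd
    | algebraMap c =>
        have h := ev_algebraMap N c
        rw [show (⟨algebraMap Kbar (FN N) c, _⟩ : helper3176.AN N)
          = algebraMap Kbar (helper3176.AN N) c from rfl, h]
        exact hconst _
    | add x y hx hy ihx ihy =>
        rw [show (⟨x + y, _⟩ : helper3176.AN N)
          = (⟨x, hx⟩ : helper3176.AN N) + ⟨y, hy⟩ from rfl, ev_add]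
        exact hadd _ _ ihx ihy
    | mul x y hx hy ihx ihy =>
        rw [show (⟨x * y, _⟩ : helper3176.AN N)
          = (⟨x, hx⟩ : helper3176.AN N) * ⟨y, hy⟩ from rfl, ev_mul]
        exact hmul _ _ ihx ihy
  exact key x hx

/-! ## Invariance, separation, conjugates -/

/-- `ev a` is `Γ₀(N)`-invariant. -/
theorem ev_smul_of_mem_Gamma0 (a : helper3176.AN N) (γ : SL(2, ℤ)) (hγ : γ ∈ Gamma0 N)
    (τ : ℍ) : ev N a (γ • τ) = ev N a τ := by
  refine ev_induction N (fun f => ∀ τ, f (γ • τ) = f τ) ?_ ?_ ?_ ?_ a τ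
  · intro d hd0 hd τ
    exact helper288.jFn_mul_smul_of_mem_Gamma0 N d hd0 hd γ hγ τ
  · intro c τ
    rfl
  · intro f g hf hg τ
    simp only [Pi.add_apply, hf τ, hg τ]
  · intro f g hf hg τ
    simp only [Pi.mul_apply, hf τ, hg τ]

/-- Separation: an element of `SL(2,ℤ)` fixing all `ev a` lies in `Γ₀(N)`. -/
theorem mem_Gamma0_of_ev_smul [NeZero N] (g : SL(2, ℤ))
    (h : ∀ (a : helper3176.AN N) (τ : ℍ), ev N a (g • τ) = ev N a τ) : g ∈ Gamma0 N := by
  refine helper288.mem_Gamma0_of_jFn_eq N g fun τ => ?_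
  have h1 := h ⟨jBarD N N dvd_rfl, helper3176.jBarD_mem_AN N N dvd_rfl⟩ τ
  rw [ev_jBarD] at h1
  exact h1

/-- All translates of `ev a` are holomorphic and of exponential growth. -/
theorem ev_smul_mdiff_growth (a : helper3176.AN N) :
    ∀ g : SL(2, ℤ), MDiff (fun τ : ℍ => ev N a (g • τ)) ∧
      helper167.HasExpGrowth (fun τ : ℍ => ev N a (g • τ)) := by
  refine ev_induction N (fun f => ∀ g : SL(2, ℤ), MDiff (fun τ : ℍ => f (g • τ)) ∧
      helper167.HasExpGrowth (fun τ : ℍ => f (g • τ))) ?_ ?_ ?_ ?_ a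
  · intro d hd0 hd g
    exact ⟨helper288.mdiff_jFn_mul_smul g d hd0, helper288.hasExpGrowth_jFn_mul_smul g d hd0⟩
  · intro c g
    exact ⟨mdifferentiable_const, helper167.hasExpGrowth_const c⟩
  · intro f g hf hg γ
    exact ⟨(hf γ).1.add (hg γ).1, (hf γ).2.add (hg γ).2⟩
  · intro f g hf hg γ
    exact ⟨(hf γ).1.mul (hg γ).1, (hf γ).2.mul (hg γ).2⟩

theorem mdiff_ev_smul (a : helper3176.AN N) (g : SL(2, ℤ)) :
    MDiff (fun τ : ℍ => ev N a (g • τ)) := (ev_smul_mdiff_growth N a g).1

theorem hasExpGrowth_ev_smul (a : helper3176.AN N) (g : SL(2, ℤ)) :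
    helper167.HasExpGrowth (fun τ : ℍ => ev N a (g • τ)) := (ev_smul_mdiff_growth N a g).2

/-! ## Transfer of linear relations from functions to formal series -/

/-- A `ℂ`-linear relation between the functions `ev (b i)` holds between the formal series
`coeffMap i0 (b i)`. -/
theorem linear_relation_transfer {ι : Type*} (s : Finset ι) (c : ι → ℂ)
    (b : ι → helper3176.AN N) (h : ∀ τ : ℍ, ∑ i ∈ s, c i * ev N (b i) τ = 0) :
    ∑ i ∈ s, c i • coeffMap i0 (((b i : helper3176.AN N) : FN N) : LaurentSeries Kbar) = 0 := by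
  have h0 : (∑ i ∈ s, constR (c i) * evR N (b i) : R1) = 0 := by
    apply Subtype.ext
    funext τ
    have h1 : ((∑ i ∈ s, constR (c i) * evR N (b i) : R1) : ℍ → ℂ) τ
        = ∑ i ∈ s, c i * ev N (b i) τ := by
      have h2 : ((∑ i ∈ s, constR (c i) * evR N (b i) : R1) : ℍ → ℂ)
          = ∑ i ∈ s, ((constR (c i) * evR N (b i) : R1) : ℍ → ℂ) :=
        map_sum (Subring.subtype R1) _ s
      rw [h2, Finset.sum_apply]
      rfl
    rw [h1, h τ]
    rfl
  have h3 := congrArg E1 h0
  rw [map_sum, map_zero] at h3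
  rw [← h3]
  refine Finset.sum_congr rfl fun i _ => ?_
  rw [map_mul, E1_constR, E1_evR, psi_apply, HahnSeries.C_mul_eq_smul]

/-- The analytic realisation of `AN N` in the shape consumed by `helper167.stmt_JFinrank_of`. -/
theorem ev_package [NeZero N] :
    (∀ a, MDiff (evHom N a)) ∧
    (∀ a, ∀ γ ∈ Gamma0 N, ∀ τ : ℍ, evHom N a (γ • τ) = evHom N a τ) ∧
    (∀ a, ∀ g : SL(2, ℤ), helper167.HasExpGrowth (fun τ => evHom N a (g • τ))) ∧
    (∀ τ : ℍ, evHom N ⟨jBar N, helper3176.jBar_mem_AN N⟩ τ = jFun τ) ∧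
    (∀ (s : Finset (ℕ × ℕ)) (c : ℕ × ℕ → ℂ) (b : ℕ × ℕ → helper3176.AN N),
      (∀ τ : ℍ, ∑ i ∈ s, c i * evHom N (b i) τ = 0) →
      ∑ i ∈ s, c i • coeffMap i0 (((b i : helper3176.AN N) : FN N) : LaurentSeries Kbar) = 0) :=
  ⟨mdiff_ev N, fun a γ hγ τ => ev_smul_of_mem_Gamma0 N a γ hγ τ,
    fun a g => hasExpGrowth_ev_smul N a g,
    fun τ => congrFun (ev_jBar N) τ,
    fun s c b h => linear_relation_transfer N s c b h⟩

end Fermat.Agent.S24.helper6180
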