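import Mathlib

/-!
# Holomorphic functions on the upper half plane: the base ring of the analytic side of S24

* `Hol` : the `ℂ`-algebra of holomorphic functions `ℍ → ℂ` (a domain);
* `Mer := FractionRing Hol` : the field of (global) meromorphic functions;
* `ordAt τ : AddValuation Mer (WithTop ℤ)` : order at `τ`;
* `pull g : Mer ≃ₐ[ℂ] Mer` for `g : SL(2, ℤ)`, `(pull g f) τ = f (g⁻¹ • τ)`.
-/

set_option autoImplicit false

open UpperHalfPlane Filter Topology
open scoped Manifold MatrixGroups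

namespace Fermat.Agent.S24.helper1019

noncomputable section

/-! ## The ring of holomorphic functions -/

/-- The `ℂ`-algebra of holomorphic functions on the upper half plane. -/
def Hol : Subalgebra ℂ (ℍ → ℂ) where
  carrier := {f | MDiff f}
  mul_mem' hf hg := hf.mul hg
  add_mem' hf hg := hf.add hg
  algebraMap_mem' _ := mdifferentiable_const

theorem mem_Hol {f : ℍ → ℂ} : f ∈ Hol ↔ MDiff f := Iff.rfl

theorem Hol.mdiff (f : Hol) : MDiff (f : ℍ → ℂ) := f.2

instance instNoZeroDivisorsHol : NoZeroDivisors Hol :=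
  ⟨fun {a b} h => by
    have h' : (a : ℍ → ℂ) * (b : ℍ → ℂ) = 0 := congrArg Subtype.val h
    rcases (UpperHalfPlane.mul_eq_zero_iff a.2 b.2).mp h' with h0 | h0
    · exact Or.inl (Subtype.ext h0)
    · exact Or.inr (Subtype.ext h0)⟩

instance instIsDomainHol : IsDomain Hol := NoZeroDivisors.to_isDomain _

/-- The field of meromorphic functions on the upper half plane (fractions of holomorphic
functions). It is `FractionRing Hol`, wrapped in a `def` so that instance search stays cheap. -/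
def Mer : Type := FractionRing Hol

instance instFieldMer : Field Mer := inferInstanceAs (Field (FractionRing Hol))

instance instAlgebraHolMer : Algebra Hol Mer := inferInstanceAs (Algebra Hol (FractionRing Hol))

instance instIsFractionRingHolMer : IsFractionRing Hol Mer :=
  inferInstanceAs (IsFractionRing Hol (FractionRing Hol))

instance instAlgebraComplexMer : Algebra ℂ Mer :=
  ((algebraMap Hol Mer).comp (algebraMap ℂ Hol)).toAlgebra

instance instIsScalarTowerComplexHolMer : IsScalarTower ℂ Hol Mer :=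
  IsScalarTower.of_algebraMap_eq fun _ => rfl

theorem algebraMap_Hol_Mer_injective : Function.Injective (algebraMap Hol Mer) :=
  IsFractionRing.injective Hol Mer

/-- Composition with `ofComplex` of a holomorphic function is analytic on the upper half plane. -/
theorem analyticAt_comp_ofComplex {f : ℍ → ℂ} (hf : MDiff f) (τ : ℍ) :
    AnalyticAt ℂ (f ∘ ofComplex) (τ : ℂ) :=
  (UpperHalfPlane.mdifferentiable_iff.mp hf).analyticAt (isOpen_upperHalfPlaneSet.mem_nhds τ.im_pos)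

theorem meromorphicAt_comp_ofComplex {f : ℍ → ℂ} (hf : MDiff f) (τ : ℍ) :
    MeromorphicAt (f ∘ ofComplex) (τ : ℂ) :=
  (analyticAt_comp_ofComplex hf τ).meromorphicAt

/-- The order of vanishing at `τ` of a function on the upper half plane. -/
def holOrd (τ : ℍ) (f : ℍ → ℂ) : WithTop ℤ := meromorphicOrderAt (f ∘ ofComplex) (τ : ℂ)

theorem holOrd_eq_top_iff {f : ℍ → ℂ} (hf : MDiff f) (τ : ℍ) : holOrd τ f = ⊤ ↔ f = 0 := by
  constructor
  · intro h
    rw [holOrd, meromorphicOrderAt_eq_top_iff] at h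
    have hana := (UpperHalfPlane.mdifferentiable_iff.mp hf).analyticOnNhd isOpen_upperHalfPlaneSet
    have hpre : IsPreconnected {z : ℂ | 0 < z.im} :=
      (Complex.isConnected_of_upperHalfPlane subset_rfl (by grind)).isPreconnected
    have := hana.eqOn_zero_of_preconnected_of_frequently_eq_zero (z₀ := ↑τ) hpre τ.2 h.frequently
    ext w
    have hw := this w.im_pos
    simpa using hw
  · rintro rfl
    rw [holOrd, meromorphicOrderAt_eq_top_iff]
    exact Eventually.of_forall fun z => rfl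

theorem holOrd_zero (τ : ℍ) : holOrd τ 0 = ⊤ := (holOrd_eq_top_iff mdifferentiable_const τ).2 rfl

theorem holOrd_const (τ : ℍ) {c : ℂ} (hc : c ≠ 0) : holOrd τ (fun _ => c) = 0 := by
  classical
  have : ((fun _ : ℍ => c) ∘ ofComplex) = fun _ : ℂ => c := rfl
  rw [holOrd, this, meromorphicOrderAt_const, if_neg hc]

theorem holOrd_one (τ : ℍ) : holOrd τ 1 = 0 := holOrd_const τ one_ne_zero

theorem holOrd_add {f g : ℍ → ℂ} (hf : MDiff f) (hg : MDiff g) (τ : ℍ) :
    min (holOrd τ f) (holOrd τ g) ≤ holOrd τ (f + g) :=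
  meromorphicOrderAt_add (meromorphicAt_comp_ofComplex hf τ) (meromorphicAt_comp_ofComplex hg τ)

theorem holOrd_mul {f g : ℍ → ℂ} (hf : MDiff f) (hg : MDiff g) (τ : ℍ) :
    holOrd τ (f * g) = holOrd τ f + holOrd τ g :=
  meromorphicOrderAt_mul (meromorphicAt_comp_ofComplex hf τ) (meromorphicAt_comp_ofComplex hg τ)

/-- The order at `τ` as an additive valuation on `Hol`. -/
def holVal (τ : ℍ) : AddValuation Hol (WithTop ℤ) :=
  AddValuation.of (fun f : Hol => holOrd τ (f : ℍ → ℂ)) (holOrd_zero τ) (holOrd_one τ)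
    (fun f g => holOrd_add f.2 g.2 τ) (fun f g => holOrd_mul f.2 g.2 τ)

@[simp]
theorem holVal_apply (τ : ℍ) (f : Hol) : holVal τ f = holOrd τ (f : ℍ → ℂ) := rfl

theorem holVal_supp_le (τ : ℍ) :
    nonZeroDivisors Hol ≤ (AddValuation.toValuation (holVal τ)).supp.primeCompl := by
  intro f hf hmem
  have hf0 : f ≠ 0 := nonZeroDivisors.ne_zero hf
  rw [SetLike.mem_coe, Valuation.mem_supp_iff] at hmem
  have h1 : holOrd τ (f : ℍ → ℂ) = ⊤ := by
    have := congrArg (fun x => OrderDual.ofDual (Multiplicative.toAdd x)) hmem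
    simpa using this
  exact hf0 (Subtype.ext ((holOrd_eq_top_iff f.2 τ).1 h1))

/-- The order at `τ` as an additive valuation on the field of meromorphic functions. -/
def ordAt (τ : ℍ) : AddValuation Mer (WithTop ℤ) :=
  AddValuation.ofValuation
    ((AddValuation.toValuation (holVal τ)).extendToLocalization (holVal_supp_le τ) Mer)

theorem ordAt_algebraMap (τ : ℍ) (f : Hol) :
    ordAt τ (algebraMap Hol Mer f) = holOrd τ (f : ℍ → ℂ) := by
  rw [ordAt, AddValuation.ofValuation_apply, Valuation.extendToLocalization_apply_map_apply]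
  rfl

theorem ordAt_div (τ : ℍ) (a b : Hol) :
    ordAt τ (algebraMap Hol Mer a / algebraMap Hol Mer b)
      = holOrd τ (a : ℍ → ℂ) - holOrd τ (b : ℍ → ℂ) := by
  rw [AddValuation.map_div, ordAt_algebraMap, ordAt_algebraMap]

theorem algebraMap_complex_Mer (c : ℂ) :
    algebraMap ℂ Mer c = algebraMap Hol Mer (algebraMap ℂ Hol c) := rfl

/-- Nonzero constants have order zero. -/
theorem ordAt_const (τ : ℍ) {c : ℂ} (hc : c ≠ 0) : ordAt τ (algebraMap ℂ Mer c) = 0 := by
  rw [algebraMap_complex_Mer, ordAt_algebraMap]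
  exact holOrd_const τ hc

/-! ## The action of `SL(2, ℤ)` -/

theorem det_mapGL_val (g : SL(2, ℤ)) :
    (Matrix.SpecialLinearGroup.mapGL ℝ g : GL (Fin 2) ℝ).val.det = 1 := by
  rw [Matrix.SpecialLinearGroup.mapGL_coe_matrix]
  exact Matrix.SpecialLinearGroup.det_coe _

theorem det_mapGL_val_pos (g : SL(2, ℤ)) :
    0 < (Matrix.SpecialLinearGroup.mapGL ℝ g : GL (Fin 2) ℝ).val.det := by
  rw [det_mapGL_val]
  exact one_pos

theorem mdiff_smul_SL (g : SL(2, ℤ)) : MDiff (fun τ : ℍ => g • τ) :=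
  UpperHalfPlane.mdifferentiable_smul (g := Matrix.SpecialLinearGroup.mapGL ℝ g)
    (by rw [Matrix.SpecialLinearGroup.det_mapGL]; exact one_pos)

/-- Pullback of holomorphic functions along `τ ↦ g⁻¹ • τ`, as an algebra homomorphism. -/
def pullHolHom (g : SL(2, ℤ)) : Hol →ₐ[ℂ] Hol where
  toFun f := ⟨fun τ => (f : ℍ → ℂ) (g⁻¹ • τ), f.2.comp (mdiff_smul_SL g⁻¹)⟩
  map_one' := rfl
  map_mul' _ _ := rfl
  map_zero' := rfl
  map_add' _ _ := rfl
  commutes' _ := rfl

@[simp]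
theorem pullHolHom_apply (g : SL(2, ℤ)) (f : Hol) (τ : ℍ) :
    (pullHolHom g f : ℍ → ℂ) τ = (f : ℍ → ℂ) (g⁻¹ • τ) := rfl

/-- Pullback of holomorphic functions along `τ ↦ g⁻¹ • τ`. -/
def pullHol (g : SL(2, ℤ)) : Hol ≃ₐ[ℂ] Hol :=
  AlgEquiv.ofAlgHom (pullHolHom g) (pullHolHom g⁻¹)
    (by
      ext f τ
      simp)
    (by
      ext f τ
      simp)

@[simp]
theorem pullHol_apply (g : SL(2, ℤ)) (f : Hol) (τ : ℍ) :
    (pullHol g f : ℍ → ℂ) τ = (f : ℍ → ℂ) (g⁻¹ • τ) := rfl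

/-- The action of `g : SL(2, ℤ)` on meromorphic functions: `(pull g f) τ = f (g⁻¹ • τ)`. -/
def pull (g : SL(2, ℤ)) : Mer ≃ₐ[ℂ] Mer := IsFractionRing.algEquivOfAlgEquiv (pullHol g)

@[simp]
theorem pull_algebraMap (g : SL(2, ℤ)) (f : Hol) :
    pull g (algebraMap Hol Mer f) = algebraMap Hol Mer (pullHol g f) :=
  IsFractionRing.algEquivOfAlgEquiv_algebraMap (pullHol g) f

theorem pull_div (g : SL(2, ℤ)) (a b : Hol) :
    pull g (algebraMap Hol Mer a / algebraMap Hol Mer b)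
      = algebraMap Hol Mer (pullHol g a) / algebraMap Hol Mer (pullHol g b) := by
  rw [map_div₀, pull_algebraMap, pull_algebraMap]

theorem pullHol_mul (g h : SL(2, ℤ)) (f : Hol) : pullHol (g * h) f = pullHol g (pullHol h f) := by
  ext τ
  simp [mul_smul]

theorem pullHol_one (f : Hol) : pullHol 1 f = f := by
  ext τ
  simp

theorem pullHol_neg (g : SL(2, ℤ)) (f : Hol) : pullHol (-g) f = pullHol g f := by
  ext τ
  simp only [pullHol_apply]
  rw [show (-g)⁻¹ = -g⁻¹ from by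
    rw [inv_eq_iff_eq_inv, eq_comm]
    exact inv_eq_of_mul_eq_one_left (by simp), ModularGroup.SL_neg_smul]

theorem pull_mul (g h : SL(2, ℤ)) (z : Mer) : pull (g * h) z = pull g (pull h z) := by
  obtain ⟨a, b, -, rfl⟩ := IsFractionRing.div_surjective Hol z
  simp only [pull_div, pullHol_mul]

theorem pull_one (z : Mer) : pull 1 z = z := by
  obtain ⟨a, b, -, rfl⟩ := IsFractionRing.div_surjective Hol z
  simp only [pull_div, pullHol_one]

theorem pull_neg (g : SL(2, ℤ)) (z : Mer) : pull (-g) z = pull g z := by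
  obtain ⟨a, b, -, rfl⟩ := IsFractionRing.div_surjective Hol z
  simp only [pull_div, pullHol_neg]

theorem pull_neg_one (z : Mer) : pull (-1) z = z := by
  rw [pull_neg, pull_one]

theorem holOrd_pullHol (g : SL(2, ℤ)) (f : Hol) (τ : ℍ) :
    holOrd τ (pullHol g f : ℍ → ℂ) = holOrd (g⁻¹ • τ) (f : ℍ → ℂ) := by
  have h := UpperHalfPlane.meromorphicOrderAt_comp_smul (f := (f : ℍ → ℂ)) (τ := τ)
    (g := Matrix.SpecialLinearGroup.mapGL ℝ g⁻¹)
    (det_mapGL_val_pos g⁻¹)
  exact h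

/-- Equivariance of the order: `ord_τ (g · z) = ord_{g⁻¹ τ} z`. -/
theorem ordAt_pull (g : SL(2, ℤ)) (τ : ℍ) (z : Mer) :
    ordAt τ (pull g z) = ordAt (g⁻¹ • τ) z := by
  obtain ⟨a, b, -, rfl⟩ := IsFractionRing.div_surjective Hol z
  rw [pull_div, ordAt_div, ordAt_div, holOrd_pullHol, holOrd_pullHol]

/-- The order at a fixed point of `g` is invariant under `pull g`. -/
theorem ordAt_pull_of_fixed (g : SL(2, ℤ)) (τ : ℍ) (hfix : g • τ = τ) (z : Mer) :
    ordAt τ (pull g z) = ordAt τ z := by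
  rw [ordAt_pull]
  congr 2
  rw [inv_smul_eq_iff, hfix]

/-! ## The stabilizer lemma -/

/-- If a meromorphic germ `F` of order `n` at `s0` is invariant under a map `φ` fixing `s0`
with `φ'(s0) ≠ 0`, then `φ'(s0) ^ n = 1`. -/
theorem zpow_deriv_eq_one_of_comp_eventuallyEq {F φ : ℂ → ℂ} {s0 : ℂ} {n : ℤ}
    (hF : MeromorphicAt F s0) (hn : meromorphicOrderAt F s0 = n)
    (hφ : DifferentiableAt ℂ φ s0) (hφ0 : φ s0 = s0) (hμ : deriv φ s0 ≠ 0)
    (h : ∀ᶠ s in 𝓝[≠] s0, F (φ s) = F s) :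
    deriv φ s0 ^ n = 1 := by
  obtain ⟨u, hu, hu0, hFu⟩ := (meromorphicOrderAt_eq_int_iff hF).1 hn
  set ψ := dslope φ s0 with hψ
  have hψc : ContinuousAt ψ s0 := continuousAt_dslope_same.2 hφ
  have hψ0 : ψ s0 = deriv φ s0 := dslope_same φ s0
  have hφeq : ∀ s, φ s - s0 = (s - s0) * ψ s := by
    intro s
    have := sub_smul_dslope φ s0 s
    rw [hφ0, smul_eq_mul] at this
    exact this.symm
  have hψne : ∀ᶠ s in 𝓝 s0, ψ s ≠ 0 := hψc.eventually_ne (by rw [hψ0]; exact hμ)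
  have hφt : Tendsto φ (𝓝[≠] s0) (𝓝[≠] s0) := by
    rw [tendsto_nhdsWithin_iff]
    refine ⟨?_, ?_⟩
    · have := hφ.continuousAt.tendsto
      rw [hφ0] at this
      exact this.mono_left nhdsWithin_le_nhds
    · filter_upwards [self_mem_nhdsWithin, nhdsWithin_le_nhds hψne] with s hs hψs
      intro hcontra
      have h1 := hφeq s
      rw [Set.mem_singleton_iff.1 hcontra, sub_self] at h1
      exact (mul_ne_zero (sub_ne_zero.2 hs) hψs) h1.symm
  have h1 : ∀ᶠ s in 𝓝[≠] s0, F (φ s) = (φ s - s0) ^ n • u (φ s) := hφt.eventually hFu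
  have key : ∀ᶠ s in 𝓝[≠] s0, ψ s ^ n * u (φ s) - u s = 0 := by
    filter_upwards [h, h1, hFu, self_mem_nhdsWithin] with s hs h1s hFs hne
    have hne' : s - s0 ≠ 0 := sub_ne_zero.2 hne
    rw [h1s, hFs, hφeq s, mul_zpow, smul_eq_mul, smul_eq_mul, mul_assoc] at hs
    have := mul_left_cancel₀ (zpow_ne_zero n hne') hs
    rw [this, sub_self]
  have hcont : ContinuousAt (fun s => ψ s ^ n * u (φ s) - u s) s0 := by
    refine ((hψc.zpow₀ n (Or.inl (by rw [hψ0]; exact hμ))).mul ?_).sub hu.continuousAt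
    have hu' : ContinuousAt u (φ s0) := by rw [hφ0]; exact hu.continuousAt
    exact hu'.comp hφ.continuousAt
  have hlim := tendsto_nhds_unique (hcont.tendsto.mono_left nhdsWithin_le_nhds)
    (tendsto_const_nhds.congr' (key.mono fun s hs => hs.symm))
  simp only [hφ0, hψ0] at hlim
  have h2 : (deriv φ s0 ^ n - 1) * u s0 = 0 := by linear_combination hlim
  rcases mul_eq_zero.1 h2 with h3 | h3
  · exact sub_eq_zero.1 h3
  · exact absurd h3 hu0

theorem denom_mapGL (g : SL(2, ℤ)) (s : ℂ) :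
    denom (Matrix.SpecialLinearGroup.mapGL ℝ g) s
      = ((g 1 0 : ℤ) : ℂ) * s + ((g 1 1 : ℤ) : ℂ) := by
  simp [denom]

/-- Stabilizer lemma: if `g` fixes `τ` and a nonzero meromorphic function `z` is `g`-invariant,
then `((c τ + d)^2) ^ (ord_τ z) = 1`. -/
theorem stabilizer_zpow (g : SL(2, ℤ)) (τ : ℍ) (hfix : g • τ = τ) {z : Mer} (hz : z ≠ 0)
    (hinv : pull g z = z) (n : ℤ) (hn : ordAt τ z = (n : WithTop ℤ)) :
    ((((g 1 0 : ℤ) : ℂ) * (τ : ℂ) + ((g 1 1 : ℤ) : ℂ)) ^ 2) ^ n = 1 := by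
  have hinv' : pull g⁻¹ z = z := by
    conv_lhs => rw [← hinv]
    rw [← pull_mul, inv_mul_cancel, pull_one]
  obtain ⟨a, b, hb, rfl⟩ := IsFractionRing.div_surjective Hol z
  have hb0 : b ≠ 0 := nonZeroDivisors.ne_zero hb
  have hb0' : algebraMap Hol Mer b ≠ 0 := fun h =>
    hb0 (algebraMap_Hol_Mer_injective (h.trans (map_zero _).symm))
  set b' := pullHol g⁻¹ b with hb'
  set a' := pullHol g⁻¹ a with ha'
  have hb'0 : b' ≠ 0 := fun h => hb0 ((pullHol g⁻¹).injective (h.trans (map_zero _).symm))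
  have hb'0' : algebraMap Hol Mer b' ≠ 0 := fun h =>
    hb'0 (algebraMap_Hol_Mer_injective (h.trans (map_zero _).symm))
  -- the cross-multiplied identity
  have hcross : a' * b = a * b' := by
    rw [pull_div, div_eq_div_iff hb'0' hb0', ← map_mul, ← map_mul] at hinv'
    exact algebraMap_Hol_Mer_injective hinv'
  have hcross' : ∀ τ' : ℍ, (a : ℍ → ℂ) (g • τ') * (b : ℍ → ℂ) τ'
      = (a : ℍ → ℂ) τ' * (b : ℍ → ℂ) (g • τ') := by
    intro τ'
    have := congrFun (congrArg Subtype.val hcross) τ'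
    simpa [ha', hb'] using this
  -- set up the germs
  set G : GL (Fin 2) ℝ := Matrix.SpecialLinearGroup.mapGL ℝ g with hG
  have hdet : 0 < G.val.det := det_mapGL_val_pos g
  set A : ℂ → ℂ := (a : ℍ → ℂ) ∘ ofComplex with hA
  set B : ℂ → ℂ := (b : ℍ → ℂ) ∘ ofComplex with hB
  set φ : ℂ → ℂ := fun s => ((G • ofComplex s : ℍ) : ℂ) with hφdef
  have hAm : MeromorphicAt A τ := meromorphicAt_comp_ofComplex a.2 τ
  have hBm : MeromorphicAt B τ := meromorphicAt_comp_ofComplex b.2 τ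
  have hF : MeromorphicAt (A / B) τ := hAm.div hBm
  have hord : meromorphicOrderAt (A / B) (τ : ℂ) = (n : WithTop ℤ) := by
    rw [meromorphicOrderAt_div hAm hBm, ← hn, ordAt_div]
    rfl
  have hφd : DifferentiableAt ℂ φ τ := (UpperHalfPlane.analyticAt_smul hdet τ).differentiableAt
  have hφ0 : φ τ = τ := by
    show ((G • ofComplex (τ : ℂ) : ℍ) : ℂ) = τ
    rw [ofComplex_apply]
    exact congrArg UpperHalfPlane.coe hfix
  have hderiv : deriv φ τ = 1 / (((g 1 0 : ℤ) : ℂ) * (τ : ℂ) + ((g 1 1 : ℤ) : ℂ)) ^ 2 := by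
    rw [hφdef, UpperHalfPlane.deriv_smul hdet τ, hG, det_mapGL_val, denom_mapGL]
    simp
  have hden : ((g 1 0 : ℤ) : ℂ) * (τ : ℂ) + ((g 1 1 : ℤ) : ℂ) ≠ 0 := by
    rw [← denom_mapGL]
    exact denom_ne_zero _ τ
  have hμ : deriv φ τ ≠ 0 := by
    rw [hderiv]
    exact one_div_ne_zero (pow_ne_zero 2 hden)
  -- eventual nonvanishing of the denominators
  have hBne : ∀ᶠ s in 𝓝[≠] (τ : ℂ), B s ≠ 0 := by
    refine (meromorphicOrderAt_ne_top_iff_eventually_ne_zero hBm).1 ?_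
    intro htop
    exact hb0 (Subtype.ext ((holOrd_eq_top_iff b.2 τ).1 htop))
  have hB'ne : ∀ᶠ s in 𝓝[≠] (τ : ℂ), ((b' : ℍ → ℂ) ∘ ofComplex) s ≠ 0 := by
    refine (meromorphicOrderAt_ne_top_iff_eventually_ne_zero
      (meromorphicAt_comp_ofComplex b'.2 τ)).1 ?_
    intro htop
    exact hb'0 (Subtype.ext ((holOrd_eq_top_iff b'.2 τ).1 htop))
  have hev : ∀ᶠ s in 𝓝[≠] (τ : ℂ), (A / B) (φ s) = (A / B) s := by
    filter_upwards [hBne, hB'ne] with s hs hs'
    have e1 : ofComplex (φ s) = g • ofComplex s := by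
      show ofComplex ((G • ofComplex s : ℍ) : ℂ) = g • ofComplex s
      rw [ofComplex_apply]
      rfl
    have hs'' : (b : ℍ → ℂ) (g • ofComplex s) ≠ 0 := by
      have : ((b' : ℍ → ℂ) ∘ ofComplex) s = (b : ℍ → ℂ) (g • ofComplex s) := by
        simp [hb']
      rwa [this] at hs'
    show A (φ s) / B (φ s) = A s / B s
    simp only [hA, hB, Function.comp_apply, e1]
    have hs2 : (b : ℍ → ℂ) (ofComplex s) ≠ 0 := hs
    rw [div_eq_div_iff hs'' hs2]
    exact hcross' (ofComplex s)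
  have hfin := zpow_deriv_eq_one_of_comp_eventuallyEq hF hord hφd hφ0 hμ hev
  rw [hderiv, one_div, inv_zpow, inv_eq_one] at hfin
  exact hfin

/-! ## The elliptic points `i` and `ρ` -/

/-- The elliptic point `ρ = (-1 + √3 i) / 2`. -/
def ellRho : ℍ := ⟨⟨-1 / 2, Real.sqrt 3 / 2⟩, by
  show 0 < Real.sqrt 3 / 2
  positivity⟩

theorem ellRho_coe : (ellRho : ℂ) = ⟨-1 / 2, Real.sqrt 3 / 2⟩ := rfl

theorem ellRho_sq : (ellRho : ℂ) ^ 2 + (ellRho : ℂ) + 1 = 0 := by
  have h3 : Real.sqrt 3 * Real.sqrt 3 = 3 := Real.mul_self_sqrt (by norm_num)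
  rw [ellRho_coe]
  apply Complex.ext
  · simp [pow_two]
    nlinarith
  · simp [pow_two]
    ring

theorem S_smul_I : ModularGroup.S • UpperHalfPlane.I = UpperHalfPlane.I := by
  rw [UpperHalfPlane.modular_S_smul]
  apply UpperHalfPlane.ext
  show (-(UpperHalfPlane.I : ℂ))⁻¹ = (UpperHalfPlane.I : ℂ)
  rw [UpperHalfPlane.coe_I, inv_neg, Complex.inv_I, neg_neg]

theorem ST_smul_ellRho : (ModularGroup.S * ModularGroup.T) • ellRho = ellRho := by
  rw [mul_smul, UpperHalfPlane.modular_T_smul, UpperHalfPlane.modular_S_smul]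
  apply UpperHalfPlane.ext
  show (-(((1 : ℝ) +ᵥ ellRho : ℍ) : ℂ))⁻¹ = (ellRho : ℂ)
  rw [UpperHalfPlane.coe_vadd]
  have h := ellRho_sq
  have hne : -(((1 : ℝ) : ℂ) + (ellRho : ℂ)) ≠ 0 := by
    intro h0
    have : (ellRho : ℂ) = -1 := by
      have := neg_eq_zero.1 h0
      push_cast at this
      linear_combination this
    rw [this] at h
    norm_num at h
  rw [inv_eq_iff_eq_inv, eq_comm, inv_eq_of_mul_eq_one_left]
  push_cast
  linear_combination -h

/-- A nonzero `S`-invariant meromorphic function has even order at `i`. -/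
theorem stab_I {z : Mer} (hz : z ≠ 0) (hinv : pull ModularGroup.S z = z) :
    ∃ l : ℤ, ordAt UpperHalfPlane.I z = ((2 * l : ℤ) : WithTop ℤ) := by
  obtain ⟨n, hn⟩ : ∃ n : ℤ, ordAt UpperHalfPlane.I z = (n : WithTop ℤ) := by
    have : ordAt UpperHalfPlane.I z ≠ ⊤ := (AddValuation.ne_top_iff _).2 hz
    exact ⟨_, (WithTop.coe_untop _ this).symm⟩
  have h := stabilizer_zpow ModularGroup.S UpperHalfPlane.I S_smul_I hz hinv n hn
  have h1 : (((ModularGroup.S 1 0 : ℤ) : ℂ) * (UpperHalfPlane.I : ℂ)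
      + ((ModularGroup.S 1 1 : ℤ) : ℂ)) ^ 2 = -1 := by
    simp [ModularGroup.S, UpperHalfPlane.coe_I]
  rw [h1] at h
  rcases Int.even_or_odd n with he | ho
  · obtain ⟨l, hl⟩ := he
    exact ⟨l, by rw [hn, hl, two_mul]⟩
  · rw [ho.neg_one_zpow] at h
    norm_num at h

/-- A nonzero `ST`-invariant meromorphic function has order divisible by `3` at `ρ`. -/
theorem stab_rho {z : Mer} (hz : z ≠ 0)
    (hinv : pull (ModularGroup.S * ModularGroup.T) z = z) :
    ∃ l : ℤ, ordAt ellRho z = ((3 * l : ℤ) : WithTop ℤ) := by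
  obtain ⟨n, hn⟩ : ∃ n : ℤ, ordAt ellRho z = (n : WithTop ℤ) := by
    have : ordAt ellRho z ≠ ⊤ := (AddValuation.ne_top_iff _).2 hz
    exact ⟨_, (WithTop.coe_untop _ this).symm⟩
  have h := stabilizer_zpow (ModularGroup.S * ModularGroup.T) ellRho ST_smul_ellRho hz hinv n hn
  have hsq := ellRho_sq
  have h1 : ((((ModularGroup.S * ModularGroup.T) 1 0 : ℤ) : ℂ) * (ellRho : ℂ)
      + (((ModularGroup.S * ModularGroup.T) 1 1 : ℤ) : ℂ)) ^ 2 = (ellRho : ℂ) := by
    have e10 : (ModularGroup.S * ModularGroup.T) 1 0 = 1 := by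
      rw [Matrix.SpecialLinearGroup.coe_mul]
      simp [ModularGroup.S, ModularGroup.T, Matrix.mul_apply, Fin.sum_univ_two]
    have e11 : (ModularGroup.S * ModularGroup.T) 1 1 = 1 := by
      rw [Matrix.SpecialLinearGroup.coe_mul]
      simp [ModularGroup.S, ModularGroup.T, Matrix.mul_apply, Fin.sum_univ_two]
    rw [e10, e11]
    push_cast
    linear_combination hsq
  rw [h1] at h
  have hprim : IsPrimitiveRoot (ellRho : ℂ) 3 := by
    have hcube : (ellRho : ℂ) ^ 3 = 1 := by linear_combination ((ellRho : ℂ) - 1) * hsq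
    refine IsPrimitiveRoot.mk_of_lt _ (by norm_num) hcube ?_
    intro l hl0 hl3 hl
    interval_cases l
    · rw [pow_one] at hl
      rw [hl] at hsq
      norm_num at hsq
    · have : (ellRho : ℂ) = -2 := by linear_combination hsq - hl
      rw [this] at hsq
      norm_num at hsq
  obtain ⟨l, hl⟩ := (hprim.zpow_eq_one_iff_dvd n).1 h
  exact ⟨l, by rw [hn, hl]; rfl⟩

/-! ## Interface lemmas for consumers -/

/-- Bundle a holomorphic function as an element of `Hol`. -/
def mkHol (f : ℍ → ℂ) (hf : MDiff f) : Hol := ⟨f, hf⟩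

@[simp]
theorem mkHol_apply (f : ℍ → ℂ) (hf : MDiff f) (τ : ℍ) : (mkHol f hf : ℍ → ℂ) τ = f τ := rfl

/-- The order of a holomorphic function in terms of `analyticOrderAt`. -/
theorem ordAt_algebraMap_eq_analyticOrderAt (τ : ℍ) (f : Hol) :
    ordAt τ (algebraMap Hol Mer f)
      = ENat.map Nat.cast (analyticOrderAt ((f : ℍ → ℂ) ∘ ofComplex) (τ : ℂ)) := by
  rw [ordAt_algebraMap, holOrd, (analyticAt_comp_ofComplex f.2 τ).meromorphicOrderAt_eq]

theorem ordAt_eq_of_analyticOrderAt (τ : ℍ) (f : Hol) (n : ℕ)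
    (h : analyticOrderAt ((f : ℍ → ℂ) ∘ ofComplex) (τ : ℂ) = n) :
    ordAt τ (algebraMap Hol Mer f) = ((n : ℤ) : WithTop ℤ) := by
  rw [ordAt_algebraMap_eq_analyticOrderAt, h]
  rfl

theorem ordAt_ne_top (τ : ℍ) {z : Mer} (hz : z ≠ 0) : ordAt τ z ≠ ⊤ :=
  (AddValuation.ne_top_iff _).2 hz

theorem exists_ordAt_eq_int (τ : ℍ) {z : Mer} (hz : z ≠ 0) :
    ∃ n : ℤ, ordAt τ z = (n : WithTop ℤ) :=
  ⟨_, (WithTop.coe_untop _ (ordAt_ne_top τ hz)).symm⟩

end

end Fermat.Agent.S24.helper1019
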