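import Mathlib
import Fermat.Prelude.Def_AlgebraicCurve_DivisorClassGroup

/-!
# S24 LIB PlaceBasics (board row 158, seat helper1370)

Elementary, hypothesis-free API for `AlgebraicCurve.Place K F` (generic fields `K`, `F`), and the
construction of a place from a `ℤ`-valued additive valuation:

* `mem_iff`, `ord_nonneg_iff_mem`, `ord_eq_zero_iff_isUnit`, `ord_pos_iff_mem_maximalIdeal`,
  `ord_eq_one_iff_irreducible`, `exists_uniformizer`
* `ord_algebraMap`, `ord_neg`, `ord_pow`, `ord_div`, `ord_prod`, `ord_add_ge`, `ord_sub_ge`,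
  `ord_add_eq_of_lt`, `ord_sum_ge`
* `ordAddValuation v : AddValuation F (WithTop ℤ)` (the place as an additive valuation)
* `eq_of_le`, `eq_of_ord_nonneg_imp`, `ext_ord` (places are maximal / determined by `ord`)
* `ord_eq_zero_of_isAlgebraic`, `transcendental_of_ord_ne_zero`
* `ofAddValuation w hK hnt : Place K F` for `w : AddValuation F (WithTop ℤ)` trivial on `K` and
  non-trivial, with `mem_ofAddValuation_iff` and `ofAddValuation_spec`
  (`w f = k * v.ord f` with `0 < k`)
* `ofAlgHom w hK ι hnt : Place K F` the same for the pull-back of a valuation `w` of `Ω` along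
  `ι : F →ₐ[K] Ω` (the shape used in `Stmt_LOC`), with `mem_ofAlgHom_iff`, `ofAlgHom_spec`,
  `ofAlgHom_congr`.
-/

set_option autoImplicit false

noncomputable section

open AlgebraicCurve

namespace Fermat.Agent.S24.helper1370

variable {K F : Type*} [Field K] [Field F] [Algebra K F]

/-! ## Membership and units -/

theorem exists_irreducible (v : Place K F) : ∃ π : v.toValuationSubring, Irreducible π :=
  IsDiscreteValuationRing.exists_irreducible _

theorem coe_irreducible_ne_zero (v : Place K F) {π : v.toValuationSubring} (hπ : Irreducible π) :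
    (π : F) ≠ 0 := by
  simpa [ne_eq, ZeroMemClass.coe_eq_zero] using hπ.ne_zero

theorem mem_of_ord_nonneg (v : Place K F) {f : F} (hf : 0 ≤ v.ord f) :
    f ∈ v.toValuationSubring := by
  rcases eq_or_ne f 0 with rfl | hf0
  · exact v.toValuationSubring.zero_mem
  obtain ⟨π, hπ⟩ := exists_irreducible v
  obtain ⟨u, hu⟩ := v.exists_unit_mul_zpow hf0 hπ
  obtain ⟨n, hn⟩ := Int.eq_ofNat_of_zero_le hf
  rw [hn, zpow_natCast] at hu
  rw [hu]
  exact ((u : v.toValuationSubring) * π ^ n).2

theorem ord_nonneg_of_mem (v : Place K F) {f : F} (hf : f ∈ v.toValuationSubring) :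
    0 ≤ v.ord f := by
  by_contra hneg
  push Not at hneg
  have hf0 : f ≠ 0 := by
    rintro rfl
    simp at hneg
  obtain ⟨π, hπ⟩ := exists_irreducible v
  have hπ0 := coe_irreducible_ne_zero v hπ
  obtain ⟨u, hu⟩ := v.exists_unit_mul_zpow hf0 hπ
  obtain ⟨m, hm⟩ : ∃ m : ℕ, v.ord f = -((m : ℤ) + 1) :=
    ⟨(-v.ord f - 1).toNat, by omega⟩
  have key : (⟨f, hf⟩ : v.toValuationSubring) * π ^ (m + 1) = u := by
    apply Subtype.ext
    show f * (π : F) ^ (m + 1) = ((u : v.toValuationSubring) : F)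
    conv_lhs => rw [hu, hm]
    rw [mul_assoc, ← zpow_natCast, ← zpow_add₀ hπ0]
    simp
  have hdvd : π ∣ (u : v.toValuationSubring) :=
    ⟨⟨f, hf⟩ * π ^ m, by rw [← key, pow_succ]; ring⟩
  exact hπ.not_isUnit (isUnit_of_dvd_unit hdvd u.isUnit)

/-- `f ∈ 𝒪_v ↔ 0 ≤ ord_v f` (no hypothesis on `f`: both sides hold for `f = 0`). -/
theorem mem_iff (v : Place K F) {f : F} : f ∈ v.toValuationSubring ↔ 0 ≤ v.ord f :=
  ⟨ord_nonneg_of_mem v, mem_of_ord_nonneg v⟩

theorem ord_nonneg_iff_mem (v : Place K F) {f : F} : 0 ≤ v.ord f ↔ f ∈ v.toValuationSubring :=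
  (mem_iff v).symm

theorem ord_coe_nonneg (v : Place K F) (a : v.toValuationSubring) : 0 ≤ v.ord (a : F) :=
  ord_nonneg_of_mem v a.2

theorem ord_neg (v : Place K F) (f : F) : v.ord (-f) = v.ord f := by
  simp [Place.ord]

theorem ord_pow (v : Place K F) (f : F) (n : ℕ) : v.ord (f ^ n) = n * v.ord f := by
  rw [← zpow_natCast, v.ord_zpow]

theorem ord_div (v : Place K F) {f g : F} (hf : f ≠ 0) (hg : g ≠ 0) :
    v.ord (f / g) = v.ord f - v.ord g := by
  rw [div_eq_mul_inv, v.ord_mul hf (inv_ne_zero hg), v.ord_inv, sub_eq_add_neg]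

theorem ord_prod (v : Place K F) {ι : Type*} (s : Finset ι) (f : ι → F)
    (hf : ∀ i ∈ s, f i ≠ 0) : v.ord (∏ i ∈ s, f i) = ∑ i ∈ s, v.ord (f i) := by
  classical
  induction s using Finset.induction_on with
  | empty => simp
  | insert a s ha ih =>
    have h1 : f a ≠ 0 := hf a (Finset.mem_insert_self a s)
    have h2 : ∀ i ∈ s, f i ≠ 0 := fun i hi => hf i (Finset.mem_insert_of_mem hi)
    rw [Finset.prod_insert ha, Finset.sum_insert ha,
      v.ord_mul h1 (Finset.prod_ne_zero_iff.mpr h2), ih h2]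

/-- `ord_v` vanishes on the constants. -/
theorem ord_algebraMap (v : Place K F) (a : K) : v.ord (algebraMap K F a) = 0 := by
  rcases eq_or_ne a 0 with rfl | ha
  · simp
  have h1 : 0 ≤ v.ord (algebraMap K F a) := ord_nonneg_of_mem v (v.algebraMap_mem' a)
  have h2 : 0 ≤ v.ord (algebraMap K F a⁻¹) := ord_nonneg_of_mem v (v.algebraMap_mem' a⁻¹)
  rw [map_inv₀, v.ord_inv] at h2
  omega

theorem ord_natCast (v : Place K F) (n : ℕ) : v.ord ((n : ℕ) : F) = 0 := by
  have h : ((n : ℕ) : F) = algebraMap K F (n : K) := by simp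
  rw [h, ord_algebraMap]

theorem ord_intCast (v : Place K F) (n : ℤ) : v.ord ((n : ℤ) : F) = 0 := by
  have h : ((n : ℤ) : F) = algebraMap K F (n : K) := by simp
  rw [h, ord_algebraMap]

theorem ord_algebraMap_mul (v : Place K F) {a : K} (ha : a ≠ 0) (f : F) :
    v.ord (algebraMap K F a * f) = v.ord f := by
  rcases eq_or_ne f 0 with rfl | hf
  · simp
  rw [v.ord_mul ((map_ne_zero _).mpr ha) hf, ord_algebraMap, zero_add]

theorem ord_const_smul (v : Place K F) {a : K} (ha : a ≠ 0) (f : F) :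
    v.ord (a • f) = v.ord f := by
  rw [Algebra.smul_def, ord_algebraMap_mul v ha]

/-- For a nonzero element `a` of `𝒪_v`: `ord_v a = 0 ↔ a` is a unit. -/
theorem ord_eq_zero_iff_isUnit (v : Place K F) {a : v.toValuationSubring} (ha : a ≠ 0) :
    v.ord (a : F) = 0 ↔ IsUnit a := by
  constructor
  · intro h
    have haF : (a : F) ≠ 0 := by simpa [ne_eq, ZeroMemClass.coe_eq_zero] using ha
    have h2 : (a : F)⁻¹ ∈ v.toValuationSubring :=
      mem_of_ord_nonneg v (by rw [v.ord_inv, h]; simp)
    refine IsUnit.of_mul_eq_one (⟨(a : F)⁻¹, h2⟩ : v.toValuationSubring) ?_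
    apply Subtype.ext
    show (a : F) * (a : F)⁻¹ = 1
    exact mul_inv_cancel₀ haF
  · intro h
    exact v.ord_coe_unit h.unit

theorem ord_pos_iff_not_isUnit (v : Place K F) {a : v.toValuationSubring} (ha : a ≠ 0) :
    0 < v.ord (a : F) ↔ ¬ IsUnit a := by
  rw [← ord_eq_zero_iff_isUnit v ha]
  have := ord_coe_nonneg v a
  omega

/-- For a nonzero element `a` of `𝒪_v`: `0 < ord_v a ↔ a ∈ 𝔪_v`. -/
theorem ord_pos_iff_mem_maximalIdeal (v : Place K F) {a : v.toValuationSubring} (ha : a ≠ 0) :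
    0 < v.ord (a : F) ↔ a ∈ IsLocalRing.maximalIdeal v.toValuationSubring := by
  rw [ord_pos_iff_not_isUnit v ha, IsLocalRing.mem_maximalIdeal, mem_nonunits_iff]

/-- `0 < ord_v f` iff `f` is a nonzero element of the maximal ideal. -/
theorem ord_pos_iff (v : Place K F) {f : F} :
    0 < v.ord f ↔ f ≠ 0 ∧ ∃ hf : f ∈ v.toValuationSubring,
      (⟨f, hf⟩ : v.toValuationSubring) ∈ IsLocalRing.maximalIdeal v.toValuationSubring := by
  constructor
  · intro h
    have hf0 : f ≠ 0 := by
      rintro rfl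
      simp at h
    have hf : f ∈ v.toValuationSubring := mem_of_ord_nonneg v h.le
    have ha : (⟨f, hf⟩ : v.toValuationSubring) ≠ 0 := by
      intro h0
      exact hf0 (congrArg Subtype.val h0)
    exact ⟨hf0, hf, (ord_pos_iff_mem_maximalIdeal v ha).mp h⟩
  · rintro ⟨hf0, hf, hmem⟩
    have ha : (⟨f, hf⟩ : v.toValuationSubring) ≠ 0 := by
      intro h0
      exact hf0 (congrArg Subtype.val h0)
    exact (ord_pos_iff_mem_maximalIdeal v ha).mpr hmem

/-- `ord_v a = 1 ↔ a` is a uniformizer (irreducible element of `𝒪_v`). -/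
theorem ord_eq_one_iff_irreducible (v : Place K F) {a : v.toValuationSubring} :
    v.ord (a : F) = 1 ↔ Irreducible a := by
  constructor
  · intro h
    have haF : (a : F) ≠ 0 := by
      intro h0
      rw [h0] at h
      simp at h
    obtain ⟨π, hπ⟩ := exists_irreducible v
    obtain ⟨u, hu⟩ := v.exists_unit_mul_zpow haF hπ
    rw [h, zpow_one] at hu
    have hu' : a = (u : v.toValuationSubring) * π := Subtype.ext hu
    rw [hu']
    exact (irreducible_units_mul u).mpr hπ
  · exact v.ord_coe_irreducible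

theorem exists_uniformizer (v : Place K F) : ∃ π : F, v.ord π = 1 := by
  obtain ⟨π, hπ⟩ := exists_irreducible v
  exact ⟨π, v.ord_coe_irreducible hπ⟩

theorem uniformizer_ne_zero (v : Place K F) {π : F} (hπ : v.ord π = 1) : π ≠ 0 := by
  rintro rfl
  simp at hπ

/-- Every nonzero `f` is `(unit) * π ^ ord f` for a uniformizer `π : F`. -/
theorem ord_mul_zpow_uniformizer (v : Place K F) {π : F} (hπ : v.ord π = 1) {f : F} (hf : f ≠ 0)
    (n : ℤ) : v.ord (f * π ^ n) = v.ord f + n := by
  rw [v.ord_mul hf (zpow_ne_zero n (uniformizer_ne_zero v hπ)), v.ord_zpow, hπ, mul_one]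

/-! ## The ultrametric inequality -/

/-- `min (ord f) (ord g) ≤ ord (f + g)` as soon as `f + g ≠ 0` (no hypothesis on `f`, `g`:
recall `ord 0 = 0`). -/
theorem ord_add_ge (v : Place K F) {f g : F} (hfg : f + g ≠ 0) :
    min (v.ord f) (v.ord g) ≤ v.ord (f + g) := by
  rcases eq_or_ne f 0 with rfl | hf
  · simp
  rcases eq_or_ne g 0 with rfl | hg
  · simp
  obtain ⟨π, hπ⟩ := exists_uniformizer v
  have hπ0 := uniformizer_ne_zero v hπ
  set n := min (v.ord f) (v.ord g) with hn
  have h1 : f * π ^ (-n) ∈ v.toValuationSubring :=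
    mem_of_ord_nonneg v (by
      rw [ord_mul_zpow_uniformizer v hπ hf]
      have := min_le_left (v.ord f) (v.ord g)
      omega)
  have h2 : g * π ^ (-n) ∈ v.toValuationSubring :=
    mem_of_ord_nonneg v (by
      rw [ord_mul_zpow_uniformizer v hπ hg]
      have := min_le_right (v.ord f) (v.ord g)
      omega)
  have h3 : (f + g) * π ^ (-n) ∈ v.toValuationSubring := by
    rw [add_mul]
    exact v.toValuationSubring.add_mem _ _ h1 h2
  have h4 := ord_nonneg_of_mem v h3
  rw [ord_mul_zpow_uniformizer v hπ hfg] at h4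
  omega

theorem ord_sub_ge (v : Place K F) {f g : F} (hfg : f - g ≠ 0) :
    min (v.ord f) (v.ord g) ≤ v.ord (f - g) := by
  have h := ord_add_ge v (f := f) (g := -g) (by rwa [← sub_eq_add_neg])
  rwa [ord_neg, ← sub_eq_add_neg] at h

/-- If `ord f < ord g` (and `f ≠ 0`) then `ord (f + g) = ord f`. -/
theorem ord_add_eq_of_lt (v : Place K F) {f g : F} (hf : f ≠ 0) (h : v.ord f < v.ord g) :
    v.ord (f + g) = v.ord f := by
  rcases eq_or_ne g 0 with rfl | hg
  · simp
  have hfg : f + g ≠ 0 := by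
    intro h0
    have : g = -f := eq_neg_of_add_eq_zero_right h0
    rw [this, ord_neg] at h
    exact lt_irrefl _ h
  have h1 := ord_add_ge v hfg
  have h2 := ord_sub_ge v (f := f + g) (g := g) (by simpa using hf)
  rw [add_sub_cancel_right] at h2
  rw [min_eq_left h.le] at h1
  rcases min_le_iff.mp h2 with h3 | h3
  · omega
  · omega

theorem ord_add_eq_of_lt' (v : Place K F) {f g : F} (hg : g ≠ 0) (h : v.ord g < v.ord f) :
    v.ord (f + g) = v.ord g := by
  rw [add_comm, ord_add_eq_of_lt v hg h]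

/-- Lower bound for the order of a finite sum. -/
theorem ord_sum_ge (v : Place K F) {ι : Type*} (s : Finset ι) (f : ι → F) (n : ℤ)
    (hf : ∀ i ∈ s, f i = 0 ∨ n ≤ v.ord (f i)) (hs : ∑ i ∈ s, f i ≠ 0) :
    n ≤ v.ord (∑ i ∈ s, f i) := by
  classical
  induction s using Finset.induction_on with
  | empty => simp at hs
  | insert a s ha ih =>
    rw [Finset.sum_insert ha] at hs ⊢
    have hs' : ∀ i ∈ s, f i = 0 ∨ n ≤ v.ord (f i) :=
      fun i hi => hf i (Finset.mem_insert_of_mem hi)
    rcases eq_or_ne (∑ i ∈ s, f i) 0 with h0 | h0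
    · rw [h0, add_zero] at hs ⊢
      exact (hf a (Finset.mem_insert_self a s)).resolve_left hs
    · rcases hf a (Finset.mem_insert_self a s) with h1 | h1
      · rw [h1, zero_add]
        exact ih hs' h0
      · exact le_trans (le_min h1 (ih hs' h0)) (ord_add_ge v hs)

/-! ## Values at a place: shifting by constants -/

/-- A pole of `f` is a pole of `f - a` of the same order. -/
theorem ord_sub_algebraMap_of_ord_neg (v : Place K F) {f : F} (hf : v.ord f < 0) (a : K) :
    v.ord (f - algebraMap K F a) = v.ord f := by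
  have hf0 : f ≠ 0 := by
    rintro rfl
    simp at hf
  rw [sub_eq_add_neg]
  apply ord_add_eq_of_lt v hf0
  rw [ord_neg, ord_algebraMap]
  exact hf

/-- If `f` is regular at `v` then so is `f - a`. -/
theorem ord_sub_algebraMap_nonneg (v : Place K F) {f : F} (hf : 0 ≤ v.ord f) (a : K) :
    0 ≤ v.ord (f - algebraMap K F a) :=
  ord_nonneg_of_mem v
    (sub_mem (mem_of_ord_nonneg v hf) (v.algebraMap_mem' a))

/-- If `f - a` has a zero at `v` then `f` is regular at `v`. -/
theorem ord_nonneg_of_ord_sub_algebraMap_pos (v : Place K F) {f : F} {a : K}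
    (h : 0 < v.ord (f - algebraMap K F a)) : 0 ≤ v.ord f := by
  have h1 : f - algebraMap K F a ∈ v.toValuationSubring := mem_of_ord_nonneg v h.le
  have h2 : f = (f - algebraMap K F a) + algebraMap K F a := by ring
  rw [h2]
  exact ord_nonneg_of_mem v (v.toValuationSubring.add_mem _ _ h1 (v.algebraMap_mem' a))

/-- A function takes at most one value at a place: if both `f - a` and `f - b` vanish at `v`
then `a = b`. -/
theorem eq_of_ord_sub_algebraMap_pos (v : Place K F) {f : F} {a b : K}
    (ha : 0 < v.ord (f - algebraMap K F a)) (hb : 0 < v.ord (f - algebraMap K F b)) : a = b := by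
  by_contra hab
  have hab' : b - a ≠ 0 := sub_ne_zero.mpr (Ne.symm hab)
  have h1 : (f - algebraMap K F a) - (f - algebraMap K F b) = algebraMap K F (b - a) := by
    rw [map_sub]
    ring
  have h2 := ord_sub_ge v (f := f - algebraMap K F a) (g := f - algebraMap K F b)
    (by rw [h1]; exact (map_ne_zero _).mpr hab')
  rw [h1, ord_algebraMap] at h2
  have := lt_min ha hb
  omega

/-- If `f - a` vanishes at `v` and `b ≠ a` then `f - b` is a unit at `v`. -/
theorem ord_sub_algebraMap_eq_zero (v : Place K F) {f : F} {a b : K}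
    (ha : 0 < v.ord (f - algebraMap K F a)) (hab : a ≠ b) :
    v.ord (f - algebraMap K F b) = 0 := by
  have h0 := ord_sub_algebraMap_nonneg v (ord_nonneg_of_ord_sub_algebraMap_pos v ha) b
  by_contra hne
  exact hab (eq_of_ord_sub_algebraMap_pos v ha (by omega))

/-! ## The place as an additive valuation -/

open scoped Classical in
/-- The additive valuation `F → WithTop ℤ` attached to a place (`⊤` at `0`, `ord` elsewhere). -/
def ordAddValuation (v : Place K F) : AddValuation F (WithTop ℤ) :=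
  AddValuation.of (fun f => if f = 0 then (⊤ : WithTop ℤ) else ((v.ord f : ℤ) : WithTop ℤ))
    (by simp) (by simp)
    (by
      intro x y
      by_cases hx : x = 0
      · simp [hx]
      by_cases hy : y = 0
      · simp [hy]
      by_cases hxy : x + y = 0
      · simp [hxy]
      simp only [hx, hy, hxy, if_false]
      rw [← WithTop.coe_min]
      exact WithTop.coe_le_coe.mpr (ord_add_ge v hxy))
    (by
      intro x y
      by_cases hx : x = 0
      · simp [hx]
      by_cases hy : y = 0
      · simp [hy]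
      simp only [hx, hy, mul_eq_zero, or_self, if_false]
      rw [v.ord_mul hx hy, WithTop.coe_add])

theorem ordAddValuation_apply (v : Place K F) {f : F} (hf : f ≠ 0) :
    ordAddValuation v f = ((v.ord f : ℤ) : WithTop ℤ) := by
  simp [ordAddValuation, hf]

theorem ordAddValuation_zero (v : Place K F) : ordAddValuation v (0 : F) = ⊤ := by
  simp

theorem ordAddValuation_algebraMap (v : Place K F) {a : K} (ha : a ≠ 0) :
    ordAddValuation v (algebraMap K F a) = 0 := by
  rw [ordAddValuation_apply v ((map_ne_zero _).mpr ha), ord_algebraMap]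
  rfl

theorem ordAddValuation_nonneg_iff (v : Place K F) {f : F} :
    0 ≤ ordAddValuation v f ↔ f ∈ v.toValuationSubring := by
  rcases eq_or_ne f 0 with rfl | hf
  · simp [v.toValuationSubring.zero_mem]
  · rw [ordAddValuation_apply v hf, mem_iff]
    exact WithTop.coe_nonneg

/-! ## Places are maximal subrings; a place is determined by `ord` -/

/-- A place is determined by its valuation ring up to inclusion: if `𝒪_v ⊆ 𝒪_w` then `v = w`
(discrete valuation rings are maximal proper subrings of their fraction field). -/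
theorem eq_of_le (v w : Place K F) (h : v.toValuationSubring ≤ w.toValuationSubring) :
    v = w := by
  apply Place.ext
  apply le_antisymm h
  intro f hf
  by_contra hfv
  have hord : v.ord f < 0 := by
    by_contra h0
    exact hfv (mem_of_ord_nonneg v (not_lt.mp h0))
  have hf0 : f ≠ 0 := by
    rintro rfl
    simp at hord
  obtain ⟨π, hπ⟩ := exists_uniformizer v
  have hπ0 := uniformizer_ne_zero v hπ
  -- `π⁻¹ ∈ 𝒪_w`
  have hπw : π ∈ w.toValuationSubring := h (mem_of_ord_nonneg v (by rw [hπ]; exact zero_le_one))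
  have hu : f⁻¹ * π ^ (v.ord f) ∈ w.toValuationSubring :=
    h (mem_of_ord_nonneg v (by
      rw [ord_mul_zpow_uniformizer v hπ (inv_ne_zero hf0), v.ord_inv]
      omega))
  obtain ⟨m, hm⟩ : ∃ m : ℕ, v.ord f = -((m : ℤ) + 1) :=
    ⟨(-v.ord f - 1).toNat, by omega⟩
  have hπinv : π⁻¹ ∈ w.toValuationSubring := by
    have h1 : π⁻¹ = f * (f⁻¹ * π ^ (v.ord f)) * π ^ m := by
      rw [hm, ← mul_assoc, mul_inv_cancel₀ hf0, one_mul, ← zpow_natCast, ← zpow_add₀ hπ0]
      rw [show -((m : ℤ) + 1) + (m : ℤ) = -1 by ring, zpow_neg_one]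
    rw [h1]
    exact w.toValuationSubring.mul_mem _ _ (w.toValuationSubring.mul_mem _ _ hf hu)
      (pow_mem hπw m)
  -- hence `𝒪_w = ⊤`
  apply w.ne_top'
  refine SetLike.ext fun g => ⟨fun _ => ValuationSubring.mem_top g, fun _ => ?_⟩
  rcases eq_or_ne g 0 with rfl | hg
  · exact w.toValuationSubring.zero_mem
  have hu' : g * π ^ (-v.ord g) ∈ w.toValuationSubring :=
    h (mem_of_ord_nonneg v (by
      rw [ord_mul_zpow_uniformizer v hπ hg]
      omega))
  have hzpow : ∀ n : ℤ, π ^ n ∈ w.toValuationSubring := by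
    intro n
    obtain ⟨k, rfl | rfl⟩ := n.eq_nat_or_neg
    · rw [zpow_natCast]
      exact pow_mem hπw k
    · rw [zpow_neg, zpow_natCast, ← inv_pow]
      exact pow_mem hπinv k
  have h2 : g = g * π ^ (-v.ord g) * π ^ (v.ord g) := by
    rw [mul_assoc, ← zpow_add₀ hπ0]
    simp
  rw [h2]
  exact w.toValuationSubring.mul_mem _ _ hu' (hzpow _)

/-- If `0 ≤ ord_v f → 0 ≤ ord_w f` for all `f`, then `v = w`. -/
theorem eq_of_ord_nonneg_imp (v w : Place K F) (h : ∀ f : F, 0 ≤ v.ord f → 0 ≤ w.ord f) :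
    v = w :=
  eq_of_le v w fun f hf => mem_of_ord_nonneg w (h f (ord_nonneg_of_mem v hf))

/-- If `0 < ord_v f → 0 < ord_w f` for all `f`, then `v = w`. -/
theorem eq_of_ord_pos_imp (v w : Place K F) (h : ∀ f : F, 0 < v.ord f → 0 < w.ord f) :
    v = w := by
  symm
  apply eq_of_ord_nonneg_imp
  intro f hf
  by_contra hneg
  push Not at hneg
  have h1 := h f⁻¹ (by rw [v.ord_inv]; omega)
  rw [w.ord_inv] at h1
  omega

theorem ext_ord (v w : Place K F) (h : ∀ f : F, v.ord f = w.ord f) : v = w :=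
  eq_of_ord_nonneg_imp v w fun f hf => by rw [← h f]; exact hf

theorem ne_iff_exists_ord (v w : Place K F) :
    v ≠ w ↔ ∃ f : F, 0 ≤ v.ord f ∧ w.ord f < 0 := by
  constructor
  · intro hne
    by_contra hcon
    push Not at hcon
    exact hne (eq_of_ord_nonneg_imp v w hcon)
  · rintro ⟨f, h1, h2⟩ rfl
    omega

/-! ## Algebraic elements have order zero -/

/-- Elements of `F` algebraic over the constant field have order `0` at every place. -/
theorem ord_eq_zero_of_isAlgebraic (v : Place K F) {f : F} (hf : IsAlgebraic K f) :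
    v.ord f = 0 := by
  rcases eq_or_ne f 0 with rfl | hf0
  · simp
  have key : ∀ g : F, IsAlgebraic K g → 0 ≤ v.ord g := by
    intro g hg
    have h1 : IsIntegral K g := hg.isIntegral
    have h2 : IsIntegral v.toValuationSubring g := h1.tower_top
    obtain ⟨y, hy⟩ := (IsIntegrallyClosed.isIntegral_iff (R := v.toValuationSubring) (K := F)).mp h2
    have : g ∈ v.toValuationSubring := by
      rw [← hy]
      exact y.2
    exact ord_nonneg_of_mem v this
  have h1 := key f hf
  have h2 := key f⁻¹ hf.inv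
  rw [v.ord_inv] at h2
  omega

/-- A function with a zero or a pole at some place is transcendental over the constants. -/
theorem transcendental_of_ord_ne_zero (v : Place K F) {f : F} (hf : v.ord f ≠ 0) :
    Transcendental K f :=
  fun h => hf (ord_eq_zero_of_isAlgebraic v h)

/-! ## A place from a `ℤ`-valued additive valuation -/

section OfAddValuation

variable (w : AddValuation F (WithTop ℤ))

/-- The integer value of `w` (junk value `0` at `0`). -/
def wInt (f : F) : ℤ := (w f).untopD 0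

theorem coe_wInt {f : F} (hf : f ≠ 0) : ((wInt w f : ℤ) : WithTop ℤ) = w f := by
  have h : w f ≠ ⊤ := (AddValuation.ne_top_iff w).mpr hf
  obtain ⟨n, hn⟩ := WithTop.ne_top_iff_exists.mp h
  unfold wInt
  rw [← hn]
  simp

theorem wInt_one : wInt w (1 : F) = 0 := by
  simp [wInt]

theorem wInt_mul {f g : F} (hf : f ≠ 0) (hg : g ≠ 0) :
    wInt w (f * g) = wInt w f + wInt w g := by
  have h := AddValuation.map_mul w f g
  rw [← coe_wInt w hf, ← coe_wInt w hg, ← coe_wInt w (mul_ne_zero hf hg), ← WithTop.coe_add] at h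
  exact WithTop.coe_injective h

theorem wInt_inv {f : F} (hf : f ≠ 0) : wInt w f⁻¹ = -wInt w f := by
  have h := wInt_mul w hf (inv_ne_zero hf)
  rw [mul_inv_cancel₀ hf, wInt_one] at h
  omega

theorem wInt_pow {f : F} (hf : f ≠ 0) (n : ℕ) : wInt w (f ^ n) = n * wInt w f := by
  induction n with
  | zero => simp [wInt_one]
  | succ n ih =>
    rw [pow_succ, wInt_mul w (pow_ne_zero n hf) hf, ih]
    push_cast
    ring

theorem wInt_zpow {f : F} (hf : f ≠ 0) (n : ℤ) : wInt w (f ^ n) = n * wInt w f := by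
  obtain ⟨m, rfl | rfl⟩ := n.eq_nat_or_neg
  · rw [zpow_natCast, wInt_pow w hf]
  · rw [zpow_neg, zpow_natCast, wInt_inv w (pow_ne_zero m hf), wInt_pow w hf]
    ring

theorem nonneg_iff_wInt {f : F} (hf : f ≠ 0) : 0 ≤ w f ↔ 0 ≤ wInt w f := by
  rw [← coe_wInt w hf]
  exact WithTop.coe_nonneg

/-- The valuation subring `{f | 0 ≤ w f}` of a `ℤ`-valued additive valuation. -/
def valSubring : ValuationSubring F where
  carrier := {f | 0 ≤ w f}
  mul_mem' := fun {a b} ha hb => by
    show 0 ≤ w (a * b)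
    rw [AddValuation.map_mul]
    exact add_nonneg ha hb
  one_mem' := by
    show 0 ≤ w 1
    rw [AddValuation.map_one]
  add_mem' := fun {a b} ha hb => le_trans (le_min ha hb) (AddValuation.map_add w a b)
  zero_mem' := by
    show 0 ≤ w 0
    rw [AddValuation.map_zero]
    exact le_top
  neg_mem' := fun {a} ha => by
    show 0 ≤ w (-a)
    rwa [AddValuation.map_neg]
  mem_or_inv_mem' := fun a => by
    by_cases ha : a = 0
    · left
      subst ha
      show 0 ≤ w 0
      rw [AddValuation.map_zero]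
      exact le_top
    · rcases le_total 0 (wInt w a) with h | h
      · left
        exact (nonneg_iff_wInt w ha).mpr h
      · right
        show 0 ≤ w a⁻¹
        rw [nonneg_iff_wInt w (inv_ne_zero ha), wInt_inv w ha]
        omega

theorem mem_valSubring_iff {f : F} : f ∈ valSubring w ↔ 0 ≤ w f := Iff.rfl

theorem exists_pos_value (hnt : ∃ f : F, f ≠ 0 ∧ w f ≠ 0) :
    ∃ n : ℕ, 0 < n ∧ ∃ f : F, f ≠ 0 ∧ wInt w f = n := by
  obtain ⟨f, hf, hwf⟩ := hnt
  have h0 : wInt w f ≠ 0 := by
    intro h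
    apply hwf
    rw [← coe_wInt w hf, h]
    rfl
  rcases lt_or_gt_of_ne h0 with h | h
  · refine ⟨(-wInt w f).toNat, by omega, f⁻¹, inv_ne_zero hf, ?_⟩
    rw [wInt_inv w hf]
    omega
  · exact ⟨(wInt w f).toNat, by omega, f, hf, by omega⟩

/-- The positive generator of the value group of `w`. -/
def valueIndex (hnt : ∃ f : F, f ≠ 0 ∧ w f ≠ 0) : ℕ := by
  classical
  exact Nat.find (exists_pos_value w hnt)

theorem valueIndex_pos (hnt : ∃ f : F, f ≠ 0 ∧ w f ≠ 0) : 0 < valueIndex w hnt := by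
  classical
  exact (Nat.find_spec (exists_pos_value w hnt)).1

theorem exists_wInt_eq_valueIndex (hnt : ∃ f : F, f ≠ 0 ∧ w f ≠ 0) :
    ∃ π : F, π ≠ 0 ∧ wInt w π = valueIndex w hnt := by
  classical
  exact (Nat.find_spec (exists_pos_value w hnt)).2

theorem valueIndex_min (hnt : ∃ f : F, f ≠ 0 ∧ w f ≠ 0) {f : F} (hf : f ≠ 0)
    (hpos : 0 < wInt w f) : (valueIndex w hnt : ℤ) ≤ wInt w f := by
  classical
  by_contra hlt
  push Not at hlt
  have hmin := Nat.find_min (exists_pos_value w hnt) (m := (wInt w f).toNat)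
    (by
      show (wInt w f).toNat < valueIndex w hnt
      omega)
  exact hmin ⟨by omega, f, hf, by omega⟩

theorem valueIndex_dvd (hnt : ∃ f : F, f ≠ 0 ∧ w f ≠ 0) {f : F} (hf : f ≠ 0) :
    (valueIndex w hnt : ℤ) ∣ wInt w f := by
  obtain ⟨π, hπ0, hπ⟩ := exists_wInt_eq_valueIndex w hnt
  have hk := valueIndex_pos w hnt
  set k : ℤ := (valueIndex w hnt : ℤ) with hkdef
  have hk0 : (0 : ℤ) < k := by
    rw [hkdef]
    exact_mod_cast hk
  rw [Int.dvd_iff_emod_eq_zero]
  by_contra hne
  have h1 : 0 ≤ wInt w f % k := Int.emod_nonneg _ hk0.ne'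
  have h2 : wInt w f % k < k := Int.emod_lt_of_pos _ hk0
  have hval : wInt w (f * π ^ (-(wInt w f / k))) = wInt w f % k := by
    rw [wInt_mul w hf (zpow_ne_zero _ hπ0), wInt_zpow w hπ0, hπ, Int.emod_def]
    ring
  have h3 := valueIndex_min w hnt (mul_ne_zero hf (zpow_ne_zero (-(wInt w f / k)) hπ0))
    (by rw [hval]; omega)
  rw [hval] at h3
  omega

/-- **Place from a valuation.** A non-trivial additive valuation `w : F → ℤ ∪ {∞}` that is trivial
on the constants defines a place of `F / K`, with valuation ring `{f | 0 ≤ w f}`. -/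
def ofAddValuation (hK : ∀ a : K, a ≠ 0 → w (algebraMap K F a) = 0)
    (hnt : ∃ f : F, f ≠ 0 ∧ w f ≠ 0) : Place K F where
  toValuationSubring := valSubring w
  algebraMap_mem' := fun a => by
    by_cases ha : a = 0
    · subst ha
      rw [map_zero]
      exact (valSubring w).zero_mem
    · show 0 ≤ w (algebraMap K F a)
      rw [hK a ha]
  ne_top' := by
    obtain ⟨π, hπ0, hπ⟩ := exists_wInt_eq_valueIndex w hnt
    have hk := valueIndex_pos w hnt
    intro htop
    have hmem : π⁻¹ ∈ valSubring w := by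
      rw [htop]
      exact ValuationSubring.mem_top _
    rw [mem_valSubring_iff, nonneg_iff_wInt w (inv_ne_zero hπ0), wInt_inv w hπ0, hπ] at hmem
    omega
  isPrincipalIdealRing' := by
    obtain ⟨π, hπ0, hπ⟩ := exists_wInt_eq_valueIndex w hnt
    have hk := valueIndex_pos w hnt
    have hπmem : π ∈ valSubring w := by
      rw [mem_valSubring_iff, nonneg_iff_wInt w hπ0, hπ]
      omega
    -- units of the valuation ring are the elements of value `0`
    have hunit : ∀ a : valSubring w, (a : F) ≠ 0 → wInt w (a : F) = 0 → IsUnit a := by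
      intro a ha0 ha
      have hinv : (a : F)⁻¹ ∈ valSubring w := by
        rw [mem_valSubring_iff, nonneg_iff_wInt w (inv_ne_zero ha0), wInt_inv w ha0, ha]
        simp
      refine IsUnit.of_mul_eq_one (⟨(a : F)⁻¹, hinv⟩ : valSubring w) ?_
      apply Subtype.ext
      show (a : F) * (a : F)⁻¹ = 1
      exact mul_inv_cancel₀ ha0
    have hunit' : ∀ a : valSubring w, IsUnit a → wInt w (a : F) = 0 := by
      intro a ha
      obtain ⟨b, hb⟩ := ha.exists_right_inv
      have hb' : (a : F) * (b : F) = 1 := congrArg Subtype.val hb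
      have ha0 : (a : F) ≠ 0 := left_ne_zero_of_mul_eq_one hb'
      have hb0 : (b : F) ≠ 0 := right_ne_zero_of_mul_eq_one hb'
      have h1 := wInt_mul w ha0 hb0
      rw [hb', wInt_one] at h1
      have h2 := (nonneg_iff_wInt w ha0).mp a.2
      have h3 := (nonneg_iff_wInt w hb0).mp b.2
      omega
    have hirr : Irreducible (⟨π, hπmem⟩ : valSubring w) := by
      refine ⟨fun hu => ?_, fun a b hab => ?_⟩
      · have := hunit' _ hu
        simp only at this
        omega
      · have hab' : π = (a : F) * (b : F) := congrArg Subtype.val hab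
        have ha0 : (a : F) ≠ 0 := by
          intro h0
          rw [h0, zero_mul] at hab'
          exact hπ0 hab'
        have hb0 : (b : F) ≠ 0 := by
          intro h0
          rw [h0, mul_zero] at hab'
          exact hπ0 hab'
        have h1 := wInt_mul w ha0 hb0
        rw [← hab', hπ] at h1
        have h2 := (nonneg_iff_wInt w ha0).mp a.2
        have h3 := (nonneg_iff_wInt w hb0).mp b.2
        by_cases ha : wInt w (a : F) = 0
        · exact Or.inl (hunit a ha0 ha)
        · right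
          apply hunit b hb0
          have h4 := valueIndex_min w hnt ha0 (by omega)
          omega
    have hfact : IsDiscreteValuationRing.HasUnitMulPowIrreducibleFactorization (valSubring w) := by
      refine ⟨⟨π, hπmem⟩, hirr, fun {x} hx => ?_⟩
      have hx0 : (x : F) ≠ 0 := by
        intro h0
        exact hx (Subtype.ext h0)
      obtain ⟨q, hq⟩ := valueIndex_dvd w hnt hx0
      have hxnn := (nonneg_iff_wInt w hx0).mp x.2
      have hq0 : 0 ≤ q := by
        by_contra hneg
        push Not at hneg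
        have : (valueIndex w hnt : ℤ) * q < 0 :=
          mul_neg_of_pos_of_neg (by exact_mod_cast hk) hneg
        omega
      obtain ⟨n, rfl⟩ := Int.eq_ofNat_of_zero_le hq0
      refine ⟨n, ?_⟩
      have hu0 : (x : F) * (π ^ n)⁻¹ ≠ 0 := mul_ne_zero hx0 (inv_ne_zero (pow_ne_zero n hπ0))
      have huval : wInt w ((x : F) * (π ^ n)⁻¹) = 0 := by
        rw [wInt_mul w hx0 (inv_ne_zero (pow_ne_zero n hπ0)), wInt_inv w (pow_ne_zero n hπ0),
          wInt_pow w hπ0, hπ, hq]
        ring
      have humem : (x : F) * (π ^ n)⁻¹ ∈ valSubring w := by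
        rw [mem_valSubring_iff, nonneg_iff_wInt w hu0, huval]
      have hu := hunit ⟨_, humem⟩ hu0 huval
      refine ⟨hu.unit, ?_⟩
      apply Subtype.ext
      show π ^ n * ((x : F) * (π ^ n)⁻¹) = (x : F)
      field_simp
    exact (IsDiscreteValuationRing.ofHasUnitMulPowIrreducibleFactorization hfact).toIsPrincipalIdealRing

variable (hK : ∀ a : K, a ≠ 0 → w (algebraMap K F a) = 0) (hnt : ∃ f : F, f ≠ 0 ∧ w f ≠ 0)

@[simp]
theorem ofAddValuation_toValuationSubring :
    (ofAddValuation w hK hnt).toValuationSubring = valSubring w := rfl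

theorem mem_ofAddValuation_iff {f : F} :
    f ∈ (ofAddValuation w hK hnt).toValuationSubring ↔ 0 ≤ w f := Iff.rfl

/-- The order at the place attached to `w` is `w` divided by the generator of its value group. -/
theorem wInt_eq_valueIndex_mul_ord {f : F} (hf : f ≠ 0) :
    wInt w f = (valueIndex w hnt : ℤ) * (ofAddValuation w hK hnt).ord f := by
  set v := ofAddValuation w hK hnt with hv
  have hk := valueIndex_pos w hnt
  -- `wInt` vanishes on units of the valuation ring
  have hunit : ∀ u : v.toValuationSubringˣ, wInt w ((u : v.toValuationSubring) : F) = 0 := by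
    intro u
    have h1 : ((u : v.toValuationSubring) : F) * ((u⁻¹ : v.toValuationSubringˣ) :
        v.toValuationSubring) = 1 :=
      congrArg Subtype.val (Units.mul_inv u)
    have ha0 := left_ne_zero_of_mul_eq_one h1
    have hb0 := right_ne_zero_of_mul_eq_one h1
    have h2 := wInt_mul w ha0 hb0
    rw [h1, wInt_one] at h2
    have h3 := (nonneg_iff_wInt w ha0).mp (u : v.toValuationSubring).2
    have h4 := (nonneg_iff_wInt w hb0).mp ((u⁻¹ : v.toValuationSubringˣ) : v.toValuationSubring).2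
    omega
  -- a uniformizer has value `valueIndex`
  obtain ⟨π, hπ0, hπ⟩ := exists_wInt_eq_valueIndex w hnt
  have hπmem : π ∈ v.toValuationSubring := by
    rw [mem_ofAddValuation_iff, nonneg_iff_wInt w hπ0, hπ]
    omega
  obtain ⟨ϖ, hϖ⟩ := exists_irreducible v
  have hϖ0 := coe_irreducible_ne_zero v hϖ
  obtain ⟨u, hu⟩ := v.exists_unit_mul_zpow hπ0 hϖ
  have hϖval : wInt w (ϖ : F) = valueIndex w hnt := by
    -- `0 < wInt ϖ` since `ϖ` is not a unit; `k = wInt π = ord π * wInt ϖ`
    have h1 : wInt w π = v.ord π * wInt w (ϖ : F) := by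
      conv_lhs => rw [hu]
      rw [wInt_mul w (by simp) (zpow_ne_zero _ hϖ0), hunit u, zero_add, wInt_zpow w hϖ0]
    have h2 : 0 ≤ wInt w (ϖ : F) := (nonneg_iff_wInt w hϖ0).mp ϖ.2
    have h3 : wInt w (ϖ : F) ≠ 0 := by
      intro h0
      rw [h0, mul_zero, hπ] at h1
      omega
    have h4 := valueIndex_min w hnt hϖ0 (by omega)
    have h5 : 0 < v.ord π := by
      by_contra hle
      push Not at hle
      have : v.ord π * wInt w (ϖ : F) ≤ 0 := mul_nonpos_of_nonpos_of_nonneg hle h2
      omega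
    rw [hπ] at h1
    nlinarith
  obtain ⟨u', hu'⟩ := v.exists_unit_mul_zpow hf hϖ
  conv_lhs => rw [hu']
  rw [wInt_mul w (by simp) (zpow_ne_zero _ hϖ0), hunit u', zero_add, wInt_zpow w hϖ0, hϖval]
  ring

/-- **Specification of `ofAddValuation`**: `w f = k * ord_v f` with `k = valueIndex w > 0`. -/
theorem ofAddValuation_apply {f : F} (hf : f ≠ 0) :
    w f = (((valueIndex w hnt : ℤ) * (ofAddValuation w hK hnt).ord f : ℤ) : WithTop ℤ) := by
  rw [← wInt_eq_valueIndex_mul_ord w hK hnt hf, coe_wInt w hf]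

theorem ofAddValuation_spec :
    ∃ k : ℕ, 0 < k ∧ ∀ f : F, f ≠ 0 →
      w f = (((k : ℤ) * (ofAddValuation w hK hnt).ord f : ℤ) : WithTop ℤ) :=
  ⟨valueIndex w hnt, valueIndex_pos w hnt, fun _ hf => ofAddValuation_apply w hK hnt hf⟩

theorem ofAddValuation_ord_pos_iff {f : F} (hf : f ≠ 0) :
    0 < (ofAddValuation w hK hnt).ord f ↔ 0 < w f := by
  have hk := valueIndex_pos w hnt
  have hk' : (0 : ℤ) < valueIndex w hnt := by exact_mod_cast hk
  rw [ofAddValuation_apply w hK hnt hf, WithTop.coe_pos]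
  exact (mul_pos_iff_of_pos_left hk').symm

theorem ofAddValuation_ord_nonneg_iff {f : F} :
    0 ≤ (ofAddValuation w hK hnt).ord f ↔ 0 ≤ w f := by
  rw [ord_nonneg_iff_mem, mem_ofAddValuation_iff]

/-- The construction recovers a place from its own additive valuation. -/
theorem ofAddValuation_ordAddValuation (v : Place K F) :
    ofAddValuation (ordAddValuation v) (fun _ ha => ordAddValuation_algebraMap v ha)
      (by
        obtain ⟨π, hπ⟩ := exists_uniformizer v
        refine ⟨π, uniformizer_ne_zero v hπ, ?_⟩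
        rw [ordAddValuation_apply v (uniformizer_ne_zero v hπ), hπ]
        exact WithTop.coe_ne_zero.mpr one_ne_zero) = v := by
  apply Place.ext
  ext f
  rw [mem_ofAddValuation_iff, ordAddValuation_nonneg_iff]

end OfAddValuation

/-! ## A place from a valuation of a bigger field `Ω` and an embedding `F →ₐ[K] Ω`

This is the shape of the data in `Stmt_LOC` of `helper24_Spec`. -/

section OfAlgHom

variable {Ω : Type*} [Field Ω] [Algebra K Ω] (w : AddValuation Ω (WithTop ℤ))
  (hK : ∀ a : K, a ≠ 0 → w (algebraMap K Ω a) = 0) (ι : F →ₐ[K] Ω)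
  (hnt : ∃ f : F, f ≠ 0 ∧ w (ι f) ≠ 0)

/-- The place of `F / K` cut out by the valuation `w` of `Ω` through the embedding `ι`: its
valuation ring is `{f | 0 ≤ w (ι f)}`. -/
def ofAlgHom : Place K F :=
  ofAddValuation (w.comap (ι : F →+* Ω))
    (fun a ha => by
      show w (ι (algebraMap K F a)) = 0
      rw [ι.commutes]
      exact hK a ha)
    hnt

theorem mem_ofAlgHom_iff {f : F} :
    f ∈ (ofAlgHom w hK ι hnt).toValuationSubring ↔ 0 ≤ w (ι f) := Iff.rfl

/-- The ramification index of `w` over the place `ofAlgHom w hK ι hnt`: the positive generator of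
the value group of `w ∘ ι`. -/
def algHomIndex : ℕ :=
  valueIndex (w.comap (ι : F →+* Ω)) hnt

theorem algHomIndex_pos : 0 < algHomIndex w ι hnt := valueIndex_pos _ hnt

theorem ofAlgHom_apply {f : F} (hf : f ≠ 0) :
    w (ι f) = (((algHomIndex w ι hnt : ℤ) * (ofAlgHom w hK ι hnt).ord f : ℤ) : WithTop ℤ) :=
  ofAddValuation_apply (w.comap (ι : F →+* Ω)) _ hnt hf

/-- **Specification of `ofAlgHom`**: `w (ι f) = k * ord_v f` for some fixed `k > 0`. -/
theorem ofAlgHom_spec :
    ∃ k : ℕ, 0 < k ∧ ∀ f : F, f ≠ 0 →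
      w (ι f) = (((k : ℤ) * (ofAlgHom w hK ι hnt).ord f : ℤ) : WithTop ℤ) :=
  ⟨algHomIndex w ι hnt, algHomIndex_pos w ι hnt, fun _ hf => ofAlgHom_apply w hK ι hnt hf⟩

theorem ofAlgHom_ord_pos_iff {f : F} (hf : f ≠ 0) :
    0 < (ofAlgHom w hK ι hnt).ord f ↔ 0 < w (ι f) :=
  ofAddValuation_ord_pos_iff (w.comap (ι : F →+* Ω)) _ hnt hf

theorem ofAlgHom_ord_nonneg_iff {f : F} :
    0 ≤ (ofAlgHom w hK ι hnt).ord f ↔ 0 ≤ w (ι f) :=
  ofAddValuation_ord_nonneg_iff (w.comap (ι : F →+* Ω)) _ hnt

/-- If `w (ι y) = m` then `algHomIndex * ord_v y = m`. -/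
theorem algHomIndex_mul_ord {y : F} (hy : y ≠ 0) {m : ℤ} (hm : w (ι y) = ((m : ℤ) : WithTop ℤ)) :
    (algHomIndex w ι hnt : ℤ) * (ofAlgHom w hK ι hnt).ord y = m := by
  rw [ofAlgHom_apply w hK ι hnt hy] at hm
  exact WithTop.coe_injective hm

/-- Two embeddings with the same pulled-back valuation ring give the same place. -/
theorem ofAlgHom_congr (ι' : F →ₐ[K] Ω) (hnt' : ∃ f : F, f ≠ 0 ∧ w (ι' f) ≠ 0)
    (h : ∀ f : F, 0 ≤ w (ι f) → 0 ≤ w (ι' f)) :
    ofAlgHom w hK ι hnt = ofAlgHom w hK ι' hnt' :=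
  eq_of_le _ _ fun f hf => h f hf

/-- Composing the embedding with a `w`-preserving automorphism of `Ω` does not change the
place. -/
theorem ofAlgHom_comp_algEquiv (σ : Ω ≃ₐ[K] Ω) (hσ : ∀ z, w (σ z) = w z)
    (hnt' : ∃ f : F, f ≠ 0 ∧ w (((σ : Ω →ₐ[K] Ω).comp ι) f) ≠ 0) :
    ofAlgHom w hK ((σ : Ω →ₐ[K] Ω).comp ι) hnt' = ofAlgHom w hK ι hnt :=
  eq_of_le _ _ fun f hf => by
    rw [mem_ofAlgHom_iff] at hf ⊢
    have h1 : ((σ : Ω →ₐ[K] Ω).comp ι) f = σ (ι f) := rfl
    rwa [h1, hσ] at hf

/-- Existential form, as used for `Stmt_LOC`: every embedding `ι : F →ₐ[K] Ω` on which `w` is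
non-trivial determines a place `v` of `F / K` and an index `k > 0` with `w ∘ ι = k • ord_v`. -/
theorem exists_place_of_algHom {Ω' : Type*} [Field Ω'] [Algebra K Ω']
    (w' : AddValuation Ω' (WithTop ℤ)) (hK' : ∀ a : K, a ≠ 0 → w' (algebraMap K Ω' a) = 0)
    (ι' : F →ₐ[K] Ω') (hnt' : ∃ f : F, f ≠ 0 ∧ w' (ι' f) ≠ 0) :
    ∃ (v : Place K F) (k : ℕ), 0 < k ∧
      (∀ f : F, f ∈ v.toValuationSubring ↔ 0 ≤ w' (ι' f)) ∧
      ∀ f : F, f ≠ 0 → w' (ι' f) = (((k : ℤ) * v.ord f : ℤ) : WithTop ℤ) :=
  ⟨ofAlgHom w' hK' ι' hnt', algHomIndex w' ι' hnt', algHomIndex_pos w' ι' hnt',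
    fun _ => mem_ofAlgHom_iff w' hK' ι' hnt', fun _ hf => ofAlgHom_apply w' hK' ι' hnt' hf⟩

/-- Existential form for a valuation of `F` itself. -/
theorem exists_place_of_addValuation (w' : AddValuation F (WithTop ℤ))
    (hK' : ∀ a : K, a ≠ 0 → w' (algebraMap K F a) = 0) (hnt' : ∃ f : F, f ≠ 0 ∧ w' f ≠ 0) :
    ∃ (v : Place K F) (k : ℕ), 0 < k ∧
      (∀ f : F, f ∈ v.toValuationSubring ↔ 0 ≤ w' f) ∧
      ∀ f : F, f ≠ 0 → w' f = (((k : ℤ) * v.ord f : ℤ) : WithTop ℤ) :=
  ⟨ofAddValuation w' hK' hnt', valueIndex w' hnt', valueIndex_pos w' hnt',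
    fun _ => mem_ofAddValuation_iff w' hK' hnt', fun _ hf => ofAddValuation_apply w' hK' hnt' hf⟩

end OfAlgHom

end Fermat.Agent.S24.helper1370
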