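import Mathlib

/-!
# S24 G-EXCH (board row 156): exchange lemma for function fields of one variable

If `F` is finite over `K⟮x⟯` and `y : F` is transcendental over `K`, then `F` is finite over
`K⟮y⟯`.  Pure Mathlib (transcendence degree + finitely generated algebraic extensions).
-/

set_option autoImplicit false

open IntermediateField
open scoped IntermediateField.algebraAdjoinAdjoin

namespace Fermat.Agent.S24.helper2549

variable {K F : Type*} [Field K] [Field F] [Algebra K F]

/-- `F` is algebraic over the subalgebra `K[x]` as soon as it is finite over `K⟮x⟯`. -/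
theorem isAlgebraic_adjoin_singleton_of_finite (x : F) [FiniteDimensional K⟮x⟯ F] :
    Algebra.IsAlgebraic (Algebra.adjoin K ({x} : Set F)) F := by
  have h1 : Algebra.IsAlgebraic K⟮x⟯ F := Algebra.IsAlgebraic.of_finite _ _
  exact (IsFractionRing.comap_isAlgebraic_iff (A := Algebra.adjoin K ({x} : Set F))
    (K := K⟮x⟯)).mpr h1

/-- If `F` is finite over `K⟮x⟯` and `y` is transcendental over `K`, then `F` is algebraic
over `K⟮y⟯`. -/
theorem exchange_isAlgebraic (x : F) [FiniteDimensional K⟮x⟯ F] (y : F)
    (hy : Transcendental K y) : Algebra.IsAlgebraic K⟮y⟯ F := by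
  have halg := isAlgebraic_adjoin_singleton_of_finite (K := K) x
  have hle : Algebra.trdeg K F ≤ 1 := by
    have := Algebra.IsAlgebraic.trdeg_le_cardinalMk K ({x} : Set F)
    simpa using this
  have hind : AlgebraicIndependent K (fun _ : Unit => y) :=
    algebraicIndependent_unique_type_iff.mpr hy
  have hbasis : IsTranscendenceBasis K (fun _ : Unit => y) :=
    hind.isTranscendenceBasis_of_lift_trdeg_le_of_finite (by
      rw [Cardinal.lift_uzero, Cardinal.mk_fintype, Fintype.card_unit, Nat.cast_one,
        Cardinal.lift_one]
      exact hle)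
  have h2 := hbasis.isAlgebraic_field
  have hrange : Set.range (fun _ : Unit => y) = {y} := by
    ext z; simp [eq_comm]
  rwa [hrange] at h2

/-- **Exchange lemma.** If `F` is finite over `K⟮x⟯` and `y` is transcendental over `K`,
then `F` is finite over `K⟮y⟯`. -/
theorem exchange (x : F) [FiniteDimensional K⟮x⟯ F] (y : F) (hy : Transcendental K y) :
    FiniteDimensional K⟮y⟯ F := by
  have halg : Algebra.IsAlgebraic K⟮y⟯ F := exchange_isAlgebraic x y hy
  -- a finite spanning set of `F` over `K⟮x⟯`
  obtain ⟨s, hs⟩ := (Module.Finite.fg_top : (⊤ : Submodule K⟮x⟯ F).FG)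
  let S : Set F := insert x (s : Set F)
  have hSfin : Finite S := Set.Finite.insert x s.finite_toSet
  have hfd : FiniteDimensional K⟮y⟯ (IntermediateField.adjoin K⟮y⟯ S) :=
    IntermediateField.finiteDimensional_adjoin
      (fun z _ => (halg.isAlgebraic z).isIntegral)
  have htop : IntermediateField.adjoin K⟮y⟯ S = ⊤ := by
    rw [eq_top_iff]
    intro f _
    -- `K⟮x⟯ ≤ L` where `L` is the adjoin, viewed over `K`
    set L := IntermediateField.adjoin K⟮y⟯ S with hL
    have hxL : x ∈ L := IntermediateField.subset_adjoin _ _ (Set.mem_insert x _)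
    have hKx : ∀ c : K⟮x⟯, (c : F) ∈ L := by
      intro c
      have : K⟮x⟯ ≤ L.restrictScalars K :=
        IntermediateField.adjoin_simple_le_iff.mpr hxL
      exact this c.2
    have hf : f ∈ Submodule.span K⟮x⟯ (s : Set F) := by rw [hs]; trivial
    refine Submodule.span_induction (p := fun z _ => z ∈ L) ?_ ?_ ?_ ?_ hf
    · intro z hz
      exact IntermediateField.subset_adjoin _ _ (Set.mem_insert_of_mem x hz)
    · exact L.zero_mem
    · intro a b _ _ ha hb
      exact L.add_mem ha hb
    · intro c z _ hz
      rw [Algebra.smul_def]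
      exact L.mul_mem (hKx c) hz
  have e : (IntermediateField.adjoin K⟮y⟯ S) ≃ₐ[K⟮y⟯] F :=
    (IntermediateField.equivOfEq htop).trans IntermediateField.topEquiv
  exact Module.Finite.equiv e.toLinearEquiv

/-- The exchange lemma in the exact shape of `Stmt_Exchange` (S24 board row 156; universe 0,
with the unused standing hypotheses of the S24 spec). -/
theorem stmt_exchange :
    ∀ (K F : Type) [Field K] [Field F] [Algebra K F] [IsAlgClosed K] [CharZero K] (x : F),
      Transcendental K x → ∀ [FiniteDimensional K⟮x⟯ F] (y : F), Transcendental K y →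
      FiniteDimensional K⟮y⟯ F :=
  fun _ _ _ _ _ _ _ x _ _ y hy => exchange x y hy

end Fermat.Agent.S24.helper2549
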