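import Fermat.Agent.S24.helper24_Spec2
import Fermat.Agent.S24.helper2549_Exchange

/-!
# S24, modules G2 / G3 / G10 (helper489): residue field of every place is `K`

Generic function-field algebra, in the exact shapes of `helper24_Spec` / `helper24_Spec2`:

* `stmt_ResidueK : Stmt_ResidueK`  (residue field of every place is the constant field)
* `stmt_Center : Stmt_Center`      (every place is a pole of `x` or a zero of some `x - c`)
* `stmt_DegOne : Stmt_DegOne`      (every place has degree one)

The proof is direct (no Dedekind domains): if the residue class of `u ∈ O_v` were not a constant,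
every nonzero polynomial in `u` would be a unit of `O_v`, hence `K(u) ⊆ O_v`; as `F` is algebraic
over `K(u)` (exchange lemma, `helper2549`) and `O_v` is integrally closed, `O_v = F`.
-/

set_option autoImplicit false

open AlgebraicCurve IntermediateField Polynomial

namespace Fermat.Agent.S24.helper489

section basics

variable {K F : Type*} [Field K] [Field F] [Algebra K F] (v : Place K F)

/-- Elements of the valuation ring have nonnegative order. -/
theorem ord_nonneg_of_mem {f : F} (hf : f ∈ v.toValuationSubring) : 0 ≤ v.ord f := by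
  rcases eq_or_ne f 0 with rfl | hf0
  · simp
  obtain ⟨π, hπ⟩ := IsDiscreteValuationRing.exists_irreducible v.toValuationSubring
  obtain ⟨n, u, hu⟩ :=
    IsDiscreteValuationRing.eq_unit_mul_pow_irreducible
      (x := (⟨f, hf⟩ : v.toValuationSubring)) (by simpa [Subtype.ext_iff] using hf0) hπ
  have hcoe : f = ((u : v.toValuationSubring) : F) * ((π : F) ^ (n : ℤ)) := by
    have h := congrArg (Subtype.val) hu
    push_cast at h
    rw [zpow_natCast]
    exact h
  rw [hcoe, v.ord_unit_smul_zpow u hπ (n : ℤ)]
  exact Int.natCast_nonneg n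

/-- Nonzero elements of nonnegative order lie in the valuation ring. -/
theorem mem_of_ord_nonneg {f : F} (hf : f ≠ 0) (h : 0 ≤ v.ord f) :
    f ∈ v.toValuationSubring := by
  obtain ⟨π, hπ⟩ := IsDiscreteValuationRing.exists_irreducible v.toValuationSubring
  obtain ⟨u, hu⟩ := v.exists_unit_mul_zpow hf hπ
  rw [hu, show v.ord f = (((v.ord f).toNat : ℕ) : ℤ) from (Int.toNat_of_nonneg h).symm,
    zpow_natCast]
  exact mul_mem (u : v.toValuationSubring).2 (pow_mem (π : v.toValuationSubring).2 _)

theorem mem_iff_ord_nonneg {f : F} (hf : f ≠ 0) :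
    f ∈ v.toValuationSubring ↔ 0 ≤ v.ord f :=
  ⟨ord_nonneg_of_mem v, mem_of_ord_nonneg v hf⟩

/-- A product of elements of order zero has order zero. -/
theorem ord_multiset_prod_eq_zero (s : Multiset F) (hs : ∀ y ∈ s, y ≠ 0 ∧ v.ord y = 0) :
    s.prod ≠ 0 ∧ v.ord s.prod = 0 := by
  induction s using Multiset.induction_on with
  | empty => simp
  | cons a s ih =>
    have ha := hs a (Multiset.mem_cons_self a s)
    have hs' := ih (fun y hy => hs y (Multiset.mem_cons_of_mem hy))
    rw [Multiset.prod_cons]
    exact ⟨mul_ne_zero ha.1 hs'.1, by rw [v.ord_mul ha.1 hs'.1, ha.2, hs'.2, add_zero]⟩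

/-- Nonzero constants have order zero. -/
theorem ord_algebraMap_eq_zero {a : K} (ha : a ≠ 0) : v.ord (algebraMap K F a) = 0 := by
  have hu : IsUnit (algebraMap K v.toValuationSubring a) :=
    (IsUnit.mk0 a ha).map (algebraMap K v.toValuationSubring)
  have h := v.ord_coe_unit hu.unit
  rwa [IsUnit.unit_spec, v.coe_algebraMap] at h

/-- An element of positive order in the valuation ring is a non-unit. -/
theorem not_isUnit_of_ord_pos {f : F} (hf : f ∈ v.toValuationSubring) (h : 0 < v.ord f) :
    ¬ IsUnit (⟨f, hf⟩ : v.toValuationSubring) := by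
  intro hu
  have := v.ord_coe_unit hu.unit
  rw [IsUnit.unit_spec] at this
  simp only at this
  omega

/-- **Residue field = constants**, element form: every element of the valuation ring of a place
differs from a constant by an element of positive order (or is a constant). The only input is that
`F` is algebraic over `K(u)` for every transcendental `u`. -/
theorem exists_const_sub_ord_pos [IsAlgClosed K]
    (halg : ∀ u : F, Transcendental K u → Algebra.IsAlgebraic K⟮u⟯ F)
    (u : F) (hu : u ∈ v.toValuationSubring) :
    ∃ a : K, u = algebraMap K F a ∨ 0 < v.ord (u - algebraMap K F a) := by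
  by_contra hcon
  push Not at hcon
  have h0 : ∀ a : K, u - algebraMap K F a ≠ 0 ∧ v.ord (u - algebraMap K F a) = 0 := fun a =>
    ⟨sub_ne_zero.mpr (hcon a).1,
      le_antisymm (hcon a).2 (ord_nonneg_of_mem v (sub_mem hu (v.algebraMap_mem' a)))⟩
  have hutr : Transcendental K u := by
    intro hal
    have hint : IsIntegral K u := hal.isIntegral
    have hdeg : (minpoly K u).degree = 1 :=
      IsAlgClosed.degree_eq_one_of_irreducible K (minpoly.irreducible hint)
    obtain ⟨a, ha⟩ := minpoly.mem_range_of_degree_eq_one K u hdeg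
    exact (hcon a).1 ha.symm
  have key : ∀ p : K[X], p ≠ 0 → aeval u p ≠ 0 ∧ v.ord (aeval u p) = 0 := by
    intro p hp
    have hsplit := (IsAlgClosed.splits p).eq_prod_roots
    have hlc : p.leadingCoeff ≠ 0 := leadingCoeff_ne_zero.mpr hp
    have hprod := ord_multiset_prod_eq_zero v (p.roots.map (fun a => u - algebraMap K F a)) (by
      intro y hy
      obtain ⟨a, -, rfl⟩ := Multiset.mem_map.mp hy
      exact h0 a)
    have haev : aeval u p = algebraMap K F p.leadingCoeff *
        (p.roots.map (fun a => u - algebraMap K F a)).prod := by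
      conv_lhs => rw [hsplit]
      simp only [map_mul, aeval_C, map_multiset_prod, Multiset.map_map, Function.comp_def,
        map_sub, aeval_X]
    have hlc' : algebraMap K F p.leadingCoeff ≠ 0 := by simpa using hlc
    rw [haev]
    exact ⟨mul_ne_zero hlc' hprod.1, by
      rw [v.ord_mul hlc' hprod.1, ord_algebraMap_eq_zero v hlc, hprod.2, add_zero]⟩
  have hKu : ∀ y ∈ K⟮u⟯, y ∈ v.toValuationSubring := by
    intro y hy
    obtain ⟨r, s, rfl⟩ := (mem_adjoin_simple_iff K y).mp hy
    by_cases hr : r = 0
    · simp [hr, zero_mem]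
    by_cases hs : s = 0
    · simp [hs, zero_mem]
    obtain ⟨hr1, hr2⟩ := key r hr
    obtain ⟨hs1, hs2⟩ := key s hs
    apply mem_of_ord_nonneg v (div_ne_zero hr1 hs1)
    rw [div_eq_mul_inv, v.ord_mul hr1 (inv_ne_zero hs1), v.ord_inv, hr2, hs2]
    simp
  apply v.ne_top'
  refine SetLike.ext fun f => ⟨fun _ => ValuationSubring.mem_top f, fun _ => ?_⟩
  have := halg u hutr
  let : Algebra K⟮u⟯ v.toValuationSubring :=
    ((algebraMap K⟮u⟯ F).codRestrict v.toValuationSubring.toSubring
      (fun y => hKu y y.2)).toAlgebra
  let : IsScalarTower K⟮u⟯ v.toValuationSubring F :=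
    IsScalarTower.of_algebraMap_eq fun f => rfl
  have hx : IsIntegral v.toValuationSubring f :=
    (Algebra.IsIntegral.isIntegral (R := K⟮u⟯) f).tower_top
  obtain ⟨y, hy⟩ := IsIntegrallyClosed.isIntegral_iff.mp hx
  exact hy ▸ y.2

/-- The residue field of every place is the constant field. -/
theorem residue_surjective [IsAlgClosed K]
    (halg : ∀ u : F, Transcendental K u → Algebra.IsAlgebraic K⟮u⟯ F) :
    Function.Surjective (algebraMap K v.ResidueField) := by
  intro r
  obtain ⟨⟨u, hu⟩, rfl⟩ := IsLocalRing.residue_surjective r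
  obtain ⟨a, ha⟩ := exists_const_sub_ord_pos v halg u hu
  refine ⟨a, ?_⟩
  rw [IsScalarTower.algebraMap_apply K v.toValuationSubring v.ResidueField,
    IsLocalRing.ResidueField.algebraMap_eq]
  rcases ha with ha | ha
  · congr 1
    exact Subtype.ext ha.symm
  · have hmem : u - algebraMap K F a ∈ v.toValuationSubring :=
      sub_mem hu (v.algebraMap_mem' a)
    have hnu := not_isUnit_of_ord_pos v hmem ha
    have hres : IsLocalRing.residue v.toValuationSubring
        (⟨u - algebraMap K F a, hmem⟩ : v.toValuationSubring) = 0 := by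
      rw [IsLocalRing.residue_eq_zero_iff]
      exact hnu
    have hsub : (⟨u - algebraMap K F a, hmem⟩ : v.toValuationSubring)
        = ⟨u, hu⟩ - algebraMap K v.toValuationSubring a := Subtype.ext rfl
    rw [hsub, map_sub, sub_eq_zero] at hres
    exact hres.symm

/-- Every place is a pole of `x` or a zero of `x - c` for some constant `c`. -/
theorem center [IsAlgClosed K]
    (halg : ∀ u : F, Transcendental K u → Algebra.IsAlgebraic K⟮u⟯ F)
    (x : F) (hx : Transcendental K x) :
    v.ord x < 0 ∨ ∃ c : K, 0 < v.ord (x - algebraMap K F c) := by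
  by_cases h : v.ord x < 0
  · exact Or.inl h
  right
  have hx0 : x ≠ 0 := by
    rintro rfl
    exact hx (isAlgebraic_zero)
  have hmem : x ∈ v.toValuationSubring := mem_of_ord_nonneg v hx0 (not_lt.mp h)
  obtain ⟨a, ha | ha⟩ := exists_const_sub_ord_pos v halg x hmem
  · exact absurd (ha ▸ isAlgebraic_algebraMap a) hx
  · exact ⟨a, ha⟩

end basics

open Fermat.Agent.S24.helper24

/-- G2 in the captain's shape. -/
theorem stmt_ResidueK : Stmt_ResidueK := by
  intro K F _ _ _ _ _ x hx _ v
  exact residue_surjective v (fun u hu => helper2549.exchange_isAlgebraic x u hu)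

/-- G3 in the captain's shape. -/
theorem stmt_Center : Stmt_Center := by
  intro K F _ _ _ _ _ x hx _ v
  exact center v (fun u hu => helper2549.exchange_isAlgebraic x u hu) x hx

/-- G10 in the captain's shape. -/
theorem stmt_DegOne : Stmt_DegOne := degOne_of stmt_ResidueK

end Fermat.Agent.S24.helper489
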