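import Fermat.Agent.S24.helper24_Spec
import Fermat.Agent.Lib.helper1356_Gamma0Index

/-!
# S24 COMB column in Spec shape (helper1356)

* `stmt_Index : Stmt_Index` (proved, no hypotheses);
* `stmt_OrbitsS`, `stmt_OrbitsST`: from the fixed point counts of `S` and `S * T` on
  `SL(2, ℤ) ⧸ Γ₀(N)` (hypotheses in the shapes of Module F, F3/F4).
-/

set_option autoImplicit false

open CongruenceSubgroup MatrixGroups Matrix ModularCurve

namespace Fermat.Agent.S24.helper1356

open Fermat.Agent.S24.helper24 Fermat.Agent.Lib.helper1356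

/-- C1 of the spec: the index of `Γ₀(N)` is the Dedekind psi function. -/
theorem stmt_Index : Stmt_Index := by
  intro N _
  exact card_quotient_Gamma0 N

theorem S_sq_smul (N : ℕ) (x : XN N) : ModularGroup.S ^ 2 • x = x := by
  induction x using QuotientGroup.induction_on with
  | H g =>
    show (QuotientGroup.mk (ModularGroup.S ^ 2 * g) : XN N) = QuotientGroup.mk g
    rw [QuotientGroup.eq, inv_mul_mem_Gamma0_iff]
    have h : ModularGroup.S ^ 2 = (-1 : SL(2, ℤ)) := by
      ext i j
      fin_cases i <;> fin_cases j <;> simp [pow_two, ModularGroup.S, coe_mul_apply]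
    rw [h]
    simp

theorem ST_cube_smul (N : ℕ) (x : XN N) : (ModularGroup.S * ModularGroup.T) ^ 3 • x = x := by
  induction x using QuotientGroup.induction_on with
  | H g =>
    show (QuotientGroup.mk ((ModularGroup.S * ModularGroup.T) ^ 3 * g) : XN N)
      = QuotientGroup.mk g
    rw [QuotientGroup.eq, inv_mul_mem_Gamma0_iff]
    have h : (ModularGroup.S * ModularGroup.T) ^ 3 = (-1 : SL(2, ℤ)) := by
      ext i j
      fin_cases i <;> fin_cases j <;>
        simp [pow_succ, ModularGroup.S, ModularGroup.T, coe_mul_apply]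
    rw [h]
    simp

/-- C3 of the spec from the fixed point count of `S` (Module F3). -/
theorem stmt_OrbitsS (h1 : Stmt_Index)
    (hFix : ∀ (N : ℕ) [NeZero N], Nat.card (MulAction.fixedBy (XN N) ModularGroup.S) = nuTwo N) :
    Stmt_OrbitsS := by
  intro N _
  have : Finite (XN N) := Subgroup.finite_quotient_of_finiteIndex
  have h := mul_card_orbits_zpowers (X := XN N) ModularGroup.S Nat.prime_two (S_sq_smul N)
  rw [h1 N, hFix N] at h
  refine h.trans ?_
  ring

/-- C4 of the spec from the fixed point count of `S * T` (Module F4). -/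
theorem stmt_OrbitsST (h1 : Stmt_Index)
    (hFix : ∀ (N : ℕ) [NeZero N],
      Nat.card (MulAction.fixedBy (XN N) (ModularGroup.S * ModularGroup.T)) = nuThree N) :
    Stmt_OrbitsST := by
  intro N _
  have : Finite (XN N) := Subgroup.finite_quotient_of_finiteIndex
  have h := mul_card_orbits_zpowers (X := XN N) (ModularGroup.S * ModularGroup.T)
    Nat.prime_three (ST_cube_smul N)
  rw [h1 N, hFix N] at h
  exact h

end Fermat.Agent.S24.helper1356
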