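/-
S24 MODULE M2-ALG (helper60): abstract algebra core of
`finrank K(j) F = |X|` for a function field `F ⊆ K((q))`.
No analysis; Mathlib + Prelude `coeffMap` only.
-/
import Mathlib
import Fermat.Prelude.Def_ModularCurve_LaurentCoeff

set_option autoImplicit false

noncomputable section

namespace Fermat.Agent.S24.helper60

open Polynomial IntermediateField ModularCurve

section LinearAlgebra

/-- The canonical algebra structure on Laurent series acts by coefficientwise scalar
multiplication. -/
theorem algebraMap_mul_eq_smul {R : Type*} [Field R] (c : R) (y : LaurentSeries R) :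
    algebraMap R (LaurentSeries R) c * y = c • y := by
  rw [algebraMap_laurentSeries_eq_single, HahnSeries.single_zero_mul_eq_smul]

variable {K L : Type*} [Field K] [Field L] (i₀ : K →+* L)

/-- Apply a `K`-linear functional `φ : L → K` to an `L`-linear relation between
coefficient-extended Laurent series: one gets a `K`-linear relation. -/
theorem sum_dual_smul_eq_zero {ι : Type*} (s : Finset ι) (c : ι → L)
    (x : ι → LaurentSeries K)
    (h : ∑ i ∈ s, c i • coeffMap i₀ (x i) = 0)
    (φ : @Module.Dual K L _ _ i₀.toAlgebra.toModule) :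
    ∑ i ∈ s, φ (c i) • x i = 0 := by
  classical
  let _ : Algebra K L := i₀.toAlgebra
  ext k
  have hk := congrArg (fun y : LaurentSeries L => y.coeff k) h
  simp only [HahnSeries.coeff_sum, HahnSeries.coeff_smul, coeffMap_coeff, smul_eq_mul,
    HahnSeries.coeff_zero] at hk ⊢
  have h2 : ∀ i ∈ s, φ (c i) * (x i).coeff k = φ (c i * i₀ ((x i).coeff k)) := by
    intro i _
    have : c i * i₀ ((x i).coeff k) = ((x i).coeff k) • c i := by
      rw [Algebra.smul_def, mul_comm]; rfl
    rw [this, map_smul, smul_eq_mul, mul_comm]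
  rw [Finset.sum_congr rfl h2, ← map_sum, hk, map_zero]

/-- A `K`-linearly independent family of Laurent series over `K` stays `L`-linearly
independent after extending the coefficients along `i₀ : K →+* L`. -/
theorem linearIndependent_coeffMap {ι : Type*} (v : ι → LaurentSeries K)
    (hv : LinearIndependent K v) :
    LinearIndependent L (fun i => coeffMap i₀ (v i)) := by
  classical
  let _ : Algebra K L := i₀.toAlgebra
  rw [linearIndependent_iff'] at hv ⊢
  intro s g hg i hi
  -- it suffices to show that every `K`-linear functional kills `g i`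
  rw [← Module.forall_dual_apply_eq_zero_iff K (g i)]
  intro φ
  exact hv s (fun i => φ (g i)) (sum_dual_smul_eq_zero i₀ s g v hg φ) i hi

/-- **Descent of a polynomial relation.**  If `J, Θ ∈ K((q))` satisfy, after extension of
coefficients to `L`, a nontrivial relation `∑_{k ≤ n} p_k(J) Θ^k = 0` with `p_k ∈ L[X]`,
then they satisfy a nontrivial relation of the same shape with `q_k ∈ K[X]`. -/
theorem exists_relation_of_coeffMap_relation (J Θ : LaurentSeries K) (n : ℕ)
    (p : ℕ → L[X]) (hp : ∃ k ≤ n, p k ≠ 0)
    (hrel : ∑ k ∈ Finset.range (n + 1),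
        aeval (coeffMap i₀ J) (p k) * (coeffMap i₀ Θ) ^ k = 0) :
    ∃ q : ℕ → K[X], (∃ k ≤ n, q k ≠ 0) ∧
      ∑ k ∈ Finset.range (n + 1), aeval J (q k) * Θ ^ k = 0 := by
  classical
  let _ : Algebra K L := i₀.toAlgebra
  -- a common bound on the degrees
  obtain ⟨A, hA⟩ : ∃ A : ℕ, ∀ k ∈ Finset.range (n + 1), (p k).natDegree < A :=
    ⟨(Finset.range (n + 1)).sup (fun k => (p k).natDegree) + 1, fun k hk =>
      Nat.lt_succ_of_le (Finset.le_sup (f := fun k => (p k).natDegree) hk)⟩
  obtain ⟨k₀, hk₀, hpk₀⟩ := hp
  -- a nonzero coefficient and a functional not killing it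
  have hc : (p k₀).coeff (p k₀).natDegree ≠ 0 := by
    rw [Polynomial.coeff_natDegree]; exact Polynomial.leadingCoeff_ne_zero.mpr hpk₀
  obtain ⟨φ, hφ⟩ : ∃ φ : Module.Dual K L, φ ((p k₀).coeff (p k₀).natDegree) ≠ 0 := by
    by_contra hcon
    exact hc ((Module.forall_dual_apply_eq_zero_iff K _).mp
      fun φ => not_not.mp fun h => hcon ⟨φ, h⟩)
  -- the relation over `L` as a double sum
  have h1 : ∑ ka ∈ Finset.range (n + 1) ×ˢ Finset.range A,
      (p ka.1).coeff ka.2 • coeffMap i₀ (J ^ ka.2 * Θ ^ ka.1) = 0 := by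
    rw [Finset.sum_product, ← hrel]
    refine Finset.sum_congr rfl fun k hk => ?_
    rw [Polynomial.aeval_eq_sum_range' (hA k hk), Finset.sum_mul]
    refine Finset.sum_congr rfl fun a _ => ?_
    rw [map_mul, map_pow, map_pow, Algebra.smul_def, mul_assoc, algebraMap_mul_eq_smul]
  have h2 := sum_dual_smul_eq_zero i₀ _ _ _ h1 φ
  rw [Finset.sum_product] at h2
  refine ⟨fun k => ∑ a ∈ Finset.range A, Polynomial.monomial a (φ ((p k).coeff a)),
    ⟨k₀, hk₀, ?_⟩, ?_⟩
  · intro h0
    apply hφ
    have := congrArg (fun r : K[X] => r.coeff (p k₀).natDegree) h0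
    simp only [Polynomial.finsetSum_coeff, Polynomial.coeff_monomial, Polynomial.coeff_zero,
      Finset.sum_ite_eq', Finset.mem_range] at this
    rw [if_pos (hA k₀ (Finset.mem_range.mpr (Nat.lt_succ_of_le hk₀)))] at this
    exact this
  · rw [← h2]
    refine Finset.sum_congr rfl fun k _ => ?_
    rw [map_sum, Finset.sum_mul]
    refine Finset.sum_congr rfl fun a _ => ?_
    rw [Polynomial.aeval_monomial, mul_assoc, algebraMap_mul_eq_smul]

end LinearAlgebra

section Transcendence

/-- A Laurent series with a pole (negative order) is transcendental over the constants. -/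
theorem transcendental_of_order_neg {K : Type*} [Field K] (J : LaurentSeries K)
    (hJ : J.order < 0) : Transcendental K J := by
  rintro ⟨p, hp0, hp⟩
  have hJ0 : J ≠ 0 := by
    rintro rfl
    simp at hJ
  have hcoeff : (aeval J p).coeff (p.natDegree • J.order) =
      p.leadingCoeff * (J ^ p.natDegree).coeff (p.natDegree • J.order) := by
    rw [Polynomial.aeval_eq_sum_range, HahnSeries.coeff_sum, Finset.sum_range_succ,
      Finset.sum_eq_zero, zero_add]
    · rw [Algebra.smul_def, algebraMap_mul_eq_smul, HahnSeries.coeff_smul, smul_eq_mul]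
      rfl
    · intro k hk
      rw [Algebra.smul_def, algebraMap_mul_eq_smul, HahnSeries.coeff_smul,
        HahnSeries.coeff_eq_zero_of_lt_order, smul_zero]
      rw [HahnSeries.order_pow, nsmul_eq_mul, nsmul_eq_mul]
      exact mul_lt_mul_of_neg_right (by exact_mod_cast Finset.mem_range.mp hk) hJ
  rw [hp, HahnSeries.coeff_zero] at hcoeff
  have h2 : (J ^ p.natDegree).coeff (p.natDegree • J.order) ≠ 0 := by
    rw [← HahnSeries.order_pow]
    exact HahnSeries.coeff_order_eq_zero.not.mpr (pow_ne_zero _ hJ0)
  exact mul_ne_zero (Polynomial.leadingCoeff_ne_zero.mpr hp0) h2 hcoeff.symm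

end Transcendence

section PrimitiveElement

variable {E F : Type*} [Field E] [Field F] [Algebra E F]

/-- If `F / E` has finitely many intermediate fields and `E` has characteristic zero, then
`E(α, β) = E(α + m β)` for some natural number `m`. -/
theorem exists_nat_adjoin_add_mul_eq [CharZero E] [Finite (IntermediateField E F)] (α β : F) :
    ∃ m : ℕ, E⟮α + (m : F) * β⟯ = E⟮α, β⟯ := by
  obtain ⟨m, m', hne, heq⟩ :=
    Finite.exists_ne_map_eq_of_infinite (fun m : ℕ => E⟮α + (m : F) * β⟯)
  have heq' : E⟮α + (m : F) * β⟯ = E⟮α + (m' : F) * β⟯ := heq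
  refine ⟨m, le_antisymm ?_ ?_⟩
  · rw [adjoin_simple_le_iff]
    have hα : α ∈ E⟮α, β⟯ := subset_adjoin E _ (Set.mem_insert _ _)
    have hβ : β ∈ E⟮α, β⟯ := subset_adjoin E _ (Set.mem_insert_of_mem _ rfl)
    exact add_mem hα (mul_mem (_root_.natCast_mem _ m) hβ)
  · rw [adjoin_le_iff]
    have h1 : α + (m : F) * β ∈ E⟮α + (m : F) * β⟯ := mem_adjoin_simple_self E _
    have h2 : α + (m' : F) * β ∈ E⟮α + (m : F) * β⟯ := by
      rw [heq']
      exact mem_adjoin_simple_self E _
    have hF : CharZero F := charZero_of_injective_algebraMap (algebraMap E F).injective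
    have hd : ((m : F) - (m' : F)) ≠ 0 := by
      rw [sub_ne_zero]
      exact_mod_cast hne
    have hβ : β ∈ E⟮α + (m : F) * β⟯ := by
      have h3 : ((m : F) - (m' : F)) * β ∈ E⟮α + (m : F) * β⟯ := by
        have := sub_mem h1 h2
        have h4 : α + (m : F) * β - (α + (m' : F) * β) = ((m : F) - (m' : F)) * β := by ring
        rwa [h4] at this
      have h5 := mul_mem (inv_mem (sub_mem (_root_.natCast_mem E⟮α + (m : F) * β⟯ m)
        (_root_.natCast_mem E⟮α + (m : F) * β⟯ m'))) h3
      rwa [inv_mul_cancel_left₀ hd] at h5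
    have hα : α ∈ E⟮α + (m : F) * β⟯ := by
      have := sub_mem h1 (mul_mem (_root_.natCast_mem E⟮α + (m : F) * β⟯ m) hβ)
      rwa [add_sub_cancel_right] at this
    rintro x (rfl | rfl)
    · exact hα
    · exact hβ

/-- If `F / E` has finitely many intermediate fields and `E` has characteristic zero, then the
field generated by a finite set `S` is generated by a single combination of the elements of
`S` with natural number coefficients. -/
theorem exists_nat_combination_adjoin_eq [CharZero E] [Finite (IntermediateField E F)]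
    (S : Finset F) :
    ∃ c : F → ℕ, E⟮∑ s ∈ S, (c s : F) * s⟯ = adjoin E (S : Set F) := by
  classical
  induction S using Finset.induction_on with
  | empty =>
    refine ⟨fun _ => 0, ?_⟩
    rw [Finset.sum_empty, Finset.coe_empty, adjoin_zero, adjoin_empty]
  | insert a T ha ih =>
    obtain ⟨c, hc⟩ := ih
    obtain ⟨m, hm⟩ := exists_nat_adjoin_add_mul_eq (E := E) (∑ s ∈ T, (c s : F) * s) a
    refine ⟨Function.update c a m, ?_⟩
    have hsum : ∑ s ∈ T, ((Function.update c a m s : ℕ) : F) * s = ∑ s ∈ T, (c s : F) * s :=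
      Finset.sum_congr rfl fun s hs => by
        rw [Function.update_of_ne (ne_of_mem_of_not_mem hs ha)]
    rw [Finset.sum_insert ha, Function.update_self, hsum, add_comm, hm, Finset.coe_insert]
    have h1 : ({∑ s ∈ T, (c s : F) * s, a} : Set F) = {∑ s ∈ T, (c s : F) * s} ∪ {a} := rfl
    have h2 : (insert a (T : Set F)) = (T : Set F) ∪ {a} := (Set.union_singleton).symm
    rw [h1, h2, adjoin_union, adjoin_union, hc]

/-- **Upper bound.**  Let `F = E(S)` with `S` finite and `E` of characteristic zero.  If every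
combination `θ` of the elements of `S` with natural number coefficients is a root of a nonzero
polynomial of degree at most `n` over `E`, then `[F : E] ≤ n`. -/
theorem finrank_le_of_forall_nat_combination [CharZero E]
    (S : Finset F) (hS : adjoin E (S : Set F) = ⊤) (n : ℕ)
    (h : ∀ c : F → ℕ, ∃ p : E[X], p ≠ 0 ∧ p.natDegree ≤ n ∧
      aeval (∑ s ∈ S, (c s : F) * s) p = 0) :
    FiniteDimensional E F ∧ Module.finrank E F ≤ n := by
  classical
  have hint : ∀ s ∈ S, IsIntegral E s := by
    intro s hs
    obtain ⟨p, hp0, -, hp⟩ := h (Pi.single s 1)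
    have hsum : ∑ t ∈ S, ((Pi.single s 1 : F → ℕ) t : F) * t = s := by
      rw [Finset.sum_eq_single_of_mem s hs]
      · simp
      · intro t _ hts
        simp [Pi.single_eq_of_ne hts]
    rw [hsum] at hp
    exact isAlgebraic_iff_isIntegral.mp ⟨p, hp0, hp⟩
  have hfd : FiniteDimensional E F := by
    have h1 : FiniteDimensional E (adjoin E (S : Set F)) :=
      finiteDimensional_adjoin (fun x hx => hint x (Finset.mem_coe.mp hx))
    rw [hS] at h1
    exact LinearEquiv.finiteDimensional (topEquiv (F := E) (E := F)).toLinearEquiv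
  have hsep : Algebra.IsSeparable E F := inferInstance
  have hfin : Finite (IntermediateField E F) :=
    Field.finite_intermediateField_of_exists_primitive_element E F
      (Field.exists_primitive_element E F)
  obtain ⟨c, hc⟩ := exists_nat_combination_adjoin_eq (E := E) S
  obtain ⟨p, hp0, hpn, hp⟩ := h c
  refine ⟨hfd, ?_⟩
  have hθ : IsIntegral E (∑ s ∈ S, (c s : F) * s) := isAlgebraic_iff_isIntegral.mp ⟨p, hp0, hp⟩
  calc Module.finrank E F = Module.finrank E (⊤ : IntermediateField E F) := finrank_top'.symm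
    _ = Module.finrank E E⟮∑ s ∈ S, (c s : F) * s⟯ := by rw [hc, hS]
    _ = (minpoly E (∑ s ∈ S, (c s : F) * s)).natDegree := adjoin.finrank hθ
    _ ≤ p.natDegree := Polynomial.natDegree_le_natDegree (minpoly.degree_le_of_ne_zero E _ hp0 hp)
    _ ≤ n := hpn

end PrimitiveElement

section LowerBound

variable {K F Ω : Type*} [Field K] [Field F] [Algebra K F] [Field Ω]

/-- Two ring homomorphisms out of `F` that agree on `K` and on `j` agree on `K(j)`. -/
theorem ringHom_eq_on_adjoin_simple (j : F) (f g : F →+* Ω)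
    (hK : ∀ a : K, f (algebraMap K F a) = g (algebraMap K F a)) (hj : f j = g j)
    (e : K⟮j⟯) : f e = g e := by
  have key : ∀ z ∈ K⟮j⟯, f z = g z := by
    intro z hz
    induction hz using IntermediateField.adjoin_induction with
    | mem x hx =>
      rw [Set.mem_singleton_iff] at hx
      rw [hx, hj]
    | algebraMap x => exact hK x
    | add x y _ _ hx hy => rw [map_add, map_add, hx, hy]
    | inv x _ hx => rw [map_inv₀, map_inv₀, hx]
    | mul x y _ _ hx hy => rw [map_mul, map_mul, hx, hy]
  exact key e e.2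

/-- **Lower bound.**  A family of pairwise distinct ring homomorphisms `F →+* Ω` into a
field, all agreeing on `K` and on `j`, has at most `[F : K(j)]` members. -/
theorem natCard_le_finrank_of_ringHoms {X : Type*} [Finite X] (j : F)
    [FiniteDimensional K⟮j⟯ F]
    (ι : X → (F →+* Ω)) (hι : Function.Injective ι)
    (hιK : ∀ x y (a : K), ι x (algebraMap K F a) = ι y (algebraMap K F a))
    (hιj : ∀ x y, ι x j = ι y j) :
    Nat.card X ≤ Module.finrank K⟮j⟯ F := by
  classical
  rcases isEmpty_or_nonempty X with hX | ⟨⟨x₀⟩⟩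
  · simp
  let _ : Algebra K⟮j⟯ Ω := ((ι x₀).comp (algebraMap K⟮j⟯ F)).toAlgebra
  let f : X → (F →ₐ[K⟮j⟯] Ω) := fun x =>
    { ι x with
      commutes' := fun e =>
        ringHom_eq_on_adjoin_simple j (ι x) (ι x₀) (hιK x x₀) (hιj x x₀) e }
  have hf : Function.Injective f := fun x y hxy => hι (by
    ext z
    exact congrArg (fun g : F →ₐ[K⟮j⟯] Ω => g z) hxy)
  calc Nat.card X ≤ Nat.card (F →ₐ[K⟮j⟯] Ω) := Nat.card_le_card_of_injective f hf
    _ ≤ Module.finrank K⟮j⟯ F := card_algHom_le_finrank K⟮j⟯ F Ω

end LowerBound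

section Main

variable {K L Ω X : Type*} [Field K] [CharZero K] [Field L] [Field Ω] [Fintype X]

/-- **Abstract form of M2.**  Let `F ⊆ K((q))` be generated over `K` by a finite set `S`,
let `j ∈ F` have a pole at `q = 0`.  Suppose
* (upper bound input) every `θ` in the `K`-algebra generated by `S` satisfies, after extension
  of the coefficients to `L`, a nontrivial relation `∑_{k ≤ n} p_k(j) θ^k = 0` with
  `p_k ∈ L[X]`, where `n = |X|`;
* (lower bound input) there are `n` pairwise distinct ring homomorphisms `ι x : F →+* Ω` into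
  a field which agree on `K` and on `j`.
Then `F` is finite over `K(j)` of degree exactly `n = |X|`. -/
theorem finrank_adjoin_simple_eq_card
    (i₀ : K →+* L)
    (F : IntermediateField K (LaurentSeries K)) (j : F)
    (hj : (j : LaurentSeries K).order < 0)
    (S : Finset F) (hS : adjoin K (S : Set F) = ⊤)
    (hrel : ∀ θ ∈ Algebra.adjoin K (S : Set F), ∃ p : ℕ → L[X],
        (∃ k ≤ Fintype.card X, p k ≠ 0) ∧
        ∑ k ∈ Finset.range (Fintype.card X + 1),
          aeval (coeffMap i₀ (j : LaurentSeries K)) (p k) *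
            (coeffMap i₀ (θ : LaurentSeries K)) ^ k = 0)
    (ι : X → (F →+* Ω)) (hι : Function.Injective ι)
    (hιK : ∀ x y (a : K), ι x (algebraMap K F a) = ι y (algebraMap K F a))
    (hιj : ∀ x y, ι x j = ι y j) :
    FiniteDimensional K⟮j⟯ F ∧ Module.finrank K⟮j⟯ F = Fintype.card X := by
  classical
  have hjtr : Transcendental K j := by
    have h1 := transcendental_of_order_neg (j : LaurentSeries K) hj
    exact (transcendental_algebraMap_iff (algebraMap F (LaurentSeries K)).injective).mp h1
  have hgen : Transcendental K (AdjoinSimple.gen K j) := by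
    rw [← transcendental_algebraMap_iff (algebraMap K⟮j⟯ F).injective,
      AdjoinSimple.algebraMap_gen]
    exact hjtr
  have hS' : adjoin K⟮j⟯ (S : Set F) = ⊤ := by
    rw [eq_top_iff]
    intro x _
    have h1 : adjoin K (S : Set F) ≤ (adjoin K⟮j⟯ (S : Set F)).restrictScalars K :=
      adjoin_le_iff.mpr (subset_adjoin K⟮j⟯ _)
    have h2 : x ∈ adjoin K (S : Set F) := by
      rw [hS]
      trivial
    exact h1 h2
  have hup := finrank_le_of_forall_nat_combination (E := K⟮j⟯) S hS' (Fintype.card X) ?_
  · obtain ⟨hfd, hle⟩ := hup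
    refine ⟨hfd, le_antisymm hle ?_⟩
    have h3 := natCard_le_finrank_of_ringHoms (K := K) j ι hι hιK hιj
    rwa [Nat.card_eq_fintype_card] at h3
  · intro c
    have hθmem : (∑ s ∈ S, (c s : F) * s) ∈ Algebra.adjoin K (S : Set F) :=
      sum_mem fun s hs =>
        mul_mem (_root_.natCast_mem _ _) (Algebra.subset_adjoin (Finset.mem_coe.mpr hs))
    obtain ⟨p, hp, hprel⟩ := hrel _ hθmem
    obtain ⟨q, ⟨k₀, hk₀, hqk₀⟩, hqrel⟩ :=
      exists_relation_of_coeffMap_relation i₀ _ _ _ p hp hprel
    refine ⟨∑ k ∈ Finset.range (Fintype.card X + 1),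
      C (aeval (AdjoinSimple.gen K j) (q k)) * Polynomial.X ^ k, ?_, ?_, ?_⟩
    · intro h0
      have h4 := congrArg (fun r : K⟮j⟯[X] => r.coeff k₀) h0
      simp only [finsetSum_coeff, coeff_C_mul, coeff_X_pow, mul_ite, mul_one, mul_zero,
        Finset.sum_ite_eq, Finset.mem_range, coeff_zero] at h4
      rw [if_pos (Nat.lt_succ_of_le hk₀)] at h4
      exact hqk₀ (transcendental_iff.mp hgen _ h4)
    · exact natDegree_sum_le_of_forall_le _ _ fun k hk =>
        (natDegree_C_mul_X_pow_le _ _).trans (Nat.lt_succ_iff.mp (Finset.mem_range.mp hk))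
    · apply (algebraMap F (LaurentSeries K)).injective
      rw [map_zero, ← hqrel, map_sum, map_sum]
      refine Finset.sum_congr rfl fun k _ => ?_
      rw [map_mul, map_mul, aeval_C, map_pow, map_pow, aeval_X, ← aeval_algebraMap_apply,
        AdjoinSimple.algebraMap_gen, ← aeval_algebraMap_apply]
      rfl

end Main

end Fermat.Agent.S24.helper60
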