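import Fermat.Agent.S24.helper1944_Ev
import Fermat.Agent.S24.helper60_DegreeAlg

/-!
# S24, MOD (helper1944): `Stmt_JFinrank`, i.e. `[ℚ̄(X₀(N)) : ℚ̄(j)] = [SL(2,ℤ) : Γ₀(N)]`

* upper bound: for `θ ∈ A_N` the functions `τ ↦ evFun N θ (g⁻¹ τ)`, `g Γ₀(N) ∈ SL(2,ℤ)/Γ₀(N)`,
  are permuted by `SL(2,ℤ)`, so `helper167.exists_monic_relation_sum` gives a monic relation of
  degree `[SL(2,ℤ) : Γ₀(N)]` over `ℂ[J]`; the identity theorem transports it to formal Laurent
  series over `ℂ`;
* lower bound and descent to `ℚ̄`: `helper60.finrank_adjoin_simple_eq_card`, with the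
  `[SL(2,ℤ) : Γ₀(N)]` distinct embeddings agreeing on `ℚ̄(j)` supplied by any `LocalDatum`.
-/

set_option autoImplicit false

open ModularCurve UpperHalfPlane Filter Topology CongruenceSubgroup IntermediateField
open scoped MatrixGroups Manifold

namespace Fermat.Agent.S24.helper1944

open Fermat.Agent.S24.helper24

noncomputable section

/-! ### More dictionary: powers, finite sums, polynomials -/

theorem hasSum_lsTerm_one (z : ℂ) : HasSum (lsTerm (1 : LaurentSeries ℂ) z) 1 := by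
  have h := hasSum_lsTerm_C 1 z
  rwa [map_one] at h

theorem hasSum_lsTerm_zero (z : ℂ) : HasSum (lsTerm (0 : LaurentSeries ℂ) z) 0 := by
  have h := hasSum_lsTerm_C 0 z
  rwa [map_zero] at h

theorem hasSum_lsTerm_pow {E : LaurentSeries ℂ} {z s : ℂ} (hz : z ≠ 0)
    (h : HasSum (lsTerm E z) s) (n : ℕ) : HasSum (lsTerm (E ^ n) z) (s ^ n) := by
  induction n with
  | zero => simpa using hasSum_lsTerm_one z
  | succ n ih =>
      rw [pow_succ, pow_succ]
      exact hasSum_lsTerm_mul hz ih h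

theorem hasSum_lsTerm_sum {ι : Type*} (t : Finset ι) (E : ι → LaurentSeries ℂ) (v : ι → ℂ)
    (z : ℂ) (h : ∀ i ∈ t, HasSum (lsTerm (E i) z) (v i)) :
    HasSum (lsTerm (∑ i ∈ t, E i) z) (∑ i ∈ t, v i) := by
  classical
  induction t using Finset.induction_on with
  | empty => simpa using hasSum_lsTerm_zero z
  | insert a t ha ih =>
      rw [Finset.sum_insert ha, Finset.sum_insert ha]
      exact hasSum_lsTerm_add (h a (Finset.mem_insert_self a t))
        (ih fun i hi => h i (Finset.mem_insert_of_mem hi))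

theorem hasSum_lsTerm_algebraMap (c z : ℂ) :
    HasSum (lsTerm (algebraMap ℂ (LaurentSeries ℂ) c) z) c := by
  rw [algebraMap_laurentSeries_eq_single]
  exact hasSum_lsTerm_C c z

theorem hasSum_lsTerm_aeval {E : LaurentSeries ℂ} {z s : ℂ} (hz : z ≠ 0)
    (h : HasSum (lsTerm E z) s) (p : Polynomial ℂ) :
    HasSum (lsTerm (Polynomial.aeval E p) z) (p.eval s) := by
  rw [Polynomial.aeval_eq_sum_range, Polynomial.eval_eq_sum_range]
  refine hasSum_lsTerm_sum _ _ _ z fun i _ => ?_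
  rw [Algebra.smul_def]
  exact hasSum_lsTerm_mul hz (hasSum_lsTerm_algebraMap _ z) (hasSum_lsTerm_pow hz h i)

/-! ### The conjugates of `θ ∈ A_N` -/

theorem mdiff_comp_smul {f : ℍ → ℂ} (hf : MDiff f) (g : SL(2, ℤ)) :
    MDiff (fun τ : ℍ => f (g • τ)) := by
  have hg : 0 < ((g : GL (Fin 2) ℝ)).det.val := by simp
  exact hf.comp (UpperHalfPlane.mdifferentiable_smul hg)

/-- The translate `τ ↦ evFun N θ (h⁻¹ τ)`. -/
def conjFun (N : ℕ) (θ : FN N) (h : SL(2, ℤ)) (τ : ℍ) : ℂ := evFun N θ (h⁻¹ • τ)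

theorem conjFun_eq_of_coset (N : ℕ) {θ : FN N} (hθ : θ ∈ helper3176.AN N) {h h' : SL(2, ℤ)}
    (hh : (h : XN N) = (h' : XN N)) : conjFun N θ h = conjFun N θ h' := by
  funext τ
  have hγ : h⁻¹ * h' ∈ Gamma0 N := QuotientGroup.eq.mp hh
  have hγ' : (h⁻¹ * h')⁻¹ ∈ Gamma0 N := inv_mem hγ
  have h1 := (evGood_of_mem_AN N θ hθ).inv _ hγ' (h⁻¹ • τ)
  simp only [conjFun]
  rw [← h1, ← mul_smul]
  congr 2
  group

/-- The conjugate attached to a coset. -/
def conjX (N : ℕ) (θ : FN N) (x : XN N) : ℍ → ℂ := conjFun N θ (Quotient.out x)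

theorem conjX_mk (N : ℕ) {θ : FN N} (hθ : θ ∈ helper3176.AN N) (h : SL(2, ℤ)) :
    conjX N θ (h : XN N) = conjFun N θ h :=
  conjFun_eq_of_coset N hθ (QuotientGroup.out_eq' (h : XN N))

theorem conjX_smul (N : ℕ) {θ : FN N} (hθ : θ ∈ helper3176.AN N) (g : SL(2, ℤ)) (x : XN N)
    (τ : ℍ) : conjX N θ x (g • τ) = conjX N θ (g⁻¹ • x) τ := by
  obtain ⟨h, rfl⟩ := QuotientGroup.mk_surjective x
  rw [MulAction.Quotient.smul_coe, conjX_mk N hθ, conjX_mk N hθ]
  simp only [conjFun, smul_eq_mul, mul_inv_rev, inv_inv, mul_smul]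

/-- Upper bound input: every `θ ∈ A_N` satisfies a monic relation of degree `|X|` over `ℂ[J]`,
as an identity of functions. -/
theorem exists_monic_relation_evFun (N : ℕ) [NeZero N] [Fintype (XN N)] {θ : FN N}
    (hθ : θ ∈ helper3176.AN N) :
    ∃ P : Polynomial (Polynomial ℂ), P.Monic ∧ P.natDegree = Fintype.card (XN N) ∧
      ∀ τ : ℍ, ∑ i ∈ Finset.range (Fintype.card (XN N) + 1),
        (P.coeff i).eval (jFun τ) * evFun N θ τ ^ i = 0 := by
  have hgood := evGood_of_mem_AN N θ hθ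
  obtain ⟨P, hmonic, hdeg, hP⟩ := helper167.exists_monic_relation_sum (conjX N θ)
    (fun x => mdiff_comp_smul hgood.mdiff _)
    (fun g => ⟨MulAction.toPerm g⁻¹, fun x τ => conjX_smul N hθ g x τ⟩)
    (fun x => hgood.growth _)
  refine ⟨P, hmonic, hdeg, fun τ => ?_⟩
  have h1 := hP ((1 : SL(2, ℤ)) : XN N) τ
  rw [conjX_mk N hθ] at h1
  simp only [conjFun, inv_one, one_smul] at h1
  exact h1

/-- The same relation for formal Laurent series over `ℂ`. -/
theorem exists_relation_coeffMap (N : ℕ) [NeZero N] [Fintype (XN N)] {θ : FN N}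
    (hθ : θ ∈ helper3176.AN N) :
    ∃ p : ℕ → Polynomial ℂ, (∃ k ≤ Fintype.card (XN N), p k ≠ 0) ∧
      ∑ k ∈ Finset.range (Fintype.card (XN N) + 1),
        Polynomial.aeval (coeffMap kappa ((jBar N : FN N) : LaurentSeries Kbar)) (p k) *
          (coeffMap kappa (θ : LaurentSeries Kbar)) ^ k = 0 := by
  obtain ⟨P, hmonic, hdeg, hP⟩ := exists_monic_relation_evFun N hθ
  refine ⟨fun k => P.coeff k, ⟨Fintype.card (XN N), le_rfl, ?_⟩, ?_⟩
  · have : P.coeff P.natDegree = 1 := hmonic.coeff_natDegree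
    rw [hdeg] at this
    simp only [this]
    exact one_ne_zero
  · refine eq_zero_of_hasSum_lsTerm_zero _ fun z hz hz1 => ?_
    obtain ⟨τ, rfl⟩ := exists_qq_eq hz hz1
    have hJ : HasSum (lsTerm (coeffMap kappa ((jBar N : FN N) : LaurentSeries Kbar)) (qq τ))
        (jFun τ) := by
      have h := (convS_of_mem_AN N _ (helper3176.jBar_mem_AN N)).hasSum τ
      have h2 : evS ((jBar N : FN N) : LaurentSeries Kbar) τ = jFun τ :=
        congrFun (evFun_jBar N) τ
      rwa [h2] at h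
    have hΘ : HasSum (lsTerm (coeffMap kappa (θ : LaurentSeries Kbar)) (qq τ)) (evFun N θ τ) :=
      (convS_of_mem_AN N θ hθ).hasSum τ
    have hsum := hasSum_lsTerm_sum (Finset.range (Fintype.card (XN N) + 1))
      (fun k => Polynomial.aeval (coeffMap kappa ((jBar N : FN N) : LaurentSeries Kbar))
        (P.coeff k) * (coeffMap kappa (θ : LaurentSeries Kbar)) ^ k)
      (fun k => (P.coeff k).eval (jFun τ) * evFun N θ τ ^ k) (qq τ)
      (fun k _ => hasSum_lsTerm_mul (qq_ne_zero τ)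
        (hasSum_lsTerm_aeval (qq_ne_zero τ) hJ _) (hasSum_lsTerm_pow (qq_ne_zero τ) hΘ k))
    rwa [hP τ] at hsum

/-! ### The generating set -/

theorem genSetF_finite (N : ℕ) [NeZero N] : (helper3176.genSetF N).Finite := by
  have hsub : helper3176.genSetF N ⊆ Set.range (fun d : {d : ℕ // d ∈ N.divisors} =>
      @jBarD N d.1 ⟨(Nat.pos_of_mem_divisors d.2).ne'⟩ (Nat.dvd_of_mem_divisors d.2)) := by
    rintro x ⟨d, hd0, hd, rfl⟩
    exact ⟨⟨d, Nat.mem_divisors.mpr ⟨hd, NeZero.ne N⟩⟩, rfl⟩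
  exact (Set.finite_range _).subset hsub

theorem adjoin_genSetF_eq_top (N : ℕ) :
    IntermediateField.adjoin Kbar (helper3176.genSetF N) = ⊤ := by
  rw [eq_top_iff]
  intro z _
  obtain ⟨a, b, -, rfl⟩ := helper3176.exists_div_AN N z
  have hle : helper3176.AN N ≤ (IntermediateField.adjoin Kbar (helper3176.genSetF N)).toSubalgebra :=
    IntermediateField.algebra_adjoin_le_adjoin Kbar _
  exact div_mem (hle a.2) (hle b.2)

theorem order_jBar_neg (N : ℕ) : ((jBar N : FN N) : LaurentSeries Kbar).order < 0 := by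
  rw [coe_jBar]
  have hc : (coeffEmb Kbar jq).coeff (-1) ≠ 0 := by
    rw [coeffEmb_coeff, coeff_jq_neg_one, map_one]
    exact one_ne_zero
  have := HahnSeries.order_le_of_coeff_ne_zero hc
  omega

/-! ### The degree -/

/-- **Degree of the function field over `ℚ̄(j)`** from `|X|` distinct embeddings agreeing on
constants and on `j`. -/
theorem jFinrank_of_embeddings (N : ℕ) [NeZero N] {Ω : Type*} [Field Ω]
    (ι : XN N → (FN N →+* Ω)) (hι : Function.Injective ι)
    (hιK : ∀ x y (a : Kbar), ι x (algebraMap Kbar (FN N) a) = ι y (algebraMap Kbar (FN N) a))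
    (hιj : ∀ x y, ι x (jBar N) = ι y (jBar N)) :
    FiniteDimensional Kbar⟮jBar N⟯ (FN N) ∧
      Module.finrank Kbar⟮jBar N⟯ (FN N) = Nat.card (XN N) := by
  classical
  have : Finite (XN N) := Subgroup.finite_quotient_of_finiteIndex
  let _ : Fintype (XN N) := Fintype.ofFinite (XN N)
  have hS : IntermediateField.adjoin Kbar
      (((genSetF_finite N).toFinset : Finset (FN N)) : Set (FN N)) = ⊤ := by
    rw [Set.Finite.coe_toFinset]
    exact adjoin_genSetF_eq_top N
  have h := helper60.finrank_adjoin_simple_eq_card (K := Kbar) (L := ℂ) (X := XN N) kappa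
    (modularFunctionFieldBar N) (jBar N) (order_jBar_neg N) (genSetF_finite N).toFinset hS
    (fun θ hθ => by
      rw [Set.Finite.coe_toFinset] at hθ
      exact exists_relation_coeffMap N hθ)
    ι hι hιK hιj
  rw [Nat.card_eq_fintype_card]
  exact h

/-- `Stmt_JFinrank` from the local datum at the cusp. -/
theorem stmt_JFinrank_of_localInf (h : Stmt_LocalInf) : Stmt_JFinrank := by
  intro N _
  obtain ⟨Ω, _, _, w, ι, σ, ξ, -, hinj, hy, -⟩ := h N
  refine jFinrank_of_embeddings N (fun x => (ι x : FN N →+* Ω)) ?_ ?_ ?_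
  · intro x y hxy
    apply hinj
    exact AlgHom.coe_ringHom_injective hxy
  · intro x y a
    show ι x (algebraMap Kbar (FN N) a) = ι y (algebraMap Kbar (FN N) a)
    rw [AlgHom.commutes, AlgHom.commutes]
  · intro x y
    show ι x (jBar N) = ι y (jBar N)
    have hx := hy x
    have hy' := hy y
    rw [map_inv₀] at hx hy'
    exact inv_injective (hx.trans hy'.symm)

/-- `Stmt_JFinrank` from the local datum at a generic point. -/
theorem stmt_JFinrank_of_localGeneric (h : Stmt_LocalGeneric) : Stmt_JFinrank := by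
  intro N _
  obtain ⟨Ω, _, _, w, ι, σ, ξ, -, hinj, hy, -⟩ := h N 1 one_ne_zero (by norm_num)
  refine jFinrank_of_embeddings N (fun x => (ι x : FN N →+* Ω)) ?_ ?_ ?_
  · intro x y hxy
    apply hinj
    exact AlgHom.coe_ringHom_injective hxy
  · intro x y a
    show ι x (algebraMap Kbar (FN N) a) = ι y (algebraMap Kbar (FN N) a)
    rw [AlgHom.commutes, AlgHom.commutes]
  · intro x y
    show ι x (jBar N) = ι y (jBar N)
    have hx := hy x
    have hy' := hy y
    rw [map_sub, AlgHom.commutes] at hx hy'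
    exact sub_left_injective (hx.trans hy'.symm)

end

end Fermat.Agent.S24.helper1944
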