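import Mathlib
import Fermat.Prelude.Def_AlgebraicCurve_DivisorClassGroup

/-!
# Places of a function field of one variable over an algebraically closed field

Generic function-field algebra for the Prelude's `AlgebraicCurve.Place` framework
(S24, module FF-A1/A2/A3).  `K` is an algebraically closed field, `F` a field over `K`,
`x : F` transcendental with `F` finite over `K(x)`.

Main results (namespace `Fermat.Agent.S24.helper483`):
* `place_deg_eq_one`        : every place has degree one (residue field is `K`);
* `place_center`            : every place is a pole of `x` or lies over a unique `c : K`;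
* `exists_finset_zeros`     : the zeros of `x - c` form a finite set, orders sum to `[F : K(x)]`;
* `exists_finset_poles`     : the poles of `x` form a finite set, orders sum to `[F : K(x)]`;
* `hasPrincipalDivisors`    : principal divisors exist and have degree zero.
-/

set_option autoImplicit false
set_option linter.unusedVariables false

noncomputable section

namespace Fermat.Agent.S24.helper483

open AlgebraicCurve IsDedekindDomain WithZero Polynomial IntermediateField

section Generic
variable {K F : Type*} [Field K] [Field F] [Algebra K F]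

theorem adicValuation_le_one_of_mem (v : Place K F) {f : F} (hf : f ∈ v.toValuationSubring) :
    v.adicValuation f ≤ 1 := by
  have := v.adicValuation_coe ⟨f, hf⟩
  rw [show ((⟨f, hf⟩ : v.toValuationSubring) : F) = f from rfl] at this
  rw [this]
  exact HeightOneSpectrum.intValuation_le_one _ _

/-- Elements of the valuation ring have nonnegative order. -/
theorem ord_nonneg_of_mem (v : Place K F) {f : F} (hf : f ∈ v.toValuationSubring) :
    0 ≤ v.ord f := by
  rcases eq_or_ne f 0 with rfl | hf0
  · simp
  have h1 := adicValuation_le_one_of_mem v hf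
  have h2 : WithZero.log (v.adicValuation f) ≤ 0 := by
    rw [WithZero.log_le_iff_le_exp (v.adicValuation_ne_zero hf0)]
    simpa using h1
  rw [Place.ord]; omega

/-- Elements of nonnegative order lie in the valuation ring. -/
theorem mem_of_ord_nonneg (v : Place K F) {f : F} (hf : 0 ≤ v.ord f) :
    f ∈ v.toValuationSubring := by
  rcases eq_or_ne f 0 with rfl | hf0
  · exact zero_mem _
  obtain ⟨π, hπ⟩ := IsDiscreteValuationRing.exists_irreducible v.toValuationSubring
  obtain ⟨u, hu⟩ := v.exists_unit_mul_zpow hf0 hπ
  rw [hu]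
  obtain ⟨n, hn⟩ := Int.eq_ofNat_of_zero_le hf
  rw [hn, zpow_natCast]
  exact mul_mem (u : v.toValuationSubring).2 (pow_mem π.2 n)
end Generic

section Exchange

variable {K F : Type*} [Field K] [Field F] [Algebra K F]

open scoped IntermediateField.algebraAdjoinAdjoin in
/-- **Exchange lemma.** If `F` is algebraic over `K(x)` and `z` is transcendental over `K`,
then `F` is algebraic over `K(z)`. -/
theorem isAlgebraic_adjoin_simple_of_transcendental (x : F) [Algebra.IsAlgebraic K⟮x⟯ F]
    {z : F} (hz : Transcendental K z) : Algebra.IsAlgebraic K⟮z⟯ F := by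
  have h1 : Algebra.IsAlgebraic (Algebra.adjoin K {x}) F :=
    Algebra.IsAlgebraic.trans (Algebra.adjoin K {x}) K⟮x⟯ F
  have h2 : Algebra.trdeg K F ≤ Cardinal.mk ({x} : Set F) :=
    Algebra.IsAlgebraic.trdeg_le_cardinalMk K {x}
  have h3 : AlgebraicIndependent K (fun _ : PUnit => z) :=
    (algebraicIndependent_unique_type_iff (ι := PUnit) (x := fun _ : PUnit => z)).mpr hz
  have h4 : IsTranscendenceBasis K (fun _ : PUnit => z) :=
    h3.isTranscendenceBasis_of_trdeg_le_of_finite (by simpa using h2)
  have h5 := h4.isAlgebraic_field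
  rwa [Set.range_const] at h5

/-- If `F` is finite over `K(x)` and `z` is transcendental over `K`, then `F` is finite
over `K(z)`. -/
theorem finiteDimensional_adjoin_simple_of_transcendental (x : F) [FiniteDimensional K⟮x⟯ F]
    {z : F} (hz : Transcendental K z) : FiniteDimensional K⟮z⟯ F := by
  have halg : Algebra.IsAlgebraic K⟮z⟯ F := isAlgebraic_adjoin_simple_of_transcendental x hz
  have h1 : Algebra.EssFiniteType K K⟮x⟯ :=
    IntermediateField.essFiniteType_iff.mpr (IntermediateField.fg_adjoin_of_finite (Set.finite_singleton x))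
  have h2 : Algebra.EssFiniteType K F := Algebra.EssFiniteType.comp K K⟮x⟯ F
  have h3 : Algebra.EssFiniteType K⟮z⟯ F := Algebra.EssFiniteType.of_comp K K⟮z⟯ F
  exact Algebra.finite_of_essFiniteType_of_isAlgebraic

end Exchange

section Center

variable {K F : Type*} [Field K] [Field F] [Algebra K F]

theorem mem_iff_adicValuation_le_one (v : Place K F) {f : F} :
    f ∈ v.toValuationSubring ↔ v.adicValuation f ≤ 1 := by
  refine ⟨adicValuation_le_one_of_mem v, fun h => ?_⟩
  rcases eq_or_ne f 0 with rfl | hf0
  · exact zero_mem _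
  apply mem_of_ord_nonneg
  rw [Place.ord, neg_nonneg, WithZero.log_le_iff_le_exp (v.adicValuation_ne_zero hf0)]
  simpa using h

theorem ord_pos_iff_adicValuation_lt_one (v : Place K F) {f : F} (hf : f ≠ 0) :
    0 < v.ord f ↔ v.adicValuation f < 1 := by
  rw [Place.ord, neg_pos, WithZero.log_lt_iff_lt_exp (v.adicValuation_ne_zero hf),
    WithZero.exp_zero]

theorem adicValuation_algebraMap (v : Place K F) {a : K} (ha : a ≠ 0) :
    v.adicValuation (algebraMap K F a) = 1 := by
  have h1 := adicValuation_le_one_of_mem v (v.algebraMap_mem' a)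
  have h2 := adicValuation_le_one_of_mem v (v.algebraMap_mem' a⁻¹)
  have h3 : v.adicValuation (algebraMap K F a) * v.adicValuation (algebraMap K F a⁻¹) = 1 := by
    rw [← map_mul, ← map_mul, mul_inv_cancel₀ ha, map_one, map_one]
  refine le_antisymm h1 ?_
  by_contra hlt
  rw [not_le] at hlt
  have : v.adicValuation (algebraMap K F a) * v.adicValuation (algebraMap K F a⁻¹) < 1 := by
    calc _ ≤ v.adicValuation (algebraMap K F a) * 1 := by gcongr
      _ < 1 := by simpa using hlt
  exact absurd h3 (ne_of_lt this)

theorem ord_algebraMap (v : Place K F) (a : K) : v.ord (algebraMap K F a) = 0 := by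
  rcases eq_or_ne a 0 with rfl | ha
  · simp
  · rw [Place.ord, adicValuation_algebraMap v ha]; simp

theorem aeval_mem (v : Place K F) {z : F} (hz : z ∈ v.toValuationSubring) (g : K[X]) :
    aeval z g ∈ v.toValuationSubring := by
  rw [Polynomial.aeval_eq_sum_range]
  refine sum_mem fun i _ => ?_
  rw [Algebra.smul_def]
  exact mul_mem (v.algebraMap_mem' _) (pow_mem hz i)


/-- The valuation ring of a place contains everything integral over a subring it contains. -/
theorem integral_mem_of_mem {A : Type*} [CommRing A] [Algebra A F] (v : Place K F)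
    (hA : ∀ a : A, algebraMap A F a ∈ v.toValuationSubring) {b : F} (hb : IsIntegral A b) :
    b ∈ v.toValuationSubring := by
  let φ : A →+* v.toValuationSubring :=
    (algebraMap A F).codRestrict v.toValuationSubring.toSubring hA
  let _ : Algebra A v.toValuationSubring := φ.toAlgebra
  have : IsScalarTower A v.toValuationSubring F := IsScalarTower.of_algebraMap_eq fun r => rfl
  have hb' : IsIntegral v.toValuationSubring b := hb.tower_top
  obtain ⟨c, hc⟩ := (IsIntegrallyClosed.isIntegral_iff (R := v.toValuationSubring) (K := F)).mp hb'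
  rw [← hc]
  exact c.2

/-- If `z ∈ O_v` and `F` is algebraic over `K(z)`, some nonzero polynomial in `z` has positive
order at `v` (or vanishes). -/
theorem exists_polynomial_adicValuation_lt_one (v : Place K F) {z : F}
    (hz : z ∈ v.toValuationSubring) [Algebra.IsAlgebraic K⟮z⟯ F] :
    ∃ g : K[X], g ≠ 0 ∧ v.adicValuation (aeval z g) < 1 := by
  by_contra hcon
  push Not at hcon
  apply v.ne_top'
  rw [eq_top_iff]
  intro b _
  have hA : ∀ a : K⟮z⟯, algebraMap K⟮z⟯ F a ∈ v.toValuationSubring := by
    rintro ⟨w, hw⟩
    obtain ⟨r, s, rfl⟩ := (IntermediateField.mem_adjoin_simple_iff K w).mp hw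
    show aeval z r / aeval z s ∈ v.toValuationSubring
    rcases eq_or_ne (aeval z s) 0 with h0 | h0
    · rw [h0, div_zero]; exact zero_mem _
    · have hs : s ≠ 0 := by rintro rfl; simp at h0
      rw [mem_iff_adicValuation_le_one, map_div₀]
      have h1 := hcon s hs
      have h2 := adicValuation_le_one_of_mem v (aeval_mem v hz r)
      have h3 : v.adicValuation (aeval z s) ≠ 0 := v.adicValuation_ne_zero h0
      rw [div_le_one₀ (zero_lt_iff.mpr h3)]
      exact h2.trans h1
  exact integral_mem_of_mem v hA (Algebra.IsIntegral.isIntegral (R := K⟮z⟯) b)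

/-- **Centre of a place.** If `z ∈ O_v` and `F` is algebraic over `K(z)`, `K` algebraically
closed, then `z - c` lies in the maximal ideal for some `c : K`. -/
theorem exists_adicValuation_sub_lt_one [IsAlgClosed K] (v : Place K F) {z : F}
    (hz : z ∈ v.toValuationSubring) [Algebra.IsAlgebraic K⟮z⟯ F] :
    ∃ c : K, v.adicValuation (z - algebraMap K F c) < 1 := by
  obtain ⟨g, hg0, hg⟩ := exists_polynomial_adicValuation_lt_one v hz
  have hsplit := IsAlgClosed.splits g
  have hprod := hsplit.eq_prod_roots
  have hlc : g.leadingCoeff ≠ 0 := Polynomial.leadingCoeff_ne_zero.mpr hg0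
  by_contra hcon
  push Not at hcon
  have hone : ∀ c : K, v.adicValuation (z - algebraMap K F c) = 1 := fun c =>
    le_antisymm (adicValuation_le_one_of_mem v (sub_mem hz (v.algebraMap_mem' c))) (hcon c)
  have hval : v.adicValuation (aeval z g) = 1 := by
    conv_lhs => rw [hprod]
    rw [map_mul, aeval_C, map_mul, adicValuation_algebraMap v hlc, one_mul, map_multiset_prod,
      map_multiset_prod]
    apply Multiset.prod_eq_one
    intro y hy
    obtain ⟨y1, hy1, rfl⟩ := Multiset.mem_map.mp hy
    obtain ⟨y2, hy2, rfl⟩ := Multiset.mem_map.mp hy1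
    obtain ⟨c, -, rfl⟩ := Multiset.mem_map.mp hy2
    simpa using hone c
  rw [hval] at hg
  exact lt_irrefl _ hg

theorem exists_algebraMap_eq_of_isAlgebraic [IsAlgClosed K] {z : F} (hz : IsAlgebraic K z) :
    ∃ c : K, algebraMap K F c = z := by
  have hint : IsIntegral K z := hz.isIntegral
  have hirr := minpoly.irreducible hint
  have hdeg := IsAlgClosed.degree_eq_one_of_irreducible K hirr
  exact minpoly.mem_range_of_degree_eq_one K z hdeg

/-- Every element of the valuation ring of a place is congruent to a constant. -/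
theorem exists_sub_mem_maximalIdeal [IsAlgClosed K] (x : F) [Algebra.IsAlgebraic K⟮x⟯ F]
    (v : Place K F) (z : v.toValuationSubring) :
    ∃ c : K, z - algebraMap K v.toValuationSubring c ∈
      IsLocalRing.maximalIdeal v.toValuationSubring := by
  by_cases hz : Transcendental K (z : F)
  · have := isAlgebraic_adjoin_simple_of_transcendental x hz
    obtain ⟨c, hc⟩ := exists_adicValuation_sub_lt_one v z.2
    refine ⟨c, ?_⟩
    have h1 := v.adicValuation_coe (z - algebraMap K v.toValuationSubring c)
    rw [show ((z - algebraMap K v.toValuationSubring c : v.toValuationSubring) : F) =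
      (z : F) - algebraMap K F c from rfl] at h1
    rw [h1, HeightOneSpectrum.intValuation_lt_one_iff_mem, Place.heightOneSpectrum_asIdeal] at hc
    exact hc
  · rw [Transcendental, not_not] at hz
    obtain ⟨c, hc⟩ := exists_algebraMap_eq_of_isAlgebraic hz
    refine ⟨c, ?_⟩
    have : z - algebraMap K v.toValuationSubring c = 0 := by
      apply Subtype.ext
      show (z : F) - algebraMap K F c = 0
      rw [hc, sub_self]
    rw [this]
    exact zero_mem _

/-- The residue field of every place is `K`. -/
theorem algebraMap_residueField_surjective [IsAlgClosed K] (x : F) [Algebra.IsAlgebraic K⟮x⟯ F]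
    (v : Place K F) : Function.Surjective (algebraMap K v.ResidueField) := by
  intro r
  obtain ⟨z, rfl⟩ := IsLocalRing.residue_surjective r
  obtain ⟨c, hc⟩ := exists_sub_mem_maximalIdeal x v z
  refine ⟨c, ?_⟩
  rw [IsScalarTower.algebraMap_apply K v.toValuationSubring v.ResidueField]
  have h := (IsLocalRing.residue_eq_zero_iff _).mpr hc
  rw [map_sub, sub_eq_zero] at h
  exact h.symm

theorem algebraMap_residueField_bijective [IsAlgClosed K] (x : F) [Algebra.IsAlgebraic K⟮x⟯ F]
    (v : Place K F) : Function.Bijective (algebraMap K v.ResidueField) :=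
  ⟨(algebraMap K v.ResidueField).injective, algebraMap_residueField_surjective x v⟩

/-- Every place has degree one (general form: `F` algebraic over `K(x)`). -/
theorem place_deg_eq_one_of_isAlgebraic [IsAlgClosed K] (x : F) [Algebra.IsAlgebraic K⟮x⟯ F]
    (v : Place K F) : v.deg = 1 := by
  have := (LinearEquiv.ofBijective (Algebra.linearMap K v.ResidueField)
    (algebraMap_residueField_bijective x v)).finrank_eq
  rw [Place.deg, ← this, Module.finrank_self]

theorem ord_sub_algebraMap_pos_unique (v : Place K F) {x : F} {c c' : K}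
    (hc : 0 < v.ord (x - algebraMap K F c)) (hc' : 0 < v.ord (x - algebraMap K F c')) :
    c = c' := by
  by_contra hne
  have h0 : x - algebraMap K F c ≠ 0 := by rintro h; rw [h] at hc; simp at hc
  have h0' : x - algebraMap K F c' ≠ 0 := by rintro h; rw [h] at hc'; simp at hc'
  rw [ord_pos_iff_adicValuation_lt_one v h0] at hc
  rw [ord_pos_iff_adicValuation_lt_one v h0'] at hc'
  have h1 : algebraMap K F (c' - c) = (x - algebraMap K F c) - (x - algebraMap K F c') := by
    rw [map_sub]; ring
  have h2 : v.adicValuation (algebraMap K F (c' - c)) = 1 :=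
    adicValuation_algebraMap v (sub_ne_zero.mpr (Ne.symm hne))
  rw [h1] at h2
  have h3 := Valuation.map_sub v.adicValuation (x - algebraMap K F c) (x - algebraMap K F c')
  rw [h2] at h3
  exact absurd h3 (not_le.mpr (max_lt hc hc'))

theorem ord_nonneg_of_ord_sub_algebraMap_pos (v : Place K F) {x : F} {c : K}
    (hc : 0 < v.ord (x - algebraMap K F c)) : 0 ≤ v.ord x := by
  apply ord_nonneg_of_mem
  have h1 := mem_of_ord_nonneg v hc.le
  have h2 := add_mem h1 (v.algebraMap_mem' c)
  simpa using h2

/-- Every place is a pole of `x` or lies over a unique `c : K` (general form). -/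
theorem place_center_of_isAlgebraic [IsAlgClosed K] (x : F) (hx : Transcendental K x)
    [Algebra.IsAlgebraic K⟮x⟯ F] (v : Place K F) :
    v.ord x < 0 ∨ ∃! c : K, 0 < v.ord (x - algebraMap K F c) := by
  by_cases h : v.ord x < 0
  · exact Or.inl h
  · right
    rw [not_lt] at h
    obtain ⟨c, hc⟩ := exists_adicValuation_sub_lt_one v (mem_of_ord_nonneg v h)
    have h0 : x - algebraMap K F c ≠ 0 := by
      intro h0
      apply hx
      rw [sub_eq_zero] at h0
      rw [h0]
      exact isAlgebraic_algebraMap c
    refine ⟨c, (ord_pos_iff_adicValuation_lt_one v h0).mpr hc, fun c' hc' => ?_⟩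
    exact ord_sub_algebraMap_pos_unique v hc' ((ord_pos_iff_adicValuation_lt_one v h0).mpr hc)

end Center

section OfHeightOne

variable {K F : Type*} [Field K] [Field F] [Algebra K F]
variable {R : Type*} [CommRing R] [IsDedekindDomain R] [Algebra R F] [IsFractionRing R F]
variable [Algebra K R] [IsScalarTower K R F]

theorem adicValuation_eq_exp_neg_ord (v : Place K F) {f : F} (hf : f ≠ 0) :
    v.adicValuation f = WithZero.exp (-(v.ord f)) := by
  rw [Place.ord, neg_neg, WithZero.exp_log (v.adicValuation_ne_zero hf)]

variable (K) in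
/-- The place of `F` attached to a height-one prime of a Dedekind domain with fraction field `F`. -/
abbrev plc (P : HeightOneSpectrum R) : Place K F := Place.ofHeightOneSpectrum (K := K) (F := F) P

theorem mem_plc_iff (P : HeightOneSpectrum R) (z : F) :
    z ∈ (plc K P : Place K F).toValuationSubring ↔ P.valuation F z ≤ 1 :=
  Iff.rfl

theorem valuation_unit_eq_one (P : HeightOneSpectrum R)
    (u : ((plc K P : Place K F).toValuationSubring)ˣ) :
    P.valuation F ((u : (plc K P : Place K F).toValuationSubring) : F) = 1 := by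
  have h1 : P.valuation F ((u : (plc K P : Place K F).toValuationSubring) : F) ≤ 1 :=
    (mem_plc_iff P _).mp (u : (plc K P : Place K F).toValuationSubring).2
  have h2 : P.valuation F (((u⁻¹ : ((plc K P : Place K F).toValuationSubring)ˣ) :
      (plc K P : Place K F).toValuationSubring) : F) ≤ 1 :=
    (mem_plc_iff P _).mp ((u⁻¹ : ((plc K P : Place K F).toValuationSubring)ˣ) :
      (plc K P : Place K F).toValuationSubring).2
  have h3 : ((u : (plc K P : Place K F).toValuationSubring) : F) *
      (((u⁻¹ : ((plc K P : Place K F).toValuationSubring)ˣ) :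
        (plc K P : Place K F).toValuationSubring) : F) = 1 :=
    congrArg (Subtype.val) (u.mul_inv)
  have h4 := congrArg (P.valuation F) h3
  rw [map_mul, map_one] at h4
  refine le_antisymm h1 ?_
  by_contra hlt
  rw [not_le] at hlt
  have : P.valuation F ((u : (plc K P : Place K F).toValuationSubring) : F) *
      P.valuation F (((u⁻¹ : ((plc K P : Place K F).toValuationSubring)ˣ) :
        (plc K P : Place K F).toValuationSubring) : F) < 1 := by
    calc _ ≤ P.valuation F ((u : (plc K P : Place K F).toValuationSubring) : F) * 1 := by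
          gcongr
      _ < 1 := by simpa using hlt
  exact absurd h4 (ne_of_lt this)

theorem valuation_irreducible_eq (P : HeightOneSpectrum R)
    {π : (plc K P : Place K F).toValuationSubring} (hπ : Irreducible π) :
    P.valuation F (π : F) = WithZero.exp (-1 : ℤ) := by
  have hπ0 : (π : F) ≠ 0 := by
    intro h
    exact hπ.ne_zero (Subtype.ext h)
  have hle : P.valuation F (π : F) ≤ 1 := (mem_plc_iff P _).mp π.2
  have hlt : P.valuation F (π : F) < 1 := by
    refine lt_of_le_of_ne hle fun h1 => hπ.not_isUnit ?_
    have hinv : (π : F)⁻¹ ∈ (plc K P : Place K F).toValuationSubring := by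
      rw [mem_plc_iff, map_inv₀, h1, inv_one]
    exact IsUnit.of_mul_eq_one ⟨(π : F)⁻¹, hinv⟩ (Subtype.ext (mul_inv_cancel₀ hπ0))
  obtain ⟨ϖ, hϖ⟩ := P.valuation_exists_uniformizer F
  have hϖmem : ϖ ∈ (plc K P : Place K F).toValuationSubring := by
    rw [mem_plc_iff, hϖ, ← WithZero.exp_zero, WithZero.exp_le_exp]
    norm_num
  have hnu : ¬ IsUnit (⟨ϖ, hϖmem⟩ : (plc K P : Place K F).toValuationSubring) := by
    intro hu
    have h := valuation_unit_eq_one P hu.unit
    rw [IsUnit.unit_spec] at h
    change P.valuation F ϖ = 1 at h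
    rw [hϖ, ← WithZero.exp_zero, WithZero.exp_inj] at h
    norm_num at h
  have hmem : (⟨ϖ, hϖmem⟩ : (plc K P : Place K F).toValuationSubring) ∈
      IsLocalRing.maximalIdeal _ := hnu
  rw [hπ.maximalIdeal_eq, Ideal.mem_span_singleton] at hmem
  obtain ⟨w, hw⟩ := hmem
  have hw' : ϖ = (π : F) * (w : F) := congrArg Subtype.val hw
  have hwle : P.valuation F (w : F) ≤ 1 := (mem_plc_iff P _).mp w.2
  have h5 : WithZero.exp (-1 : ℤ) ≤ P.valuation F (π : F) := by
    rw [← hϖ, hw', map_mul]
    exact mul_le_of_le_one_right' hwle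
  have hne : P.valuation F (π : F) ≠ 0 := (Valuation.ne_zero_iff _).mpr hπ0
  rw [← WithZero.exp_log hne] at h5 hlt ⊢
  rw [WithZero.exp_le_exp] at h5
  rw [← WithZero.exp_zero, WithZero.exp_lt_exp] at hlt
  congr 1
  omega

/-- The normalised valuation of the place attached to a height-one prime is the adic valuation. -/
theorem adicValuation_plc (P : HeightOneSpectrum R) (f : F) :
    (plc K P : Place K F).adicValuation f = P.valuation F f := by
  rcases eq_or_ne f 0 with rfl | hf
  · simp
  obtain ⟨π, hπ⟩ := IsDiscreteValuationRing.exists_irreducible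
    (plc K P : Place K F).toValuationSubring
  obtain ⟨u, hu⟩ := (plc K P : Place K F).exists_unit_mul_zpow hf hπ
  rw [adicValuation_eq_exp_neg_ord _ hf]
  conv_rhs => rw [hu]
  rw [map_mul, map_zpow₀, valuation_unit_eq_one P u, valuation_irreducible_eq P hπ, one_mul,
    ← WithZero.exp_zsmul]
  simp

theorem ord_plc (P : HeightOneSpectrum R) (f : F) :
    (plc K P : Place K F).ord f = -(WithZero.log (P.valuation F f)) := by
  rw [Place.ord, adicValuation_plc]


theorem ord_plc_algebraMap_nonneg (P : HeightOneSpectrum R) (r : R) :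
    0 ≤ (plc K P : Place K F).ord (algebraMap R F r) :=
  ord_nonneg_of_mem _ ((mem_plc_iff P _).mpr (P.valuation_le_one r))

theorem mem_asIdeal_iff_ord_plc_pos (P : HeightOneSpectrum R) {r : R} (hr : r ≠ 0) :
    r ∈ P.asIdeal ↔ 0 < (plc K P : Place K F).ord (algebraMap R F r) := by
  have hr' : algebraMap R F r ≠ 0 := by
    simpa using (IsFractionRing.injective R F).ne hr
  rw [ord_plc, neg_pos, WithZero.log_lt_iff_lt_exp ((Valuation.ne_zero_iff _).mpr hr'),
    WithZero.exp_zero, HeightOneSpectrum.valuation_lt_one_iff_mem]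

theorem plc_injective :
    Function.Injective (plc K : HeightOneSpectrum R → Place K F) := by
  intro P Q h
  apply HeightOneSpectrum.ext
  ext r
  rcases eq_or_ne r 0 with rfl | hr
  · simp
  rw [mem_asIdeal_iff_ord_plc_pos (K := K) (F := F) P hr,
    mem_asIdeal_iff_ord_plc_pos (K := K) (F := F) Q hr, h]

/-- A place whose valuation ring contains the Dedekind domain `R` (with fraction field `F`)
comes from a height-one prime of `R`. -/
theorem exists_plc_eq (v : Place K F)
    (hv : ∀ r : R, algebraMap R F r ∈ v.toValuationSubring) :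
    ∃ P : HeightOneSpectrum R, plc K P = v := by
  let φ : R →+* v.toValuationSubring := (algebraMap R F).codRestrict v.toValuationSubring.toSubring hv
  have hφ : ∀ r, ((φ r : v.toValuationSubring) : F) = algebraMap R F r := fun r => rfl
  let P0 : Ideal R := (IsLocalRing.maximalIdeal v.toValuationSubring).comap φ
  have hP0prime : P0.IsPrime := Ideal.comap_isPrime φ _
  have hP0ne : P0 ≠ ⊥ := by
    intro hbot
    apply v.ne_top'
    rw [eq_top_iff]
    intro z _
    obtain ⟨a, b, hb, rfl⟩ := IsFractionRing.div_surjective (A := R) z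
    have hb0 : b ≠ 0 := nonZeroDivisors.ne_zero hb
    have hbu : IsUnit (φ b) := by
      by_contra hnu
      have : b ∈ P0 := hnu
      rw [hbot] at this
      exact hb0 (by simpa using this)
    obtain ⟨u, hu⟩ := hbu
    have : algebraMap R F a / algebraMap R F b =
        ((φ a * ((u⁻¹ : (v.toValuationSubring)ˣ) : v.toValuationSubring) :
          v.toValuationSubring) : F) := by
      have h1 : ((u : v.toValuationSubring) : F) *
          (((u⁻¹ : (v.toValuationSubring)ˣ) : v.toValuationSubring) : F) = 1 :=
        congrArg Subtype.val u.mul_inv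
      rw [hu, hφ] at h1
      have hb' : algebraMap R F b ≠ 0 := by
        simpa using (IsFractionRing.injective R F).ne hb0
      rw [div_eq_iff hb']
      push_cast
      rw [hφ, mul_assoc, mul_comm (((u⁻¹ : (v.toValuationSubring)ˣ) : v.toValuationSubring) : F),
        h1, mul_one]
    rw [this]
    exact Subtype.property _
  refine ⟨⟨P0, hP0prime, hP0ne⟩, ?_⟩
  apply Place.ext
  refine ValuationSubring.eq_of_le_of_ne_top _ ?_ v.ne_top'
  intro z hz
  rw [mem_plc_iff] at hz
  obtain ⟨n, d, hnd⟩ := HeightOneSpectrum.exists_primeCompl_mul_eq_of_integer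
    (⟨P0, hP0prime, hP0ne⟩ : HeightOneSpectrum R) z hz
  have hdu : IsUnit (φ (d : R)) := by
    by_contra hnu
    exact d.2 (show (d : R) ∈ P0 from hnu)
  obtain ⟨u, hu⟩ := hdu
  have h1 : ((u : v.toValuationSubring) : F) *
      (((u⁻¹ : (v.toValuationSubring)ˣ) : v.toValuationSubring) : F) = 1 :=
    congrArg Subtype.val u.mul_inv
  rw [hu, hφ] at h1
  have : z = ((φ n * ((u⁻¹ : (v.toValuationSubring)ˣ) : v.toValuationSubring) :
      v.toValuationSubring) : F) := by
    push_cast
    rw [hφ, ← hnd, mul_assoc, h1, mul_one]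
  rw [this]
  exact Subtype.property _

end OfHeightOne

section Core

variable {K F : Type*} [Field K] [Field F] [Algebra K F]

theorem ramificationIdx_eq_ord {B : Type*} [CommRing B] [IsDedekindDomain B] [Algebra K[X] B]
    [Algebra B F] [IsFractionRing B F] [Algebra K[X] F] [IsScalarTower K[X] B F]
    [Algebra K B] [IsScalarTower K B F]
    (hX : algebraMap K[X] F X ≠ 0) (P : HeightOneSpectrum B) :
    (Ideal.ramificationIdx' (Ideal.span {(X : K[X])}) P.asIdeal : ℤ) =
      (plc K P : Place K F).ord (algebraMap K[X] F X) := by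
  have hyB : algebraMap K[X] B X ≠ 0 := by
    intro h
    apply hX
    rw [IsScalarTower.algebraMap_apply K[X] B F, h, map_zero]
  have hnn : 0 ≤ (plc K P : Place K F).ord (algebraMap K[X] F X) := by
    rw [IsScalarTower.algebraMap_apply K[X] B F]
    exact ord_plc_algebraMap_nonneg P _
  obtain ⟨n, hn⟩ := Int.eq_ofNat_of_zero_le hnn
  have hval : P.intValuation (algebraMap K[X] B X) = WithZero.exp (-(n : ℤ)) := by
    have h1 := ord_plc (K := K) (F := F) P (algebraMap K[X] F X)
    rw [hn, IsScalarTower.algebraMap_apply K[X] B F, HeightOneSpectrum.valuation_of_algebraMap] at h1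
    have hne : P.intValuation (algebraMap K[X] B X) ≠ 0 := P.intValuation_ne_zero _ hyB
    rw [← WithZero.exp_log hne]
    congr 1
    omega
  have hmap : Ideal.map (algebraMap K[X] B) (Ideal.span {(X : K[X])}) =
      Ideal.span {algebraMap K[X] B X} := by
    rw [Ideal.map_span, Set.image_singleton]
  rw [hn]
  congr 1
  apply Ideal.ramificationIdx'_spec
  · rw [hmap, Ideal.span_singleton_le_iff_mem, ← HeightOneSpectrum.intValuation_le_pow_iff_mem, hval]
  · rw [hmap, Ideal.span_singleton_le_iff_mem, ← HeightOneSpectrum.intValuation_le_pow_iff_mem, hval,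
      WithZero.exp_le_exp]
    push_cast
    omega

theorem charZero_of_isFractionRing_polynomial (K L : Type*) [Field K] [CharZero K] [Field L]
    [Algebra K[X] L] [IsFractionRing K[X] L] : CharZero L :=
  charZero_of_injective_ringHom (f := (algebraMap K[X] L).comp (C : K →+* K[X]))
    ((IsFractionRing.injective K[X] L).comp Polynomial.C_injective)

theorem span_X_isMaximal (K : Type*) [Field K] : (Ideal.span {(X : K[X])}).IsMaximal :=
  PrincipalIdealRing.isMaximal_of_irreducible Polynomial.irreducible_X

theorem span_X_ne_bot (K : Type*) [Field K] : (Ideal.span {(X : K[X])}) ≠ ⊥ := by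
  rw [Ne, Ideal.span_singleton_eq_bot]
  exact Polynomial.X_ne_zero

attribute [local instance] Ideal.Quotient.field

theorem isAlgClosed_quot_span_X (K : Type*) [Field K] [IsAlgClosed K] :
    have := span_X_isMaximal K
    IsAlgClosed (K[X] ⧸ (Ideal.span {(X : K[X])})) := by
  have := span_X_isMaximal K
  have h : (Ideal.span {(X : K[X]) - C 0}) = Ideal.span {(X : K[X])} := by simp
  exact IsAlgClosed.of_ringEquiv K _
    ((Polynomial.quotientSpanXSubCAlgEquiv (0 : K)).symm.toRingEquiv.trans (Ideal.quotEquivOfEq h))

theorem inertiaDeg_eq_one {K : Type*} [Field K] [IsAlgClosed K] {B : Type*} [CommRing B]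
    [Algebra K[X] B] [Module.Finite K[X] B]
    (P : Ideal B) [P.IsMaximal] [P.LiesOver (Ideal.span {(X : K[X])})] :
    Ideal.inertiaDeg' (Ideal.span {(X : K[X])}) P = 1 := by
  have := span_X_isMaximal K
  have := isAlgClosed_quot_span_X K
  rw [Ideal.inertiaDeg'_algebraMap]
  have hbij : Function.Bijective (algebraMap (K[X] ⧸ (Ideal.span {(X : K[X])})) (B ⧸ P)) :=
    IsAlgClosed.algebraMap_bijective_of_isIntegral
  have := (LinearEquiv.ofBijective (Algebra.linearMap (K[X] ⧸ (Ideal.span {(X : K[X])})) (B ⧸ P))
    hbij).finrank_eq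
  rw [← this, Module.finrank_self]


theorem algebraMap_polynomial_eq_aeval {K F : Type*} [Field K] [Field F] [Algebra K F]
    [Algebra K[X] F] [IsScalarTower K K[X] F] (q : K[X]) :
    algebraMap K[X] F q = Polynomial.aeval (algebraMap K[X] F X) q := by
  have h : (IsScalarTower.toAlgHom K K[X] F) = Polynomial.aeval (algebraMap K[X] F X) := by
    apply Polynomial.algHom_ext
    simp
  exact congrArg (fun φ : K[X] →ₐ[K] F => φ q) h

/-- If `K` and `y` lie in the valuation ring of a place, so does every polynomial in `y`. -/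
theorem algebraMap_polynomial_mem {K F : Type*} [Field K] [Field F] [Algebra K F]
    [Algebra K[X] F] [IsScalarTower K K[X] F] (v : Place K F)
    (hy : algebraMap K[X] F X ∈ v.toValuationSubring) (q : K[X]) :
    algebraMap K[X] F q ∈ v.toValuationSubring := by
  rw [algebraMap_polynomial_eq_aeval, Polynomial.aeval_eq_sum_range]
  refine sum_mem fun i _ => ?_
  rw [Algebra.smul_def]
  exact mul_mem (v.algebraMap_mem' _) (pow_mem hy i)

/-- **Core fundamental identity.** `F` a `K`-algebra field, finite over a fraction field `L` of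
`K[X]`; with `y` the image of `X`: the places with `0 < ord y` form a finite set and their orders
sum to `[F : L]`. -/
theorem core_zeros {K F : Type*} [Field K] [Field F] [Algebra K F] [IsAlgClosed K] [CharZero K]
    (L : Type*) [Field L] [Algebra K[X] L] [IsFractionRing K[X] L] [Algebra L F]
    [Algebra K[X] F] [IsScalarTower K[X] L F] [IsScalarTower K K[X] F] [FiniteDimensional L F] :
    ∃ s : Finset (Place K F), (∀ v, v ∈ s ↔ 0 < v.ord (algebraMap K[X] F X)) ∧
      ∑ v ∈ s, v.ord (algebraMap K[X] F X) = (Module.finrank L F : ℤ) := by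
  classical
  have : CharZero L := charZero_of_isFractionRing_polynomial K L
  have : Algebra.IsSeparable L F := inferInstance
  have hDed : IsDedekindDomain (integralClosure K[X] F) :=
    integralClosure.isDedekindDomain K[X] L F
  have hFrac : IsFractionRing (integralClosure K[X] F) F :=
    integralClosure.isFractionRing_of_finite_extension L F
  have hFin : Module.Finite K[X] (integralClosure K[X] F) :=
    IsIntegralClosure.finite K[X] L F (integralClosure K[X] F)
  have hmax := span_X_isMaximal K
  have hp0 := span_X_ne_bot K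
  have hinjF : Function.Injective (algebraMap K[X] F) := by
    rw [IsScalarTower.algebraMap_eq K[X] L F]
    exact (algebraMap L F).injective.comp (IsFractionRing.injective K[X] L)
  have hX : algebraMap K[X] F X ≠ 0 := by
    rw [Ne, map_eq_zero_iff _ hinjF]
    exact Polynomial.X_ne_zero
  have hTF : Module.IsTorsionFree K[X] F := Module.isTorsionFree_iff_algebraMap_injective.mpr hinjF
  have hTFB : Module.IsTorsionFree K[X] (integralClosure K[X] F) := inferInstance
  have hsum := Ideal.sum_ramification_inertia (integralClosure K[X] F) L F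
    (p := Ideal.span {(X : K[X])}) hp0
  have hS : ∀ P ∈ IsDedekindDomain.primesOverFinset (Ideal.span {(X : K[X])}) (integralClosure K[X] F),
      P.IsPrime ∧ P.LiesOver (Ideal.span {(X : K[X])}) := fun P hP =>
    (IsDedekindDomain.mem_primesOverFinset_iff hp0 (integralClosure K[X] F)).mp hP
  have hne : ∀ P ∈ IsDedekindDomain.primesOverFinset (Ideal.span {(X : K[X])}) (integralClosure K[X] F),
      P ≠ ⊥ := by
    intro P hP hbot
    have hlo := (hS P hP).2
    have hXmem : (X : K[X]) ∈ Ideal.span {(X : K[X])} := Ideal.mem_span_singleton_self _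
    rw [hlo.over, Ideal.mem_comap, hbot, Ideal.mem_bot] at hXmem
    apply hX
    rw [IsScalarTower.algebraMap_apply K[X] (integralClosure K[X] F) F, hXmem, map_zero]
  let hos : {P // P ∈ IsDedekindDomain.primesOverFinset (Ideal.span {(X : K[X])}) (integralClosure K[X] F)} →
      HeightOneSpectrum (integralClosure K[X] F) :=
    fun P => ⟨P.1, (hS P.1 P.2).1, hne P.1 P.2⟩
  have hos_inj : Function.Injective hos := by
    intro P Q h
    exact Subtype.ext (congrArg HeightOneSpectrum.asIdeal h)
  have hyB : algebraMap K[X] (integralClosure K[X] F) X ≠ 0 := by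
    intro h
    apply hX
    rw [IsScalarTower.algebraMap_apply K[X] (integralClosure K[X] F) F, h, map_zero]
  refine ⟨(IsDedekindDomain.primesOverFinset (Ideal.span {(X : K[X])}) (integralClosure K[X] F)).attach.image
    (fun P => (plc K (hos P) : Place K F)), ?_, ?_⟩
  · intro v
    rw [Finset.mem_image]
    constructor
    · rintro ⟨P, -, rfl⟩
      rw [IsScalarTower.algebraMap_apply K[X] (integralClosure K[X] F) F,
        ← mem_asIdeal_iff_ord_plc_pos (K := K) (F := F) (hos P) hyB]
      have hlo := (hS P.1 P.2).2
      have hXmem : (X : K[X]) ∈ Ideal.span {(X : K[X])} := Ideal.mem_span_singleton_self _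
      rw [hlo.over, Ideal.mem_comap] at hXmem
      exact hXmem
    · intro hv
      have hymem : algebraMap K[X] F X ∈ v.toValuationSubring := mem_of_ord_nonneg v hv.le
      have hB : ∀ b : integralClosure K[X] F,
          algebraMap (integralClosure K[X] F) F b ∈ v.toValuationSubring := fun b =>
        integral_mem_of_mem v (algebraMap_polynomial_mem v hymem) b.2
      obtain ⟨Q, hQ⟩ := exists_plc_eq v hB
      have hyQ : algebraMap K[X] (integralClosure K[X] F) X ∈ Q.asIdeal := by
        rw [mem_asIdeal_iff_ord_plc_pos (K := K) (F := F) Q hyB, hQ,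
          ← IsScalarTower.algebraMap_apply K[X] (integralClosure K[X] F) F]
        exact hv
      have hQlo : Q.asIdeal.LiesOver (Ideal.span {(X : K[X])}) := by
        refine ⟨?_⟩
        have hle : Ideal.span {(X : K[X])} ≤ Q.asIdeal.under K[X] := by
          rw [Ideal.span_singleton_le_iff_mem, Ideal.under_def, Ideal.mem_comap]
          exact hyQ
        have hprime : (Q.asIdeal.under K[X]).IsPrime := Ideal.comap_isPrime _ _
        exact hmax.eq_of_le hprime.ne_top hle
      have hQS : Q.asIdeal ∈ IsDedekindDomain.primesOverFinset (Ideal.span {(X : K[X])}) (integralClosure K[X] F) :=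
        (IsDedekindDomain.mem_primesOverFinset_iff hp0 (integralClosure K[X] F)).mpr ⟨Q.isPrime, hQlo⟩
      refine ⟨⟨Q.asIdeal, hQS⟩, Finset.mem_attach _ _, ?_⟩
      rw [← hQ]
  · have h1 : ∑ v ∈ (IsDedekindDomain.primesOverFinset (Ideal.span {(X : K[X])})
          (integralClosure K[X] F)).attach.image (fun P => (plc K (hos P) : Place K F)),
          v.ord (algebraMap K[X] F X) =
        ∑ P ∈ (IsDedekindDomain.primesOverFinset (Ideal.span {(X : K[X])})
          (integralClosure K[X] F)).attach, (plc K (hos P) : Place K F).ord (algebraMap K[X] F X) :=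
      Finset.sum_image (fun P _ Q _ h => hos_inj (plc_injective h))
    have h2 : ∀ P : {P // P ∈ IsDedekindDomain.primesOverFinset (Ideal.span {(X : K[X])})
          (integralClosure K[X] F)},
        (plc K (hos P) : Place K F).ord (algebraMap K[X] F X) =
          ((Ideal.ramificationIdx' (Ideal.span {(X : K[X])}) P.1 *
            Ideal.inertiaDeg' (Ideal.span {(X : K[X])}) P.1 : ℕ) : ℤ) := by
      intro P
      have hPmax : P.1.IsMaximal := (hS P.1 P.2).1.isMaximal (hne P.1 P.2)
      have hlo := (hS P.1 P.2).2
      rw [inertiaDeg_eq_one P.1, mul_one]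
      exact (ramificationIdx_eq_ord (K := K) (F := F) hX (hos P)).symm
    rw [h1, Finset.sum_congr rfl (fun P _ => h2 P), ← hsum, Nat.cast_sum]
    exact Finset.sum_attach _ (fun P => ((Ideal.ramificationIdx' (Ideal.span {(X : K[X])}) P *
            Ideal.inertiaDeg' (Ideal.span {(X : K[X])}) P : ℕ) : ℤ))

end Core

section Inst

variable {K F : Type*} [Field K] [Field F] [Algebra K F]

/-- Fundamental identity for the zeros of a transcendental `y` with `F` finite over `K(y)`. -/
theorem exists_finset_zeros_self [IsAlgClosed K] [CharZero K] (y : F) (hy : Transcendental K y)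
    [FiniteDimensional K⟮y⟯ F] :
    ∃ s : Finset (Place K F), (∀ v, v ∈ s ↔ 0 < v.ord y) ∧
      ∑ v ∈ s, v.ord y = (Module.finrank K⟮y⟯ F : ℤ) := by
  let algF : Algebra K[X] F := (Polynomial.aeval y).toRingHom.toAlgebra
  have hF : ∀ p : K[X], algebraMap K[X] F p = Polynomial.aeval y p := fun p => rfl
  have : IsScalarTower K K[X] F := IsScalarTower.of_algebraMap_eq (fun c => by
    rw [hF, Polynomial.algebraMap_apply, Polynomial.aeval_C]; simp)
  let algL : Algebra K[X] K⟮y⟯ := (Polynomial.aeval (AdjoinSimple.gen K y)).toRingHom.toAlgebra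
  have hL : ∀ p : K[X], algebraMap K[X] K⟮y⟯ p = Polynomial.aeval (AdjoinSimple.gen K y) p :=
    fun p => rfl
  have hcoe : ∀ p : K[X], ((Polynomial.aeval (AdjoinSimple.gen K y) p : K⟮y⟯) : F) =
      Polynomial.aeval y p := by
    intro p
    exact (IntermediateField.aeval_coe K⟮y⟯ (AdjoinSimple.gen K y) p).symm
  have : IsScalarTower K[X] K⟮y⟯ F := IsScalarTower.of_algebraMap_eq (fun p => by
    rw [hF, hL]; exact (hcoe p).symm)
  have hinj : Function.Injective (algebraMap K[X] K⟮y⟯) := by
    intro p q hpq
    have h1 := congrArg (fun w : K⟮y⟯ => (w : F)) hpq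
    simp only [hL, hcoe] at h1
    exact (transcendental_iff_injective.mp hy) h1
  have : FaithfulSMul K[X] K⟮y⟯ := (faithfulSMul_iff_algebraMap_injective _ _).mpr hinj
  have : IsFractionRing K[X] K⟮y⟯ := IsFractionRing.of_field K[X] K⟮y⟯ (fun z => by
    obtain ⟨r, s, hrs⟩ := (IntermediateField.mem_adjoin_simple_iff K (z : F)).mp z.2
    refine ⟨r, s, Subtype.ext ?_⟩
    rw [hrs]
    push_cast
    rw [hL, hL, hcoe, hcoe])
  obtain ⟨s, hs1, hs2⟩ := core_zeros (K := K) (F := F) K⟮y⟯
  have hXy : algebraMap K[X] F X = y := by rw [hF, Polynomial.aeval_X]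
  rw [hXy] at hs2
  simp only [hXy] at hs1
  exact ⟨s, hs1, hs2⟩


theorem exists_finset_zeros_of_eq [IsAlgClosed K] [CharZero K] (E : IntermediateField K F)
    [FiniteDimensional E F] (y : F) (hy : Transcendental K y) (hE : E = K⟮y⟯) :
    ∃ s : Finset (Place K F), (∀ v, v ∈ s ↔ 0 < v.ord y) ∧
      ∑ v ∈ s, v.ord y = (Module.finrank E F : ℤ) := by
  subst hE
  exact exists_finset_zeros_self y hy

theorem adjoin_sub_algebraMap (x : F) (c : K) : K⟮x - algebraMap K F c⟯ = K⟮x⟯ := by
  apply le_antisymm
  · rw [IntermediateField.adjoin_simple_le_iff]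
    exact sub_mem (IntermediateField.mem_adjoin_simple_self K x) (K⟮x⟯.algebraMap_mem c)
  · rw [IntermediateField.adjoin_simple_le_iff]
    have h := add_mem (IntermediateField.mem_adjoin_simple_self K (x - algebraMap K F c))
      (K⟮x - algebraMap K F c⟯.algebraMap_mem c)
    simpa using h

theorem adjoin_inv (x : F) : K⟮x⁻¹⟯ = K⟮x⟯ := by
  apply le_antisymm
  · rw [IntermediateField.adjoin_simple_le_iff]
    exact inv_mem (IntermediateField.mem_adjoin_simple_self K x)
  · rw [IntermediateField.adjoin_simple_le_iff]
    have h := inv_mem (IntermediateField.mem_adjoin_simple_self K x⁻¹)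
    simpa using h

theorem transcendental_sub_algebraMap {x : F} (hx : Transcendental K x) (c : K) :
    Transcendental K (x - algebraMap K F c) := by
  intro h
  apply hx
  have := h.add (isAlgebraic_algebraMap (R := K) (A := F) c)
  simpa using this

theorem transcendental_inv {x : F} (hx : Transcendental K x) : Transcendental K x⁻¹ := by
  intro h
  apply hx
  have := h.inv
  simpa using this

/-- **A1 (zeros).** The places over `x = c` are finitely many and their ramification indices
sum to `[F : K(x)]`. -/
theorem exists_finset_zeros [IsAlgClosed K] [CharZero K] (x : F) (hx : Transcendental K x)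
    [FiniteDimensional K⟮x⟯ F] (c : K) :
    ∃ s : Finset (Place K F), (∀ v, v ∈ s ↔ 0 < v.ord (x - algebraMap K F c)) ∧
      ∑ v ∈ s, v.ord (x - algebraMap K F c) = Module.finrank K⟮x⟯ F :=
  exists_finset_zeros_of_eq K⟮x⟯ (x - algebraMap K F c) (transcendental_sub_algebraMap hx c)
    (adjoin_sub_algebraMap x c).symm

/-- **A1 (poles).** The poles of `x` are finitely many and their orders sum to `[F : K(x)]`. -/
theorem exists_finset_poles [IsAlgClosed K] [CharZero K] (x : F) (hx : Transcendental K x)
    [FiniteDimensional K⟮x⟯ F] :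
    ∃ s : Finset (Place K F), (∀ v, v ∈ s ↔ v.ord x < 0) ∧
      ∑ v ∈ s, -v.ord x = Module.finrank K⟮x⟯ F := by
  obtain ⟨s, hs1, hs2⟩ := exists_finset_zeros_of_eq K⟮x⟯ x⁻¹ (transcendental_inv hx)
    (adjoin_inv x).symm
  refine ⟨s, fun v => ?_, ?_⟩
  · rw [hs1 v, Place.ord_inv]; omega
  · rw [← hs2]
    exact Finset.sum_congr rfl fun v _ => (v.ord_inv x).symm

/-- **A2.** Every place has degree one. -/
theorem place_deg_eq_one [IsAlgClosed K] [CharZero K] (x : F) (hx : Transcendental K x)
    [FiniteDimensional K⟮x⟯ F] (v : Place K F) : v.deg = 1 :=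
  place_deg_eq_one_of_isAlgebraic x v

/-- **A2.** Every place is a pole of `x` or lies over a unique `c : K`. -/
theorem place_center [IsAlgClosed K] [CharZero K] (x : F) (hx : Transcendental K x)
    [FiniteDimensional K⟮x⟯ F] (v : Place K F) :
    v.ord x < 0 ∨ ∃! c : K, 0 < v.ord (x - algebraMap K F c) :=
  place_center_of_isAlgebraic x hx v

/-- The residue field of every place is `K`. -/
theorem residueField_surjective [IsAlgClosed K] [CharZero K] (x : F) (hx : Transcendental K x)
    [FiniteDimensional K⟮x⟯ F] (v : Place K F) :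
    Function.Surjective (algebraMap K v.ResidueField) :=
  algebraMap_residueField_surjective x v

/-- Principal divisor of a transcendental element: existence and degree zero. -/
theorem exists_divisor_of_transcendental [IsAlgClosed K] [CharZero K] (x : F)
    [FiniteDimensional K⟮x⟯ F] {f : F} (hf : Transcendental K f) :
    ∃ D : Divisor K F, (∀ v : Place K F, D v = v.ord f) ∧ Divisor.degree D = 0 := by
  classical
  have hfin : FiniteDimensional K⟮f⟯ F := finiteDimensional_adjoin_simple_of_transcendental x hf
  obtain ⟨s0, h01, h02⟩ := exists_finset_zeros_of_eq K⟮f⟯ f hf rfl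
  obtain ⟨s1, h11, h12⟩ := exists_finset_zeros_of_eq K⟮f⟯ f⁻¹ (transcendental_inv hf)
    (adjoin_inv f).symm
  have hsupp : ∀ v : Place K F, v.ord f ≠ 0 → v ∈ s0 ∪ s1 := by
    intro v hv
    rw [Finset.mem_union, h01, h11, Place.ord_inv]
    omega
  refine ⟨Finsupp.onFinset (s0 ∪ s1) (fun v => v.ord f) hsupp, fun v => rfl, ?_⟩
  have hdisj : Disjoint s0 s1 := by
    rw [Finset.disjoint_left]
    intro v hv0 hv1
    rw [h01] at hv0
    rw [h11, Place.ord_inv] at hv1
    omega
  have hdeg : ∀ v : Place K F, v.deg = 1 := fun v => place_deg_eq_one_of_isAlgebraic x v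
  have h1 : Divisor.degree (Finsupp.onFinset (s0 ∪ s1) (fun v => v.ord f) hsupp) =
      ∑ v ∈ s0 ∪ s1, v.ord f := by
    rw [Divisor.degree, Finsupp.liftAddHom_apply]
    rw [Finsupp.sum_of_support_subset _ Finsupp.support_onFinset_subset _ (by simp)]
    refine Finset.sum_congr rfl fun v _ => ?_
    simp [hdeg v]
  rw [h1, Finset.sum_union hdisj, h02]
  have h3 : ∑ v ∈ s1, v.ord f = -∑ v ∈ s1, v.ord f⁻¹ := by
    rw [← Finset.sum_neg_distrib]
    exact Finset.sum_congr rfl fun v _ => by rw [Place.ord_inv, neg_neg]
  rw [h3, h12]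
  ring

/-- **A3.** Principal divisors exist and have degree zero. -/
theorem hasPrincipalDivisors [IsAlgClosed K] [CharZero K] (x : F) (hx : Transcendental K x)
    [FiniteDimensional K⟮x⟯ F] : HasPrincipalDivisors K F := by
  refine ⟨fun f hf => ?_⟩
  by_cases hft : Transcendental K f
  · exact exists_divisor_of_transcendental x hft
  · rw [Transcendental, not_not] at hft
    obtain ⟨c, rfl⟩ := exists_algebraMap_eq_of_isAlgebraic hft
    exact ⟨0, fun v => by rw [ord_algebraMap]; rfl, map_zero _⟩

end Inst

end Fermat.Agent.S24.helper483
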