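/-
S24 module FF-A4 (helper4356): Kaehler differentials of a function field in one variable.

For a field `K` of characteristic zero, a field extension `F/K`, an element `x : F`
transcendental over `K` with `F` finite over `K⟮x⟯`:
`Ω[F⁄K]` is one-dimensional over `F`, generated by `D K F x`, and `D K F x ≠ 0`.
-/
import Mathlib

set_option autoImplicit false

open KaehlerDifferential Polynomial IntermediateField TensorProduct

namespace Fermat.Agent.S24.helper4356

section FractionField

variable (K : Type*) [Field K]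
variable (L : Type*) [Field L] [Algebra K L] [Algebra K[X] L] [IsScalarTower K K[X] L]
  [IsFractionRing K[X] L]

/-- For `L` a fraction field of `K[X]`, `Ω[L⁄K]` is spanned by `d X`. -/
theorem span_D_X_of_isFractionRing :
    Submodule.span L {D K L (algebraMap K[X] L X)} = ⊤ := by
  have h := KaehlerDifferential.span_range_map_derivation_of_isLocalization K K[X] L
    (nonZeroDivisors K[X])
  rw [eq_top_iff, ← h, Submodule.span_le]
  rintro _ ⟨P, rfl⟩
  simp only [Function.comp_apply, SetLike.mem_coe]
  rw [KaehlerDifferential.polynomial_D_apply, map_smul, KaehlerDifferential.map_D,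
    ← algebraMap_smul L]
  exact Submodule.smul_mem _ _ (Submodule.subset_span rfl)

/-- For `L` a fraction field of `K[X]`, `d X ≠ 0` in `Ω[L⁄K]`. -/
theorem D_X_ne_zero_of_isFractionRing : D K L (algebraMap K[X] L X) ≠ 0 := by
  intro h0
  have := KaehlerDifferential.isLocalizedModule_map K K[X] L (nonZeroDivisors K[X])
  rw [← KaehlerDifferential.map_D K K K[X] L] at h0
  obtain ⟨s, hs⟩ := (IsLocalizedModule.eq_zero_iff (nonZeroDivisors K[X])
    (KaehlerDifferential.map K K K[X] L)).mp h0
  have h1 := congrArg (KaehlerDifferential.polynomialEquiv K) hs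
  rw [Submonoid.smul_def, map_smul, KaehlerDifferential.polynomialEquiv_D, map_zero,
    derivative_X, smul_eq_mul, mul_one] at h1
  exact nonZeroDivisors.coe_ne_zero s h1

end FractionField

section Simple

variable {K F : Type*} [Field K] [Field F] [Algebra K F] (x : F)

/-- The `K[X]`-algebra structure on `K⟮x⟯` sending `X` to `x`. -/
@[instance_reducible]
noncomputable def polyAlgebra : Algebra K[X] K⟮x⟯ :=
  (aeval (AdjoinSimple.gen K x)).toRingHom.toAlgebra

theorem polyAlgebra_algebraMap_apply (P : K[X]) :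
    let _ := polyAlgebra (K := K) x
    algebraMap K[X] K⟮x⟯ P = aeval (AdjoinSimple.gen K x) P := rfl

theorem polyAlgebra_isScalarTower :
    let _ := polyAlgebra (K := K) x
    IsScalarTower K K[X] K⟮x⟯ := by
  let _ := polyAlgebra (K := K) x
  refine IsScalarTower.of_algebraMap_eq fun a => ?_
  rw [polyAlgebra_algebraMap_apply, Polynomial.algebraMap_apply, Algebra.algebraMap_self_apply,
    aeval_C]

theorem polyAlgebra_isFractionRing (hx : Transcendental K x) :
    let _ := polyAlgebra (K := K) x
    IsFractionRing K[X] K⟮x⟯ := by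
  let _ := polyAlgebra (K := K) x
  have hinj : Function.Injective (algebraMap K[X] K⟮x⟯) := by
    intro P Q hPQ
    have h1 : aeval x P = aeval x Q := by
      have := congrArg (algebraMap K⟮x⟯ F) hPQ
      simpa [polyAlgebra_algebraMap_apply, ← aeval_algebraMap_apply] using this
    exact (transcendental_iff_injective.mp hx) h1
  have : FaithfulSMul K[X] K⟮x⟯ := (faithfulSMul_iff_algebraMap_injective _ _).mpr hinj
  refine IsFractionRing.of_field K[X] K⟮x⟯ fun z => ?_
  obtain ⟨r, s, hrs⟩ := (mem_adjoin_simple_iff K (z : F)).mp z.2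
  refine ⟨r, s, Subtype.ext ?_⟩
  rw [hrs]
  simp [polyAlgebra_algebraMap_apply]

/-- `Ω[K⟮x⟯⁄K]` is spanned by `d x` when `x` is transcendental. -/
theorem span_D_gen (hx : Transcendental K x) :
    Submodule.span K⟮x⟯ {D K K⟮x⟯ (AdjoinSimple.gen K x)} = ⊤ := by
  let _ := polyAlgebra (K := K) x
  have := polyAlgebra_isScalarTower (K := K) x
  have := polyAlgebra_isFractionRing x hx
  have h := span_D_X_of_isFractionRing K K⟮x⟯
  rwa [polyAlgebra_algebraMap_apply, aeval_X] at h

/-- `d x ≠ 0` in `Ω[K⟮x⟯⁄K]` when `x` is transcendental. -/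
theorem D_gen_ne_zero (hx : Transcendental K x) :
    D K K⟮x⟯ (AdjoinSimple.gen K x) ≠ 0 := by
  let _ := polyAlgebra (K := K) x
  have := polyAlgebra_isScalarTower (K := K) x
  have := polyAlgebra_isFractionRing x hx
  have h := D_X_ne_zero_of_isFractionRing K K⟮x⟯
  rwa [polyAlgebra_algebraMap_apply, aeval_X] at h

end Simple

section FunctionField

variable {K F : Type*} [Field K] [Field F] [Algebra K F] [CharZero K]
variable (x : F) [FiniteDimensional K⟮x⟯ F]

theorem formallyEtale_of_finite : Algebra.FormallyEtale K⟮x⟯ F := by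
  have : CharZero K⟮x⟯ := charZero_of_injective_algebraMap (algebraMap K K⟮x⟯).injective
  have : Algebra.IsSeparable K⟮x⟯ F := Algebra.IsAlgebraic.isSeparable_of_perfectField
  exact Algebra.FormallyEtale.of_isSeparable K⟮x⟯ F

/-- **A4, spanning.** `Ω[F⁄K] = F · dx`. -/
theorem span_D_eq_top (hx : Transcendental K x) :
    Submodule.span F {D K F x} = ⊤ := by
  have := formallyEtale_of_finite (K := K) x
  rw [eq_top_iff]
  intro ω _
  obtain ⟨t, rfl⟩ := (tensorKaehlerEquivOfFormallyEtale K K⟮x⟯ F).surjective ω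
  induction t using TensorProduct.induction_on with
  | zero => simp
  | tmul a η =>
    have hη : η ∈ Submodule.span K⟮x⟯ {D K K⟮x⟯ (AdjoinSimple.gen K x)} := by
      rw [span_D_gen x hx]; trivial
    obtain ⟨c, rfl⟩ := Submodule.mem_span_singleton.mp hη
    rw [tensorKaehlerEquivOfFormallyEtale_apply, mapBaseChange_tmul, map_smul,
      KaehlerDifferential.map_D, ← algebraMap_smul F c, smul_smul, AdjoinSimple.algebraMap_gen]
    exact Submodule.smul_mem _ _ (Submodule.subset_span rfl)
  | add s t hs ht =>
    rw [map_add]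
    exact Submodule.add_mem _ (hs Submodule.mem_top) (ht Submodule.mem_top)

/-- **A4, nonvanishing.** `dx ≠ 0` in `Ω[F⁄K]`. -/
theorem D_ne_zero (hx : Transcendental K x) : D K F x ≠ 0 := by
  have := formallyEtale_of_finite (K := K) x
  intro h0
  have h1 : (tensorKaehlerEquivOfFormallyEtale K K⟮x⟯ F).symm
      (D K F (algebraMap K⟮x⟯ F (AdjoinSimple.gen K x))) = 0 := by
    rw [AdjoinSimple.algebraMap_gen, h0, map_zero]
  rw [tensorKaehlerEquivOfFormallyEtale_symm_D_algebraMap,
    Module.FaithfullyFlat.one_tmul_eq_zero_iff] at h1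
  exact D_gen_ne_zero x hx h1

theorem nontrivial_kaehler (hx : Transcendental K x) : Nontrivial (Ω[F⁄K]) :=
  ⟨⟨D K F x, 0, D_ne_zero x hx⟩⟩

/-- Every differential is a unique multiple of `dx`. -/
theorem existsUnique_smul_D (hx : Transcendental K x) (ω : Ω[F⁄K]) :
    ∃! f : F, ω = f • D K F x := by
  have hω : ω ∈ Submodule.span F {D K F x} := by rw [span_D_eq_top x hx]; trivial
  obtain ⟨f, rfl⟩ := Submodule.mem_span_singleton.mp hω
  refine ⟨f, rfl, fun g hg => ?_⟩
  have h2 : (f - g) • D K F x = 0 := by rw [sub_smul, hg, sub_self]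
  rcases smul_eq_zero.mp h2 with h | h
  · exact (sub_eq_zero.mp h).symm
  · exact absurd h (D_ne_zero x hx)

theorem finrank_kaehler (hx : Transcendental K x) : Module.finrank F (Ω[F⁄K]) = 1 := by
  rw [finrank_eq_one_iff_of_nonzero' (D K F x) (D_ne_zero x hx)]
  intro ω
  obtain ⟨f, hf, -⟩ := existsUnique_smul_D x hx ω
  exact ⟨f, hf.symm⟩

/-- Any nonzero differential generates `Ω[F⁄K]`. -/
theorem span_singleton_eq_top_of_ne_zero (hx : Transcendental K x) {ω : Ω[F⁄K]} (hω : ω ≠ 0) :
    Submodule.span F {ω} = ⊤ := by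
  obtain ⟨f, hf, -⟩ := existsUnique_smul_D x hx ω
  have hf0 : f ≠ 0 := by
    rintro rfl
    exact hω (by rw [hf, zero_smul])
  rw [eq_top_iff, ← span_D_eq_top x hx, Submodule.span_le, Set.singleton_subset_iff]
  refine Submodule.mem_span_singleton.mpr ⟨f⁻¹, ?_⟩
  rw [hf, smul_smul, inv_mul_cancel₀ hf0, one_smul]

end FunctionField

end Fermat.Agent.S24.helper4356
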