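import Mathlib
import Fermat.Prelude.Def_AlgebraicCurve_DivisorClassGroup
import Fermat.Agent.S24.helper24_Spec

/-! Verbatim copy (namespace changed) of helper204's branch file `helper204_Places.lean`
(author: helper204), plus the adapter `stmt_FundId` to the S24 spec shape. -/

/-!
# S24, module FF-A1/A2/A3: places of a function field over an algebraically closed field

Generic function-field algebra (no modular input).  `K` is algebraically closed of
characteristic zero, `x : F` is transcendental over `K` and `F` is finite over `K⟮x⟯`.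

* `exists_finset_zeros`: the places with `0 < ord (x - c)` are finitely many and the orders
  sum to `[F : K(x)]`.
* `exists_finset_poles`: same for the poles of `x`.
* `place_center`, `place_deg_eq_one`, `hasPrincipalDivisors`.
-/

set_option autoImplicit false

namespace Fermat.Agent.S24.helper24.h204

open AlgebraicCurve IntermediateField IsDedekindDomain WithZero Polynomial

variable {K F : Type*} [Field K] [Field F] [Algebra K F]

/-- Membership in the valuation ring of a place in terms of `ord`. -/
theorem mem_of_ord_nonneg (v : Place K F) {f : F} (hf : 0 ≤ v.ord f) :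
    f ∈ v.toValuationSubring := by
  rcases eq_or_ne f 0 with rfl | hf0
  · exact zero_mem _
  obtain ⟨π, hπ⟩ := IsDiscreteValuationRing.exists_irreducible v.toValuationSubring
  obtain ⟨u, hu⟩ := v.exists_unit_mul_zpow hf0 hπ
  rw [hu]
  refine mul_mem u.1.2 ?_
  obtain ⟨n, hn⟩ := Int.eq_ofNat_of_zero_le hf
  rw [hn, zpow_natCast]
  exact pow_mem π.2 n

theorem ord_nonneg_of_mem (v : Place K F) {f : F} (hf : f ∈ v.toValuationSubring) :
    0 ≤ v.ord f := by
  have h := v.adicValuation_coe ⟨f, hf⟩
  have h1 := v.heightOneSpectrum.intValuation_le_one ⟨f, hf⟩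
  rw [← h] at h1
  simp only [Place.ord]
  rcases eq_or_ne f 0 with rfl | hf0
  · simp
  have hne := v.adicValuation_ne_zero hf0
  have : log (v.adicValuation f) ≤ 0 := by
    rw [log_le_iff_le_exp hne, exp_zero]
    exact h1
  omega

theorem ord_nonneg_iff (v : Place K F) {f : F} : 0 ≤ v.ord f ↔ f ∈ v.toValuationSubring :=
  ⟨mem_of_ord_nonneg v, ord_nonneg_of_mem v⟩

/-- A valuation subring contains everything integral over a subalgebra it contains. -/
theorem mem_of_isIntegral_of_le (O : ValuationSubring F) (S : Subalgebra K F)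
    (hS : ∀ s ∈ S, s ∈ O) {b : F} (hb : IsIntegral S b) : b ∈ O := by
  letI : Algebra S O := RingHom.toAlgebra
    { toFun := fun s => ⟨s, hS s s.2⟩
      map_one' := rfl
      map_mul' := fun _ _ => rfl
      map_zero' := rfl
      map_add' := fun _ _ => rfl }
  haveI : IsScalarTower S O F := IsScalarTower.of_algebraMap_eq (fun _ => rfl)
  have h : IsIntegral O b := hb.tower_top
  obtain ⟨y, hy⟩ := IsIntegrallyClosed.isIntegral_iff.mp h
  rw [← hy]
  exact y.2

section ofHeightOneSpectrum

variable {R : Type*} [CommRing R] [IsDedekindDomain R] [Algebra R F] [IsFractionRing R F]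
  [Algebra K R] [IsScalarTower K R F]

/-- An element of valuation one is a unit of the valuation ring of the place. -/
theorem ord_eq_zero_of_valuation_eq_one (w : HeightOneSpectrum R) {g : F}
    (hg : w.valuation F g = 1) : (Place.ofHeightOneSpectrum (K := K) (F := F) w).ord g = 0 := by
  set v := Place.ofHeightOneSpectrum (K := K) (F := F) w with hv
  have hg0 : g ≠ 0 := by
    rintro rfl
    simp at hg
  have h1 : g ∈ v.toValuationSubring := by
    rw [hv, Place.ofHeightOneSpectrum_toValuationSubring, Valuation.mem_valuationSubring_iff, hg]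
  have h2 : g⁻¹ ∈ v.toValuationSubring := by
    rw [hv, Place.ofHeightOneSpectrum_toValuationSubring, Valuation.mem_valuationSubring_iff,
      map_inv₀, hg, inv_one]
  let u : v.toValuationSubringˣ := ⟨⟨g, h1⟩, ⟨g⁻¹, h2⟩, by ext; simp [hg0], by ext; simp [hg0]⟩
  exact v.ord_coe_unit u

theorem ord_uniformizer_eq_one (w : HeightOneSpectrum R) {π : F}
    (hπ : w.valuation F π = exp (-1 : ℤ)) : (Place.ofHeightOneSpectrum (K := K) (F := F) w).ord π = 1 := by
  set v := Place.ofHeightOneSpectrum (K := K) (F := F) w with hv
  have hmem : ∀ a : F, a ∈ v.toValuationSubring ↔ w.valuation F a ≤ 1 := fun a => by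
    rw [hv, Place.ofHeightOneSpectrum_toValuationSubring, Valuation.mem_valuationSubring_iff]
  have hπ0 : π ≠ 0 := by
    rintro rfl
    rw [map_zero] at hπ
    exact exp_ne_zero hπ.symm
  have hπmem : π ∈ v.toValuationSubring := by
    rw [hmem, hπ, ← exp_zero, exp_le_exp]; norm_num
  have hirr : Irreducible (⟨π, hπmem⟩ : v.toValuationSubring) := by
    rw [IsDiscreteValuationRing.irreducible_iff_uniformizer]
    ext a
    rw [Ideal.mem_span_singleton, IsLocalRing.mem_maximalIdeal, mem_nonunits_iff]
    constructor
    · intro ha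
      -- a is a nonunit, so valuation < 1
      have ha1 : w.valuation F (a : F) ≤ 1 := (hmem _).mp a.2
      have ha2 : w.valuation F (a : F) ≠ 1 := by
        intro h
        apply ha
        have h2 : (a : F)⁻¹ ∈ v.toValuationSubring := by
          rw [hmem, map_inv₀, h, inv_one]
        have ha0 : (a : F) ≠ 0 := by
          intro h0; rw [h0] at h; simp at h
        exact ⟨⟨a, ⟨(a : F)⁻¹, h2⟩, by ext; simp [ha0], by ext; simp [ha0]⟩, rfl⟩
      have ha3 : w.valuation F (a : F) < 1 := lt_of_le_of_ne ha1 ha2
      have ha4 : w.valuation F (a : F) ≤ exp (-1 : ℤ) := by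
        rcases eq_or_ne (w.valuation F (a : F)) 0 with h0 | h0
        · rw [h0]; exact zero_le
        · rw [← log_le_iff_le_exp h0]
          have : log (w.valuation F (a : F)) < 0 := by
            rw [log_lt_iff_lt_exp h0, exp_zero]; exact ha3
          omega
      have hq : (a : F) / π ∈ v.toValuationSubring := by
        rw [hmem, map_div₀, hπ]
        exact div_le_one_of_le₀ ha4 zero_le
      exact ⟨⟨(a : F) / π, hq⟩, by ext; simp; field_simp⟩
    · rintro ⟨b, rfl⟩ hu
      obtain ⟨c, hc⟩ := hu.exists_right_inv
      have hb : w.valuation F (b : F) ≤ 1 := (hmem _).mp b.2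
      have hc' : w.valuation F (c : F) ≤ 1 := (hmem _).mp c.2
      have h1 : w.valuation F ((π : F) * b * c) = 1 := by
        have := congrArg (fun z : v.toValuationSubring => (z : F)) hc
        simp only [MulMemClass.coe_mul, OneMemClass.coe_one] at this
        rw [this, map_one]
      rw [map_mul, map_mul, hπ] at h1
      have h2 : exp (-1 : ℤ) * w.valuation F (b : F) * w.valuation F (c : F) ≤ exp (-1 : ℤ) := by
        calc exp (-1 : ℤ) * w.valuation F (b : F) * w.valuation F (c : F)
            ≤ exp (-1 : ℤ) * 1 * 1 := by gcongr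
          _ = exp (-1 : ℤ) := by simp
      rw [h1] at h2
      rw [← exp_zero, exp_le_exp] at h2
      omega
  exact v.ord_coe_irreducible hirr

/-- The order function of the place attached to a height-one prime is the additive form of the
adic valuation. -/
theorem ord_ofHeightOneSpectrum (w : HeightOneSpectrum R) (f : F) :
    (Place.ofHeightOneSpectrum (K := K) (F := F) w).ord f = -(log (w.valuation F f)) := by
  set v := Place.ofHeightOneSpectrum (K := K) (F := F) w with hv
  rcases eq_or_ne f 0 with rfl | hf
  · simp
  obtain ⟨π, hπ⟩ := w.valuation_exists_uniformizer F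
  have hπ0 : π ≠ 0 := by
    rintro rfl
    rw [map_zero] at hπ
    exact exp_ne_zero hπ.symm
  set n : ℤ := -(log (w.valuation F f)) with hn
  have hvf : w.valuation F f ≠ 0 := (Valuation.ne_zero_iff _).mpr hf
  set g : F := f * π ^ (-n) with hg
  have hg0 : g ≠ 0 := mul_ne_zero hf (zpow_ne_zero _ hπ0)
  have hvg0 : w.valuation F g ≠ 0 := (Valuation.ne_zero_iff _).mpr hg0
  have hvg : w.valuation F g = 1 := by
    have h1 : log (w.valuation F g) = 0 := by
      rw [hg, map_mul, map_zpow₀, log_mul hvf (zpow_ne_zero _ ((Valuation.ne_zero_iff _).mpr hπ0)),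
        log_zpow, hπ, log_exp]
      simp only [smul_eq_mul]
      omega
    rw [← exp_log hvg0, h1, exp_zero]
  have hfg : f = g * π ^ n := by
    rw [hg, mul_assoc, ← zpow_add₀ hπ0]
    simp
  have h1 := ord_eq_zero_of_valuation_eq_one (K := K) w hvg
  have h2 := ord_uniformizer_eq_one (K := K) w hπ
  rw [hfg, v.ord_mul hg0 (zpow_ne_zero _ hπ0), v.ord_zpow, h1, h2]
  ring

theorem ofHeightOneSpectrum_injective :
    Function.Injective (Place.ofHeightOneSpectrum (K := K) (F := F) (R := R)) := by
  intro w₁ w₂ h
  have h' := congrArg Place.toValuationSubring h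
  rw [Place.ofHeightOneSpectrum_toValuationSubring, Place.ofHeightOneSpectrum_toValuationSubring,
    ← Valuation.isEquiv_iff_valuationSubring] at h'
  exact HeightOneSpectrum.eq_of_valuation_isEquiv_valuation h'

/-- A place whose valuation ring contains `R` and whose maximal ideal meets `R` in the prime
`w` is the place attached to `w`. -/
theorem ofHeightOneSpectrum_eq_of_le (v : Place K F) (w : HeightOneSpectrum R)
    (hR : ∀ r : R, algebraMap R F r ∈ v.toValuationSubring)
    (hw : ∀ r : R, r ∉ w.asIdeal → (algebraMap R F r)⁻¹ ∈ v.toValuationSubring) :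
    Place.ofHeightOneSpectrum (K := K) (F := F) w = v := by
  apply Place.ext
  rw [Place.ofHeightOneSpectrum_toValuationSubring,
    ← HeightOneSpectrum.valuationSubringAtPrime_eq_valuationSubring]
  refine ValuationSubring.eq_of_le_of_ne_top _ ?_ v.ne_top'
  intro f hf
  rw [HeightOneSpectrum.valuationSubringAtPrime_eq_valuationSubring,
    Valuation.mem_valuationSubring_iff] at hf
  obtain ⟨n, d, hnd⟩ := w.exists_primeCompl_mul_eq_of_integer f hf
  have hd0 : algebraMap R F (d : R) ≠ 0 := by
    intro h0
    have := (FaithfulSMul.algebraMap_injective R F) (h0.trans (map_zero _).symm)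
    exact d.2 (this ▸ w.asIdeal.zero_mem)
  have : f = algebraMap R F n * (algebraMap R F (d : R))⁻¹ := by
    rw [← hnd, mul_assoc, mul_inv_cancel₀ hd0, mul_one]
  rw [this]
  exact mul_mem (hR n) (hw d d.2)

end ofHeightOneSpectrum

section BaseRing

variable (K) (x : F)

/-- The generator `x` as an element of `K[x]`. -/
def gen : Algebra.adjoin K {x} := ⟨x, Algebra.self_mem_adjoin_singleton K x⟩

@[simp] theorem coe_gen : ((gen K x : Algebra.adjoin K {x}) : F) = x := rfl

theorem aeval_gen_surjective :
    Function.Surjective (Polynomial.aeval (R := K) (gen K x)) := by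
  intro a
  have h : (a : F) ∈ (Polynomial.aeval (R := K) x).range := by
    rw [← Algebra.adjoin_singleton_eq_range_aeval]
    exact a.2
  obtain ⟨q, hq⟩ := h
  refine ⟨q, Subtype.ext ?_⟩
  rw [Polynomial.aeval_subalgebra_coe]
  exact hq

instance isPrincipalIdealRing_adjoin : IsPrincipalIdealRing (Algebra.adjoin K {x}) :=
  IsPrincipalIdealRing.of_surjective (Polynomial.aeval (R := K) (gen K x)).toRingHom
    (aeval_gen_surjective K x)

/-- The ideal `(x - c)` of `K[x]`. -/
def pc (c : K) : Ideal (Algebra.adjoin K {x}) :=
  Ideal.span {gen K x - algebraMap K _ c}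

variable {K x}

theorem sub_ne_zero_of_transcendental (hx : Transcendental K x) (c : K) :
    x - algebraMap K F c ≠ 0 := by
  intro h
  apply hx
  rw [sub_eq_zero] at h
  rw [h]
  exact isAlgebraic_algebraMap c

theorem pc_ne_bot (hx : Transcendental K x) (c : K) : pc K x c ≠ ⊥ := by
  rw [pc, Ne, Ideal.span_singleton_eq_bot]
  intro h
  apply sub_ne_zero_of_transcendental hx c
  have := congrArg (fun a : Algebra.adjoin K {x} => (a : F)) h
  simpa using this

theorem exists_eq_const_add_mul (c : K) (a : Algebra.adjoin K {x}) :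
    ∃ (k : K) (r : Algebra.adjoin K {x}),
      a = algebraMap K _ k + (gen K x - algebraMap K _ c) * r := by
  obtain ⟨q, rfl⟩ := aeval_gen_surjective K x a
  refine ⟨q.eval c, Polynomial.aeval (gen K x) (q /ₘ (X - C c)), ?_⟩
  have h := Polynomial.modByMonic_add_div q (X - C c)
  rw [Polynomial.modByMonic_X_sub_C_eq_C_eval] at h
  conv_lhs => rw [← h]
  simp [Polynomial.aeval_C]

theorem pc_isMaximal (hx : Transcendental K x) (c : K) : (pc K x c).IsMaximal := by
  have hinj : Function.Injective (Polynomial.aeval (R := K) x) :=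
    transcendental_iff_injective.mp hx
  rw [Ideal.isMaximal_iff]
  constructor
  · intro h1
    rw [pc, Ideal.mem_span_singleton'] at h1
    obtain ⟨r, hr⟩ := h1
    obtain ⟨q, rfl⟩ := aeval_gen_surjective K x r
    have h2 : Polynomial.aeval x (q * (X - C c)) = Polynomial.aeval x (1 : K[X]) := by
      have := congrArg (fun a : Algebra.adjoin K {x} => (a : F)) hr
      simp only [MulMemClass.coe_mul, Polynomial.aeval_subalgebra_coe, coe_gen,
        AddSubgroupClass.coe_sub, OneMemClass.coe_one] at this
      simpa using this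
    have h3 := hinj h2
    have h4 := congrArg (Polynomial.eval c) h3
    simp at h4
  · intro J a hJ ha haJ
    obtain ⟨k, r, hkr⟩ := exists_eq_const_add_mul c a
    have hmem : (gen K x - algebraMap K _ c) * r ∈ pc K x c :=
      Ideal.mul_mem_right _ _ (Ideal.subset_span rfl)
    have hk : k ≠ 0 := by
      rintro rfl
      apply ha
      rw [hkr, map_zero, zero_add]
      exact hmem
    have hkJ : algebraMap K (Algebra.adjoin K {x}) k ∈ J := by
      have : algebraMap K (Algebra.adjoin K {x}) k = a - (gen K x - algebraMap K _ c) * r := by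
        rw [hkr]; ring
      rw [this]
      exact J.sub_mem haJ (hJ hmem)
    have : (1 : Algebra.adjoin K {x}) = algebraMap K _ k⁻¹ * algebraMap K _ k := by
      rw [← map_mul, inv_mul_cancel₀ hk, map_one]
    rw [this]
    exact J.mul_mem_left _ hkJ

end BaseRing

section IntegralClosure

open scoped IntermediateField.algebraAdjoinAdjoin

variable (K) (x : F) [CharZero K] [FiniteDimensional K⟮x⟯ F]

instance isDedekindDomain_B : IsDedekindDomain (integralClosure (Algebra.adjoin K {x}) F) :=
  integralClosure.isDedekindDomain (Algebra.adjoin K {x}) K⟮x⟯ F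

instance finite_B : Module.Finite (Algebra.adjoin K {x}) (integralClosure (Algebra.adjoin K {x}) F) :=
  IsIntegralClosure.finite (Algebra.adjoin K {x}) K⟮x⟯ F _

omit [CharZero K] in
instance isFractionRing_B : IsFractionRing (integralClosure (Algebra.adjoin K {x}) F) F :=
  integralClosure.isFractionRing_of_finite_extension K⟮x⟯ F

variable {K x}

omit [CharZero K] [FiniteDimensional K⟮x⟯ F] in
/-- The valuation ring of a place at which `x` is integral contains `K[x]`. -/
theorem adjoin_le_of_mem (v : Place K F) (hxv : x ∈ v.toValuationSubring) :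
    ∀ a ∈ Algebra.adjoin K {x}, a ∈ v.toValuationSubring := by
  let Ov : Subalgebra K F :=
    { v.toValuationSubring.toSubring with
      algebraMap_mem' := v.algebraMap_mem' }
  have h : Algebra.adjoin K {x} ≤ Ov := Algebra.adjoin_le (Set.singleton_subset_iff.mpr hxv)
  exact fun a ha => h ha

omit [CharZero K] [FiniteDimensional K⟮x⟯ F] in
theorem integralClosure_le_of_mem (v : Place K F) (hxv : x ∈ v.toValuationSubring)
    (b : integralClosure (Algebra.adjoin K {x}) F) : (b : F) ∈ v.toValuationSubring :=
  mem_of_isIntegral_of_le v.toValuationSubring (Algebra.adjoin K {x}) (adjoin_le_of_mem v hxv) b.2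

theorem exists_heightOneSpectrum_of_ord_pos (hx : Transcendental K x)
    (c : K) (v : Place K F) (hv : 0 < v.ord (x - algebraMap K F c)) :
    ∃ w : HeightOneSpectrum (integralClosure (Algebra.adjoin K {x}) F),
      w.asIdeal.LiesOver (pc K x c) ∧ Place.ofHeightOneSpectrum (K := K) (F := F) w = v := by
  have hxc : x - algebraMap K F c ∈ v.toValuationSubring := mem_of_ord_nonneg v hv.le
  have hxv : x ∈ v.toValuationSubring := by
    have := add_mem hxc (v.algebraMap_mem' c)
    simpa using this
  -- the ring hom B → O_v
  let φ : integralClosure (Algebra.adjoin K {x}) F →+* v.toValuationSubring :=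
    { toFun := fun b => ⟨b, integralClosure_le_of_mem v hxv b⟩
      map_one' := rfl
      map_mul' := fun _ _ => rfl
      map_zero' := rfl
      map_add' := fun _ _ => rfl }
  let P : Ideal (integralClosure (Algebra.adjoin K {x}) F) :=
    Ideal.comap φ (IsLocalRing.maximalIdeal v.toValuationSubring)
  have hPprime : P.IsPrime := Ideal.comap_isPrime φ _
  -- the element x - c of B
  let xc : integralClosure (Algebra.adjoin K {x}) F :=
    algebraMap (Algebra.adjoin K {x}) _ (gen K x - algebraMap K _ c)
  have hxc_coe : (xc : F) = x - algebraMap K F c := rfl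
  have hxc_mem : xc ∈ P := by
    show φ xc ∈ IsLocalRing.maximalIdeal v.toValuationSubring
    rw [IsLocalRing.mem_maximalIdeal, mem_nonunits_iff]
    intro hu
    have h0 := v.ord_coe_unit hu.unit
    rw [IsUnit.unit_spec] at h0
    have : ((φ xc : v.toValuationSubring) : F) = x - algebraMap K F c := rfl
    rw [this] at h0
    omega
  have hxc_ne : xc ≠ 0 := by
    intro h0
    have := congrArg (fun b : integralClosure (Algebra.adjoin K {x}) F => (b : F)) h0
    simp only [hxc_coe, ZeroMemClass.coe_zero] at this
    exact sub_ne_zero_of_transcendental hx c this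
  have hPne : P ≠ ⊥ := fun h => hxc_ne (by rw [h] at hxc_mem; exact hxc_mem)
  let w : HeightOneSpectrum (integralClosure (Algebra.adjoin K {x}) F) := ⟨P, hPprime, hPne⟩
  refine ⟨w, ?_, ?_⟩
  · -- lies over
    constructor
    have hmax := pc_isMaximal hx c
    have hle : pc K x c ≤ P.under (Algebra.adjoin K {x}) := by
      rw [pc, Ideal.span_le, Set.singleton_subset_iff]
      exact hxc_mem
    have hne : P.under (Algebra.adjoin K {x}) ≠ ⊤ := by
      have : (P.under (Algebra.adjoin K {x})).IsPrime := Ideal.IsPrime.under _ _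
      exact this.ne_top
    exact hmax.eq_of_le hne hle
  · apply ofHeightOneSpectrum_eq_of_le
    · intro r
      exact integralClosure_le_of_mem v hxv r
    · intro r hr
      have hr' : ¬ (φ r ∈ IsLocalRing.maximalIdeal v.toValuationSubring) := hr
      rw [IsLocalRing.mem_maximalIdeal, mem_nonunits_iff, not_not] at hr'
      obtain ⟨u, hu⟩ := hr'
      have h1 : ((u⁻¹ : v.toValuationSubringˣ) : v.toValuationSubring) * φ r = 1 := by
        rw [← hu]; simp
      have h2 := congrArg (fun z : v.toValuationSubring => (z : F)) h1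
      simp only [MulMemClass.coe_mul, OneMemClass.coe_one] at h2
      have h3 : ((φ r : v.toValuationSubring) : F) = algebraMap _ F r := rfl
      rw [h3] at h2
      have h4 : (algebraMap (integralClosure (Algebra.adjoin K {x}) F) F r)⁻¹
          = ((u⁻¹ : v.toValuationSubringˣ) : v.toValuationSubring) :=
        (eq_inv_of_mul_eq_one_left h2).symm
      rw [h4]
      exact SetLike.coe_mem _

/-- The order of `x - c` at the place of a prime is the ramification index. -/
theorem ord_ofHeightOneSpectrum_eq_ramificationIdx (hx : Transcendental K x) (c : K)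
    (w : HeightOneSpectrum (integralClosure (Algebra.adjoin K {x}) F)) :
    (Place.ofHeightOneSpectrum (K := K) (F := F) w).ord (x - algebraMap K F c)
      = ((pc K x c).ramificationIdx' w.asIdeal : ℤ) := by
  rw [ord_ofHeightOneSpectrum]
  have h1 : x - algebraMap K F c = algebraMap (integralClosure (Algebra.adjoin K {x}) F) F
      (algebraMap (Algebra.adjoin K {x}) _ (gen K x - algebraMap K _ c)) := rfl
  have hne : algebraMap (Algebra.adjoin K {x}) (integralClosure (Algebra.adjoin K {x}) F)
      (gen K x - algebraMap K _ c) ≠ 0 := by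
    intro h0
    have := congrArg (algebraMap (integralClosure (Algebra.adjoin K {x}) F) F) h0
    rw [← h1, map_zero] at this
    exact sub_ne_zero_of_transcendental hx c this
  have hmap : Ideal.map (algebraMap (Algebra.adjoin K {x}) (integralClosure (Algebra.adjoin K {x}) F))
      (pc K x c) = Ideal.span {algebraMap (Algebra.adjoin K {x}) _ (gen K x - algebraMap K _ c)} := by
    rw [pc, Ideal.map_span, Set.image_singleton]
  have hmap0 : Ideal.map (algebraMap (Algebra.adjoin K {x})
      (integralClosure (Algebra.adjoin K {x}) F)) (pc K x c) ≠ ⊥ := by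
    rw [hmap, Ne, Ideal.span_singleton_eq_bot]
    exact hne
  rw [h1, HeightOneSpectrum.valuation_of_algebraMap, w.intValuation_eq_exp_neg_multiplicity hne,
    log_exp, neg_neg, Ideal.IsDedekindDomain.ramificationIdx'_eq_multiplicity hmap0 w.isPrime, hmap]

omit [CharZero K] [FiniteDimensional K⟮x⟯ F] in
theorem inertiaDeg_eq_one [IsAlgClosed K] (hx : Transcendental K x) (c : K)
    (P : Ideal (integralClosure (Algebra.adjoin K {x}) F)) [P.IsPrime] [P.LiesOver (pc K x c)] :
    (pc K x c).inertiaDeg' P = 1 := by
  haveI := pc_isMaximal hx c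
  rw [Ideal.inertiaDeg'_algebraMap]
  have hsurj : Function.Surjective (algebraMap K (Algebra.adjoin K {x} ⧸ pc K x c)) := by
    intro y
    obtain ⟨a, rfl⟩ := Ideal.Quotient.mk_surjective y
    obtain ⟨k, r, hkr⟩ := exists_eq_const_add_mul c a
    refine ⟨k, ?_⟩
    rw [hkr, map_add, map_mul]
    have : Ideal.Quotient.mk (pc K x c) (gen K x - algebraMap K _ c) = 0 :=
      Ideal.Quotient.eq_zero_iff_mem.mpr (Ideal.subset_span rfl)
    rw [this, zero_mul, add_zero]
    rfl
  haveI : Algebra.IsIntegral K (Algebra.adjoin K {x} ⧸ pc K x c) :=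
    Algebra.isIntegral_of_surjective hsurj
  haveI : Algebra.IsIntegral K (integralClosure (Algebra.adjoin K {x}) F ⧸ P) :=
    Algebra.IsIntegral.trans (R := K) (A := Algebra.adjoin K {x} ⧸ pc K x c)
  have hbij := IsAlgClosed.algebraMap_bijective_of_isIntegral (k := K)
    (K := integralClosure (Algebra.adjoin K {x}) F ⧸ P)
  have hbij2 : Function.Bijective (Algebra.linearMap (Algebra.adjoin K {x} ⧸ pc K x c)
      (integralClosure (Algebra.adjoin K {x}) F ⧸ P)) := by
    constructor
    · exact FaithfulSMul.algebraMap_injective _ _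
    · intro y
      obtain ⟨k, hk⟩ := hbij.2 y
      refine ⟨algebraMap K _ k, ?_⟩
      rw [Algebra.linearMap_apply, ← IsScalarTower.algebraMap_apply]
      exact hk
  have e := LinearEquiv.ofBijective (Algebra.linearMap (Algebra.adjoin K {x} ⧸ pc K x c)
      (integralClosure (Algebra.adjoin K {x}) F ⧸ P)) hbij2
  exact e.finrank_eq.symm.trans (Module.finrank_self _)

/-- (FF-A1) zeros of `x - c`: finitely many, and the orders sum to the degree. -/
theorem exists_finset_zeros [IsAlgClosed K] (hx : Transcendental K x) (c : K) :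
    ∃ s : Finset (Place K F), (∀ v, v ∈ s ↔ 0 < v.ord (x - algebraMap K F c)) ∧
      ∑ v ∈ s, v.ord (x - algebraMap K F c) = Module.finrank K⟮x⟯ F := by
  classical
  haveI := pc_isMaximal hx c
  have hp0 := pc_ne_bot hx c
  set S := IsDedekindDomain.primesOverFinset (pc K x c)
    (integralClosure (Algebra.adjoin K {x}) F) with hSdef
  have hS : ∀ P ∈ S, P.IsPrime ∧ P.LiesOver (pc K x c) := fun P hP =>
    (IsDedekindDomain.mem_primesOverFinset_iff hp0 _).mp hP
  let g : {P // P ∈ S} → HeightOneSpectrum (integralClosure (Algebra.adjoin K {x}) F) :=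
    fun P => ⟨P.1, (hS P.1 P.2).1,
      haveI := (hS P.1 P.2).2
      Ideal.ne_bot_of_liesOver_of_ne_bot hp0 P.1⟩
  have hg : Function.Injective g := by
    intro P Q h
    have := congrArg HeightOneSpectrum.asIdeal h
    exact Subtype.ext this
  let pl : {P // P ∈ S} → Place K F := fun P => Place.ofHeightOneSpectrum (K := K) (F := F) (g P)
  have hpl : Function.Injective pl := ofHeightOneSpectrum_injective.comp hg
  refine ⟨S.attach.image pl, ?_, ?_⟩
  · intro v
    rw [Finset.mem_image]
    constructor
    · rintro ⟨P, -, rfl⟩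
      show 0 < (Place.ofHeightOneSpectrum (K := K) (F := F) (g P)).ord (x - algebraMap K F c)
      rw [ord_ofHeightOneSpectrum_eq_ramificationIdx hx c]
      have hmap0 : Ideal.map (algebraMap (Algebra.adjoin K {x})
          (integralClosure (Algebra.adjoin K {x}) F)) (pc K x c) ≠ ⊥ := by
        rw [Ne, Ideal.map_eq_bot_iff_of_injective (FaithfulSMul.algebraMap_injective _ _)]
        exact hp0
      haveI := (hS P.1 P.2).2
      have hle : Ideal.map (algebraMap (Algebra.adjoin K {x})
          (integralClosure (Algebra.adjoin K {x}) F)) (pc K x c) ≤ P.1 := by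
        rw [Ideal.map_le_iff_le_comap]
        exact le_of_eq (Ideal.over_def P.1 (pc K x c))
      have := Ideal.IsDedekindDomain.ramificationIdx'_ne_zero hmap0 (hS P.1 P.2).1 hle
      show (0 : ℤ) < ((pc K x c).ramificationIdx' (g P).asIdeal : ℤ)
      exact_mod_cast Nat.pos_of_ne_zero this
    · intro hv
      obtain ⟨w, hw1, hw2⟩ := exists_heightOneSpectrum_of_ord_pos hx c v hv
      have hwS : w.asIdeal ∈ S := (IsDedekindDomain.mem_primesOverFinset_iff hp0 _).mpr ⟨w.isPrime, hw1⟩
      refine ⟨⟨w.asIdeal, hwS⟩, Finset.mem_attach _ _, ?_⟩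
      rw [← hw2]
  · rw [Finset.sum_image (fun a _ b _ h => hpl h)]
    have h1 : ∀ P ∈ S.attach, (pl P).ord (x - algebraMap K F c)
        = (((pc K x c).ramificationIdx' P.1 * (pc K x c).inertiaDeg' P.1 : ℕ) : ℤ) := by
      intro P _
      haveI := (hS P.1 P.2).1
      haveI := (hS P.1 P.2).2
      rw [inertiaDeg_eq_one hx c P.1, mul_one]
      exact ord_ofHeightOneSpectrum_eq_ramificationIdx hx c (g P)
    rw [Finset.sum_congr rfl h1, Finset.sum_attach S
      (fun P => (((pc K x c).ramificationIdx' P * (pc K x c).inertiaDeg' P : ℕ) : ℤ)),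
      ← Nat.cast_sum]
    congr 1
    exact Ideal.sum_ramification_inertia (integralClosure (Algebra.adjoin K {x}) F) K⟮x⟯ F hp0

end IntegralClosure

end Fermat.Agent.S24.helper24.h204

namespace Fermat.Agent.S24.helper24

open AlgebraicCurve IntermediateField in
/-- G1 in the exact spec shape (proof: helper204's `exists_finset_zeros` at `c = 0`). -/
theorem stmt_FundId : Stmt_FundId := by
  intro K F _ _ _ _ _ y hy _
  have h := h204.exists_finset_zeros (K := K) (F := F) (x := y) hy 0
  simpa using h

end Fermat.Agent.S24.helper24
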