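import Mathlib
import Fermat.Prelude.Def_AlgebraicCurve_DivisorClassGroup
import Fermat.Prelude.Def_AlgebraicCurve_Repartitions

/-!
# Basic facts on places of a function field (helper627)

* `mem_iff_ord_nonneg`, `mem_maximalIdeal_iff`: the valuation ring and its maximal ideal in
  terms of `Place.ord`.
* `ord_ofHeightOneSpectrum`: the order function of `Place.ofHeightOneSpectrum w` is the
  `w`-adic order.
* `exists_heightOneSpectrum_eq`: a place containing a Dedekind domain `R` with fraction field
  `F`, and not trivial on it, is the place of a height one prime of `R`.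
-/

set_option autoImplicit false

open AlgebraicCurve IsDedekindDomain

namespace Fermat.Agent.S24.helper627

section Basics

variable {K F : Type*} [Field K] [Field F] [Algebra K F] (v : Place K F)

theorem mem_of_ord_nonneg {f : F} (hf : 0 ≤ v.ord f) : f ∈ v.toValuationSubring := by
  rcases eq_or_ne f 0 with rfl | hf0
  · exact zero_mem _
  obtain ⟨ϖ, hϖ⟩ := IsDiscreteValuationRing.exists_irreducible v.toValuationSubring
  obtain ⟨u, hu⟩ := v.exists_unit_mul_zpow hf0 hϖ
  rw [hu]
  refine mul_mem (u : v.toValuationSubring).2 ?_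
  obtain ⟨n, hn⟩ := Int.eq_ofNat_of_zero_le hf
  rw [hn, zpow_natCast]
  exact pow_mem ϖ.2 n

theorem ord_nonneg_of_mem {f : F} (hf : f ∈ v.toValuationSubring) : 0 ≤ v.ord f := by
  rcases (v.adicValuation_le_one_iff).mp (v.adicValuation_le_one_of_mem hf) with h | h
  · simp [h]
  · exact h

theorem mem_iff_ord_nonneg {f : F} (_hf : f ≠ 0) : f ∈ v.toValuationSubring ↔ 0 ≤ v.ord f :=
  ⟨ord_nonneg_of_mem v, mem_of_ord_nonneg v⟩

theorem mem_maximalIdeal_iff (a : v.toValuationSubring) :
    a ∈ IsLocalRing.maximalIdeal v.toValuationSubring ↔ a = 0 ∨ 0 < v.ord (a : F) := by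
  rcases eq_or_ne a 0 with rfl | ha
  · simp
  have ha' : (a : F) ≠ 0 := by simpa [ne_eq, ZeroMemClass.coe_eq_zero] using ha
  rw [or_iff_right ha, ← Place.heightOneSpectrum_asIdeal,
    ← HeightOneSpectrum.intValuation_lt_one_iff_mem, ← v.adicValuation_coe,
    v.adicValuation_eq_exp_neg_ord ha', ← WithZero.exp_zero, WithZero.exp_lt_exp]
  omega

theorem ord_pos_of_mem_maximalIdeal {a : v.toValuationSubring}
    (ha : a ∈ IsLocalRing.maximalIdeal v.toValuationSubring) (ha0 : a ≠ 0) :
    0 < v.ord (a : F) :=
  ((mem_maximalIdeal_iff v a).mp ha).resolve_left ha0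

end Basics

section Normalisation

variable {K F : Type*} [Field K] [Field F] [Algebra K F]
variable {R : Type*} [CommRing R] [IsDedekindDomain R] [Algebra R F] [IsFractionRing R F]
  [Algebra K R] [IsScalarTower K R F]

/-- A unit of the valuation subring of a valuation has valuation one. -/
theorem valuation_coe_unit {Γ : Type*} [LinearOrderedCommGroupWithZero Γ] (val : Valuation F Γ)
    (u : (val.valuationSubring)ˣ) :
    val ((u : val.valuationSubring) : F) = 1 := by
  have h1 : val ((u : val.valuationSubring) : F) ≤ 1 :=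
    (Valuation.mem_valuationSubring_iff _ _).mp (u : val.valuationSubring).2
  have h2 : val (((u⁻¹ : (val.valuationSubring)ˣ) : val.valuationSubring) : F) ≤ 1 :=
    (Valuation.mem_valuationSubring_iff _ _).mp
      ((u⁻¹ : (val.valuationSubring)ˣ) : val.valuationSubring).2
  have h3 : ((u : val.valuationSubring) : F) *
      (((u⁻¹ : (val.valuationSubring)ˣ) : val.valuationSubring) : F) = 1 := by
    exact_mod_cast congrArg Subtype.val u.mul_inv
  have h4 := congrArg val h3
  rw [map_mul, map_one] at h4
  refine le_antisymm h1 ?_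
  by_contra hlt
  rw [not_le] at hlt
  have : val ((u : val.valuationSubring) : F) *
      val (((u⁻¹ : (val.valuationSubring)ˣ) : val.valuationSubring) : F) < 1 :=
    calc _ ≤ val ((u : val.valuationSubring) : F) * 1 := mul_le_mul_right h2 _
      _ < 1 := by rwa [mul_one]
  exact absurd h4 (ne_of_lt this)

/-- Normalisation: the order function of the place attached to a height one prime `w` of a
Dedekind domain is the `w`-adic order. -/
theorem ord_ofHeightOneSpectrum (w : HeightOneSpectrum R) (f : F) :
    (Place.ofHeightOneSpectrum (K := K) w).ord f = -(WithZero.log (w.valuation F f)) := by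
  set v : Place K F := Place.ofHeightOneSpectrum (K := K) w with hv
  rcases eq_or_ne f 0 with rfl | hf
  · simp
  obtain ⟨ϖ, hϖ⟩ := IsDiscreteValuationRing.exists_irreducible v.toValuationSubring
  obtain ⟨π', hπ''⟩ := w.valuation_exists_uniformizer' F
  have hπ' : w.valuation F (algebraMap R F π') = WithZero.exp (-1 : ℤ) := hπ''
  have hϖ0 : (ϖ : F) ≠ 0 := by
    simpa [ne_eq, ZeroMemClass.coe_eq_zero] using hϖ.ne_zero
  have hπ0 : (algebraMap R F π') ≠ 0 := by
    intro h
    rw [h, map_zero] at hπ'
    exact WithZero.zero_ne_coe hπ'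
  -- valuation of units
  have hunit : ∀ u : v.toValuationSubringˣ,
      w.valuation F ((u : v.toValuationSubring) : F) = 1 := fun u =>
    valuation_coe_unit (w.valuation F) u
  -- the valuation of `ϖ` is `< 1`
  have hϖle : w.valuation F (ϖ : F) ≤ 1 :=
    (Valuation.mem_valuationSubring_iff _ _).mp ϖ.2
  have hϖne : w.valuation F (ϖ : F) ≠ 1 := by
    intro h1
    apply hϖ.not_isUnit
    have hinv : (ϖ : F)⁻¹ ∈ v.toValuationSubring := by
      show (ϖ : F)⁻¹ ∈ (w.valuation F).valuationSubring
      rw [Valuation.mem_valuationSubring_iff, map_inv₀, h1, inv_one]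
    refine IsUnit.of_mul_eq_one ⟨(ϖ : F)⁻¹, hinv⟩ ?_
    ext
    simp [hϖ0]
  set a : ℤ := WithZero.log (w.valuation F (ϖ : F)) with ha
  have hval_ne : w.valuation F (ϖ : F) ≠ 0 := (Valuation.ne_zero_iff _).mpr hϖ0
  have ha_neg : a < 0 := by
    have : w.valuation F (ϖ : F) < 1 := lt_of_le_of_ne hϖle hϖne
    rw [ha, ← WithZero.log_one (M := ℤ)]
    exact (WithZero.log_lt_log hval_ne one_ne_zero).mpr this
  -- general formula
  have key : ∀ g : F, g ≠ 0 → WithZero.log (w.valuation F g) = v.ord g * a := by
    intro g hg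
    obtain ⟨u, hu⟩ := v.exists_unit_mul_zpow hg hϖ
    conv_lhs => rw [hu]
    rw [map_mul, hunit u, one_mul, map_zpow₀, WithZero.log_zpow]
    simp [ha]
  have h1 := key _ hπ0
  rw [hπ', WithZero.log_exp] at h1
  have ha1 : a = -1 := by
    have hdvd : a ∣ 1 := ⟨-(v.ord (algebraMap R F π')), by linarith⟩
    have h0 : 0 ≤ -a := by linarith
    have h2 : -a ∣ 1 := (neg_dvd).mpr hdvd
    have h3 := Int.eq_one_of_dvd_one h0 h2
    linarith
  rw [key f hf, ha1]
  ring

end Normalisation

section FromPrime

variable {K F : Type*} [Field K] [Field F] [Algebra K F]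
variable {R : Type*} [CommRing R] [IsDedekindDomain R] [Algebra R F] [IsFractionRing R F]
  [Algebra K R] [IsScalarTower K R F]

/-- A place whose valuation ring contains the Dedekind domain `R` (with fraction field `F`) and
whose maximal ideal contains a nonzero element of `R` is the place of a height one prime of
`R`. -/
theorem exists_heightOneSpectrum_eq (v : Place K F)
    (hR : ∀ r : R, algebraMap R F r ∈ v.toValuationSubring)
    (hne : ∃ r : R, r ≠ 0 ∧ 0 < v.ord (algebraMap R F r)) :
    ∃ w : HeightOneSpectrum R, Place.ofHeightOneSpectrum (K := K) w = v ∧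
      ∀ r : R, r ∈ w.asIdeal ↔ r = 0 ∨ 0 < v.ord (algebraMap R F r) := by
  classical
  let φ : R →+* v.toValuationSubring :=
    (algebraMap R F).codRestrict v.toValuationSubring.toSubring hR
  have hφ : ∀ r : R, ((φ r : v.toValuationSubring) : F) = algebraMap R F r := fun r => rfl
  have hφ0 : ∀ r : R, φ r = 0 ↔ r = 0 := by
    intro r
    rw [← Subtype.coe_inj, hφ, ZeroMemClass.coe_zero]
    exact (map_eq_zero_iff _ (IsFractionRing.injective R F))
  let P : Ideal R := (IsLocalRing.maximalIdeal v.toValuationSubring).comap φ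
  have hPmem : ∀ r : R, r ∈ P ↔ r = 0 ∨ 0 < v.ord (algebraMap R F r) := by
    intro r
    show φ r ∈ IsLocalRing.maximalIdeal v.toValuationSubring ↔ _
    rw [mem_maximalIdeal_iff, hφ0, hφ]
  have hPprime : P.IsPrime := Ideal.comap_isPrime φ _
  have hPne : P ≠ ⊥ := by
    obtain ⟨r, hr0, hr⟩ := hne
    intro hbot
    have : r ∈ P := (hPmem r).mpr (Or.inr hr)
    rw [hbot, Ideal.mem_bot] at this
    exact hr0 this
  let w : HeightOneSpectrum R := ⟨P, hPprime, hPne⟩
  refine ⟨w, ?_, hPmem⟩
  have hle : (w.valuation F).valuationSubring ≤ v.toValuationSubring := by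
    intro x hx
    rw [Valuation.mem_valuationSubring_iff] at hx
    obtain ⟨n, d, hnd⟩ := w.exists_primeCompl_mul_eq_of_integer x hx
    have hd : (d : R) ∉ P := d.2
    have hdunit : IsUnit (φ d) := by
      by_contra hnu
      exact hd ((IsLocalRing.mem_maximalIdeal _).mpr hnu)
    obtain ⟨u, hu⟩ := hdunit
    have hd0 : algebraMap R F (d : R) ≠ 0 := by
      rw [← hφ, ← hu]
      simp
    have hx' : x = ((φ n * (u⁻¹ : (v.toValuationSubring)ˣ) : v.toValuationSubring) : F) := by
      have h1 : (((u⁻¹ : (v.toValuationSubring)ˣ) : v.toValuationSubring) : F)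
          = (algebraMap R F (d : R))⁻¹ := by
        rw [← hφ, ← hu]
        have h2 : ((u : v.toValuationSubring) : F) *
            (((u⁻¹ : (v.toValuationSubring)ˣ) : v.toValuationSubring) : F) = 1 := by
          exact_mod_cast congrArg Subtype.val u.mul_inv
        exact eq_inv_of_mul_eq_one_right h2
      rw [MulMemClass.coe_mul, h1, hφ, ← hnd]
      field_simp
    rw [hx']
    exact SetLike.coe_mem _
  have heq : (w.valuation F).valuationSubring = v.toValuationSubring := by
    have h1 := HeightOneSpectrum.valuationSubringAtPrime_eq_valuationSubring (K := F) w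
    rw [← h1] at hle ⊢
    exact ValuationSubring.eq_of_le_of_ne_top _ hle v.ne_top'
  exact Place.ext heq

end FromPrime

end Fermat.Agent.S24.helper627
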