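import Mathlib

/-!
# S24, module MOD-H (helper580): holomorphic functions on the upper half plane

* `Hol`  : the `ℂ`-algebra of holomorphic functions `ℍ → ℂ` (a domain);
* `Mer`  : its fraction field;
* `ordAt τ₀ : AddValuation Mer (WithTop ℤ)` : order of vanishing at `τ₀`;
* `pull g : Mer ≃ₐ[ℂ] Mer` : composition with `τ ↦ g • τ` for `g : SL(2, ℤ)`;
* stabilizer lemmas: an element of `Mer` fixed by `pull g`, where `g • τ₀ = τ₀`, has order `n`
  at `τ₀` with `(1 / (c τ₀ + d) ^ 2) ^ n = 1`; in particular the order is even at `i` for `g = S`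
  and divisible by three at `ρ` for `g = S * T`.
-/

set_option autoImplicit false

open UpperHalfPlane Filter Topology
open scoped MatrixGroups Manifold

namespace Fermat.Agent.S24.helper580

noncomputable section

/-! ## The ring of holomorphic functions -/

/-- The `ℂ`-algebra of holomorphic functions on the upper half plane. -/
def Hol : Subalgebra ℂ (ℍ → ℂ) where
  carrier := {f | MDifferentiable 𝓘(ℂ) 𝓘(ℂ) f}
  mul_mem' hf hg := hf.mul hg
  add_mem' hf hg := hf.add hg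
  algebraMap_mem' _ := mdifferentiable_const

theorem mem_Hol {f : ℍ → ℂ} : f ∈ Hol ↔ MDifferentiable 𝓘(ℂ) 𝓘(ℂ) f := Iff.rfl

theorem Hol.mdiff (f : Hol) : MDifferentiable 𝓘(ℂ) 𝓘(ℂ) (f : ℍ → ℂ) := f.2

/-- Constructor for elements of `Hol`. -/
def Hol.mk (f : ℍ → ℂ) (hf : MDifferentiable 𝓘(ℂ) 𝓘(ℂ) f) : Hol := ⟨f, hf⟩

@[simp] theorem Hol.mk_apply (f : ℍ → ℂ) (hf : MDifferentiable 𝓘(ℂ) 𝓘(ℂ) f) (τ : ℍ) :
    (Hol.mk f hf : ℍ → ℂ) τ = f τ := rfl

theorem Hol.ext {f g : Hol} (h : ∀ τ, (f : ℍ → ℂ) τ = (g : ℍ → ℂ) τ) : f = g :=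
  Subtype.ext (funext h)

theorem Hol.algebraMap_apply (c : ℂ) (τ : ℍ) : ((algebraMap ℂ Hol c : Hol) : ℍ → ℂ) τ = c := rfl

instance : IsDomain Hol := by
  have : NoZeroDivisors Hol := by
    refine ⟨fun {f g} h ↦ ?_⟩
    have h' : (f : ℍ → ℂ) * (g : ℍ → ℂ) = 0 := congrArg Subtype.val h
    rcases (UpperHalfPlane.mul_eq_zero_iff f.2 g.2).mp h' with h0 | h0
    · exact Or.inl (Subtype.ext h0)
    · exact Or.inr (Subtype.ext h0)
  have : Nontrivial Hol := by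
    refine ⟨⟨0, 1, fun h ↦ ?_⟩⟩
    have h' := congrFun (congrArg Subtype.val h) UpperHalfPlane.I
    simp at h'
  exact NoZeroDivisors.to_isDomain Hol

/-- The field of meromorphic functions on the upper half plane (quotients of holomorphic
functions). -/
abbrev Mer : Type := FractionRing Hol

/-- An element of `Hol`, extended to a function on `ℂ`, is analytic at the points of `ℍ`. -/
theorem Hol.analyticAt (f : Hol) (τ : ℍ) : AnalyticAt ℂ ((f : ℍ → ℂ) ∘ ofComplex) (τ : ℂ) :=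
  (UpperHalfPlane.mdifferentiable_iff.mp f.2).analyticAt
    (isOpen_upperHalfPlaneSet.mem_nhds τ.im_pos)

theorem Hol.meromorphicAt (f : Hol) (τ : ℍ) : MeromorphicAt ((f : ℍ → ℂ) ∘ ofComplex) (τ : ℂ) :=
  (Hol.analyticAt f τ).meromorphicAt

/-! ## The order valuation -/

/-- The order of vanishing at `τ₀`, as an additive valuation on `Hol`. -/
def ordHol (τ₀ : ℍ) : AddValuation Hol (WithTop ℤ) :=
  AddValuation.of (fun f ↦ meromorphicOrderAt ((f : ℍ → ℂ) ∘ ofComplex) (τ₀ : ℂ))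
    (meromorphicOrderAt_eq_top_iff.mpr (Eventually.of_forall fun _ ↦ rfl))
    (by
      have h : (((1 : Hol) : ℍ → ℂ) ∘ ofComplex) = fun _ ↦ (1 : ℂ) := rfl
      rw [h, meromorphicOrderAt_const]
      simp)
    (fun f g ↦ meromorphicOrderAt_add (Hol.meromorphicAt f τ₀) (Hol.meromorphicAt g τ₀))
    (fun f g ↦ meromorphicOrderAt_mul (Hol.meromorphicAt f τ₀) (Hol.meromorphicAt g τ₀))

theorem ordHol_apply (τ₀ : ℍ) (f : Hol) :
    ordHol τ₀ f = meromorphicOrderAt ((f : ℍ → ℂ) ∘ ofComplex) (τ₀ : ℂ) := rfl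

theorem ordHol_eq_analyticOrderAt (τ₀ : ℍ) (f : Hol) :
    ordHol τ₀ f = (analyticOrderAt ((f : ℍ → ℂ) ∘ ofComplex) (τ₀ : ℂ)).map Nat.cast :=
  (Hol.analyticAt f τ₀).meromorphicOrderAt_eq

theorem ordHol_eq_top_iff (τ₀ : ℍ) (f : Hol) : ordHol τ₀ f = ⊤ ↔ f = 0 := by
  constructor
  · intro h
    rw [ordHol_apply, meromorphicOrderAt_eq_top_iff, eventually_nhdsWithin_iff] at h
    have h2 : ∀ᶠ z in 𝓝[≠] τ₀, (f : ℍ → ℂ) z = 0 := by
      rw [eventually_nhdsWithin_iff]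
      have h3 := (UpperHalfPlane.continuous_coe.tendsto τ₀).eventually h
      filter_upwards [h3] with z hz hne
      have := hz (fun hh ↦ hne (UpperHalfPlane.ext hh))
      simpa using this
    exact Subtype.ext (UpperHalfPlane.eq_zero_of_frequently f.2 h2.frequently)
  · rintro rfl
    exact (ordHol τ₀).map_zero

theorem ordHol_ne_top (τ₀ : ℍ) {f : Hol} (hf : f ≠ 0) : ordHol τ₀ f ≠ ⊤ :=
  fun h ↦ hf ((ordHol_eq_top_iff τ₀ f).mp h)

theorem nonZeroDivisors_le_primeCompl (τ₀ : ℍ) :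
    nonZeroDivisors Hol ≤ (AddValuation.toValuation (ordHol τ₀)).supp.primeCompl := by
  intro f hf
  show f ∉ (AddValuation.toValuation (ordHol τ₀)).supp
  rw [Valuation.mem_supp_iff]
  intro h
  exact nonZeroDivisors.ne_zero hf ((ordHol_eq_top_iff τ₀ f).mp h)

/-- The order of vanishing at `τ₀`, as an additive valuation on `Mer`. -/
def ordAt (τ₀ : ℍ) : AddValuation Mer (WithTop ℤ) :=
  AddValuation.ofValuation
    ((AddValuation.toValuation (ordHol τ₀)).extendToLocalization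
      (nonZeroDivisors_le_primeCompl τ₀) Mer)

theorem ordAt_algebraMap (τ₀ : ℍ) (f : Hol) : ordAt τ₀ (algebraMap Hol Mer f) = ordHol τ₀ f :=
  Valuation.extendToLocalization_apply_map_apply (AddValuation.toValuation (ordHol τ₀))
    (nonZeroDivisors_le_primeCompl τ₀) Mer f

theorem ordAt_algebraMap_eq_analyticOrderAt (τ₀ : ℍ) (f : Hol) :
    ordAt τ₀ (algebraMap Hol Mer f)
      = (analyticOrderAt ((f : ℍ → ℂ) ∘ ofComplex) (τ₀ : ℂ)).map Nat.cast := by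
  rw [ordAt_algebraMap, ordHol_eq_analyticOrderAt]

theorem ordAt_const (τ₀ : ℍ) {c : ℂ} (hc : c ≠ 0) : ordAt τ₀ (algebraMap ℂ Mer c) = 0 := by
  rw [IsScalarTower.algebraMap_apply ℂ Hol Mer, ordAt_algebraMap, ordHol_apply]
  have h : (((algebraMap ℂ Hol c : Hol) : ℍ → ℂ) ∘ ofComplex) = fun _ ↦ c := rfl
  rw [h, meromorphicOrderAt_const]
  simp [hc]

/-- Every element of `Mer` is a quotient of two elements of `Hol`. -/
theorem exists_eq_div (z : Mer) :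
    ∃ a b : Hol, b ≠ 0 ∧ z * algebraMap Hol Mer b = algebraMap Hol Mer a := by
  obtain ⟨a, b, hb, rfl⟩ := IsFractionRing.div_surjective (A := Hol) z
  refine ⟨a, b, nonZeroDivisors.ne_zero hb, ?_⟩
  have hb' : algebraMap Hol Mer b ≠ 0 := fun h ↦
    nonZeroDivisors.ne_zero hb (IsFractionRing.injective Hol Mer (h.trans (map_zero _).symm))
  field_simp

/-! ## The action of `SL(2, ℤ)` -/

theorem mdifferentiable_comp_smul (g : SL(2, ℤ)) {f : ℍ → ℂ}
    (hf : MDifferentiable 𝓘(ℂ) 𝓘(ℂ) f) :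
    MDifferentiable 𝓘(ℂ) 𝓘(ℂ) (fun τ : ℍ ↦ f (g • τ)) :=
  hf.comp (UpperHalfPlane.mdifferentiable_smul (g := (g : GL (Fin 2) ℝ)) (by simp))

/-- Composition with `τ ↦ g • τ`, as a `ℂ`-algebra endomorphism of `Hol`. -/
def pullHolHom (g : SL(2, ℤ)) : Hol →ₐ[ℂ] Hol where
  toFun f := ⟨fun τ ↦ (f : ℍ → ℂ) (g • τ), mdifferentiable_comp_smul g f.2⟩
  map_one' := rfl
  map_mul' _ _ := rfl
  map_zero' := rfl
  map_add' _ _ := rfl
  commutes' _ := rfl

@[simp] theorem pullHolHom_apply (g : SL(2, ℤ)) (f : Hol) (τ : ℍ) :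
    (pullHolHom g f : ℍ → ℂ) τ = (f : ℍ → ℂ) (g • τ) := rfl

/-- Composition with `τ ↦ g • τ`, as a `ℂ`-algebra automorphism of `Hol`. -/
def pullHol (g : SL(2, ℤ)) : Hol ≃ₐ[ℂ] Hol :=
  AlgEquiv.ofAlgHom (pullHolHom g) (pullHolHom g⁻¹)
    (by ext f τ; simp [pullHolHom_apply, smul_smul])
    (by ext f τ; simp [pullHolHom_apply, smul_smul])

@[simp] theorem pullHol_apply (g : SL(2, ℤ)) (f : Hol) (τ : ℍ) :
    (pullHol g f : ℍ → ℂ) τ = (f : ℍ → ℂ) (g • τ) := rfl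

/-- Composition with `τ ↦ g • τ`, as a `ℂ`-algebra automorphism of `Mer`. -/
def pull (g : SL(2, ℤ)) : Mer ≃ₐ[ℂ] Mer :=
  AlgEquiv.ofRingEquiv (f := IsFractionRing.ringEquivOfRingEquiv (K := Mer) (L := Mer)
    (pullHol g).toRingEquiv) (by
      intro c
      rw [IsScalarTower.algebraMap_apply ℂ Hol Mer, IsFractionRing.ringEquivOfRingEquiv_algebraMap]
      rfl)

theorem pull_algebraMap (g : SL(2, ℤ)) (f : Hol) :
    pull g (algebraMap Hol Mer f) = algebraMap Hol Mer (pullHol g f) :=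
  IsFractionRing.ringEquivOfRingEquiv_algebraMap (K := Mer) (L := Mer) (pullHol g).toRingEquiv f

/-- Two ring homomorphisms out of `Mer` that agree on `Hol` are equal. -/
theorem Mer.ringHom_ext {P : Type*} [CommSemiring P] {j k : Mer →+* P}
    (h : ∀ f : Hol, j (algebraMap Hol Mer f) = k (algebraMap Hol Mer f)) : j = k :=
  IsLocalization.ringHom_ext (nonZeroDivisors Hol) (RingHom.ext h)

theorem pull_pull (g h : SL(2, ℤ)) (z : Mer) : pull g (pull h z) = pull (h * g) z := by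
  have key : ((pull g : Mer ≃ₐ[ℂ] Mer) : Mer →+* Mer).comp ((pull h : Mer ≃ₐ[ℂ] Mer) : Mer →+* Mer)
      = ((pull (h * g) : Mer ≃ₐ[ℂ] Mer) : Mer →+* Mer) := by
    refine Mer.ringHom_ext fun f ↦ ?_
    show pull g (pull h (algebraMap Hol Mer f)) = pull (h * g) (algebraMap Hol Mer f)
    rw [pull_algebraMap, pull_algebraMap, pull_algebraMap]
    congr 1
    refine Hol.ext fun τ ↦ ?_
    simp [pullHol_apply, mul_smul]
  exact congrArg (fun φ : Mer →+* Mer ↦ φ z) key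

theorem pull_one (z : Mer) : pull 1 z = z := by
  have key : ((pull 1 : Mer ≃ₐ[ℂ] Mer) : Mer →+* Mer) = RingHom.id Mer := by
    refine Mer.ringHom_ext fun f ↦ ?_
    show pull 1 (algebraMap Hol Mer f) = algebraMap Hol Mer f
    rw [pull_algebraMap]
    congr 1
    refine Hol.ext fun τ ↦ ?_
    simp [pullHol_apply]
  exact congrArg (fun φ : Mer →+* Mer ↦ φ z) key

theorem pull_neg (g : SL(2, ℤ)) (z : Mer) : pull (-g) z = pull g z := by
  have key : ((pull (-g) : Mer ≃ₐ[ℂ] Mer) : Mer →+* Mer)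
      = ((pull g : Mer ≃ₐ[ℂ] Mer) : Mer →+* Mer) := by
    refine Mer.ringHom_ext fun f ↦ ?_
    show pull (-g) (algebraMap Hol Mer f) = pull g (algebraMap Hol Mer f)
    rw [pull_algebraMap, pull_algebraMap]
    congr 1
    refine Hol.ext fun τ ↦ ?_
    simp [pullHol_apply]
  exact congrArg (fun φ : Mer →+* Mer ↦ φ z) key

theorem iterate_pull (g : SL(2, ℤ)) (k : ℕ) (z : Mer) : (pull g)^[k] z = pull (g ^ k) z := by
  induction k generalizing z with
  | zero => simp [pull_one]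
  | succ k ih =>
    rw [Function.iterate_succ_apply, ih, pull_pull, pow_succ']

theorem det_coe_pos (g : SL(2, ℤ)) : 0 < ((g : GL (Fin 2) ℝ).val).det := by
  rw [← Matrix.GeneralLinearGroup.val_det_apply]
  simp

theorem ordHol_pullHol (g : SL(2, ℤ)) (τ₀ : ℍ) (f : Hol) :
    ordHol τ₀ (pullHol g f) = ordHol (g • τ₀) f := by
  rw [ordHol_apply, ordHol_apply]
  exact UpperHalfPlane.meromorphicOrderAt_comp_smul (f := (f : ℍ → ℂ)) (τ := τ₀)
    (g := (g : GL (Fin 2) ℝ)) (det_coe_pos g)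

theorem ordAt_pull (g : SL(2, ℤ)) (τ₀ : ℍ) (z : Mer) :
    ordAt τ₀ (pull g z) = ordAt (g • τ₀) z := by
  obtain ⟨a, b, hb, hz⟩ := exists_eq_div z
  have h1 : ordAt τ₀ (pull g z) + ordHol (g • τ₀) b = ordHol (g • τ₀) a := by
    have := congrArg (fun w ↦ ordAt τ₀ (pull g w)) hz
    simp only [map_mul, AddValuation.map_mul, pull_algebraMap, ordAt_algebraMap,
      ordHol_pullHol] at this
    exact this
  have h2 : ordAt (g • τ₀) z + ordHol (g • τ₀) b = ordHol (g • τ₀) a := by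
    have := congrArg (fun w ↦ ordAt (g • τ₀) w) hz
    simp only [AddValuation.map_mul, ordAt_algebraMap] at this
    exact this
  exact WithTop.add_right_cancel (ordHol_ne_top (g • τ₀) hb) (h1.trans h2.symm)

theorem ordAt_ne_top (τ₀ : ℍ) {z : Mer} (hz : z ≠ 0) : ordAt τ₀ z ≠ ⊤ :=
  (AddValuation.ne_top_iff (ordAt τ₀)).mpr hz

/-! ## Leading coefficients -/

/-- `F` has order `n` at `x` with leading coefficient `c`. -/
def IsLead (F : ℂ → ℂ) (x : ℂ) (n : ℤ) (c : ℂ) : Prop :=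
  ∃ G : ℂ → ℂ, AnalyticAt ℂ G x ∧ G x = c ∧ ∀ᶠ z in 𝓝[≠] x, F z = (z - x) ^ n * G z

theorem IsLead.unique {F : ℂ → ℂ} {x : ℂ} {n : ℤ} {c c' : ℂ} (h : IsLead F x n c)
    (h' : IsLead F x n c') : c = c' := by
  obtain ⟨G, hG, rfl, hFG⟩ := h
  obtain ⟨G', hG', rfl, hFG'⟩ := h'
  have h1 : ∀ᶠ z in 𝓝[≠] x, G z = G' z := by
    filter_upwards [hFG, hFG', self_mem_nhdsWithin] with z h1 h2 hz
    have hz' : (z - x) ^ n ≠ 0 := zpow_ne_zero _ (sub_ne_zero.mpr hz)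
    exact mul_left_cancel₀ hz' (h1.symm.trans h2)
  have t1 : Tendsto G (𝓝[≠] x) (𝓝 (G x)) := hG.continuousAt.tendsto.mono_left nhdsWithin_le_nhds
  have t2 : Tendsto G' (𝓝[≠] x) (𝓝 (G' x)) :=
    hG'.continuousAt.tendsto.mono_left nhdsWithin_le_nhds
  exact tendsto_nhds_unique (t1.congr' h1) t2

theorem IsLead.mul {F F' : ℂ → ℂ} {x : ℂ} {n n' : ℤ} {c c' : ℂ} (h : IsLead F x n c)
    (h' : IsLead F' x n' c') : IsLead (fun z ↦ F z * F' z) x (n + n') (c * c') := by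
  obtain ⟨G, hG, rfl, hFG⟩ := h
  obtain ⟨G', hG', rfl, hFG'⟩ := h'
  refine ⟨fun z ↦ G z * G' z, hG.mul hG', rfl, ?_⟩
  filter_upwards [hFG, hFG', self_mem_nhdsWithin] with z h1 h2 hz
  rw [h1, h2, zpow_add₀ (sub_ne_zero.mpr hz)]
  ring

theorem IsLead.comp {F : ℂ → ℂ} {x : ℂ} {n : ℤ} {c : ℂ} (h : IsLead F x n c)
    {φ : ℂ → ℂ} (hφ : AnalyticAt ℂ φ x) (hφx : φ x = x) (hd : deriv φ x ≠ 0) :
    IsLead (fun z ↦ F (φ z)) x n (c * deriv φ x ^ n) := by
  obtain ⟨G, hG, rfl, hFG⟩ := h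
  have hψa : AnalyticAt ℂ (dslope φ x) x := by
    obtain ⟨p, hp⟩ := hφ
    exact hp.has_fpower_series_dslope_fslope.analyticAt
  have hψx : dslope φ x x = deriv φ x := dslope_same φ x
  have hfac : ∀ z, φ z - x = (z - x) * dslope φ x z := by
    intro z
    have := sub_smul_dslope φ x z
    rw [smul_eq_mul, hφx] at this
    exact this.symm
  have hψ0 : dslope φ x x ≠ 0 := by rw [hψx]; exact hd
  have hψne : ∀ᶠ z in 𝓝 x, dslope φ x z ≠ 0 := hψa.continuousAt.eventually_ne hψ0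
  have hφt : Tendsto φ (𝓝[≠] x) (𝓝[≠] x) := by
    rw [tendsto_nhdsWithin_iff]
    refine ⟨?_, ?_⟩
    · have : Tendsto φ (𝓝 x) (𝓝 (φ x)) := hφ.continuousAt.tendsto
      rw [hφx] at this
      exact this.mono_left nhdsWithin_le_nhds
    · filter_upwards [nhdsWithin_le_nhds hψne, self_mem_nhdsWithin] with z h1 hz
      show φ z ≠ x
      rw [← sub_ne_zero, hfac]
      exact mul_ne_zero (sub_ne_zero.mpr hz) h1
  refine ⟨fun z ↦ dslope φ x z ^ n * G (φ z), ?_, ?_, ?_⟩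
  · have h1 : AnalyticAt ℂ (fun z ↦ dslope φ x z ^ n) x := hψa.fun_zpow hψ0
    have hG' : AnalyticAt ℂ G (φ x) := by rw [hφx]; exact hG
    have h2 : AnalyticAt ℂ (fun z ↦ G (φ z)) x := hG'.comp hφ
    exact h1.mul h2
  · simp only [hψx, hφx]
    ring
  · filter_upwards [hφt.eventually hFG] with z h1
    rw [h1, hfac, mul_zpow]
    ring

theorem exists_isLead (τ₀ : ℍ) {a : Hol} (ha : a ≠ 0) :
    ∃ (p : ℤ) (c : ℂ), ordHol τ₀ a = p ∧ c ≠ 0 ∧ IsLead ((a : ℍ → ℂ) ∘ ofComplex) τ₀ p c := by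
  obtain ⟨p, hp⟩ := WithTop.ne_top_iff_exists.mp (ordHol_ne_top τ₀ ha)
  obtain ⟨G, hG, hG0, hGe⟩ :=
    (meromorphicOrderAt_eq_int_iff (Hol.meromorphicAt a τ₀)).mp hp.symm
  exact ⟨p, G τ₀, hp.symm, hG0, G, hG, rfl, by simpa [smul_eq_mul] using hGe⟩

/-! ## The stabilizer lemma -/

/-- If `g` fixes `τ₀` and `z ≠ 0` is invariant under `pull g`, then `μ ^ ord z = 1`, where
`μ = 1 / (c τ₀ + d) ^ 2` is the derivative of `τ ↦ g • τ` at `τ₀`. -/
theorem exists_ordAt_eq_and_zpow_eq_one {g : SL(2, ℤ)} {τ₀ : ℍ} (hfix : g • τ₀ = τ₀) {z : Mer}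
    (hz : z ≠ 0) (hinv : pull g z = z) :
    ∃ n : ℤ, ordAt τ₀ z = n ∧ (1 / denom (g : GL (Fin 2) ℝ) (τ₀ : ℂ) ^ 2) ^ n = 1 := by
  obtain ⟨a, b, hb, hzb⟩ := exists_eq_div z
  have hb' : algebraMap Hol Mer b ≠ 0 := fun h ↦
    hb (IsFractionRing.injective Hol Mer (h.trans (map_zero _).symm))
  have ha : a ≠ 0 := by
    rintro rfl
    rw [map_zero] at hzb
    exact (mul_ne_zero hz hb') hzb
  have hcross : a * pullHol g b = pullHol g a * b := by
    apply IsFractionRing.injective Hol Mer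
    have h2 : z * algebraMap Hol Mer (pullHol g b) = algebraMap Hol Mer (pullHol g a) := by
      have := congrArg (pull g) hzb
      rwa [map_mul, hinv, pull_algebraMap, pull_algebraMap] at this
    rw [map_mul, map_mul, ← hzb, ← h2]
    ring
  obtain ⟨p, ca, hpa, hca, hLa⟩ := exists_isLead τ₀ ha
  obtain ⟨q, cb, hqb, hcb, hLb⟩ := exists_isLead τ₀ hb
  have hφa : AnalyticAt ℂ (fun w : ℂ ↦ ((g • ofComplex w : ℍ) : ℂ)) τ₀ :=
    UpperHalfPlane.analyticAt_smul (g := (g : GL (Fin 2) ℝ)) (det_coe_pos g) τ₀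
  have hφx : (fun w : ℂ ↦ ((g • ofComplex w : ℍ) : ℂ)) τ₀ = τ₀ := by
    show ((g • ofComplex (τ₀ : ℂ) : ℍ) : ℂ) = τ₀
    rw [ofComplex_apply, hfix]
  have hφd : deriv (fun w : ℂ ↦ ((g • ofComplex w : ℍ) : ℂ)) τ₀
      = 1 / denom (g : GL (Fin 2) ℝ) (τ₀ : ℂ) ^ 2 := by
    have h1 := UpperHalfPlane.deriv_smul (g := (g : GL (Fin 2) ℝ)) (det_coe_pos g) τ₀
    have h2 : ((g : GL (Fin 2) ℝ).val).det = 1 := by
      rw [← Matrix.GeneralLinearGroup.val_det_apply]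
      simp
    rw [h2] at h1
    simpa using h1
  have hd0 : deriv (fun w : ℂ ↦ ((g • ofComplex w : ℍ) : ℂ)) τ₀ ≠ 0 :=
    UpperHalfPlane.deriv_smul_ne_zero (g := (g : GL (Fin 2) ℝ)) (det_coe_pos g) τ₀
  have hLa' := hLa.comp hφa hφx hd0
  have hLb' := hLb.comp hφa hφx hd0
  have L1 := hLa.mul hLb'
  have L2 := hLa'.mul hLb
  have hfun : (fun w : ℂ ↦ ((a : ℍ → ℂ) ∘ ofComplex) w
        * ((b : ℍ → ℂ) ∘ ofComplex) ((g • ofComplex w : ℍ) : ℂ))
      = fun w : ℂ ↦ ((a : ℍ → ℂ) ∘ ofComplex) ((g • ofComplex w : ℍ) : ℂ)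
        * ((b : ℍ → ℂ) ∘ ofComplex) w := by
    funext w
    have := congrFun (congrArg Subtype.val hcross) (ofComplex w)
    simpa [ofComplex_apply] using this
  rw [hfun] at L1
  have hc := L1.unique L2
  rw [hφd] at hc hd0
  set μ : ℂ := 1 / denom (g : GL (Fin 2) ℝ) (τ₀ : ℂ) ^ 2 with hμ
  have hμpq : μ ^ q = μ ^ p := by
    have h3 : ca * cb * μ ^ q = ca * cb * μ ^ p := by
      rw [show ca * cb * μ ^ q = ca * (cb * μ ^ q) by ring, hc]
      ring
    exact mul_left_cancel₀ (mul_ne_zero hca hcb) h3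
  refine ⟨p - q, ?_, ?_⟩
  · have h4 := congrArg (ordAt τ₀) hzb
    rw [AddValuation.map_mul, ordAt_algebraMap, ordAt_algebraMap, hpa, hqb] at h4
    obtain ⟨n, hn⟩ := WithTop.ne_top_iff_exists.mp (ordAt_ne_top τ₀ hz)
    rw [← hn] at h4 ⊢
    have h5 : n + q = p := by exact_mod_cast h4
    rw [← h5]
    simp
  · rw [zpow_sub₀ hd0, hμpq, div_self (zpow_ne_zero _ hd0)]

theorem pull_eq_of_iterate {g : SL(2, ℤ)} {m : ℕ} (hm : m.Prime) (hgm : g ^ m = 1 ∨ g ^ m = -1)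
    {k : ℕ} (hk : ¬ m ∣ k) {z : Mer} (hz : (pull g)^[k] z = z) : pull g z = z := by
  have hcop : Nat.Coprime k m := ((Nat.Prime.coprime_iff_not_dvd hm).mpr hk).symm
  obtain ⟨a, -, ha⟩ := Nat.exists_mul_mod_eq_one_of_coprime hcop hm.one_lt
  have h1 : (pull g)^[k * a] z = z := by
    rw [Function.iterate_mul]
    exact Function.IsFixedPt.iterate hz a
  rw [iterate_pull] at h1
  have h2 : k * a = m * (k * a / m) + 1 := by
    have := Nat.div_add_mod (k * a) m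
    omega
  have h3 : g ^ (k * a) = g ∨ g ^ (k * a) = -g := by
    rw [h2, pow_succ, pow_mul]
    rcases hgm with h | h
    · left
      rw [h, one_pow, one_mul]
    · rw [h]
      rcases neg_one_pow_eq_or (SL(2, ℤ)) (k * a / m) with h' | h'
      · left
        rw [h', one_mul]
      · right
        rw [h', neg_one_mul]
  rcases h3 with h | h
  · rwa [h] at h1
  · rwa [h, pull_neg] at h1

/-- The divisibility hypothesis of the orbit counting lemma at a point `τ₀` fixed by `g`,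
when `g` has prime order `m` in `PSL(2, ℤ)` and the multiplier `μ` has order `m`. -/
theorem hdiv_of_stabilizer {g : SL(2, ℤ)} {τ₀ : ℍ} (hfix : g • τ₀ = τ₀) {m : ℕ} (hm : m.Prime)
    (hgm : g ^ m = 1 ∨ g ^ m = -1)
    (hμ : ∀ n : ℤ, (1 / denom (g : GL (Fin 2) ℝ) (τ₀ : ℂ) ^ 2) ^ n = 1 → (m : ℤ) ∣ n) :
    ∀ (k : ℕ) (z : Mer), z ≠ 0 → (pull g)^[k] z = z →
      ∃ l : ℤ, ordAt τ₀ z = (((m / Nat.gcd k m : ℕ) * l : ℤ) : WithTop ℤ) := by
  intro k z hz hk
  by_cases hdvd : m ∣ k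
  · obtain ⟨n, hn⟩ := WithTop.ne_top_iff_exists.mp (ordAt_ne_top τ₀ hz)
    refine ⟨n, ?_⟩
    rw [Nat.gcd_eq_right hdvd, Nat.div_self hm.pos, ← hn]
    simp
  · have hcop : Nat.gcd k m = 1 := ((Nat.Prime.coprime_iff_not_dvd hm).mpr hdvd).symm
    have hinv := pull_eq_of_iterate hm hgm hdvd hk
    obtain ⟨n', hn', hμn⟩ := exists_ordAt_eq_and_zpow_eq_one hfix hz hinv
    obtain ⟨l, hl⟩ := hμ n' hμn
    refine ⟨l, ?_⟩
    rw [hcop, Nat.div_one, hn', hl]

/-! ## The elliptic point `i` -/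

theorem S_smul_I : ModularGroup.S • UpperHalfPlane.I = UpperHalfPlane.I := by
  rw [UpperHalfPlane.modular_S_smul]
  ext
  simp

theorem S_pow_two : ModularGroup.S ^ 2 = -1 := by
  apply Subtype.ext
  rw [pow_two, Matrix.SpecialLinearGroup.coe_mul, ModularGroup.S_mul_S_eq]
  simp

theorem hdiv_S : ∀ (k : ℕ) (z : Mer), z ≠ 0 → (pull ModularGroup.S)^[k] z = z →
    ∃ l : ℤ, ordAt UpperHalfPlane.I z = (((2 / Nat.gcd k 2 : ℕ) * l : ℤ) : WithTop ℤ) := by
  refine hdiv_of_stabilizer S_smul_I Nat.prime_two (Or.inr S_pow_two) ?_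
  intro n hn
  have h1 : denom (ModularGroup.S : GL (Fin 2) ℝ) (UpperHalfPlane.I : ℂ) = Complex.I :=
    ModularGroup.denom_S UpperHalfPlane.I
  rw [h1] at hn
  have h2 : (1 / Complex.I ^ 2 : ℂ) = -1 := by simp
  rw [h2] at hn
  rcases Int.even_or_odd n with he | ho
  · exact he.two_dvd
  · rw [ho.neg_one_zpow] at hn
    norm_num at hn

/-! ## The elliptic point `ρ` -/

/-- The elliptic point `ρ = -1/2 + (√3/2) i`. -/
def rho : ℍ := ⟨⟨-1 / 2, Real.sqrt 3 / 2⟩, by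
  show 0 < Real.sqrt 3 / 2
  positivity⟩

theorem rho_sq_add : ((rho : ℍ) : ℂ) ^ 2 + (rho : ℂ) + 1 = 0 := by
  have h3 : Real.sqrt 3 * Real.sqrt 3 = 3 := Real.mul_self_sqrt (by norm_num)
  have hr : ((rho : ℍ) : ℂ) = ⟨-1 / 2, Real.sqrt 3 / 2⟩ := rfl
  rw [hr]
  apply Complex.ext
  · simp [pow_two]
    nlinarith
  · simp [pow_two]
    ring

theorem coe_ST : ((ModularGroup.S * ModularGroup.T : SL(2, ℤ)) : Matrix (Fin 2) (Fin 2) ℤ)
    = !![0, -1; 1, 1] := by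
  rw [Matrix.SpecialLinearGroup.coe_mul, ModularGroup.coe_S, ModularGroup.coe_T]
  ext i j
  fin_cases i <;> fin_cases j <;> simp [Matrix.mul_apply, Fin.sum_univ_two]

theorem ST_pow_three : (ModularGroup.S * ModularGroup.T) ^ 3 = -1 := by
  apply Subtype.ext
  rw [pow_succ, pow_two, Matrix.SpecialLinearGroup.coe_mul, Matrix.SpecialLinearGroup.coe_mul,
    coe_ST]
  ext i j
  fin_cases i <;> fin_cases j <;> simp [Matrix.mul_apply, Fin.sum_univ_two]

theorem rho_add_one_ne_zero : ((rho : ℍ) : ℂ) + 1 ≠ 0 := by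
  intro h
  have h2 := rho_sq_add
  have h3 : ((rho : ℍ) : ℂ) ^ 2 + (rho : ℂ) + 1 = (rho : ℂ) * ((rho : ℂ) + 1) + 1 := by ring
  rw [h3, h, mul_zero, zero_add] at h2
  exact one_ne_zero h2

theorem ST_smul_rho : (ModularGroup.S * ModularGroup.T) • rho = rho := by
  apply UpperHalfPlane.ext
  rw [UpperHalfPlane.coe_specialLinearGroup_apply]
  have h00 : (ModularGroup.S * ModularGroup.T : SL(2, ℤ)) 0 0 = 0 := by
    show ((ModularGroup.S * ModularGroup.T : SL(2, ℤ)) : Matrix (Fin 2) (Fin 2) ℤ) 0 0 = 0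
    rw [coe_ST]; rfl
  have h01 : (ModularGroup.S * ModularGroup.T : SL(2, ℤ)) 0 1 = -1 := by
    show ((ModularGroup.S * ModularGroup.T : SL(2, ℤ)) : Matrix (Fin 2) (Fin 2) ℤ) 0 1 = -1
    rw [coe_ST]; rfl
  have h10 : (ModularGroup.S * ModularGroup.T : SL(2, ℤ)) 1 0 = 1 := by
    show ((ModularGroup.S * ModularGroup.T : SL(2, ℤ)) : Matrix (Fin 2) (Fin 2) ℤ) 1 0 = 1
    rw [coe_ST]; rfl
  have h11 : (ModularGroup.S * ModularGroup.T : SL(2, ℤ)) 1 1 = 1 := by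
    show ((ModularGroup.S * ModularGroup.T : SL(2, ℤ)) : Matrix (Fin 2) (Fin 2) ℤ) 1 1 = 1
    rw [coe_ST]; rfl
  rw [h00, h01, h10, h11]
  have hne := rho_add_one_ne_zero
  have h2 := rho_sq_add
  simp only [algebraMap_int_eq, Int.coe_castRingHom, Int.cast_zero, Int.cast_one, Int.cast_neg,
    Complex.ofReal_zero, Complex.ofReal_one, Complex.ofReal_neg, zero_mul, zero_add, one_mul]
  rw [div_eq_iff hne]
  linear_combination -h2

theorem denom_ST_rho :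
    denom ((ModularGroup.S * ModularGroup.T : SL(2, ℤ)) : GL (Fin 2) ℝ) ((rho : ℍ) : ℂ)
      = (rho : ℂ) + 1 := by
  rw [ModularGroup.denom_apply]
  have h10 : (ModularGroup.S * ModularGroup.T : SL(2, ℤ)) 1 0 = 1 := by
    show ((ModularGroup.S * ModularGroup.T : SL(2, ℤ)) : Matrix (Fin 2) (Fin 2) ℤ) 1 0 = 1
    rw [coe_ST]; rfl
  have h11 : (ModularGroup.S * ModularGroup.T : SL(2, ℤ)) 1 1 = 1 := by
    show ((ModularGroup.S * ModularGroup.T : SL(2, ℤ)) : Matrix (Fin 2) (Fin 2) ℤ) 1 1 = 1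
    rw [coe_ST]; rfl
  rw [h10, h11]
  simp

theorem three_dvd_of_zpow_eq_one {ω : ℂ} (h : ω ^ 2 + ω + 1 = 0) (n : ℤ) (hn : ω ^ n = 1) :
    (3 : ℤ) ∣ n := by
  have hω0 : ω ≠ 0 := by
    rintro rfl
    norm_num at h
  have hω3 : ω ^ (3 : ℤ) = 1 := by
    have : ω ^ 3 = 1 := by linear_combination (ω - 1) * h
    exact_mod_cast this
  have hsplit : ω ^ n = ω ^ (n % 3) := by
    conv_lhs => rw [← Int.mul_ediv_add_emod n 3]
    rw [zpow_add₀ hω0, zpow_mul, hω3, one_zpow, one_mul]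
  rw [hsplit] at hn
  have hcases : n % 3 = 0 ∨ n % 3 = 1 ∨ n % 3 = 2 := by omega
  rcases hcases with h0 | h1 | h2
  · exact Int.dvd_of_emod_eq_zero h0
  · exfalso
    rw [h1, zpow_one] at hn
    rw [hn] at h
    norm_num at h
  · exfalso
    rw [h2] at hn
    have hn' : ω ^ 2 = 1 := by exact_mod_cast hn
    have hω : ω = -2 := by linear_combination h - hn'
    rw [hω] at hn'
    norm_num at hn'

theorem hdiv_ST : ∀ (k : ℕ) (z : Mer), z ≠ 0 →
    (pull (ModularGroup.S * ModularGroup.T))^[k] z = z →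
    ∃ l : ℤ, ordAt rho z = (((3 / Nat.gcd k 3 : ℕ) * l : ℤ) : WithTop ℤ) := by
  refine hdiv_of_stabilizer ST_smul_rho Nat.prime_three (Or.inr ST_pow_three) ?_
  intro n hn
  rw [denom_ST_rho] at hn
  refine three_dvd_of_zpow_eq_one ?_ n hn
  have hne := rho_add_one_ne_zero
  have h2 := rho_sq_add
  have h4 : ((rho : ℍ) : ℂ) ≠ 0 := UpperHalfPlane.ne_zero rho
  have h3 : (((rho : ℍ) : ℂ) + 1) ^ 2 = (rho : ℂ) := by linear_combination h2
  rw [h3]
  field_simp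
  linear_combination h2

end

end Fermat.Agent.S24.helper580
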