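/-
S24, MODULE M2-ALG (helper102): the pure-algebra half of "finrank K(j) F = index".

* `exists_relation_descent`: a nonzero algebraic relation of `X`-degree `≤ n` between
  `coeffMap i0 j` and `coeffMap i0 f` over `C` descends to one between `j` and `f` over `K`.
* `isIntegral_natDegree_le_of_relation`: such a relation bounds the degree of `f` over `K⟮j⟯`.
* `finrank_le_of_forall_mem`: bounded degree on a generating subalgebra bounds `finrank`.
* `card_le_finrank_of_injective`: distinct embeddings agreeing on `K⟮j⟯` bound `finrank` below.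
* `finrank_eq_card`: the assembly.
-/
import Mathlib
import Fermat.Prelude.Def_ModularCurve_LaurentCoeff

set_option autoImplicit false

noncomputable section

namespace Fermat.Agent.S24.helper102

open ModularCurve Polynomial IntermediateField

section Descent

variable {K C : Type*} [Field K] [Field C]

/-- Apply an additive map coefficientwise to a polynomial. -/
def polyCoord (φ : C →+ K) (P : Polynomial C) : Polynomial K :=
  ∑ m ∈ P.support, monomial m (φ (P.coeff m))

@[simp]
theorem polyCoord_coeff (φ : C →+ K) (P : Polynomial C) (m : ℕ) :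
    (polyCoord φ P).coeff m = φ (P.coeff m) := by
  classical
  rw [polyCoord, finsetSum_coeff]
  simp only [coeff_monomial, Finset.sum_ite_eq', mem_support_iff]
  split_ifs with h
  · rfl
  · rw [not_not] at h
    rw [h, map_zero]

theorem natDegree_polyCoord_le (φ : C →+ K) (P : Polynomial C) :
    (polyCoord φ P).natDegree ≤ P.natDegree := by
  refine natDegree_le_iff_coeff_eq_zero.mpr fun m hm => ?_
  rw [polyCoord_coeff, coeff_eq_zero_of_natDegree_lt hm, map_zero]

theorem aeval_polyCoord_eq_sum (φ : C →+ K) (P : Polynomial C) {M : ℕ} (hM : P.natDegree < M)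
    (u : LaurentSeries K) :
    aeval u (polyCoord φ P) =
      ∑ m ∈ Finset.range M, algebraMap K (LaurentSeries K) (φ (P.coeff m)) * u ^ m := by
  rw [aeval_def, eval₂_eq_sum_range' _ (lt_of_le_of_lt (natDegree_polyCoord_le φ P) hM)]
  simp

theorem coeff_algebraMap_mul {L : Type*} [Field L] (c : L) (x : LaurentSeries L) (t : ℤ) :
    (algebraMap L (LaurentSeries L) c * x).coeff t = c * x.coeff t := by
  rw [algebraMap_laurentSeries_eq_single, HahnSeries.coeff_single_zero_mul]

/-- Applying a `K`-linear functional coefficientwise to a relation over `C` between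
`coeffMap i0 j` and `coeffMap i0 f` gives a relation over `K` between `j` and `f`. -/
theorem relation_polyCoord (i0 : K →+* C) (φ : C →+ K)
    (hφ : ∀ (a : K) (c : C), φ (i0 a * c) = a * φ c)
    (j f : LaurentSeries K) (n : ℕ) (P : ℕ → Polynomial C)
    (h : ∑ k ∈ Finset.range (n + 1), aeval (coeffMap i0 j) (P k) * coeffMap i0 f ^ k = 0) :
    ∑ k ∈ Finset.range (n + 1), aeval j (polyCoord φ (P k)) * f ^ k = 0 := by
  classical
  obtain ⟨M, hM⟩ : ∃ M, ∀ k ∈ Finset.range (n + 1), (P k).natDegree < M :=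
    ⟨(Finset.range (n + 1)).sup (fun k => (P k).natDegree) + 1, fun k hk =>
      Nat.lt_succ_of_le (Finset.le_sup (f := fun k => (P k).natDegree) hk)⟩
  have h1 : ∑ k ∈ Finset.range (n + 1), ∑ m ∈ Finset.range M,
      algebraMap C (LaurentSeries C) ((P k).coeff m) * coeffMap i0 (j ^ m * f ^ k) = 0 := by
    rw [← h]
    refine Finset.sum_congr rfl fun k hk => ?_
    rw [aeval_def, eval₂_eq_sum_range' _ (hM k hk), Finset.sum_mul]
    refine Finset.sum_congr rfl fun m _ => ?_
    rw [map_mul, map_pow, map_pow, mul_assoc]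
  have h2 : ∑ k ∈ Finset.range (n + 1), aeval j (polyCoord φ (P k)) * f ^ k =
      ∑ k ∈ Finset.range (n + 1), ∑ m ∈ Finset.range M,
        algebraMap K (LaurentSeries K) (φ ((P k).coeff m)) * (j ^ m * f ^ k) := by
    refine Finset.sum_congr rfl fun k hk => ?_
    rw [aeval_polyCoord_eq_sum φ (P k) (hM k hk), Finset.sum_mul]
    refine Finset.sum_congr rfl fun m _ => ?_
    rw [mul_assoc]
  rw [h2]
  ext t
  have h3 := congrArg (fun x : LaurentSeries C => φ (x.coeff t)) h1
  simp only [HahnSeries.coeff_sum, coeff_algebraMap_mul, coeffMap_coeff, HahnSeries.coeff_zero,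
    map_zero, map_sum] at h3 ⊢
  rw [← h3]
  refine Finset.sum_congr rfl fun k _ => Finset.sum_congr rfl fun m _ => ?_
  rw [mul_comm ((P k).coeff m), hφ, mul_comm]

/-- **Descent of algebraic relations** from `LaurentSeries C` to `LaurentSeries K`. -/
theorem exists_relation_descent (i0 : K →+* C) (j f : LaurentSeries K) (n : ℕ)
    (P : ℕ → Polynomial C) (hP : ∃ k ≤ n, P k ≠ 0)
    (h : ∑ k ∈ Finset.range (n + 1), aeval (coeffMap i0 j) (P k) * coeffMap i0 f ^ k = 0) :
    ∃ Q : ℕ → Polynomial K, (∃ k ≤ n, Q k ≠ 0) ∧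
      ∑ k ∈ Finset.range (n + 1), aeval j (Q k) * f ^ k = 0 := by
  obtain ⟨k0, hk0, hPk0⟩ := hP
  obtain ⟨m0, hm0⟩ : ∃ m, (P k0).coeff m ≠ 0 := by
    by_contra hcon
    push Not at hcon
    exact hPk0 (Polynomial.ext (by simpa using hcon))
  let _ : Algebra K C := i0.toAlgebra
  obtain ⟨ψ, hψ⟩ : ∃ ψ : C →ₗ[K] K, ψ ((P k0).coeff m0) ≠ 0 := by
    by_contra hcon
    push Not at hcon
    exact hm0 ((Module.forall_dual_apply_eq_zero_iff K _).mp hcon)
  refine ⟨fun k => polyCoord ψ.toAddMonoidHom (P k), ⟨k0, hk0, ?_⟩,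
    relation_polyCoord i0 ψ.toAddMonoidHom ?_ j f n P h⟩
  · intro hzero
    have := congrArg (fun q => q.coeff m0) hzero
    simp only [polyCoord_coeff, coeff_zero] at this
    exact hψ this
  · intro a c
    have hac : i0 a * c = a • c := (Algebra.smul_def a c).symm
    simp [hac]

end Descent

section FieldTheory

variable {K F : Type*} [Field K] [Field F] [Algebra K F]

theorem aeval_mem_adjoin_simple (j : F) (q : Polynomial K) : aeval j q ∈ K⟮j⟯ :=
  IntermediateField.algebra_adjoin_le_adjoin K {j} (aeval_mem_adjoin_singleton K j)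

/-- A nonzero relation `∑_{k ≤ n} Q_k(j) a^k = 0` with `Q_k ∈ K[Y]` and `j` transcendental
makes `a` algebraic of degree `≤ n` over `K⟮j⟯`. -/
theorem isIntegral_natDegree_le_of_relation (j a : F) (hj : Transcendental K j) (n : ℕ)
    (Q : ℕ → Polynomial K) (hQ : ∃ k ≤ n, Q k ≠ 0)
    (h : ∑ k ∈ Finset.range (n + 1), aeval j (Q k) * a ^ k = 0) :
    IsIntegral K⟮j⟯ a ∧ (minpoly K⟮j⟯ a).natDegree ≤ n := by
  classical
  set R : Polynomial K⟮j⟯ := ∑ k ∈ Finset.range (n + 1),
    Polynomial.C (⟨aeval j (Q k), aeval_mem_adjoin_simple j (Q k)⟩ : K⟮j⟯) * Polynomial.X ^ k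
    with hR
  have hRa : aeval a R = 0 := by
    rw [hR, map_sum, ← h]
    refine Finset.sum_congr rfl fun k _ => ?_
    rw [map_mul, aeval_C, map_pow, aeval_X]
    rfl
  have hR0 : R ≠ 0 := by
    obtain ⟨k0, hk0, hQk0⟩ := hQ
    intro hzero
    have hc : R.coeff k0 = ⟨aeval j (Q k0), aeval_mem_adjoin_simple j (Q k0)⟩ := by
      rw [hR, finsetSum_coeff]
      simp only [coeff_C_mul_X_pow]
      rw [Finset.sum_eq_single k0]
      · simp
      · intro b _ hb
        rw [if_neg (Ne.symm hb)]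
      · intro hk
        exact absurd (Finset.mem_range.mpr (Nat.lt_succ_of_le hk0)) hk
    rw [hzero, coeff_zero] at hc
    have hc' : aeval j (Q k0) = 0 := (congrArg Subtype.val hc).symm
    exact hQk0 ((transcendental_iff.mp hj) _ hc')
  have hdeg : R.natDegree ≤ n := by
    rw [hR]
    refine natDegree_sum_le_of_forall_le _ _ fun k hk => ?_
    exact (natDegree_C_mul_X_pow_le _ _).trans (Nat.lt_succ_iff.mp (Finset.mem_range.mp hk))
  have hint : IsIntegral K⟮j⟯ a := IsAlgebraic.isIntegral ⟨R, hR0, hRa⟩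
  exact ⟨hint, (natDegree_le_natDegree (minpoly.degree_le_of_ne_zero K⟮j⟯ a hR0 hRa)).trans hdeg⟩

/-- The subring of elements `x` that become members of `A` after multiplication by a nonzero
polynomial in `j`. -/
def denomSubring (j : F) (A : Subalgebra K F) (hjA : j ∈ A) : Subring F where
  carrier := {x | ∃ q : Polynomial K, aeval j q ≠ 0 ∧ aeval j q * x ∈ A}
  mul_mem' := by
    rintro x y ⟨q₁, h₁, hx⟩ ⟨q₂, h₂, hy⟩
    refine ⟨q₁ * q₂, by rw [map_mul]; exact mul_ne_zero h₁ h₂, ?_⟩
    have : aeval j (q₁ * q₂) * (x * y) = (aeval j q₁ * x) * (aeval j q₂ * y) := by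
      rw [map_mul]; ring
    rw [this]
    exact A.mul_mem hx hy
  one_mem' := ⟨1, by simp, by simp⟩
  add_mem' := by
    rintro x y ⟨q₁, h₁, hx⟩ ⟨q₂, h₂, hy⟩
    have hsA : ∀ q : Polynomial K, aeval j q ∈ A := fun q =>
      Algebra.adjoin_le (Set.singleton_subset_iff.mpr hjA) (aeval_mem_adjoin_singleton K j)
    refine ⟨q₁ * q₂, by rw [map_mul]; exact mul_ne_zero h₁ h₂, ?_⟩
    have : aeval j (q₁ * q₂) * (x + y) =
        aeval j q₂ * (aeval j q₁ * x) + aeval j q₁ * (aeval j q₂ * y) := by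
      rw [map_mul]; ring
    rw [this]
    exact A.add_mem (A.mul_mem (hsA q₂) hx) (A.mul_mem (hsA q₁) hy)
  zero_mem' := ⟨1, by simp, by simp⟩
  neg_mem' := by
    rintro x ⟨q, h, hx⟩
    refine ⟨q, h, ?_⟩
    rw [mul_neg]
    exact A.neg_mem hx

theorem mem_denomSubring_iff (j : F) (A : Subalgebra K F) (hjA : j ∈ A) (x : F) :
    x ∈ denomSubring j A hjA ↔ ∃ q : Polynomial K, aeval j q ≠ 0 ∧ aeval j q * x ∈ A :=
  Iff.rfl

theorem mem_denomSubring_of_mem (j : F) (A : Subalgebra K F) (hjA : j ∈ A) {x : F} (hx : x ∈ A) :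
    x ∈ denomSubring j A hjA :=
  ⟨1, by simp, by simpa using hx⟩

theorem mem_denomSubring_of_mem_adjoin (j : F) (A : Subalgebra K F) (hjA : j ∈ A) {x : F}
    (hx : x ∈ K⟮j⟯) : x ∈ denomSubring j A hjA := by
  have hsA : ∀ q : Polynomial K, aeval j q ∈ A := fun q =>
    Algebra.adjoin_le (Set.singleton_subset_iff.mpr hjA) (aeval_mem_adjoin_singleton K j)
  obtain ⟨r, s, rfl⟩ := (IntermediateField.mem_adjoin_simple_iff K x).mp hx
  by_cases hs : aeval j s = 0
  · rw [hs, div_zero]
    exact (denomSubring j A hjA).zero_mem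
  · refine ⟨s, hs, ?_⟩
    rw [mul_div_cancel₀ _ hs]
    exact hsA r

/-- If every element of `A` is integral over `K⟮j⟯`, then `denomSubring` is closed under
inverses. -/
theorem inv_mem_denomSubring (j : F) (A : Subalgebra K F) (hjA : j ∈ A)
    (hint : ∀ a ∈ A, IsIntegral K⟮j⟯ a) {x : F} (hx : x ∈ denomSubring j A hjA) :
    x⁻¹ ∈ denomSubring j A hjA := by
  have hsA : ∀ q : Polynomial K, aeval j q ∈ A := fun q =>
    Algebra.adjoin_le (Set.singleton_subset_iff.mpr hjA) (aeval_mem_adjoin_singleton K j)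
  by_cases hx0 : x = 0
  · rw [hx0, inv_zero]
    exact (denomSubring j A hjA).zero_mem
  obtain ⟨q, hq, hxa⟩ := hx
  set a := aeval j q * x with ha
  have ha0 : a ≠ 0 := mul_ne_zero hq hx0
  have hinv : x⁻¹ = aeval j q * a⁻¹ := by
    rw [ha, mul_inv, ← mul_assoc, mul_inv_cancel₀ hq, one_mul]
  -- `a⁻¹` is a polynomial in `a` with coefficients in `K⟮j⟯`
  have hainv : a⁻¹ ∈ Algebra.adjoin K⟮j⟯ {a} := by
    rw [← IntermediateField.adjoin_simple_toSubalgebra_of_isAlgebraic (hint a hxa).isAlgebraic]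
    exact (K⟮j⟯⟮a⟯).inv_mem (IntermediateField.mem_adjoin_simple_self K⟮j⟯ a)
  rw [Algebra.adjoin_singleton_eq_range_aeval] at hainv
  obtain ⟨r, hr⟩ := hainv
  have hr' : aeval a r ∈ denomSubring j A hjA := by
    rw [aeval_def, eval₂_eq_sum_range]
    refine Subring.sum_mem _ fun i _ => Subring.mul_mem _ ?_ (Subring.pow_mem _ ?_ _)
    · exact mem_denomSubring_of_mem_adjoin j A hjA (r.coeff i).2
    · exact mem_denomSubring_of_mem j A hjA hxa
  rw [hinv]
  refine Subring.mul_mem _ (mem_denomSubring_of_mem j A hjA (hsA q)) ?_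
  have : a⁻¹ = aeval a r := hr.symm
  rw [this]
  exact hr'

/-- If `F = Frac A` and every element of `A` has degree `≤ n` over `K⟮j⟯`, then so does every
element of `F`. -/
theorem isIntegral_natDegree_le_of_forall_mem (j : F) (A : Subalgebra K F) (hjA : j ∈ A)
    (hfrac : ∀ x : F, ∃ a ∈ A, ∃ b ∈ A, x = a / b) (n : ℕ)
    (hdeg : ∀ a ∈ A, IsIntegral K⟮j⟯ a ∧ (minpoly K⟮j⟯ a).natDegree ≤ n) (x : F) :
    IsIntegral K⟮j⟯ x ∧ (minpoly K⟮j⟯ x).natDegree ≤ n := by
  have hxS : x ∈ denomSubring j A hjA := by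
    obtain ⟨a, ha, b, hb, rfl⟩ := hfrac x
    rw [div_eq_mul_inv]
    exact Subring.mul_mem _ (mem_denomSubring_of_mem j A hjA ha)
      (inv_mem_denomSubring j A hjA (fun a ha => (hdeg a ha).1) (mem_denomSubring_of_mem j A hjA hb))
  obtain ⟨q, hq, hxa⟩ := hxS
  set a := aeval j q * x with ha
  obtain ⟨ha_int, ha_deg⟩ := hdeg a hxa
  set s : K⟮j⟯ := ⟨aeval j q, aeval_mem_adjoin_simple j q⟩ with hs
  have hs0 : s ≠ 0 := fun h => hq (congrArg Subtype.val h)
  have hx : x = s⁻¹ • a := by
    rw [IntermediateField.smul_def, ha, hs]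
    change x = (aeval j q)⁻¹ * (aeval j q * x)
    rw [← mul_assoc, inv_mul_cancel₀ hq, one_mul]
  have hx_int : IsIntegral K⟮j⟯ x := by
    rw [hx]
    exact IsIntegral.smul _ ha_int
  refine ⟨hx_int, ?_⟩
  have hle : K⟮j⟯⟮x⟯ ≤ K⟮j⟯⟮a⟯ := by
    rw [IntermediateField.adjoin_simple_le_iff, hx]
    exact (K⟮j⟯⟮a⟯).smul_mem (IntermediateField.mem_adjoin_simple_self K⟮j⟯ a)
  have : FiniteDimensional K⟮j⟯ K⟮j⟯⟮a⟯ := IntermediateField.adjoin.finiteDimensional ha_int
  have h1 := IntermediateField.finrank_le_of_le_right hle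
  rw [IntermediateField.adjoin.finrank hx_int, IntermediateField.adjoin.finrank ha_int] at h1
  exact h1.trans ha_deg

/-- **Degree bound.** If `F = Frac A`, `j ∈ A`, and every element of `A` is algebraic of degree
`≤ n` over `K⟮j⟯` (characteristic zero), then `F` is finite over `K⟮j⟯` of degree `≤ n`. -/
theorem finrank_le_of_forall_mem [CharZero K] (j : F) (A : Subalgebra K F) (hjA : j ∈ A)
    (hfrac : ∀ x : F, ∃ a ∈ A, ∃ b ∈ A, x = a / b) (n : ℕ)
    (hdeg : ∀ a ∈ A, IsIntegral K⟮j⟯ a ∧ (minpoly K⟮j⟯ a).natDegree ≤ n) :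
    FiniteDimensional K⟮j⟯ F ∧ Module.finrank K⟮j⟯ F ≤ n := by
  have hall := isIntegral_natDegree_le_of_forall_mem j A hjA hfrac n hdeg
  have : CharZero K⟮j⟯ := charZero_of_injective_algebraMap (algebraMap K K⟮j⟯).injective
  have : Algebra.IsAlgebraic K⟮j⟯ F := ⟨fun x => (hall x).1.isAlgebraic⟩
  have hfd : FiniteDimensional K⟮j⟯ F := by
    by_contra hnfd
    obtain ⟨E, hE, hlt⟩ := IntermediateField.exists_lt_finrank_of_infinite_dimensional hnfd n
    obtain ⟨α, hα⟩ := Field.exists_primitive_element K⟮j⟯ E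
    have h1 := (Field.primitive_element_iff_minpoly_natDegree_eq K⟮j⟯ α).mp hα
    rw [IntermediateField.minpoly_eq] at h1
    have h2 := (hall (α : F)).2
    omega
  refine ⟨hfd, ?_⟩
  obtain ⟨α, hα⟩ := Field.exists_primitive_element K⟮j⟯ F
  have h1 := (Field.primitive_element_iff_minpoly_natDegree_eq K⟮j⟯ α).mp hα
  rw [← h1]
  exact (hall α).2

/-- **Lower bound.** Pairwise distinct ring homomorphisms `F → E` that agree on `K` and on `j`
are at most `[F : K⟮j⟯]` in number. -/
theorem card_le_finrank_of_injective {E X : Type*} [Field E] [Fintype X] (j : F)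
    [FiniteDimensional K⟮j⟯ F] (ι : X → (F →+* E)) (hι : Function.Injective ι)
    (hK : ∀ x y (c : K), ι x (algebraMap K F c) = ι y (algebraMap K F c))
    (hj : ∀ x y, ι x j = ι y j) : Fintype.card X ≤ Module.finrank K⟮j⟯ F := by
  rcases isEmpty_or_nonempty X with hX | ⟨⟨x0⟩⟩
  · simp
  have hL : ∀ x (c : K⟮j⟯), ι x (c : F) = ι x0 (c : F) := by
    intro x c
    have hle : K⟮j⟯ ≤ (RingHom.eqLocusField (ι x) (ι x0)).toIntermediateField
        (fun c => hK x x0 c) := by
      rw [IntermediateField.adjoin_simple_le_iff]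
      exact hj x x0
    exact hle c.2
  let _ : Algebra K⟮j⟯ E := ((ι x0).comp (algebraMap K⟮j⟯ F)).toAlgebra
  let f : X → (F →ₐ[K⟮j⟯] E) := fun x => { ι x with commutes' := fun c => hL x c }
  have hf : Function.Injective f := by
    intro x y hxy
    apply hι
    ext a
    exact congrArg (fun g : F →ₐ[K⟮j⟯] E => g a) hxy
  calc Fintype.card X = Nat.card X := Nat.card_eq_fintype_card.symm
    _ ≤ Nat.card (F →ₐ[K⟮j⟯] E) := Nat.card_le_card_of_injective f hf
    _ ≤ Module.finrank K⟮j⟯ F := card_algHom_le_finrank K⟮j⟯ F E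

/-- **Assembly (M2-ALG).**  Let `F` be a field over `K` (char. 0) embedded in `LaurentSeries K`,
`j ∈ A ⊆ F` with `F = Frac A` and `j` transcendental.  Suppose that after base change along
`i0 : K →+* C` every `a ∈ A` satisfies a nonzero polynomial relation of degree `≤ card X` over
`C[j]`, and that there are `card X` distinct ring homomorphisms `F → E` agreeing on `K` and `j`.
Then `[F : K⟮j⟯] = card X`. -/
theorem finrank_eq_card [CharZero K] {C E X : Type*} [Field C] [Field E] [Fintype X]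
    (i0 : K →+* C) (emb : F →ₐ[K] LaurentSeries K) (j : F) (hj : Transcendental K j)
    (A : Subalgebra K F) (hjA : j ∈ A) (hfrac : ∀ x : F, ∃ a ∈ A, ∃ b ∈ A, x = a / b)
    (hrel : ∀ a ∈ A, ∃ P : ℕ → Polynomial C, (∃ k ≤ Fintype.card X, P k ≠ 0) ∧
      ∑ k ∈ Finset.range (Fintype.card X + 1),
        aeval (coeffMap i0 (emb j)) (P k) * coeffMap i0 (emb a) ^ k = 0)
    (ι : X → (F →+* E)) (hι : Function.Injective ι)
    (hK : ∀ x y (c : K), ι x (algebraMap K F c) = ι y (algebraMap K F c))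
    (hιj : ∀ x y, ι x j = ι y j) :
    FiniteDimensional K⟮j⟯ F ∧ Module.finrank K⟮j⟯ F = Fintype.card X := by
  have hdeg : ∀ a ∈ A, IsIntegral K⟮j⟯ a ∧ (minpoly K⟮j⟯ a).natDegree ≤ Fintype.card X := by
    intro a ha
    obtain ⟨P, hP, hPrel⟩ := hrel a ha
    obtain ⟨Q, hQ, hQrel⟩ := exists_relation_descent i0 (emb j) (emb a) _ P hP hPrel
    refine isIntegral_natDegree_le_of_relation j a hj _ Q hQ ?_
    apply emb.toRingHom.injective
    rw [map_zero, ← hQrel, map_sum]
    refine Finset.sum_congr rfl fun k _ => ?_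
    change emb (aeval j (Q k) * a ^ k) = _
    rw [map_mul, map_pow, ← aeval_algHom_apply]
  obtain ⟨hfd, hle⟩ := finrank_le_of_forall_mem j A hjA hfrac _ hdeg
  exact ⟨hfd, le_antisymm hle (card_le_finrank_of_injective j ι hι hK hιj)⟩

/-- Variant of `finrank_eq_card` with the relation in monic form
`a^n + ∑_{k<n} P_k(j) a^k = 0`, `n = card X`. -/
theorem finrank_eq_card_of_monic [CharZero K] {C E X : Type*} [Field C] [Field E] [Fintype X]
    (i0 : K →+* C) (emb : F →ₐ[K] LaurentSeries K) (j : F) (hj : Transcendental K j)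
    (A : Subalgebra K F) (hjA : j ∈ A) (hfrac : ∀ x : F, ∃ a ∈ A, ∃ b ∈ A, x = a / b)
    (hrel : ∀ a ∈ A, ∃ P : ℕ → Polynomial C,
      coeffMap i0 (emb a) ^ Fintype.card X + ∑ k ∈ Finset.range (Fintype.card X),
        aeval (coeffMap i0 (emb j)) (P k) * coeffMap i0 (emb a) ^ k = 0)
    (ι : X → (F →+* E)) (hι : Function.Injective ι)
    (hK : ∀ x y (c : K), ι x (algebraMap K F c) = ι y (algebraMap K F c))
    (hιj : ∀ x y, ι x j = ι y j) :
    FiniteDimensional K⟮j⟯ F ∧ Module.finrank K⟮j⟯ F = Fintype.card X := by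
  refine finrank_eq_card i0 emb j hj A hjA hfrac (fun a ha => ?_) ι hι hK hιj
  obtain ⟨P, hP⟩ := hrel a ha
  refine ⟨fun k => if k = Fintype.card X then 1 else P k, ⟨Fintype.card X, le_rfl, by simp⟩, ?_⟩
  rw [Finset.sum_range_succ]
  simp only [if_true, map_one, one_mul]
  rw [add_comm, ← hP]
  congr 1
  refine Finset.sum_congr rfl fun k hk => ?_
  rw [if_neg (Nat.ne_of_lt (Finset.mem_range.mp hk))]

/-- `K⟮j - c⟯ = K⟮j⟯`. -/
theorem adjoin_sub_algebraMap (j : F) (c : K) : K⟮j - algebraMap K F c⟯ = K⟮j⟯ := by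
  apply le_antisymm
  · rw [IntermediateField.adjoin_simple_le_iff]
    exact sub_mem (IntermediateField.mem_adjoin_simple_self K j) (IntermediateField.algebraMap_mem _ c)
  · rw [IntermediateField.adjoin_simple_le_iff]
    have h := add_mem (IntermediateField.mem_adjoin_simple_self K (j - algebraMap K F c))
      (IntermediateField.algebraMap_mem K⟮j - algebraMap K F c⟯ c)
    rwa [sub_add_cancel] at h

/-- `K⟮j⁻¹⟯ = K⟮j⟯`. -/
theorem adjoin_inv (j : F) : K⟮j⁻¹⟯ = K⟮j⟯ := by
  apply le_antisymm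
  · rw [IntermediateField.adjoin_simple_le_iff]
    exact inv_mem (IntermediateField.mem_adjoin_simple_self K j)
  · rw [IntermediateField.adjoin_simple_le_iff]
    have h := inv_mem (IntermediateField.mem_adjoin_simple_self K j⁻¹)
    rwa [inv_inv] at h

theorem finiteDimensional_adjoin_sub_algebraMap (j : F) (c : K) [h : FiniteDimensional K⟮j⟯ F] :
    FiniteDimensional K⟮j - algebraMap K F c⟯ F := by
  rw [adjoin_sub_algebraMap]; exact h

theorem finrank_adjoin_sub_algebraMap (j : F) (c : K) :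
    Module.finrank K⟮j - algebraMap K F c⟯ F = Module.finrank K⟮j⟯ F := by
  rw [adjoin_sub_algebraMap]

theorem finiteDimensional_adjoin_inv (j : F) [h : FiniteDimensional K⟮j⟯ F] :
    FiniteDimensional K⟮j⁻¹⟯ F := by
  rw [adjoin_inv]; exact h

theorem finrank_adjoin_inv (j : F) :
    Module.finrank K⟮j⁻¹⟯ F = Module.finrank K⟮j⟯ F := by
  rw [adjoin_inv]

end FieldTheory

section Vieta

variable {R : Type*} [CommRing R] {X : Type*} [Fintype X]

/-- The polynomial `∏ₓ (T - r x)` attached to a finite family `r : X → R`. -/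
def conjPoly (r : X → R) : Polynomial R := ∏ x, (Polynomial.X - Polynomial.C (r x))

theorem conjPoly_monic (r : X → R) : (conjPoly r).Monic :=
  monic_prod_X_sub_C r Finset.univ

theorem conjPoly_natDegree [Nontrivial R] (r : X → R) :
    (conjPoly r).natDegree = Fintype.card X := by
  rw [conjPoly, natDegree_finsetProd_X_sub_C_eq_card, Finset.card_univ]

theorem conjPoly_eval (r : X → R) (x0 : X) : (conjPoly r).eval (r x0) = 0 := by
  rw [conjPoly, eval_prod]
  exact Finset.prod_eq_zero (Finset.mem_univ x0) (by simp)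

/-- A ring endomorphism permuting the family fixes `conjPoly`. -/
theorem conjPoly_map_of_perm (σ : R →+* R) (π : Equiv.Perm X) (r : X → R)
    (h : ∀ x, σ (r x) = r (π x)) : (conjPoly r).map σ = conjPoly r := by
  rw [conjPoly, Polynomial.map_prod]
  simp only [Polynomial.map_sub, map_X, map_C, h]
  exact Fintype.prod_equiv π _ _ (fun x => rfl)

/-- The coefficients of `conjPoly r` are fixed by every ring endomorphism permuting the family
(e.g. the elementary symmetric functions of the conjugates `ι_x a` are `SL(2,ℤ)`-invariant). -/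
theorem conjPoly_coeff_fixed (σ : R →+* R) (π : Equiv.Perm X) (r : X → R)
    (h : ∀ x, σ (r x) = r (π x)) (k : ℕ) :
    σ ((conjPoly r).coeff k) = (conjPoly r).coeff k := by
  conv_rhs => rw [← conjPoly_map_of_perm σ π r h]
  rw [coeff_map]

/-- If all lower coefficients of `conjPoly r` are polynomials in `J` over `C`, every member of the
family satisfies a monic relation of degree `card X` over `C[J]` (the shape consumed by
`finrank_eq_card_of_monic` after applying the expansion homomorphism). -/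
theorem monic_relation_of_conjPoly_coeff {C : Type*} [CommRing C] [Algebra C R] (r : X → R)
    (x0 : X) (J : R)
    (hcoef : ∀ k < Fintype.card X, ∃ P : Polynomial C, (conjPoly r).coeff k = aeval J P) :
    ∃ P : ℕ → Polynomial C, r x0 ^ Fintype.card X +
      ∑ k ∈ Finset.range (Fintype.card X), aeval J (P k) * r x0 ^ k = 0 := by
  classical
  nontriviality R
  choose! P hP using hcoef
  refine ⟨P, ?_⟩
  have hlead : (conjPoly r).coeff (Fintype.card X) = 1 := by
    have := (conjPoly_monic r).coeff_natDegree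
    rwa [conjPoly_natDegree] at this
  have h := conjPoly_eval r x0
  rw [eval_eq_sum_range, conjPoly_natDegree, Finset.sum_range_succ, hlead, one_mul] at h
  rw [add_comm, ← h]
  congr 1
  refine Finset.sum_congr rfl fun k hk => ?_
  rw [hP k (Finset.mem_range.mp hk)]

end Vieta

end Fermat.Agent.S24.helper102
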