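import Mathlib
import Fermat.Prelude.Def_AlgebraicCurve_DivisorClassGroup
import Fermat.Prelude.Def_AlgebraicCurve_Repartitions

set_option autoImplicit false

open AlgebraicCurve IntermediateField

namespace Fermat.Agent.S24.helper384

variable {K F : Type*} [Field K] [Field F] [Algebra K F]

/-! ### Part A : an integer valued valuation gives a place -/

section IntValuation

variable (w : F → ℤ)
  (hw_mul : ∀ (a b : F), a ≠ 0 → b ≠ 0 → w (a * b) = w a + w b)
  (hw_add : ∀ (a b : F), a ≠ 0 → b ≠ 0 → a + b ≠ 0 → min (w a) (w b) ≤ w (a + b))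

include hw_mul in
theorem iv_one : w 1 = 0 := by
  have h := hw_mul 1 1 one_ne_zero one_ne_zero
  rw [mul_one] at h
  omega

include hw_mul in
theorem iv_neg_one : w (-1) = 0 := by
  have h := hw_mul (-1) (-1) (neg_ne_zero.mpr one_ne_zero) (neg_ne_zero.mpr one_ne_zero)
  rw [neg_mul_neg, mul_one, iv_one w hw_mul] at h
  omega

include hw_mul in
theorem iv_neg {a : F} (ha : a ≠ 0) : w (-a) = w a := by
  have h := hw_mul (-1) a (neg_ne_zero.mpr one_ne_zero) ha
  rw [neg_one_mul, iv_neg_one w hw_mul] at h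
  omega

include hw_mul in
theorem iv_inv {a : F} (ha : a ≠ 0) : w a⁻¹ = -w a := by
  have h := hw_mul a a⁻¹ ha (inv_ne_zero ha)
  rw [mul_inv_cancel₀ ha, iv_one w hw_mul] at h
  omega

include hw_mul in
theorem iv_pow {a : F} (ha : a ≠ 0) (n : ℕ) : w (a ^ n) = n * w a := by
  induction n with
  | zero => simp [iv_one w hw_mul]
  | succ n ih =>
    rw [pow_succ, hw_mul _ _ (pow_ne_zero n ha) ha, ih]
    push_cast
    ring

include hw_mul in
theorem iv_zpow {a : F} (ha : a ≠ 0) (n : ℤ) : w (a ^ n) = n * w a := by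
  obtain ⟨m, rfl | rfl⟩ := n.eq_nat_or_neg
  · rw [zpow_natCast, iv_pow w hw_mul ha]
  · rw [zpow_neg, zpow_natCast, iv_inv w hw_mul (pow_ne_zero m ha), iv_pow w hw_mul ha]
    ring

/-- The valuation subring attached to an integer valued valuation. -/
def ivSubring : ValuationSubring F where
  carrier := {a | a = 0 ∨ 0 ≤ w a}
  mul_mem' := by
    rintro a b (rfl | ha) (rfl | hb)
    · left; simp
    · left; simp
    · left; simp
    · by_cases ha0 : a = 0
      · left; simp [ha0]
      by_cases hb0 : b = 0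
      · left; simp [hb0]
      right
      rw [hw_mul a b ha0 hb0]
      omega
  one_mem' := Or.inr (by rw [iv_one w hw_mul])
  add_mem' := by
    rintro a b ha hb
    by_cases ha0 : a = 0
    · simpa [ha0] using hb
    by_cases hb0 : b = 0
    · simpa [hb0] using ha
    by_cases hab : a + b = 0
    · left; exact hab
    right
    have h := hw_add a b ha0 hb0 hab
    have h1 : 0 ≤ w a := ha.resolve_left ha0
    have h2 : 0 ≤ w b := hb.resolve_left hb0
    exact le_trans (le_min h1 h2) h
  zero_mem' := Or.inl rfl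
  neg_mem' := by
    rintro a (rfl | ha)
    · left; simp
    · by_cases ha0 : a = 0
      · left; simp [ha0]
      right
      rw [iv_neg w hw_mul ha0]
      exact ha
  mem_or_inv_mem' := by
    intro a
    by_cases ha0 : a = 0
    · left; left; exact ha0
    by_cases h : 0 ≤ w a
    · left; right; exact h
    · right; right
      rw [iv_inv w hw_mul ha0]
      omega

theorem mem_ivSubring {a : F} : a ∈ ivSubring w hw_mul hw_add ↔ a = 0 ∨ 0 ≤ w a := Iff.rfl

theorem ivSubring_isPrincipalIdealRing : IsPrincipalIdealRing (ivSubring w hw_mul hw_add) := by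
  classical
  refine ⟨fun I => ?_⟩
  by_cases hI : I = ⊥
  · subst hI; exact bot_isPrincipal
  obtain ⟨a₀, ha₀I, ha₀0⟩ := Submodule.exists_mem_ne_zero_of_ne_bot hI
  have hex : ∃ n : ℕ, ∃ a ∈ I, a ≠ 0 ∧ w (a : F) = n := by
    have h0 : (a₀ : F) ≠ 0 := fun h => ha₀0 (Subtype.ext h)
    have h1 : 0 ≤ w (a₀ : F) := (a₀.2).resolve_left h0
    exact ⟨(w (a₀ : F)).toNat, a₀, ha₀I, ha₀0, (Int.toNat_of_nonneg h1).symm⟩
  obtain ⟨a, haI, ha0, han⟩ := Nat.find_spec hex
  have hmin := fun m hm => Nat.find_min hex (m := m) hm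
  have haF : (a : F) ≠ 0 := fun h => ha0 (Subtype.ext h)
  refine ⟨a, le_antisymm ?_ ?_⟩
  · intro b hb
    by_cases hb0 : b = 0
    · subst hb0; exact Submodule.zero_mem _
    have hbF : (b : F) ≠ 0 := fun h => hb0 (Subtype.ext h)
    have hb1 : 0 ≤ w (b : F) := (b.2).resolve_left hbF
    have hle : w (a : F) ≤ w (b : F) := by
      by_contra hlt
      rw [not_le] at hlt
      have hlt' : (w (b : F)).toNat < Nat.find hex := by
        have : ((w (b : F)).toNat : ℤ) < (Nat.find hex : ℤ) := by
          rw [Int.toNat_of_nonneg hb1, ← han]; exact hlt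
        exact_mod_cast this
      exact hmin _ hlt' ⟨b, hb, hb0, (Int.toNat_of_nonneg hb1).symm⟩
    have hq : (b : F) * (a : F)⁻¹ ∈ ivSubring w hw_mul hw_add := by
      right
      rw [hw_mul _ _ hbF (inv_ne_zero haF), iv_inv w hw_mul haF]
      omega
    rw [Submodule.mem_span_singleton]
    refine ⟨⟨_, hq⟩, Subtype.ext ?_⟩
    simp [haF]
  · rw [Submodule.span_le, Set.singleton_subset_iff]
    exact haI

variable (hw_const : ∀ (c : K), w (algebraMap K F c) = 0)

/-- The place attached to an integer valued valuation trivial on `K` and positive at `x ≠ 0`. -/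
def ivPlace (x : F) (hx0 : x ≠ 0) (hx : 0 < w x) : Place K F where
  toValuationSubring := ivSubring w hw_mul hw_add
  algebraMap_mem' a := Or.inr (by rw [hw_const])
  ne_top' := by
    intro h
    have hmem : x⁻¹ ∈ ivSubring w hw_mul hw_add := by rw [h]; exact ValuationSubring.mem_top _
    rcases hmem with h0 | h0
    · exact inv_ne_zero hx0 h0
    · rw [iv_inv w hw_mul hx0] at h0
      omega
  isPrincipalIdealRing' := ivSubring_isPrincipalIdealRing w hw_mul hw_add

@[simp]
theorem ivPlace_toValuationSubring (x : F) (hx0 : x ≠ 0) (hx : 0 < w x) :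
    (ivPlace w hw_mul hw_add hw_const x hx0 hx).toValuationSubring = ivSubring w hw_mul hw_add :=
  rfl

include hw_const in
/-- The normalised order of the place of `w` is `w` divided by a positive constant. -/
theorem ivPlace_ord (x : F) (hx0 : x ≠ 0) (hx : 0 < w x) :
    ∃ κ : ℤ, 0 < κ ∧ ∀ f : F, f ≠ 0 →
      w f = (ivPlace w hw_mul hw_add hw_const x hx0 hx).ord f * κ := by
  set v := ivPlace w hw_mul hw_add hw_const x hx0 hx with hv
  obtain ⟨π, hπ⟩ := IsDiscreteValuationRing.exists_irreducible v.toValuationSubring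
  have hπ0 : (π : F) ≠ 0 := fun h => hπ.ne_zero (Subtype.ext h)
  have hπ1 : 0 ≤ w (π : F) := (π.2).resolve_left hπ0
  have hunit : ∀ u : v.toValuationSubringˣ, w ((u : v.toValuationSubring) : F) = 0 := by
    intro u
    have hu0 : ((u : v.toValuationSubring) : F) ≠ 0 := fun h => u.ne_zero (Subtype.ext h)
    have h1 : 0 ≤ w ((u : v.toValuationSubring) : F) := ((u : v.toValuationSubring).2).resolve_left hu0
    have hu0' : (((u⁻¹ : v.toValuationSubringˣ) : v.toValuationSubring) : F) ≠ 0 :=
      fun h => (u⁻¹).ne_zero (Subtype.ext h)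
    have h2 : 0 ≤ w (((u⁻¹ : v.toValuationSubringˣ) : v.toValuationSubring) : F) :=
      ((u⁻¹ : v.toValuationSubringˣ) : v.toValuationSubring).2.resolve_left hu0'
    have h3 : ((u : v.toValuationSubring) : F) * (((u⁻¹ : v.toValuationSubringˣ) : v.toValuationSubring) : F) = 1 := by
      exact congrArg (Subtype.val) (u.mul_inv)
    have h4 := hw_mul _ _ hu0 hu0'
    rw [h3, iv_one w hw_mul] at h4
    omega
  refine ⟨w (π : F), ?_, ?_⟩
  · rcases hπ1.lt_or_eq with h | h
    · exact h
    · exfalso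
      have hinv : (π : F)⁻¹ ∈ v.toValuationSubring := by
        right
        rw [iv_inv w hw_mul hπ0]
        omega
      apply hπ.not_isUnit
      refine IsUnit.of_mul_eq_one (⟨_, hinv⟩ : v.toValuationSubring) (Subtype.ext ?_)
      simp [hπ0]
  · intro f hf
    obtain ⟨u, hu⟩ := v.exists_unit_mul_zpow hf hπ
    have hu0 : ((u : v.toValuationSubring) : F) ≠ 0 := fun h => u.ne_zero (Subtype.ext h)
    conv_lhs => rw [hu]
    rw [hw_mul _ _ hu0 (zpow_ne_zero _ hπ0), hunit u, iv_zpow w hw_mul hπ0, zero_add]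

end IntValuation

/-! ### Part B : basic facts on `Place.ord` -/

section PlaceOrd

variable (v : Place K F)

theorem ord_nonneg_of_mem {f : F} (hf : f ∈ v.toValuationSubring) : 0 ≤ v.ord f := by
  rcases eq_or_ne f 0 with rfl | hf0
  · simp
  · exact (v.adicValuation_le_one_iff.mp (v.adicValuation_le_one_of_mem hf)).resolve_left hf0

theorem mem_of_ord_nonneg {f : F} (hf : 0 ≤ v.ord f) : f ∈ v.toValuationSubring := by
  rcases eq_or_ne f 0 with rfl | hf0
  · exact zero_mem _
  obtain ⟨π, hπ⟩ := IsDiscreteValuationRing.exists_irreducible v.toValuationSubring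
  obtain ⟨u, hu⟩ := v.exists_unit_mul_zpow hf0 hπ
  rw [hu]
  obtain ⟨n, hn⟩ := Int.eq_ofNat_of_zero_le hf
  rw [hn, zpow_natCast]
  exact mul_mem (u : v.toValuationSubring).2 (pow_mem π.2 n)

theorem mem_iff_ord_nonneg {f : F} : f ∈ v.toValuationSubring ↔ 0 ≤ v.ord f :=
  ⟨ord_nonneg_of_mem v, mem_of_ord_nonneg v⟩

theorem ord_add_ge {a b : F} (hab : a + b ≠ 0) : min (v.ord a) (v.ord b) ≤ v.ord (a + b) := by
  have ha : v.adicValuation a ≤ WithZero.exp (-min (v.ord a) (v.ord b)) :=
    v.adicValuation_le_exp_iff.mpr (Or.inr (by rw [neg_neg]; exact min_le_left _ _))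
  have hb : v.adicValuation b ≤ WithZero.exp (-min (v.ord a) (v.ord b)) :=
    v.adicValuation_le_exp_iff.mpr (Or.inr (by rw [neg_neg]; exact min_le_right _ _))
  have h := (Valuation.map_add v.adicValuation a b).trans (max_le ha hb)
  have h2 := (v.adicValuation_le_exp_iff.mp h).resolve_left hab
  rwa [neg_neg] at h2

theorem ord_neg (a : F) : v.ord (-a) = v.ord a := by
  simp [Place.ord, Valuation.map_neg]

theorem ord_algebraMap (c : K) : v.ord (algebraMap K F c) = 0 := by
  rcases eq_or_ne c 0 with rfl | hc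
  · simp
  have h1 := ord_nonneg_of_mem v (v.algebraMap_mem' c)
  have h2 := ord_nonneg_of_mem v (v.algebraMap_mem' c⁻¹)
  rw [map_inv₀, v.ord_inv] at h2
  omega

theorem isUnit_iff (a : v.toValuationSubring) : IsUnit a ↔ (a : F) ≠ 0 ∧ v.ord (a : F) = 0 := by
  constructor
  · intro h
    obtain ⟨u, rfl⟩ := h
    exact ⟨fun h0 => u.ne_zero (Subtype.ext h0), v.ord_coe_unit u⟩
  · rintro ⟨h0, h1⟩
    obtain ⟨π, hπ⟩ := IsDiscreteValuationRing.exists_irreducible v.toValuationSubring
    obtain ⟨u, hu⟩ := v.exists_unit_mul_zpow h0 hπ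
    rw [h1, zpow_zero, mul_one] at hu
    have : a = (u : v.toValuationSubring) := Subtype.ext hu
    rw [this]
    exact u.isUnit

theorem mem_maximalIdeal_iff (a : v.toValuationSubring) :
    a ∈ IsLocalRing.maximalIdeal v.toValuationSubring ↔ (a : F) = 0 ∨ 0 < v.ord (a : F) := by
  rw [IsLocalRing.mem_maximalIdeal, mem_nonunits_iff, isUnit_iff]
  have h := ord_nonneg_of_mem v a.2
  constructor
  · intro hn
    by_cases h0 : (a : F) = 0
    · exact Or.inl h0
    · right
      rcases h.lt_or_eq with h1 | h1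
      · exact h1
      · exact absurd ⟨h0, h1.symm⟩ hn
  · rintro (h0 | h0) ⟨h1, h2⟩
    · exact h1 h0
    · omega

end PlaceOrd

/-! ### Part C : places that are zeros of `x` and primes of the integral closure of `K[x]` -/

section Dictionary

open scoped IntermediateField.algebraAdjoinAdjoin

variable (x : F)

/-- `O_v` as a `K`-subalgebra. -/
def placeSubalgebra (v : Place K F) : Subalgebra K F :=
  { v.toValuationSubring.toSubring with algebraMap_mem' := v.algebraMap_mem' }

theorem mem_place_of_mem_adjoin (v : Place K F) (hx : x ∈ v.toValuationSubring) {a : F}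
    (ha : a ∈ Algebra.adjoin K {x}) : a ∈ v.toValuationSubring := by
  have h : Algebra.adjoin K {x} ≤ placeSubalgebra v :=
    Algebra.adjoin_le (Set.singleton_subset_iff.mpr hx)
  exact h ha

theorem mem_place_of_isIntegral (v : Place K F) (hx : x ∈ v.toValuationSubring) {b : F}
    (hb : IsIntegral (Algebra.adjoin K {x}) b) : b ∈ v.toValuationSubring := by
  let φ : Algebra.adjoin K {x} →+* v.toValuationSubring :=
    { toFun := fun a => ⟨a, mem_place_of_mem_adjoin x v hx a.2⟩
      map_one' := rfl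
      map_mul' := fun _ _ => rfl
      map_zero' := rfl
      map_add' := fun _ _ => rfl }
  have h : IsIntegral v.toValuationSubring b :=
    IsIntegral.map_of_comp_eq φ (RingHom.id F) (by ext; rfl) hb
  obtain ⟨y, hy⟩ := IsIntegrallyClosed.isIntegral_iff.mp h
  rw [← hy]
  exact y.2

/-- The inclusion of the integral closure of `K[x]` into `O_v`. -/
def toPlace (v : Place K F) (hx : x ∈ v.toValuationSubring) :
    integralClosure (Algebra.adjoin K {x}) F →+* v.toValuationSubring where
  toFun b := ⟨b, mem_place_of_isIntegral x v hx b.2⟩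
  map_one' := rfl
  map_mul' _ _ := rfl
  map_zero' := rfl
  map_add' _ _ := rfl

/-- The prime of the integral closure of `K[x]` cut out by a place. -/
def primeOf (v : Place K F) (hx : x ∈ v.toValuationSubring) :
    Ideal (integralClosure (Algebra.adjoin K {x}) F) :=
  Ideal.comap (toPlace x v hx) (IsLocalRing.maximalIdeal v.toValuationSubring)

instance primeOf_isPrime (v : Place K F) (hx : x ∈ v.toValuationSubring) :
    (primeOf x v hx).IsPrime :=
  Ideal.comap_isPrime _ _

theorem mem_primeOf_iff (v : Place K F) (hx : x ∈ v.toValuationSubring)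
    (b : integralClosure (Algebra.adjoin K {x}) F) :
    b ∈ primeOf x v hx ↔ (b : F) = 0 ∨ 0 < v.ord (b : F) :=
  mem_maximalIdeal_iff v _

theorem adjoin_isPrincipalIdealRing : IsPrincipalIdealRing (Algebra.adjoin K {x}) := by
  have h : Algebra.adjoin K {x} = (Polynomial.aeval x : Polynomial K →ₐ[K] F).range :=
    Algebra.adjoin_singleton_eq_range_aeval K x
  have hs : Function.Surjective ((Polynomial.aeval x : Polynomial K →ₐ[K] F).codRestrict
      (Algebra.adjoin K {x}) (fun p => by rw [h]; exact ⟨p, rfl⟩)) := by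
    rintro ⟨y, hy⟩
    rw [h] at hy
    obtain ⟨p, rfl⟩ := hy
    exact ⟨p, rfl⟩
  exact IsPrincipalIdealRing.of_surjective _ hs

variable [FiniteDimensional K⟮x⟯ F] [CharZero K]

theorem place_eq_of_primeOf_le (v v' : Place K F) (hv : 0 < v.ord x) (hv' : 0 < v'.ord x)
    (hle : primeOf x v (mem_of_ord_nonneg v hv.le) ≤ primeOf x v' (mem_of_ord_nonneg v' hv'.le)) :
    v = v' := by
  have : IsPrincipalIdealRing (Algebra.adjoin K {x}) := adjoin_isPrincipalIdealRing x
  have : CharZero K⟮x⟯ := charZero_of_injective_algebraMap (algebraMap K K⟮x⟯).injective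
  have : IsDedekindDomain (integralClosure (Algebra.adjoin K {x}) F) :=
    integralClosure.isDedekindDomain (Algebra.adjoin K {x}) K⟮x⟯ F
  have : IsFractionRing (integralClosure (Algebra.adjoin K {x}) F) F :=
    integralClosure.isFractionRing_of_finite_extension K⟮x⟯ F
  have hx : x ∈ v.toValuationSubring := mem_of_ord_nonneg v hv.le
  have hx' : x ∈ v'.toValuationSubring := mem_of_ord_nonneg v' hv'.le
  have hx0 : x ≠ 0 := by
    rintro rfl
    simp at hv
  have hxA : x ∈ Algebra.adjoin K {x} := Algebra.self_mem_adjoin_singleton K x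
  have hxint : IsIntegral (Algebra.adjoin K {x}) x := by
    have := isIntegral_algebraMap (R := Algebra.adjoin K {x}) (A := F) (x := ⟨x, hxA⟩)
    exact this
  have hP0 : primeOf x v hx ≠ ⊥ := by
    intro h
    have hmem : (⟨x, hxint⟩ : integralClosure (Algebra.adjoin K {x}) F) ∈ primeOf x v hx :=
      (mem_primeOf_iff x v hx _).mpr (Or.inr hv)
    rw [h, Ideal.mem_bot] at hmem
    exact hx0 (congrArg Subtype.val hmem)
  have hPmax : (primeOf x v hx).IsMaximal := Ideal.IsPrime.isMaximal inferInstance hP0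
  have heq : primeOf x v hx = primeOf x v' hx' :=
    hPmax.eq_of_le (Ideal.IsPrime.ne_top inferInstance) hle
  let w : IsDedekindDomain.HeightOneSpectrum (integralClosure (Algebra.adjoin K {x}) F) :=
    ⟨primeOf x v hx, inferInstance, hP0⟩
  have key : ∀ (u : Place K F) (hu : x ∈ u.toValuationSubring), primeOf x v hx = primeOf x u hu →
      IsDedekindDomain.HeightOneSpectrum.valuationSubringAtPrime F w ≤ u.toValuationSubring := by
    intro u hu hPu
    rintro f ⟨a, s, hs, rfl⟩
    have hs' : s ∉ primeOf x u hu := by rw [← hPu]; exact hs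
    rw [mem_primeOf_iff] at hs'
    push Not at hs'
    have ha : (a : F) ∈ u.toValuationSubring := mem_place_of_isIntegral x u hu a.2
    have hsm : (s : F) ∈ u.toValuationSubring := mem_place_of_isIntegral x u hu s.2
    have hs0 : u.ord (s : F) = 0 := le_antisymm hs'.2 (ord_nonneg_of_mem u hsm)
    have hsinv : (s : F)⁻¹ ∈ u.toValuationSubring := by
      apply mem_of_ord_nonneg
      rw [u.ord_inv, hs0, neg_zero]
    exact mul_mem ha hsinv
  have e1 := ValuationSubring.eq_of_le_of_ne_top _ (key v hx rfl) v.ne_top'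
  have e2 := ValuationSubring.eq_of_le_of_ne_top _ (key v' hx' heq) v'.ne_top'
  exact Place.ext (e1.symm.trans e2)

omit [FiniteDimensional K⟮x⟯ F] [CharZero K] in
theorem isIntegral_self_adjoin : IsIntegral (Algebra.adjoin K {x}) x :=
  isIntegral_algebraMap (R := Algebra.adjoin K {x}) (A := F)
    (x := ⟨x, Algebra.self_mem_adjoin_singleton K x⟩)

/-- Prime avoidance: an integral function vanishing at `v₀` and at none of the `V i`. -/
theorem exists_integral_avoiding (v₀ : Place K F) (hv₀ : 0 < v₀.ord x)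
    {ι : Type*} (s : Finset ι) (V : ι → Place K F) (hV : ∀ i, 0 < (V i).ord x)
    (hne : ∀ i ∈ s, V i ≠ v₀) :
    ∃ b : F, IsIntegral (Algebra.adjoin K {x}) b ∧ 0 < v₀.ord b ∧ ∀ i ∈ s, (V i).ord b = 0 := by
  classical
  rcases s.eq_empty_or_nonempty with rfl | ⟨i₀, hi₀⟩
  · exact ⟨x, isIntegral_self_adjoin x, hv₀, by simp⟩
  have hx₀ : x ∈ v₀.toValuationSubring := mem_of_ord_nonneg v₀ hv₀.le
  have hxV : ∀ i, x ∈ (V i).toValuationSubring := fun i => mem_of_ord_nonneg (V i) (hV i).le
  have hnot : ¬ ∃ i ∈ s, primeOf x v₀ hx₀ ≤ primeOf x (V i) (hxV i) := by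
    rintro ⟨i, hi, hle⟩
    exact hne i hi (place_eq_of_primeOf_le x v₀ (V i) hv₀ (hV i) hle).symm
  have hsub := (Ideal.subset_union_prime (R := integralClosure (Algebra.adjoin K {x}) F)
    (s := s) (f := fun i => primeOf x (V i) (hxV i)) i₀ i₀
    (fun i _ _ _ => primeOf_isPrime x (V i) (hxV i)) (I := primeOf x v₀ hx₀)).not.mpr hnot
  rw [Set.not_subset] at hsub
  obtain ⟨b, hb, hbn⟩ := hsub
  have hb' := (mem_primeOf_iff x v₀ hx₀ b).mp hb
  have hbn' : ∀ i ∈ s, b ∉ primeOf x (V i) (hxV i) := by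
    intro i hi hmem
    exact hbn (Set.mem_iUnion₂.mpr ⟨i, hi, hmem⟩)
  have hb0 : (b : F) ≠ 0 := by
    intro h0
    exact hbn' i₀ hi₀ ((mem_primeOf_iff x (V i₀) (hxV i₀) b).mpr (Or.inl h0))
  refine ⟨b, b.2, hb'.resolve_left hb0, fun i hi => ?_⟩
  have h1 := hbn' i hi
  rw [mem_primeOf_iff] at h1
  push Not at h1
  exact le_antisymm h1.2 (ord_nonneg_of_mem (V i) (mem_place_of_isIntegral x (V i) (hxV i) b.2))

/-- The norm of an integral function vanishing at a zero `v₀` of `x` is divisible by `x`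
in `K[x]`. -/
theorem norm_eq_mul_of_integral (v₀ : Place K F) (hv₀ : 0 < v₀.ord x)
    (b : F) (hb : IsIntegral (Algebra.adjoin K {x}) b) (hb0 : b ≠ 0) (hbv : 0 < v₀.ord b) :
    ∃ h : F, h ∈ Algebra.adjoin K {x} ∧ h ≠ 0 ∧
      algebraMap K⟮x⟯ F (Algebra.norm K⟮x⟯ b) = h * x := by
  have : IsPrincipalIdealRing (Algebra.adjoin K {x}) := adjoin_isPrincipalIdealRing x
  have : CharZero K⟮x⟯ := charZero_of_injective_algebraMap (algebraMap K K⟮x⟯).injective
  have : IsDedekindDomain (integralClosure (Algebra.adjoin K {x}) F) :=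
    integralClosure.isDedekindDomain (Algebra.adjoin K {x}) K⟮x⟯ F
  have : IsFractionRing (integralClosure (Algebra.adjoin K {x}) F) F :=
    integralClosure.isFractionRing_of_finite_extension K⟮x⟯ F
  have : Module.Finite (Algebra.adjoin K {x}) (integralClosure (Algebra.adjoin K {x}) F) :=
    IsIntegralClosure.finite (Algebra.adjoin K {x}) K⟮x⟯ F _
  have hx₀ : x ∈ v₀.toValuationSubring := mem_of_ord_nonneg v₀ hv₀.le
  set b' : integralClosure (Algebra.adjoin K {x}) F := ⟨b, hb⟩ with hb'
  set N : Algebra.adjoin K {x} :=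
    Algebra.intNorm (Algebra.adjoin K {x}) (integralClosure (Algebra.adjoin K {x}) F) b' with hN
  have hNnorm : algebraMap (Algebra.adjoin K {x}) K⟮x⟯ N = Algebra.norm K⟮x⟯ b :=
    Algebra.algebraMap_intNorm (K := K⟮x⟯) (L := F) b'
  have hNF : algebraMap K⟮x⟯ F (Algebra.norm K⟮x⟯ b) = (N : F) := by
    rw [← hNnorm]
    rfl
  have hnorm0 : Algebra.norm K⟮x⟯ b ≠ 0 := Algebra.norm_ne_zero_iff.mpr hb0
  have hN0 : (N : F) ≠ 0 := by
    rw [← hNF]
    exact fun h => hnorm0 ((algebraMap K⟮x⟯ F).injective (by rw [h, map_zero]))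
  obtain ⟨c, hc⟩ := Algebra.dvd_algebraMap_intNorm_self (Algebra.adjoin K {x}) _ b'
  have hcF : (N : F) = b * (c : F) := congrArg Subtype.val hc
  have hc0 : (c : F) ≠ 0 := by
    rintro h0
    rw [h0, mul_zero] at hcF
    exact hN0 hcF
  have hordN : 0 < v₀.ord (N : F) := by
    rw [hcF, v₀.ord_mul hb0 hc0]
    have := ord_nonneg_of_mem v₀ (mem_place_of_isIntegral x v₀ hx₀ c.2)
    omega
  have hNA : (N : F) ∈ (Polynomial.aeval x : Polynomial K →ₐ[K] F).range := by
    rw [← Algebra.adjoin_singleton_eq_range_aeval K x]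
    exact N.2
  obtain ⟨p, hp⟩ := hNA
  have hp' : (N : F) = Polynomial.aeval x p.divX * x + algebraMap K F (p.coeff 0) := by
    conv_lhs => rw [← hp, ← Polynomial.divX_mul_X_add p]
    simp
  have hh : Polynomial.aeval x p.divX ∈ Algebra.adjoin K {x} := by
    rw [Algebra.adjoin_singleton_eq_range_aeval K x]
    exact ⟨_, rfl⟩
  have hcoeff : algebraMap K F (p.coeff 0) = 0 := by
    by_contra hne
    have h0 : v₀.ord (algebraMap K F (p.coeff 0)) = 0 := ord_algebraMap v₀ _
    have heq : algebraMap K F (p.coeff 0) = (N : F) + -(Polynomial.aeval x p.divX * x) := by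
      rw [hp']; ring
    by_cases hhx : Polynomial.aeval x p.divX * x = 0
    · rw [hhx, neg_zero, add_zero] at heq
      rw [heq] at h0
      omega
    · have hh0 : Polynomial.aeval x p.divX ≠ 0 := left_ne_zero_of_mul hhx
      have hx0 : x ≠ 0 := right_ne_zero_of_mul hhx
      have h1 : 0 < v₀.ord (Polynomial.aeval x p.divX * x) := by
        rw [v₀.ord_mul hh0 hx0]
        have := ord_nonneg_of_mem v₀ (mem_place_of_mem_adjoin x v₀ hx₀ hh)
        omega
      have h2 := ord_add_ge v₀ (a := (N : F)) (b := -(Polynomial.aeval x p.divX * x))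
        (by rw [← heq]; exact hne)
      rw [← heq, ord_neg, h0] at h2
      have := lt_min hordN h1
      omega
  refine ⟨Polynomial.aeval x p.divX, hh, ?_, ?_⟩
  · rintro h0
    rw [hp', h0, zero_mul, hcoeff, add_zero] at hN0
    exact hN0 rfl
  · rw [hNF, hp', hcoeff, add_zero]

/-! ### Part D : the orbit counting lemma -/

/-- **Orbit counting lemma.**
`x` transcendental, `F` finite over `K(x)` of degree `n`.  Given `n` "conjugate" discrete
valuations `w g` (`g : X`, `|X| = n`) with `w g x = e₀ > 0`, the norm identity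
`∑ g, w g f = w g₀ (N f)`, and an orbit map `orb : X → O` such that `w` is constant on
orbits and `e₀ ∣ |orbit| * w g f`, the places of `F` that are zeros of `x` are in bijection
with the orbits.  `hfund` is the fundamental identity `∑_{v | x} ord_v x = n`. -/
theorem card_zeros_eq_card_orbits (hx0 : x ≠ 0)
    (hfund : ∃ s : Finset (Place K F), (∀ v, v ∈ s ↔ 0 < v.ord x) ∧
      ∑ v ∈ s, v.ord x = Module.finrank K⟮x⟯ F)
    {X O : Type*} [Fintype X] [Finite O]
    (hcard : Fintype.card X = Module.finrank K⟮x⟯ F)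
    (w : X → F → ℤ)
    (hw_mul : ∀ g (a b : F), a ≠ 0 → b ≠ 0 → w g (a * b) = w g a + w g b)
    (hw_add : ∀ g (a b : F), a ≠ 0 → b ≠ 0 → a + b ≠ 0 → min (w g a) (w g b) ≤ w g (a + b))
    (hw_const : ∀ g (c : K), w g (algebraMap K F c) = 0)
    (e₀ : ℤ) (he₀ : 0 < e₀) (hw_x : ∀ g, w g x = e₀)
    (hnorm : ∀ (f : F), f ≠ 0 → ∀ g₀ : X,
      ∑ g, w g f = w g₀ (algebraMap K⟮x⟯ F (Algebra.norm K⟮x⟯ f)))
    (orb : X → O) (horb : Function.Surjective orb)
    (hw_orb : ∀ g g', orb g = orb g' → ∀ f, w g f = w g' f)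
    (hw_div : ∀ g (f : F), f ≠ 0 →
      e₀ ∣ (Nat.card {g' // orb g' = orb g} : ℤ) * w g f) :
    Nat.card {v : Place K F // 0 < v.ord x} = Nat.card O := by
  classical
  obtain ⟨s, hs, hsum⟩ := hfund
  have hwx : ∀ g, 0 < w g x := fun g => by rw [hw_x]; exact he₀
  -- the places attached to the valuations
  let V : X → Place K F := fun g =>
    ivPlace (w g) (hw_mul g) (hw_add g) (hw_const g) x hx0 (hwx g)
  have hκ : ∀ g, ∃ κ : ℤ, 0 < κ ∧ ∀ f : F, f ≠ 0 → w g f = (V g).ord f * κ := fun g =>
    ivPlace_ord (w g) (hw_mul g) (hw_add g) (hw_const g) x hx0 (hwx g)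
  choose κ hκpos hκ using hκ
  have hVx : ∀ g, 0 < (V g).ord x := by
    intro g
    have h := hκ g x hx0
    rw [hw_x] at h
    by_contra hle
    rw [not_lt] at hle
    have := mul_nonpos_of_nonpos_of_nonneg hle (hκpos g).le
    omega
  have hVorb : ∀ g g', orb g = orb g' → V g = V g' := by
    intro g g' h
    apply Place.ext
    ext f
    show f ∈ ivSubring (w g) (hw_mul g) (hw_add g) ↔ f ∈ ivSubring (w g') (hw_mul g') (hw_add g')
    simp only [mem_ivSubring, hw_orb g g' h f]
  -- surjectivity onto the zeros of `x`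
  have hsurj : ∀ v₀ : Place K F, 0 < v₀.ord x → ∃ g, V g = v₀ := by
    intro v₀ hv₀
    by_contra hcon
    push Not at hcon
    obtain ⟨b, hb, hbv, hbV⟩ :=
      exists_integral_avoiding x v₀ hv₀ Finset.univ V hVx (fun g _ => hcon g)
    have hb0 : b ≠ 0 := by
      rintro rfl
      simp at hbv
    obtain ⟨h, hhA, hh0, hnm⟩ := norm_eq_mul_of_integral x v₀ hv₀ b hb hb0 hbv
    have hXne : Nonempty X := by
      have : 0 < Fintype.card X := by rw [hcard]; exact Module.finrank_pos
      exact Fintype.card_pos_iff.mp this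
    obtain ⟨g₀⟩ := hXne
    have h1 := hnorm b hb0 g₀
    rw [hnm, hw_mul g₀ h x hh0 hx0, hw_x] at h1
    have h2 : ∑ g, w g b = 0 := Finset.sum_eq_zero (fun g _ => by
      rw [hκ g b hb0, hbV g (Finset.mem_univ g), zero_mul])
    have h3 : 0 ≤ w g₀ h := by
      have hxmem : x ∈ (V g₀).toValuationSubring := mem_of_ord_nonneg _ (hVx g₀).le
      have hmem := mem_place_of_mem_adjoin x (V g₀) hxmem hhA
      exact (hmem : h = 0 ∨ 0 ≤ w g₀ h).resolve_left hh0
    omega
  -- orbits
  have : Fintype O := Fintype.ofFinite O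
  let Φ : O → Place K F := fun o => V (Function.surjInv horb o)
  have hΦ : ∀ g, Φ (orb g) = V g := fun g =>
    hVorb _ _ (Function.surjInv_eq horb (orb g))
  have hΦmem : ∀ o, Φ o ∈ s := fun o => (hs _).mpr (hVx _)
  have hΦsurj : ∀ v ∈ s, ∃ o, Φ o = v := by
    intro v hv
    obtain ⟨g, hg⟩ := hsurj v ((hs v).mp hv)
    exact ⟨orb g, (hΦ g).trans hg⟩
  have he : ∀ o, (Φ o).ord x ≤ (Nat.card {g' // orb g' = o} : ℤ) := by
    intro o
    set g := Function.surjInv horb o with hg
    have hgo : orb g = o := Function.surjInv_eq horb o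
    obtain ⟨π, hπ⟩ := IsDiscreteValuationRing.exists_irreducible (V g).toValuationSubring
    have hπ0 : (π : F) ≠ 0 := fun h => hπ.ne_zero (Subtype.ext h)
    have hπ1 : (V g).ord (π : F) = 1 := (V g).ord_coe_irreducible hπ
    have h1 := hw_div g (π : F) hπ0
    rw [hκ g _ hπ0, hπ1, one_mul, ← hw_x g, hκ g x hx0, hgo] at h1
    have h2 : (V g).ord x ∣ (Nat.card {g' // orb g' = o} : ℤ) :=
      Int.dvd_of_mul_dvd_mul_right (hκpos g).ne' h1
    have hpos : 0 < (Nat.card {g' // orb g' = o} : ℤ) := by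
      have : Nonempty {g' // orb g' = o} := ⟨⟨g, hgo⟩⟩
      exact_mod_cast Nat.card_pos
    exact Int.le_of_dvd hpos h2
  -- the counting
  have hS2 : ∑ o : O, (Nat.card {g' // orb g' = o} : ℤ) = Fintype.card X := by
    have h := Finset.card_eq_sum_card_fiberwise (s := (Finset.univ : Finset X))
      (t := (Finset.univ : Finset O)) (f := orb) (fun g _ => Finset.mem_univ _)
    rw [Finset.card_univ] at h
    rw [h]
    push_cast
    refine Finset.sum_congr rfl (fun o _ => ?_)
    rw [Nat.card_eq_fintype_card, Fintype.card_subtype]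
  have hS3 : ∑ o : O, (Φ o).ord x ≤ ∑ v ∈ s, v.ord x := by
    rw [hsum, ← hcard, ← hS2]
    exact Finset.sum_le_sum (fun o _ => he o)
  have hS4 : ∑ o : O, (Φ o).ord x
      = ∑ v ∈ s, ((Finset.univ.filter (fun o => Φ o = v)).card : ℤ) * v.ord x := by
    rw [← Finset.sum_fiberwise_of_maps_to (s := (Finset.univ : Finset O)) (t := s) (g := Φ)
      (fun o _ => hΦmem o)]
    refine Finset.sum_congr rfl (fun v _ => ?_)
    rw [Finset.sum_congr rfl (fun o ho => by rw [(Finset.mem_filter.mp ho).2]),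
      Finset.sum_const, nsmul_eq_mul]
  have hc1 : ∀ v ∈ s, 1 ≤ (Finset.univ.filter (fun o => Φ o = v)).card := by
    intro v hv
    obtain ⟨o, ho⟩ := hΦsurj v hv
    exact Finset.card_pos.mpr ⟨o, Finset.mem_filter.mpr ⟨Finset.mem_univ _, ho⟩⟩
  have hzero : ∀ v ∈ s,
      (((Finset.univ.filter (fun o => Φ o = v)).card : ℤ) - 1) * v.ord x = 0 := by
    have hnn : ∀ v ∈ s,
        0 ≤ (((Finset.univ.filter (fun o => Φ o = v)).card : ℤ) - 1) * v.ord x := by
      intro v hv
      have h1 : (1 : ℤ) ≤ ((Finset.univ.filter (fun o => Φ o = v)).card : ℤ) := by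
        exact_mod_cast hc1 v hv
      exact mul_nonneg (by omega) ((hs v).mp hv).le
    have hle : ∑ v ∈ s,
        (((Finset.univ.filter (fun o => Φ o = v)).card : ℤ) - 1) * v.ord x ≤ 0 := by
      have : ∑ v ∈ s, (((Finset.univ.filter (fun o => Φ o = v)).card : ℤ) - 1) * v.ord x
          = ∑ v ∈ s, ((Finset.univ.filter (fun o => Φ o = v)).card : ℤ) * v.ord x
            - ∑ v ∈ s, v.ord x := by
        rw [← Finset.sum_sub_distrib]
        exact Finset.sum_congr rfl (fun v _ => by ring)
      rw [this, ← hS4]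
      omega
    exact (Finset.sum_eq_zero_iff_of_nonneg hnn).mp (le_antisymm hle (Finset.sum_nonneg hnn))
  have hc : ∀ v ∈ s, (Finset.univ.filter (fun o => Φ o = v)).card = 1 := by
    intro v hv
    have h1 := hzero v hv
    have h2 : v.ord x ≠ 0 := ((hs v).mp hv).ne'
    have h3 := (mul_eq_zero.mp h1).resolve_right h2
    have h4 : ((Finset.univ.filter (fun o => Φ o = v)).card : ℤ) = 1 := by omega
    exact_mod_cast h4
  have hcardO : Fintype.card O = s.card := by
    have h := Finset.card_eq_sum_card_fiberwise (s := (Finset.univ : Finset O))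
      (t := s) (f := Φ) (fun o _ => hΦmem o)
    rw [Finset.card_univ] at h
    rw [h, Finset.sum_congr rfl hc, Finset.sum_const, smul_eq_mul, mul_one]
  have hcards : Nat.card {v : Place K F // 0 < v.ord x} = s.card := by
    rw [Nat.card_congr (Equiv.subtypeEquivRight (fun v => (hs v).symm)),
      Nat.card_eq_fintype_card, Fintype.card_coe]
  rw [hcards, Nat.card_eq_fintype_card, hcardO]

end Dictionary

end Fermat.Agent.S24.helper384
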