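import Fermat.Agent.S24.helper504_LocalInf
import Fermat.Agent.S24.helper167_JFinrank
import Fermat.Agent.S24.helper288_Conj

/-!
# S24 / MOD: `Stmt_JFinrank` (helper504)

`evDatum N : helper167.EvDatum N` from the analytic model `evFun` of `helper504_CuspEv`, hence
`stmt_JFinrank : helper24.Stmt_JFinrank` by `helper167.stmt_JFinrank_of` and `stmt_LocalInf`.
-/

set_option autoImplicit false

open Complex Filter Function Topology
open UpperHalfPlane hiding I
open ModularCurve CongruenceSubgroup
open scoped Real Manifold MatrixGroups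

noncomputable section

namespace Fermat.Agent.S24.helper504

open Fermat.Agent.S24.helper24

theorem hpt_eq_ofComplex (d : ℕ) [NeZero d] (σ : ℍ) :
    hpt d 0 1 σ = ofComplex ((d : ℂ) * (σ : ℂ)) := by
  have him : 0 < ((d : ℂ) * (σ : ℂ)).im := by
    have h := (hpt d 0 1 σ).2
    have e : ((hpt d 0 1 σ : ℍ) : ℂ) = (d : ℂ) * (σ : ℂ) := by simp
    rwa [e] at h
  rw [ofComplex_apply_of_im_pos him]
  apply UpperHalfPlane.ext
  simp

/-- Exponential growth of every conjugate of the analytic model. -/
theorem hasExpGrowth_pull_evFun (N : ℕ) [NeZero N] (g : SL(2, ℤ)) (a : helper3176.AN N) :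
    helper167.HasExpGrowth (fun τ => evFun N a (g • τ)) := by
  induction a using AN_induction with
  | gen d hd =>
      rw [evFun_jBarD]
      have h := helper288.hasExpGrowth_jFn_mul_smul g d (Nat.pos_of_ne_zero (NeZero.ne d))
      have e : (fun τ : ℍ => jd d (g • τ))
          = fun τ : ℍ => helper288.jFn (ofComplex ((d : ℂ) * ((g • τ : ℍ) : ℂ))) := by
        funext τ
        rw [jd_apply, hpt_eq_ofComplex]
        rfl
      rw [e]
      exact h
  | const c => rw [evFun_algebraMap]; exact helper167.hasExpGrowth_const _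
  | add x y hx hy => rw [map_add]; exact hx.add hy
  | mul x y hx hy => rw [map_mul]; exact hx.mul hy

/-- `ℂ`-linear relations between the functions `evFun b` hold between the formal series. -/
theorem linear_transfer (N : ℕ) (s : Finset (ℕ × ℕ)) (c : ℕ × ℕ → ℂ)
    (b : ℕ × ℕ → helper3176.AN N)
    (h : ∀ τ : ℍ, ∑ i ∈ s, c i * evFun N (b i) τ = 0) :
    ∑ i ∈ s, c i • coeffMap kappa (((b i : helper3176.AN N) : FN N) : LaurentSeries Kbar) = 0 := by
  have hF : (∑ i ∈ s, (⟨fun _ => c i, const_mem_cuspMer 1 (c i)⟩ : helper315.cuspMer 1)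
      * evA N (b i)) = 0 := by
    apply Subtype.val_injective
    show (helper315.cuspMer 1).subtype _ = (helper315.cuspMer 1).subtype 0
    rw [map_sum, map_zero]
    funext τ
    rw [Finset.sum_apply]
    exact h τ
  have h2 := congrArg (helper315.cuspExp 1) hF
  rw [map_sum, map_zero] at h2
  rw [← h2]
  refine Finset.sum_congr rfl fun i _ => ?_
  rw [map_mul, cuspExp_const, cuspExp_evA, formalC_apply, HahnSeries.C_mul_eq_smul]

/-- The analytic realisation of `A_N` in the shape of `helper167.EvDatum`. -/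
theorem evDatum (N : ℕ) [NeZero N] : helper167.EvDatum N := by
  refine ⟨kappa, evFun N, evFun_mdiff N,
    fun a γ hγ τ => congrFun (pull_evFun_of_mem_Gamma0 N hγ a) τ,
    fun a g => hasExpGrowth_pull_evFun N g a, fun τ => ?_, linear_transfer N⟩
  have h := evFun_jBarD N 1 (one_dvd N)
  rw [jd_one] at h
  exact congrFun h τ

/-- **M2**: `[F_N : ℚ̄(j)] = [SL₂(ℤ) : Γ₀(N)]`. -/
theorem stmt_JFinrank : Stmt_JFinrank :=
  helper167.stmt_JFinrank_of (fun N _ => evDatum N) stmt_LocalInf

end Fermat.Agent.S24.helper504
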