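import Mathlib
import Fermat.Agent.S24.helper24_Spec

/-!
# S24, G5: Kähler differentials of a function field of one variable (helper1602)

For a field extension `F / K` in characteristic zero, `x : F` transcendental over `K` and
`F` algebraic over `K⟮x⟯`, the module `Ω[F⁄K]` is one-dimensional over `F`, spanned by `dx`,
and `dx ≠ 0`.

Route: `K[X] → K⟮x⟯` is a localization and `K⟮x⟯ → F` is separable algebraic, so `K[X] → F`
is formally étale and `Ω[F⁄K] ≃ F ⊗[K[X]] Ω[K[X]⁄K] ≃ F ⊗[K[X]] K[X] ≃ F`, with `dx ↦ 1`.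
-/

set_option autoImplicit false
set_option linter.style.haveILetI false
set_option linter.unnecessarySimpa false

open Polynomial KaehlerDifferential IntermediateField TensorProduct

namespace Fermat.Agent.S24.helper1602

section Generic

variable {K F : Type*} [Field K] [Field F] [Algebra K F]

/-- `F` as a `K[X]`-algebra via `X ↦ x`. -/
@[reducible] noncomputable def polyAlgebra (x : F) : Algebra K[X] F :=
  (Polynomial.aeval x).toRingHom.toAlgebra

/-- `K⟮x⟯` as a `K[X]`-algebra via `X ↦ x`. -/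
@[reducible] noncomputable def polyAlgebraAdjoin (x : F) : Algebra K[X] K⟮x⟯ :=
  (Polynomial.aeval (AdjoinSimple.gen K x)).toRingHom.toAlgebra

theorem formallyEtale_poly [CharZero K] (x : F) (hx : Transcendental K x)
    [Algebra.IsAlgebraic K⟮x⟯ F] :
    letI := polyAlgebra (K := K) x
    Algebra.FormallyEtale K[X] F := by
  letI := polyAlgebra (K := K) x
  letI := polyAlgebraAdjoin (K := K) x
  have hmapF : ∀ p : K[X], algebraMap K[X] F p = Polynomial.aeval x p := fun _ => rfl
  have hmapA : ∀ p : K[X], algebraMap K[X] K⟮x⟯ p = Polynomial.aeval (AdjoinSimple.gen K x) p :=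
    fun _ => rfl
  have hcoe : ∀ p : K[X], ((Polynomial.aeval (AdjoinSimple.gen K x) p : K⟮x⟯) : F)
      = Polynomial.aeval x p := by
    intro p
    have := Polynomial.aeval_algebraMap_apply (A := K⟮x⟯) F (AdjoinSimple.gen K x) p
    simpa using this.symm
  haveI : IsScalarTower K[X] K⟮x⟯ F := IsScalarTower.of_algebraMap_eq fun p => by
    rw [hmapF, hmapA]; exact (hcoe p).symm
  have hinj : Function.Injective (algebraMap K[X] K⟮x⟯) := by
    intro p q hpq
    rw [hmapA, hmapA] at hpq
    have h2 : Polynomial.aeval x p = Polynomial.aeval x q := by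
      rw [← hcoe, ← hcoe, hpq]
    exact (transcendental_iff_injective.mp hx) h2
  haveI : FaithfulSMul K[X] K⟮x⟯ := (faithfulSMul_iff_algebraMap_injective _ _).mpr hinj
  haveI : IsFractionRing K[X] K⟮x⟯ := by
    refine IsFractionRing.of_field K[X] K⟮x⟯ fun z => ?_
    obtain ⟨r, s, hrs⟩ := (IntermediateField.mem_adjoin_simple_iff K (z : F)).mp z.2
    refine ⟨r, s, ?_⟩
    apply Subtype.ext
    rw [hrs, hmapA, hmapA]
    push_cast
    rw [hcoe, hcoe]
  haveI : Algebra.FormallyEtale K[X] K⟮x⟯ :=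
    Algebra.FormallyEtale.of_isLocalization (nonZeroDivisors K[X])
  haveI : Algebra.FormallyEtale K⟮x⟯ F := Algebra.FormallyEtale.of_isSeparable K⟮x⟯ F
  exact Algebra.FormallyEtale.comp K[X] K⟮x⟯ F

/-- Every element of `F ⊗[K[X]] Ω[K[X]⁄K]` is an `F`-multiple of `1 ⊗ dX`. -/
theorem exists_smul_one_tmul_DX (x : F) :
    letI := polyAlgebra (K := K) x
    ∀ t : F ⊗[K[X]] Ω[K[X]⁄K], ∃ f : F, t = f • ((1 : F) ⊗ₜ[K[X]] D K K[X] (X : K[X])) := by
  letI := polyAlgebra (K := K) x
  intro t
  induction t using TensorProduct.induction_on with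
  | zero => exact ⟨0, by simp⟩
  | tmul f ω =>
    have hω : ω = (polynomialEquiv K ω) • D K K[X] (X : K[X]) := by
      rw [← polynomialEquiv_symm, LinearEquiv.symm_apply_apply]
    refine ⟨f * algebraMap K[X] F (polynomialEquiv K ω), ?_⟩
    conv_lhs => rw [hω]
    rw [TensorProduct.tmul_smul, TensorProduct.smul_tmul', TensorProduct.smul_tmul',
      Algebra.smul_def, smul_eq_mul, mul_one, mul_comm]
  | add a b ha hb =>
    obtain ⟨f, rfl⟩ := ha
    obtain ⟨g, rfl⟩ := hb
    exact ⟨f + g, by rw [add_smul]⟩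

/-- The `F`-linear map `F ⊗[K[X]] Ω[K[X]⁄K] → F` sending `1 ⊗ dX` to `1`. -/
noncomputable def tensorToBase (x : F) :
    letI := polyAlgebra (K := K) x
    F ⊗[K[X]] Ω[K[X]⁄K] →ₗ[F] F :=
  letI := polyAlgebra (K := K) x
  (TensorProduct.AlgebraTensorModule.rid K[X] F F).toLinearMap ∘ₗ
    (polynomialEquiv K).toLinearMap.baseChange F

theorem tensorToBase_one_tmul_DX (x : F) :
    letI := polyAlgebra (K := K) x
    tensorToBase (K := K) x ((1 : F) ⊗ₜ[K[X]] D K K[X] (X : K[X])) = 1 := by
  letI := polyAlgebra (K := K) x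
  simp [tensorToBase, polynomialEquiv_D]

/-- **Kähler differentials of a function field of one variable.**
In characteristic zero, if `x` is transcendental over `K` and `F` is algebraic over `K⟮x⟯`,
then `Ω[F⁄K]` is spanned by `dx` over `F`. -/
theorem span_D_eq_top [CharZero K] (x : F) (hx : Transcendental K x)
    [Algebra.IsAlgebraic K⟮x⟯ F] :
    Submodule.span F {D K F x} = ⊤ := by
  letI := polyAlgebra (K := K) x
  haveI : IsScalarTower K K[X] F := IsScalarTower.of_algebraMap_eq fun a => by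
    show algebraMap K F a = Polynomial.aeval x (Polynomial.C a)
    rw [Polynomial.aeval_C]
  haveI : Algebra.FormallyEtale K[X] F := formallyEtale_poly x hx
  let e := tensorKaehlerEquivOfFormallyEtale K K[X] F
  have he : e ((1 : F) ⊗ₜ[K[X]] D K K[X] (X : K[X])) = D K F x := by
    show (tensorKaehlerEquivOfFormallyEtale K K[X] F) _ = _
    rw [tensorKaehlerEquivOfFormallyEtale_apply, mapBaseChange_tmul, one_smul, map_D]
    show D K F (Polynomial.aeval x (X : K[X])) = _
    rw [Polynomial.aeval_X]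
  rw [eq_top_iff]
  intro ω _
  obtain ⟨f, hf⟩ := exists_smul_one_tmul_DX (K := K) x (e.symm ω)
  rw [Submodule.mem_span_singleton]
  refine ⟨f, ?_⟩
  rw [← he, ← map_smul, ← hf, LinearEquiv.apply_symm_apply]

/-- In characteristic zero, if `x` is transcendental over `K` and `F` is algebraic over `K⟮x⟯`,
then `dx ≠ 0` in `Ω[F⁄K]`. -/
theorem D_ne_zero [CharZero K] (x : F) (hx : Transcendental K x)
    [Algebra.IsAlgebraic K⟮x⟯ F] :
    D K F x ≠ 0 := by
  letI := polyAlgebra (K := K) x
  haveI : IsScalarTower K K[X] F := IsScalarTower.of_algebraMap_eq fun a => by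
    show algebraMap K F a = Polynomial.aeval x (Polynomial.C a)
    rw [Polynomial.aeval_C]
  haveI : Algebra.FormallyEtale K[X] F := formallyEtale_poly x hx
  let e := tensorKaehlerEquivOfFormallyEtale K K[X] F
  have he : e ((1 : F) ⊗ₜ[K[X]] D K K[X] (X : K[X])) = D K F x := by
    show (tensorKaehlerEquivOfFormallyEtale K K[X] F) _ = _
    rw [tensorKaehlerEquivOfFormallyEtale_apply, mapBaseChange_tmul, one_smul, map_D]
    show D K F (Polynomial.aeval x (X : K[X])) = _
    rw [Polynomial.aeval_X]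
  intro h0
  rw [← he] at h0
  have h1 : (1 : F) ⊗ₜ[K[X]] D K K[X] (X : K[X]) = 0 := by
    have := congrArg e.symm h0
    simpa using this
  have h2 := tensorToBase_one_tmul_DX (K := K) x
  rw [h1, map_zero] at h2
  exact zero_ne_one h2

/-- `Ω[F⁄K]` is nontrivial for a function field of one variable in characteristic zero. -/
theorem nontrivial_kaehler [CharZero K] (x : F) (hx : Transcendental K x)
    [Algebra.IsAlgebraic K⟮x⟯ F] : Nontrivial Ω[F⁄K] :=
  ⟨⟨D K F x, 0, D_ne_zero x hx⟩⟩

/-- Every differential is a multiple of `dx`. -/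
theorem exists_eq_smul_D [CharZero K] (x : F) (hx : Transcendental K x)
    [Algebra.IsAlgebraic K⟮x⟯ F] (ω : Ω[F⁄K]) : ∃ f : F, ω = f • D K F x := by
  have hω : ω ∈ (⊤ : Submodule F Ω[F⁄K]) := Submodule.mem_top
  rw [← span_D_eq_top x hx, Submodule.mem_span_singleton] at hω
  exact hω.imp fun _ hf => hf.symm

/-- Any nonzero differential spans `Ω[F⁄K]`. -/
theorem span_singleton_eq_top_of_ne_zero [CharZero K] (x : F) (hx : Transcendental K x)
    [Algebra.IsAlgebraic K⟮x⟯ F] {ω : Ω[F⁄K]} (hω : ω ≠ 0) :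
    Submodule.span F {ω} = ⊤ := by
  obtain ⟨f, hf⟩ := exists_eq_smul_D x hx ω
  have hf0 : f ≠ 0 := by
    rintro rfl
    exact hω (by rw [hf, zero_smul])
  rw [eq_top_iff, ← span_D_eq_top x hx, Submodule.span_singleton_le_iff_mem,
    Submodule.mem_span_singleton]
  exact ⟨f⁻¹, by rw [hf, smul_smul, inv_mul_cancel₀ hf0, one_smul]⟩

/-- `Ω[F⁄K]` is one-dimensional over `F`. -/
theorem finrank_kaehler [CharZero K] (x : F) (hx : Transcendental K x)
    [Algebra.IsAlgebraic K⟮x⟯ F] : Module.finrank F Ω[F⁄K] = 1 := by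
  rw [finrank_eq_one_iff_of_nonzero' (D K F x) (D_ne_zero x hx)]
  intro ω
  obtain ⟨f, hf⟩ := exists_eq_smul_D x hx ω
  exact ⟨f, hf.symm⟩

/-- In characteristic zero, the differential of an element algebraic over `K` vanishes. -/
theorem D_eq_zero_of_isAlgebraic [CharZero K] {y : F} (hy : IsAlgebraic K y) :
    D K F y = 0 := by
  haveI : Algebra.IsAlgebraic K K⟮y⟯ :=
    (IntermediateField.isAlgebraic_adjoin_simple hy.isIntegral)
  haveI : Algebra.FormallyUnramified K K⟮y⟯ := Algebra.FormallyUnramified.of_isSeparable K K⟮y⟯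
  have h0 : D K K⟮y⟯ (AdjoinSimple.gen K y) = 0 := Subsingleton.elim _ _
  have h1 := KaehlerDifferential.map_D K K K⟮y⟯ F (AdjoinSimple.gen K y)
  rw [h0, map_zero] at h1
  exact h1.symm

end Generic

/-- **G5 of the S24 specification**: `Ω[F⁄K] = F·dx` and `dx ≠ 0`. -/
theorem stmt_KaehlerSpan : helper24.Stmt_KaehlerSpan := by
  intro K F _ _ _ _ x hx _
  exact ⟨span_D_eq_top x hx, D_ne_zero x hx⟩

end Fermat.Agent.S24.helper1602
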