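import Mathlib
import Fermat.Prelude.Def_ModularCurve_CanonicalDivisor

set_option autoImplicit false

/-!
# Local differential calculus at a place (S24, Module A2)

`t`-adic expansion of a discrete valuation ring with residue field `K` into `K⟦X⟧`,
and the consequence `ord_v (dy / dt_v) = ord_v y - 1`.
-/

namespace Fermat.Agent.S24.helper564

open PowerSeries Polynomial

noncomputable section

section Expansion

variable {K R : Type*} [Field K] [CommRing R] [IsDomain R] [IsDiscreteValuationRing R]
  [Algebra K R]

/-- `R` has residue field `K`: every element is congruent to a constant. -/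
def ResidueIsBase (K R : Type*) [Field K] [CommRing R] [IsLocalRing R] [Algebra K R] : Prop :=
  ∀ u : R, ∃ c : K, u - algebraMap K R c ∈ IsLocalRing.maximalIdeal R

variable {t : R}

theorem exists_decomp (ht : Irreducible t) (hres : ResidueIsBase K R) (u : R) :
    ∃ c : K, ∃ w : R, u = algebraMap K R c + t * w := by
  obtain ⟨c, hc⟩ := hres u
  rw [ht.maximalIdeal_eq, Ideal.mem_span_singleton'] at hc
  obtain ⟨w, hw⟩ := hc
  exact ⟨c, w, by rw [mul_comm, hw]; ring⟩

omit [IsDiscreteValuationRing R] in
theorem decomp_unique (ht : Irreducible t) {c c' : K} {w w' : R}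
    (h : algebraMap K R c + t * w = algebraMap K R c' + t * w') : c = c' ∧ w = w' := by
  have h1 : algebraMap K R (c - c') = t * (w' - w) := by
    rw [map_sub]; linear_combination h
  have hc : c = c' := by
    by_contra hne
    have hu : IsUnit (algebraMap K R (c - c')) :=
      (isUnit_iff_ne_zero.mpr (sub_ne_zero.mpr hne)).map _
    rw [h1] at hu
    exact ht.not_isUnit (isUnit_of_mul_isUnit_left hu)
  refine ⟨hc, ?_⟩
  subst hc
  have h2 : t * w = t * w' := by linear_combination h
  exact mul_left_cancel₀ ht.ne_zero h2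

/-- constant term of the `t`-adic expansion -/
def r0 (ht : Irreducible t) (hres : ResidueIsBase K R) (u : R) : K :=
  (exists_decomp ht hres u).choose

/-- shift of the `t`-adic expansion -/
def sh (ht : Irreducible t) (hres : ResidueIsBase K R) (u : R) : R :=
  (exists_decomp ht hres u).choose_spec.choose

theorem decomp_spec (ht : Irreducible t) (hres : ResidueIsBase K R) (u : R) :
    u = algebraMap K R (r0 ht hres u) + t * sh ht hres u :=
  (exists_decomp ht hres u).choose_spec.choose_spec

/-- the `t`-adic expansion as a power series -/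
def expand (ht : Irreducible t) (hres : ResidueIsBase K R) (u : R) : K⟦X⟧ :=
  PowerSeries.mk fun n => r0 ht hres ((sh ht hres)^[n] u)

theorem coeff_expand_zero (ht : Irreducible t) (hres : ResidueIsBase K R) (u : R) :
    PowerSeries.coeff 0 (expand ht hres u) = r0 ht hres u := by
  simp [expand]

theorem coeff_expand_succ (ht : Irreducible t) (hres : ResidueIsBase K R) (u : R) (n : ℕ) :
    PowerSeries.coeff (n + 1) (expand ht hres u)
      = PowerSeries.coeff n (expand ht hres (sh ht hres u)) := by
  simp [expand, Function.iterate_succ_apply]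

theorem coeff_expand_of_congr (ht : Irreducible t) (hres : ResidueIsBase K R) :
    ∀ (n : ℕ) (u : R) (p : K[X]), u - aeval t p ∈ Ideal.span {t ^ n} →
      ∀ i < n, PowerSeries.coeff i (expand ht hres u) = p.coeff i := by
  intro n
  induction n with
  | zero => intro u p _ i hi; exact absurd hi (Nat.not_lt_zero i)
  | succ n ih =>
    intro u p hp i hi
    rw [Ideal.mem_span_singleton'] at hp
    obtain ⟨w, hw⟩ := hp
    have hpdiv : aeval t p = aeval t p.divX * t + algebraMap K R (p.coeff 0) := by
      conv_lhs => rw [← Polynomial.divX_mul_X_add p]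
      simp [Polynomial.aeval_def, Polynomial.eval₂_add, Polynomial.eval₂_mul]
    have hu : algebraMap K R (r0 ht hres u) + t * sh ht hres u
        = algebraMap K R (p.coeff 0) + t * (aeval t p.divX + t ^ n * w) := by
      rw [← decomp_spec ht hres u]
      have : u = aeval t p + w * t ^ (n + 1) := by rw [hw]; ring
      rw [this, hpdiv]; ring
    obtain ⟨h0, h1⟩ := decomp_unique ht hu
    cases i with
    | zero => rw [coeff_expand_zero, h0]
    | succ j =>
      rw [coeff_expand_succ, Polynomial.coeff_divX.symm]
      refine ih (sh ht hres u) p.divX ?_ j (by omega)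
      rw [Ideal.mem_span_singleton']
      exact ⟨w, by rw [h1]; ring⟩

theorem exists_poly_congr (ht : Irreducible t) (hres : ResidueIsBase K R) :
    ∀ (n : ℕ) (u : R), ∃ p : K[X], u - aeval t p ∈ Ideal.span {t ^ n} := by
  intro n
  induction n with
  | zero => intro u; exact ⟨0, by simp⟩
  | succ n ih =>
    intro u
    obtain ⟨p, hp⟩ := ih (sh ht hres u)
    rw [Ideal.mem_span_singleton'] at hp
    obtain ⟨w, hw⟩ := hp
    refine ⟨Polynomial.C (r0 ht hres u) + Polynomial.X * p, ?_⟩
    rw [Ideal.mem_span_singleton']
    refine ⟨w, ?_⟩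
    have h := decomp_spec ht hres u
    have h2 : aeval t (Polynomial.C (r0 ht hres u) + Polynomial.X * p)
        = algebraMap K R (r0 ht hres u) + t * aeval t p := by
      simp [Polynomial.aeval_def, Polynomial.eval₂_add, Polynomial.eval₂_mul]
    rw [h2]
    linear_combination t * hw - h

theorem expand_add (ht : Irreducible t) (hres : ResidueIsBase K R) (u w : R) :
    expand ht hres (u + w) = expand ht hres u + expand ht hres w := by
  ext i
  obtain ⟨p, hp⟩ := exists_poly_congr ht hres (i + 1) u
  obtain ⟨q, hq⟩ := exists_poly_congr ht hres (i + 1) w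
  have hpq : (u + w) - aeval t (p + q) ∈ Ideal.span {t ^ (i + 1)} := by
    have : (u + w) - aeval t (p + q) = (u - aeval t p) + (w - aeval t q) := by
      rw [map_add]; ring
    rw [this]; exact Ideal.add_mem _ hp hq
  rw [map_add, coeff_expand_of_congr ht hres _ _ _ hpq i (Nat.lt_succ_self i),
    coeff_expand_of_congr ht hres _ _ _ hp i (Nat.lt_succ_self i),
    coeff_expand_of_congr ht hres _ _ _ hq i (Nat.lt_succ_self i), Polynomial.coeff_add]

theorem expand_mul (ht : Irreducible t) (hres : ResidueIsBase K R) (u w : R) :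
    expand ht hres (u * w) = expand ht hres u * expand ht hres w := by
  ext i
  obtain ⟨p, hp⟩ := exists_poly_congr ht hres (i + 1) u
  obtain ⟨q, hq⟩ := exists_poly_congr ht hres (i + 1) w
  have hpq : (u * w) - aeval t (p * q) ∈ Ideal.span {t ^ (i + 1)} := by
    have : (u * w) - aeval t (p * q) = u * (w - aeval t q) + aeval t q * (u - aeval t p) := by
      rw [map_mul]; ring
    rw [this]
    exact Ideal.add_mem _ (Ideal.mul_mem_left _ _ hq) (Ideal.mul_mem_left _ _ hp)
  rw [coeff_expand_of_congr ht hres _ _ _ hpq i (Nat.lt_succ_self i), PowerSeries.coeff_mul,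
    Polynomial.coeff_mul]
  refine Finset.sum_congr rfl fun x hx => ?_
  have hx' := Finset.HasAntidiagonal.mem_antidiagonal.mp hx
  rw [coeff_expand_of_congr ht hres _ _ _ hp x.1 (by omega),
    coeff_expand_of_congr ht hres _ _ _ hq x.2 (by omega)]

theorem expand_algebraMap (ht : Irreducible t) (hres : ResidueIsBase K R) (c : K) :
    expand ht hres (algebraMap K R c) = PowerSeries.C c := by
  ext i
  have h : algebraMap K R c - aeval t (Polynomial.C c) ∈ Ideal.span {t ^ (i + 1)} := by
    simp
  rw [coeff_expand_of_congr ht hres _ _ _ h i (Nat.lt_succ_self i), Polynomial.coeff_C,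
    PowerSeries.coeff_C]

theorem expand_self (ht : Irreducible t) (hres : ResidueIsBase K R) :
    expand ht hres t = (PowerSeries.X : K⟦X⟧) := by
  ext i
  have h : t - aeval t (Polynomial.X : K[X]) ∈ Ideal.span {t ^ (i + 1)} := by
    simp
  rw [coeff_expand_of_congr ht hres _ _ _ h i (Nat.lt_succ_self i), Polynomial.coeff_X,
    PowerSeries.coeff_X]
  simp [eq_comm]

/-- the `t`-adic expansion as a `K`-algebra homomorphism -/
def expandHom (ht : Irreducible t) (hres : ResidueIsBase K R) : R →ₐ[K] K⟦X⟧ where
  toFun := expand ht hres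
  map_one' := by
    have := expand_algebraMap ht hres (1 : K)
    simpa using this
  map_mul' := expand_mul ht hres
  map_zero' := by
    have := expand_algebraMap ht hres (0 : K)
    simpa using this
  map_add' := expand_add ht hres
  commutes' c := by
    rw [expand_algebraMap]
    rfl

@[simp]
theorem expandHom_apply (ht : Irreducible t) (hres : ResidueIsBase K R) (u : R) :
    expandHom ht hres u = expand ht hres u := rfl

theorem mem_span_pow_of_coeff_eq_zero (ht : Irreducible t) (hres : ResidueIsBase K R)
    (m : ℕ) (a : R) (h : ∀ i < m, PowerSeries.coeff i (expand ht hres a) = 0) :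
    a ∈ Ideal.span {t ^ m} := by
  obtain ⟨p, hp⟩ := exists_poly_congr ht hres m a
  have hp0 : ∀ i < m, p.coeff i = 0 := fun i hi => by
    rw [← coeff_expand_of_congr ht hres _ _ _ hp i hi]; exact h i hi
  have hdvd : (Polynomial.X : K[X]) ^ m ∣ p := Polynomial.X_pow_dvd_iff.mpr hp0
  obtain ⟨q, rfl⟩ := hdvd
  have h2 : aeval t (Polynomial.X ^ m * q) ∈ Ideal.span {t ^ m} := by
    rw [Ideal.mem_span_singleton']
    exact ⟨aeval t q, by simp [mul_comm]⟩
  have : a = (a - aeval t (Polynomial.X ^ m * q)) + aeval t (Polynomial.X ^ m * q) := by ring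
  rw [this]
  exact Ideal.add_mem _ hp h2

theorem expand_injective (ht : Irreducible t) (hres : ResidueIsBase K R) :
    Function.Injective (expand ht hres) := by
  intro a b hab
  have h0 : expand ht hres (a - b) = 0 := by
    have h1 : expand ht hres (a - b) = expand ht hres a - expand ht hres b :=
      (expandHom ht hres).map_sub a b
    rw [h1, hab, sub_self]
  by_contra hne
  have hne' : a - b ≠ 0 := sub_ne_zero.mpr hne
  obtain ⟨n, u, hu⟩ := IsDiscreteValuationRing.eq_unit_mul_pow_irreducible hne' ht
  have hmem : a - b ∈ Ideal.span {t ^ (n + 1)} :=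
    mem_span_pow_of_coeff_eq_zero ht hres (n + 1) (a - b) (fun i _ => by rw [h0, map_zero])
  rw [Ideal.mem_span_singleton'] at hmem
  obtain ⟨w, hw⟩ := hmem
  rw [hu] at hw
  have h3 : t ^ n * (w * t) = t ^ n * (u : R) := by linear_combination hw
  have h4 : w * t = (u : R) := mul_left_cancel₀ (pow_ne_zero n ht.ne_zero) h3
  exact ht.not_isUnit (isUnit_of_mul_isUnit_right (h4 ▸ u.isUnit))

end Expansion

section PlaceCalc

open AlgebraicCurve KaehlerDifferential

variable {K F : Type*} [Field K] [Field F] [Algebra K F] (v : Place K F)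

/-- Transport along the expansion: a relation `a • D u = b • D t` in `Ω[F⁄K]` with
`a b u t` in the valuation ring forces `expand a * (expand u)' = expand b`. -/
theorem expand_relation {t : v.toValuationSubring} (ht : Irreducible t)
    (hres : ResidueIsBase K v.toValuationSubring)
    (a b u : v.toValuationSubring)
    (h : (a : F) • D K F (u : F) = (b : F) • D K F (t : F)) :
    expand ht hres a * PowerSeries.derivative K (expand ht hres u) = expand ht hres b := by
  let R := v.toValuationSubring
  let alg : Algebra R K⟦X⟧ := (expandHom ht hres).toRingHom.toAlgebra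
  have : IsScalarTower K R K⟦X⟧ :=
    IsScalarTower.of_algebraMap_eq (fun c => ((expandHom ht hres).commutes c).symm)
  let d : Derivation K R K⟦X⟧ := (PowerSeries.derivative K).compAlgebraMap R
  let L : Ω[R⁄K] →ₗ[R] K⟦X⟧ := d.liftKaehlerDifferential
  have hL : ∀ x : R, L (D K R x) = PowerSeries.derivative K (expand ht hres x) := fun x =>
    Derivation.liftKaehlerDifferential_comp_D d x
  have hsmul : ∀ (r : R) (x : K⟦X⟧), r • x = expand ht hres r * x := fun r x => rfl
  let ω : Ω[R⁄K] := a • D K R u - b • D K R t
  have hω : KaehlerDifferential.map K K R F ω = 0 := by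
    simp only [ω, map_sub, map_smul, KaehlerDifferential.map_D]
    rw [sub_eq_zero]
    exact h
  obtain ⟨s, hs⟩ := (IsLocalizedModule.eq_zero_iff (nonZeroDivisors R)
    (KaehlerDifferential.map K K R F)).mp hω
  have hs0 : (s : R) ≠ 0 := nonZeroDivisors.ne_zero s.2
  have hLs : L ((s : R) • ω) = 0 := by
    have : (s : R) • ω = s • ω := rfl
    rw [this, hs, map_zero]
  rw [map_smul, hsmul] at hLs
  have hexp : expand ht hres (s : R) ≠ 0 := by
    intro h0
    apply hs0
    apply expand_injective ht hres
    rw [h0]
    exact ((expandHom ht hres).map_zero).symm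
  have hLω : L ω = 0 := (mul_eq_zero.mp hLs).resolve_left hexp
  simp only [ω, map_sub, map_smul, hL, hsmul, expand_self] at hLω
  rw [sub_eq_zero] at hLω
  rw [hLω]
  simp

theorem D_irreducible_ne_zero {t : v.toValuationSubring} (ht : Irreducible t)
    (hres : ResidueIsBase K v.toValuationSubring) : D K F (t : F) ≠ 0 := by
  intro h0
  have h := expand_relation v ht hres 1 0 t (by rw [h0]; simp)
  have h1 : expand ht hres (1 : v.toValuationSubring) = 1 := (expandHom ht hres).map_one
  have h2 : expand ht hres (0 : v.toValuationSubring) = 0 := (expandHom ht hres).map_zero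
  rw [h1, h2, expand_self] at h
  simp at h

/-- The derivative with respect to a uniformizer preserves the valuation ring. -/
theorem exists_coeff_mem {t : v.toValuationSubring} (ht : Irreducible t)
    (hres : ResidueIsBase K v.toValuationSubring)
    (hspan : ∀ y : F, ∃ f : F, D K F y = f • D K F (t : F))
    (u : v.toValuationSubring) :
    ∃ a : v.toValuationSubring, D K F (u : F) = (a : F) • D K F (t : F) := by
  obtain ⟨f, hf⟩ := hspan u
  rcases eq_or_ne f 0 with rfl | hf0
  · exact ⟨0, by rw [hf]; simp⟩
  obtain ⟨w, hw⟩ := v.exists_unit_mul_zpow hf0 ht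
  set n := v.ord f with hn
  -- `f * t ^ m = w * t ^ k` with `m k : ℕ`, `n + m = k`
  let m : ℕ := (-n).toNat
  let k : ℕ := (n + m).toNat
  have hk : (k : ℤ) = n + m := by
    simp only [k, m]; omega
  have htF : (t : F) ≠ 0 := by
    simpa [ne_eq, ZeroMemClass.coe_eq_zero] using ht.ne_zero
  let b : v.toValuationSubring := (w : v.toValuationSubring) * t ^ k
  have hb : (b : F) = f * (t : F) ^ m := by
    simp only [b]
    push_cast
    rw [hw, mul_assoc, ← zpow_natCast (t : F) m, ← zpow_add₀ htF, ← hk, zpow_natCast]
  have hrel : ((t ^ m : v.toValuationSubring) : F) • D K F (u : F) = (b : F) • D K F (t : F) := by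
    rw [hf, smul_smul, hb]
    push_cast
    rw [mul_comm]
  have hexp := expand_relation v ht hres (t ^ m) b u hrel
  have hpow : expand ht hres (t ^ m) = (PowerSeries.X : K⟦X⟧) ^ m := by
    have h1 : expand ht hres (t ^ m) = expand ht hres t ^ m := map_pow (expandHom ht hres) t m
    rw [h1, expand_self]
  rw [hpow] at hexp
  have hmem : b ∈ Ideal.span {t ^ m} := by
    apply mem_span_pow_of_coeff_eq_zero ht hres
    intro i hi
    rw [← hexp, PowerSeries.coeff_X_pow_mul', if_neg (by omega)]
  rw [Ideal.mem_span_singleton'] at hmem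
  obtain ⟨c, hc⟩ := hmem
  refine ⟨c, ?_⟩
  have hcf : (c : F) = f := by
    have h1 : (c : F) * (t : F) ^ m = f * (t : F) ^ m := by
      rw [← hb, ← hc]; push_cast; rfl
    exact mul_right_cancel₀ (pow_ne_zero m htF) h1
  rw [hcf, hf]

/-- The (private) uniformizer behind `Place.dCoord` is an irreducible of the valuation ring. -/
theorem exists_irreducible_dCoord :
    ∃ π : v.toValuationSubring, Irreducible π ∧ v.dCoord = D K F (π : F) :=
  ⟨_, (IsDiscreteValuationRing.exists_irreducible v.toValuationSubring).choose_spec, rfl⟩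

theorem dCoord_ne_zero_of_residue (hres : ResidueIsBase K v.toValuationSubring) :
    v.dCoord ≠ 0 := by
  obtain ⟨π, hπ, hdc⟩ := exists_irreducible_dCoord v
  rw [hdc]
  exact D_irreducible_ne_zero v hπ hres

theorem nontrivial_kaehler_of_residue (hres : ResidueIsBase K v.toValuationSubring) :
    Nontrivial Ω[F⁄K] :=
  ⟨⟨v.dCoord, 0, dCoord_ne_zero_of_residue v hres⟩⟩

/-- Explicit form of the differential of `y` at a place where `ord y ≠ 0`:
`dy = (unit * π ^ (ord y - 1)) • dπ`. -/
theorem exists_unit_D_eq [CharZero K] [v.DCoordGenerates]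
    (hres : ResidueIsBase K v.toValuationSubring) {y : F} (hy : v.ord y ≠ 0) :
    ∃ (π : v.toValuationSubring) (_ : Irreducible π) (u : (v.toValuationSubring)ˣ),
      v.dCoord = D K F (π : F) ∧
      D K F y = (((u : v.toValuationSubring) : F) * (π : F) ^ (v.ord y - 1)) • v.dCoord := by
  obtain ⟨π, hπ, hdc⟩ := exists_irreducible_dCoord v
  have hspan : ∀ z : F, ∃ f : F, D K F z = f • D K F (π : F) := fun z => by
    rw [← hdc]; exact v.exists_eq_smul_dCoord (D K F z)
  have hy0 : y ≠ 0 := by
    rintro rfl
    exact hy v.ord_zero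
  obtain ⟨w, hw⟩ := v.exists_unit_mul_zpow hy0 hπ
  set k := v.ord y with hk
  obtain ⟨a, ha⟩ := exists_coeff_mem v hπ hres hspan (w : v.toValuationSubring)
  have hπF : (π : F) ≠ 0 := by
    simpa [ne_eq, ZeroMemClass.coe_eq_zero] using hπ.ne_zero
  -- the unit `k * w + π * a`
  have hkK : (k : K) ≠ 0 := by exact_mod_cast hy
  let c : v.toValuationSubring :=
    algebraMap K v.toValuationSubring (k : K) * (w : v.toValuationSubring) + π * a
  have hcunit : IsUnit c := by
    by_contra hc
    have hc' : c ∈ IsLocalRing.maximalIdeal v.toValuationSubring :=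
      (IsLocalRing.mem_maximalIdeal c).mpr hc
    have hπa : π * a ∈ IsLocalRing.maximalIdeal v.toValuationSubring :=
      Ideal.mul_mem_right _ _ ((IsLocalRing.mem_maximalIdeal π).mpr hπ.not_isUnit)
    have h3 : algebraMap K v.toValuationSubring (k : K) * (w : v.toValuationSubring)
        ∈ IsLocalRing.maximalIdeal v.toValuationSubring := by
      have : algebraMap K v.toValuationSubring (k : K) * (w : v.toValuationSubring)
          = c - π * a := by simp only [c]; ring
      rw [this]
      exact Ideal.sub_mem _ hc' hπa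
    have h4 : IsUnit (algebraMap K v.toValuationSubring (k : K) * (w : v.toValuationSubring)) :=
      ((isUnit_iff_ne_zero.mpr hkK).map _).mul w.isUnit
    exact ((IsLocalRing.mem_maximalIdeal _).mp h3) h4
  refine ⟨π, hπ, hcunit.unit, hdc, ?_⟩
  have hcF : ((hcunit.unit : v.toValuationSubring) : F)
      = (k : F) * ((w : v.toValuationSubring) : F) + (π : F) * (a : F) := by
    rw [IsUnit.unit_spec]
    simp only [c]
    push_cast
    rw [Place.coe_algebraMap]
    simp
  have hD : D K F y = ((w : v.toValuationSubring) : F) • D K F ((π : F) ^ k)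
      + (π : F) ^ k • D K F ((w : v.toValuationSubring) : F) := by
    conv_lhs => rw [hw]
    exact Derivation.leibniz _ _ _
  rw [hD, Derivation.leibniz_zpow, ha, hdc, hcF]
  have hzs : ∀ (x : Ω[F⁄K]), k • x = (k : F) • x := fun x => (Int.cast_smul_eq_zsmul F k x).symm
  rw [hzs, smul_smul, smul_smul, smul_smul, ← add_smul]
  congr 1
  have hpow : (π : F) ^ k = (π : F) ^ (k - 1) * (π : F) := by
    rw [← zpow_add_one₀ hπF, sub_add_cancel]
  rw [hpow]
  ring

/-- **Local differential lemma.** If `ord_v y ≠ 0` then `ord_v (dy / dπ_v) = ord_v y - 1`. -/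
theorem ordDifferential_D [CharZero K] [v.DCoordGenerates]
    (hres : ResidueIsBase K v.toValuationSubring) {y : F} (hy : v.ord y ≠ 0) :
    v.ordDifferential (D K F y) = v.ord y - 1 := by
  have := nontrivial_kaehler_of_residue v hres
  obtain ⟨π, hπ, u, -, hD⟩ := exists_unit_D_eq v hres hy
  rw [Place.ordDifferential, v.differentialCoeff_unique hD]
  exact v.ord_unit_smul_zpow u hπ _

theorem differentialCoeff_ne_zero [v.DCoordGenerates] {ω : Ω[F⁄K]} (hω : ω ≠ 0) :
    v.differentialCoeff ω ≠ 0 := by
  intro h0
  apply hω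
  rw [← v.differentialCoeff_smul_dCoord ω, h0, zero_smul]

theorem ordDifferential_smul_of_ne_zero [v.DCoordGenerates] [Nontrivial Ω[F⁄K]]
    {f : F} (hf : f ≠ 0) {ω : Ω[F⁄K]} (hω : ω ≠ 0) :
    v.ordDifferential (f • ω) = v.ord f + v.ordDifferential ω :=
  v.ordDifferential_smul hf (differentialCoeff_ne_zero v hω)

/-- `ord_v (f dy / dπ_v) = ord_v f + ord_v y - 1` when `ord_v y ≠ 0`, `f ≠ 0`. -/
theorem ordDifferential_smul_D [CharZero K] [v.DCoordGenerates]
    (hres : ResidueIsBase K v.toValuationSubring) {f y : F} (hf : f ≠ 0) (hy : v.ord y ≠ 0) :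
    v.ordDifferential (f • D K F y) = v.ord f + v.ord y - 1 := by
  have := nontrivial_kaehler_of_residue v hres
  have hD0 : D K F y ≠ 0 := by
    obtain ⟨π, hπ, u, -, hD⟩ := exists_unit_D_eq v hres hy
    rw [hD]
    have hπF : (π : F) ≠ 0 := by
      simpa [ne_eq, ZeroMemClass.coe_eq_zero] using hπ.ne_zero
    have huF : ((u : v.toValuationSubring) : F) ≠ 0 := by
      simp [ne_eq, ZeroMemClass.coe_eq_zero]
    exact smul_ne_zero (mul_ne_zero huF (zpow_ne_zero _ hπF)) (dCoord_ne_zero_of_residue v hres)
  rw [ordDifferential_smul_of_ne_zero v hf hD0, ordDifferential_D v hres hy]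
  ring

/-- `ResidueIsBase` from surjectivity of `K → residue field`. -/
theorem residueIsBase_of_surjective
    (h : Function.Surjective (algebraMap K v.ResidueField)) :
    ResidueIsBase K v.toValuationSubring := by
  intro u
  obtain ⟨c, hc⟩ := h (IsLocalRing.residue v.toValuationSubring u)
  refine ⟨c, ?_⟩
  rw [← Ideal.Quotient.eq]
  exact hc.symm

/-- `ResidueIsBase` from `deg v = 1`. -/
theorem residueIsBase_of_deg_eq_one (h : v.deg = 1) :
    ResidueIsBase K v.toValuationSubring := by
  apply residueIsBase_of_surjective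
  intro x
  have h1 : Module.finrank K v.ResidueField = 1 := h
  have htop : (⊥ : Subalgebra K v.ResidueField) = ⊤ :=
    Subalgebra.bot_eq_top_of_finrank_eq_one h1
  have hx : x ∈ (⊥ : Subalgebra K v.ResidueField) := htop ▸ Algebra.mem_top
  exact Algebra.mem_bot.mp hx

/-- Packaged form: for a place of degree one in characteristic zero whose `dCoord` generates,
`ord_v (dy / dπ_v) = ord_v y - 1` whenever `ord_v y ≠ 0`. -/
theorem ordDifferential_D_of_deg_eq_one [CharZero K] [v.DCoordGenerates] (hdeg : v.deg = 1)
    {y : F} (hy : v.ord y ≠ 0) :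
    v.ordDifferential (D K F y) = v.ord y - 1 :=
  ordDifferential_D v (residueIsBase_of_deg_eq_one v hdeg) hy

end PlaceCalc

end

end Fermat.Agent.S24.helper564
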