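import Mathlib
import Fermat.Agent.S24.helper24_Spec
import Fermat.Agent.S24.helper564_LocalDiff
import Fermat.Agent.S24.helper1602_Kaehler

/-!
# S24, G6 glue: `Stmt_ResidueK → Stmt_LocalDiff` (helper1602)

Combines the local differential lemma of `helper564_LocalDiff` with the one-dimensionality of
`Ω[F⁄K]` (`helper1602_Kaehler`).  No exchange lemma is needed: `v.dCoord ≠ 0` as soon as the
residue field of `v` is `K`, and a nonzero differential spans the one-dimensional `Ω[F⁄K]`.
-/

set_option autoImplicit false

open KaehlerDifferential IntermediateField AlgebraicCurve

namespace Fermat.Agent.S24.helper1602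

section Generic

variable {K F : Type*} [Field K] [Field F] [Algebra K F]

/-- `d(uniformizer)` generates `Ω[F⁄K]` at every place with residue field `K`
(characteristic zero, function field of one variable). -/
theorem dCoordGenerates_of_residue [CharZero K] (x : F) (hx : Transcendental K x)
    [Algebra.IsAlgebraic K⟮x⟯ F] (v : Place K F)
    (hres : Function.Surjective (algebraMap K v.ResidueField)) : v.DCoordGenerates :=
  ⟨span_singleton_eq_top_of_ne_zero x hx
    (helper564.dCoord_ne_zero_of_residue v (helper564.residueIsBase_of_surjective v hres))⟩

/-- Local differential lemma at a place with residue field `K`, with no instance hypotheses. -/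
theorem ordDifferential_D_of_residue [CharZero K] (x : F) (hx : Transcendental K x)
    [Algebra.IsAlgebraic K⟮x⟯ F] (v : Place K F)
    (hres : Function.Surjective (algebraMap K v.ResidueField)) {u : F} (hu : v.ord u ≠ 0) :
    v.ordDifferential (D K F u) = v.ord u - 1 :=
  haveI := dCoordGenerates_of_residue x hx v hres
  helper564.ordDifferential_D v (helper564.residueIsBase_of_surjective v hres) hu

end Generic

/-- **G6 of the S24 specification** from G2 alone. -/
theorem stmt_LocalDiff_of_residueK (h : helper24.Stmt_ResidueK) : helper24.Stmt_LocalDiff := by
  intro K F _ _ _ _ _ x hx _ v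
  have hres := h K F x hx v
  exact ⟨dCoordGenerates_of_residue x hx v hres,
    fun u hu => ordDifferential_D_of_residue x hx v hres hu⟩

end Fermat.Agent.S24.helper1602
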