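/-
S24, MODULE A6 + GENUS GLUE (helper19).

Generic Riemann–Hurwitz bookkeeping for a function field `F/K` with a chosen
coordinate `x : F`, in hypothesis-passing style: all inputs (classification of
places, fundamental identity, local differential lemma) are hypotheses in the
shapes posted by the owners of the corresponding modules.
-/
import Mathlib
import Fermat.Prelude.Def_AlgebraicCurve_CanonicalDivisor
import Fermat.Prelude.Def_ModularCurve_GenusNumerics

set_option autoImplicit false

open KaehlerDifferential AlgebraicCurve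

namespace Fermat.Agent.S24.helper19

variable {K F : Type*} [Field K] [Field F] [Algebra K F]

/-! ### Elementary facts on `Place.ord` -/

/-- Constants have valuation `≤ 1` at every place. -/
theorem adicValuation_algebraMap_le_one (v : Place K F) (c : K) :
    v.adicValuation (algebraMap K F c) ≤ 1 := by
  have h := v.adicValuation_coe (algebraMap K v.toValuationSubring c)
  rw [v.coe_algebraMap] at h
  rw [h]
  exact IsDedekindDomain.HeightOneSpectrum.intValuation_le_one _ _

/-- For `f ≠ 0`: `0 < ord f` iff the valuation is `< 1`. -/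
theorem ord_pos_iff (v : Place K F) {f : F} (hf : f ≠ 0) :
    0 < v.ord f ↔ v.adicValuation f < 1 := by
  have h0 : v.adicValuation f ≠ 0 := v.adicValuation_ne_zero hf
  unfold Place.ord
  rw [Left.neg_pos_iff, ← WithZero.log_one (M := ℤ),
    WithZero.log_lt_log h0 one_ne_zero]

/-- For `f ≠ 0`: `ord f < 0` iff the valuation is `> 1`. -/
theorem ord_neg_iff (v : Place K F) {f : F} (hf : f ≠ 0) :
    v.ord f < 0 ↔ 1 < v.adicValuation f := by
  have h0 : v.adicValuation f ≠ 0 := v.adicValuation_ne_zero hf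
  unfold Place.ord
  rw [Left.neg_neg_iff, ← WithZero.log_one (M := ℤ),
    WithZero.log_lt_log one_ne_zero h0]

/-- A pole of `x` is not a zero of `x - c`. -/
theorem not_pos_ord_sub_of_ord_neg (v : Place K F) {x : F} (hx : v.ord x < 0) (c : K) :
    ¬ 0 < v.ord (x - algebraMap K F c) := by
  intro hpos
  have hx0 : x ≠ 0 := by
    rintro rfl
    simp at hx
  have hxc0 : x - algebraMap K F c ≠ 0 := by
    intro h
    rw [h] at hpos
    simp at hpos
  have h1 : 1 < v.adicValuation x := (ord_neg_iff v hx0).mp hx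
  have h2 : v.adicValuation (x - algebraMap K F c) < 1 := (ord_pos_iff v hxc0).mp hpos
  have h3 : v.adicValuation x ≤ max (v.adicValuation (x - algebraMap K F c))
      (v.adicValuation (algebraMap K F c)) := by
    have := v.adicValuation.map_add (x - algebraMap K F c) (algebraMap K F c)
    simpa using this
  have h4 : v.adicValuation x ≤ 1 :=
    h3.trans (max_le h2.le (adicValuation_algebraMap_le_one v c))
  exact absurd h1 (not_lt.mpr h4)

/-! ### Degree of a divisor with support in a given finite set -/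

theorem degree_eq_sum_of_support_subset (hdeg : ∀ v : Place K F, v.deg = 1)
    (E : Divisor K F) (T : Finset (Place K F)) (hT : ∀ v, v ∉ T → E v = 0) :
    Divisor.degree E = ∑ v ∈ T, E v := by
  have h1 : Divisor.degree E = E.sum fun v n => n * (v.deg : ℤ) := by
    simp [Divisor.degree, Finsupp.liftAddHom_apply]
  rw [h1, Finsupp.sum]
  have h2 : ∑ v ∈ E.support, E v * (v.deg : ℤ) = ∑ v ∈ E.support, E v :=
    Finset.sum_congr rfl fun v _ => by rw [hdeg v]; simp
  rw [h2]
  refine Finset.sum_subset ?_ ?_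
  · intro v hv
    by_contra hvT
    exact (Finsupp.mem_support_iff.mp hv) (hT v hvT)
  · intro v _ hv
    simpa [Finsupp.mem_support_iff] using hv

end Fermat.Agent.S24.helper19

namespace Fermat.Agent.S24.helper19

variable {K F : Type*} [Field K] [Field F] [Algebra K F]

/-! ### A6: the degree of a canonical divisor from ramification counts -/

/-- **Riemann–Hurwitz bookkeeping** (generic, hypothesis-passing).  `x : F` is the coordinate,
`n` the degree of `F` over `K(x)`, `S` a finite set of values containing all branch values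
in the affine line.  The degree of the divisor of any nonzero differential is
`∑_{c ∈ S} (n - r_c) - n - r_∞`. -/
theorem degree_eq_of_ramification (x : F) (n : ℕ)
    (hdeg : ∀ v : Place K F, v.deg = 1)
    (hcenter : ∀ v : Place K F, v.ord x < 0 ∨ ∃! c : K, 0 < v.ord (x - algebraMap K F c))
    (hzeros : ∀ c : K, ∃ s : Finset (Place K F),
        (∀ v, v ∈ s ↔ 0 < v.ord (x - algebraMap K F c)) ∧
        ∑ v ∈ s, v.ord (x - algebraMap K F c) = n)
    (hpoles : ∃ s : Finset (Place K F), (∀ v, v ∈ s ↔ v.ord x < 0) ∧ ∑ v ∈ s, -v.ord x = n)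
    (hprinc : HasPrincipalDivisors K F)
    (hD : ∀ (v : Place K F) (y : F), v.ord y ≠ 0 →
        v.ordDifferential (D K F y) = v.ord y - 1)
    (hsmul : ∀ (v : Place K F) (f : F) (ω : Ω[F⁄K]), f ≠ 0 → ω ≠ 0 →
        v.ordDifferential (f • ω) = v.ord f + v.ordDifferential ω)
    (hspan : ∀ ω : Ω[F⁄K], ∃ f : F, ω = f • D K F x)
    (hdx : D K F x ≠ 0)
    (S : Finset K)
    (hunr : ∀ c : K, c ∉ S → ∀ v : Place K F, 0 < v.ord (x - algebraMap K F c) →
        v.ord (x - algebraMap K F c) = 1)
    (ω : Ω[F⁄K]) (hω : ω ≠ 0) (Dv : Divisor K F) (hDv : ∀ v, Dv v = v.ordDifferential ω) :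
    Divisor.degree Dv =
      ∑ c ∈ S, ((n : ℤ) - Nat.card {v : Place K F // 0 < v.ord (x - algebraMap K F c)})
        - n - Nat.card {v : Place K F // v.ord x < 0} := by
  classical
  obtain ⟨f, rfl⟩ := hspan ω
  have hf : f ≠ 0 := by
    rintro rfl
    simp at hω
  obtain ⟨Df, hDf, hDf0⟩ := hprinc.exists_divisor f hf
  have hE : ∀ v, (Dv - Df) v = v.ordDifferential (D K F x) := by
    intro v
    rw [Finsupp.sub_apply, hDv v, hDf v, hsmul v f _ hf hdx]
    ring
  have hdegE : Divisor.degree Dv = Divisor.degree (Dv - Df) := by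
    rw [map_sub, hDf0, sub_zero]
  rw [hdegE]
  obtain ⟨sP, hsP, hsPsum⟩ := hpoles
  choose Z hZ hZsum using hzeros
  have hDsub : ∀ c : K, D K F (x - algebraMap K F c) = D K F x := by
    intro c
    rw [map_sub, Derivation.map_algebraMap, sub_zero]
  have hval_pole : ∀ v ∈ sP, (Dv - Df) v = v.ord x - 1 := by
    intro v hv
    rw [hE v]
    exact hD v x ((hsP v).mp hv).ne
  have hval_zero : ∀ c, ∀ v ∈ Z c, (Dv - Df) v = v.ord (x - algebraMap K F c) - 1 := by
    intro c v hv
    rw [hE v, ← hDsub c]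
    exact hD v _ ((hZ c v).mp hv).ne'
  have hsupp : ∀ v, v ∉ sP ∪ S.biUnion Z → (Dv - Df) v = 0 := by
    intro v hvT
    rw [Finset.mem_union, not_or] at hvT
    obtain ⟨hvP, hvZ⟩ := hvT
    rcases hcenter v with hpole | ⟨c, hc, -⟩
    · exact absurd ((hsP v).mpr hpole) hvP
    · have hcS : c ∉ S := fun hcS =>
        hvZ (Finset.mem_biUnion.mpr ⟨c, hcS, (hZ c v).mpr hc⟩)
      rw [hE v, ← hDsub c, hD v _ hc.ne', hunr c hcS v hc]
      simp
  rw [degree_eq_sum_of_support_subset hdeg _ _ hsupp]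
  have hdisjPZ : Disjoint sP (S.biUnion Z) := by
    rw [Finset.disjoint_left]
    intro v hvP hvZ
    obtain ⟨c, -, hvc⟩ := Finset.mem_biUnion.mp hvZ
    exact not_pos_ord_sub_of_ord_neg v ((hsP v).mp hvP) c ((hZ c v).mp hvc)
  have hdisjZ : (S : Set K).PairwiseDisjoint Z := by
    intro c _ c' _ hcc'
    rw [Function.onFun, Finset.disjoint_left]
    intro v hvc hvc'
    rcases hcenter v with hpole | ⟨c0, -, huniq⟩
    · exact not_pos_ord_sub_of_ord_neg v hpole c ((hZ c v).mp hvc)
    · exact hcc' ((huniq c ((hZ c v).mp hvc)).trans (huniq c' ((hZ c' v).mp hvc')).symm)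
  rw [Finset.sum_union hdisjPZ, Finset.sum_biUnion hdisjZ]
  have hP : ∑ v ∈ sP, (Dv - Df) v = -(n : ℤ) - Nat.card {v : Place K F // v.ord x < 0} := by
    rw [Finset.sum_congr rfl hval_pole, Finset.sum_sub_distrib, Nat.subtype_card sP hsP]
    rw [Finset.sum_neg_distrib] at hsPsum
    simp only [Finset.sum_const, nsmul_eq_mul, mul_one]
    omega
  have hZc : ∀ c, ∑ v ∈ Z c, (Dv - Df) v =
      (n : ℤ) - Nat.card {v : Place K F // 0 < v.ord (x - algebraMap K F c)} := by
    intro c
    rw [Finset.sum_congr rfl (hval_zero c), Finset.sum_sub_distrib, Nat.subtype_card (Z c) (hZ c),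
      hZsum c]
    simp
  rw [hP, Finset.sum_congr rfl (fun c _ => hZc c)]
  ring

end Fermat.Agent.S24.helper19

namespace Fermat.Agent.S24.helper19

variable {K F : Type*} [Field K] [Field F] [Algebra K F]

/-- If there are `n` places over `c` and the orders sum to `n`, all orders are `1`. -/
theorem ord_eq_one_of_card_eq (x : F) (n : ℕ) (c : K)
    (hzeros : ∃ s : Finset (Place K F),
        (∀ v, v ∈ s ↔ 0 < v.ord (x - algebraMap K F c)) ∧
        ∑ v ∈ s, v.ord (x - algebraMap K F c) = n)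
    (hcard : Nat.card {v : Place K F // 0 < v.ord (x - algebraMap K F c)} = n)
    (v : Place K F) (hv : 0 < v.ord (x - algebraMap K F c)) :
    v.ord (x - algebraMap K F c) = 1 := by
  obtain ⟨s, hs, hsum⟩ := hzeros
  rw [Nat.subtype_card s hs] at hcard
  have h0 : ∑ w ∈ s, (w.ord (x - algebraMap K F c) - 1) = 0 := by
    rw [Finset.sum_sub_distrib, hsum]
    simp [hcard]
  have h1 := (Finset.sum_eq_zero_iff_of_nonneg (fun w hw => by
    have := (hs w).mp hw
    omega)).mp h0 v ((hs v).mpr hv)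
  omega

/-- Variant of `degree_eq_of_ramification` where unramifiedness outside `S` is given by
counting: `r_c = n` for `c ∉ S`. -/
theorem degree_eq_of_ramification' (x : F) (n : ℕ)
    (hdeg : ∀ v : Place K F, v.deg = 1)
    (hcenter : ∀ v : Place K F, v.ord x < 0 ∨ ∃! c : K, 0 < v.ord (x - algebraMap K F c))
    (hzeros : ∀ c : K, ∃ s : Finset (Place K F),
        (∀ v, v ∈ s ↔ 0 < v.ord (x - algebraMap K F c)) ∧
        ∑ v ∈ s, v.ord (x - algebraMap K F c) = n)
    (hpoles : ∃ s : Finset (Place K F), (∀ v, v ∈ s ↔ v.ord x < 0) ∧ ∑ v ∈ s, -v.ord x = n)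
    (hprinc : HasPrincipalDivisors K F)
    (hD : ∀ (v : Place K F) (y : F), v.ord y ≠ 0 →
        v.ordDifferential (D K F y) = v.ord y - 1)
    (hsmul : ∀ (v : Place K F) (f : F) (ω : Ω[F⁄K]), f ≠ 0 → ω ≠ 0 →
        v.ordDifferential (f • ω) = v.ord f + v.ordDifferential ω)
    (hspan : ∀ ω : Ω[F⁄K], ∃ f : F, ω = f • D K F x)
    (hdx : D K F x ≠ 0)
    (S : Finset K)
    (hunr : ∀ c : K, c ∉ S →
        Nat.card {v : Place K F // 0 < v.ord (x - algebraMap K F c)} = n)
    (ω : Ω[F⁄K]) (hω : ω ≠ 0) (Dv : Divisor K F) (hDv : ∀ v, Dv v = v.ordDifferential ω) :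
    Divisor.degree Dv =
      ∑ c ∈ S, ((n : ℤ) - Nat.card {v : Place K F // 0 < v.ord (x - algebraMap K F c)})
        - n - Nat.card {v : Place K F // v.ord x < 0} :=
  degree_eq_of_ramification x n hdeg hcenter hzeros hpoles hprinc hD hsmul hspan hdx S
    (fun c hc v hv => ord_eq_one_of_card_eq x n c (hzeros c) (hunr c hc) v hv) ω hω Dv hDv

/-! ### Unfolding of `AlgebraicCurve.genus` -/

/-- If every canonical divisor has degree `2g - 2` (and nonzero differentials exist), then
`AlgebraicCurve.genus K F = g`. -/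
theorem genus_eq_of_degree [HasCanonicalDivisor (K := K) (F := F)] (g : ℕ)
    (hex : ∃ ω : Ω[F⁄K], ω ≠ 0)
    (h : ∀ (ω : Ω[F⁄K]), ω ≠ 0 → ∀ (Dv : Divisor K F),
      (∀ v : Place K F, Dv v = v.ordDifferential ω) → Divisor.degree Dv = 2 * (g : ℤ) - 2) :
    genus K F = g := by
  unfold genus
  rw [dif_pos hex]
  have h1 := h _ hex.choose_spec (canonicalDivisorOf hex.choose_spec)
    (fun v => canonicalDivisorOf_apply hex.choose_spec v)
  rw [h1]
  have : (2 * (g : ℤ) - 2 + 2).toNat = 2 * g := by omega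
  rw [this]
  omega

/-- **Genus from the three branch counts.**  Two branch values `c₁ ≠ c₂` in the affine line
(for the modular curve: `0` and `1728`), everything else unramified. -/
theorem genus_eq_of_counts [HasCanonicalDivisor (K := K) (F := F)] (x : F) (n : ℕ)
    (hdeg : ∀ v : Place K F, v.deg = 1)
    (hcenter : ∀ v : Place K F, v.ord x < 0 ∨ ∃! c : K, 0 < v.ord (x - algebraMap K F c))
    (hzeros : ∀ c : K, ∃ s : Finset (Place K F),
        (∀ v, v ∈ s ↔ 0 < v.ord (x - algebraMap K F c)) ∧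
        ∑ v ∈ s, v.ord (x - algebraMap K F c) = n)
    (hpoles : ∃ s : Finset (Place K F), (∀ v, v ∈ s ↔ v.ord x < 0) ∧ ∑ v ∈ s, -v.ord x = n)
    (hprinc : HasPrincipalDivisors K F)
    (hD : ∀ (v : Place K F) (y : F), v.ord y ≠ 0 →
        v.ordDifferential (D K F y) = v.ord y - 1)
    (hsmul : ∀ (v : Place K F) (f : F) (ω : Ω[F⁄K]), f ≠ 0 → ω ≠ 0 →
        v.ordDifferential (f • ω) = v.ord f + v.ordDifferential ω)
    (hspan : ∀ ω : Ω[F⁄K], ∃ f : F, ω = f • D K F x)
    (hdx : D K F x ≠ 0)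
    (c₁ c₂ : K) (hc : c₁ ≠ c₂)
    (hunr : ∀ c : K, c ≠ c₁ → c ≠ c₂ →
        Nat.card {v : Place K F // 0 < v.ord (x - algebraMap K F c)} = n)
    (r₁ r₂ rinf g : ℕ)
    (h₁ : Nat.card {v : Place K F // 0 < v.ord (x - algebraMap K F c₁)} = r₁)
    (h₂ : Nat.card {v : Place K F // 0 < v.ord (x - algebraMap K F c₂)} = r₂)
    (hinf : Nat.card {v : Place K F // v.ord x < 0} = rinf)
    (hg : (n : ℤ) + 2 = 2 * g + r₁ + r₂ + rinf) :
    genus K F = g := by
  classical
  refine genus_eq_of_degree g ⟨D K F x, hdx⟩ fun ω hω Dv hDv => ?_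
  have key := degree_eq_of_ramification' x n hdeg hcenter hzeros hpoles hprinc hD hsmul hspan hdx
    {c₁, c₂} (fun c hcS => by
      rw [Finset.mem_insert, Finset.mem_singleton, not_or] at hcS
      exact hunr c hcS.1 hcS.2) ω hω Dv hDv
  rw [key, Finset.sum_pair hc, h₁, h₂, hinf]
  omega

end Fermat.Agent.S24.helper19

namespace Fermat.Agent.S24.helper19

/-! ### Numeric glue to `ModularCurve.genusFormula` -/

/-- The genus formula in terms of the orbit counts `rS = #⟨S⟩\X`, `rST = #⟨ST⟩\X`,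
`rT = #⟨T⟩\X` on `X = SL(2,ℤ)/Γ₀(N)`. -/
theorem genusFormula_eq_of_counts (N rS rST rT g : ℕ)
    (hS : 2 * rS = ModularCurve.dedekindPsi N + ModularCurve.nuTwo N)
    (hST : 3 * rST = ModularCurve.dedekindPsi N + 2 * ModularCurve.nuThree N)
    (hT : rT = ModularCurve.cuspCount N)
    (hg : (ModularCurve.dedekindPsi N : ℤ) + 2 = 2 * g + rST + rS + rT) :
    ModularCurve.genusFormula N = (g : ℚ) := by
  have hS' : (2 : ℚ) * rS = ModularCurve.dedekindPsi N + ModularCurve.nuTwo N := by
    exact_mod_cast hS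
  have hST' : (3 : ℚ) * rST = ModularCurve.dedekindPsi N + 2 * ModularCurve.nuThree N := by
    exact_mod_cast hST
  have hT' : (rT : ℚ) = ModularCurve.cuspCount N := by exact_mod_cast hT
  have hg' : (ModularCurve.dedekindPsi N : ℚ) + 2 = 2 * g + rST + rS + rT := by
    exact_mod_cast hg
  unfold ModularCurve.genusFormula
  linarith

variable {K F : Type*} [Field K] [Field F] [Algebra K F]

/-- **Final glue for S24** (generic form): from the generic function-field inputs for a
coordinate `x` of degree `ψ(N)`, the branch counts over `c₀` (`= 0`, count `rST`),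
`c₁` (`= 1728`, count `rS`) and `∞` (count `rT`), and the combinatorial genus `g`,
conclude `(genus K F : ℚ) = genusFormula N`. -/
theorem genus_eq_genusFormula_of_counts [HasCanonicalDivisor (K := K) (F := F)] (N : ℕ) (x : F)
    (hdeg : ∀ v : Place K F, v.deg = 1)
    (hcenter : ∀ v : Place K F, v.ord x < 0 ∨ ∃! c : K, 0 < v.ord (x - algebraMap K F c))
    (hzeros : ∀ c : K, ∃ s : Finset (Place K F),
        (∀ v, v ∈ s ↔ 0 < v.ord (x - algebraMap K F c)) ∧
        ∑ v ∈ s, v.ord (x - algebraMap K F c) = ModularCurve.dedekindPsi N)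
    (hpoles : ∃ s : Finset (Place K F), (∀ v, v ∈ s ↔ v.ord x < 0) ∧
        ∑ v ∈ s, -v.ord x = ModularCurve.dedekindPsi N)
    (hprinc : HasPrincipalDivisors K F)
    (hD : ∀ (v : Place K F) (y : F), v.ord y ≠ 0 →
        v.ordDifferential (D K F y) = v.ord y - 1)
    (hsmul : ∀ (v : Place K F) (f : F) (ω : Ω[F⁄K]), f ≠ 0 → ω ≠ 0 →
        v.ordDifferential (f • ω) = v.ord f + v.ordDifferential ω)
    (hspan : ∀ ω : Ω[F⁄K], ∃ f : F, ω = f • D K F x)
    (hdx : D K F x ≠ 0)
    (c₀ c₁ : K) (hc : c₀ ≠ c₁)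
    (hunr : ∀ c : K, c ≠ c₀ → c ≠ c₁ →
        Nat.card {v : Place K F // 0 < v.ord (x - algebraMap K F c)} = ModularCurve.dedekindPsi N)
    (rS rST rT : ℕ)
    (h₀ : Nat.card {v : Place K F // 0 < v.ord (x - algebraMap K F c₀)} = rST)
    (h₁ : Nat.card {v : Place K F // 0 < v.ord (x - algebraMap K F c₁)} = rS)
    (hinf : Nat.card {v : Place K F // v.ord x < 0} = rT)
    (hS : 2 * rS = ModularCurve.dedekindPsi N + ModularCurve.nuTwo N)
    (hST : 3 * rST = ModularCurve.dedekindPsi N + 2 * ModularCurve.nuThree N)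
    (hT : rT = ModularCurve.cuspCount N)
    (hg : ∃ g : ℕ, (ModularCurve.dedekindPsi N : ℤ) + 2 = 2 * g + rST + rS + rT) :
    (genus K F : ℚ) = ModularCurve.genusFormula N := by
  obtain ⟨g, hg⟩ := hg
  rw [genusFormula_eq_of_counts N rS rST rT g hS hST hT hg,
    genus_eq_of_counts x (ModularCurve.dedekindPsi N) hdeg hcenter hzeros hpoles hprinc hD hsmul
      hspan hdx c₀ c₁ hc hunr rST rS rT g h₀ h₁ hinf hg]

end Fermat.Agent.S24.helper19
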