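import Mathlib

/-!
# S24, module C3/J5 (helper3874): Ramanujan identities and local orders of `j`

Everything here is stated with Mathlib objects only (`E₄`, `E₆`, `Δ = ModularForm.discriminant`,
`EisensteinSeries.E2`, `Derivative.normalizedDerivOfComplex`).
-/

set_option autoImplicit false

open UpperHalfPlane hiding I
open Real Complex ModularForm EisensteinSeries Derivative Filter Topology Function
open scoped MatrixGroups Manifold

namespace Fermat.Agent.S24.helper3874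

local notation "𝕢" => Periodic.qParam
local notation "Δ" => ModularForm.discriminant

/-! ## Limits at `i∞` -/

/-- A `1`-periodic holomorphic function bounded at `i∞` tends to the value of its cusp function
at `0`. -/
theorem tendsto_atImInfty_of_periodic {f : ℍ → ℂ} (hper : Periodic (f ∘ ofComplex) (1 : ℝ))
    (hhol : MDiff f) (hbdd : IsBoundedAtImInfty f) :
    Tendsto f atImInfty (𝓝 (cuspFunction 1 f 0)) := by
  have han := analyticAt_cuspFunction_zero one_pos hper hhol hbdd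
  have hf : f = (cuspFunction 1 f) ∘ (fun τ : ℍ => 𝕢 1 τ) := by
    funext τ
    exact (eq_cuspFunction τ one_ne_zero hper).symm
  have h := han.continuousAt.tendsto.comp (qParam_tendsto_atImInfty one_pos)
  rw [← hf] at h
  exact h

theorem hasDerivAt_qParam_one (z : ℂ) : HasDerivAt (𝕢 1) (2 * π * I * 𝕢 1 z) z := by
  have h : HasDerivAt (fun w : ℂ => 2 * π * I * w / ((1 : ℝ) : ℂ)) (2 * π * I) z := by
    simpa using (hasDerivAt_id z).const_mul (2 * π * I)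
  have h2 := h.cexp
  have hfun : (𝕢 1) = fun w : ℂ => cexp (2 * π * I * w / ((1 : ℝ) : ℂ)) := rfl
  rw [hfun]
  exact h2.congr_deriv (mul_comm _ _)

/-- The normalized derivative of a periodic holomorphic function bounded at `i∞`, in terms of the
cusp function: `D f = q * G'(q)`. -/
theorem normalizedDeriv_eq_qParam_mul {f : ℍ → ℂ} (hper : Periodic (f ∘ ofComplex) (1 : ℝ))
    (hhol : MDiff f) (hbdd : IsBoundedAtImInfty f) (τ : ℍ) :
    D f τ = 𝕢 1 τ * deriv (cuspFunction 1 f) (𝕢 1 τ) := by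
  have h1 : (f ∘ ofComplex) =ᶠ[𝓝 (τ : ℂ)] (cuspFunction 1 f) ∘ (𝕢 1) := by
    filter_upwards [isOpen_upperHalfPlaneSet.mem_nhds τ.im_pos] with w hw
    simp only [comp_apply, ofComplex_apply_of_im_pos hw]
    exact (eq_cuspFunction ⟨w, hw⟩ one_ne_zero hper).symm
  have hq : ‖𝕢 1 (τ : ℂ)‖ < 1 := Periodic.norm_qParam_lt_one one_pos τ.im_pos
  have hG : DifferentiableAt ℂ (cuspFunction 1 f) (𝕢 1 (τ : ℂ)) :=
    differentiableAt_cuspFunction one_pos hper hhol hbdd hq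
  have hcomp := hG.hasDerivAt.comp (τ : ℂ) (hasDerivAt_qParam_one (τ : ℂ))
  simp only [normalizedDerivOfComplex]
  rw [h1.deriv_eq, hcomp.deriv]
  have : (2 * (π : ℂ) * I) ≠ 0 := by
    simp [Real.pi_ne_zero, I_ne_zero]
  field_simp

/-- The normalized derivative of a periodic holomorphic function bounded at `i∞` tends to `0` at
`i∞`. -/
theorem isZeroAtImInfty_normalizedDeriv {f : ℍ → ℂ} (hper : Periodic (f ∘ ofComplex) (1 : ℝ))
    (hhol : MDiff f) (hbdd : IsBoundedAtImInfty f) :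
    IsZeroAtImInfty (D f) := by
  have han := analyticAt_cuspFunction_zero one_pos hper hhol hbdd
  have hcont : ContinuousAt (fun q : ℂ => q * deriv (cuspFunction 1 f) q) 0 :=
    continuousAt_id.mul han.deriv.continuousAt
  have h := hcont.tendsto.comp (qParam_tendsto_atImInfty (h := 1) one_pos)
  simp only [zero_mul] at h
  have hfun : D f = (fun q : ℂ => q * deriv (cuspFunction 1 f) q) ∘ (fun τ : ℍ => 𝕢 1 τ) := by
    funext τ
    exact normalizedDeriv_eq_qParam_mul hper hhol hbdd τ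
  show Tendsto (D f) atImInfty (𝓝 0)
  rw [hfun]
  exact h

/-! ## Level-one modular forms: periodicity, limits, Serre derivative -/

section generic

theorem periodic_of_levelOne {F : Type*} [FunLike F ℍ ℂ] {k : ℤ} [ModularFormClass F 𝒮ℒ k] (f : F) :
    Periodic ((f : ℍ → ℂ) ∘ ofComplex) (1 : ℝ) :=
  SlashInvariantFormClass.periodic_comp_ofComplex f one_mem_strictPeriods_SL

theorem isBoundedAtImInfty_of_levelOne {F : Type*} [FunLike F ℍ ℂ] {k : ℤ} [ModularFormClass F 𝒮ℒ k] (f : F) :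
    IsBoundedAtImInfty (f : ℍ → ℂ) :=
  ModularFormClass.bdd_at_infty f

/-- A level-one modular form tends to its constant `q`-coefficient at `i∞`. -/
theorem tendsto_levelOne {F : Type*} [FunLike F ℍ ℂ] {k : ℤ} [ModularFormClass F 𝒮ℒ k] (f : F) :
    Tendsto (f : ℍ → ℂ) atImInfty (𝓝 ((qExpansion 1 f).coeff 0)) := by
  have h := tendsto_atImInfty_of_periodic (periodic_of_levelOne f) (ModularFormClass.holo f)
    (isBoundedAtImInfty_of_levelOne f)
  have h0 : (qExpansion 1 f).coeff 0 = cuspFunction 1 f 0 := by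
    simp [qExpansion_coeff]
  rw [h0]
  exact h

end generic

theorem tendsto_E₄ : Tendsto (E₄ : ℍ → ℂ) atImInfty (𝓝 1) := by
  have h := tendsto_levelOne E₄
  rwa [E_qExpansion_coeff_zero _ ⟨2, rfl⟩] at h

theorem tendsto_E₆ : Tendsto (E₆ : ℍ → ℂ) atImInfty (𝓝 1) := by
  have h := tendsto_levelOne E₆
  rwa [E_qExpansion_coeff_zero _ ⟨3, rfl⟩] at h

theorem periodic_E2 : Periodic (E2 ∘ ofComplex) (1 : ℝ) := by
  intro w
  by_cases hw : 0 < im w
  · have hw' : 0 < im (w + (1 : ℝ)) := by simpa using hw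
    simp only [comp_apply, ofComplex_apply_of_im_pos hw', ofComplex_apply_of_im_pos hw]
    have h1 := hasSum_qExpansion_E2 (z := ⟨w + (1 : ℝ), hw'⟩)
    have h2 := hasSum_qExpansion_E2 (z := ⟨w, hw⟩)
    have hexp : cexp (2 * π * I * ((⟨w + (1 : ℝ), hw'⟩ : ℍ) : ℂ)) = cexp (2 * π * I * ((⟨w, hw⟩ : ℍ) : ℂ)) := by
      show cexp (2 * π * I * (w + (1 : ℝ))) = cexp (2 * π * I * w)
      rw [mul_add, Complex.exp_add]
      simp
    rw [hexp] at h1
    exact h1.unique h2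
  · have hw0 : im w ≤ 0 := not_lt.mp hw
    have hw' : im (w + ((1 : ℝ) : ℂ)) ≤ 0 := by simpa using hw0
    simp only [comp_apply]
    rw [ofComplex_apply_of_im_nonpos hw', ofComplex_apply_of_im_nonpos hw0]

theorem tendsto_E2 : Tendsto E2 atImInfty (𝓝 1) := by
  have han := analyticAt_cuspFunction_zero one_pos periodic_E2 E2_mdifferentiable
    isBoundedAtImInfty_E2
  have h := tendsto_atImInfty_of_periodic periodic_E2 E2_mdifferentiable isBoundedAtImInfty_E2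
  have hsum : ∀ τ : ℍ, HasSum (fun m : ℕ ↦ (if m = 0 then (1 : ℂ) else -24 * (ArithmeticFunction.sigma 1 m : ℂ)) • 𝕢 1 τ ^ m) (E2 τ) := by
    intro τ
    simpa only [Function.Periodic.qParam, ofReal_one, div_one] using hasSum_qExpansion_E2 (z := τ)
  have hps := hasFPowerSeriesOnBall_cuspFunction one_pos han hsum
  have h0 := hps.coeff_zero (fun _ => (1 : ℂ))
  simp at h0
  rw [← h0] at h
  exact h

section generic

/-- The Serre derivative of a level-one modular form is bounded at `i∞`. -/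
theorem isBoundedAtImInfty_serreDerivative {F : Type*} [FunLike F ℍ ℂ] {k : ℤ} [ModularFormClass F 𝒮ℒ k] (f : F) :
    IsBoundedAtImInfty (serreDerivative k (f : ℍ → ℂ)) := by
  have h1 : IsBoundedAtImInfty (D (f : ℍ → ℂ)) :=
    (isZeroAtImInfty_normalizedDeriv (periodic_of_levelOne f) (ModularFormClass.holo f)
      (isBoundedAtImInfty_of_levelOne f)).boundedAtFilter
  have h2 : IsBoundedAtImInfty (fun z : ℍ => (k : ℂ) * 12⁻¹ * E2 z * f z) := by
    have h3 : IsBoundedAtImInfty (E2 * (f : ℍ → ℂ)) :=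
      BoundedAtFilter.mul isBoundedAtImInfty_E2 (isBoundedAtImInfty_of_levelOne f)
    have h4 := BoundedAtFilter.smul ((k : ℂ) * 12⁻¹) h3
    have : (fun z : ℍ => (k : ℂ) * 12⁻¹ * E2 z * f z) = ((k : ℂ) * 12⁻¹) • (E2 * (f : ℍ → ℂ)) := by
      funext z
      simp [mul_assoc]
    rw [this]
    exact h4
  have h5 := BoundedAtFilter.add h1 (BoundedAtFilter.neg h2)
  have : serreDerivative k (f : ℍ → ℂ) =
      D (f : ℍ → ℂ) + -(fun z : ℍ => (k : ℂ) * 12⁻¹ * E2 z * f z) := by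
    funext z
    simp [serreDerivative, sub_eq_add_neg]
  rw [this]
  exact h5

/-- The Serre derivative of a level-one modular form, as a modular form of weight `k + 2`. -/
noncomputable def serreMF {F : Type*} [FunLike F ℍ ℂ] {k : ℤ} [ModularFormClass F 𝒮ℒ k] (f : F) : ModularForm 𝒮ℒ (k + 2) where
  toFun := serreDerivative k (f : ℍ → ℂ)
  slash_action_eq' := fun _ ⟨γ, hγ⟩ ↦ hγ ▸
    serreDerivative_slash_invariant (ModularFormClass.holo f)
      (SlashInvariantForm.slash_action_eqn f _ ⟨γ, rfl⟩)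
  holo' := serreDerivative_mdifferentiable k (ModularFormClass.holo f)
  bdd_at_cusps' {c} hc := by
    rw [Subgroup.IsArithmetic.isCusp_iff_isCusp_SL2Z] at hc
    rw [OnePoint.isBoundedAt_iff_forall_SL2Z hc]
    intro γ _
    rw [serreDerivative_slash_invariant (ModularFormClass.holo f)
      (SlashInvariantForm.slash_action_eqn f _ ⟨γ, rfl⟩)]
    exact isBoundedAtImInfty_serreDerivative f

theorem serreMF_apply {F : Type*} [FunLike F ℍ ℂ] {k : ℤ} [ModularFormClass F 𝒮ℒ k] (f : F) (z : ℍ) :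
    serreMF f z = D (f : ℍ → ℂ) z - (k : ℂ) * 12⁻¹ * E2 z * f z := rfl

/-- The limit of the Serre derivative at `i∞`. -/
theorem tendsto_serreMF {F : Type*} [FunLike F ℍ ℂ] {k : ℤ} [ModularFormClass F 𝒮ℒ k] (f : F)
    {a : ℂ} (ha : Tendsto (f : ℍ → ℂ) atImInfty (𝓝 a)) :
    Tendsto (serreMF f : ℍ → ℂ) atImInfty (𝓝 (-((k : ℂ) * 12⁻¹ * a))) := by
  have h1 : Tendsto (D (f : ℍ → ℂ)) atImInfty (𝓝 0) :=
    isZeroAtImInfty_normalizedDeriv (periodic_of_levelOne f) (ModularFormClass.holo f)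
      (isBoundedAtImInfty_of_levelOne f)
  have h2 : Tendsto (fun z : ℍ => (k : ℂ) * 12⁻¹ * E2 z * f z) atImInfty
      (𝓝 ((k : ℂ) * 12⁻¹ * 1 * a)) :=
    ((tendsto_const_nhds.mul tendsto_E2).mul ha)
  have h3 := h1.sub h2
  have : (serreMF f : ℍ → ℂ) = fun z : ℍ => D (f : ℍ → ℂ) z - (k : ℂ) * 12⁻¹ * E2 z * f z := by
    funext z
    rfl
  rw [this]
  convert h3 using 2
  ring

/-- In a one-dimensional space of level-one forms, a form is determined by its limit at `i∞`. -/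
theorem eq_mul_of_rank_one {k : ℤ} (hrank : Module.rank ℂ (ModularForm 𝒮ℒ k) = 1)
    (G f : ModularForm 𝒮ℒ k) {a : ℂ} (hG : Tendsto (G : ℍ → ℂ) atImInfty (𝓝 1))
    (hf : Tendsto (f : ℍ → ℂ) atImInfty (𝓝 a)) (z : ℍ) : f z = a * G z := by
  have hG0 : G ≠ 0 := by
    rintro rfl
    have h0 : Tendsto ((0 : ModularForm 𝒮ℒ k) : ℍ → ℂ) atImInfty (𝓝 0) := by
      have hz : ((0 : ModularForm 𝒮ℒ k) : ℍ → ℂ) = fun _ : ℍ => (0 : ℂ) := by
        funext z
        rfl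
      rw [hz]
      exact tendsto_const_nhds
    exact one_ne_zero (tendsto_nhds_unique hG h0)
  obtain ⟨c, hc⟩ := (finrank_eq_one_iff_of_nonzero' G hG0).mp
    (Module.rank_eq_one_iff_finrank_eq_one.mp hrank) f
  have hfun : ∀ z : ℍ, c * G z = f z := fun z => by
    have := congrArg (fun f : ModularForm 𝒮ℒ k => f z) hc
    simpa using this
  have h1 : Tendsto (fun z : ℍ => c * G z) atImInfty (𝓝 (c * 1)) :=
    tendsto_const_nhds.mul hG
  have h3 : (fun z : ℍ => c * G z) = (f : ℍ → ℂ) := funext hfun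
  rw [h3] at h1
  have hceq : c * 1 = a := tendsto_nhds_unique h1 hf
  rw [← hfun z, ← hceq, mul_one]

end generic

/-! ## Ramanujan identities -/

theorem tendsto_discriminant : Tendsto (CuspForm.discriminant : ℍ → ℂ) atImInfty (𝓝 0) :=
  discriminant_isZeroAtImInfty

theorem rank_weight_eight : Module.rank ℂ (ModularForm 𝒮ℒ 8) = 1 := by
  have h := dimension_level_one 8 ⟨4, rfl⟩
  have h2 : ¬ (8 ≡ 2 [MOD 12]) := by decide
  simpa [h2] using h

theorem rank_weight_fourteen : Module.rank ℂ (ModularForm 𝒮ℒ 14) = 1 := by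
  have h := dimension_level_one 14 ⟨7, rfl⟩
  have h2 : (14 ≡ 2 [MOD 12]) := by decide
  simpa [h2] using h

/-- Ramanujan: `ϑ₄ E₄ = -E₆ / 3`. -/
theorem serreDerivative_E₄ (z : ℍ) :
    serreDerivative 4 (E₄ : ℍ → ℂ) z = -(3⁻¹ : ℂ) * E₆ z := by
  let g : ModularForm 𝒮ℒ 6 := ModularForm.mcast (by norm_num) (serreMF E₄)
  have hg : Tendsto (g : ℍ → ℂ) atImInfty (𝓝 (-(((4 : ℤ) : ℂ) * 12⁻¹ * 1))) :=
    tendsto_serreMF E₄ tendsto_E₄
  have h := eq_mul_of_rank_one levelOne_weight_six_rank_one E₆ g tendsto_E₆ hg z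
  have h2 : g z = serreDerivative 4 (E₄ : ℍ → ℂ) z := rfl
  rw [← h2, h]
  push_cast
  ring

/-- Ramanujan: `ϑ₆ E₆ = -E₄² / 2`. -/
theorem serreDerivative_E₆ (z : ℍ) :
    serreDerivative 6 (E₆ : ℍ → ℂ) z = -(2⁻¹ : ℂ) * E₄ z ^ 2 := by
  let g : ModularForm 𝒮ℒ 8 := ModularForm.mcast (by norm_num) (serreMF E₆)
  let G : ModularForm 𝒮ℒ 8 := ModularForm.mcast (by norm_num) (E₄.mul E₄)
  have hg : Tendsto (g : ℍ → ℂ) atImInfty (𝓝 (-(((6 : ℤ) : ℂ) * 12⁻¹ * 1))) :=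
    tendsto_serreMF E₆ tendsto_E₆
  have hG : Tendsto (G : ℍ → ℂ) atImInfty (𝓝 1) := by
    have h44 := tendsto_E₄.mul tendsto_E₄
    rw [mul_one] at h44
    have hz : (G : ℍ → ℂ) = fun z : ℍ => E₄ z * E₄ z := by
      funext z
      rfl
    rw [hz]
    exact h44
  have h := eq_mul_of_rank_one rank_weight_eight G g hG hg z
  have h2 : g z = serreDerivative 6 (E₆ : ℍ → ℂ) z := rfl
  have h3 : G z = E₄ z * E₄ z := rfl
  rw [← h2, h, h3]
  push_cast
  ring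

/-- `ϑ₁₂ Δ = 0`. -/
theorem serreDerivative_discriminant (z : ℍ) :
    serreDerivative 12 (Δ : ℍ → ℂ) z = 0 := by
  let g : ModularForm 𝒮ℒ 14 := ModularForm.mcast (by norm_num) (serreMF CuspForm.discriminant)
  let G : ModularForm 𝒮ℒ 14 := E (k := 14) (by norm_num)
  have hg : Tendsto (g : ℍ → ℂ) atImInfty (𝓝 (-(((12 : ℤ) : ℂ) * 12⁻¹ * 0))) :=
    tendsto_serreMF CuspForm.discriminant tendsto_discriminant
  have hG : Tendsto (G : ℍ → ℂ) atImInfty (𝓝 1) := by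
    have h := tendsto_levelOne G
    rwa [E_qExpansion_coeff_zero _ ⟨7, rfl⟩] at h
  have h := eq_mul_of_rank_one rank_weight_fourteen G g hG hg z
  have h2 : g z = serreDerivative 12 (Δ : ℍ → ℂ) z := rfl
  rw [← h2, h]
  simp

/-- Ramanujan: `D E₄ = (E₂ E₄ - E₆) / 3`. -/
theorem ramanujan_E₄ (z : ℍ) :
    D (E₄ : ℍ → ℂ) z = (E2 z * E₄ z - E₆ z) / 3 := by
  have h := serreDerivative_E₄ z
  rw [serreDerivative_apply] at h
  linear_combination h

/-- Ramanujan: `D E₆ = (E₂ E₆ - E₄²) / 2`. -/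
theorem ramanujan_E₆ (z : ℍ) :
    D (E₆ : ℍ → ℂ) z = (E2 z * E₆ z - E₄ z ^ 2) / 2 := by
  have h := serreDerivative_E₆ z
  rw [serreDerivative_apply] at h
  linear_combination h

/-- `D Δ = E₂ Δ`. -/
theorem ramanujan_discriminant (z : ℍ) :
    D (Δ : ℍ → ℂ) z = E2 z * Δ z := by
  have h := serreDerivative_discriminant z
  rw [serreDerivative_apply] at h
  linear_combination h

/-! ## Consequences for `E₄`, `E₆`, `Δ` as functions on `ℂ` -/

theorem E₄_cube_sub_E₆_sq (z : ℍ) : E₄ z ^ 3 - E₆ z ^ 2 = 1728 * Δ z := by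
  have h := discriminant_eq_E₄_cube_sub_E₆_sq z
  rw [h]
  ring

theorem E₆_ne_zero_of_E₄_eq_zero {z : ℍ} (h : E₄ z = 0) : E₆ z ≠ 0 := by
  intro h6
  have h1 := E₄_cube_sub_E₆_sq z
  rw [h, h6] at h1
  have h2 : Δ z = 0 := by
    have : (1728 : ℂ) * Δ z = 0 := by rw [← h1]; ring
    simpa using this
  exact discriminant_ne_zero z h2

theorem E₄_ne_zero_of_E₆_eq_zero {z : ℍ} (h : E₆ z = 0) : E₄ z ≠ 0 := fun h4 =>
  E₆_ne_zero_of_E₄_eq_zero h4 h

theorem analyticAt_comp_ofComplex {f : ℍ → ℂ} (hf : MDiff f) (τ : ℍ) :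
    AnalyticAt ℂ (f ∘ ofComplex) (τ : ℂ) :=
  (UpperHalfPlane.mdifferentiable_iff.mp hf).analyticAt
    (isOpen_upperHalfPlaneSet.mem_nhds τ.im_pos)

theorem hasDerivAt_comp_ofComplex {f : ℍ → ℂ} (hf : MDiff f) (τ : ℍ) :
    HasDerivAt (f ∘ ofComplex) (2 * π * I * D f τ) (τ : ℂ) := by
  have h := (analyticAt_comp_ofComplex hf τ).differentiableAt.hasDerivAt
  have h2 : 2 * π * I * D f τ = deriv (f ∘ ofComplex) (τ : ℂ) := by
    simp only [normalizedDerivOfComplex]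
    have : (2 * (π : ℂ) * I) ≠ 0 := by
      simp [Real.pi_ne_zero, I_ne_zero]
    field_simp
  rw [h2]
  exact h

theorem mdiff_E₄ : MDiff (E₄ : ℍ → ℂ) := ModularFormClass.holo E₄
theorem mdiff_E₆ : MDiff (E₆ : ℍ → ℂ) := ModularFormClass.holo E₆
theorem mdiff_discriminant : MDiff (Δ : ℍ → ℂ) := ModularFormClass.holo CuspForm.discriminant

theorem hasDerivAt_E₄ (τ : ℍ) :
    HasDerivAt ((E₄ : ℍ → ℂ) ∘ ofComplex) (2 * π * I * ((E2 τ * E₄ τ - E₆ τ) / 3)) (τ : ℂ) := by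
  have h := hasDerivAt_comp_ofComplex mdiff_E₄ τ
  rwa [ramanujan_E₄] at h

theorem hasDerivAt_E₆ (τ : ℍ) :
    HasDerivAt ((E₆ : ℍ → ℂ) ∘ ofComplex) (2 * π * I * ((E2 τ * E₆ τ - E₄ τ ^ 2) / 2)) (τ : ℂ) := by
  have h := hasDerivAt_comp_ofComplex mdiff_E₆ τ
  rwa [ramanujan_E₆] at h

theorem hasDerivAt_discriminant (τ : ℍ) :
    HasDerivAt ((Δ : ℍ → ℂ) ∘ ofComplex) (2 * π * I * (E2 τ * Δ τ)) (τ : ℂ) := by
  have h := hasDerivAt_comp_ofComplex mdiff_discriminant τ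
  rwa [ramanujan_discriminant] at h

theorem two_pi_I_ne_zero' : (2 * (π : ℂ) * I) ≠ 0 := by
  simp [Real.pi_ne_zero, I_ne_zero]

/-- The zeros of `E₄` are simple. -/
theorem deriv_E₄_ne_zero {τ : ℍ} (h : E₄ τ = 0) :
    deriv ((E₄ : ℍ → ℂ) ∘ ofComplex) (τ : ℂ) ≠ 0 := by
  rw [(hasDerivAt_E₄ τ).deriv, h]
  have h6 := E₆_ne_zero_of_E₄_eq_zero h
  have := two_pi_I_ne_zero'
  simp only [mul_zero, zero_sub]
  intro h0
  have h1 : 2 * (π : ℂ) * I * (-E₆ τ / 3) = 0 := h0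
  rcases mul_eq_zero.mp h1 with h2 | h2
  · exact this h2
  · have : E₆ τ = 0 := by
      have h3 : -E₆ τ / 3 = 0 := h2
      have h4 : -E₆ τ = 0 := by
        rcases div_eq_zero_iff.mp h3 with h5 | h5
        · exact h5
        · norm_num at h5
      simpa using h4
    exact h6 this

/-- The zeros of `E₆` are simple. -/
theorem deriv_E₆_ne_zero {τ : ℍ} (h : E₆ τ = 0) :
    deriv ((E₆ : ℍ → ℂ) ∘ ofComplex) (τ : ℂ) ≠ 0 := by
  rw [(hasDerivAt_E₆ τ).deriv, h]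
  have h4 := E₄_ne_zero_of_E₆_eq_zero h
  have := two_pi_I_ne_zero'
  simp only [mul_zero, zero_sub]
  intro h0
  have h1 : 2 * (π : ℂ) * I * (-E₄ τ ^ 2 / 2) = 0 := h0
  rcases mul_eq_zero.mp h1 with h2 | h2
  · exact this h2
  · have : E₄ τ = 0 := by
      have h3 : -E₄ τ ^ 2 / 2 = 0 := h2
      have h5 : -E₄ τ ^ 2 = 0 := by
        rcases div_eq_zero_iff.mp h3 with h5 | h5
        · exact h5
        · norm_num at h5
      have h6 : E₄ τ ^ 2 = 0 := by simpa using h5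
      exact pow_eq_zero_iff (two_ne_zero) |>.mp h6
    exact h4 this

/-! ## The `j`-function `E₄³ / Δ`: derivative and local orders -/

theorem jFun_eq_zero_iff (τ : ℍ) : E₄ τ ^ 3 / Δ τ = 0 ↔ E₄ τ = 0 := by
  have hΔ := discriminant_ne_zero τ
  rw [div_eq_zero_iff]
  constructor
  · rintro (h | h)
    · exact pow_eq_zero_iff (three_ne_zero) |>.mp h
    · exact absurd h hΔ
  · intro h
    left
    rw [h]
    ring

theorem jFun_sub_1728 (τ : ℍ) : E₄ τ ^ 3 / Δ τ - 1728 = E₆ τ ^ 2 / Δ τ := by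
  have hΔ := discriminant_ne_zero τ
  have h := E₄_cube_sub_E₆_sq τ
  field_simp
  linear_combination h

theorem jFun_eq_1728_iff (τ : ℍ) : E₄ τ ^ 3 / Δ τ = 1728 ↔ E₆ τ = 0 := by
  have hΔ := discriminant_ne_zero τ
  rw [← sub_eq_zero, jFun_sub_1728, div_eq_zero_iff]
  constructor
  · rintro (h | h)
    · exact pow_eq_zero_iff (two_ne_zero) |>.mp h
    · exact absurd h hΔ
  · intro h
    left
    rw [h]
    ring

theorem analyticAt_jFun (τ : ℍ) :
    AnalyticAt ℂ (fun z : ℂ => E₄ (ofComplex z) ^ 3 / Δ (ofComplex z)) (τ : ℂ) := by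
  have h4 := analyticAt_comp_ofComplex mdiff_E₄ τ
  have hd := analyticAt_comp_ofComplex mdiff_discriminant τ
  have hne : ((Δ : ℍ → ℂ) ∘ ofComplex) (τ : ℂ) ≠ 0 := discriminant_ne_zero _
  exact (h4.pow 3).div hd hne

/-- `j' = -2πi E₄² E₆ / Δ`. -/
theorem hasDerivAt_jFun (τ : ℍ) :
    HasDerivAt (fun z : ℂ => E₄ (ofComplex z) ^ 3 / Δ (ofComplex z))
      (-(2 * π * I) * E₄ τ ^ 2 * E₆ τ / Δ τ) (τ : ℂ) := by
  have h4 := hasDerivAt_E₄ τ
  have hd := hasDerivAt_discriminant τ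
  have hne : ((Δ : ℍ → ℂ) ∘ ofComplex) (τ : ℂ) ≠ 0 := discriminant_ne_zero _
  have h := (h4.pow 3).div hd hne
  have hΔ := discriminant_ne_zero τ
  have e1 : ((E₄ : ℍ → ℂ) ∘ ofComplex) (τ : ℂ) = E₄ τ := by
    simp only [comp_apply, ofComplex_apply]
  have e2 : ((Δ : ℍ → ℂ) ∘ ofComplex) (τ : ℂ) = Δ τ := by
    simp only [comp_apply, ofComplex_apply]
  have e3 : (((E₄ : ℍ → ℂ) ∘ ofComplex) ^ 3) (τ : ℂ) = E₄ τ ^ 3 := by
    simp only [Pi.pow_apply, comp_apply, ofComplex_apply]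
  rw [e3, e1, e2] at h
  have hfun : (fun z : ℂ => E₄ (ofComplex z) ^ 3 / Δ (ofComplex z))
      = ((E₄ : ℍ → ℂ) ∘ ofComplex) ^ 3 / ((Δ : ℍ → ℂ) ∘ ofComplex) := by
    funext z
    rfl
  rw [hfun]
  refine h.congr_deriv ?_
  field_simp
  ring

theorem deriv_jFun (τ : ℍ) :
    deriv (fun z : ℂ => E₄ (ofComplex z) ^ 3 / Δ (ofComplex z)) (τ : ℂ)
      = -(2 * π * I) * E₄ τ ^ 2 * E₆ τ / Δ τ :=
  (hasDerivAt_jFun τ).deriv

/-- The derivative of `j` vanishes exactly at the zeros of `E₄` and `E₆`. -/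
theorem deriv_jFun_ne_zero {τ : ℍ} (h4 : E₄ τ ≠ 0) (h6 : E₆ τ ≠ 0) :
    deriv (fun z : ℂ => E₄ (ofComplex z) ^ 3 / Δ (ofComplex z)) (τ : ℂ) ≠ 0 := by
  rw [deriv_jFun]
  have hΔ := discriminant_ne_zero τ
  have := two_pi_I_ne_zero'
  have h42 : E₄ τ ^ 2 ≠ 0 := pow_ne_zero 2 h4
  have hnum : -(2 * (π : ℂ) * I) * E₄ τ ^ 2 * E₆ τ ≠ 0 :=
    mul_ne_zero (mul_ne_zero (neg_ne_zero.mpr this) h42) h6
  exact div_ne_zero hnum hΔ

/-- **Local orders of `j`.** For every `τ₀ : ℍ`, the order of vanishing of `j - j(τ₀)` at `τ₀`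
is `3` if `E₄ τ₀ = 0` (i.e. `j τ₀ = 0`), `2` if `E₆ τ₀ = 0` (i.e. `j τ₀ = 1728`), and `1`
otherwise. -/
theorem analyticOrderAt_jFun_sub (τ₀ : ℍ) :
    analyticOrderAt
        (fun z : ℂ => E₄ (ofComplex z) ^ 3 / Δ (ofComplex z) - E₄ τ₀ ^ 3 / Δ τ₀) (τ₀ : ℂ)
      = if E₄ τ₀ = 0 then 3 else if E₆ τ₀ = 0 then 2 else 1 := by
  have an4 := analyticAt_comp_ofComplex mdiff_E₄ τ₀
  have an6 := analyticAt_comp_ofComplex mdiff_E₆ τ₀
  have anΔ := analyticAt_comp_ofComplex mdiff_discriminant τ₀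
  have hne : ((Δ : ℍ → ℂ) ∘ ofComplex) (τ₀ : ℂ) ≠ 0 := discriminant_ne_zero _
  have anΔinv : AnalyticAt ℂ (((Δ : ℍ → ℂ) ∘ ofComplex)⁻¹) (τ₀ : ℂ) := anΔ.inv hne
  have ordΔinv : analyticOrderAt (((Δ : ℍ → ℂ) ∘ ofComplex)⁻¹) (τ₀ : ℂ) = 0 := by
    rw [anΔinv.analyticOrderAt_eq_zero]
    simpa using hne
  by_cases h4 : E₄ τ₀ = 0
  · rw [if_pos h4]
    have hfun : (fun z : ℂ => E₄ (ofComplex z) ^ 3 / Δ (ofComplex z) - E₄ τ₀ ^ 3 / Δ τ₀)
        = ((E₄ : ℍ → ℂ) ∘ ofComplex) ^ 3 * ((Δ : ℍ → ℂ) ∘ ofComplex)⁻¹ := by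
      funext z
      simp [h4, div_eq_mul_inv]
    have e1 : ((E₄ : ℍ → ℂ) ∘ ofComplex) (τ₀ : ℂ) = 0 := by
      simp only [comp_apply, ofComplex_apply, h4]
    have ord4 : analyticOrderAt ((E₄ : ℍ → ℂ) ∘ ofComplex) (τ₀ : ℂ) = 1 :=
      an4.analyticOrderAt_eq_one_of_zero_deriv_ne_zero e1 (deriv_E₄_ne_zero h4)
    rw [hfun, analyticOrderAt_mul (an4.pow 3) anΔinv, analyticOrderAt_pow an4, ord4, ordΔinv]
    rfl
  · rw [if_neg h4]
    by_cases h6 : E₆ τ₀ = 0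
    · rw [if_pos h6]
      have hJ : E₄ τ₀ ^ 3 / Δ τ₀ = 1728 := (jFun_eq_1728_iff τ₀).mpr h6
      have hfun : (fun z : ℂ => E₄ (ofComplex z) ^ 3 / Δ (ofComplex z) - E₄ τ₀ ^ 3 / Δ τ₀)
          = ((E₆ : ℍ → ℂ) ∘ ofComplex) ^ 2 * ((Δ : ℍ → ℂ) ∘ ofComplex)⁻¹ := by
        funext z
        rw [hJ, jFun_sub_1728]
        simp [div_eq_mul_inv]
      have e1 : ((E₆ : ℍ → ℂ) ∘ ofComplex) (τ₀ : ℂ) = 0 := by
        simp only [comp_apply, ofComplex_apply, h6]
      have ord6 : analyticOrderAt ((E₆ : ℍ → ℂ) ∘ ofComplex) (τ₀ : ℂ) = 1 :=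
        an6.analyticOrderAt_eq_one_of_zero_deriv_ne_zero e1 (deriv_E₆_ne_zero h6)
      rw [hfun, analyticOrderAt_mul (an6.pow 2) anΔinv, analyticOrderAt_pow an6, ord6, ordΔinv]
      rfl
    · rw [if_neg h6]
      have h := (analyticAt_jFun τ₀).analyticOrderAt_sub_eq_one_of_deriv_ne_zero
        (deriv_jFun_ne_zero h4 h6)
      simp only [ofComplex_apply] at h
      exact h

end Fermat.Agent.S24.helper3874
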