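import Mathlib

/-!
# S24 / MOD: expansions at the cusp `i∞` in the parameter `exp (2πiτ/h)`

Self-contained (Mathlib only).  For `h > 0` we consider functions `f : ℍ → ℂ` which are
holomorphic, `h`-periodic and have at most a pole of finite order in `Q = exp (2πiτ/h)` at `i∞`.
They form a subring `cuspMer h`, and the Laurent expansion in `Q` is an injective ring
homomorphism `cuspExp h : cuspMer h →+* LaurentSeries ℂ`, built on Mathlib's
`UpperHalfPlane.qExpansion`.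
-/

set_option autoImplicit false

open Complex Filter Function Topology
open UpperHalfPlane hiding I
open scoped Real Manifold

noncomputable section

namespace Fermat.Agent.S24.helper315

local notation "𝕢" => Periodic.qParam

/-! ## Periodicity on `ℍ` -/

/-- `h`-periodicity of a function on the upper half plane. -/
def HPeriodic (h : ℝ) (f : ℍ → ℂ) : Prop := ∀ τ : ℍ, f (h +ᵥ τ) = f τ

theorem periodic_comp_ofComplex_iff (h : ℝ) (f : ℍ → ℂ) :
    Periodic (f ∘ ofComplex) (h : ℂ) ↔ HPeriodic h f := by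
  constructor
  · intro hp τ
    have h1 := hp (τ : ℂ)
    have h2 : 0 < ((τ : ℂ) + (h : ℂ)).im := by simpa using τ.im_pos
    simp only [comp_apply, ofComplex_apply, ofComplex_apply_of_im_pos h2] at h1
    rw [← h1]
    congr 1
    ext
    simp [add_comm]
  · intro hp w
    by_cases hw : 0 < im w
    · have h2 : 0 < im (w + h) := by simpa using hw
      simp only [comp_apply, ofComplex_apply_of_im_pos h2, ofComplex_apply_of_im_pos hw]
      rw [← hp ⟨w, hw⟩]
      congr 1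
      ext
      simp [add_comm]
    · have hw' : im w ≤ 0 := not_lt.mp hw
      have h2 : im (w + h) ≤ 0 := by simpa using hw'
      simp [ofComplex_apply_of_im_nonpos h2, ofComplex_apply_of_im_nonpos hw']

theorem HPeriodic.add {h : ℝ} {f g : ℍ → ℂ} (hf : HPeriodic h f) (hg : HPeriodic h g) :
    HPeriodic h (f + g) := fun τ => by simp [hf τ, hg τ]

theorem HPeriodic.mul {h : ℝ} {f g : ℍ → ℂ} (hf : HPeriodic h f) (hg : HPeriodic h g) :
    HPeriodic h (f * g) := fun τ => by simp [hf τ, hg τ]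

theorem HPeriodic.neg {h : ℝ} {f : ℍ → ℂ} (hf : HPeriodic h f) :
    HPeriodic h (-f) := fun τ => by simp [hf τ]

theorem HPeriodic.const (h : ℝ) (c : ℂ) : HPeriodic h (fun _ => c) := fun _ => rfl

/-! ## The parameter `Q` -/

/-- The local parameter `exp (2πiτ/h)` as a function on `ℍ`. -/
def qH (h : ℝ) : ℍ → ℂ := fun τ => 𝕢 h (τ : ℂ)

theorem qH_apply (h : ℝ) (τ : ℍ) : qH h τ = 𝕢 h (τ : ℂ) := rfl

theorem qH_ne_zero (h : ℝ) (τ : ℍ) : qH h τ ≠ 0 := Periodic.qParam_ne_zero _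

theorem mdiff_comp_coe {F : ℂ → ℂ} (hF : Differentiable ℂ F) : MDiff (fun τ : ℍ => F (τ : ℂ)) :=
  hF.mdifferentiable.comp mdifferentiable_coe

theorem mdiff_qH (h : ℝ) : MDiff (qH h) :=
  mdiff_comp_coe (Periodic.differentiable_qParam (h := h))

theorem hPeriodic_qH {h : ℝ} (hh : h ≠ 0) : HPeriodic h (qH h) := by
  intro τ
  simp only [qH_apply, coe_vadd, Periodic.qParam]
  rw [show 2 * (π : ℂ) * I * ((h : ℂ) + (τ : ℂ)) / (h : ℂ)
      = 2 * (π : ℂ) * I * (τ : ℂ) / (h : ℂ) + 2 * π * I by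
    have : (h : ℂ) ≠ 0 := by exact_mod_cast hh
    field_simp
    ring]
  rw [Complex.exp_add, Complex.exp_two_pi_mul_I, mul_one]

/-! ## Holomorphic at the cusp -/

/-- Holomorphic on `ℍ`, `h`-periodic and bounded at `i∞`. -/
structure IsCuspHol (h : ℝ) (f : ℍ → ℂ) : Prop where
  mdiff : MDiff f
  periodic : HPeriodic h f
  bdd : IsBoundedAtImInfty f

namespace IsCuspHol

variable {h : ℝ} {f g : ℍ → ℂ}

theorem periodic' (hf : IsCuspHol h f) : Periodic (f ∘ ofComplex) (h : ℂ) :=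
  (periodic_comp_ofComplex_iff h f).mpr hf.periodic

theorem analyticAt (hh : 0 < h) (hf : IsCuspHol h f) : AnalyticAt ℂ (cuspFunction h f) 0 :=
  analyticAt_cuspFunction_zero hh hf.periodic' hf.mdiff hf.bdd

theorem add (hf : IsCuspHol h f) (hg : IsCuspHol h g) : IsCuspHol h (f + g) :=
  ⟨hf.mdiff.add hg.mdiff, hf.periodic.add hg.periodic, hf.bdd.add hg.bdd⟩

theorem mul (hf : IsCuspHol h f) (hg : IsCuspHol h g) : IsCuspHol h (f * g) :=
  ⟨hf.mdiff.mul hg.mdiff, hf.periodic.mul hg.periodic, hf.bdd.mul hg.bdd⟩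

theorem neg (hf : IsCuspHol h f) : IsCuspHol h (-f) :=
  ⟨hf.mdiff.neg, hf.periodic.neg, hf.bdd.neg⟩

theorem const (h : ℝ) (c : ℂ) : IsCuspHol h (fun _ => c) :=
  ⟨mdifferentiable_const, HPeriodic.const h c, Filter.const_boundedAtFilter _ c⟩

theorem one (h : ℝ) : IsCuspHol h 1 := const h 1

theorem zero (h : ℝ) : IsCuspHol h 0 := const h 0

theorem pow (hf : IsCuspHol h f) (n : ℕ) : IsCuspHol h (f ^ n) := by
  induction n with
  | zero => simpa using one h
  | succ n ih => rw [pow_succ]; exact ih.mul hf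

theorem hasSum (hh : 0 < h) (hf : IsCuspHol h f) (τ : ℍ) :
    HasSum (fun m : ℕ => (qExpansion h f).coeff m * qH h τ ^ m) (f τ) := by
  simpa [qH_apply] using hasSum_qExpansion hh hf.periodic' hf.mdiff hf.bdd τ

theorem qExpansion_eq_zero_iff (hh : 0 < h) (hf : IsCuspHol h f) :
    qExpansion h f = 0 ↔ f = 0 :=
  UpperHalfPlane.qExpansion_eq_zero_iff hh hf.periodic' hf.mdiff hf.bdd

end IsCuspHol

/-- A holomorphic periodic function given by a convergent power series in `Q` is holomorphic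
at the cusp. -/
theorem isCuspHol_of_hasSum {h : ℝ} (hh : 0 < h) {f : ℍ → ℂ} {c : ℕ → ℂ} (hd : MDiff f)
    (hp : HPeriodic h f) (hs : ∀ τ : ℍ, HasSum (fun m : ℕ => c m * qH h τ ^ m) (f τ)) :
    IsCuspHol h f :=
  ⟨hd, hp, isBoundedAtImInfty_of_hasSum_qExpansion hh (c := c) (by simpa [qH_apply] using hs)⟩

/-- Uniqueness of the coefficients. -/
theorem qExpansion_eq_mk_of_hasSum {h : ℝ} (hh : 0 < h) {f : ℍ → ℂ} {c : ℕ → ℂ}
    (hf : IsCuspHol h f) (hs : ∀ τ : ℍ, HasSum (fun m : ℕ => c m * qH h τ ^ m) (f τ)) :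
    qExpansion h f = PowerSeries.mk c := by
  let _i : FunLike (ℍ → ℂ) ℍ ℂ := ⟨fun f => f, fun _ _ h => h⟩
  ext m
  rw [PowerSeries.coeff_mk]
  have h1 : ∀ τ : ℍ, HasSum (fun m : ℕ => c m • 𝕢 h (τ : ℂ) ^ m) (f τ) := by
    simpa [qH_apply] using hs
  exact (qExpansion_coeff_unique (F := ℍ → ℂ) f hh (hf.analyticAt hh) h1 m).symm

theorem isCuspHol_qH {h : ℝ} (hh : 0 < h) : IsCuspHol h (qH h) := by
  refine isCuspHol_of_hasSum hh (c := fun m => if m = 1 then 1 else 0) (mdiff_qH h)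
    (hPeriodic_qH hh.ne') (fun τ => ?_)
  have := hasSum_ite_eq (1 : ℕ) (qH h τ)
  convert this using 2 with m
  by_cases hm : m = 1 <;> simp [hm]

theorem qExpansion_qH {h : ℝ} (hh : 0 < h) : qExpansion h (qH h) = PowerSeries.X := by
  rw [qExpansion_eq_mk_of_hasSum hh (c := fun m => if m = 1 then 1 else 0) (isCuspHol_qH hh)]
  · ext m
    simp [PowerSeries.coeff_X]
  · intro τ
    have := hasSum_ite_eq (1 : ℕ) (qH h τ)
    convert this using 2 with m
    by_cases hm : m = 1 <;> simp [hm]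

theorem qExpansion_const {h : ℝ} (hh : 0 < h) (c : ℂ) :
    qExpansion h (fun _ : ℍ => c) = PowerSeries.C c := by
  rw [qExpansion_eq_mk_of_hasSum hh (c := fun m => if m = 0 then c else 0) (IsCuspHol.const h c)]
  · ext m
    simp [PowerSeries.coeff_C]
  · intro τ
    have := hasSum_ite_eq (0 : ℕ) c
    convert this using 2 with m
    by_cases hm : m = 0 <;> simp [hm]

theorem qExpansion_qH_pow_mul {h : ℝ} (hh : 0 < h) {f : ℍ → ℂ} (hf : IsCuspHol h f) (k : ℕ) :
    qExpansion h (qH h ^ k * f) = PowerSeries.X ^ k * qExpansion h f := by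
  rw [qExpansion_mul (((isCuspHol_qH hh).pow k).analyticAt hh) (hf.analyticAt hh)]
  congr 1
  induction k with
  | zero =>
    rw [pow_zero, pow_zero]
    exact qExpansion_one h
  | succ k ih =>
    rw [pow_succ, pow_succ,
      qExpansion_mul (((isCuspHol_qH hh).pow k).analyticAt hh) ((isCuspHol_qH hh).analyticAt hh),
      ih, qExpansion_qH hh]

/-! ## Meromorphic at the cusp -/

/-- At most a pole of finite order in `Q` at the cusp. -/
def IsCuspMer (h : ℝ) (f : ℍ → ℂ) : Prop := ∃ m : ℕ, IsCuspHol h (qH h ^ m * f)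

theorem IsCuspHol.qH_pow_mul {h : ℝ} (hh : 0 < h) {f : ℍ → ℂ} (hf : IsCuspHol h f) (k : ℕ) :
    IsCuspHol h (qH h ^ k * f) :=
  ((isCuspHol_qH hh).pow k).mul hf

theorem isCuspHol_qH_pow_add_mul {h : ℝ} (hh : 0 < h) {f : ℍ → ℂ} {m : ℕ}
    (hf : IsCuspHol h (qH h ^ m * f)) (k : ℕ) : IsCuspHol h (qH h ^ (m + k) * f) := by
  have h1 := hf.qH_pow_mul hh k
  have e : qH h ^ (m + k) * f = qH h ^ k * (qH h ^ m * f) := by rw [pow_add]; ring
  rwa [e]

/-- Laurent expansion at the cusp with a given bound `m` on the pole order. -/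
def cuspExpAux (h : ℝ) (m : ℕ) (f : ℍ → ℂ) : LaurentSeries ℂ :=
  HahnSeries.single (-(m : ℤ)) (1 : ℂ) *
    HahnSeries.ofPowerSeries ℤ ℂ (qExpansion h (qH h ^ m * f))

theorem cuspExpAux_add {h : ℝ} (hh : 0 < h) {f : ℍ → ℂ} {m : ℕ}
    (hf : IsCuspHol h (qH h ^ m * f)) (k : ℕ) :
    cuspExpAux h (m + k) f = cuspExpAux h m f := by
  unfold cuspExpAux
  have e : qH h ^ (m + k) * f = qH h ^ k * (qH h ^ m * f) := by rw [pow_add]; ring
  rw [e, qExpansion_qH_pow_mul hh hf, map_mul, map_pow, HahnSeries.ofPowerSeries_X,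
    HahnSeries.single_pow, ← mul_assoc, HahnSeries.single_mul_single]
  congr 2
  · simp
  · simp

theorem cuspExpAux_eq_of {h : ℝ} (hh : 0 < h) {f : ℍ → ℂ} {m m' : ℕ}
    (hf : IsCuspHol h (qH h ^ m * f)) (hf' : IsCuspHol h (qH h ^ m' * f)) :
    cuspExpAux h m f = cuspExpAux h m' f := by
  rw [← cuspExpAux_add hh hf m', ← cuspExpAux_add hh hf' m, add_comm]

open Classical in
/-- The Laurent expansion at the cusp (junk value `0` if `f` is not meromorphic at the cusp). -/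
def cuspExpFun (h : ℝ) (f : ℍ → ℂ) : LaurentSeries ℂ :=
  if hf : IsCuspMer h f then cuspExpAux h hf.choose f else 0

theorem cuspExpFun_eq {h : ℝ} (hh : 0 < h) {f : ℍ → ℂ} {m : ℕ}
    (hf : IsCuspHol h (qH h ^ m * f)) : cuspExpFun h f = cuspExpAux h m f := by
  have hm : IsCuspMer h f := ⟨m, hf⟩
  rw [cuspExpFun, dif_pos hm]
  exact cuspExpAux_eq_of hh hm.choose_spec hf

theorem IsCuspMer.mul {h : ℝ} {f g : ℍ → ℂ} (hf : IsCuspMer h f) (hg : IsCuspMer h g) :
    IsCuspMer h (f * g) := by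
  obtain ⟨m, hm⟩ := hf
  obtain ⟨n, hn⟩ := hg
  refine ⟨m + n, ?_⟩
  have e : qH h ^ (m + n) * (f * g) = (qH h ^ m * f) * (qH h ^ n * g) := by rw [pow_add]; ring
  rw [e]
  exact hm.mul hn

theorem IsCuspMer.add {h : ℝ} (hh : 0 < h) {f g : ℍ → ℂ} (hf : IsCuspMer h f)
    (hg : IsCuspMer h g) : IsCuspMer h (f + g) := by
  obtain ⟨m, hm⟩ := hf
  obtain ⟨n, hn⟩ := hg
  refine ⟨m + n, ?_⟩
  have e : qH h ^ (m + n) * (f + g) = qH h ^ (m + n) * f + qH h ^ (n + m) * g := by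
    rw [add_comm n m]; ring
  rw [e]
  exact (isCuspHol_qH_pow_add_mul hh hm n).add (isCuspHol_qH_pow_add_mul hh hn m)

theorem IsCuspMer.neg {h : ℝ} {f : ℍ → ℂ} (hf : IsCuspMer h f) : IsCuspMer h (-f) := by
  obtain ⟨m, hm⟩ := hf
  refine ⟨m, ?_⟩
  have e : qH h ^ m * (-f) = -(qH h ^ m * f) := by ring
  rw [e]
  exact hm.neg

theorem IsCuspHol.isCuspMer {h : ℝ} {f : ℍ → ℂ} (hf : IsCuspHol h f) : IsCuspMer h f :=
  ⟨0, by simpa using hf⟩

theorem cuspExpFun_of_isCuspHol {h : ℝ} (hh : 0 < h) {f : ℍ → ℂ} (hf : IsCuspHol h f) :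
    cuspExpFun h f = HahnSeries.ofPowerSeries ℤ ℂ (qExpansion h f) := by
  have h0 : IsCuspHol h (qH h ^ 0 * f) := by simpa using hf
  rw [cuspExpFun_eq hh h0, cuspExpAux]
  simp

theorem cuspExpFun_mul {h : ℝ} (hh : 0 < h) {f g : ℍ → ℂ} (hf : IsCuspMer h f)
    (hg : IsCuspMer h g) : cuspExpFun h (f * g) = cuspExpFun h f * cuspExpFun h g := by
  obtain ⟨m, hm⟩ := hf
  obtain ⟨n, hn⟩ := hg
  have e : qH h ^ (m + n) * (f * g) = (qH h ^ m * f) * (qH h ^ n * g) := by rw [pow_add]; ring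
  have hmn : IsCuspHol h (qH h ^ (m + n) * (f * g)) := by rw [e]; exact hm.mul hn
  rw [cuspExpFun_eq hh hmn, cuspExpFun_eq hh hm, cuspExpFun_eq hh hn]
  unfold cuspExpAux
  rw [e, qExpansion_mul (hm.analyticAt hh) (hn.analyticAt hh), map_mul]
  have e2 : HahnSeries.single (-((m + n : ℕ) : ℤ)) (1 : ℂ)
      = HahnSeries.single (-(m : ℤ)) (1 : ℂ) * HahnSeries.single (-(n : ℤ)) (1 : ℂ) := by
    rw [HahnSeries.single_mul_single]
    have e3 : -((m + n : ℕ) : ℤ) = -(m : ℤ) + -(n : ℤ) := by push_cast; ring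
    rw [e3, mul_one]
  rw [e2]
  ring

theorem cuspExpFun_add {h : ℝ} (hh : 0 < h) {f g : ℍ → ℂ} (hf : IsCuspMer h f)
    (hg : IsCuspMer h g) : cuspExpFun h (f + g) = cuspExpFun h f + cuspExpFun h g := by
  obtain ⟨m, hm⟩ := hf
  obtain ⟨n, hn⟩ := hg
  have hm' := isCuspHol_qH_pow_add_mul hh hm n
  have hn' := isCuspHol_qH_pow_add_mul hh hn m
  rw [add_comm n m] at hn'
  have e : qH h ^ (m + n) * (f + g) = qH h ^ (m + n) * f + qH h ^ (m + n) * g := by ring
  have hmn : IsCuspHol h (qH h ^ (m + n) * (f + g)) := by rw [e]; exact hm'.add hn'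
  rw [cuspExpFun_eq hh hmn, cuspExpFun_eq hh hm', cuspExpFun_eq hh hn']
  unfold cuspExpAux
  rw [e, qExpansion_add (hm'.analyticAt hh) (hn'.analyticAt hh), map_add, mul_add]

theorem cuspExpFun_one {h : ℝ} (hh : 0 < h) : cuspExpFun h 1 = 1 := by
  rw [cuspExpFun_of_isCuspHol hh (IsCuspHol.one h), qExpansion_one, map_one]

theorem cuspExpFun_zero {h : ℝ} (hh : 0 < h) : cuspExpFun h 0 = 0 := by
  rw [cuspExpFun_of_isCuspHol hh (IsCuspHol.zero h), qExpansion_zero, map_zero]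

theorem cuspExpFun_const {h : ℝ} (hh : 0 < h) (c : ℂ) :
    cuspExpFun h (fun _ => c) = HahnSeries.C c := by
  rw [cuspExpFun_of_isCuspHol hh (IsCuspHol.const h c), qExpansion_const hh,
    HahnSeries.ofPowerSeries_C]

theorem cuspExpFun_eq_zero_iff {h : ℝ} (hh : 0 < h) {f : ℍ → ℂ} (hf : IsCuspMer h f) :
    cuspExpFun h f = 0 ↔ f = 0 := by
  obtain ⟨m, hm⟩ := hf
  rw [cuspExpFun_eq hh hm, cuspExpAux]
  constructor
  · intro h0
    have h1 : HahnSeries.ofPowerSeries ℤ ℂ (qExpansion h (qH h ^ m * f)) = 0 := by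
      rcases mul_eq_zero.mp h0 with h2 | h2
      · exact absurd h2 (by simp)
      · exact h2
    have h2 : qExpansion h (qH h ^ m * f) = 0 :=
      HahnSeries.ofPowerSeries_injective (by rw [h1, map_zero])
    have h3 := (hm.qExpansion_eq_zero_iff hh).mp h2
    funext τ
    have h4 := congrFun h3 τ
    simp only [Pi.mul_apply, Pi.pow_apply, Pi.zero_apply, mul_eq_zero] at h4
    rcases h4 with h4 | h4
    · exact absurd h4 (pow_ne_zero _ (qH_ne_zero h τ))
    · exact h4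
  · rintro rfl
    simp [qExpansion_zero]

/-- A holomorphic periodic function whose product with `Q^m` is a convergent power series in
`Q` is meromorphic at the cusp, with the expected expansion. -/
theorem cuspExpFun_eq_of_hasSum {h : ℝ} (hh : 0 < h) {f : ℍ → ℂ} (hd : MDiff f)
    (hp : HPeriodic h f) {m : ℕ} {c : ℕ → ℂ}
    (hs : ∀ τ : ℍ, HasSum (fun n : ℕ => c n * qH h τ ^ n) (qH h τ ^ m * f τ)) :
    IsCuspHol h (qH h ^ m * f) ∧
      cuspExpFun h f = HahnSeries.single (-(m : ℤ)) (1 : ℂ) *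
        HahnSeries.ofPowerSeries ℤ ℂ (PowerSeries.mk c) := by
  have h1 : IsCuspHol h (qH h ^ m * f) :=
    isCuspHol_of_hasSum hh (c := c) (((mdiff_qH h).pow m).mul hd)
      (((isCuspHol_qH hh).pow m).periodic.mul hp) (fun τ => by simpa using hs τ)
  refine ⟨h1, ?_⟩
  rw [cuspExpFun_eq hh h1, cuspExpAux,
    qExpansion_eq_mk_of_hasSum hh h1 (fun τ => by simpa using hs τ)]

theorem IsCuspMer.mdiff {h : ℝ} {f : ℍ → ℂ} (hf : IsCuspMer h f) : MDiff f := by
  obtain ⟨m, hm⟩ := hf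
  have h1 : MDiff (fun τ : ℍ => (𝕢 h (τ : ℂ))⁻¹ ^ m) := by
    have : (fun τ : ℍ => (𝕢 h (τ : ℂ))⁻¹ ^ m)
        = fun τ : ℍ => (fun z : ℂ => Complex.exp (-(2 * π * Complex.I * z / h)) ^ m) (τ : ℂ) := by
      funext τ
      simp [Periodic.qParam, Complex.exp_neg]
    rw [this]
    exact mdiff_comp_coe (F := fun z : ℂ => Complex.exp (-(2 * π * Complex.I * z / h)) ^ m)
      (by fun_prop)
  have e : f = (fun τ : ℍ => (𝕢 h (τ : ℂ))⁻¹ ^ m) * (qH h ^ m * f) := by
    funext τ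
    have h0 := qH_ne_zero h τ
    simp only [Pi.mul_apply, Pi.pow_apply, qH_apply] at h0 ⊢
    rw [inv_pow, ← mul_assoc, inv_mul_cancel₀ (pow_ne_zero m h0), one_mul]
  rw [e]
  exact h1.mul hm.mdiff

theorem IsCuspMer.periodic {h : ℝ} (hh : 0 < h) {f : ℍ → ℂ} (hf : IsCuspMer h f) :
    HPeriodic h f := by
  obtain ⟨m, hm⟩ := hf
  intro τ
  have h1 := hm.periodic τ
  simp only [Pi.mul_apply, Pi.pow_apply, hPeriodic_qH hh.ne' τ] at h1
  exact mul_left_cancel₀ (pow_ne_zero m (qH_ne_zero h τ)) h1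

/-! ## The ring of functions meromorphic at the cusp, period `N` -/

theorem natCast_pos' (N : ℕ) [NeZero N] : (0 : ℝ) < (N : ℝ) :=
  Nat.cast_pos.mpr (Nat.pos_of_ne_zero (NeZero.ne N))

/-- Holomorphic functions on `ℍ`, `N`-periodic, meromorphic at the cusp. -/
def cuspMer (N : ℕ) [NeZero N] : Subring (ℍ → ℂ) where
  carrier := {f | IsCuspMer (N : ℝ) f}
  mul_mem' hf hg := hf.mul hg
  one_mem' := (IsCuspHol.one _).isCuspMer
  add_mem' hf hg := hf.add (natCast_pos' N) hg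
  zero_mem' := (IsCuspHol.zero _).isCuspMer
  neg_mem' hf := hf.neg

theorem mem_cuspMer {N : ℕ} [NeZero N] {f : ℍ → ℂ} : f ∈ cuspMer N ↔ IsCuspMer (N : ℝ) f :=
  Iff.rfl

/-- The Laurent expansion at the cusp in the parameter `exp (2πiτ/N)`, as a ring hom. -/
def cuspExp (N : ℕ) [NeZero N] : cuspMer N →+* LaurentSeries ℂ where
  toFun f := cuspExpFun (N : ℝ) f.1
  map_one' := cuspExpFun_one (natCast_pos' N)
  map_mul' f g := cuspExpFun_mul (natCast_pos' N) f.2 g.2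
  map_zero' := cuspExpFun_zero (natCast_pos' N)
  map_add' f g := cuspExpFun_add (natCast_pos' N) f.2 g.2

theorem cuspExp_apply {N : ℕ} [NeZero N] (f : cuspMer N) :
    cuspExp N f = cuspExpFun (N : ℝ) f.1 := rfl

theorem cuspExp_injective (N : ℕ) [NeZero N] : Function.Injective (cuspExp N) := by
  rw [injective_iff_map_eq_zero]
  intro f hf
  exact Subtype.ext ((cuspExpFun_eq_zero_iff (natCast_pos' N) f.2).mp hf)

end Fermat.Agent.S24.helper315
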