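import Mathlib

/-!
# Coefficient twists of Laurent series (helper864, S24 MOD chain)

`twist ζ : LaurentSeries ℂ ≃+* LaurentSeries ℂ` multiplies the `n`-th coefficient by `ζ ^ n`
(the substitution `t ↦ ζ t`).  It preserves orders, fixes constants, and an element fixed by
`twist ζ ^ k` with `ζ` a primitive `m`-th root of unity has order divisible by `m / gcd k m`.
-/

set_option autoImplicit false

namespace Fermat.Agent.S24.helper864

open HahnSeries

noncomputable section

/-- The coefficient twist `t ↦ ζ t` as a function. -/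
def twistFun (ζ : ℂˣ) (f : LaurentSeries ℂ) : LaurentSeries ℂ where
  coeff n := ((ζ ^ n : ℂˣ) : ℂ) * f.coeff n
  isPWO_support' := f.isPWO_support.mono (by
    intro n hn
    simp only [Function.mem_support, ne_eq] at hn ⊢
    intro h
    exact hn (by simp [h]))

@[simp]
theorem twistFun_coeff (ζ : ℂˣ) (f : LaurentSeries ℂ) (n : ℤ) :
    (twistFun ζ f).coeff n = ((ζ ^ n : ℂˣ) : ℂ) * f.coeff n := rfl

theorem twistFun_support (ζ : ℂˣ) (f : LaurentSeries ℂ) :
    (twistFun ζ f).support = f.support := by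
  ext n
  simp only [HahnSeries.mem_support, twistFun_coeff, ne_eq, mul_eq_zero, Units.ne_zero, false_or]

theorem twistFun_mul (ζ : ℂˣ) (f g : LaurentSeries ℂ) :
    twistFun ζ (f * g) = twistFun ζ f * twistFun ζ g := by
  ext n
  rw [twistFun_coeff, HahnSeries.coeff_mul, HahnSeries.coeff_mul, Finset.mul_sum]
  have hset : Finset.antidiagonal (twistFun ζ f).isPWO_support (twistFun ζ g).isPWO_support n
      = Finset.antidiagonal f.isPWO_support g.isPWO_support n := by
    ext ij
    simp only [Finset.mem_antidiagonal, twistFun_support]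
  rw [hset]
  refine Finset.sum_congr rfl fun ij hij => ?_
  have h := (Finset.mem_antidiagonal.mp hij).2.2
  simp only [twistFun_coeff]
  rw [← h, zpow_add]
  push_cast
  ring

theorem twistFun_add (ζ : ℂˣ) (f g : LaurentSeries ℂ) :
    twistFun ζ (f + g) = twistFun ζ f + twistFun ζ g := by
  ext n
  simp [mul_add]

theorem twistFun_one (ζ : ℂˣ) : twistFun ζ (1 : LaurentSeries ℂ) = 1 := by
  ext n
  by_cases hn : n = 0
  · subst hn; simp
  · simp [HahnSeries.coeff_one, hn]

theorem twistFun_twistFun (ζ ξ : ℂˣ) (f : LaurentSeries ℂ) :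
    twistFun ζ (twistFun ξ f) = twistFun (ζ * ξ) f := by
  ext n
  simp [mul_zpow, mul_assoc]

theorem twistFun_one_unit (f : LaurentSeries ℂ) : twistFun 1 f = f := by
  ext n
  simp

/-- The coefficient twist `t ↦ ζ t` as a ring automorphism of `ℂ((t))`. -/
def twist (ζ : ℂˣ) : LaurentSeries ℂ ≃+* LaurentSeries ℂ where
  toFun := twistFun ζ
  invFun := twistFun ζ⁻¹
  left_inv f := by rw [twistFun_twistFun, inv_mul_cancel, twistFun_one_unit]
  right_inv f := by rw [twistFun_twistFun, mul_inv_cancel, twistFun_one_unit]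
  map_mul' := twistFun_mul ζ
  map_add' := twistFun_add ζ

@[simp]
theorem twist_coeff (ζ : ℂˣ) (f : LaurentSeries ℂ) (n : ℤ) :
    (twist ζ f).coeff n = ((ζ ^ n : ℂˣ) : ℂ) * f.coeff n := rfl

theorem twist_C (ζ : ℂˣ) (a : ℂ) : twist ζ (HahnSeries.C a) = HahnSeries.C a := by
  ext n
  by_cases hn : n = 0
  · subst hn; simp
  · simp [HahnSeries.coeff_single_of_ne hn]

theorem twist_pow (ζ : ℂˣ) (k : ℕ) : (twist ζ) ^ k = twist (ζ ^ k) := by
  ext f n
  induction k generalizing f with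
  | zero => simp
  | succ k ih =>
      rw [pow_succ, RingAut.mul_apply, ih]
      simp [pow_succ, mul_zpow, mul_assoc]

theorem twist_support (ζ : ℂˣ) (f : LaurentSeries ℂ) : (twist ζ f).support = f.support :=
  twistFun_support ζ f

theorem twist_orderTop (ζ : ℂˣ) (f : LaurentSeries ℂ) : (twist ζ f).orderTop = f.orderTop := by
  by_cases hf : f = 0
  · subst hf; simp
  · have hf' : twist ζ f ≠ 0 := by simpa using hf
    rw [HahnSeries.orderTop_of_ne_zero hf', HahnSeries.orderTop_of_ne_zero hf]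
    congr 1
    simp only [twist_support]

theorem addVal_twist (ζ : ℂˣ) (f : LaurentSeries ℂ) :
    HahnSeries.addVal ℤ ℂ (twist ζ f) = HahnSeries.addVal ℤ ℂ f := by
  rw [HahnSeries.addVal_apply, HahnSeries.addVal_apply, twist_orderTop]

/-- If `z ≠ 0` is fixed by the twist by `ξ`, then `ξ ^ order z = 1`. -/
theorem zpow_order_eq_one_of_twist_eq (ξ : ℂˣ) {z : LaurentSeries ℂ} (hz : z ≠ 0)
    (h : twist ξ z = z) : ξ ^ z.order = 1 := by
  have hc := congrArg (fun f => f.coeff z.order) h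
  simp only [twist_coeff] at hc
  have hne : z.coeff z.order ≠ 0 := HahnSeries.coeff_order_eq_zero.not.2 hz
  have h1 : ((ξ ^ z.order : ℂˣ) : ℂ) = 1 := by
    have := mul_right_cancel₀ hne (hc.trans (one_mul _).symm)
    exact this
  exact Units.ext h1

/-- The divisibility property `hdiv` of the local data: if `ζ` is a primitive `m`-th root of
unity and `z ≠ 0` is fixed by the `k`-th power of the twist by `ζ`, then the order of `z` is
divisible by `m / gcd k m`. -/
theorem twist_hdiv (ζ : ℂˣ) (m : ℕ) (hm : 0 < m) (hζ : IsPrimitiveRoot ζ m)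
    (k : ℕ) (z : LaurentSeries ℂ) (hz : z ≠ 0) (h : (twist ζ ^ k) z = z) :
    ∃ l : ℤ, HahnSeries.addVal ℤ ℂ z = (((m / Nat.gcd k m : ℕ) * l : ℤ) : WithTop ℤ) := by
  rw [twist_pow] at h
  have h1 := zpow_order_eq_one_of_twist_eq (ζ ^ k) hz h
  rw [← zpow_natCast, ← zpow_mul] at h1
  have hdvd : (m : ℤ) ∣ (k : ℤ) * z.order := (hζ.zpow_eq_one_iff_dvd _).mp h1
  have hg : 0 < Nat.gcd k m := Nat.gcd_pos_of_pos_right k hm
  have hcop : IsCoprime ((m / Nat.gcd k m : ℕ) : ℤ) ((k / Nat.gcd k m : ℕ) : ℤ) := by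
    rw [Int.isCoprime_iff_gcd_eq_one, Int.gcd_natCast_natCast]
    have := Nat.coprime_div_gcd_div_gcd hg
    exact (Nat.Coprime.symm this)
  have hm' : (m : ℤ) = ((m / Nat.gcd k m : ℕ) : ℤ) * (Nat.gcd k m : ℤ) := by
    exact_mod_cast (Nat.div_mul_cancel (Nat.gcd_dvd_right k m)).symm
  have hk' : (k : ℤ) = ((k / Nat.gcd k m : ℕ) : ℤ) * (Nat.gcd k m : ℤ) := by
    exact_mod_cast (Nat.div_mul_cancel (Nat.gcd_dvd_left k m)).symm
  have hdvd2 : ((m / Nat.gcd k m : ℕ) : ℤ) ∣ ((k / Nat.gcd k m : ℕ) : ℤ) * z.order := by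
    rw [hm', hk'] at hdvd
    have hg' : ((Nat.gcd k m : ℕ) : ℤ) ≠ 0 := by exact_mod_cast hg.ne'
    have : ((m / Nat.gcd k m : ℕ) : ℤ) * (Nat.gcd k m : ℤ)
        ∣ (((k / Nat.gcd k m : ℕ) : ℤ) * z.order) * (Nat.gcd k m : ℤ) := by
      convert hdvd using 1; ring
    exact (mul_dvd_mul_iff_right hg').mp this
  obtain ⟨l, hl⟩ := hcop.dvd_of_dvd_mul_left hdvd2
  refine ⟨l, ?_⟩
  rw [HahnSeries.addVal_apply_of_ne hz, hl]

end

end Fermat.Agent.S24.helper864
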