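import Fermat.Agent.S24.helper24_Spec
import Fermat.Agent.S24.helper864_Twist

/-!
# Building `LocalDatum` from Laurent expansions permuted by a twist (helper864)

If for every coset `i : XN N` we have a ring embedding `φ i : FN N →+* ℂ((t))` (an "expansion at
a point"), restricting to a fixed embedding `ι₀ : ℚ̄ → ℂ` on constants, pairwise distinct, all
sending `y` to the same series `ξ` of order `m`, and the coefficient twist by a primitive
`m`-th root of unity permutes the `φ i` like left multiplication by `g` (or `g⁻¹`), then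
`LocalDatum N y m g` of the S24 specification holds.
-/

set_option autoImplicit false

open ModularCurve AlgebraicCurve
open scoped MatrixGroups

namespace Fermat.Agent.S24.helper864

open Fermat.Agent.S24.helper24

noncomputable section

theorem localDatum_of_twist (N : ℕ) (y : FN N) (m : ℕ) (hm : 0 < m) (g : SL(2, ℤ))
    (ι₀ : Kbar →+* ℂ) (ζ : ℂˣ) (hζ : IsPrimitiveRoot ζ m)
    (φ : XN N → (FN N →+* LaurentSeries ℂ))
    (hφK : ∀ (i : XN N) (a : Kbar), φ i (algebraMap Kbar (FN N) a) = HahnSeries.C (ι₀ a))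
    (hinj : Function.Injective φ)
    (ξ : LaurentSeries ℂ) (hy : ∀ i, φ i y = ξ) (hξ : ξ ≠ 0) (hord : ξ.order = (m : ℤ))
    (hσ : (∀ i f, twist ζ (φ i f) = φ (g • i) f) ∨ (∀ i f, twist ζ (φ i f) = φ (g⁻¹ • i) f)) :
    LocalDatum N y m g := by
  let alg : Algebra Kbar (LaurentSeries ℂ) := (HahnSeries.C.comp ι₀).toAlgebra
  have halg : ∀ a : Kbar, algebraMap Kbar (LaurentSeries ℂ) a = HahnSeries.C (ι₀ a) := fun _ => rfl
  let ι : XN N → (FN N →ₐ[Kbar] LaurentSeries ℂ) := fun i =>
    { φ i with commutes' := fun a => by rw [halg]; exact hφK i a }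
  have hι : ∀ i f, ι i f = φ i f := fun _ _ => rfl
  let σ : LaurentSeries ℂ ≃ₐ[Kbar] LaurentSeries ℂ :=
    { twist ζ with commutes' := fun a => by rw [halg]; exact twist_C ζ _ }
  have hσ' : ∀ z, σ z = twist ζ z := fun _ => rfl
  have hσpow : ∀ (k : ℕ) z, (σ ^ k) z = (twist ζ ^ k) z := by
    intro k
    induction k with
    | zero => intro z; rfl
    | succ k ih =>
        intro z
        rw [pow_succ, pow_succ, AlgEquiv.mul_apply, RingAut.mul_apply, ih, hσ']
  refine ⟨LaurentSeries ℂ, inferInstance, alg, HahnSeries.addVal ℤ ℂ, ι, σ, ξ, ?_, ?_, ?_, hm,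
    ?_, ?_, ?_, ?_⟩
  · intro a ha
    rw [halg, HahnSeries.addVal_apply_of_ne]
    · have : (HahnSeries.C (ι₀ a) : LaurentSeries ℂ).order = 0 := by
        rw [HahnSeries.C_apply]
        exact HahnSeries.order_single (by simpa using ha)
      rw [this]; rfl
    · intro h
      have h2 : HahnSeries.C (ι₀ a) = (HahnSeries.C (0 : ℂ) : LaurentSeries ℂ) := by
        rw [h, HahnSeries.C_zero]
      have := HahnSeries.C_injective h2
      exact ha (by simpa using this)
  · intro i j hij
    apply hinj
    refine RingHom.ext fun f => ?_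
    have := congrArg (fun ψ : FN N →ₐ[Kbar] LaurentSeries ℂ => ψ f) hij
    simpa [hι] using this
  · intro i
    rw [hι]; exact hy i
  · rw [HahnSeries.addVal_apply_of_ne hξ, hord]
  · intro z
    rw [hσ']; exact addVal_twist ζ z
  · rcases hσ with h | h
    · left; intro i f; rw [hσ', hι, hι]; exact h i f
    · right; intro i f; rw [hσ', hι, hι]; exact h i f
  · intro k z hz hk
    rw [hσpow] at hk
    exact twist_hdiv ζ m hm hζ k z hz hk

end

end Fermat.Agent.S24.helper864
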