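import Fermat.Agent.S24.helper504_CuspEv
import Fermat.Agent.S24.helper864_LocalDatum

/-!
# S24 / MOD: the local datum at the cusp, `Stmt_LocalInf` (helper504)

`stmt_LocalInf : helper24.Stmt_LocalInf`, with no hypotheses: the coset expansions
`cosetEmb N x : FN N →+* ℂ((t))` (`t = exp(2πiτ/N)`, `x = hΓ₀(N)`, expansion of `ev f ∘ h⁻¹`)
fed into `helper864.localDatum_of_twist`.
-/

set_option autoImplicit false

open Complex Filter Function Topology
open UpperHalfPlane hiding I
open ModularCurve CongruenceSubgroup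
open scoped Real Manifold MatrixGroups

noncomputable section

namespace Fermat.Agent.S24.helper504

open Fermat.Agent.S24.helper24

/-- The embeddings indexed by cosets `h Γ₀(N)`: expansion at the cusp of `ev f ∘ h⁻¹`. -/
def cosetEmb (N : ℕ) [NeZero N] (x : XN N) : FN N →+* LaurentSeries ℂ :=
  Quotient.liftOn' x (fun h => cosetExp N h⁻¹) (by
    intro a b hab
    rw [QuotientGroup.leftRel_apply] at hab
    have e : b⁻¹ = (a⁻¹ * b)⁻¹ * a⁻¹ := by group
    show cosetExp N a⁻¹ = cosetExp N b⁻¹
    rw [e, cosetExp_mul_of_mem_Gamma0 N (inv_mem hab)])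

theorem cosetEmb_mk (N : ℕ) [NeZero N] (h : SL(2, ℤ)) :
    cosetEmb N (QuotientGroup.mk h) = cosetExp N h⁻¹ := rfl

theorem cosetEmb_injective (N : ℕ) [NeZero N] : Function.Injective (cosetEmb N) := by
  intro x y hxy
  induction x using QuotientGroup.induction_on with
  | H g =>
    induction y using QuotientGroup.induction_on with
    | H h =>
      rw [cosetEmb_mk, cosetEmb_mk] at hxy
      exact quotient_mk_eq_of_cosetExp_eq N g h hxy

theorem twist_cosetEmb (N : ℕ) [NeZero N] (x : XN N) (f : FN N) :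
    helper864.twist (helper315.zetaN N) (cosetEmb N x f)
      = cosetEmb N ((ModularGroup.T)⁻¹ • x) f := by
  induction x using QuotientGroup.induction_on with
  | H h =>
    have e1 : helper864.twist (helper315.zetaN N) (cosetEmb N (QuotientGroup.mk h) f)
        = helper315.twist (helper315.zetaN N) (cosetEmb N (QuotientGroup.mk h) f) := by
      ext n
      rw [helper864.twist_coeff, helper315.twist_coeff]
    have e2 : (ModularGroup.T)⁻¹ • (QuotientGroup.mk h : XN N)
        = QuotientGroup.mk ((ModularGroup.T)⁻¹ * h) := rfl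
    rw [e1, e2, cosetEmb_mk, cosetEmb_mk, twist_cosetExp]
    congr 2
    group

theorem isPrimitiveRoot_zetaN (N : ℕ) [NeZero N] : IsPrimitiveRoot (helper315.zetaN N) N := by
  rw [← IsPrimitiveRoot.coe_units_iff, helper315.coe_zetaN]
  exact Complex.isPrimitiveRoot_exp N (NeZero.ne N)

theorem qExpand_jq_coeff_neg (N : ℕ) [NeZero N] :
    (qExpand ℂ N (coeffEmb ℂ jq)).coeff (-(N : ℤ)) = 1 := by
  have h : -(N : ℤ) = (N : ℤ) * (-1) := by ring
  rw [h, qExpand_coeff_mul, coeffEmb_coeff, coeff_jq_neg_one, map_one]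

theorem qExpand_jq_coeff_of_lt (N : ℕ) [NeZero N] {n : ℤ} (hn : n < -(N : ℤ)) :
    (qExpand ℂ N (coeffEmb ℂ jq)).coeff n = 0 := by
  by_cases hdvd : (N : ℤ) ∣ n
  · obtain ⟨k, rfl⟩ := hdvd
    rw [qExpand_coeff_mul]
    have hN : (0 : ℤ) < N := by exact_mod_cast Nat.pos_of_ne_zero (NeZero.ne N)
    have hk : k < -1 := by
      by_contra hk
      push Not at hk
      nlinarith
    exact coeffEmb_jq_coeff_of_lt hk
  · exact qExpand_coeff_of_not_dvd N _ hdvd

theorem qExpand_jq_ne_zero (N : ℕ) [NeZero N] : qExpand ℂ N (coeffEmb ℂ jq) ≠ 0 := by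
  intro h
  have := qExpand_jq_coeff_neg N
  rw [h] at this
  simp at this

theorem qExpand_jq_order (N : ℕ) [NeZero N] :
    (qExpand ℂ N (coeffEmb ℂ jq)).order = -(N : ℤ) := by
  apply le_antisymm
  · apply HahnSeries.order_le_of_coeff_ne_zero
    rw [qExpand_jq_coeff_neg]
    exact one_ne_zero
  · by_contra h
    push Not at h
    exact (HahnSeries.coeff_order_eq_zero.not.2 (qExpand_jq_ne_zero N))
      (qExpand_jq_coeff_of_lt N h)

theorem qExpand_jq_inv_order (N : ℕ) [NeZero N] :
    ((qExpand ℂ N (coeffEmb ℂ jq))⁻¹).order = (N : ℤ) := by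
  have h0 := qExpand_jq_ne_zero N
  have h1 := HahnSeries.order_mul h0 (inv_ne_zero h0)
  rw [mul_inv_cancel₀ h0, HahnSeries.order_one, qExpand_jq_order] at h1
  linarith

/-- **M6**: the local datum at the cusp. -/
theorem stmt_LocalInf : Stmt_LocalInf := by
  intro N _
  refine helper864.localDatum_of_twist N (jBar N)⁻¹ N (Nat.pos_of_ne_zero (NeZero.ne N))
    ModularGroup.T kappa (helper315.zetaN N) (isPrimitiveRoot_zetaN N) (cosetEmb N) ?_
    (cosetEmb_injective N) (qExpand ℂ N (coeffEmb ℂ jq))⁻¹ ?_ (inv_ne_zero (qExpand_jq_ne_zero N))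
    (qExpand_jq_inv_order N) (Or.inr (twist_cosetEmb N))
  · intro x a
    induction x using QuotientGroup.induction_on with
    | H h => rw [cosetEmb_mk, cosetExp_algebraMap]
  · intro x
    induction x using QuotientGroup.induction_on with
    | H h => rw [cosetEmb_mk, map_inv₀, cosetExp_jBar]

end Fermat.Agent.S24.helper504
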