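import Mathlib
import Fermat.Prelude.Def_ModularCurve_GenusNumerics

set_option autoImplicit false

namespace Fermat.Agent.S24.helper1081

open MulAction

section PermRep

variable {G X : Type*} [Group G] [MulAction G X]

/-- The permutation representation of `G` on rational functions on `X`. -/
noncomputable def permRep (g : G) : (X → ℚ) →ₗ[ℚ] (X → ℚ) :=
  LinearMap.funLeft ℚ ℚ (fun x => g⁻¹ • x)

lemma permRep_apply (g : G) (v : X → ℚ) (x : X) : permRep g v x = v (g⁻¹ • x) := rfl

lemma permRep_one (v : X → ℚ) : permRep (1 : G) v = v := by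
  funext x
  simp [permRep_apply]

lemma permRep_mul (g h : G) (v : X → ℚ) : permRep (g * h) v = permRep g (permRep h v) := by
  funext x
  simp [permRep_apply, mul_smul]

lemma permRep_inv_apply (g : G) (v : X → ℚ) : permRep g⁻¹ (permRep g v) = v := by
  rw [← permRep_mul, inv_mul_cancel, permRep_one]

lemma permRep_apply_inv (g : G) (v : X → ℚ) : permRep g (permRep g⁻¹ v) = v := by
  rw [← permRep_mul, mul_inv_cancel, permRep_one]

/-- The subgroup of elements leaving a function invariant. -/
def invSubgroup (v : X → ℚ) : Subgroup G where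
  carrier := {h | ∀ x, v (h • x) = v x}
  mul_mem' := fun {g h} hg hh x => by rw [mul_smul, hg, hh]
  one_mem' := fun x => by rw [one_smul]
  inv_mem' := fun {h} hh x => by
    have := hh (h⁻¹ • x)
    rw [smul_inv_smul] at this
    exact this.symm

lemma mem_invSubgroup (v : X → ℚ) (h : G) : h ∈ invSubgroup v ↔ ∀ x, v (h • x) = v x := Iff.rfl

/-- The fixed subspace of `g`. -/
noncomputable def fixedSub (g : G) : Submodule ℚ (X → ℚ) :=
  LinearMap.ker (LinearMap.id - permRep (X := X) g)

lemma mem_fixedSub (g : G) (v : X → ℚ) : v ∈ fixedSub g ↔ permRep g v = v := by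
  rw [fixedSub, LinearMap.mem_ker, LinearMap.sub_apply, LinearMap.id_apply, sub_eq_zero, eq_comm]

lemma mem_fixedSub_iff (g : G) (v : X → ℚ) : v ∈ fixedSub g ↔ g ∈ invSubgroup v := by
  rw [mem_fixedSub, mem_invSubgroup]
  constructor
  · intro h x
    have := congrFun h (g • x)
    rw [permRep_apply, inv_smul_smul] at this
    exact this.symm
  · intro h
    funext x
    rw [permRep_apply]
    have := h (g⁻¹ • x)
    rw [smul_inv_smul] at this
    exact this.symm


/-- Functions fixed by `g` are the functions on the orbit space of `zpowers g`. -/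
noncomputable def fixedSubEquiv (g : G) :
    fixedSub (X := X) g ≃ₗ[ℚ] (orbitRel.Quotient (Subgroup.zpowers g) X → ℚ) where
  toFun v := fun q => Quotient.liftOn' q (v : X → ℚ) (by
    intro x y hxy
    have hxy' : x ∈ orbit (Subgroup.zpowers g) y := hxy
    obtain ⟨⟨h, hh⟩, rfl⟩ := hxy'
    have hv : g ∈ invSubgroup (v : X → ℚ) := (mem_fixedSub_iff g (v : X → ℚ)).1 v.2
    have hle : Subgroup.zpowers g ≤ invSubgroup (v : X → ℚ) := by
      rw [Subgroup.zpowers_le]; exact hv
    exact (mem_invSubgroup _ _).1 (hle hh) y)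
  invFun f := ⟨fun x => f (Quotient.mk'' x), by
    rw [mem_fixedSub_iff, mem_invSubgroup]
    intro x
    have : (Quotient.mk'' (g • x) : orbitRel.Quotient (Subgroup.zpowers g) X) = Quotient.mk'' x := by
      apply Quotient.sound'
      exact ⟨⟨g, Subgroup.mem_zpowers g⟩, rfl⟩
    show f (Quotient.mk'' (g • x)) = f (Quotient.mk'' x)
    rw [this]⟩
  map_add' v w := by
    funext q
    induction q using Quotient.inductionOn' with
    | h x => rfl
  map_smul' c v := by
    funext q
    induction q using Quotient.inductionOn' with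
    | h x => rfl
  left_inv v := by
    apply Subtype.ext
    funext x
    rfl
  right_inv f := by
    funext q
    induction q using Quotient.inductionOn' with
    | h x => rfl

lemma finrank_fixedSub [Finite X] (g : G) :
    Module.finrank ℚ (fixedSub (X := X) g)
      = Nat.card (orbitRel.Quotient (Subgroup.zpowers g) X) := by
  classical
  have : Finite (orbitRel.Quotient (Subgroup.zpowers g) X) := Quotient.finite _
  let _ : Fintype (orbitRel.Quotient (Subgroup.zpowers g) X) := Fintype.ofFinite _
  rw [(fixedSubEquiv g).finrank_eq, Module.finrank_fintype_fun_eq_card, Nat.card_eq_fintype_card]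

end PermRep

section Scott

variable {G X : Type*} [Group G] [MulAction G X]

/-- `Submodule.prod` as a product of subtypes. -/
def subProdEquiv {R M N : Type*} [Semiring R] [AddCommMonoid M] [AddCommMonoid N]
    [Module R M] [Module R N] (p : Submodule R M) (q : Submodule R N) :
    (p.prod q) ≃ₗ[R] (p × q) where
  toFun x := (⟨x.1.1, x.2.1⟩, ⟨x.1.2, x.2.2⟩)
  invFun y := ⟨(y.1.1, y.2.1), ⟨y.1.2, y.2.2⟩⟩
  map_add' _ _ := rfl
  map_smul' _ _ := rfl
  left_inv _ := rfl
  right_inv _ := rfl

lemma finrank_span_singleton_le_one {V : Type*} [AddCommGroup V] [Module ℚ V] (v : V) :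
    Module.finrank ℚ (Submodule.span ℚ {v}) ≤ 1 := by
  have h := finrank_span_finset_le_card (R := ℚ) ({v} : Finset V)
  rw [Finset.card_singleton, Finset.coe_singleton] at h
  exact h

/-- Scott's map `(v₁, v₂, v₃) ↦ (1 - a) v₁ + a (1 - b) v₂ - (1 - ab) v₃`. -/
noncomputable def scottMap (a b : G) : ((X → ℚ) × (X → ℚ) × (X → ℚ)) →ₗ[ℚ] (X → ℚ) where
  toFun p := (p.1 - permRep a p.1) + permRep a (p.2.1 - permRep b p.2.1)
    - (p.2.2 - permRep (a * b) p.2.2)
  map_add' p q := by
    simp only [Prod.fst_add, Prod.snd_add, map_add, map_sub]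
    abel
  map_smul' c p := by
    simp only [Prod.smul_fst, Prod.smul_snd, map_smul, RingHom.id_apply, map_sub, smul_sub,
      smul_add]

lemma scottMap_apply (a b : G) (p : (X → ℚ) × (X → ℚ) × (X → ℚ)) :
    scottMap a b p = (p.1 - permRep a p.1) + permRep a (p.2.1 - permRep b p.2.1)
      - (p.2.2 - permRep (a * b) p.2.2) := rfl

/-- The diagonal map. -/
noncomputable def diagMap : (X → ℚ) →ₗ[ℚ] ((X → ℚ) × (X → ℚ) × (X → ℚ)) :=
  LinearMap.prod LinearMap.id (LinearMap.prod LinearMap.id LinearMap.id)

lemma diagMap_apply (v : X → ℚ) : diagMap v = (v, v, v) := rfl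

lemma scottMap_diag (a b : G) (v : X → ℚ) : scottMap a b (diagMap v) = 0 := by
  rw [scottMap_apply, diagMap_apply]
  simp only [map_sub, permRep_mul]
  abel

lemma scottMap_fixed (a b : G) (p : (X → ℚ) × (X → ℚ) × (X → ℚ))
    (hp : p ∈ (fixedSub (X := X) a).prod ((fixedSub (X := X) b).prod (fixedSub (X := X) (a * b)))) :
    scottMap a b p = 0 := by
  rw [Submodule.mem_prod, Submodule.mem_prod] at hp
  obtain ⟨h1, h2, h3⟩ := hp
  rw [mem_fixedSub] at h1 h2 h3
  rw [scottMap_apply, h1, h2, h3]
  simp

lemma sub_permRep_mem_range_scott (a b : G) (hgen : Subgroup.closure {a, b} = ⊤) (g : G)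
    (v : X → ℚ) : v - permRep g v ∈ LinearMap.range (scottMap (X := X) a b) := by
  have hg : g ∈ Subgroup.closure {a, b} := by rw [hgen]; trivial
  induction hg using Subgroup.closure_induction generalizing v with
  | mem x hx =>
    rcases hx with rfl | rfl
    · exact ⟨(v, 0, 0), by simp [scottMap_apply]⟩
    · refine ⟨(v - permRep x v, v, 0), ?_⟩
      simp only [scottMap_apply, map_sub, map_zero, sub_zero]
      abel
  | one => simp [permRep_one]
  | mul x y _ _ hx hy =>
    have h1 := hx v
    have h2 := hy v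
    have h3 := hx (v - permRep y v)
    have : v - permRep (x * y) v = (v - permRep x v)
        + ((v - permRep y v) - ((v - permRep y v) - permRep x (v - permRep y v))) := by
      rw [permRep_mul, map_sub]; abel
    rw [this]
    exact add_mem h1 (sub_mem h2 h3)
  | inv x _ hx =>
    have h := hx (permRep x⁻¹ v)
    rw [permRep_apply_inv] at h
    have : v - permRep x⁻¹ v = -(permRep x⁻¹ v - v) := by abel
    rw [this]
    exact neg_mem h

lemma permRep_single [DecidableEq X] (g : G) (x : X) :
    permRep g (Pi.single x (1 : ℚ)) = Pi.single (g • x) 1 := by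
  funext y
  rw [permRep_apply]
  by_cases h : y = g • x
  · subst h
    simp
  · rw [Pi.single_eq_of_ne h, Pi.single_eq_of_ne]
    intro h'
    exact h (by rw [← h', smul_inv_smul])

lemma card_le_finrank_range_scott [Fintype X] [IsPretransitive G X] [Nonempty X] (a b : G)
    (hgen : Subgroup.closure {a, b} = ⊤) :
    Fintype.card X ≤ Module.finrank ℚ (LinearMap.range (scottMap (X := X) a b)) + 1 := by
  classical
  obtain ⟨x0⟩ := ‹Nonempty X›
  have htop : LinearMap.range (scottMap (X := X) a b)
      ⊔ Submodule.span ℚ {Pi.single x0 (1 : ℚ)} = ⊤ := by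
    rw [eq_top_iff, ← (Pi.basisFun ℚ X).span_eq, Submodule.span_le]
    rintro _ ⟨x, rfl⟩
    obtain ⟨g, rfl⟩ := MulAction.exists_smul_eq G x0 x
    have h := sub_permRep_mem_range_scott a b hgen g (Pi.single x0 (1 : ℚ))
    rw [permRep_single] at h
    have h0 : Pi.single x0 (1 : ℚ) ∈ Submodule.span ℚ {(Pi.single x0 (1 : ℚ) : X → ℚ)} :=
      Submodule.subset_span rfl
    have : (Pi.basisFun ℚ X) (g • x0)
        = -(Pi.single x0 (1 : ℚ) - Pi.single (g • x0) (1 : ℚ)) + Pi.single x0 (1 : ℚ) := by
      rw [Pi.basisFun_apply]; abel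
    rw [SetLike.mem_coe, this]
    exact Submodule.add_mem_sup (neg_mem h) h0
  have h1 := Submodule.finrank_add_le_finrank_add_finrank
    (LinearMap.range (scottMap (X := X) a b)) (Submodule.span ℚ {Pi.single x0 (1 : ℚ)})
  rw [htop, finrank_top, Module.finrank_fintype_fun_eq_card] at h1
  have h2 : Module.finrank ℚ (Submodule.span ℚ {(Pi.single x0 (1 : ℚ) : X → ℚ)}) ≤ 1 :=
    finrank_span_singleton_le_one _
  omega

lemma inf_le_span [IsPretransitive G X] [Nonempty X] (a b : G)
    (hgen : Subgroup.closure {a, b} = ⊤) :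
    ((fixedSub (X := X) a).prod ((fixedSub (X := X) b).prod (fixedSub (X := X) (a * b))))
        ⊓ LinearMap.range (diagMap (X := X))
      ≤ Submodule.span ℚ {diagMap (fun _ : X => (1 : ℚ))} := by
  rintro _ ⟨hP, ⟨v, rfl⟩⟩
  have ha : a ∈ invSubgroup v := (mem_fixedSub_iff a v).1 hP.1
  have hb : b ∈ invSubgroup v := (mem_fixedSub_iff b v).1 hP.2.1
  have htop : invSubgroup (G := G) v = ⊤ := by
    rw [eq_top_iff, ← hgen, Subgroup.closure_le]
    rintro x (rfl | rfl)
    exacts [ha, hb]
  obtain ⟨x0⟩ := ‹Nonempty X›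
  have hv : v = (v x0) • (fun _ : X => (1 : ℚ)) := by
    funext x
    obtain ⟨g, rfl⟩ := MulAction.exists_smul_eq G x0 x
    have hg : g ∈ invSubgroup v := htop ▸ Subgroup.mem_top g
    simp [(mem_invSubgroup v g).1 hg x0]
  rw [hv, map_smul]
  exact Submodule.smul_mem _ _ (Submodule.subset_span rfl)

/-- **Ree / Scott inequality** for a transitive action generated by two elements. -/
theorem card_orbits_add_le [Finite X] [Nonempty X] [IsPretransitive G X] (a b : G)
    (hgen : Subgroup.closure {a, b} = ⊤) :
    Nat.card (orbitRel.Quotient (Subgroup.zpowers a) X)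
      + Nat.card (orbitRel.Quotient (Subgroup.zpowers b) X)
      + Nat.card (orbitRel.Quotient (Subgroup.zpowers (a * b)) X) ≤ Nat.card X + 2 := by
  classical
  let _ : Fintype X := Fintype.ofFinite X
  have hV : Module.finrank ℚ (X → ℚ) = Fintype.card X := Module.finrank_fintype_fun_eq_card ℚ
  have hP : Module.finrank ℚ ((fixedSub (X := X) a).prod ((fixedSub (X := X) b).prod (fixedSub (X := X) (a * b))))
      = Nat.card (orbitRel.Quotient (Subgroup.zpowers a) X)
      + Nat.card (orbitRel.Quotient (Subgroup.zpowers b) X)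
      + Nat.card (orbitRel.Quotient (Subgroup.zpowers (a * b)) X) := by
    rw [(subProdEquiv _ _).finrank_eq, Module.finrank_prod, (subProdEquiv _ _).finrank_eq,
      Module.finrank_prod, finrank_fixedSub, finrank_fixedSub, finrank_fixedSub]
    ring
  have hD : Module.finrank ℚ (LinearMap.range (diagMap (X := X))) = Fintype.card X := by
    rw [LinearMap.finrank_range_of_inj, hV]
    intro v w h
    exact congrArg Prod.fst h
  have hle : ((fixedSub (X := X) a).prod ((fixedSub (X := X) b).prod (fixedSub (X := X) (a * b))))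
      ⊔ LinearMap.range (diagMap (X := X)) ≤ LinearMap.ker (scottMap a b) := by
    refine sup_le (fun p hp => scottMap_fixed a b p hp) ?_
    rintro _ ⟨v, rfl⟩
    exact scottMap_diag a b v
  have h1 := Submodule.finrank_sup_add_finrank_inf_eq
    ((fixedSub (X := X) a).prod ((fixedSub (X := X) b).prod (fixedSub (X := X) (a * b))))
    (LinearMap.range (diagMap (X := X)))
  have h2 : Module.finrank ℚ ↥(((fixedSub (X := X) a).prod ((fixedSub (X := X) b).prod (fixedSub (X := X) (a * b))))
      ⊓ LinearMap.range (diagMap (X := X))) ≤ 1 :=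
    (Submodule.finrank_mono (inf_le_span a b hgen)).trans (finrank_span_singleton_le_one _)
  have h3 := Submodule.finrank_mono hle
  have h4 := LinearMap.finrank_range_add_finrank_ker (scottMap (X := X) a b)
  have h5 : Module.finrank ℚ ((X → ℚ) × (X → ℚ) × (X → ℚ)) = 3 * Fintype.card X := by
    rw [Module.finrank_prod, Module.finrank_prod, hV]
    ring
  have h6 := card_le_finrank_range_scott (X := X) a b hgen
  rw [Nat.card_eq_fintype_card (α := X)]
  omega

end Scott

section Parity

open Equiv

variable {α : Type*} [Fintype α] [DecidableEq α]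

/-- Class of a point: either a fixed point, or the cycle through it. -/
def orbitClass (σ : Perm α) (x : α) : Function.fixedPoints σ ⊕ σ.cycleFactorsFinset :=
  if h : σ x = x then Sum.inl ⟨x, h⟩
  else Sum.inr ⟨σ.cycleOf x, Perm.cycleOf_mem_cycleFactorsFinset_iff.mpr (Perm.mem_support.mpr h)⟩

lemma orbitClass_eq_iff (σ : Perm α) (x y : α) :
    orbitClass σ x = orbitClass σ y ↔ σ.SameCycle x y := by
  unfold orbitClass
  by_cases hx : σ x = x <;> by_cases hy : σ y = y
  · rw [dif_pos hx, dif_pos hy]
    constructor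
    · intro h
      have h' : x = y := congrArg Subtype.val (Sum.inl.inj h)
      subst h'
      exact Perm.SameCycle.refl _ _
    · intro h
      have h' : x = y := h.eq_of_left hx
      subst h'
      rfl
  · simp only [dif_pos hx, dif_neg hy]
    constructor
    · intro h
      cases h
    · intro h
      exact absurd (h.apply_eq_self_iff.1 hx) hy
  · simp only [dif_neg hx, dif_pos hy]
    constructor
    · intro h
      cases h
    · intro h
      exact absurd (h.apply_eq_self_iff.2 hy) hx
  · simp only [dif_neg hx, dif_neg hy, Sum.inr.injEq, Subtype.mk.injEq]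
    exact (Perm.sameCycle_iff_cycleOf_eq_of_mem_support (Perm.mem_support.mpr hx)
      (Perm.mem_support.mpr hy)).symm

lemma orbitClass_surjective (σ : Perm α) : Function.Surjective (orbitClass σ) := by
  rintro (⟨x, hx⟩ | ⟨c, hc⟩)
  · refine ⟨x, ?_⟩
    have hx' : σ x = x := hx
    rw [orbitClass, dif_pos hx']
  · have hcyc : c.IsCycle := (Perm.mem_cycleFactorsFinset_iff.1 hc).1
    obtain ⟨a, ha⟩ := hcyc.nonempty_support
    have hca : c = σ.cycleOf a := Perm.cycle_is_cycleOf ha hc
    have haσ : a ∈ σ.support := Perm.mem_cycleFactorsFinset_support_le hc ha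
    refine ⟨a, ?_⟩
    rw [orbitClass, dif_neg (Perm.mem_support.mp haσ)]
    congr 1
    exact Subtype.ext hca.symm

/-- Orbits of a permutation are its fixed points together with its cycles. -/
noncomputable def quotientSameCycleEquiv (σ : Perm α) :
    Quotient (Perm.SameCycle.setoid σ) ≃ Function.fixedPoints σ ⊕ σ.cycleFactorsFinset :=
  Equiv.ofBijective
    (Quotient.lift (orbitClass σ) (fun x y h => (orbitClass_eq_iff σ x y).2 h))
    ⟨by
      intro q₁ q₂
      induction q₁ using Quotient.inductionOn with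
      | h x =>
        induction q₂ using Quotient.inductionOn with
        | h y =>
          intro h
          exact Quotient.sound ((orbitClass_eq_iff σ x y).1 h),
     by
      intro z
      obtain ⟨x, hx⟩ := orbitClass_surjective σ z
      exact ⟨Quotient.mk _ x, hx⟩⟩

lemma card_quotient_sameCycle (σ : Perm α) :
    Nat.card (Quotient (Perm.SameCycle.setoid σ)) + σ.cycleType.sum
      = Fintype.card α + Multiset.card σ.cycleType := by
  rw [Nat.card_congr (quotientSameCycleEquiv σ), Nat.card_sum, Nat.card_eq_fintype_card,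
    Nat.card_eq_fintype_card, Perm.card_fixedPoints, Fintype.card_coe]
  have h1 : Multiset.card σ.cycleType = σ.cycleFactorsFinset.card := by
    rw [Perm.cycleType_def, Multiset.card_map]
    rfl
  have h2 := Perm.sum_cycleType_le σ
  omega

end Parity

section ParityAction

open Equiv

variable {G X : Type*} [Group G] [MulAction G X]

lemma toPerm_zpow_apply (g : G) (i : ℤ) (x : X) :
    ((MulAction.toPerm g : Perm X) ^ i) x = g ^ i • x := by
  have h : (MulAction.toPerm g : Perm X) ^ i = MulAction.toPerm (g ^ i) :=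
    (map_zpow (MulAction.toPermHom G X) g i).symm
  rw [h]
  rfl

lemma card_orbits_zpowers_eq (g : G) :
    Nat.card (orbitRel.Quotient (Subgroup.zpowers g) X)
      = Nat.card (Quotient (Perm.SameCycle.setoid (MulAction.toPerm g : Perm X))) := by
  apply Nat.card_congr
  refine Quotient.congr (Equiv.refl X) ?_
  intro x y
  show x ∈ orbit (Subgroup.zpowers g) y ↔ (MulAction.toPerm g : Perm X).SameCycle x y
  constructor
  · rintro ⟨⟨h, ⟨k, rfl⟩⟩, hk⟩
    refine ⟨-k, ?_⟩
    rw [toPerm_zpow_apply]
    have hk' : g ^ k • y = x := hk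
    rw [← hk', zpow_neg, inv_smul_smul]
  · rintro ⟨i, hi⟩
    rw [toPerm_zpow_apply] at hi
    refine ⟨⟨g ^ (-i), ⟨-i, rfl⟩⟩, ?_⟩
    show g ^ (-i) • y = x
    rw [← hi, zpow_neg, inv_smul_smul]

lemma sign_toPerm_eq [Fintype X] [DecidableEq X] (g : G) :
    Perm.sign (MulAction.toPerm g : Perm X)
      = (-1 : ℤˣ) ^ (Fintype.card X + Nat.card (orbitRel.Quotient (Subgroup.zpowers g) X)) := by
  rw [Perm.sign_of_cycleType, card_orbits_zpowers_eq]
  have h := card_quotient_sameCycle (MulAction.toPerm g : Perm X)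
  apply neg_one_pow_congr
  rw [Nat.even_iff, Nat.even_iff]
  omega

/-- Parity: `n + r_a + r_b + r_{ab}` is even. -/
theorem even_card_add_card_orbits [Finite X] (a b : G) :
    Even (Nat.card X + Nat.card (orbitRel.Quotient (Subgroup.zpowers a) X)
      + Nat.card (orbitRel.Quotient (Subgroup.zpowers b) X)
      + Nat.card (orbitRel.Quotient (Subgroup.zpowers (a * b)) X)) := by
  classical
  let _ : Fintype X := Fintype.ofFinite X
  have ha := sign_toPerm_eq (X := X) a
  have hb := sign_toPerm_eq (X := X) b
  have hab := sign_toPerm_eq (X := X) (a * b)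
  have hmul : (MulAction.toPerm (a * b) : Perm X) = MulAction.toPerm a * MulAction.toPerm b := by
    ext x
    simp [mul_smul]
  rw [hmul, Perm.sign_mul, ha, hb, ← pow_add] at hab
  have h1 : (-1 : ℤˣ) ^ ((Fintype.card X + Nat.card (orbitRel.Quotient (Subgroup.zpowers a) X)
      + (Fintype.card X + Nat.card (orbitRel.Quotient (Subgroup.zpowers b) X)))
      + (Fintype.card X + Nat.card (orbitRel.Quotient (Subgroup.zpowers (a * b)) X))) = 1 := by
    rw [pow_add, hab, ← pow_add, ← two_mul, pow_mul]
    simp
  rw [neg_one_pow_eq_one_iff_even (by decide)] at h1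
  obtain ⟨m, hm⟩ := h1
  rw [Nat.card_eq_fintype_card (α := X)]
  exact ⟨m - Fintype.card X, by omega⟩

/-- **(G1)** Riemann–Hurwitz type genus for a transitive action generated by two elements. -/
theorem exists_genus_of_two_generators [Finite X] [Nonempty X] [IsPretransitive G X] (a b : G)
    (hgen : Subgroup.closure {a, b} = ⊤) :
    ∃ g : ℕ, (Nat.card X : ℤ) + 2 = 2 * g
      + Nat.card (orbitRel.Quotient (Subgroup.zpowers a) X)
      + Nat.card (orbitRel.Quotient (Subgroup.zpowers b) X)
      + Nat.card (orbitRel.Quotient (Subgroup.zpowers (a * b)) X) := by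
  have hle := card_orbits_add_le (X := X) a b hgen
  obtain ⟨m, hm⟩ := even_card_add_card_orbits (X := X) a b
  refine ⟨Nat.card X + 1 - m, ?_⟩
  omega

end ParityAction

section SL2Z

open scoped MatrixGroups
open CongruenceSubgroup ModularCurve

/-- **(G2)** The genus of the transitive `SL(2,ℤ)`-set `SL(2,ℤ) ⧸ Γ₀(N)`. -/
theorem exists_genus_SL2Z (N : ℕ) [NeZero N] :
    ∃ g : ℕ, (Nat.card (SL(2, ℤ) ⧸ Gamma0 N) : ℤ) + 2 = 2 * g
      + Nat.card (orbitRel.Quotient (Subgroup.zpowers ModularGroup.S) (SL(2, ℤ) ⧸ Gamma0 N))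
      + Nat.card (orbitRel.Quotient (Subgroup.zpowers ModularGroup.T) (SL(2, ℤ) ⧸ Gamma0 N))
      + Nat.card (orbitRel.Quotient (Subgroup.zpowers (ModularGroup.S * ModularGroup.T))
          (SL(2, ℤ) ⧸ Gamma0 N)) :=
  exists_genus_of_two_generators ModularGroup.S ModularGroup.T
    SpecialLinearGroup.SL2Z_generators

/-- **(G3)** numeric glue. -/
theorem exists_nat_eq_genusFormula (N rS rST rT g : ℕ)
    (hS : 2 * rS = dedekindPsi N + nuTwo N) (hST : 3 * rST = dedekindPsi N + 2 * nuThree N)
    (hT : rT = cuspCount N) (hg : (dedekindPsi N : ℤ) + 2 = 2 * g + rS + rT + rST) :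
    genusFormula N = (g : ℚ) := by
  have hS' : (2 : ℚ) * rS = dedekindPsi N + nuTwo N := by exact_mod_cast hS
  have hST' : (3 : ℚ) * rST = dedekindPsi N + 2 * nuThree N := by exact_mod_cast hST
  have hT' : (rT : ℚ) = cuspCount N := by exact_mod_cast hT
  have hg' : (dedekindPsi N : ℚ) + 2 = 2 * g + rS + rT + rST := by exact_mod_cast hg
  unfold genusFormula
  linarith

/-- Module G assembled: from the four counts of Module F, `genusFormula N` is a natural number. -/
theorem exists_nat_eq_genusFormula_of_counts (N : ℕ) [NeZero N]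
    (hidx : (Gamma0 N).index = dedekindPsi N)
    (hS : 2 * Nat.card (orbitRel.Quotient (Subgroup.zpowers ModularGroup.S) (SL(2, ℤ) ⧸ Gamma0 N))
      = dedekindPsi N + nuTwo N)
    (hST : 3 * Nat.card (orbitRel.Quotient (Subgroup.zpowers (ModularGroup.S * ModularGroup.T))
      (SL(2, ℤ) ⧸ Gamma0 N)) = dedekindPsi N + 2 * nuThree N)
    (hT : Nat.card (orbitRel.Quotient (Subgroup.zpowers ModularGroup.T) (SL(2, ℤ) ⧸ Gamma0 N))
      = cuspCount N) :
    ∃ g : ℕ, genusFormula N = (g : ℚ) := by
  obtain ⟨g, hg⟩ := exists_genus_SL2Z N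
  refine ⟨g, exists_nat_eq_genusFormula N _ _ _ g hS hST hT ?_⟩
  have hidx' : Nat.card (SL(2, ℤ) ⧸ Gamma0 N) = dedekindPsi N := hidx
  rw [hidx'] at hg
  exact hg

end SL2Z

end Fermat.Agent.S24.helper1081
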