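import Fermat.Statements.S24

/-!
# Local differential calculus at a place (S24, module A-LOC)

Generic facts for `AlgebraicCurve.Place K F`:
* `mem_iff_ord_nonneg`, `min_le_ord_add`, `ord_add_eq_of_lt`: valuation-ring membership and the
  ultrametric inequality in terms of `Place.ord`;
* `exists_mem_D_eq_smul`: if `O_v` is essentially of finite type over `K` and its residue field is
  `K`, then `d u ∈ O_v • d t` for every `u ∈ O_v` and every uniformizer `t` (Nakayama on the
  finite module of Kaehler differentials of `O_v`);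
* `dCoordGenerates`: the coordinate differential of the prelude spans the differentials of `F`;
* `ordDifferential_D`: in characteristic zero, `ord_v (d f) = ord_v f - 1` whenever `ord_v f ≠ 0`;
* `ordDifferential_smul'`: `ord_v (f • ω) = ord_v f + ord_v ω`.
-/

set_option autoImplicit false

open AlgebraicCurve KaehlerDifferential

namespace Fermat.Agent.S24.helper1104

/-- Abstract local lemma: in a local `K`-algebra `O`, essentially of finite type, with residue
field `K` and principal maximal ideal `(t)`, every differential `du` is an `O`-multiple of `dt`. -/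
theorem exists_D_eq_smul_D_of_local {K O : Type*} [Field K] [CommRing O] [IsLocalRing O]
    [Algebra K O] [Algebra.EssFiniteType K O]
    (hres : Function.Surjective (algebraMap K (IsLocalRing.ResidueField O)))
    {t : O} (hmax : IsLocalRing.maximalIdeal O = Ideal.span {t}) (u : O) :
    ∃ g : O, D K O u = g • D K O t := by
  have hfin : Module.Finite O Ω[O⁄K] := KaehlerDifferential.finite K O
  have key0 : ∀ w : O, D K O w ∈
      Submodule.span O {D K O t} ⊔ IsLocalRing.maximalIdeal O • (⊤ : Submodule O Ω[O⁄K]) := by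
    intro w
    obtain ⟨c, hc⟩ := hres (IsLocalRing.residue O w)
    have hc' : IsLocalRing.residue O (algebraMap K O c) = IsLocalRing.residue O w := hc
    have hmem : w - algebraMap K O c ∈ IsLocalRing.maximalIdeal O := by
      rw [← Ideal.Quotient.eq_zero_iff_mem]
      have : IsLocalRing.residue O (w - algebraMap K O c) = 0 := by
        rw [map_sub, hc', sub_self]
      exact this
    rw [hmax, Ideal.mem_span_singleton'] at hmem
    obtain ⟨a, ha⟩ := hmem
    have hw : w = algebraMap K O c + a * t := by rw [ha]; ring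
    have hD : D K O w = a • D K O t + t • D K O a := by
      rw [hw, map_add, Derivation.map_algebraMap, zero_add, Derivation.leibniz]
    rw [hD]
    refine Submodule.add_mem_sup (Submodule.smul_mem _ _ (Submodule.mem_span_singleton_self _)) ?_
    refine Submodule.smul_mem_smul ?_ Submodule.mem_top
    rw [hmax]
    exact Ideal.mem_span_singleton_self t
  have key : (⊤ : Submodule O Ω[O⁄K]) ≤
      Submodule.span O {D K O t} ⊔ IsLocalRing.maximalIdeal O • (⊤ : Submodule O Ω[O⁄K]) := by
    intro x _
    have hx : x ∈ Submodule.span O (Set.range (D K O)) := by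
      rw [KaehlerDifferential.span_range_derivation]; exact Submodule.mem_top
    refine Submodule.span_le.mpr ?_ hx
    rintro _ ⟨w, rfl⟩
    exact key0 w
  have hle : (⊤ : Submodule O Ω[O⁄K]) ≤ Submodule.span O {D K O t} :=
    Submodule.le_of_le_smul_of_le_jacobson_bot hfin.fg_top
      (IsLocalRing.maximalIdeal_le_jacobson ⊥) key
  have hu : D K O u ∈ Submodule.span O {D K O t} := hle Submodule.mem_top
  obtain ⟨g, hg⟩ := Submodule.mem_span_singleton.mp hu
  exact ⟨g, hg.symm⟩

variable {K F : Type*} [Field K] [Field F] [Algebra K F]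

/-- The (private) coordinate uniformizer of the prelude, exposed by `rfl`. -/
theorem dCoord_eq (v : Place K F) :
    v.dCoord =
      D K F ((IsDiscreteValuationRing.exists_irreducible v.toValuationSubring).choose : F) :=
  rfl

theorem exists_irreducible_dCoord (v : Place K F) :
    ∃ π : v.toValuationSubring, Irreducible π ∧ v.dCoord = D K F (π : F) :=
  ⟨_, (IsDiscreteValuationRing.exists_irreducible v.toValuationSubring).choose_spec, rfl⟩

theorem ord_zpow_irreducible (v : Place K F) {π : v.toValuationSubring} (hπ : Irreducible π)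
    (n : ℤ) : v.ord ((π : F) ^ n) = n := by
  rw [v.ord_zpow, v.ord_coe_irreducible hπ, mul_one]

theorem coe_irreducible_ne_zero (v : Place K F) {π : v.toValuationSubring} (hπ : Irreducible π) :
    (π : F) ≠ 0 := by
  simpa [ne_eq, ZeroMemClass.coe_eq_zero] using hπ.ne_zero

/-- Membership in the valuation ring in terms of `ord`. -/
theorem mem_of_ord_nonneg (v : Place K F) {f : F} (hf : 0 ≤ v.ord f) :
    f ∈ v.toValuationSubring := by
  rcases eq_or_ne f 0 with rfl | hf0
  · exact zero_mem _
  obtain ⟨π, hπ⟩ := IsDiscreteValuationRing.exists_irreducible v.toValuationSubring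
  obtain ⟨u, hu⟩ := v.exists_unit_mul_zpow hf0 hπ
  rw [hu]
  obtain ⟨n, hn⟩ := Int.eq_ofNat_of_zero_le hf
  rw [hn, zpow_natCast]
  exact mul_mem (u : v.toValuationSubring).2 (pow_mem π.2 n)

theorem ord_nonneg_of_mem (v : Place K F) {f : F} (hf : f ∈ v.toValuationSubring) :
    0 ≤ v.ord f := by
  rcases eq_or_ne f 0 with rfl | hf0
  · simp
  obtain ⟨π, hπ⟩ := IsDiscreteValuationRing.exists_irreducible v.toValuationSubring
  obtain ⟨u, hu⟩ := v.exists_unit_mul_zpow hf0 hπ
  by_contra hneg
  push Not at hneg
  have hπ0 := coe_irreducible_ne_zero v hπ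
  obtain ⟨m, hm⟩ : ∃ m : ℕ, -v.ord f = (m : ℤ) := Int.eq_ofNat_of_zero_le (by omega)
  have hm0 : m ≠ 0 := by
    rintro rfl
    simp at hm
    omega
  have key : (π : F) ^ m * f = ((u : v.toValuationSubring) : F) := by
    have h1 : v.ord f = -(m : ℤ) := by omega
    rw [hu, h1, zpow_neg, zpow_natCast]
    field_simp
  have key' : π ^ m * ⟨f, hf⟩ = (u : v.toValuationSubring) := Subtype.ext (by simpa using key)
  have hunit : IsUnit (π ^ m) := isUnit_of_mul_isUnit_left (key' ▸ u.isUnit)
  exact hπ.not_isUnit ((isUnit_pow_iff hm0).mp hunit)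

theorem mem_iff_ord_nonneg (v : Place K F) {f : F} :
    f ∈ v.toValuationSubring ↔ 0 ≤ v.ord f :=
  ⟨ord_nonneg_of_mem v, mem_of_ord_nonneg v⟩

theorem ord_neg (v : Place K F) (f : F) : v.ord (-f) = v.ord f := by
  simp [Place.ord]

theorem min_le_ord_add (v : Place K F) {f g : F} (hfg : f + g ≠ 0) :
    min (v.ord f) (v.ord g) ≤ v.ord (f + g) := by
  rcases eq_or_ne f 0 with rfl | hf
  · simp
  rcases eq_or_ne g 0 with rfl | hg
  · simp
  have h := Valuation.map_add v.adicValuation f g
  have hf' := v.adicValuation_ne_zero hf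
  have hg' := v.adicValuation_ne_zero hg
  have hfg' := v.adicValuation_ne_zero hfg
  simp only [Place.ord]
  rcases le_max_iff.mp h with h1 | h1
  · have := (WithZero.log_le_log hfg' hf').mpr h1
    exact (min_le_left _ _).trans (by omega)
  · have := (WithZero.log_le_log hfg' hg').mpr h1
    exact (min_le_right _ _).trans (by omega)

theorem ord_add_eq_of_lt (v : Place K F) {f g : F} (hf : f ≠ 0)
    (h : v.ord f < v.ord g) : v.ord (f + g) = v.ord f := by
  have hfg : f + g ≠ 0 := by
    intro h0
    have : f = -g := eq_neg_of_add_eq_zero_left h0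
    rw [this, ord_neg] at h
    exact lt_irrefl _ h
  have h1 := min_le_ord_add v hfg
  rw [min_eq_left h.le] at h1
  have h2 : min (v.ord (f + g)) (v.ord (-g)) ≤ v.ord (f + g + -g) :=
    min_le_ord_add v (by simpa using hf)
  rw [add_neg_cancel_right, ord_neg] at h2
  rcases min_le_iff.mp h2 with h3 | h3
  · omega
  · omega

theorem ord_algebraMap (v : Place K F) (c : K) : v.ord (algebraMap K F c) = 0 := by
  rcases eq_or_ne c 0 with rfl | hc
  · simp
  have h1 := ord_nonneg_of_mem v (v.algebraMap_mem' c)
  have h2 := ord_nonneg_of_mem v (v.algebraMap_mem' c⁻¹)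
  rw [map_inv₀, v.ord_inv] at h2
  omega

theorem ord_intCast (v : Place K F) (n : ℤ) : v.ord ((n : ℤ) : F) = 0 := by
  have : ((n : ℤ) : F) = algebraMap K F (n : K) := by simp
  rw [this, ord_algebraMap]

theorem irreducible_of_ord_eq_one (v : Place K F) {t : v.toValuationSubring}
    (ht : v.ord (t : F) = 1) : Irreducible t := by
  obtain ⟨π, hπ⟩ := IsDiscreteValuationRing.exists_irreducible v.toValuationSubring
  have ht0 : (t : F) ≠ 0 := by
    rintro h
    rw [h, v.ord_zero] at ht
    exact zero_ne_one ht
  obtain ⟨u, hu⟩ := v.exists_unit_mul_zpow ht0 hπ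
  rw [ht, zpow_one] at hu
  have : t = (u : v.toValuationSubring) * π := Subtype.ext (by simpa using hu)
  rw [this]
  exact (irreducible_isUnit_mul u.isUnit).mpr hπ

/-- LOC-1: every differential of an element of `O_v` is an `O_v`-multiple of `d t`,
`t` a uniformizer. -/
theorem exists_mem_D_eq_smul (v : Place K F) [Algebra.EssFiniteType K v.toValuationSubring]
    (hres : Function.Surjective (algebraMap K v.ResidueField))
    {t : F} (ht : v.ord t = 1) {u : F} (hu : u ∈ v.toValuationSubring) :
    ∃ g ∈ v.toValuationSubring, D K F u = g • D K F t := by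
  have htmem : t ∈ v.toValuationSubring := mem_of_ord_nonneg v (by omega)
  have hirr : Irreducible (⟨t, htmem⟩ : v.toValuationSubring) :=
    irreducible_of_ord_eq_one v ht
  obtain ⟨g, hg⟩ := exists_D_eq_smul_D_of_local (K := K) (O := v.toValuationSubring) hres
    hirr.maximalIdeal_eq ⟨u, hu⟩
  refine ⟨g, g.2, ?_⟩
  have h := congrArg (KaehlerDifferential.map K K v.toValuationSubring F) hg
  rw [map_smul, KaehlerDifferential.map_D, KaehlerDifferential.map_D] at h
  exact h

/-- Explicit shape of `d f` in terms of a uniformizer `π`: if `f = u π^n` then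
`d f = (π^n g + n u π^(n-1)) dπ` with `g ∈ O_v`. -/
theorem exists_D_eq (v : Place K F) [Algebra.EssFiniteType K v.toValuationSubring]
    (hres : Function.Surjective (algebraMap K v.ResidueField))
    {π : v.toValuationSubring} (hπ : Irreducible π) {f : F} (hf : f ≠ 0) :
    ∃ u g : F, u ≠ 0 ∧ v.ord u = 0 ∧ g ∈ v.toValuationSubring ∧
      D K F f = ((π : F) ^ (v.ord f) * g + ((v.ord f : ℤ) : F) * u * (π : F) ^ (v.ord f - 1))
        • D K F (π : F) := by
  obtain ⟨u, hu⟩ := v.exists_unit_mul_zpow hf hπ
  obtain ⟨g, hg, hDu⟩ := exists_mem_D_eq_smul v hres (v.ord_coe_irreducible hπ)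
    (u : v.toValuationSubring).2
  refine ⟨((u : v.toValuationSubring) : F), g, ?_, v.ord_coe_unit u, hg, ?_⟩
  · simp
  · conv_lhs => rw [hu]
    rw [Derivation.leibniz, Derivation.leibniz_zpow, hDu, ← Int.cast_smul_eq_zsmul F]
    module

/-- LOC-2: the coordinate differential of the prelude generates `Ω[F⁄K]`. -/
theorem dCoordGenerates (v : Place K F) [Algebra.EssFiniteType K v.toValuationSubring]
    (hres : Function.Surjective (algebraMap K v.ResidueField)) :
    v.DCoordGenerates := by
  obtain ⟨π, hπ, hd⟩ := exists_irreducible_dCoord v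
  refine ⟨?_⟩
  rw [eq_top_iff, ← KaehlerDifferential.span_range_derivation K F, Submodule.span_le]
  rintro _ ⟨f, rfl⟩
  rcases eq_or_ne f 0 with rfl | hf
  · simp
  obtain ⟨u, g, -, -, -, h⟩ := exists_D_eq v hres hπ hf
  rw [SetLike.mem_coe, h, hd]
  exact Submodule.smul_mem _ _ (Submodule.mem_span_singleton_self _)

/-- LOC-3: order of `d f` when `ord f ≠ 0` (characteristic zero). -/
theorem ordDifferential_D (v : Place K F) [CharZero K]
    [Algebra.EssFiniteType K v.toValuationSubring] [Nontrivial Ω[F⁄K]]
    (hres : Function.Surjective (algebraMap K v.ResidueField))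
    {f : F} (hf : v.ord f ≠ 0) :
    v.ordDifferential (D K F f) = v.ord f - 1 := by
  have := dCoordGenerates v hres
  have hf0 : f ≠ 0 := by
    rintro rfl
    simp at hf
  obtain ⟨π, hπ, hd⟩ := exists_irreducible_dCoord v
  obtain ⟨u, g, hu0, hu, hg, h⟩ := exists_D_eq v hres hπ hf0
  have hπ0 := coe_irreducible_ne_zero v hπ
  have hcoeff : v.differentialCoeff (D K F f) =
      (π : F) ^ (v.ord f) * g + ((v.ord f : ℤ) : F) * u * (π : F) ^ (v.ord f - 1) :=
    v.differentialCoeff_unique (by rw [h, hd])
  rw [Place.ordDifferential, hcoeff]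
  have hn0 : ((v.ord f : ℤ) : F) ≠ 0 := by
    have : ((v.ord f : ℤ) : F) = algebraMap K F ((v.ord f : ℤ) : K) := by simp
    rw [this]
    exact (map_ne_zero (algebraMap K F)).mpr (by exact_mod_cast hf)
  have hB0 : ((v.ord f : ℤ) : F) * u * (π : F) ^ (v.ord f - 1) ≠ 0 :=
    mul_ne_zero (mul_ne_zero hn0 hu0) (zpow_ne_zero _ hπ0)
  have hB : v.ord (((v.ord f : ℤ) : F) * u * (π : F) ^ (v.ord f - 1)) = v.ord f - 1 := by
    rw [v.ord_mul (mul_ne_zero hn0 hu0) (zpow_ne_zero _ hπ0), v.ord_mul hn0 hu0, ord_intCast, hu,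
      ord_zpow_irreducible v hπ]
    ring
  rcases eq_or_ne g 0 with rfl | hg0
  · rw [mul_zero, zero_add, hB]
  · have hA : v.ord ((π : F) ^ (v.ord f) * g) = v.ord f + v.ord g := by
      rw [v.ord_mul (zpow_ne_zero _ hπ0) hg0, ord_zpow_irreducible v hπ]
    have hg' := ord_nonneg_of_mem v hg
    rw [add_comm, ord_add_eq_of_lt v hB0 (by rw [hA, hB]; omega), hB]

/-- LOC-4: multiplicativity of the order of a differential. -/
theorem ordDifferential_smul' (v : Place K F) [Algebra.EssFiniteType K v.toValuationSubring]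
    [Nontrivial Ω[F⁄K]]
    (hres : Function.Surjective (algebraMap K v.ResidueField))
    {f : F} (hf : f ≠ 0) {ω : Ω[F⁄K]} (hω : ω ≠ 0) :
    v.ordDifferential (f • ω) = v.ord f + v.ordDifferential ω := by
  have := dCoordGenerates v hres
  refine v.ordDifferential_smul hf ?_
  intro h0
  apply hω
  rw [← v.differentialCoeff_smul_dCoord ω, h0, zero_smul]

end Fermat.Agent.S24.helper1104
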