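import Fermat.Agent.S24.helper24_Spec

/-!
# S24 assembly glue against `helper24_Spec` (helper1117)

Hypothesis-passing glue theorems:

* `stmt_Places`  : LOC + fundamental identity + local data + coset counts ⟹ `Stmt_Places`
* `stmt_DEG`     : Riemann–Hurwitz bookkeeping + `Stmt_Places` ⟹ `Stmt_DEG`
* `stmt_INT`     : Hurwitz genus of the permutation triple + coset counts ⟹ `Stmt_INT`
* `stmt_S24`     : `Stmt_DEG` + `Stmt_INT` + `Stmt_KaehlerSpan` ⟹ `Stmt_S24`
* `stmt_S24_of_all` : everything composed.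
-/

set_option autoImplicit false

open ModularCurve AlgebraicCurve KaehlerDifferential IntermediateField CongruenceSubgroup
open scoped MatrixGroups

namespace Fermat.Agent.S24.helper1117

open Fermat.Agent.S24.helper24

/-! ## Generic transport lemmas -/

section Generic

variable {K F : Type} [Field K] [Field F] [Algebra K F]

/-- Transport of finiteness and of the degree along an equality of intermediate fields. -/
theorem finrank_transport {E₁ E₂ : IntermediateField K F} (h : E₁ = E₂)
    [FiniteDimensional E₁ F] :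
    FiniteDimensional E₂ F ∧ Module.finrank E₂ F = Module.finrank E₁ F := by
  subst h
  exact ⟨inferInstance, rfl⟩

theorem adjoin_sub_algebraMap (x : F) (c : K) : K⟮x - algebraMap K F c⟯ = K⟮x⟯ := by
  apply le_antisymm
  · rw [IntermediateField.adjoin_simple_le_iff]
    exact sub_mem (IntermediateField.mem_adjoin_simple_self K x) (IntermediateField.algebraMap_mem _ c)
  · rw [IntermediateField.adjoin_simple_le_iff]
    have h1 : x - algebraMap K F c ∈ K⟮x - algebraMap K F c⟯ :=
      IntermediateField.mem_adjoin_simple_self K _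
    have h2 : algebraMap K F c ∈ K⟮x - algebraMap K F c⟯ :=
      IntermediateField.algebraMap_mem _ c
    simpa using add_mem h1 h2

theorem adjoin_inv (x : F) : K⟮x⁻¹⟯ = K⟮x⟯ := by
  apply le_antisymm
  · rw [IntermediateField.adjoin_simple_le_iff]
    exact inv_mem (IntermediateField.mem_adjoin_simple_self K x)
  · rw [IntermediateField.adjoin_simple_le_iff]
    simpa using inv_mem (IntermediateField.mem_adjoin_simple_self K x⁻¹)

theorem transcendental_sub_algebraMap {x : F} (hx : Transcendental K x) (c : K) :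
    Transcendental K (x - algebraMap K F c) := by
  intro h
  apply hx
  have := h.add (isAlgebraic_algebraMap (R := K) (A := F) c)
  simpa using this

theorem transcendental_inv {x : F} (hx : Transcendental K x) : Transcendental K x⁻¹ := by
  intro h
  apply hx
  simpa using h.inv

end Generic

/-! ## Orbit bookkeeping -/

section Orbits

variable {G X : Type*} [Group G] [MulAction G X]

/-- The orbits of the cyclic group generated by the permutation `x ↦ g • x` are the orbits of
the cyclic group generated by `g`. -/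
theorem card_orbits_toPerm (g : G) :
    Nat.card (MulAction.orbitRel.Quotient
        (Subgroup.zpowers (MulAction.toPerm g : Equiv.Perm X)) X)
      = Nat.card (MulAction.orbitRel.Quotient (Subgroup.zpowers g) X) := by
  have hpow : ∀ i : ℤ, ((MulAction.toPerm g : Equiv.Perm X) ^ i) = MulAction.toPerm (g ^ i) :=
    fun i => (map_zpow (MulAction.toPermHom G X) g i).symm
  refine Nat.card_congr (Quotient.congr (Equiv.refl X) ?_)
  intro x y
  show x ∈ MulAction.orbit (Subgroup.zpowers (MulAction.toPerm g : Equiv.Perm X)) y ↔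
    x ∈ MulAction.orbit (Subgroup.zpowers g) y
  constructor
  · rintro ⟨⟨h, hh⟩, rfl⟩
    obtain ⟨k, rfl⟩ := Subgroup.mem_zpowers_iff.mp hh
    refine ⟨⟨g ^ k, Subgroup.zpow_mem_zpowers g k⟩, ?_⟩
    show g ^ k • y = ((MulAction.toPerm g : Equiv.Perm X) ^ k) y
    rw [hpow]
    rfl
  · rintro ⟨⟨h, hh⟩, rfl⟩
    obtain ⟨k, rfl⟩ := Subgroup.mem_zpowers_iff.mp hh
    refine ⟨⟨(MulAction.toPerm g : Equiv.Perm X) ^ k, Subgroup.zpow_mem_zpowers _ k⟩, ?_⟩
    show ((MulAction.toPerm g : Equiv.Perm X) ^ k) y = g ^ k • y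
    rw [hpow]
    rfl

theorem card_orbits_toPerm_inv (g : G) :
    Nat.card (MulAction.orbitRel.Quotient
        (Subgroup.zpowers (MulAction.toPerm g⁻¹ : Equiv.Perm X)) X)
      = Nat.card (MulAction.orbitRel.Quotient (Subgroup.zpowers g) X) := by
  rw [card_orbits_toPerm, Subgroup.zpowers_inv]

/-- The trivial cyclic group has singleton orbits. -/
theorem card_orbits_one :
    Nat.card (MulAction.orbitRel.Quotient (Subgroup.zpowers (1 : G)) X) = Nat.card X := by
  symm
  refine Nat.card_eq_of_bijective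
    (Quotient.mk'' : X → MulAction.orbitRel.Quotient (Subgroup.zpowers (1 : G)) X)
    ⟨?_, Quotient.mk''_surjective⟩
  intro x y hxy
  have hmem : x ∈ MulAction.orbit (Subgroup.zpowers (1 : G)) y := Quotient.exact hxy
  obtain ⟨⟨h, hh⟩, rfl⟩ := hmem
  rw [Subgroup.zpowers_one_eq_bot, Subgroup.mem_bot] at hh
  subst hh
  exact one_smul _ _

end Orbits

/-! ## From LOC and a local datum to a count of places -/

/-- `Stmt_LOC` applied to a `LocalDatum`: the number of zeros of `y` is the number of orbits of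
`g` on the coset space. -/
theorem card_zeros_of_localDatum (hLOC : Stmt_LOC) (N : ℕ) [NeZero N] (y : FN N)
    (hy : Transcendental Kbar y) [FiniteDimensional Kbar⟮y⟯ (FN N)]
    (hn : Module.finrank Kbar⟮y⟯ (FN N) = Nat.card (XN N))
    (m : ℕ) (g : SL(2, ℤ)) (h : LocalDatum N y m g) :
    Nat.card {v : Place Kbar (FN N) // 0 < v.ord y}
      = Nat.card (MulAction.orbitRel.Quotient (Subgroup.zpowers g) (XN N)) := by
  obtain ⟨Ω, instF, instA, w, ι, σ, ξ, hw, hι, hξ, hm, hwξ, hσ, hρ, hdiv⟩ := h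
  have : Finite (XN N) := Subgroup.finite_quotient_of_finiteIndex
  let _ : Fintype (XN N) := Fintype.ofFinite _
  have hcard : Fintype.card (XN N) = Module.finrank Kbar⟮y⟯ (FN N) := by
    rw [hn, Nat.card_eq_fintype_card]
  rcases hρ with hρ | hρ
  · have key := hLOC Kbar (FN N) Ω y hy w hw (XN N) hcard ι hι ξ hξ m hm hwξ σ hσ
      (MulAction.toPerm g) (fun i f => hρ i f) hdiv
    exact key.trans (card_orbits_toPerm g)
  · have key := hLOC Kbar (FN N) Ω y hy w hw (XN N) hcard ι hι ξ hξ m hm hwξ σ hσ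
      (MulAction.toPerm g⁻¹) (fun i f => hρ i f) hdiv
    exact key.trans (card_orbits_toPerm_inv g)

/-! ## `Stmt_Places` -/

theorem stmt_Places (hLOC : Stmt_LOC) (hFund : Stmt_FundId) (hJT : Stmt_JTranscendental)
    (hJF : Stmt_JFinrank) (hG : Stmt_LocalGeneric) (h1728 : Stmt_Local1728)
    (h0 : Stmt_LocalZero) (hInf : Stmt_LocalInf) (hT : Stmt_OrbitsT)
    (hS : Stmt_OrbitsS) (hST : Stmt_OrbitsST) : Stmt_Places := by
  intro N _
  have hj := hJT N
  obtain ⟨hfin, hrank⟩ := hJF N
  refine ⟨?_, ?_, ?_, ?_⟩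
  · -- generic values: unramified
    intro c hc0 hc1728 v hv
    have hyT : Transcendental Kbar (jBar N - algebraMap Kbar (FN N) c) :=
      transcendental_sub_algebraMap hj c
    obtain ⟨hfin', hrank'⟩ := finrank_transport (adjoin_sub_algebraMap (jBar N) c).symm
    have hcardZ := (card_zeros_of_localDatum hLOC N _ hyT (hrank'.trans hrank) 1 1
      (hG N c hc0 hc1728)).trans card_orbits_one
    obtain ⟨s, hs, hsum⟩ := hFund Kbar (FN N) _ hyT
    have hcs : (s.card : ℤ) = (Nat.card (XN N) : ℤ) := by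
      rw [← hcardZ, Nat.subtype_card s hs]
    have hsum' : ∑ v ∈ s, (v.ord (jBar N - algebraMap Kbar (FN N) c) - 1) = 0 := by
      rw [Finset.sum_sub_distrib, hsum, hrank', hrank, ← hcs]
      simp
    have hz := (Finset.sum_eq_zero_iff_of_nonneg (fun u hu => by
      have := (hs u).mp hu
      omega)).mp hsum' v ((hs v).mpr hv)
    omega
  · -- j = 1728
    have hyT : Transcendental Kbar (jBar N - algebraMap Kbar (FN N) 1728) :=
      transcendental_sub_algebraMap hj _
    obtain ⟨hfin', hrank'⟩ :=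
      finrank_transport (adjoin_sub_algebraMap (jBar N) (1728 : Kbar)).symm
    rw [card_zeros_of_localDatum hLOC N _ hyT (hrank'.trans hrank) 2 ModularGroup.S (h1728 N)]
    exact hS N
  · -- j = 0
    have e : jBar N - algebraMap Kbar (FN N) 0 = jBar N := by simp
    rw [e, card_zeros_of_localDatum hLOC N _ hj hrank 3 (ModularGroup.S * ModularGroup.T) (h0 N)]
    exact hST N
  · -- j = ∞
    have hyT : Transcendental Kbar (jBar N)⁻¹ := transcendental_inv hj
    obtain ⟨hfin', hrank'⟩ := finrank_transport (adjoin_inv (K := Kbar) (jBar N)).symm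
    have hc := card_zeros_of_localDatum hLOC N _ hyT (hrank'.trans hrank) N ModularGroup.T
      (hInf N)
    rw [← hT N, ← hc]
    exact Nat.card_congr (Equiv.subtypeEquivRight (fun v => by rw [Place.ord_inv]; omega))

/-! ## `Stmt_DEG` -/

theorem stmt_DEG (hRH : Stmt_RH) (hP : Stmt_Places) (hJT : Stmt_JTranscendental)
    (hJF : Stmt_JFinrank) (hIdx : Stmt_Index) : Stmt_DEG := by
  classical
  intro N _ ω hω D hD
  obtain ⟨hfin, hrank⟩ := hJF N
  obtain ⟨hgen, h1728, h0, hinf⟩ := hP N
  have h01 : (0 : Kbar) ≠ 1728 := by norm_num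
  have key := hRH Kbar (FN N) (jBar N) (hJT N) ({0, 1728} : Finset Kbar) (by
    intro c hc v hv
    simp only [Finset.mem_insert, Finset.mem_singleton, not_or] at hc
    exact hgen c hc.1 hc.2 v hv) ω hω D hD
  rw [key, Finset.sum_pair h01, hrank, hIdx N]
  generalize Nat.card {v : Place Kbar (FN N) //
    0 < v.ord (jBar N - algebraMap Kbar (FN N) 1728)} = r1728 at h1728 ⊢
  generalize Nat.card {v : Place Kbar (FN N) //
    0 < v.ord (jBar N - algebraMap Kbar (FN N) 0)} = r0 at h0 ⊢
  generalize Nat.card {v : Place Kbar (FN N) // v.ord (jBar N) < 0} = rinf at hinf ⊢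
  have h1728' : (2 : ℚ) * (r1728 : ℚ) = dedekindPsi N + nuTwo N := by exact_mod_cast h1728
  have h0' : (3 : ℚ) * (r0 : ℚ) = dedekindPsi N + 2 * nuThree N := by exact_mod_cast h0
  have hinf' : (rinf : ℚ) = cuspCount N := by exact_mod_cast hinf
  unfold genusFormula
  push_cast
  linarith

/-! ## `Stmt_INT` -/

theorem stmt_INT (hH : Stmt_Hurwitz) (hIdx : Stmt_Index) (hT : Stmt_OrbitsT)
    (hS : Stmt_OrbitsS) (hST : Stmt_OrbitsST) : Stmt_INT := by
  intro N _
  obtain ⟨g, hg⟩ := hH N
  refine ⟨g, ?_⟩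
  have hS' : (2 : ℚ) * (Nat.card (MulAction.orbitRel.Quotient
      (Subgroup.zpowers ModularGroup.S) (XN N)) : ℚ) = dedekindPsi N + nuTwo N := by
    exact_mod_cast hS N
  have hST' : (3 : ℚ) * (Nat.card (MulAction.orbitRel.Quotient
      (Subgroup.zpowers (ModularGroup.S * ModularGroup.T)) (XN N)) : ℚ)
      = dedekindPsi N + 2 * nuThree N := by
    exact_mod_cast hST N
  have hT' : (Nat.card (MulAction.orbitRel.Quotient
      (Subgroup.zpowers ModularGroup.T) (XN N)) : ℚ) = cuspCount N := by
    exact_mod_cast hT N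
  have hI' : (Nat.card (XN N) : ℚ) = dedekindPsi N := by exact_mod_cast hIdx N
  have hg' : (Nat.card (XN N) : ℚ) + 2 = 2 * (g : ℚ)
      + (Nat.card (MulAction.orbitRel.Quotient (Subgroup.zpowers ModularGroup.S) (XN N)) : ℚ)
      + (Nat.card (MulAction.orbitRel.Quotient (Subgroup.zpowers ModularGroup.T) (XN N)) : ℚ)
      + (Nat.card (MulAction.orbitRel.Quotient
          (Subgroup.zpowers (ModularGroup.S * ModularGroup.T)) (XN N)) : ℚ) := by
    exact_mod_cast hg
  unfold genusFormula
  linarith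

/-! ## `Stmt_S24` -/

theorem stmt_S24 (hDEG : Stmt_DEG) (hINT : Stmt_INT) (hKS : Stmt_KaehlerSpan)
    (hJT : Stmt_JTranscendental) (hJF : Stmt_JFinrank) : Stmt_S24 := by
  intro N _ _
  obtain ⟨hfin, -⟩ := hJF N
  obtain ⟨g, hg⟩ := hINT N
  have hex : ∃ ω : Ω[FN N⁄Kbar], ω ≠ 0 :=
    ⟨_, (hKS Kbar (FN N) (jBar N) (hJT N)).2⟩
  have hdeg : ∀ (ω : Ω[FN N⁄Kbar]) (hω : ω ≠ 0),
      Divisor.degree (canonicalDivisorOf hω) = 2 * (g : ℤ) - 2 := by
    intro ω hω
    have h := hDEG N ω hω (canonicalDivisorOf hω) (canonicalDivisorOf_apply hω)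
    rw [← hg] at h
    exact_mod_cast h
  rw [← hg]
  have hgenus : AlgebraicCurve.genus Kbar (FN N) = g := by
    unfold AlgebraicCurve.genus
    rw [dif_pos hex, hdeg _ hex.choose_spec]
    have : (2 * (g : ℤ) - 2 + 2).toNat = 2 * g := by omega
    rw [this]
    omega
  exact_mod_cast hgenus

/-- Everything composed: all leaf statements of the specification imply the frozen statement. -/
theorem stmt_S24_of_all (hLOC : Stmt_LOC) (hFund : Stmt_FundId) (hRH : Stmt_RH)
    (hKS : Stmt_KaehlerSpan) (hJT : Stmt_JTranscendental) (hJF : Stmt_JFinrank)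
    (hG : Stmt_LocalGeneric) (h1728 : Stmt_Local1728) (h0 : Stmt_LocalZero)
    (hInf : Stmt_LocalInf) (hIdx : Stmt_Index) (hT : Stmt_OrbitsT) (hS : Stmt_OrbitsS)
    (hST : Stmt_OrbitsST) (hH : Stmt_Hurwitz) : Stmt_S24 :=
  stmt_S24
    (stmt_DEG hRH (stmt_Places hLOC hFund hJT hJF hG h1728 h0 hInf hT hS hST) hJT hJF hIdx)
    (stmt_INT hH hIdx hT hS hST) hKS hJT hJF

end Fermat.Agent.S24.helper1117
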