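import Fermat.Agent.S24.helper24_Spec
import Fermat.Agent.S20.helper2600_Counts

/-!
# helper1121: orbit counts of `S` and `S * T` on `SL(2, ℤ) ⧸ Γ₀(N)`

Generic Burnside count for a permutation of prime order, and the two combinatorial leaves
`Stmt_OrbitsS`, `Stmt_OrbitsST` of the S24 specification, from `Stmt_Index` and the fixed point
counts `helper2600.card_fixedBy_S`, `helper2600.card_fixedBy_ST`.
-/

set_option autoImplicit false

open CongruenceSubgroup ModularCurve
open scoped MatrixGroups

namespace Fermat.Agent.S24.helper1121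

section generic

variable {X : Type*}

/-- Burnside count for a permutation `σ` with `σ ^ p = 1`, `p` prime:
`p * #orbits = #X + (p - 1) * #Fix(σ)`. -/
theorem perm_card_orbits [Finite X] (σ : Equiv.Perm X) (p : ℕ) (hp : p.Prime) (hσ : σ ^ p = 1) :
    p * Nat.card (MulAction.orbitRel.Quotient (Subgroup.zpowers σ) X)
      = Nat.card X + (p - 1) * Nat.card (MulAction.fixedBy X σ) := by
  classical
  have : Fintype X := Fintype.ofFinite X
  have : Fintype (Subgroup.zpowers σ) := Fintype.ofFinite _
  have hB := MulAction.sum_card_fixedBy_eq_card_orbits_mul_card_group (Subgroup.zpowers σ) X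
  -- fixed points of nontrivial elements
  have hfix : ∀ g : Subgroup.zpowers σ, g ≠ 1 →
      MulAction.fixedBy X g = MulAction.fixedBy X σ := by
    rintro ⟨g, hg⟩ hne
    obtain ⟨k, rfl⟩ := Subgroup.mem_zpowers_iff.mp hg
    have hnd : ¬ (p : ℤ) ∣ k := by
      rintro ⟨m, rfl⟩
      apply hne
      apply Subtype.ext
      show σ ^ ((p : ℤ) * m) = 1
      rw [zpow_mul, zpow_natCast, hσ, one_zpow]
    have hcop : IsCoprime k (p : ℤ) := by
      rw [Int.isCoprime_iff_gcd_eq_one]
      have h1 : Int.gcd k p ∣ p := Int.natCast_dvd_natCast.mp (Int.gcd_dvd_right k p)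
      rcases (Nat.dvd_prime hp).mp h1 with h | h
      · exact h
      · exfalso
        apply hnd
        have := Int.gcd_dvd_left k p
        rw [h] at this
        exact this
    obtain ⟨a, b, hab⟩ := hcop
    have hσk : (σ ^ k) ^ a = σ := by
      have : σ ^ (a * k + b * (p : ℤ)) = σ := by rw [hab, zpow_one]
      rw [zpow_add, zpow_mul' σ b, zpow_natCast, hσ, one_zpow, mul_one, mul_comm, zpow_mul] at this
      exact this
    ext x
    show (σ ^ k) • x = x ↔ σ • x = x
    constructor
    · intro h
      have h2 : x ∈ MulAction.fixedBy X (σ ^ k) := h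
      have h3 := MulAction.fixedBy_subset_fixedBy_zpow (α := X) (σ ^ k) a h2
      rw [hσk] at h3
      exact h3
    · intro h
      have h2 : x ∈ MulAction.fixedBy X σ := h
      exact MulAction.fixedBy_subset_fixedBy_zpow (α := X) σ k h2
  have hone : MulAction.fixedBy X (1 : Subgroup.zpowers σ) = Set.univ :=
    MulAction.fixedBy_one_eq_univ X _
  -- evaluate the Burnside sum
  have hsum : (∑ g : Subgroup.zpowers σ, Fintype.card (MulAction.fixedBy X g))
      = Fintype.card X + (Fintype.card (Subgroup.zpowers σ) - 1)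
        * Fintype.card (MulAction.fixedBy X σ) := by
    rw [← Finset.add_sum_erase Finset.univ _ (Finset.mem_univ (1 : Subgroup.zpowers σ))]
    congr 1
    · rw [← Fintype.card_congr (Equiv.Set.univ X)]
      exact Fintype.card_congr (Equiv.setCongr hone)
    · rw [Finset.sum_congr rfl (g := fun _ => Fintype.card (MulAction.fixedBy X σ))]
      · rw [Finset.sum_const, smul_eq_mul, Finset.card_erase_of_mem (Finset.mem_univ _),
          Finset.card_univ]
      · intro g hg
        exact Fintype.card_congr (Equiv.setCongr (hfix g (Finset.ne_of_mem_erase hg)))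
  rw [hsum] at hB
  have hcard : Fintype.card (Subgroup.zpowers σ) = orderOf σ := by
    rw [← Nat.card_eq_fintype_card, Nat.card_zpowers]
  have hdvd : orderOf σ ∣ p := orderOf_dvd_of_pow_eq_one hσ
  simp only [Nat.card_eq_fintype_card]
  rw [hcard] at hB
  rcases (Nat.dvd_prime hp).mp hdvd with h1 | h1
  · -- `σ = 1`
    rw [h1] at hB
    have hσ1 : σ = 1 := orderOf_eq_one_iff.mp h1
    have hFX : Fintype.card (MulAction.fixedBy X σ) = Fintype.card X := by
      rw [← Fintype.card_congr (Equiv.Set.univ X)]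
      refine Fintype.card_congr (Equiv.setCongr ?_)
      rw [hσ1]
      exact MulAction.fixedBy_one_eq_univ X _
    rw [hFX]
    simp only [Nat.sub_self, zero_mul, add_zero, mul_one] at hB
    rw [← hB]
    have hp1 : 1 ≤ p := hp.one_lt.le
    zify [hp1]
    ring
  · rw [h1] at hB
    rw [mul_comm, ← hB]

/-- The orbits of `zpowers g` are the orbits of the cyclic group generated by the permutation
`toPerm g`. -/
theorem card_orbits_zpowers_toPerm {G : Type*} [Group G] [MulAction G X] (g : G) :
    Nat.card (MulAction.orbitRel.Quotient (Subgroup.zpowers g) X)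
      = Nat.card (MulAction.orbitRel.Quotient
          (Subgroup.zpowers (MulAction.toPerm g : Equiv.Perm X)) X) := by
  refine Nat.card_congr (Quotient.congrRight ?_)
  intro x y
  show x ∈ MulAction.orbit (Subgroup.zpowers g) y
    ↔ x ∈ MulAction.orbit (Subgroup.zpowers (MulAction.toPerm g : Equiv.Perm X)) y
  have key : ∀ k : ℤ, ((MulAction.toPerm g : Equiv.Perm X) ^ k) y = g ^ k • y := by
    intro k
    have h := map_zpow (MulAction.toPermHom G X) g k
    rw [MulAction.toPermHom_apply, MulAction.toPermHom_apply] at h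
    rw [← h]
    rfl
  constructor
  · rintro ⟨⟨h, hh⟩, rfl⟩
    obtain ⟨k, rfl⟩ := Subgroup.mem_zpowers_iff.mp hh
    exact ⟨⟨(MulAction.toPerm g : Equiv.Perm X) ^ k, ⟨k, rfl⟩⟩, key k⟩
  · rintro ⟨⟨h, hh⟩, rfl⟩
    obtain ⟨k, rfl⟩ := Subgroup.mem_zpowers_iff.mp hh
    exact ⟨⟨g ^ k, ⟨k, rfl⟩⟩, (key k).symm⟩

/-- Burnside count for a group element `g` such that `g ^ p` acts trivially, `p` prime:
`p * #orbits(⟨g⟩) = #X + (p - 1) * #Fix(g)`. -/
theorem card_orbits_of_pow_smul {G : Type*} [Group G] [MulAction G X] [Finite X] (g : G)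
    (p : ℕ) (hp : p.Prime) (hg : ∀ x : X, g ^ p • x = x) :
    p * Nat.card (MulAction.orbitRel.Quotient (Subgroup.zpowers g) X)
      = Nat.card X + (p - 1) * Nat.card (MulAction.fixedBy X g) := by
  rw [card_orbits_zpowers_toPerm]
  have hσ : (MulAction.toPerm g : Equiv.Perm X) ^ p = 1 := by
    have h := map_pow (MulAction.toPermHom G X) g p
    rw [MulAction.toPermHom_apply, MulAction.toPermHom_apply] at h
    rw [← h]
    ext x
    exact hg x
  have h1 := perm_card_orbits (MulAction.toPerm g : Equiv.Perm X) p hp hσ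
  have hfix : MulAction.fixedBy X (MulAction.toPerm g : Equiv.Perm X) = MulAction.fixedBy X g := by
    ext x
    rfl
  rw [hfix] at h1
  exact h1

end generic

section gamma0

variable (N : ℕ)

theorem neg_one_smul (x : SL(2, ℤ) ⧸ Gamma0 N) : (-1 : SL(2, ℤ)) • x = x := by
  obtain ⟨g, rfl⟩ := QuotientGroup.mk_surjective x
  show ((-1 * g : SL(2, ℤ)) : SL(2, ℤ) ⧸ Gamma0 N) = g
  rw [Fermat.Agent.S20.helper2600.mk_eq_mk_iff]
  have h00 : (-1 * g : SL(2, ℤ)) 0 0 = - g 0 0 := by simp
  have h10 : (-1 * g : SL(2, ℤ)) 1 0 = - g 1 0 := by simp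
  rw [h00, h10]
  have : -g 0 0 * g 1 0 - -g 1 0 * g 0 0 = 0 := by ring
  rw [this]
  simp

theorem S_sq : ModularGroup.S ^ 2 = (-1 : SL(2, ℤ)) := by
  apply Subtype.ext
  simp only [Matrix.SpecialLinearGroup.coe_neg, Matrix.SpecialLinearGroup.coe_one, pow_two,
    Matrix.one_fin_two]
  ext i j
  fin_cases i <;> fin_cases j <;> simp

theorem ST_cube : (ModularGroup.S * ModularGroup.T) ^ 3 = (-1 : SL(2, ℤ)) := by
  apply Subtype.ext
  simp only [Matrix.SpecialLinearGroup.coe_neg, Matrix.SpecialLinearGroup.coe_one,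
    Matrix.SpecialLinearGroup.coe_mul, ModularGroup.coe_S, ModularGroup.coe_T, pow_succ, pow_zero,
    one_mul, Matrix.mul_fin_two, Matrix.one_fin_two]
  ext i j
  fin_cases i <;> fin_cases j <;> simp

/-- `2 * #orbits(S) = index + #Fix(S)`. -/
theorem two_mul_card_orbits_S [NeZero N] :
    2 * Nat.card (MulAction.orbitRel.Quotient (Subgroup.zpowers ModularGroup.S)
        (SL(2, ℤ) ⧸ Gamma0 N))
      = (Gamma0 N).index + nuTwo N := by
  have h := card_orbits_of_pow_smul (X := SL(2, ℤ) ⧸ Gamma0 N) ModularGroup.S 2 Nat.prime_two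
    (fun x => by rw [S_sq]; exact neg_one_smul N x)
  rw [Fermat.Agent.S20.helper2600.card_fixedBy_S] at h
  refine h.trans ?_
  rw [Subgroup.index]
  simp

/-- `3 * #orbits(S * T) = index + 2 * #Fix(S * T)`. -/
theorem three_mul_card_orbits_ST [NeZero N] :
    3 * Nat.card (MulAction.orbitRel.Quotient
        (Subgroup.zpowers (ModularGroup.S * ModularGroup.T)) (SL(2, ℤ) ⧸ Gamma0 N))
      = (Gamma0 N).index + 2 * nuThree N := by
  have h := card_orbits_of_pow_smul (X := SL(2, ℤ) ⧸ Gamma0 N)
    (ModularGroup.S * ModularGroup.T) 3 Nat.prime_three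
    (fun x => by rw [ST_cube]; exact neg_one_smul N x)
  rw [Fermat.Agent.S20.helper2600.card_fixedBy_ST] at h
  refine h.trans ?_
  rw [Subgroup.index]

/-- Orbit count of `S` from the index formula (shape of the S21 glue / Module F5). -/
theorem orbitsS_of_index [NeZero N] (h : (Gamma0 N).index = dedekindPsi N) :
    2 * Nat.card (MulAction.orbitRel.Quotient (Subgroup.zpowers ModularGroup.S)
        (SL(2, ℤ) ⧸ Gamma0 N))
      = dedekindPsi N + nuTwo N := by
  rw [two_mul_card_orbits_S, h]

/-- Orbit count of `S * T` from the index formula (shape of the S21 glue / Module F6). -/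
theorem orbitsST_of_index [NeZero N] (h : (Gamma0 N).index = dedekindPsi N) :
    3 * Nat.card (MulAction.orbitRel.Quotient
        (Subgroup.zpowers (ModularGroup.S * ModularGroup.T)) (SL(2, ℤ) ⧸ Gamma0 N))
      = dedekindPsi N + 2 * nuThree N := by
  rw [three_mul_card_orbits_ST, h]

end gamma0

/-- Spec leaf C3 from C1. -/
theorem stmt_OrbitsS (h : helper24.Stmt_Index) : helper24.Stmt_OrbitsS := by
  intro N _
  exact orbitsS_of_index N (h N)

/-- Spec leaf C4 from C1. -/
theorem stmt_OrbitsST (h : helper24.Stmt_Index) : helper24.Stmt_OrbitsST := by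
  intro N _
  exact orbitsST_of_index N (h N)

end Fermat.Agent.S24.helper1121
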