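/-
S24, board row 154 (G7): Riemann–Hurwitz bookkeeping against the captain's spec.

`rh_of : Stmt_FundId → Stmt_ResidueK → Stmt_Center → Stmt_PrincipalDegZero →
  Stmt_KaehlerSpan → Stmt_LocalDiff → Stmt_RH`.

The divisor of `dx` is built by hand as a finitely supported function on the poles of `x`
and the zeros of `x - c`, `c ∈ S`; existence of principal divisors is not needed.
-/
import Fermat.Agent.S24.helper24_Spec
import Fermat.Agent.S24.helper19_RHBookkeeping

set_option autoImplicit false

open AlgebraicCurve KaehlerDifferential IntermediateField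

namespace Fermat.Agent.S24.helper1148

open Fermat.Agent.S24.helper24

section Basics

variable {K F : Type*} [Field K] [Field F] [Algebra K F]

/-- Nonzero constants have valuation `1` at every place. -/
theorem adicValuation_algebraMap_eq_one (v : Place K F) {c : K} (hc : c ≠ 0) :
    v.adicValuation (algebraMap K F c) = 1 := by
  have h1 := helper19.adicValuation_algebraMap_le_one v c
  have h2 := helper19.adicValuation_algebraMap_le_one v c⁻¹
  have hne : v.adicValuation (algebraMap K F c) ≠ 0 :=
    v.adicValuation_ne_zero (by simpa using hc)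
  rw [map_inv₀, map_inv₀, inv_le_one₀ (zero_lt_iff.mpr hne)] at h2
  exact le_antisymm h1 h2

/-- Nonzero constants have order `0` at every place. -/
theorem ord_algebraMap (v : Place K F) {c : K} (hc : c ≠ 0) :
    v.ord (algebraMap K F c) = 0 := by
  simp [Place.ord, adicValuation_algebraMap_eq_one v hc]

/-- A place is a zero of `x - c` for at most one constant `c`. -/
theorem center_unique (v : Place K F) (x : F) {c c' : K}
    (hc : 0 < v.ord (x - algebraMap K F c)) (hc' : 0 < v.ord (x - algebraMap K F c')) :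
    c = c' := by
  by_contra hne
  have h0 : x - algebraMap K F c ≠ 0 := by
    intro h
    rw [h] at hc
    simp at hc
  have h0' : x - algebraMap K F c' ≠ 0 := by
    intro h
    rw [h] at hc'
    simp at hc'
  have h1 : v.adicValuation (x - algebraMap K F c) < 1 := (helper19.ord_pos_iff v h0).mp hc
  have h1' : v.adicValuation (x - algebraMap K F c') < 1 := (helper19.ord_pos_iff v h0').mp hc'
  have h2 : v.adicValuation (algebraMap K F (c' - c)) = 1 :=
    adicValuation_algebraMap_eq_one v (sub_ne_zero.mpr (Ne.symm hne))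
  have h3 : algebraMap K F (c' - c) = (x - algebraMap K F c) - (x - algebraMap K F c') := by
    rw [map_sub]
    ring
  have h4 := v.adicValuation.map_sub (x - algebraMap K F c) (x - algebraMap K F c')
  rw [← h3, h2] at h4
  exact absurd h4 (not_le.mpr (max_lt h1 h1'))

/-- Residue field `K` means degree one. -/
theorem deg_eq_one_of_surjective (v : Place K F)
    (h : Function.Surjective (algebraMap K v.ResidueField)) : v.deg = 1 := by
  unfold Place.deg
  refine finrank_eq_one (1 : v.ResidueField) one_ne_zero fun w => ?_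
  obtain ⟨c, rfl⟩ := h w
  exact ⟨c, by rw [Algebra.algebraMap_eq_smul_one]⟩

/-- A nonzero differential has nonzero coefficient with respect to `dCoord`. -/
theorem differentialCoeff_ne_zero (v : Place K F) [v.DCoordGenerates] {ω : Ω[F⁄K]}
    (hω : ω ≠ 0) : v.differentialCoeff ω ≠ 0 := by
  intro h
  apply hω
  rw [← v.differentialCoeff_smul_dCoord ω, h, zero_smul]

theorem adjoin_sub_algebraMap (x : F) (c : K) : K⟮x - algebraMap K F c⟯ = K⟮x⟯ := by
  apply le_antisymm
  · rw [adjoin_simple_le_iff]
    exact sub_mem (mem_adjoin_simple_self K x) (IntermediateField.algebraMap_mem _ c)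
  · rw [adjoin_simple_le_iff]
    have h := add_mem (mem_adjoin_simple_self K (x - algebraMap K F c))
      (IntermediateField.algebraMap_mem K⟮x - algebraMap K F c⟯ c)
    simpa using h

theorem adjoin_inv_eq (x : F) : K⟮x⁻¹⟯ = K⟮x⟯ := by
  apply le_antisymm
  · rw [adjoin_simple_le_iff]
    exact inv_mem (mem_adjoin_simple_self K x)
  · rw [adjoin_simple_le_iff]
    have h := inv_mem (mem_adjoin_simple_self K x⁻¹)
    rwa [inv_inv] at h

theorem transcendental_sub_algebraMap {x : F} (hx : Transcendental K x) (c : K) :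
    Transcendental K (x - algebraMap K F c) := by
  have h := hx.aeval (Polynomial.X - Polynomial.C c) (by simp)
  simpa using h

theorem transcendental_inv {x : F} (hx : Transcendental K x) : Transcendental K x⁻¹ :=
  fun h => hx (IsAlgebraic.inv_iff.mp h)

end Basics

section Core

variable {K F : Type*} [Field K] [Field F] [Algebra K F]

/-- **Riemann–Hurwitz bookkeeping**, variant of `helper19.degree_eq_of_ramification` that
needs neither existence of principal divisors nor uniqueness of centers as hypotheses. -/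
theorem degree_eq_of_ramification_core (x : F) (n : ℕ)
    (hdeg : ∀ v : Place K F, v.deg = 1)
    (hcenter : ∀ v : Place K F, v.ord x < 0 ∨ ∃ c : K, 0 < v.ord (x - algebraMap K F c))
    (hzeros : ∀ c : K, ∃ s : Finset (Place K F),
        (∀ v, v ∈ s ↔ 0 < v.ord (x - algebraMap K F c)) ∧
        ∑ v ∈ s, v.ord (x - algebraMap K F c) = n)
    (hpoles : ∃ s : Finset (Place K F), (∀ v, v ∈ s ↔ v.ord x < 0) ∧ ∑ v ∈ s, -v.ord x = n)
    (hprinc : ∀ f : F, f ≠ 0 → ∀ E : Divisor K F, (∀ v : Place K F, E v = v.ord f) →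
        Divisor.degree E = 0)
    (hD : ∀ (v : Place K F) (y : F), v.ord y ≠ 0 →
        v.ordDifferential (D K F y) = v.ord y - 1)
    (hsmul : ∀ (v : Place K F) (f : F), f ≠ 0 →
        v.ordDifferential (f • D K F x) = v.ord f + v.ordDifferential (D K F x))
    (hspan : ∀ ω : Ω[F⁄K], ∃ f : F, ω = f • D K F x)
    (S : Finset K)
    (hunr : ∀ c : K, c ∉ S → ∀ v : Place K F, 0 < v.ord (x - algebraMap K F c) →
        v.ord (x - algebraMap K F c) = 1)
    (ω : Ω[F⁄K]) (hω : ω ≠ 0) (Dv : Divisor K F) (hDv : ∀ v, Dv v = v.ordDifferential ω) :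
    Divisor.degree Dv =
      ∑ c ∈ S, ((n : ℤ) - Nat.card {v : Place K F // 0 < v.ord (x - algebraMap K F c)})
        - n - Nat.card {v : Place K F // v.ord x < 0} := by
  classical
  obtain ⟨f, rfl⟩ := hspan ω
  have hf : f ≠ 0 := by
    rintro rfl
    simp at hω
  obtain ⟨sP, hsP, hsPsum⟩ := hpoles
  choose Z hZ hZsum using hzeros
  have hDsub : ∀ c : K, D K F (x - algebraMap K F c) = D K F x := by
    intro c
    rw [map_sub, Derivation.map_algebraMap, sub_zero]
  have hval_pole : ∀ v ∈ sP, v.ordDifferential (D K F x) = v.ord x - 1 := by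
    intro v hv
    exact hD v x ((hsP v).mp hv).ne
  have hval_zero : ∀ c, ∀ v ∈ Z c,
      v.ordDifferential (D K F x) = v.ord (x - algebraMap K F c) - 1 := by
    intro c v hv
    rw [← hDsub c]
    exact hD v _ ((hZ c v).mp hv).ne'
  have hsupp : ∀ v, v ∉ sP ∪ S.biUnion Z → v.ordDifferential (D K F x) = 0 := by
    intro v hvT
    rw [Finset.mem_union, not_or] at hvT
    obtain ⟨hvP, hvZ⟩ := hvT
    rcases hcenter v with hpole | ⟨c, hc⟩
    · exact absurd ((hsP v).mpr hpole) hvP
    · have hcS : c ∉ S := fun hcS =>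
        hvZ (Finset.mem_biUnion.mpr ⟨c, hcS, (hZ c v).mpr hc⟩)
      rw [← hDsub c, hD v _ hc.ne', hunr c hcS v hc]
      simp
  -- the divisor of `dx`
  let Dx : Divisor K F := Finsupp.onFinset (sP ∪ S.biUnion Z)
    (fun v => v.ordDifferential (D K F x))
    (fun v hv => by
      by_contra h
      exact hv (hsupp v h))
  have hDx : ∀ v, Dx v = v.ordDifferential (D K F x) := fun v => rfl
  have hE : ∀ v, (Dv - Dx) v = v.ord f := by
    intro v
    rw [Finsupp.sub_apply, hDv v, hDx v, hsmul v f hf]
    ring
  have hdegE : Divisor.degree Dv = Divisor.degree Dx := by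
    have h0 := hprinc f hf (Dv - Dx) hE
    rw [map_sub] at h0
    exact sub_eq_zero.mp h0
  have hsupp' : ∀ v, v ∉ sP ∪ S.biUnion Z → Dx v = 0 := fun v hv => by
    rw [hDx v]
    exact hsupp v hv
  rw [hdegE, helper19.degree_eq_sum_of_support_subset hdeg Dx _ hsupp']
  have hdisjPZ : Disjoint sP (S.biUnion Z) := by
    rw [Finset.disjoint_left]
    intro v hvP hvZ
    obtain ⟨c, -, hvc⟩ := Finset.mem_biUnion.mp hvZ
    exact helper19.not_pos_ord_sub_of_ord_neg v ((hsP v).mp hvP) c ((hZ c v).mp hvc)
  have hdisjZ : (S : Set K).PairwiseDisjoint Z := by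
    intro c _ c' _ hcc'
    rw [Function.onFun, Finset.disjoint_left]
    intro v hvc hvc'
    exact hcc' (center_unique v x ((hZ c v).mp hvc) ((hZ c' v).mp hvc'))
  rw [Finset.sum_union hdisjPZ, Finset.sum_biUnion hdisjZ]
  have hP : ∑ v ∈ sP, Dx v = -(n : ℤ) - Nat.card {v : Place K F // v.ord x < 0} := by
    rw [Finset.sum_congr rfl (fun v hv => (hDx v).trans (hval_pole v hv)),
      Finset.sum_sub_distrib, Nat.subtype_card sP hsP]
    rw [Finset.sum_neg_distrib] at hsPsum
    simp only [Finset.sum_const, nsmul_eq_mul, mul_one]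
    omega
  have hZc : ∀ c, ∑ v ∈ Z c, Dx v =
      (n : ℤ) - Nat.card {v : Place K F // 0 < v.ord (x - algebraMap K F c)} := by
    intro c
    rw [Finset.sum_congr rfl (fun v hv => (hDx v).trans (hval_zero c v hv)),
      Finset.sum_sub_distrib, Nat.subtype_card (Z c) (hZ c), hZsum c]
    simp
  rw [hP, Finset.sum_congr rfl (fun c _ => hZc c)]
  ring

end Core

/-- **G7** (board row 154): Riemann–Hurwitz bookkeeping from the generic function field
statements of the spec. -/
theorem rh_of (h1 : Stmt_FundId) (h2 : Stmt_ResidueK) (h3 : Stmt_Center)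
    (h4 : Stmt_PrincipalDegZero) (h5 : Stmt_KaehlerSpan) (h6 : Stmt_LocalDiff) : Stmt_RH := by
  intro K F _ _ _ _ _ x hx _ S hunr ω hω Dv hDv
  obtain ⟨hspan, hdx⟩ := h5 K F x hx
  have hdeg : ∀ v : Place K F, v.deg = 1 := fun v =>
    deg_eq_one_of_surjective v (h2 K F x hx v)
  have key := degree_eq_of_ramification_core x (Module.finrank K⟮x⟯ F) hdeg (h3 K F x hx)
    ?_ ?_ (fun f hf E hE => h4 K F x hx f hf E hE) (fun v y hy => (h6 K F x hx v).2 y hy)
    ?_ ?_ S hunr ω hω Dv hDv
  · exact key
  · -- zeros of `x - c`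
    intro c
    have htr : Transcendental K (x - algebraMap K F c) := transcendental_sub_algebraMap hx c
    have : FiniteDimensional K⟮x - algebraMap K F c⟯ F := by
      rw [adjoin_sub_algebraMap]
      infer_instance
    obtain ⟨s, hs, hsum⟩ := h1 K F (x - algebraMap K F c) htr
    refine ⟨s, hs, ?_⟩
    rw [hsum, adjoin_sub_algebraMap]
  · -- poles of `x`
    have htr : Transcendental K x⁻¹ := transcendental_inv hx
    have : FiniteDimensional K⟮x⁻¹⟯ F := by
      rw [adjoin_inv_eq]
      infer_instance
    obtain ⟨s, hs, hsum⟩ := h1 K F x⁻¹ htr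
    refine ⟨s, fun v => ?_, ?_⟩
    · rw [hs v, Place.ord_inv, neg_pos]
    · rw [← Finset.sum_congr rfl (fun v _ => v.ord_inv x), hsum, adjoin_inv_eq]
  · -- `ord (f • dx) = ord f + ord dx`
    intro v f hf
    have := (h6 K F x hx v).1
    have : Nontrivial Ω[F⁄K] := ⟨⟨D K F x, 0, hdx⟩⟩
    exact v.ordDifferential_smul hf (differentialCoeff_ne_zero v hdx)
  · -- every differential is a multiple of `dx`
    intro η
    have hmem : η ∈ Submodule.span F {D K F x} := hspan ▸ Submodule.mem_top
    obtain ⟨f, hf⟩ := Submodule.mem_span_singleton.mp hmem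
    exact ⟨f, hf.symm⟩

end Fermat.Agent.S24.helper1148
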