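import Mathlib
import Fermat.Prelude.Def_ModularCurve_GenusNumerics

/-!
# S24, Module G: `genusFormula N` is a natural number

Combinatorial input for the final assembly of S24 (the genus there is `(deg + 2).toNat / 2`
with natural-number division, so one needs `deg + 2` even and nonnegative).

* `scott_inequality`: Scott's lemma (linear-algebra proof of Ree's theorem) for two generators
  `a`, `b` of a group acting transitively on a finite set `X`.
* `even_card_add_orbits`: parity, via the sign of permutations.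
* `exists_genus_of_two_generators` (G1), `exists_genus_SL2Z` (G2), `exists_genus_Gamma0`,
  `exists_nat_eq_genusFormula` (G3).
-/

set_option autoImplicit false

namespace Fermat.Agent.S24.helper84

open MulAction Module

section Scott

variable {G X : Type*} [Group G] [MulAction G X]

/-- The operator `f ↦ f ∘ (g • ·)` on `X → ℚ`. -/
noncomputable def opT (g : G) : (X → ℚ) →ₗ[ℚ] (X → ℚ) :=
  LinearMap.funLeft ℚ ℚ (fun x => g • x)

theorem opT_apply (g : G) (f : X → ℚ) (x : X) : opT g f x = f (g • x) := rfl

theorem opT_mul (g h : G) : opT (X := X) (g * h) = opT h ∘ₗ opT g :=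
  LinearMap.ext fun f => funext fun x => by
    simp [opT_apply, mul_smul]

theorem opT_one : opT (X := X) (1 : G) = LinearMap.id :=
  LinearMap.ext fun f => funext fun x => by
    simp [opT_apply]

/-- The subspace of functions invariant under `g`. -/
noncomputable def fixSub (g : G) : Submodule ℚ (X → ℚ) := LinearMap.ker (LinearMap.id - opT g)

theorem mem_fixSub {g : G} {f : X → ℚ} : f ∈ fixSub g ↔ ∀ x, f (g • x) = f x := by
  unfold fixSub
  rw [LinearMap.mem_ker, LinearMap.sub_apply, sub_eq_zero, LinearMap.id_apply, funext_iff]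
  constructor
  · intro h x
    rw [h x, opT_apply]
  · intro h x
    rw [opT_apply, h x]

theorem fixSub_zpow {g : G} {f : X → ℚ} (hf : f ∈ fixSub g) (k : ℤ) (x : X) :
    f (g ^ k • x) = f x := by
  rw [mem_fixSub] at hf
  induction k using Int.induction_on generalizing x with
  | zero => simp
  | succ n ih =>
    rw [zpow_add_one, mul_smul, ih, hf]
  | pred n ih =>
    rw [zpow_sub_one, mul_smul, ih]
    have := hf (g⁻¹ • x)
    rw [smul_inv_smul] at this
    exact this.symm

theorem finrank_fixSub [Finite X] (g : G) :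
    finrank ℚ (fixSub (X := X) g) = Nat.card (orbitRel.Quotient (Subgroup.zpowers g) X) := by
  classical
  have : Fintype (orbitRel.Quotient (Subgroup.zpowers g) X) := Fintype.ofFinite _
  let mk : X → orbitRel.Quotient (Subgroup.zpowers g) X := Quotient.mk''
  have hmk : Function.Surjective mk := Quotient.mk''_surjective
  let Φ : (orbitRel.Quotient (Subgroup.zpowers g) X → ℚ) →ₗ[ℚ] (X → ℚ) :=
    LinearMap.funLeft ℚ ℚ mk
  have hΦ : Function.Injective Φ := LinearMap.funLeft_injective_of_surjective ℚ ℚ mk hmk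
  have hrange : LinearMap.range Φ = fixSub g := by
    ext f
    constructor
    · rintro ⟨φ, rfl⟩
      rw [mem_fixSub]
      intro x
      show φ (mk (g • x)) = φ (mk x)
      congr 1
      apply Quotient.sound'
      show g • x ∈ MulAction.orbit (Subgroup.zpowers g) x
      exact ⟨⟨g, Subgroup.mem_zpowers g⟩, rfl⟩
    · intro hf
      refine ⟨Quotient.lift f ?_, ?_⟩
      · intro x y hxy
        obtain ⟨⟨h, hh⟩, rfl⟩ : x ∈ MulAction.orbit (Subgroup.zpowers g) y := hxy
        obtain ⟨k, rfl⟩ := Subgroup.mem_zpowers_iff.mp hh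
        exact fixSub_zpow hf k y
      · rfl
  rw [← hrange, LinearMap.finrank_range_of_inj hΦ, Module.finrank_fintype_fun_eq_card,
    Nat.card_eq_fintype_card]

/-- The image of `1 - T_g`. -/
noncomputable def movSub (g : G) : Submodule ℚ (X → ℚ) := LinearMap.range (LinearMap.id - opT g)

theorem finrank_movSub_add [Finite X] (g : G) :
    finrank ℚ (movSub (X := X) g) + finrank ℚ (fixSub (X := X) g) = Nat.card X := by
  classical
  have : Fintype X := Fintype.ofFinite X
  have h := LinearMap.finrank_range_add_finrank_ker (LinearMap.id - opT (X := X) g)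
  rw [Module.finrank_fintype_fun_eq_card] at h
  rw [Nat.card_eq_fintype_card]
  exact h

/-- single_sub: `δ_{g • y} - δ_y ∈ movSub g`. -/
theorem single_smul_sub_single_mem [DecidableEq X] (g : G) (y : X) :
    (Pi.single (g • y) (1 : ℚ) - Pi.single y 1 : X → ℚ) ∈ movSub g := by
  refine ⟨Pi.single (g • y) (1 : ℚ), ?_⟩
  rw [LinearMap.sub_apply, LinearMap.id_apply]
  congr 1
  funext x
  rw [opT_apply]
  by_cases h : x = y
  · subst h
    simp
  · rw [Pi.single_eq_of_ne h, Pi.single_eq_of_ne]
    intro h'
    exact h (smul_left_cancel g h')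

/-- If `a`, `b` generate `G` and `G` acts transitively on `X`, then the differences of the
basis vectors lie in `movSub a ⊔ movSub b`. -/
theorem single_sub_single_mem_sup [DecidableEq X] [IsPretransitive G X] (a b : G)
    (hgen : Subgroup.closure {a, b} = ⊤) (x y : X) :
    (Pi.single x (1 : ℚ) - Pi.single y 1 : X → ℚ) ∈ movSub (X := X) a ⊔ movSub b := by
  set W := movSub (X := X) a ⊔ movSub b with hW
  let H : Subgroup G :=
    { carrier := {g | ∀ y : X, (Pi.single (g • y) (1 : ℚ) - Pi.single y 1 : X → ℚ) ∈ W}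
      one_mem' := fun y => by simp
      mul_mem' := fun {g h} hg hh y => by
        have h1 := hg (h • y)
        have h2 := hh y
        have := W.add_mem h1 h2
        rw [mul_smul]
        convert this using 1
        abel
      inv_mem' := fun {g} hg y => by
        have h1 := hg (g⁻¹ • y)
        rw [smul_inv_smul] at h1
        have := W.neg_mem h1
        convert this using 1
        abel }
  have hH : H = ⊤ := by
    rw [eq_top_iff, ← hgen, Subgroup.closure_le]
    rintro g (rfl | rfl)
    · exact fun y => Submodule.mem_sup_left (single_smul_sub_single_mem g y)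
    · exact fun y => Submodule.mem_sup_right (single_smul_sub_single_mem g y)
  obtain ⟨g, rfl⟩ := exists_smul_eq G y x
  have : g ∈ H := hH ▸ Subgroup.mem_top g
  exact this y

theorem finrank_sup_movSub_ge [Finite X] [Nonempty X] [IsPretransitive G X] (a b : G)
    (hgen : Subgroup.closure {a, b} = ⊤) :
    Nat.card X ≤ finrank ℚ (movSub (X := X) a ⊔ movSub b : Submodule ℚ (X → ℚ)) + 1 := by
  classical
  have : Fintype X := Fintype.ofFinite X
  set W := movSub (X := X) a ⊔ movSub b with hW
  have hq : finrank ℚ ((X → ℚ) ⧸ W) ≤ 1 := by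
    obtain ⟨x₀⟩ := ‹Nonempty X›
    refine finrank_le_one (W.mkQ (Pi.single x₀ 1)) ?_
    intro w
    obtain ⟨f, rfl⟩ := W.mkQ_surjective w
    refine ⟨∑ x, f x, ?_⟩
    rw [← map_smul, eq_comm]
    rw [← sub_eq_zero, ← map_sub]
    show W.mkQ _ = 0
    rw [Submodule.mkQ_apply, Submodule.Quotient.mk_eq_zero]
    have hf : f = ∑ x, f x • (Pi.single x (1 : ℚ) : X → ℚ) := by
      funext y
      simp [Finset.sum_apply, Pi.single_apply]
    have : f - (∑ x, f x) • (Pi.single x₀ (1 : ℚ) : X → ℚ)
        = ∑ x, f x • ((Pi.single x (1 : ℚ) : X → ℚ) - Pi.single x₀ 1) := by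
      have h2 : ∑ x, f x • ((Pi.single x (1 : ℚ) : X → ℚ) - Pi.single x₀ 1)
          = ∑ x, f x • (Pi.single x (1 : ℚ) : X → ℚ) - (∑ x, f x) • (Pi.single x₀ (1 : ℚ) : X → ℚ) := by
        simp only [smul_sub, Finset.sum_sub_distrib, Finset.sum_smul]
      rw [h2, ← hf]
    rw [this]
    exact W.sum_mem fun x _ => W.smul_mem _ (single_sub_single_mem_sup a b hgen x x₀)
  have h := Submodule.finrank_quotient_add_finrank W
  rw [Module.finrank_fintype_fun_eq_card] at h
  rw [Nat.card_eq_fintype_card]
  omega

theorem finrank_fixSub_inf_le [Nonempty X] [IsPretransitive G X] (a b : G)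
    (hgen : Subgroup.closure {a, b} = ⊤) :
    finrank ℚ (fixSub (X := X) a ⊓ fixSub b : Submodule ℚ (X → ℚ)) ≤ 1 := by
  obtain ⟨x₀⟩ := ‹Nonempty X›
  have hone : (fun _ => 1 : X → ℚ) ∈ fixSub (X := X) a ⊓ fixSub b :=
    ⟨mem_fixSub.mpr fun _ => rfl, mem_fixSub.mpr fun _ => rfl⟩
  refine finrank_le_one (⟨fun _ => 1, hone⟩ : (fixSub (X := X) a ⊓ fixSub b : Submodule ℚ (X → ℚ))) ?_
  rintro ⟨f, hfa, hfb⟩
  rw [SetLike.mem_coe, mem_fixSub] at hfa hfb
  refine ⟨f x₀, Subtype.ext ?_⟩
  let H : Subgroup G :=
    { carrier := {g | ∀ x : X, f (g • x) = f x}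
      one_mem' := fun x => by simp
      mul_mem' := fun {g h} hg hh x => by
        rw [mul_smul, hg, hh]
      inv_mem' := fun {g} hg x => by
        have := hg (g⁻¹ • x)
        rw [smul_inv_smul] at this
        exact this.symm }
  have hH : H = ⊤ := by
    rw [eq_top_iff, ← hgen, Subgroup.closure_le]
    rintro g (rfl | rfl)
    · exact hfa
    · exact hfb
  funext y
  obtain ⟨g, rfl⟩ := exists_smul_eq G x₀ y
  have hg : g ∈ H := hH ▸ Subgroup.mem_top g
  show f x₀ • (1 : ℚ) = f (g • x₀)
  rw [hg x₀, smul_eq_mul, mul_one]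

/-- **Scott's lemma** for two generators of a transitive group. -/
theorem scott_inequality [Finite X] [Nonempty X] [IsPretransitive G X] (a b : G)
    (hgen : Subgroup.closure {a, b} = ⊤) :
    2 * Nat.card X ≤ finrank ℚ (movSub (X := X) a) + finrank ℚ (movSub (X := X) b)
      + finrank ℚ (movSub (X := X) (a * b)⁻¹) + 2 := by
  classical
  have : Fintype X := Fintype.ofFinite X
  set A : (X → ℚ) →ₗ[ℚ] (X → ℚ) := opT b with hA
  set B : (X → ℚ) →ₗ[ℚ] (X → ℚ) := opT a with hB
  set C : (X → ℚ) →ₗ[ℚ] (X → ℚ) := opT (a * b)⁻¹ with hC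
  have hAB : A ∘ₗ B = opT (a * b) := (opT_mul a b).symm
  have hABC : opT (X := X) (a * b) ∘ₗ C = LinearMap.id := by
    rw [hC, ← opT_mul, inv_mul_cancel, opT_one]
  let U₁ := movSub (X := X) b
  let U₂ := movSub (X := X) a
  let U₃ := movSub (X := X) (a * b)⁻¹
  let δ : (U₁ × U₂ × U₃) →ₗ[ℚ] (X → ℚ) :=
    U₁.subtype ∘ₗ LinearMap.fst ℚ U₁ (U₂ × U₃)
      + (A ∘ₗ U₂.subtype) ∘ₗ LinearMap.fst ℚ U₂ U₃ ∘ₗ LinearMap.snd ℚ U₁ (U₂ × U₃)
      + (opT (a * b) ∘ₗ U₃.subtype) ∘ₗ LinearMap.snd ℚ U₂ U₃ ∘ₗ LinearMap.snd ℚ U₁ (U₂ × U₃)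
  let β : (X → ℚ) →ₗ[ℚ] (U₁ × U₂ × U₃) :=
    (LinearMap.id - A).rangeRestrict.prod
      ((LinearMap.id - B).rangeRestrict.prod (LinearMap.id - C).rangeRestrict)
  have hδβ : δ ∘ₗ β = 0 := by
    apply LinearMap.ext
    intro v
    show (v - A v) + A (v - B v) + opT (a * b) (v - C v) = 0
    have h1 : A (B v) = opT (a * b) v := by rw [← hAB]; rfl
    have h2 : opT (a * b) (C v) = v := by
      have := congrArg (fun L => L v) hABC
      exact this
    rw [map_sub, map_sub, h1, h2]
    abel
  have hker : LinearMap.ker β ≤ fixSub (X := X) a ⊓ fixSub b := by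
    intro v hv
    rw [LinearMap.mem_ker] at hv
    have h1 : ((LinearMap.id : (X → ℚ) →ₗ[ℚ] (X → ℚ)) - A) v = 0 := congrArg (fun p : U₁ × U₂ × U₃ => (p.1 : X → ℚ)) hv
    have h2 : ((LinearMap.id : (X → ℚ) →ₗ[ℚ] (X → ℚ)) - B) v = 0 := congrArg (fun p : U₁ × U₂ × U₃ => (p.2.1 : X → ℚ)) hv
    exact ⟨LinearMap.mem_ker.mpr h2, LinearMap.mem_ker.mpr h1⟩
  have hkerβ : finrank ℚ (LinearMap.ker β) ≤ 1 :=
    (Submodule.finrank_mono hker).trans (finrank_fixSub_inf_le a b hgen)
  have hrangeβ : Nat.card X ≤ finrank ℚ (LinearMap.range β) + 1 := by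
    have h := LinearMap.finrank_range_add_finrank_ker β
    rw [Module.finrank_fintype_fun_eq_card] at h
    rw [Nat.card_eq_fintype_card]
    omega
  have hβδ : LinearMap.range β ≤ LinearMap.ker δ := by
    rintro _ ⟨v, rfl⟩
    rw [LinearMap.mem_ker]
    exact congrArg (fun L => L v) hδβ
  have hsup : movSub (X := X) a ⊔ movSub b ≤ LinearMap.range δ := by
    rw [sup_le_iff]
    constructor
    · intro w hw
      have hw' : w - A w ∈ U₁ := ⟨w, rfl⟩
      refine ⟨(⟨w - A w, hw'⟩, ⟨w, hw⟩, 0), ?_⟩
      show (w - A w) + A w + opT (a * b) 0 = w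
      rw [map_zero]
      abel
    · intro w hw
      refine ⟨(⟨w, hw⟩, 0, 0), ?_⟩
      show w + A 0 + opT (a * b) 0 = w
      rw [map_zero, map_zero]
      abel
  have hrangeδ : Nat.card X ≤ finrank ℚ (LinearMap.range δ) + 1 :=
    (finrank_sup_movSub_ge a b hgen).trans (Nat.add_le_add_right (Submodule.finrank_mono hsup) 1)
  have hdim := LinearMap.finrank_range_add_finrank_ker δ
  have hprod : finrank ℚ (U₁ × U₂ × U₃) = finrank ℚ U₁ + (finrank ℚ U₂ + finrank ℚ U₃) := by
    rw [Module.finrank_prod, Module.finrank_prod]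
  have hkerδ : finrank ℚ (LinearMap.range β) ≤ finrank ℚ (LinearMap.ker δ) :=
    Submodule.finrank_mono hβδ
  show 2 * Nat.card X ≤ finrank ℚ U₂ + finrank ℚ U₁ + finrank ℚ U₃ + 2
  omega

end Scott

section Parity

variable {X : Type*} [Fintype X] [DecidableEq X]

open Equiv.Perm in
/-- The number of cycles (including fixed points) of a permutation, in terms of `cycleType`. -/
theorem card_sameCycle_quotient_add (σ : Equiv.Perm X) :
    Nat.card (Quotient (SameCycle.setoid σ)) + σ.support.card
      = Fintype.card X + Multiset.card σ.cycleType := by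
  classical
  let F : X → Equiv.Perm X ⊕ X := fun x => if σ x = x then Sum.inr x else Sum.inl (σ.cycleOf x)
  have hF : ∀ x y, F x = F y ↔ σ.SameCycle x y := by
    intro x y
    by_cases hx : σ x = x <;> by_cases hy : σ y = y
    · simp only [F, hx, hy, if_true, Sum.inr.injEq]
      constructor
      · rintro rfl; exact SameCycle.refl _ _
      · intro h; exact h.eq_of_left hx
    · simp only [F, hx, hy, if_true, if_false, reduceCtorEq, false_iff]
      intro h
      exact hy (h.apply_eq_self_iff.mp hx)
    · simp only [F, hx, hy, if_true, if_false, reduceCtorEq, false_iff]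
      intro h
      exact hx (h.apply_eq_self_iff.mpr hy)
    · simp only [F, hx, hy, if_false, Sum.inl.injEq]
      exact (sameCycle_iff_cycleOf_eq_of_mem_support (mem_support.mpr hx) (mem_support.mpr hy)).symm
  -- the quotient is in bijection with the image of `F`
  let Fq : Quotient (SameCycle.setoid σ) → Equiv.Perm X ⊕ X :=
    Quotient.lift F (fun x y h => (hF x y).mpr h)
  have hFq : Function.Injective Fq := by
    intro q₁ q₂
    induction q₁ using Quotient.inductionOn with | _ x => ?_
    induction q₂ using Quotient.inductionOn with | _ y => ?_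
    intro h
    exact Quotient.sound ((hF x y).mp h)
  have himage : Finset.univ.image Fq
      = σ.cycleFactorsFinset.image Sum.inl ∪ (Finset.univ.filter fun x => σ x = x).image Sum.inr := by
    ext z
    simp only [Finset.mem_image, Finset.mem_univ, true_and, Finset.mem_union, Finset.mem_filter]
    constructor
    · rintro ⟨q, rfl⟩
      induction q using Quotient.inductionOn with | _ x => ?_
      have hFx : Fq (Quotient.mk _ x) = F x := rfl
      rw [hFx]
      by_cases hx : σ x = x
      · right
        exact ⟨x, hx, by simp [F, hx]⟩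
      · left
        exact ⟨σ.cycleOf x, cycleOf_mem_cycleFactorsFinset_iff.mpr (mem_support.mpr hx),
          by simp [F, hx]⟩
    · rintro (⟨c, hc, rfl⟩ | ⟨x, hx, rfl⟩)
      · have hc' := mem_cycleFactorsFinset_iff.mp hc
        obtain ⟨a, ha⟩ : ∃ a, a ∈ c.support := by
          have := hc'.1.ne_one
          rw [Ne, ← Equiv.Perm.support_eq_empty_iff] at this
          exact Finset.nonempty_iff_ne_empty.mpr this
        have hσa : σ a ≠ a := by
          rw [← hc'.2 a ha]
          exact mem_support.mp ha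
        refine ⟨Quotient.mk _ a, ?_⟩
        show F a = _
        simp only [F, hσa, if_false]
        rw [cycle_is_cycleOf ha hc]
      · refine ⟨Quotient.mk _ x, ?_⟩
        show F x = _
        simp [F, hx]
  have hcard : Fintype.card (Quotient (SameCycle.setoid σ))
      = σ.cycleFactorsFinset.card + (Finset.univ.filter fun x => σ x = x).card := by
    rw [← Finset.card_univ, ← Finset.card_image_of_injective _ hFq, himage,
      Finset.card_union_of_disjoint, Finset.card_image_of_injective _ Sum.inl_injective,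
      Finset.card_image_of_injective _ Sum.inr_injective]
    rw [Finset.disjoint_left]
    intro z hz hz'
    simp only [Finset.mem_image] at hz hz'
    obtain ⟨c, -, rfl⟩ := hz
    obtain ⟨x, -, h⟩ := hz'
    exact Sum.inr_ne_inl h
  have hfix : (Finset.univ.filter fun x => σ x = x).card + σ.support.card = Fintype.card X := by
    have : (Finset.univ.filter fun x => σ x = x) = σ.supportᶜ := by
      ext x
      simp [mem_support]
    rw [this, Finset.card_compl]
    have := Finset.card_le_univ σ.support
    omega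
  have hct : Multiset.card σ.cycleType = σ.cycleFactorsFinset.card := by
    rw [cycleType_def, Multiset.card_map]
    rfl
  rw [Nat.card_eq_fintype_card, hcard, hct]
  omega

open Equiv.Perm in
theorem sign_eq_neg_one_pow_card_add (σ : Equiv.Perm X) :
    Equiv.Perm.sign σ
      = (-1 : ℤˣ) ^ (Fintype.card X + Nat.card (Quotient (SameCycle.setoid σ))) := by
  have h := card_sameCycle_quotient_add σ
  rw [sign_of_cycleType, sum_cycleType]
  have hev : Even ((σ.support.card + Multiset.card σ.cycleType)
      + (Fintype.card X + Nat.card (Quotient (SameCycle.setoid σ)))) := by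
    refine ⟨Fintype.card X + Multiset.card σ.cycleType, ?_⟩
    omega
  have h1 : (-1 : ℤˣ) ^ (σ.support.card + Multiset.card σ.cycleType)
      * (-1 : ℤˣ) ^ (Fintype.card X + Nat.card (Quotient (SameCycle.setoid σ))) = 1 := by
    rw [← pow_add]
    exact hev.neg_one_pow
  have h2 : (-1 : ℤˣ) ^ (Fintype.card X + Nat.card (Quotient (SameCycle.setoid σ)))
      * (-1 : ℤˣ) ^ (Fintype.card X + Nat.card (Quotient (SameCycle.setoid σ))) = 1 := by
    rw [← pow_add]
    exact (Even.add_self _).neg_one_pow
  exact mul_right_cancel (h1.trans h2.symm)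

end Parity

section Action

variable {G X : Type*} [Group G] [MulAction G X]

theorem card_orbitRel_zpowers_eq (g : G) :
    Nat.card (orbitRel.Quotient (Subgroup.zpowers g) X)
      = Nat.card (Quotient (Equiv.Perm.SameCycle.setoid (MulAction.toPerm g : Equiv.Perm X))) := by
  have hpow : ∀ i : ℤ, ((MulAction.toPerm g : Equiv.Perm X) ^ i) = MulAction.toPerm (g ^ i) :=
    fun i => (map_zpow (MulAction.toPermHom G X) g i).symm
  refine Nat.card_congr (Quotient.congr (Equiv.refl X) ?_)
  intro x y
  show x ∈ MulAction.orbit (Subgroup.zpowers g) y ↔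
    Equiv.Perm.SameCycle (MulAction.toPerm g : Equiv.Perm X) x y
  rw [Equiv.Perm.sameCycle_comm]
  constructor
  · rintro ⟨⟨h, hh⟩, rfl⟩
    obtain ⟨k, rfl⟩ := Subgroup.mem_zpowers_iff.mp hh
    exact ⟨k, by rw [hpow]; rfl⟩
  · rintro ⟨k, rfl⟩
    refine ⟨⟨g ^ k, Subgroup.zpow_mem_zpowers g k⟩, ?_⟩
    rw [hpow]
    rfl

theorem sign_toPerm_eq [Fintype X] [DecidableEq X] (g : G) :
    Equiv.Perm.sign (MulAction.toPerm g : Equiv.Perm X)
      = (-1 : ℤˣ) ^ (Nat.card X + Nat.card (orbitRel.Quotient (Subgroup.zpowers g) X)) := by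
  rw [sign_eq_neg_one_pow_card_add, card_orbitRel_zpowers_eq, Nat.card_eq_fintype_card (α := X)]

theorem even_card_add_orbits [Finite X] (a b : G) :
    Even (Nat.card X + Nat.card (orbitRel.Quotient (Subgroup.zpowers a) X)
      + Nat.card (orbitRel.Quotient (Subgroup.zpowers b) X)
      + Nat.card (orbitRel.Quotient (Subgroup.zpowers (a * b)) X)) := by
  classical
  have : Fintype X := Fintype.ofFinite X
  have hmul : (MulAction.toPerm (a * b) : Equiv.Perm X) = MulAction.toPerm a * MulAction.toPerm b :=
    map_mul (MulAction.toPermHom G X) a b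
  have hs := congrArg Equiv.Perm.sign hmul
  rw [map_mul, sign_toPerm_eq, sign_toPerm_eq, sign_toPerm_eq, ← pow_add] at hs
  set n := Nat.card X
  set oa := Nat.card (orbitRel.Quotient (Subgroup.zpowers a) X)
  set ob := Nat.card (orbitRel.Quotient (Subgroup.zpowers b) X)
  set oab := Nat.card (orbitRel.Quotient (Subgroup.zpowers (a * b)) X)
  have h1 : (-1 : ℤˣ) ^ ((n + oab) + (n + oa + (n + ob))) = 1 := by
    rw [pow_add, hs, ← pow_add]
    exact (Even.add_self _).neg_one_pow
  have hne : (-1 : ℤˣ) ≠ 1 := by decide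
  have h2 := (neg_one_pow_eq_one_iff_even hne).mp h1
  have h3 : (n + oab) + (n + oa + (n + ob)) = (n + oa + ob + oab) + 2 * n := by ring
  rw [h3] at h2
  exact (Nat.even_add.mp h2).mpr (even_two_mul n)


/-- (G1) Ree / Scott inequality with parity, for two generators of a group acting transitively
on a finite nonempty set: `|X| + 2 - (#orbits of a) - (#orbits of b) - (#orbits of ab)` is a
nonnegative even integer. -/
theorem exists_genus_of_two_generators [Finite X] [Nonempty X] [IsPretransitive G X] (a b : G)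
    (hgen : Subgroup.closure {a, b} = ⊤) :
    ∃ g : ℕ, (Nat.card X : ℤ) + 2 =
      2 * (g : ℤ) + Nat.card (orbitRel.Quotient (Subgroup.zpowers a) X)
        + Nat.card (orbitRel.Quotient (Subgroup.zpowers b) X)
        + Nat.card (orbitRel.Quotient (Subgroup.zpowers (a * b)) X) := by
  have hS := scott_inequality (X := X) a b hgen
  have ha := finrank_movSub_add (X := X) a
  have hb := finrank_movSub_add (X := X) b
  have hab := finrank_movSub_add (X := X) (a * b)⁻¹
  rw [finrank_fixSub] at ha hb hab
  have hinv : Nat.card (orbitRel.Quotient (Subgroup.zpowers (a * b)⁻¹) X)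
      = Nat.card (orbitRel.Quotient (Subgroup.zpowers (a * b)) X) := by
    rw [Subgroup.zpowers_inv]
  rw [hinv] at hab
  obtain ⟨k, hk⟩ := even_card_add_orbits (X := X) a b
  set n := Nat.card X
  set oa := Nat.card (orbitRel.Quotient (Subgroup.zpowers a) X)
  set ob := Nat.card (orbitRel.Quotient (Subgroup.zpowers b) X)
  set oab := Nat.card (orbitRel.Quotient (Subgroup.zpowers (a * b)) X)
  have hle : oa + ob + oab ≤ n + 2 := by omega
  refine ⟨n + 1 - k, ?_⟩
  have hk' : k ≤ n + 1 := by omega
  push_cast [Nat.cast_sub hk']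
  have hkz : ((n : ℤ) + oa + ob + oab) = k + k := by exact_mod_cast hk
  linarith

open scoped MatrixGroups in
/-- (G2) Specialisation to `SL(2, ℤ)` acting transitively on a finite set. -/
theorem exists_genus_SL2Z {X : Type*} [MulAction SL(2, ℤ) X] [Finite X]
    [Nonempty X] [MulAction.IsPretransitive SL(2, ℤ) X] :
    ∃ g : ℕ, (Nat.card X : ℤ) + 2 =
      2 * (g : ℤ) + Nat.card (orbitRel.Quotient (Subgroup.zpowers ModularGroup.S) X)
        + Nat.card (orbitRel.Quotient (Subgroup.zpowers ModularGroup.T) X)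
        + Nat.card (orbitRel.Quotient (Subgroup.zpowers (ModularGroup.S * ModularGroup.T)) X) :=
  exists_genus_of_two_generators ModularGroup.S ModularGroup.T
    SpecialLinearGroup.SL2Z_generators

open scoped MatrixGroups in
/-- (G2') The coset space `SL(2, ℤ) ⧸ Γ₀(N)`. -/
theorem exists_genus_Gamma0 (N : ℕ) [NeZero N] :
    ∃ g : ℕ, ((CongruenceSubgroup.Gamma0 N).index : ℤ) + 2 =
      2 * (g : ℤ)
        + Nat.card (orbitRel.Quotient (Subgroup.zpowers ModularGroup.S)
            (SL(2, ℤ) ⧸ CongruenceSubgroup.Gamma0 N))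
        + Nat.card (orbitRel.Quotient (Subgroup.zpowers ModularGroup.T)
            (SL(2, ℤ) ⧸ CongruenceSubgroup.Gamma0 N))
        + Nat.card (orbitRel.Quotient (Subgroup.zpowers (ModularGroup.S * ModularGroup.T))
            (SL(2, ℤ) ⧸ CongruenceSubgroup.Gamma0 N)) := by
  have : Finite (SL(2, ℤ) ⧸ CongruenceSubgroup.Gamma0 N) :=
    Subgroup.finite_quotient_of_finiteIndex
  exact exists_genus_SL2Z (X := SL(2, ℤ) ⧸ CongruenceSubgroup.Gamma0 N)

end Action

/-- (G3) Numerical glue: given the orbit counts in the shape of Module F, `genusFormula N` is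
the natural number `g` produced by (G1)/(G2). -/
theorem exists_nat_eq_genusFormula (N : ℕ) (rS rST rT g : ℕ)
    (hS : 2 * rS = ModularCurve.dedekindPsi N + ModularCurve.nuTwo N)
    (hST : 3 * rST = ModularCurve.dedekindPsi N + 2 * ModularCurve.nuThree N)
    (hT : rT = ModularCurve.cuspCount N)
    (hg : (ModularCurve.dedekindPsi N : ℤ) + 2 = 2 * (g : ℤ) + rS + rT + rST) :
    ModularCurve.genusFormula N = (g : ℚ) := by
  have hS' : (2 : ℚ) * rS = ModularCurve.dedekindPsi N + ModularCurve.nuTwo N := by
    exact_mod_cast hS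
  have hST' : (3 : ℚ) * rST = ModularCurve.dedekindPsi N + 2 * ModularCurve.nuThree N := by
    exact_mod_cast hST
  have hT' : (rT : ℚ) = ModularCurve.cuspCount N := by exact_mod_cast hT
  have hg' : (ModularCurve.dedekindPsi N : ℚ) + 2 = 2 * (g : ℚ) + rS + rT + rST := by
    exact_mod_cast hg
  unfold ModularCurve.genusFormula
  linarith

end Fermat.Agent.S24.helper84
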