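import Fermat.Agent.S24.helper24_Spec
import Fermat.Agent.S24.helper84_ReeGenus
import Fermat.Agent.S20.helper2600_Counts
import Fermat.Agent.S24.helper227_CuspCount

/-!
# S24 (COMB): `Stmt_OrbitsS` and `Stmt_OrbitsST` from `Stmt_Index`

Hypothesis-passing against the captain's spec file `helper24_Spec`.

* `prime_mul_card_orbits`: if `g ^ p` acts trivially on a finite set `X` (`p` prime), then
  `p * #orbits⟨g⟩ = |X| + (p - 1) * #Fix(g)`.
* `stmt_OrbitsT : Stmt_OrbitsT` (unconditional wrapper of `helper227.card_orbits_T`).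
* `stmt_INT_of_index (hI : Stmt_Index) : Stmt_INT` (so the COMB column only needs `Stmt_Index`).
* `stmt_OrbitsS (hI : Stmt_Index) : Stmt_OrbitsS`, `stmt_OrbitsST (hI : Stmt_Index) : Stmt_OrbitsST`
  using the fixed point counts `card_fixedBy_S`, `card_fixedBy_ST` of `S20/helper2600_Counts`.
-/

set_option autoImplicit false

open ModularCurve CongruenceSubgroup
open scoped MatrixGroups

namespace Fermat.Agent.S24.helper11

open MulAction Fermat.Agent.S24.helper24

section Generic

variable {G X : Type*} [Group G] [MulAction G X]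

/-- If `g ^ p` acts trivially on the finite set `X` (`p` prime), then the number `r` of orbits of
`⟨g⟩` satisfies `p * r = |X| + (p - 1) * #Fix(g)`. -/
theorem prime_mul_card_orbits [Finite X] (g : G) (p : ℕ) (hp : p.Prime)
    (hg : ∀ x : X, g ^ p • x = x) :
    p * Nat.card (orbitRel.Quotient (Subgroup.zpowers g) X)
      = Nat.card X + (p - 1) * Nat.card (fixedBy X g) := by
  classical
  have : Fintype X := Fintype.ofFinite X
  set σ : Equiv.Perm X := MulAction.toPerm g with hσ
  have hσp : σ ^ p = 1 := by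
    ext x
    have h : σ ^ p = MulAction.toPerm (g ^ p) :=
      (map_pow (MulAction.toPermHom G X) g p).symm
    rw [h, MulAction.toPerm_apply, hg x]
    rfl
  -- all cycle lengths are equal to `p`
  have hcyc : ∀ n ∈ σ.cycleType, n = p := by
    intro n hn
    have h1 : n ∣ orderOf σ := Equiv.Perm.dvd_of_mem_cycleType hn
    have h2 : orderOf σ ∣ p := orderOf_dvd_of_pow_eq_one hσp
    have h3 : 2 ≤ n := Equiv.Perm.two_le_of_mem_cycleType hn
    rcases (Nat.dvd_prime hp).mp (h1.trans h2) with h | h
    · omega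
    · exact h
  have hsupp : σ.support.card = Multiset.card σ.cycleType * p := by
    rw [← Equiv.Perm.sum_cycleType, Multiset.eq_replicate_card.mpr hcyc, Multiset.sum_replicate,
      smul_eq_mul, Multiset.card_replicate]
  have horb := helper84.card_sameCycle_quotient_add σ
  rw [← helper84.card_orbitRel_zpowers_eq g] at horb
  -- fixed points
  have hfix : Nat.card (fixedBy X g) + σ.support.card = Fintype.card X := by
    have h1 : Nat.card (fixedBy X g) = (Finset.univ.filter (fun x : X => σ x = x)).card := by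
      rw [Nat.card_eq_fintype_card, ← Fintype.card_subtype]
      rfl
    have h2 : σ.support = Finset.univ.filter (fun x : X => ¬ σ x = x) := by
      ext x
      simp
    rw [h1, h2, Finset.card_filter_add_card_filter_not, Finset.card_univ]
  rw [Nat.card_eq_fintype_card (α := X)]
  obtain ⟨q, rfl⟩ : ∃ q, p = q + 1 := ⟨p - 1, by have := hp.two_le; omega⟩
  set o := Nat.card (orbitRel.Quotient (Subgroup.zpowers g) X)
  set f := Nat.card (fixedBy X g)
  set c := Multiset.card σ.cycleType
  have ho : o = f + c := by omega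
  rw [ho, ← hfix, hsupp]
  simp only [Nat.add_sub_cancel]
  ring

end Generic

section SL2

theorem S_pow_two : (ModularGroup.S ^ 2 : SL(2, ℤ)) = -1 := by
  rw [pow_two]
  ext i j
  fin_cases i <;> fin_cases j <;> simp [ModularGroup.S, Matrix.mul_apply, Fin.sum_univ_two]

theorem ST_pow_three : ((ModularGroup.S * ModularGroup.T) ^ 3 : SL(2, ℤ)) = -1 := by
  rw [pow_succ, pow_two]
  ext i j
  fin_cases i <;> fin_cases j <;>
    simp [ModularGroup.S, ModularGroup.T, Matrix.mul_apply, Fin.sum_univ_two]

/-- `-1` acts trivially on `SL(2, ℤ) ⧸ Γ₀(N)`. -/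
theorem neg_one_smul_XN (N : ℕ) (x : XN N) : (-1 : SL(2, ℤ)) • x = x := by
  obtain ⟨h, rfl⟩ := QuotientGroup.mk_surjective x
  rw [MulAction.Quotient.smul_mk, smul_eq_mul, Fermat.Agent.S20.helper2600.mk_eq_mk_iff]
  have : ((-1 : SL(2, ℤ)) * h) 0 0 * h 1 0 - ((-1 : SL(2, ℤ)) * h) 1 0 * h 0 0 = 0 := by
    simp
    ring
  rw [this]
  simp

end SL2

/-- C3 of the spec, from the index: `2 * #orbits⟨S⟩ = ψ(N) + ν₂(N)`. -/
theorem stmt_OrbitsS (hI : Stmt_Index) : Stmt_OrbitsS := by
  intro N _
  have : Finite (XN N) := Subgroup.finite_quotient_of_finiteIndex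
  have h := prime_mul_card_orbits (X := XN N) ModularGroup.S 2 Nat.prime_two
    (fun x => by rw [S_pow_two]; exact neg_one_smul_XN N x)
  rw [Fermat.Agent.S20.helper2600.card_fixedBy_S, hI N, show (2 - 1 : ℕ) = 1 from rfl, one_mul] at h
  exact h

/-- C4 of the spec, from the index: `3 * #orbits⟨ST⟩ = ψ(N) + 2 * ν₃(N)`. -/
theorem stmt_OrbitsST (hI : Stmt_Index) : Stmt_OrbitsST := by
  intro N _
  have : Finite (XN N) := Subgroup.finite_quotient_of_finiteIndex
  have h := prime_mul_card_orbits (X := XN N) (ModularGroup.S * ModularGroup.T) 3 Nat.prime_three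
    (fun x => by rw [ST_pow_three]; exact neg_one_smul_XN N x)
  rw [Fermat.Agent.S20.helper2600.card_fixedBy_ST, hI N, show (3 - 1 : ℕ) = 2 from rfl] at h
  exact h

/-- C2 of the spec (unconditional): wrapper of `helper227.card_orbits_T`. -/
theorem stmt_OrbitsT : Stmt_OrbitsT := by
  intro N _
  exact helper227.card_orbits_T (N := N)

/-- The genus formula is a natural number, given only the index statement. -/
theorem stmt_INT_of_index (hI : Stmt_Index) : Stmt_INT := by
  intro N _
  have : Finite (XN N) := Subgroup.finite_quotient_of_finiteIndex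
  obtain ⟨g, hg⟩ := helper84.exists_genus_SL2Z (X := XN N)
  refine ⟨g, (helper84.exists_nat_eq_genusFormula N _ _ _ g (stmt_OrbitsS hI N)
    (stmt_OrbitsST hI N) (stmt_OrbitsT N) ?_).symm⟩
  rw [← hI N]
  exact hg

end Fermat.Agent.S24.helper11
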