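import Fermat.Agent.S24.helper24_Spec

/-!
# S24 assembly: `Stmt_Places` (board row 153, helper1217)

`Stmt_LOC + Stmt_FundId + Stmt_JTranscendental + Stmt_JFinrank + local data + orbit counts
  → Stmt_Places`.

Main results:
* `card_zeros_of_localDatum`: a `LocalDatum N y m g` together with `Stmt_LOC` gives
  `#{v | 0 < v.ord y} = #(zpowers g)-orbits on XN N` as soon as `ℚ̄(y) = ℚ̄(j)`.
* `places_of`: the assembly in the captain's shape.
-/

set_option autoImplicit false

open ModularCurve AlgebraicCurve IntermediateField CongruenceSubgroup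
open scoped MatrixGroups

namespace Fermat.Agent.S24.helper1217

open Fermat.Agent.S24.helper24

/-! ### Orbit bookkeeping -/

section Orbits

variable {G X : Type*} [Group G] [MulAction G X]

/-- The orbits of the permutation `toPerm g` are the orbits of `g`. -/
theorem card_orbits_toPerm (g : G) :
    Nat.card (MulAction.orbitRel.Quotient
        (Subgroup.zpowers (MulAction.toPerm g : Equiv.Perm X)) X)
      = Nat.card (MulAction.orbitRel.Quotient (Subgroup.zpowers g) X) := by
  have hpow : ∀ i : ℤ, ((MulAction.toPerm g : Equiv.Perm X) ^ i) = MulAction.toPerm (g ^ i) :=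
    fun i => (map_zpow (MulAction.toPermHom G X) g i).symm
  refine Nat.card_congr (Quotient.congr (Equiv.refl X) ?_)
  intro x y
  show x ∈ MulAction.orbit (Subgroup.zpowers (MulAction.toPerm g : Equiv.Perm X)) y ↔
    x ∈ MulAction.orbit (Subgroup.zpowers g) y
  constructor
  · rintro ⟨⟨h, hh⟩, rfl⟩
    obtain ⟨k, rfl⟩ := Subgroup.mem_zpowers_iff.mp hh
    refine ⟨⟨g ^ k, Subgroup.zpow_mem_zpowers g k⟩, ?_⟩
    show g ^ k • y = ((MulAction.toPerm g : Equiv.Perm X) ^ k) y
    rw [hpow]
    rfl
  · rintro ⟨⟨h, hh⟩, rfl⟩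
    obtain ⟨k, rfl⟩ := Subgroup.mem_zpowers_iff.mp hh
    refine ⟨⟨(MulAction.toPerm g : Equiv.Perm X) ^ k, Subgroup.zpow_mem_zpowers _ k⟩, ?_⟩
    show ((MulAction.toPerm g : Equiv.Perm X) ^ k) y = g ^ k • y
    rw [hpow]
    rfl

theorem card_orbits_congr {H₁ H₂ : Subgroup G} (h : H₁ = H₂) :
    Nat.card (MulAction.orbitRel.Quotient H₁ X) = Nat.card (MulAction.orbitRel.Quotient H₂ X) := by
  subst h
  rfl

/-- The orbits of `g⁻¹` are the orbits of `g`. -/
theorem card_orbits_inv (g : G) :
    Nat.card (MulAction.orbitRel.Quotient (Subgroup.zpowers g⁻¹) X)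
      = Nat.card (MulAction.orbitRel.Quotient (Subgroup.zpowers g) X) :=
  card_orbits_congr Subgroup.zpowers_inv

/-- The orbits of the identity are the points. -/
theorem card_orbits_one :
    Nat.card (MulAction.orbitRel.Quotient (Subgroup.zpowers (1 : G)) X) = Nat.card X := by
  refine (Nat.card_congr (Equiv.ofBijective
    (fun x : X => (Quotient.mk'' x : MulAction.orbitRel.Quotient (Subgroup.zpowers (1 : G)) X))
    ⟨?_, ?_⟩)).symm
  · intro x y hxy
    have h := Quotient.exact' hxy
    obtain ⟨⟨h', hh⟩, rfl⟩ := h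
    obtain ⟨k, rfl⟩ := Subgroup.mem_zpowers_iff.mp hh
    show ((1 : G) ^ k) • y = y
    rw [one_zpow, one_smul]
  · intro q
    induction q using Quotient.inductionOn' with
    | h x => exact ⟨x, rfl⟩

end Orbits

/-! ### Field bookkeeping -/

section Fields

variable {K F : Type*} [Field K] [Field F] [Algebra K F]

theorem adjoin_sub_algebraMap (x : F) (c : K) : K⟮x - algebraMap K F c⟯ = K⟮x⟯ := by
  apply le_antisymm
  · rw [adjoin_simple_le_iff]
    exact sub_mem (mem_adjoin_simple_self K x) (IntermediateField.algebraMap_mem _ c)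
  · rw [adjoin_simple_le_iff]
    have h : (x - algebraMap K F c) + algebraMap K F c ∈ K⟮x - algebraMap K F c⟯ :=
      add_mem (mem_adjoin_simple_self K _) (IntermediateField.algebraMap_mem _ c)
    rwa [sub_add_cancel] at h

theorem adjoin_inv_eq (x : F) : K⟮x⁻¹⟯ = K⟮x⟯ := by
  apply le_antisymm
  · rw [adjoin_simple_le_iff]
    exact inv_mem (mem_adjoin_simple_self K x)
  · rw [adjoin_simple_le_iff]
    have h := inv_mem (mem_adjoin_simple_self K x⁻¹)
    rwa [inv_inv] at h

theorem transcendental_sub_algebraMap {x : F} (hx : Transcendental K x) (c : K) :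
    Transcendental K (x - algebraMap K F c) := by
  intro h
  apply hx
  have h2 := h.add (isAlgebraic_algebraMap (R := K) (A := F) c)
  rwa [sub_add_cancel] at h2

theorem transcendental_inv' {x : F} (hx : Transcendental K x) : Transcendental K x⁻¹ := by
  intro h
  exact hx (IsAlgebraic.inv_iff.mp h)

theorem finrank_transport {E₁ E₂ : IntermediateField K F} (h : E₁ = E₂) {n : ℕ}
    (h2 : FiniteDimensional E₂ F ∧ Module.finrank E₂ F = n) :
    FiniteDimensional E₁ F ∧ Module.finrank E₁ F = n := by
  subst h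
  exact h2

end Fields

/-! ### Places -/

section Places

variable {K F : Type} [Field K] [Field F] [Algebra K F]

/-- If the zeros of `y` form the finset `s`, the subtype of zeros has `s.card` elements. -/
theorem card_zeros_eq_card {y : F} {s : Finset (Place K F)}
    (hs : ∀ v : Place K F, v ∈ s ↔ 0 < v.ord y) :
    Nat.card {v : Place K F // 0 < v.ord y} = s.card := by
  rw [← Nat.card_eq_finsetCard s]
  exact Nat.card_congr (Equiv.subtypeEquivRight (fun v => (hs v).symm))

/-- If the number of zeros of `y` equals the sum of their orders, all zeros are simple. -/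
theorem ord_eq_one_of_card_eq_sum {y : F} {s : Finset (Place K F)}
    (hs : ∀ v : Place K F, v ∈ s ↔ 0 < v.ord y)
    (hsum : ∑ v ∈ s, v.ord y = (s.card : ℤ)) (v : Place K F) (hv : 0 < v.ord y) :
    v.ord y = 1 := by
  have h0 : ∑ w ∈ s, (w.ord y - 1) = 0 := by
    rw [Finset.sum_sub_distrib, hsum]
    simp
  have h1 := (Finset.sum_eq_zero_iff_of_nonneg (fun w hw => by
    have := (hs w).mp hw
    omega)).mp h0 v ((hs v).mpr hv)
  omega

end Places

/-! ### The core: local datum ⟹ number of zeros = number of orbits -/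

/-- `Stmt_LOC` applied to a `LocalDatum`. -/
theorem card_zeros_of_localDatum (hLOC : Stmt_LOC) (N : ℕ) (y : FN N) (m : ℕ) (g : SL(2, ℤ))
    (hy : Transcendental Kbar y)
    (hF : FiniteDimensional Kbar⟮y⟯ (FN N) ∧ Module.finrank Kbar⟮y⟯ (FN N) = Nat.card (XN N))
    (hD : LocalDatum N y m g) :
    Nat.card {v : Place Kbar (FN N) // 0 < v.ord y}
      = Nat.card (MulAction.orbitRel.Quotient (Subgroup.zpowers g) (XN N)) := by
  classical
  obtain ⟨hfd, hfr⟩ := hF
  obtain ⟨Ω, instF, instA, w, ι, σ, ξ, hw, hinj, hξ, hm, hwξ, hσw, hσ, hdiv⟩ := hD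
  have hpos : 0 < Module.finrank Kbar⟮y⟯ (FN N) := Module.finrank_pos
  have hfin : Finite (XN N) := Nat.finite_of_card_ne_zero (by omega)
  let _ : Fintype (XN N) := Fintype.ofFinite _
  have hc : Fintype.card (XN N) = Module.finrank Kbar⟮y⟯ (FN N) := by
    rw [hfr, Nat.card_eq_fintype_card]
  rcases hσ with hσ | hσ
  · have h := hLOC Kbar (FN N) Ω y hy w hw (XN N) hc ι hinj ξ hξ m hm hwξ σ hσw
      (MulAction.toPerm g) (fun i f => hσ i f) hdiv
    exact h.trans (card_orbits_toPerm g)
  · have h := hLOC Kbar (FN N) Ω y hy w hw (XN N) hc ι hinj ξ hξ m hm hwξ σ hσw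
      (MulAction.toPerm g⁻¹) (fun i f => hσ i f) hdiv
    exact h.trans ((card_orbits_toPerm g⁻¹).trans (card_orbits_inv g))

/-! ### Assembly -/

/-- Board row 153 (AS-PLACES): the numbers of places over `j = c`, `j = 1728`, `j = 0`,
`j = ∞`. (`Stmt_Index` is not needed; it is kept in the signature for the captain's shape.) -/
theorem places_of (hLOC : Stmt_LOC) (hFund : Stmt_FundId) (hT : Stmt_JTranscendental)
    (hF : Stmt_JFinrank) (hG : Stmt_LocalGeneric) (h1728 : Stmt_Local1728)
    (h0 : Stmt_LocalZero) (hInf : Stmt_LocalInf) (_hI : Stmt_Index) (hOT : Stmt_OrbitsT)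
    (hOS : Stmt_OrbitsS) (hOST : Stmt_OrbitsST) : Stmt_Places := by
  intro N _
  have hjT : Transcendental Kbar (jBar N) := hT N
  have hjF := hF N
  have hsubT : ∀ c : Kbar, Transcendental Kbar (jBar N - algebraMap Kbar (FN N) c) :=
    fun c => transcendental_sub_algebraMap hjT c
  have hsubF : ∀ c : Kbar,
      FiniteDimensional Kbar⟮jBar N - algebraMap Kbar (FN N) c⟯ (FN N) ∧
        Module.finrank Kbar⟮jBar N - algebraMap Kbar (FN N) c⟯ (FN N) = Nat.card (XN N) :=
    fun c => finrank_transport (adjoin_sub_algebraMap (jBar N) c) hjF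
  refine ⟨?_, ?_, ?_, ?_⟩
  · -- generic value: unramified
    intro c hc0 hc1 v hv
    have hcard := card_zeros_of_localDatum hLOC N _ 1 1 (hsubT c) (hsubF c) (hG N c hc0 hc1)
    have hcard := hcard.trans (card_orbits_one (G := SL(2, ℤ)) (X := XN N))
    have := (hsubF c).1
    obtain ⟨s, hs, hsum⟩ := hFund Kbar (FN N) (jBar N - algebraMap Kbar (FN N) c) (hsubT c)
    rw [(hsubF c).2, ← hcard, card_zeros_eq_card hs] at hsum
    exact ord_eq_one_of_card_eq_sum hs hsum v hv
  · -- j = 1728
    have hcard := card_zeros_of_localDatum hLOC N _ 2 ModularGroup.S (hsubT 1728) (hsubF 1728)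
      (h1728 N)
    rw [hcard]
    exact hOS N
  · -- j = 0
    have e : jBar N - algebraMap Kbar (FN N) 0 = jBar N := by rw [map_zero, sub_zero]
    rw [e]
    have hcard := card_zeros_of_localDatum hLOC N _ 3 (ModularGroup.S * ModularGroup.T) hjT hjF
      (h0 N)
    rw [hcard]
    exact hOST N
  · -- the cusps
    have hcard := card_zeros_of_localDatum hLOC N _ N ModularGroup.T (transcendental_inv' hjT)
      (finrank_transport (adjoin_inv_eq (jBar N)) hjF) (hInf N)
    have hequiv : Nat.card {v : Place Kbar (FN N) // v.ord (jBar N) < 0}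
        = Nat.card {v : Place Kbar (FN N) // 0 < v.ord (jBar N)⁻¹} :=
      Nat.card_congr (Equiv.subtypeEquivRight (fun v => by rw [Place.ord_inv]; omega))
    rw [hequiv, hcard]
    exact hOT N

end Fermat.Agent.S24.helper1217
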