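import Mathlib

/-!
# Extending a specialisation of generators to a field embedding

If `F = K(gen i : i ∈ ι)` inside a field `E` and `v : ι → L` is a family in another field `L`
satisfying exactly the same polynomial relations over `K` as `gen`, there is a (unique)
`K`-algebra homomorphism `F → L` sending `gen i` to `v i`.
-/

set_option autoImplicit false

noncomputable section

namespace Fermat.Agent.S24.helper1284

open IntermediateField

section

variable {K E L : Type*} [Field K] [Field E] [Algebra K E] [Field L] [Algebra K L]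
  {ι : Type*} (gen : ι → E) (v : ι → L)

open scoped IntermediateField.algebraAdjoinAdjoin in
theorem exists_algHom_adjoin_range
    (hker : ∀ p : MvPolynomial ι K, MvPolynomial.aeval gen p = 0 ↔ MvPolynomial.aeval v p = 0) :
    ∃ Φ : adjoin K (Set.range gen) →ₐ[K] L,
      ∀ i : ι, Φ ⟨gen i, subset_adjoin K _ (Set.mem_range_self i)⟩ = v i := by
  classical
  -- the polynomial evaluation, restricted to its range
  let f : MvPolynomial ι K →ₐ[K] (MvPolynomial.aeval gen : MvPolynomial ι K →ₐ[K] E).range :=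
    (MvPolynomial.aeval gen : MvPolynomial ι K →ₐ[K] E).rangeRestrict
  have hf : Function.Surjective f := AlgHom.rangeRestrict_surjective _
  have hfz : ∀ p, f p = 0 ↔ MvPolynomial.aeval gen p = 0 := fun p => by
    rw [← Subtype.coe_inj]
    rfl
  have hrange : Algebra.adjoin K (Set.range gen) =
      (MvPolynomial.aeval gen : MvPolynomial ι K →ₐ[K] E).range :=
    Algebra.adjoin_range_eq_range_aeval K gen
  have H : RingHom.ker f.toRingHom ≤
      RingHom.ker (MvPolynomial.aeval v : MvPolynomial ι K →ₐ[K] L).toRingHom := by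
    intro p hp
    rw [RingHom.mem_ker] at hp ⊢
    exact (hker p).mp ((hfz p).mp hp)
  let ψ₀ : (MvPolynomial.aeval gen : MvPolynomial ι K →ₐ[K] E).range →ₐ[K] L :=
    AlgHom.liftOfSurjective f hf (MvPolynomial.aeval v) H
  have hψ₀ : ∀ p, ψ₀ (f p) = MvPolynomial.aeval v p := fun p =>
    AlgHom.liftOfSurjective_apply f hf (MvPolynomial.aeval v) H p
  let e : Algebra.adjoin K (Set.range gen) ≃ₐ[K]
      (MvPolynomial.aeval gen : MvPolynomial ι K →ₐ[K] E).range :=
    Subalgebra.equivOfEq _ _ hrange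
  let ψ : Algebra.adjoin K (Set.range gen) →ₐ[K] L := ψ₀.comp e.toAlgHom
  have hψinj : Function.Injective ψ := by
    rw [injective_iff_map_eq_zero]
    intro a ha
    obtain ⟨p, hp⟩ := hf (e a)
    have h1 : ψ₀ (f p) = 0 := by rw [hp]; exact ha
    rw [hψ₀] at h1
    have h2 : f p = 0 := (hfz p).mpr ((hker p).mpr h1)
    rw [hp] at h2
    exact e.injective (h2.trans (map_zero e).symm)
  refine ⟨IsFractionRing.liftAlgHom (K := adjoin K (Set.range gen)) hψinj, fun i => ?_⟩
  have hmem : gen i ∈ Algebra.adjoin K (Set.range gen) :=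
    Algebra.subset_adjoin (Set.mem_range_self i)
  have h1 : (⟨gen i, subset_adjoin K _ (Set.mem_range_self i)⟩ : adjoin K (Set.range gen)) =
      algebraMap (Algebra.adjoin K (Set.range gen)) (adjoin K (Set.range gen)) ⟨gen i, hmem⟩ :=
    rfl
  rw [h1, IsFractionRing.liftAlgHom_apply, IsFractionRing.lift_algebraMap]
  have h2 : e ⟨gen i, hmem⟩ = f (MvPolynomial.X i) := by
    apply Subtype.ext
    show gen i = MvPolynomial.aeval gen (MvPolynomial.X i)
    rw [MvPolynomial.aeval_X]
  show ψ₀ (e ⟨gen i, hmem⟩) = v i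
  rw [h2, hψ₀, MvPolynomial.aeval_X]

/-- If `F = K(gen i)` and `v` satisfies the same polynomial relations as `gen`, there is a
`K`-embedding of `F` sending `gen i` to `v i`. -/
theorem exists_algHom_of_eq_adjoin_range (F : IntermediateField K E)
    (hF : F = adjoin K (Set.range gen))
    (hker : ∀ p : MvPolynomial ι K, MvPolynomial.aeval gen p = 0 ↔ MvPolynomial.aeval v p = 0) :
    ∃ Φ : F →ₐ[K] L, ∀ (i : ι) (hi : gen i ∈ F), Φ ⟨gen i, hi⟩ = v i := by
  subst hF
  obtain ⟨Φ, hΦ⟩ := exists_algHom_adjoin_range gen v hker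
  exact ⟨Φ, fun i _ => hΦ i⟩

/-- Two `K`-algebra homomorphisms out of `F = K(gen i)` agreeing on the generators are equal. -/
theorem algHom_ext_of_eq_adjoin_range (F : IntermediateField K E)
    (hF : F = adjoin K (Set.range gen)) {Φ₁ Φ₂ : F →ₐ[K] L}
    (h : ∀ (i : ι) (hi : gen i ∈ F), Φ₁ ⟨gen i, hi⟩ = Φ₂ ⟨gen i, hi⟩) : Φ₁ = Φ₂ := by
  refine algHom_ext_of_eq_adjoin K hF fun x hx => ?_
  obtain ⟨i, rfl⟩ := hx
  exact h i _

end

end Fermat.Agent.S24.helper1284
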