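import Mathlib

/-!
# Laurent expansions at the cusp `i∞` of holomorphic functions on the upper half plane

For a real period `h > 0` we consider functions `f : ℍ → ℂ` which are `h`-periodic, holomorphic
and of moderate growth at `i∞` (`IsMero h f`: some power of `q_h = exp (2πiτ/h)` times `f` is
bounded).  Using Mathlib's `UpperHalfPlane.qExpansion` we attach to such an `f` a Laurent series
`lexp h f` in the variable `q_h`; this is an injective ring homomorphism on the subring of such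
functions.
-/

set_option autoImplicit false

noncomputable section

namespace Fermat.Agent.S24.helper1284

open UpperHalfPlane Function Complex Filter
open scoped Manifold Topology Real

local notation "𝕢" => Periodic.qParam

/-- `IsReg h f`: `f` is `h`-periodic, holomorphic on `ℍ` and bounded at `i∞`. -/
structure IsReg (h : ℝ) (f : ℍ → ℂ) : Prop where
  per : Periodic (f ∘ ofComplex) h
  hol : MDiff f
  bdd : IsBoundedAtImInfty f

namespace IsReg

variable {h : ℝ} {f g : ℍ → ℂ}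

theorem analyticAt (hh : 0 < h) (hf : IsReg h f) : AnalyticAt ℂ (cuspFunction h f) 0 :=
  analyticAt_cuspFunction_zero hh hf.per hf.hol hf.bdd

theorem const (h : ℝ) (c : ℂ) : IsReg h (fun _ => c) where
  per := fun _ => rfl
  hol := mdifferentiable_const
  bdd := Filter.const_boundedAtFilter _ c

theorem add (hf : IsReg h f) (hg : IsReg h g) : IsReg h (f + g) where
  per := by
    have : (f + g) ∘ ofComplex = f ∘ ofComplex + g ∘ ofComplex := rfl
    rw [this]; exact hf.per.add hg.per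
  hol := hf.hol.add hg.hol
  bdd := hf.bdd.add hg.bdd

theorem neg (hf : IsReg h f) : IsReg h (-f) where
  per := fun z => by
    have := hf.per z
    simp only [comp_apply, Pi.neg_apply] at this ⊢
    rw [this]
  hol := hf.hol.neg
  bdd := hf.bdd.neg

theorem mul (hf : IsReg h f) (hg : IsReg h g) : IsReg h (f * g) where
  per := by
    have : (f * g) ∘ ofComplex = f ∘ ofComplex * g ∘ ofComplex := rfl
    rw [this]; exact hf.per.mul hg.per
  hol := hf.hol.mul hg.hol
  bdd := hf.bdd.mul hg.bdd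

theorem sub (hf : IsReg h f) (hg : IsReg h g) : IsReg h (f - g) := by
  rw [sub_eq_add_neg]; exact hf.add hg.neg

theorem pow (hf : IsReg h f) (n : ℕ) : IsReg h (f ^ n) := by
  induction n with
  | zero => exact IsReg.const h 1
  | succ n ih => rw [pow_succ]; exact ih.mul hf

end IsReg

/-- A convenient criterion for periodicity of `f ∘ ofComplex`. -/
theorem periodic_comp_ofComplex_of {h : ℝ} {f : ℍ → ℂ}
    (H : ∀ (z : ℂ) (hz : 0 < z.im) (hz' : 0 < (z + h).im), f ⟨z + h, hz'⟩ = f ⟨z, hz⟩) :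
    Periodic (f ∘ ofComplex) h := by
  intro z
  by_cases hz : 0 < z.im
  · have hz' : 0 < (z + h).im := by simpa using hz
    rw [comp_ofComplex_of_im_pos f _ hz', comp_ofComplex_of_im_pos f _ hz]
    exact H z hz hz'
  · have hz' : (z + h).im ≤ 0 := by simpa using hz
    exact comp_ofComplex_of_im_le_zero f _ _ hz' (not_lt.mp hz)

/-- Holomorphy on `ℍ` of the restriction of an entire function. -/
theorem mdiff_of_differentiable {G : ℂ → ℂ} (hG : Differentiable ℂ G) :
    MDiff (fun τ : ℍ => G τ) := by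
  rw [mdifferentiable_iff]
  intro z hz
  have : (fun τ : ℍ => G τ) ∘ ofComplex =ᶠ[𝓝 z] G := by
    filter_upwards [isOpen_upperHalfPlaneSet.mem_nhds hz] with x hx
    simp only [comp_apply, ofComplex_apply_of_im_pos hx]
  exact (hG.differentiableAt.congr_of_eventuallyEq this).differentiableWithinAt

/-- The function `τ ↦ q_h(τ) = exp (2πiτ/h)` on `ℍ`. -/
def qpar (h : ℝ) : ℍ → ℂ := fun τ => 𝕢 h τ

theorem qpar_ne_zero (h : ℝ) (τ : ℍ) : qpar h τ ≠ 0 := Periodic.qParam_ne_zero _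

theorem qParam_add_period {h : ℝ} (hh : h ≠ 0) (z : ℂ) : 𝕢 h (z + h) = 𝕢 h z := by
  simp only [Periodic.qParam]
  have : 2 * π * Complex.I * (z + h) / h = 2 * π * Complex.I * z / h + 2 * π * Complex.I := by
    have hh' : (h : ℂ) ≠ 0 := by exact_mod_cast hh
    field_simp
  rw [this, Complex.exp_add, Complex.exp_two_pi_mul_I, mul_one]

theorem isReg_qpar {h : ℝ} (hh : 0 < h) : IsReg h (qpar h) where
  per := periodic_comp_ofComplex_of fun z _ _ => qParam_add_period hh.ne' z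
  hol := mdiff_of_differentiable (Periodic.differentiable_qParam (h := h))
  bdd := by
    rw [isBoundedAtImInfty_iff]
    exact ⟨1, 0, fun z _ => (Periodic.norm_qParam_lt_one hh z.im_pos).le⟩

/-- A wrapper to apply Mathlib lemmas that are stated for `FunLike` types to plain functions. -/
structure FunWrap where
  /-- the underlying function -/
  toFun : ℍ → ℂ

instance : FunLike FunWrap ℍ ℂ where
  coe := FunWrap.toFun
  coe_injective := fun a b hab => by cases a; cases b; congr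

/-- If a regular function is given by a convergent `q`-series, this is its `q`-expansion. -/
theorem qExpansion_eq_of_hasSum {h : ℝ} (hh : 0 < h) {f : ℍ → ℂ} (hf : IsReg h f) {c : ℕ → ℂ}
    (hc : ∀ τ : ℍ, HasSum (fun m => c m * 𝕢 h τ ^ m) (f τ)) :
    qExpansion h f = PowerSeries.mk c := by
  ext m
  rw [PowerSeries.coeff_mk]
  have key := qExpansion_coeff_unique (c := c) (⟨f⟩ : FunWrap) hh (hf.analyticAt hh)
    (fun τ => by
      have := hc τ
      simp only [smul_eq_mul]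
      exact this) m
  exact key.symm

theorem qExpansion_qpar {h : ℝ} (hh : 0 < h) : qExpansion h (qpar h) = PowerSeries.X := by
  rw [qExpansion_eq_of_hasSum hh (isReg_qpar hh) (c := fun m => if m = 1 then 1 else 0)]
  · ext m
    simp [PowerSeries.coeff_X]
  · intro τ
    have := hasSum_single (f := fun m : ℕ => (if m = 1 then (1 : ℂ) else 0) * 𝕢 h τ ^ m) 1
      (fun m hm => by simp [hm])
    simpa [qpar] using this

theorem qExpansion_const {h : ℝ} (c : ℂ) :
    qExpansion h (fun _ : ℍ => c) = PowerSeries.C c := by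
  have h1 : (fun _ : ℍ => c) = c • (1 : ℍ → ℂ) := by ext; simp
  have han : AnalyticAt ℂ (cuspFunction h (1 : ℍ → ℂ)) 0 := by
    have : cuspFunction h (1 : ℍ → ℂ) = 1 := by
      ext q
      rcases eq_or_ne q 0 with rfl | hq
      · simpa [cuspFunction, Periodic.cuspFunction] using! tendsto_const_nhds.limUnder_eq
      · simp [cuspFunction, Periodic.cuspFunction_eq_of_nonzero h _ hq]
    rw [this]
    exact analyticAt_const
  rw [h1, qExpansion_smul han, qExpansion_one]
  ext m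
  simp [PowerSeries.coeff_C, PowerSeries.coeff_one]

theorem qExpansion_qpar_pow {h : ℝ} (hh : 0 < h) (k : ℕ) :
    qExpansion h (qpar h ^ k) = PowerSeries.X ^ k := by
  induction k with
  | zero =>
    have : qpar h ^ 0 = (1 : ℍ → ℂ) := pow_zero _
    rw [this, qExpansion_one, pow_zero]
  | succ k ih =>
    rw [pow_succ, qExpansion_mul (((isReg_qpar hh).pow k).analyticAt hh)
      ((isReg_qpar hh).analyticAt hh), ih, qExpansion_qpar hh, pow_succ]

theorem qExpansion_qpar_pow_mul {h : ℝ} (hh : 0 < h) (k : ℕ) {F : ℍ → ℂ} (hF : IsReg h F) :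
    qExpansion h (qpar h ^ k * F) = PowerSeries.X ^ k * qExpansion h F := by
  rw [qExpansion_mul (((isReg_qpar hh).pow k).analyticAt hh) (hF.analyticAt hh),
    qExpansion_qpar_pow hh k]

/-- `IsMero h f`: `f` is `h`-periodic, holomorphic on `ℍ`, with at most a pole at `i∞`. -/
def IsMero (h : ℝ) (f : ℍ → ℂ) : Prop := ∃ m : ℕ, IsReg h (qpar h ^ m * f)

/-- The Laurent expansion in `q_h` of a function which is meromorphic at `i∞`
(junk value `0` otherwise). -/
def lexp (h : ℝ) (f : ℍ → ℂ) : LaurentSeries ℂ :=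
  open Classical in
  if hf : IsMero h f then
    HahnSeries.single (-(hf.choose : ℤ)) (1 : ℂ) *
      HahnSeries.ofPowerSeries ℤ ℂ (qExpansion h (qpar h ^ hf.choose * f))
  else 0

section lexp

variable {h : ℝ} {f g : ℍ → ℂ}

theorem IsReg.qpar_pow_mul (hh : 0 < h) {a : ℕ} (hf : IsReg h (qpar h ^ a * f)) (b : ℕ) :
    IsReg h (qpar h ^ (a + b) * f) := by
  have : qpar h ^ (a + b) * f = qpar h ^ b * (qpar h ^ a * f) := by
    rw [pow_add]; ring
  rw [this]
  exact ((isReg_qpar hh).pow b).mul hf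

theorem lexp_aux (hh : 0 < h) (a b : ℕ) (hf : IsReg h (qpar h ^ a * f)) :
    HahnSeries.single (-(a : ℤ)) (1 : ℂ) *
        HahnSeries.ofPowerSeries ℤ ℂ (qExpansion h (qpar h ^ a * f)) =
      HahnSeries.single (-((a + b : ℕ) : ℤ)) (1 : ℂ) *
        HahnSeries.ofPowerSeries ℤ ℂ (qExpansion h (qpar h ^ (a + b) * f)) := by
  have h1 : qpar h ^ (a + b) * f = qpar h ^ b * (qpar h ^ a * f) := by
    rw [pow_add]; ring
  have h2 : -((a + b : ℕ) : ℤ) + (b : ℤ) = -(a : ℤ) := by push_cast; ring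
  rw [h1, qExpansion_qpar_pow_mul hh b hf, map_mul, HahnSeries.ofPowerSeries_X_pow, ← mul_assoc,
    HahnSeries.single_mul_single, h2, mul_one]

theorem lexp_eq (hh : 0 < h) {m : ℕ} (hm : IsReg h (qpar h ^ m * f)) :
    lexp h f = HahnSeries.single (-(m : ℤ)) (1 : ℂ) *
      HahnSeries.ofPowerSeries ℤ ℂ (qExpansion h (qpar h ^ m * f)) := by
  have hf : IsMero h f := ⟨m, hm⟩
  rw [lexp, dif_pos hf, lexp_aux hh _ m hf.choose_spec, lexp_aux hh m hf.choose hm, add_comm]

theorem IsMero.of_isReg (hf : IsReg h f) : IsMero h f := ⟨0, by simpa using hf⟩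

theorem lexp_of_isReg (hh : 0 < h) (hf : IsReg h f) :
    lexp h f = HahnSeries.ofPowerSeries ℤ ℂ (qExpansion h f) := by
  have h0 : IsReg h (qpar h ^ 0 * f) := by simpa using hf
  rw [lexp_eq hh h0]
  simp

theorem IsMero.add (hh : 0 < h) (hf : IsMero h f) (hg : IsMero h g) : IsMero h (f + g) := by
  obtain ⟨a, ha⟩ := hf
  obtain ⟨b, hb⟩ := hg
  refine ⟨a + b, ?_⟩
  have : qpar h ^ (a + b) * (f + g) = qpar h ^ (a + b) * f + qpar h ^ (b + a) * g := by
    rw [add_comm b a]; ring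
  rw [this]
  exact (ha.qpar_pow_mul hh b).add (hb.qpar_pow_mul hh a)

theorem IsMero.neg (hf : IsMero h f) : IsMero h (-f) := by
  obtain ⟨a, ha⟩ := hf
  refine ⟨a, ?_⟩
  have : qpar h ^ a * (-f) = -(qpar h ^ a * f) := mul_neg _ _
  rw [this]
  exact ha.neg

theorem IsMero.mul (hf : IsMero h f) (hg : IsMero h g) : IsMero h (f * g) := by
  obtain ⟨a, ha⟩ := hf
  obtain ⟨b, hb⟩ := hg
  refine ⟨a + b, ?_⟩
  have : qpar h ^ (a + b) * (f * g) = (qpar h ^ a * f) * (qpar h ^ b * g) := by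
    rw [pow_add]; ring
  rw [this]
  exact ha.mul hb

theorem IsMero.const (h : ℝ) (c : ℂ) : IsMero h (fun _ => c) := IsMero.of_isReg (IsReg.const h c)

theorem lexp_const (hh : 0 < h) (c : ℂ) : lexp h (fun _ => c) = HahnSeries.C c := by
  rw [lexp_of_isReg hh (IsReg.const h c), qExpansion_const, HahnSeries.ofPowerSeries_C]

theorem lexp_add (hh : 0 < h) (hf : IsMero h f) (hg : IsMero h g) :
    lexp h (f + g) = lexp h f + lexp h g := by
  obtain ⟨a, ha⟩ := hf
  obtain ⟨b, hb⟩ := hg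
  have ha' := ha.qpar_pow_mul hh b
  have hb' := hb.qpar_pow_mul hh a
  rw [add_comm b a] at hb'
  have hsum : qpar h ^ (a + b) * (f + g) = qpar h ^ (a + b) * f + qpar h ^ (a + b) * g := by ring
  have hab : IsReg h (qpar h ^ (a + b) * (f + g)) := by rw [hsum]; exact ha'.add hb'
  rw [lexp_eq hh hab, lexp_eq hh ha', lexp_eq hh hb', hsum,
    qExpansion_add (ha'.analyticAt hh) (hb'.analyticAt hh), map_add, mul_add]

theorem lexp_zero (hh : 0 < h) : lexp h (0 : ℍ → ℂ) = 0 := by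
  have h0 : IsReg h (0 : ℍ → ℂ) := IsReg.const h 0
  rw [lexp_of_isReg hh h0, qExpansion_zero, map_zero]

theorem lexp_neg (hh : 0 < h) (hf : IsMero h f) : lexp h (-f) = -lexp h f := by
  have h1 := lexp_add hh hf hf.neg
  rw [add_neg_cancel, lexp_zero hh] at h1
  exact (neg_eq_of_add_eq_zero_right h1.symm).symm

theorem lexp_mul (hh : 0 < h) (hf : IsMero h f) (hg : IsMero h g) :
    lexp h (f * g) = lexp h f * lexp h g := by
  obtain ⟨a, ha⟩ := hf
  obtain ⟨b, hb⟩ := hg
  have h1 : qpar h ^ (a + b) * (f * g) = (qpar h ^ a * f) * (qpar h ^ b * g) := by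
    rw [pow_add]; ring
  have hab : IsReg h (qpar h ^ (a + b) * (f * g)) := by rw [h1]; exact ha.mul hb
  rw [lexp_eq hh hab, lexp_eq hh ha, lexp_eq hh hb, h1,
    qExpansion_mul (ha.analyticAt hh) (hb.analyticAt hh), map_mul]
  have h2 : HahnSeries.single (-((a + b : ℕ) : ℤ)) (1 : ℂ) =
      HahnSeries.single (-(a : ℤ)) (1 : ℂ) * HahnSeries.single (-(b : ℤ)) (1 : ℂ) := by
    have h3 : -(a : ℤ) + -(b : ℤ) = -((a + b : ℕ) : ℤ) := by push_cast; ring
    rw [HahnSeries.single_mul_single, h3, mul_one]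
  rw [h2]
  ring

theorem lexp_eq_zero_iff (hh : 0 < h) (hf : IsMero h f) : lexp h f = 0 ↔ f = 0 := by
  obtain ⟨a, ha⟩ := hf
  rw [lexp_eq hh ha]
  constructor
  · intro H
    have h1 : HahnSeries.single (-(a : ℤ)) (1 : ℂ) ≠ 0 := by
      simp
    have h2 := (mul_eq_zero.mp H).resolve_left h1
    have h3 : qExpansion h (qpar h ^ a * f) = 0 :=
      HahnSeries.ofPowerSeries_injective (Γ := ℤ) (h2.trans (map_zero _).symm)
    have h4 := (qExpansion_eq_zero_iff hh ha.per ha.hol ha.bdd).mp h3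
    ext τ
    have h5 := congrFun h4 τ
    simp only [Pi.mul_apply, Pi.pow_apply, Pi.zero_apply, mul_eq_zero] at h5
    exact h5.resolve_left (pow_ne_zero _ (qpar_ne_zero h τ))
  · rintro rfl
    simp [qExpansion_zero]

theorem ofPowerSeries_coeff_neg (P : PowerSeries ℂ) {k : ℤ} (hk : k < 0) :
    (HahnSeries.ofPowerSeries ℤ ℂ P).coeff k = 0 := by
  rw [HahnSeries.ofPowerSeries_apply]
  refine HahnSeries.embDomain_of_notMem_range ?_
  rintro ⟨m, rfl⟩
  exact absurd hk (not_lt.mpr (Int.natCast_nonneg m))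

theorem lexp_coeff (hh : 0 < h) {m : ℕ} (hm : IsReg h (qpar h ^ m * f)) (n : ℕ) :
    (lexp h f).coeff ((n : ℤ) - m) = PowerSeries.coeff n (qExpansion h (qpar h ^ m * f)) := by
  rw [lexp_eq hh hm, HahnSeries.coeff_single_mul, one_mul, sub_neg_eq_add, sub_add_cancel,
    HahnSeries.ofPowerSeries_apply_coeff]

theorem lexp_coeff_of_lt (hh : 0 < h) {m : ℕ} (hm : IsReg h (qpar h ^ m * f)) {k : ℤ}
    (hk : k < -(m : ℤ)) : (lexp h f).coeff k = 0 := by
  rw [lexp_eq hh hm, HahnSeries.coeff_single_mul, one_mul]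
  exact ofPowerSeries_coeff_neg _ (by omega)

/-- A holomorphic function given by a convergent `q`-series is regular. -/
theorem isReg_of_hasSum (hh : 0 < h) (hol : MDiff f) {c : ℕ → ℂ}
    (hc : ∀ τ : ℍ, HasSum (fun m => c m * 𝕢 h τ ^ m) (f τ)) : IsReg h f where
  per := periodic_comp_ofComplex_of fun z hz hz' => by
    have h1 := hc ⟨z + h, hz'⟩
    have h2 := hc ⟨z, hz⟩
    have h3 : 𝕢 h ((⟨z + h, hz'⟩ : ℍ) : ℂ) = 𝕢 h ((⟨z, hz⟩ : ℍ) : ℂ) :=
      qParam_add_period hh.ne' z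
    rw [h3] at h1
    exact h1.unique h2
  hol := hol
  bdd := isBoundedAtImInfty_of_hasSum_qExpansion hh (c := c) (fun τ => by
    simpa only [smul_eq_mul] using hc τ)

/-- Coefficients of the Laurent expansion of a function `f` such that `q^m f` is given by a
convergent `q`-series. -/
theorem lexp_coeff_of_hasSum (hh : 0 < h) {m : ℕ} (hol : MDiff f) {c : ℕ → ℂ}
    (hc : ∀ τ : ℍ, HasSum (fun n => c n * 𝕢 h τ ^ n) (𝕢 h τ ^ m * f τ)) :
    IsReg h (qpar h ^ m * f) ∧ (∀ n : ℕ, (lexp h f).coeff ((n : ℤ) - m) = c n) ∧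
      ∀ k : ℤ, k < -(m : ℤ) → (lexp h f).coeff k = 0 := by
  have hol' : MDiff (qpar h ^ m * f) := ((isReg_qpar hh).pow m).hol.mul hol
  have hreg : IsReg h (qpar h ^ m * f) := isReg_of_hasSum hh hol' (c := c) hc
  refine ⟨hreg, fun n => ?_, fun k hk => lexp_coeff_of_lt hh hreg hk⟩
  rw [lexp_coeff hh hreg, qExpansion_eq_of_hasSum hh hreg (c := c) hc, PowerSeries.coeff_mk]

end lexp

section shift

variable {h : ℝ} {f : ℍ → ℂ}

/-- Translation of a function on the upper half plane by a real number. -/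
def shift (s : ℝ) (f : ℍ → ℂ) : ℍ → ℂ := fun τ => f (s +ᵥ τ)

theorem vadd_mk (s : ℝ) (z : ℂ) (hz : 0 < z.im) (hz' : 0 < ((s : ℂ) + z).im) :
    s +ᵥ (⟨z, hz⟩ : ℍ) = ⟨(s : ℂ) + z, hz'⟩ := by
  apply UpperHalfPlane.ext
  simp [coe_vadd]

theorem qpar_vadd (h s : ℝ) (τ : ℍ) : qpar h (s +ᵥ τ) = 𝕢 h s * qpar h τ := by
  simp only [qpar, Periodic.qParam, coe_vadd]
  rw [← Complex.exp_add]
  congr 1
  ring

theorem IsReg.shift (hf : IsReg h f) (s : ℝ) : IsReg h (shift s f) where
  per := periodic_comp_ofComplex_of fun z hz hz' => by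
    have hz1 : 0 < ((s : ℂ) + z).im := by simpa using hz
    have hz2 : 0 < ((s : ℂ) + z + h).im := by simpa using hz
    have h1 := hf.per ((s : ℂ) + z)
    rw [comp_ofComplex_of_im_pos f _ hz2, comp_ofComplex_of_im_pos f _ hz1] at h1
    have e1 : s +ᵥ (⟨z + h, hz'⟩ : ℍ) = ⟨(s : ℂ) + z + h, hz2⟩ := by
      apply UpperHalfPlane.ext
      simp [coe_vadd, add_assoc]
    have e2 : s +ᵥ (⟨z, hz⟩ : ℍ) = ⟨(s : ℂ) + z, hz1⟩ := vadd_mk s z hz hz1
    show f (s +ᵥ (⟨z + h, hz'⟩ : ℍ)) = f (s +ᵥ (⟨z, hz⟩ : ℍ))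
    rw [e1, e2, h1]
  hol := by
    have h0 := hf.hol
    rw [mdifferentiable_iff] at h0 ⊢
    have hmap : Set.MapsTo (fun z : ℂ => (s : ℂ) + z) {z : ℂ | 0 < z.im} {z : ℂ | 0 < z.im} := by
      intro z hz
      simpa using hz
    have h1 : DifferentiableOn ℂ ((f ∘ ofComplex) ∘ fun z : ℂ => (s : ℂ) + z) {z : ℂ | 0 < z.im} :=
      h0.comp (fun z _ => ((differentiableAt_const _).add differentiableAt_id).differentiableWithinAt)
        hmap
    refine h1.congr fun z hz => ?_
    have hz' : 0 < z.im := hz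
    have hz1 : 0 < ((s : ℂ) + z).im := by simpa using hz'
    simp only [comp_apply]
    rw [ofComplex_apply_of_im_pos hz', ofComplex_apply_of_im_pos hz1]
    show f (s +ᵥ (⟨z, hz'⟩ : ℍ)) = _
    rw [vadd_mk s z hz' hz1]
  bdd := by
    have h0 := hf.bdd
    rw [isBoundedAtImInfty_iff] at h0 ⊢
    obtain ⟨M, A, hMA⟩ := h0
    exact ⟨M, A, fun z hz => hMA (s +ᵥ z) (by simpa [vadd_im] using hz)⟩

theorem qpar_pow_mul_shift (s : ℝ) (m : ℕ) (f : ℍ → ℂ) :
    qpar h ^ m * shift s f = (fun _ => (𝕢 h s ^ m)⁻¹) * shift s (qpar h ^ m * f) := by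
  ext τ
  have hc : 𝕢 h s ^ m ≠ 0 := pow_ne_zero _ (Periodic.qParam_ne_zero _)
  simp only [Pi.mul_apply, Pi.pow_apply, shift, qpar_vadd, mul_pow]
  field_simp

theorem IsMero.shift (hf : IsMero h f) (s : ℝ) : IsMero h (shift s f) := by
  obtain ⟨m, hm⟩ := hf
  refine ⟨m, ?_⟩
  rw [qpar_pow_mul_shift]
  exact (IsReg.const h _).mul (hm.shift s)

/-- Translating a function by `s` multiplies the `k`-th Laurent coefficient by `q_h(s)^k`. -/
theorem lexp_shift_coeff (hh : 0 < h) (hf : IsMero h f) (s : ℝ) (k : ℤ) :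
    (lexp h (shift s f)).coeff k = 𝕢 h s ^ k * (lexp h f).coeff k := by
  obtain ⟨m, hm⟩ := hf
  have hc0 : 𝕢 h (s : ℂ) ≠ 0 := Periodic.qParam_ne_zero _
  have hm' : IsReg h (qpar h ^ m * shift s f) := by
    rw [qpar_pow_mul_shift]
    exact (IsReg.const h _).mul (hm.shift s)
  by_cases hk : k < -(m : ℤ)
  · rw [lexp_coeff_of_lt hh hm' hk, lexp_coeff_of_lt hh hm hk, mul_zero]
  · obtain ⟨n, rfl⟩ : ∃ n : ℕ, k = (n : ℤ) - m := ⟨(k + m).toNat, by omega⟩
    rw [lexp_coeff hh hm', lexp_coeff hh hm]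
    have key : qExpansion h (qpar h ^ m * shift s f) = PowerSeries.mk fun n =>
        (𝕢 h s ^ m)⁻¹ * (𝕢 h s ^ n * PowerSeries.coeff n (qExpansion h (qpar h ^ m * f))) := by
      refine qExpansion_eq_of_hasSum hh hm' fun τ => ?_
      have h1 := hasSum_qExpansion hh hm.per hm.hol hm.bdd (s +ᵥ τ)
      have h2 := h1.mul_left ((𝕢 h s ^ m)⁻¹)
      have e1 : (qpar h ^ m * shift s f) τ = (𝕢 h s ^ m)⁻¹ * (qpar h ^ m * f) (s +ᵥ τ) := by
        rw [qpar_pow_mul_shift]
        rfl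
      rw [e1]
      have e2 : (fun n : ℕ => (𝕢 h s ^ m)⁻¹ * (𝕢 h s ^ n *
          PowerSeries.coeff n (qExpansion h (qpar h ^ m * f))) * 𝕢 h τ ^ n) = fun i : ℕ =>
          (𝕢 h s ^ m)⁻¹ * PowerSeries.coeff i (qExpansion h (qpar h ^ m * f)) •
            𝕢 h ((s +ᵥ τ : ℍ) : ℂ) ^ i := by
        funext n
        have : 𝕢 h ((s +ᵥ τ : ℍ) : ℂ) = 𝕢 h s * 𝕢 h τ := qpar_vadd h s τ
        rw [this, smul_eq_mul, mul_pow]
        ring
      rw [e2]
      exact h2
    rw [key, PowerSeries.coeff_mk, zpow_sub₀ hc0, zpow_natCast, zpow_natCast]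
    field_simp

end shift

end Fermat.Agent.S24.helper1284
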