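import Mathlib

/-!
# The coefficient twist `t ↦ ζ t` on Laurent series over `ℂ`

For a unit `ζ` of `ℂ` the map `∑ aₖ tᵏ ↦ ∑ ζᵏ aₖ tᵏ` is a ring automorphism of `ℂ((t))`
preserving the `t`-adic valuation.  If `ζ` is a primitive `N`-th root of unity, a nonzero series
fixed by the `k`-th power of the twist has order divisible by `N / gcd k N`.
-/

set_option autoImplicit false

noncomputable section

namespace Fermat.Agent.S24.helper1284

open HahnSeries

/-- The underlying function of the coefficient twist. -/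
def twistFun (ζ : ℂˣ) (x : LaurentSeries ℂ) : LaurentSeries ℂ where
  coeff k := ((ζ ^ k : ℂˣ) : ℂ) * x.coeff k
  isPWO_support' := x.isPWO_support.mono fun k hk => by
    simp only [Function.mem_support, ne_eq] at hk ⊢
    intro h0
    exact hk (by rw [h0, mul_zero])

@[simp]
theorem twistFun_coeff (ζ : ℂˣ) (x : LaurentSeries ℂ) (k : ℤ) :
    (twistFun ζ x).coeff k = ((ζ ^ k : ℂˣ) : ℂ) * x.coeff k := rfl

theorem twistFun_support (ζ : ℂˣ) (x : LaurentSeries ℂ) :
    (twistFun ζ x).support = x.support := by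
  ext k
  simp only [mem_support, twistFun_coeff, ne_eq, mul_eq_zero, Units.ne_zero, false_or]

theorem twistFun_mul (ζ : ℂˣ) (x y : LaurentSeries ℂ) :
    twistFun ζ (x * y) = twistFun ζ x * twistFun ζ y := by
  ext k
  rw [twistFun_coeff, coeff_mul,
    coeff_mul_left' (x := twistFun ζ x) (y := twistFun ζ y) x.isPWO_support
      (twistFun_support ζ x).le,
    Finset.mul_sum]
  have hy : (twistFun ζ y).support = y.support := twistFun_support ζ y
  have hs : Finset.antidiagonal x.isPWO_support (twistFun ζ y).isPWO_support k =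
      Finset.antidiagonal x.isPWO_support y.isPWO_support k := by
    ext ij
    simp only [Finset.mem_antidiagonal, hy]
  rw [hs]
  refine Finset.sum_congr rfl fun ij hij => ?_
  have hk : ij.1 + ij.2 = k := (Finset.mem_antidiagonal.mp hij).2.2
  rw [twistFun_coeff, twistFun_coeff, ← hk, zpow_add, Units.val_mul]
  ring

/-- The coefficient twist `∑ aₖ tᵏ ↦ ∑ ζᵏ aₖ tᵏ` as a ring automorphism of `ℂ((t))`. -/
def twist (ζ : ℂˣ) : LaurentSeries ℂ ≃+* LaurentSeries ℂ where
  toFun := twistFun ζ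
  invFun := twistFun ζ⁻¹
  left_inv x := by
    ext k
    simp only [twistFun_coeff, inv_zpow, ← mul_assoc, ← Units.val_mul, inv_mul_cancel,
      Units.val_one, one_mul]
  right_inv x := by
    ext k
    simp only [twistFun_coeff, inv_zpow, ← mul_assoc, ← Units.val_mul, mul_inv_cancel,
      Units.val_one, one_mul]
  map_mul' := twistFun_mul ζ
  map_add' x y := by
    ext k
    simp only [twistFun_coeff, coeff_add, mul_add]

@[simp]
theorem twist_coeff (ζ : ℂˣ) (x : LaurentSeries ℂ) (k : ℤ) :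
    (twist ζ x).coeff k = ((ζ ^ k : ℂˣ) : ℂ) * x.coeff k := rfl

theorem twist_C (ζ : ℂˣ) (c : ℂ) : twist ζ (HahnSeries.C c) = HahnSeries.C c := by
  ext k
  rw [twist_coeff]
  rcases eq_or_ne k 0 with rfl | hk
  · simp
  · rw [HahnSeries.C_apply, HahnSeries.coeff_single_of_ne hk, mul_zero]

theorem orderTop_twist (ζ : ℂˣ) (x : LaurentSeries ℂ) : (twist ζ x).orderTop = x.orderTop := by
  apply le_antisymm
  · rw [le_orderTop_iff_forall]
    intro j hj
    have h1 := coeff_eq_zero_of_lt_orderTop hj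
    rw [twist_coeff] at h1
    exact (mul_eq_zero.mp h1).resolve_left (Units.ne_zero _)
  · rw [le_orderTop_iff_forall]
    intro j hj
    rw [twist_coeff, coeff_eq_zero_of_lt_orderTop hj, mul_zero]

theorem addVal_twist (ζ : ℂˣ) (x : LaurentSeries ℂ) :
    HahnSeries.addVal ℤ ℂ (twist ζ x) = HahnSeries.addVal ℤ ℂ x := by
  rw [addVal_apply, addVal_apply, orderTop_twist]

theorem twist_iterate_coeff (ζ : ℂˣ) (n : ℕ) (x : LaurentSeries ℂ) (k : ℤ) :
    ((twist ζ)^[n] x).coeff k = ((ζ ^ ((n : ℤ) * k) : ℂˣ) : ℂ) * x.coeff k := by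
  induction n with
  | zero => simp
  | succ n ih =>
    rw [Function.iterate_succ_apply', twist_coeff, ih, ← mul_assoc, ← Units.val_mul, ← zpow_add]
    congr 3
    push_cast
    ring

/-- A nonzero Laurent series fixed by the `n`-th iterate of the twist by a primitive `N`-th root
of unity has order divisible by `N / gcd n N`. -/
theorem exists_order_eq_of_twist_iterate_eq {ζ : ℂˣ} {N : ℕ} (hN : 0 < N)
    (hζ : IsPrimitiveRoot ζ N) (n : ℕ) (z : LaurentSeries ℂ) (hz : z ≠ 0)
    (hfix : (twist ζ)^[n] z = z) :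
    ∃ l : ℤ, HahnSeries.addVal ℤ ℂ z = (((N / Nat.gcd n N : ℕ) * l : ℤ) : WithTop ℤ) := by
  rw [addVal_apply_of_ne hz]
  have h1 : z.coeff z.order ≠ 0 := fun h0 => hz (coeff_order_eq_zero.mp h0)
  have h2 := congrArg (fun y => y.coeff z.order) hfix
  simp only [twist_iterate_coeff] at h2
  have h3 : ((ζ ^ ((n : ℤ) * z.order) : ℂˣ) : ℂ) = 1 := by
    have := mul_right_cancel₀ h1 (h2.trans (one_mul _).symm)
    exact this
  have h4 : ζ ^ ((n : ℤ) * z.order) = 1 := Units.ext h3
  have h5 : (N : ℤ) ∣ (n : ℤ) * z.order := (hζ.zpow_eq_one_iff_dvd _).mp h4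
  have hg : 0 < Nat.gcd n N := Nat.gcd_pos_of_pos_right _ hN
  obtain ⟨N', hN'⟩ : Nat.gcd n N ∣ N := Nat.gcd_dvd_right n N
  obtain ⟨n', hn'⟩ : Nat.gcd n N ∣ n := Nat.gcd_dvd_left n N
  have hdiv : N / Nat.gcd n N = N' := Nat.div_eq_of_eq_mul_right hg hN'
  have hdiv' : n / Nat.gcd n N = n' := Nat.div_eq_of_eq_mul_right hg hn'
  have hcop : Nat.Coprime N' n' := by
    have := Nat.coprime_div_gcd_div_gcd hg (m := n) (n := N)
    rw [hdiv, hdiv'] at this
    exact this.symm
  have h6 : (N' : ℤ) ∣ (n' : ℤ) * z.order := by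
    have h7 : ((Nat.gcd n N : ℕ) : ℤ) * (N' : ℤ) ∣ ((Nat.gcd n N : ℕ) : ℤ) * ((n' : ℤ) * z.order) := by
      have e1 : ((Nat.gcd n N : ℕ) : ℤ) * (N' : ℤ) = (N : ℤ) := by
        rw [← Nat.cast_mul, ← hN']
      have e2 : ((Nat.gcd n N : ℕ) : ℤ) * ((n' : ℤ) * z.order) = (n : ℤ) * z.order := by
        rw [← mul_assoc, ← Nat.cast_mul, ← hn']
      rw [e1, e2]
      exact h5
    exact (mul_dvd_mul_iff_left (by exact_mod_cast hg.ne')).mp h7
  have h8 : (N' : ℤ) ∣ z.order :=
    (Int.isCoprime_iff_gcd_eq_one.mpr (by simpa [Int.gcd_natCast_natCast] using hcop)).dvd_of_dvd_mul_left h6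
  obtain ⟨l, hl⟩ := h8
  exact ⟨l, by rw [hdiv, hl]⟩

end Fermat.Agent.S24.helper1284
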