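import Fermat.Agent.S24.helper24_Spec
import Fermat.Agent.S24.helper1644_AnalyticJ
import Fermat.Agent.Lib.helper319_HermiteForm
import Fermat.Agent.S24.helper1284_CuspExp
import Fermat.Agent.S24.helper1284_Twist
import Fermat.Agent.S24.helper1284_AdjoinLift

/-!
# The cusp datum for `X₀(N)`: conjugate embeddings of the function field into `ℂ((t))`

For every `g ∈ SL(2, ℤ)` we construct a `ℚ̄`-algebra embedding of the function field
`F_N = ℚ̄(j(q^d) : d ∣ N)` into `ℂ((t))`, `t = q^{1/N}`, sending `j(q^d)` to the Laurent expansion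
of `τ ↦ J(d · g⁻¹τ)`.  These embeddings only depend on the coset `g Γ₀(N)`, distinct cosets give
distinct embeddings, and replacing `g` by `T g` twists the coefficient of `t^k` by `ζ_N^{-k}`.
This gives `Stmt_LocalInf` of the specification file.
-/

set_option autoImplicit false

noncomputable section

namespace Fermat.Agent.S24.helper1284

open UpperHalfPlane Function Complex Filter ModularCurve CongruenceSubgroup
open Fermat.Agent.S24.helper24
open scoped Manifold Topology Real MatrixGroups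

local notation "𝕢" => Periodic.qParam

/-! ## The analytic `j`-function -/

/-- The analytic `j`-function (same as `helper24.jFun` and `helper1644.jFun`). -/
abbrev J : ℍ → ℂ := helper1644.jFun

theorem J_eq_spec : J = helper24.jFun := rfl

theorem J_smul (γ : SL(2, ℤ)) (τ : ℍ) : J (γ • τ) = J τ := helper1644.jFun_smul γ τ

theorem jnFun_zero : helper1644.jnFun 0 = 1 := by
  have h := helper1644.hasSum_jNumQ_disc (z := 0) (by simp)
  have h2 : HasSum (fun n : ℕ => ((PowerSeries.coeff n ModularCurve.jNumQ : ℚ) : ℂ) * (0 : ℂ) ^ n)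
      (((PowerSeries.coeff 0 ModularCurve.jNumQ : ℚ) : ℂ) * (0 : ℂ) ^ 0) :=
    hasSum_single 0 fun n hn => by simp [hn]
  have h3 := h.unique h2
  rw [h3, PowerSeries.coeff_zero_eq_constantCoeff, ModularCurve.constantCoeff_jNumQ]
  simp

theorem tendsto_J_mul_q :
    Tendsto (fun τ : ℍ => J τ * Complex.exp (2 * Real.pi * Complex.I * τ)) atImInfty (𝓝 1) := by
  have hcont : ContinuousAt helper1644.jnFun 0 :=
    (helper1644.differentiableOn_jnFun.differentiableAt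
      (Metric.ball_mem_nhds 0 one_pos)).continuousAt
  have h1 : Tendsto (fun τ : ℍ => helper1644.jnFun (𝕢 1 τ)) atImInfty (𝓝 (helper1644.jnFun 0)) :=
    hcont.tendsto.comp (qParam_tendsto_atImInfty one_pos)
  rw [jnFun_zero] at h1
  refine h1.congr fun τ => ?_
  rw [helper1644.jnFun_qParam, mul_comm]
  simp [Periodic.qParam]

theorem J_growth : Fermat.Agent.Lib.helper319.HasJGrowth J :=
  Fermat.Agent.Lib.helper319.hasJGrowth_of_tendsto J tendsto_J_mul_q

/-! ## Expansion of `J ∘ s` when `q(s τ) = c · q_h(τ)^e` -/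

/-- Composition of a holomorphic function on `ℍ` with a self-map of `ℍ` which is affine in the
coordinate is holomorphic. -/
theorem mdiff_comp_affine {f : ℍ → ℂ} (hf : MDiff f) (α β : ℂ) (s : ℍ → ℍ)
    (hs : ∀ τ : ℍ, (s τ : ℂ) = α * τ + β) : MDiff (fun τ => f (s τ)) := by
  rw [mdifferentiable_iff] at hf ⊢
  have hmap : Set.MapsTo (fun z : ℂ => α * z + β) {z : ℂ | 0 < z.im} {z : ℂ | 0 < z.im} := by
    intro z hz
    have := (s ⟨z, hz⟩).im_pos
    rw [← UpperHalfPlane.coe_im, hs] at this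
    exact this
  have h1 : DifferentiableOn ℂ ((f ∘ ofComplex) ∘ fun z : ℂ => α * z + β) {z : ℂ | 0 < z.im} :=
    hf.comp (fun z _ => (((differentiableAt_const α).mul differentiableAt_id).add
      (differentiableAt_const β)).differentiableWithinAt) hmap
  refine h1.congr fun z hz => ?_
  have hz' : 0 < z.im := hz
  have hz1 : 0 < (α * z + β).im := hmap hz
  simp only [comp_apply]
  rw [ofComplex_apply_of_im_pos hz', ofComplex_apply_of_im_pos hz1]
  congr 1
  apply UpperHalfPlane.ext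
  rw [hs]

/-- The Laurent coefficients of `J ∘ s` in `q_h`, when `q(s τ) = c · q_h(τ)^e`. -/
theorem lexp_J_comp {h : ℝ} (hh : 0 < h) {e : ℕ} (he : 0 < e) {c : ℂ} (hc : c ≠ 0) (s : ℍ → ℍ)
    (hs : ∀ τ : ℍ, 𝕢 1 (s τ) = c * 𝕢 h τ ^ e) (hol : MDiff (fun τ => J (s τ))) :
    IsReg h (qpar h ^ e * fun τ => J (s τ)) ∧
    (∀ n : ℕ, (lexp h (fun τ => J (s τ))).coeff ((n : ℤ) - e) =
      if e ∣ n then c ^ (n / e) * c⁻¹ * ((PowerSeries.coeff (n / e) ModularCurve.jNumQ : ℚ) : ℂ)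
        else 0) ∧
    ∀ k : ℤ, k < -(e : ℤ) → (lexp h (fun τ => J (s τ))).coeff k = 0 := by
  refine lexp_coeff_of_hasSum hh hol (c := fun n => if e ∣ n then
    c ^ (n / e) * c⁻¹ * ((PowerSeries.coeff (n / e) ModularCurve.jNumQ : ℚ) : ℂ) else 0) fun τ => ?_
  have h1 := helper1644.hasSum_jNumQ (s τ)
  rw [hs τ] at h1
  have h2 := h1.mul_left c⁻¹
  have e1 : c⁻¹ * (c * 𝕢 h τ ^ e * helper1644.jFun (s τ)) = 𝕢 h τ ^ e * J (s τ) := by
    field_simp
  rw [e1] at h2
  have hinj : Function.Injective (fun n : ℕ => e * n) := fun a b hab =>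
    Nat.eq_of_mul_eq_mul_left he hab
  rw [← hinj.hasSum_iff]
  · have e2 : ((fun n : ℕ => (if e ∣ n then
        c ^ (n / e) * c⁻¹ * ((PowerSeries.coeff (n / e) ModularCurve.jNumQ : ℚ) : ℂ) else 0) *
          𝕢 h τ ^ n) ∘ fun n : ℕ => e * n) = fun i : ℕ =>
        c⁻¹ * (((PowerSeries.coeff i ModularCurve.jNumQ : ℚ) : ℂ) * (c * 𝕢 h τ ^ e) ^ i) := by
      funext n
      simp only [comp_apply, dvd_mul_right, if_true, Nat.mul_div_cancel_left _ he]
      rw [mul_pow, ← pow_mul]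
      ring
    rw [e2]
    exact h2
  · intro k hk
    have : ¬ e ∣ k := fun ⟨n, hn⟩ => hk ⟨n, hn.symm⟩
    simp only [this, if_false, zero_mul]

/-- Laurent expansions determine the function. -/
theorem lexp_injective {h : ℝ} (hh : 0 < h) {f g : ℍ → ℂ} (hf : IsMero h f) (hg : IsMero h g)
    (H : lexp h f = lexp h g) : f = g := by
  have h1 : lexp h (f + -g) = 0 := by
    rw [lexp_add hh hf hg.neg, lexp_neg hh hg, H, add_neg_cancel]
  have h2 := (lexp_eq_zero_iff hh (hf.add hh hg.neg)).mp h1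
  exact eq_of_sub_eq_zero (by rw [sub_eq_add_neg]; exact h2)

/-! ## The series `j(t^e)` over `ℂ` -/

/-- The formal series `j(t^e)` with complex coefficients. -/
def jC (e : ℕ) [NeZero e] : LaurentSeries ℂ := qExpand ℂ e (coeffEmb ℂ jq)

theorem jC_coeff_mul (e : ℕ) [NeZero e] (k : ℤ) :
    (jC e).coeff ((e : ℤ) * k) = ((jq.coeff k : ℚ) : ℂ) := by
  rw [jC, qExpand_coeff_mul, coeffEmb_coeff]
  rfl

theorem jC_coeff_of_not_dvd (e : ℕ) [NeZero e] {k : ℤ} (hk : ¬ (e : ℤ) ∣ k) :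
    (jC e).coeff k = 0 :=
  qExpand_coeff_of_not_dvd e _ hk

theorem jC_coeff_of_lt (e : ℕ) [NeZero e] {k : ℤ} (hk : k < -(e : ℤ)) : (jC e).coeff k = 0 := by
  by_cases hd : (e : ℤ) ∣ k
  · obtain ⟨j, rfl⟩ := hd
    have he : (0 : ℤ) < e := by exact_mod_cast Nat.pos_of_ne_zero (NeZero.ne e)
    have hj : j < -1 := by
      by_contra hcon
      have : -(e : ℤ) ≤ (e : ℤ) * j := by nlinarith
      omega
    rw [jC_coeff_mul, ModularCurve.coeff_jq_of_lt hj]
    simp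
  · exact jC_coeff_of_not_dvd e hd

theorem jC_coeff_neg (e : ℕ) [NeZero e] : (jC e).coeff (-(e : ℤ)) = 1 := by
  have : -(e : ℤ) = (e : ℤ) * (-1) := by ring
  rw [this, jC_coeff_mul, ModularCurve.coeff_jq_neg_one]
  simp

theorem orderTop_jC (e : ℕ) [NeZero e] : (jC e).orderTop = ((-(e : ℤ) : ℤ) : WithTop ℤ) := by
  apply HahnSeries.orderTop_eq_of_le
  · rw [HahnSeries.mem_support, jC_coeff_neg]
    exact one_ne_zero
  · intro k hk
    by_contra hcon
    exact hk (jC_coeff_of_lt e (not_le.mp hcon))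

/-- If `q(s τ) = q_h(τ)^e`, the `q_h`-expansion of `J ∘ s` is `j(t^e)`. -/
theorem lexp_J_comp_one {h : ℝ} (hh : 0 < h) (e : ℕ) [NeZero e] (s : ℍ → ℍ)
    (hs : ∀ τ : ℍ, 𝕢 1 (s τ) = 𝕢 h τ ^ e) (hol : MDiff (fun τ => J (s τ))) :
    IsMero h (fun τ => J (s τ)) ∧ lexp h (fun τ => J (s τ)) = jC e := by
  have he : 0 < e := Nat.pos_of_ne_zero (NeZero.ne e)
  obtain ⟨h1, h2, h3⟩ := lexp_J_comp hh he (c := 1) one_ne_zero s
    (fun τ => by rw [hs τ, one_mul]) hol
  refine ⟨⟨e, h1⟩, ?_⟩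
  ext k
  by_cases hk : k < -(e : ℤ)
  · rw [h3 k hk, jC_coeff_of_lt e hk]
  · obtain ⟨n, rfl⟩ : ∃ n : ℕ, k = (n : ℤ) - e := ⟨(k + e).toNat, by omega⟩
    rw [h2 n]
    by_cases hd : e ∣ n
    · obtain ⟨m, rfl⟩ := hd
      rw [if_pos (dvd_mul_right e m), Nat.mul_div_cancel_left _ he, one_pow, inv_one, one_mul,
        one_mul]
      have : ((e * m : ℕ) : ℤ) - e = (e : ℤ) * ((m : ℤ) - 1) := by push_cast; ring
      rw [this, jC_coeff_mul, helper1644.coeff_jq_natCast_sub_one]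
    · rw [if_neg hd, jC_coeff_of_not_dvd]
      intro hcon
      apply hd
      have h4 : (e : ℤ) ∣ (n : ℤ) := by
        have := dvd_add hcon (dvd_refl (e : ℤ))
        rwa [sub_add_cancel] at this
      exact Int.natCast_dvd_natCast.mp h4

/-! ## The conjugates `τ ↦ J(d · g⁻¹τ)` -/

/-- The point `d τ` of the upper half plane. -/
def scl (d : ℕ) (hd : 0 < d) (τ : ℍ) : ℍ :=
  ⟨(d : ℂ) * τ, by
    have : ((d : ℂ) * (τ : ℂ)).im = d * τ.im := by simp
    rw [this]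
    exact mul_pos (by exact_mod_cast hd) τ.im_pos⟩

theorem coe_scl (d : ℕ) (hd : 0 < d) (τ : ℍ) : (scl d hd τ : ℂ) = (d : ℂ) * τ := rfl

/-- The point `(a τ + b) / d` of the upper half plane. -/
def affPt (a b d : ℕ) (ha : 0 < a) (hd : 0 < d) (τ : ℍ) : ℍ :=
  ⟨((a : ℂ) * τ + b) / d, by
    have : (((a : ℂ) * τ + b) / d).im = a * τ.im / d := by simp
    rw [this]
    exact div_pos (mul_pos (by exact_mod_cast ha) τ.im_pos) (by exact_mod_cast hd)⟩

theorem coe_affPt (a b d : ℕ) (ha : 0 < a) (hd : 0 < d) (τ : ℍ) :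
    (affPt a b d ha hd τ : ℂ) = ((a : ℂ) * τ + b) / d := rfl

/-- The function `τ ↦ J(d · g⁻¹τ)`. -/
def jdg (d : ℕ) (hd : 0 < d) (g : SL(2, ℤ)) : ℍ → ℂ := fun τ => J (scl d hd (g⁻¹ • τ))

theorem jdg_one (d : ℕ) (hd : 0 < d) : jdg d hd 1 = fun τ => J (scl d hd τ) := by
  funext τ
  simp [jdg]

/-- Hermite form: `J(d · g⁻¹τ) = J((aτ + b)/d')` with `a d' = d`. -/
theorem exists_jdg_eq_affPt (d : ℕ) (hd : 0 < d) (g : SL(2, ℤ)) :
    ∃ (a b d' : ℕ) (ha : 0 < a) (hd' : 0 < d'), a * d' = d ∧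
      jdg d hd g = fun τ => J (affPt a b d' ha hd' τ) := by
  obtain ⟨a, b, d', -, had, -, H⟩ := Fermat.Agent.Lib.helper319.exists_hermite_invariant d hd g⁻¹
  have ha : 0 < a := by
    rcases Nat.eq_zero_or_pos a with h0 | h0
    · rw [h0, zero_mul] at had; omega
    · exact h0
  have hd' : 0 < d' := by
    rcases Nat.eq_zero_or_pos d' with h0 | h0
    · rw [h0, mul_zero] at had; omega
    · exact h0
  refine ⟨a, b, d', ha, hd', had, ?_⟩
  funext τ
  exact H J J_smul τ (scl d hd (g⁻¹ • τ)) (affPt a b d' ha hd' τ) rfl rfl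

theorem qParam_affPt (N : ℕ) (hN : 0 < N) (a b d : ℕ) (ha : 0 < a) (hd : 0 < d) (hdN : d ∣ N)
    (τ : ℍ) :
    𝕢 1 (affPt a b d ha hd τ) =
      Complex.exp (2 * π * Complex.I * b / d) * 𝕢 (N : ℝ) τ ^ (a * (N / d)) := by
  have hdC : (d : ℂ) ≠ 0 := by exact_mod_cast hd.ne'
  have hNC : (N : ℂ) ≠ 0 := by exact_mod_cast hN.ne'
  have hcast : ((N / d : ℕ) : ℂ) = (N : ℂ) / d := Nat.cast_div hdN hdC
  simp only [Periodic.qParam, coe_affPt]
  rw [← Complex.exp_nat_mul, ← Complex.exp_add]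
  congr 1
  push_cast
  rw [hcast]
  field_simp
  ring

theorem mdiff_J_affPt (a b d : ℕ) (ha : 0 < a) (hd : 0 < d) :
    MDiff (fun τ => J (affPt a b d ha hd τ)) := by
  have hdC : (d : ℂ) ≠ 0 := by exact_mod_cast hd.ne'
  refine mdiff_comp_affine helper1644.mdifferentiable_jFun ((a : ℂ) / d) ((b : ℂ) / d) _ fun τ => ?_
  rw [coe_affPt]
  field_simp

/-- The conjugates are meromorphic at `i∞` of period `N`. -/
theorem isMero_jdg (N : ℕ) (hN : 0 < N) (d : ℕ) (hd : 0 < d) (hdN : d ∣ N) (g : SL(2, ℤ)) :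
    IsMero (N : ℝ) (jdg d hd g) := by
  obtain ⟨a, b, d', ha, hd', had, H⟩ := exists_jdg_eq_affPt d hd g
  have hd'N : d' ∣ N := (Dvd.intro_left a had).trans hdN
  have hNd' : 0 < N / d' := Nat.div_pos (Nat.le_of_dvd hN hd'N) hd'
  have hNR : (0 : ℝ) < N := by exact_mod_cast hN
  rw [H]
  exact ⟨a * (N / d'), (lexp_J_comp hNR (Nat.mul_pos ha hNd') (Complex.exp_ne_zero _) _
    (fun τ => qParam_affPt N hN a b d' ha hd' hd'N τ) (mdiff_J_affPt a b d' ha hd')).1⟩

theorem qParam_scl (d : ℕ) (hd : 0 < d) (τ : ℍ) : 𝕢 1 (scl d hd τ) = 𝕢 1 τ ^ d := by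
  simp only [Periodic.qParam, coe_scl]
  rw [← Complex.exp_nat_mul]
  congr 1
  push_cast
  ring

theorem mdiff_J_scl (d : ℕ) (hd : 0 < d) : MDiff (fun τ => J (scl d hd τ)) := by
  refine mdiff_comp_affine helper1644.mdifferentiable_jFun (d : ℂ) 0 _ fun τ => ?_
  rw [coe_scl, add_zero]

/-- The `q`-expansion of `τ ↦ J(dτ)` is `j(q^d)`. -/
theorem lexp_jdg_one (d : ℕ) [NeZero d] (hd : 0 < d) :
    IsMero 1 (jdg d hd 1) ∧ lexp 1 (jdg d hd 1) = jC d := by
  rw [jdg_one]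
  exact lexp_J_comp_one one_pos d (scl d hd) (qParam_scl d hd) (mdiff_J_scl d hd)

theorem qParam_one_eq_pow (N : ℕ) (hN : 0 < N) (τ : ℍ) : 𝕢 1 τ = 𝕢 (N : ℝ) τ ^ N := by
  have hNC : (N : ℂ) ≠ 0 := by exact_mod_cast hN.ne'
  simp only [Periodic.qParam]
  rw [← Complex.exp_nat_mul]
  congr 1
  push_cast
  field_simp

/-- The `q^{1/N}`-expansion of `J` is `j(t^N)`. -/
theorem lexp_J (N : ℕ) [NeZero N] :
    IsMero (N : ℝ) J ∧ lexp (N : ℝ) J = jC N := by
  have hN : 0 < N := Nat.pos_of_ne_zero (NeZero.ne N)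
  have hNR : (0 : ℝ) < N := by exact_mod_cast hN
  exact lexp_J_comp_one hNR N id (fun τ => qParam_one_eq_pow N hN τ)
    helper1644.mdifferentiable_jFun

theorem jdg_one_left (g : SL(2, ℤ)) : jdg 1 one_pos g = J := by
  funext τ
  have : scl 1 one_pos (g⁻¹ • τ) = g⁻¹ • τ := by
    apply UpperHalfPlane.ext
    rw [coe_scl]
    simp
  rw [jdg, this, J_smul]

theorem Gamma0_le_of_dvd {d N : ℕ} (hdN : d ∣ N) : Gamma0 N ≤ Gamma0 d := by
  intro γ hγ
  rw [Gamma0_mem] at hγ ⊢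
  rw [ZMod.intCast_zmod_eq_zero_iff_dvd] at hγ ⊢
  exact (Int.natCast_dvd_natCast.mpr hdN).trans hγ

/-- The conjugates only depend on the coset `g Γ₀(N)`. -/
theorem jdg_mul_of_mem (N d : ℕ) (hd : 0 < d) (hdN : d ∣ N) (g γ : SL(2, ℤ)) (hγ : γ ∈ Gamma0 N) :
    jdg d hd (g * γ) = jdg d hd g := by
  funext τ
  have hγ' : γ⁻¹ ∈ Gamma0 d := (Gamma0 d).inv_mem (Gamma0_le_of_dvd hdN hγ)
  show J (scl d hd ((g * γ)⁻¹ • τ)) = J (scl d hd (g⁻¹ • τ))
  rw [mul_inv_rev, mul_smul]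
  exact Fermat.Agent.Lib.helper319.eq_of_mem_Gamma0 J J_smul d hd γ⁻¹ hγ' (g⁻¹ • τ) _ _ rfl rfl

/-- Replacing `g` by `T g` translates the conjugate by `-1`. -/
theorem jdg_T_mul (d : ℕ) (hd : 0 < d) (g : SL(2, ℤ)) :
    jdg d hd (ModularGroup.T * g) = shift (-1) (jdg d hd g) := by
  funext τ
  show J (scl d hd ((ModularGroup.T * g)⁻¹ • τ)) = J (scl d hd (g⁻¹ • ((-1 : ℝ) +ᵥ τ)))
  rw [mul_inv_rev, mul_smul]
  have : ModularGroup.T⁻¹ • τ = (-1 : ℝ) +ᵥ τ := by
    have h1 := modular_T_zpow_smul τ (-1)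
    rw [zpow_neg_one] at h1
    rw [h1]
    simp
  rw [this]

/-- Distinct cosets give distinct conjugates of `J(Nτ)`. -/
theorem coset_eq_of_jdg_eq (N : ℕ) (hN : 0 < N) (g g' : SL(2, ℤ))
    (H : jdg N hN g = jdg N hN g') : (g : SL(2, ℤ) ⧸ Gamma0 N) = (g' : SL(2, ℤ) ⧸ Gamma0 N) := by
  apply Fermat.Agent.Lib.helper319.coset_eq_of_forall_eq J J_smul J_growth N hN g g'
  intro τ σ₁ σ₂ h1 h2
  have e1 : σ₁ = scl N hN (g⁻¹ • τ) := UpperHalfPlane.ext (by rw [h1, coe_scl])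
  have e2 : σ₂ = scl N hN (g'⁻¹ • τ) := UpperHalfPlane.ext (by rw [h2, coe_scl])
  rw [e1, e2]
  exact congrFun H τ

/-! ## The dictionary between formal and analytic expansions -/

/-- The chosen embedding `ℚ̄ → ℂ`. -/
def φ0AlgHom : AlgebraicClosure ℚ →ₐ[ℚ] ℂ :=
  haveI : Algebra.IsAlgebraic ℚ (AlgebraicClosure ℚ) := AlgebraicClosure.isAlgebraic ℚ
  IsAlgClosed.lift

/-- The chosen embedding `ℚ̄ → ℂ`. -/
def φ0 : Kbar →+* ℂ := φ0AlgHom.toRingHom

theorem φ0_algebraMap (r : ℚ) : φ0 (algebraMap ℚ Kbar r) = (r : ℂ) := by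
  exact φ0AlgHom.commutes r

theorem coeffMap_φ0_injective : Function.Injective (coeffMap φ0) := by
  intro x y hxy
  ext k
  have := congrArg (fun z => z.coeff k) hxy
  simp only [coeffMap_coeff] at this
  exact φ0.injective this

/-- The `ℚ̄`-algebra structure on `ℂ((t))` induced by `φ0`. -/
@[reducible] def algKL : Algebra Kbar (LaurentSeries ℂ) := ((HahnSeries.C : ℂ →+* LaurentSeries ℂ).comp φ0).toAlgebra

attribute [local instance] algKL

theorem algebraMap_KL (a : Kbar) :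
    algebraMap Kbar (LaurentSeries ℂ) a = HahnSeries.C (φ0 a) := rfl

/-- The index type of the generators `j(q^d)`, `d ∣ N`. -/
abbrev Dv (N : ℕ) : Type := {d : ℕ // d ∣ N}

instance instNeZeroDv (N : ℕ) [NeZero N] (d : Dv N) : NeZero d.1 :=
  ⟨fun h => NeZero.ne N (Nat.eq_zero_of_zero_dvd (h ▸ d.2))⟩

theorem Dv.pos {N : ℕ} [NeZero N] (d : Dv N) : 0 < d.1 := Nat.pos_of_ne_zero (NeZero.ne d.1)

/-- The generators `j(q^d)` of the function field. -/
def genK (N : ℕ) [NeZero N] : Dv N → LaurentSeries Kbar := fun d => jSeries d.1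

theorem coeffEmb_algebraMap (r : ℚ) :
    coeffEmb Kbar (algebraMap ℚ (LaurentSeries ℚ) r) =
      algebraMap Kbar (LaurentSeries Kbar) (algebraMap ℚ Kbar r) := by
  rw [algebraMap_laurentSeries_eq_single, algebraMap_laurentSeries_eq_single, coeffEmb,
    coeffMap_single]

/-- The function field is generated over `ℚ̄` by the `j(q^d)`, `d ∣ N`. -/
theorem modularFunctionFieldBar_eq_adjoin (N : ℕ) [NeZero N] :
    modularFunctionFieldBar N = IntermediateField.adjoin Kbar (Set.range (genK N)) := by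
  apply le_antisymm
  · show IntermediateField.adjoin Kbar _ ≤ _
    rw [IntermediateField.adjoin_le_iff]
    rintro _ ⟨x, hx, rfl⟩
    have hx' : x ∈ IntermediateField.adjoin ℚ (divisorExpansions N) := hx
    refine IntermediateField.adjoin_induction ℚ
      (p := fun y _ => coeffEmb Kbar y ∈ IntermediateField.adjoin Kbar (Set.range (genK N)))
      ?_ ?_ ?_ ?_ ?_ hx'
    · rintro y ⟨d, hd0, hdN, rfl⟩
      exact IntermediateField.subset_adjoin Kbar _ ⟨⟨d, hdN⟩, rfl⟩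
    · intro r
      rw [coeffEmb_algebraMap]
      exact IntermediateField.algebraMap_mem _ _
    · intro y z _ _ h1 h2
      rw [map_add]
      exact add_mem h1 h2
    · intro y _ h1
      rw [map_inv₀]
      exact inv_mem h1
    · intro y z _ _ h1 h2
      rw [map_mul]
      exact mul_mem h1 h2
  · rw [IntermediateField.adjoin_le_iff]
    rintro _ ⟨d, rfl⟩
    exact jSeries_mem N d.1 d.2

/-- Analytic evaluation of a polynomial in the generators at the conjugates attached to `g`. -/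
def evA (N : ℕ) [NeZero N] (g : SL(2, ℤ)) : MvPolynomial (Dv N) Kbar →+* (ℍ → ℂ) :=
  MvPolynomial.eval₂Hom ((Pi.constRingHom ℍ ℂ).comp φ0) (fun d => jdg d.1 d.pos g)

theorem evA_C (N : ℕ) [NeZero N] (g : SL(2, ℤ)) (a : Kbar) :
    evA N g (MvPolynomial.C a) = fun _ => φ0 a := by
  rw [evA, MvPolynomial.eval₂Hom_C]
  rfl

theorem evA_X (N : ℕ) [NeZero N] (g : SL(2, ℤ)) (d : Dv N) :
    evA N g (MvPolynomial.X d) = jdg d.1 d.pos g := by
  rw [evA, MvPolynomial.eval₂Hom_X']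

/-- `evA g p` is `evA 1 p` precomposed with `g⁻¹`. -/
theorem evA_apply (N : ℕ) [NeZero N] (g : SL(2, ℤ)) (p : MvPolynomial (Dv N) Kbar) (τ : ℍ) :
    evA N g p τ = evA N 1 p (g⁻¹ • τ) := by
  induction p using MvPolynomial.induction_on with
  | C a => rw [evA_C, evA_C]
  | add p q hp hq => rw [map_add, map_add, Pi.add_apply, Pi.add_apply, hp, hq]
  | mul_X p d hp =>
    have e1 : jdg d.1 d.pos g τ = jdg d.1 d.pos 1 (g⁻¹ • τ) := by simp [jdg]
    rw [map_mul, map_mul, Pi.mul_apply, Pi.mul_apply, hp, evA_X, evA_X, e1]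

/-- The analytic evaluation is meromorphic at `i∞` and its expansion is the formal evaluation at
the expansions of the conjugates. -/
theorem evA_lexp (N : ℕ) [NeZero N] (g : SL(2, ℤ)) (p : MvPolynomial (Dv N) Kbar) :
    IsMero (N : ℝ) (evA N g p) ∧ lexp (N : ℝ) (evA N g p) =
      MvPolynomial.aeval (fun d : Dv N => lexp (N : ℝ) (jdg d.1 d.pos g)) p := by
  have hN : 0 < N := Nat.pos_of_ne_zero (NeZero.ne N)
  have hNR : (0 : ℝ) < N := by exact_mod_cast hN
  induction p using MvPolynomial.induction_on with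
  | C a =>
    rw [evA_C, MvPolynomial.aeval_C, algebraMap_KL]
    exact ⟨IsMero.const _ _, lexp_const hNR _⟩
  | add p q hp hq =>
    rw [map_add, map_add]
    exact ⟨hp.1.add hNR hq.1, by rw [lexp_add hNR hp.1 hq.1, hp.2, hq.2]⟩
  | mul_X p d hp =>
    have hd : IsMero (N : ℝ) (jdg d.1 d.pos g) := isMero_jdg N hN d.1 d.pos d.2 g
    rw [map_mul, map_mul, evA_X, MvPolynomial.aeval_X]
    exact ⟨hp.1.mul hd, by rw [lexp_mul hNR hp.1 hd, hp.2]⟩

theorem coeffMap_φ0_jSeries (d : ℕ) [NeZero d] : coeffMap φ0 (jSeries d) = jC d := by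
  ext k
  rw [coeffMap_coeff, jSeries, coeffEmb_coeff, φ0_algebraMap]
  by_cases hd : (d : ℤ) ∣ k
  · obtain ⟨j, rfl⟩ := hd
    rw [qExpand_coeff_mul, jC_coeff_mul]
  · rw [qExpand_coeff_of_not_dvd d _ hd, jC_coeff_of_not_dvd d hd]
    simp

theorem coeffMap_φ0_algebraMap (a : Kbar) :
    coeffMap φ0 (algebraMap Kbar (LaurentSeries Kbar) a) = HahnSeries.C (φ0 a) := by
  rw [algebraMap_laurentSeries_eq_single, coeffMap_single, HahnSeries.C_apply]

/-- At the identity coset the expansion (in `q`) of the analytic evaluation is the image of the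
formal evaluation under the coefficient embedding. -/
theorem evA_one_lexp (N : ℕ) [NeZero N] (p : MvPolynomial (Dv N) Kbar) :
    IsMero 1 (evA N 1 p) ∧ lexp 1 (evA N 1 p) = coeffMap φ0 (MvPolynomial.aeval (genK N) p) := by
  induction p using MvPolynomial.induction_on with
  | C a =>
    rw [evA_C, MvPolynomial.aeval_C, coeffMap_φ0_algebraMap]
    exact ⟨IsMero.const _ _, lexp_const one_pos _⟩
  | add p q hp hq =>
    rw [map_add, map_add, map_add]
    exact ⟨hp.1.add one_pos hq.1, by rw [lexp_add one_pos hp.1 hq.1, hp.2, hq.2]⟩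
  | mul_X p d hp =>
    obtain ⟨hd1, hd2⟩ := lexp_jdg_one d.1 d.pos
    rw [map_mul, map_mul, map_mul, evA_X, MvPolynomial.aeval_X]
    refine ⟨hp.1.mul hd1, ?_⟩
    rw [lexp_mul one_pos hp.1 hd1, hp.2, hd2]
    congr 1
    exact (coeffMap_φ0_jSeries d.1).symm

/-- The formal relations between the `j(q^d)` are exactly the relations between the expansions
of their `g`-conjugates. -/
theorem aeval_eq_zero_iff (N : ℕ) [NeZero N] (g : SL(2, ℤ)) (p : MvPolynomial (Dv N) Kbar) :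
    MvPolynomial.aeval (genK N) p = 0 ↔
      MvPolynomial.aeval (fun d : Dv N => lexp (N : ℝ) (jdg d.1 d.pos g)) p = 0 := by
  have hN : 0 < N := Nat.pos_of_ne_zero (NeZero.ne N)
  have hNR : (0 : ℝ) < N := by exact_mod_cast hN
  obtain ⟨h1, h2⟩ := evA_one_lexp N p
  obtain ⟨h3, h4⟩ := evA_lexp N g p
  rw [← h4, lexp_eq_zero_iff hNR h3]
  have e1 : MvPolynomial.aeval (genK N) p = 0 ↔ evA N 1 p = 0 := by
    rw [← lexp_eq_zero_iff one_pos h1, h2]
    constructor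
    · intro h; rw [h, map_zero]
    · intro h; exact coeffMap_φ0_injective (h.trans (map_zero _).symm)
  rw [e1]
  constructor
  · intro h
    funext τ
    rw [evA_apply, h]
    rfl
  · intro h
    funext τ
    have := congrFun h (g • τ)
    rw [evA_apply, inv_smul_smul] at this
    exact this

theorem exists_iota' (N : ℕ) [NeZero N] (g : SL(2, ℤ)) :
    ∃ Φ : FN N →ₐ[Kbar] LaurentSeries ℂ,
      ∀ d : Dv N, Φ (jBarD N d.1 d.2) = lexp (N : ℝ) (jdg d.1 d.pos g) := by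
  obtain ⟨Φ, hΦ⟩ := exists_algHom_of_eq_adjoin_range (genK N)
    (fun d : Dv N => lexp (N : ℝ) (jdg d.1 d.pos g)) (modularFunctionFieldBar N)
    (modularFunctionFieldBar_eq_adjoin N) (aeval_eq_zero_iff N g)
  exact ⟨Φ, fun d => hΦ d _⟩

/-- The embedding of the function field into `ℂ((t))` attached to `g ∈ SL(2, ℤ)`. -/
def iota' (N : ℕ) [NeZero N] (g : SL(2, ℤ)) : FN N →ₐ[Kbar] LaurentSeries ℂ :=
  (exists_iota' N g).choose

theorem iota'_gen (N : ℕ) [NeZero N] (g : SL(2, ℤ)) (d : Dv N) :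
    iota' N g (jBarD N d.1 d.2) = lexp (N : ℝ) (jdg d.1 d.pos g) :=
  (exists_iota' N g).choose_spec d

theorem iota'_ext (N : ℕ) [NeZero N] {Φ₁ Φ₂ : FN N →ₐ[Kbar] LaurentSeries ℂ}
    (h : ∀ d : Dv N, Φ₁ (jBarD N d.1 d.2) = Φ₂ (jBarD N d.1 d.2)) : Φ₁ = Φ₂ :=
  algHom_ext_of_eq_adjoin_range (genK N) (modularFunctionFieldBar N)
    (modularFunctionFieldBar_eq_adjoin N) fun d _ => h d

theorem iota'_jBar (N : ℕ) [NeZero N] (g : SL(2, ℤ)) : iota' N g (jBar N) = jC N := by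
  have h1 : jBar N = jBarD N (⟨1, one_dvd N⟩ : Dv N).1 (⟨1, one_dvd N⟩ : Dv N).2 := rfl
  rw [h1, iota'_gen]
  have h2 : jdg (⟨1, one_dvd N⟩ : Dv N).1 (Dv.pos (⟨1, one_dvd N⟩ : Dv N)) g = J :=
    jdg_one_left g
  rw [h2]
  exact (lexp_J N).2

theorem iota'_mul_of_mem (N : ℕ) [NeZero N] (g γ : SL(2, ℤ)) (hγ : γ ∈ Gamma0 N) :
    iota' N (g * γ) = iota' N g :=
  iota'_ext N fun d => by
    rw [iota'_gen, iota'_gen, jdg_mul_of_mem N d.1 d.pos d.2 g γ hγ]

/-- The embedding attached to a coset `x ∈ SL(2, ℤ) ⧸ Γ₀(N)`. -/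
def iota (N : ℕ) [NeZero N] (x : XN N) : FN N →ₐ[Kbar] LaurentSeries ℂ :=
  iota' N (Quotient.out x)

theorem iota_mk (N : ℕ) [NeZero N] (g : SL(2, ℤ)) : iota N (g : XN N) = iota' N g := by
  obtain ⟨γ, hγ⟩ := QuotientGroup.mk_out_eq_mul (Gamma0 N) g
  rw [iota, hγ]
  exact iota'_mul_of_mem N g γ γ.2

theorem iota_injective (N : ℕ) [NeZero N] : Function.Injective (iota N) := by
  have hN : 0 < N := Nat.pos_of_ne_zero (NeZero.ne N)
  have hNR : (0 : ℝ) < N := by exact_mod_cast hN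
  intro x y hxy
  have h1 : iota' N (Quotient.out x) (jBarD N N (dvd_refl N)) =
      iota' N (Quotient.out y) (jBarD N N (dvd_refl N)) :=
    congrArg (fun Φ : FN N →ₐ[Kbar] LaurentSeries ℂ => Φ (jBarD N N (dvd_refl N))) hxy
  have ex : iota' N (Quotient.out x) (jBarD N N (dvd_refl N)) =
      lexp (N : ℝ) (jdg N hN (Quotient.out x)) := iota'_gen N (Quotient.out x) ⟨N, dvd_refl N⟩
  have ey : iota' N (Quotient.out y) (jBarD N N (dvd_refl N)) =
      lexp (N : ℝ) (jdg N hN (Quotient.out y)) := iota'_gen N (Quotient.out y) ⟨N, dvd_refl N⟩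
  have h2 := lexp_injective hNR (isMero_jdg N hN N hN (dvd_refl N) _)
    (isMero_jdg N hN N hN (dvd_refl N) _) ((ex.symm.trans h1).trans ey)
  have h3 := coset_eq_of_jdg_eq N hN _ _ h2
  rw [QuotientGroup.out_eq', QuotientGroup.out_eq'] at h3
  exact h3

/-! ## The twist by `T` -/

/-- The root of unity `e^{-2πi/N}` as a unit of `ℂ`. -/
def zetaN (N : ℕ) : ℂˣ := Units.mk0 (𝕢 (N : ℝ) ((-1 : ℝ) : ℂ)) (Periodic.qParam_ne_zero _)

theorem zetaN_isPrimitiveRoot (N : ℕ) (hN : 0 < N) : IsPrimitiveRoot (zetaN N) N := by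
  rw [← IsPrimitiveRoot.coe_units_iff]
  have h1 := (Complex.isPrimitiveRoot_exp N hN.ne').inv
  have e : ((zetaN N : ℂˣ) : ℂ) = (Complex.exp (2 * π * Complex.I / N))⁻¹ := by
    show 𝕢 (N : ℝ) ((-1 : ℝ) : ℂ) = _
    rw [Periodic.qParam, ← Complex.exp_neg]
    congr 1
    push_cast
    ring
  rw [e]
  exact h1

/-- The automorphism `t ↦ ζ_N⁻¹ t` of `ℂ((t))` over `ℚ̄`. -/
def sigma (N : ℕ) : LaurentSeries ℂ ≃ₐ[Kbar] LaurentSeries ℂ :=
  AlgEquiv.ofRingEquiv (f := twist (zetaN N)) fun a => twist_C (zetaN N) (φ0 a)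

theorem sigma_apply (N : ℕ) (z : LaurentSeries ℂ) : sigma N z = twist (zetaN N) z := rfl

theorem sigma_pow_apply (N : ℕ) (k : ℕ) (z : LaurentSeries ℂ) :
    (sigma N ^ k) z = (twist (zetaN N))^[k] z := by
  induction k with
  | zero => simp
  | succ k ih =>
    rw [pow_succ', AlgEquiv.mul_apply, ih, Function.iterate_succ_apply', sigma_apply]

theorem sigma_comp_iota' (N : ℕ) [NeZero N] (g : SL(2, ℤ)) :
    (sigma N : LaurentSeries ℂ →ₐ[Kbar] LaurentSeries ℂ).comp (iota' N g) =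
      iota' N (ModularGroup.T * g) := by
  have hN : 0 < N := Nat.pos_of_ne_zero (NeZero.ne N)
  have hNR : (0 : ℝ) < N := by exact_mod_cast hN
  refine iota'_ext N fun d => ?_
  rw [AlgHom.comp_apply, iota'_gen, iota'_gen, jdg_T_mul]
  ext k
  rw [lexp_shift_coeff hNR (isMero_jdg N hN d.1 d.pos d.2 g)]
  show ((zetaN N ^ k : ℂˣ) : ℂ) * _ = _
  rw [Units.val_zpow_eq_zpow_val]
  rfl

theorem sigma_iota (N : ℕ) [NeZero N] (x : XN N) (f : FN N) :
    sigma N (iota N x f) = iota N (ModularGroup.T • x) f := by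
  obtain ⟨g, rfl⟩ := QuotientGroup.mk_surjective x
  have h1 : ModularGroup.T • (g : XN N) = ((ModularGroup.T * g : SL(2, ℤ)) : XN N) := rfl
  rw [h1, iota_mk, iota_mk, ← sigma_comp_iota']
  rfl

/-- **M6**: the local datum at the cusp. -/
theorem stmt_LocalInf : Stmt_LocalInf := by
  intro N _
  have hN : 0 < N := Nat.pos_of_ne_zero (NeZero.ne N)
  refine ⟨LaurentSeries ℂ, inferInstance, algKL, HahnSeries.addVal ℤ ℂ, iota N, sigma N,
    (jC N)⁻¹, ?_, iota_injective N, ?_, hN, ?_, ?_, Or.inl (sigma_iota N), ?_⟩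
  · intro a ha
    rw [algebraMap_KL, HahnSeries.addVal_apply, HahnSeries.C_apply,
      HahnSeries.orderTop_single (φ0.injective.ne_iff' (map_zero φ0) |>.mpr ha)]
    rfl
  · intro x
    obtain ⟨g, rfl⟩ := QuotientGroup.mk_surjective x
    rw [iota_mk, map_inv₀, iota'_jBar]
  · rw [AddValuation.map_inv, HahnSeries.addVal_apply, orderTop_jC,
      ← WithTop.LinearOrderedAddCommGroup.coe_neg, neg_neg]
  · intro z
    rw [sigma_apply, addVal_twist]
  · intro k z hz hfix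
    rw [sigma_pow_apply] at hfix
    exact exists_order_eq_of_twist_iterate_eq hN (zetaN_isPrimitiveRoot N hN) k z hz hfix

end Fermat.Agent.S24.helper1284
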