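import Mathlib

/-!
# S24 / MOD-H: the ring of holomorphic functions on the upper half plane, its fraction field,
order valuations at points and the action of `SL(2, ℤ)` (helper1301)

Everything here is Mathlib-only.

* `Hol` : the `ℂ`-subalgebra of `ℍ → ℂ` of holomorphic functions; it is a domain.
* `Mer := FractionRing Hol`.
* `ordAt τ0 : AddValuation Mer (WithTop ℤ)` : the order at `τ0`.
* `merPull g : Mer ≃ₐ[ℂ] Mer` : pull back along `τ ↦ g • τ` for `g : SL(2, ℤ)`.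
* the stabilizer lemma `stabilizer_pow_eq_one`.
-/

set_option autoImplicit false

open UpperHalfPlane Complex Filter
open scoped MatrixGroups Manifold Topology

namespace Fermat.Agent.S24.helper1301

noncomputable section

/-- The `ℂ`-algebra of holomorphic functions on the upper half plane. -/
def Hol : Subalgebra ℂ (ℍ → ℂ) where
  carrier := {f | MDiff f}
  mul_mem' hf hg := hf.mul hg
  one_mem' := mdifferentiable_const
  add_mem' hf hg := hf.add hg
  zero_mem' := mdifferentiable_const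
  algebraMap_mem' _ := mdifferentiable_const

theorem mem_Hol {f : ℍ → ℂ} : f ∈ Hol ↔ MDiff f := Iff.rfl

theorem hol_mdiff (a : Hol) : MDiff (a : ℍ → ℂ) := a.2

instance : IsDomain Hol := by
  have : NoZeroDivisors Hol := ⟨fun {a b} h => by
    have h' : (a : ℍ → ℂ) * (b : ℍ → ℂ) = 0 := congrArg Subtype.val h
    rcases (UpperHalfPlane.mul_eq_zero_iff a.2 b.2).mp h' with h1 | h1
    · exact Or.inl (Subtype.ext h1)
    · exact Or.inr (Subtype.ext h1)⟩
  exact NoZeroDivisors.to_isDomain _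

/-- The field of meromorphic functions on the upper half plane (formal fractions). -/
abbrev Mer : Type := FractionRing Hol

/-- Evaluation at a point, as a ring homomorphism. -/
def evalAt (τ0 : ℍ) : Hol →+* ℂ where
  toFun a := (a : ℍ → ℂ) τ0
  map_one' := rfl
  map_mul' _ _ := rfl
  map_zero' := rfl
  map_add' _ _ := rfl

@[simp] theorem evalAt_apply (τ0 : ℍ) (a : Hol) : evalAt τ0 a = (a : ℍ → ℂ) τ0 := rfl

theorem hol_analyticAt (a : Hol) (τ0 : ℍ) :
    AnalyticAt ℂ ((a : ℍ → ℂ) ∘ ofComplex) (τ0 : ℂ) :=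
  (UpperHalfPlane.mdifferentiable_iff.mp a.2).analyticAt
    (isOpen_upperHalfPlaneSet.mem_nhds τ0.im_pos)

/-- The order of vanishing at `τ0` of a holomorphic function, in `ℕ∞`. -/
def ordN (τ0 : ℍ) (a : Hol) : ℕ∞ := analyticOrderAt ((a : ℍ → ℂ) ∘ ofComplex) (τ0 : ℂ)

theorem ordN_mul (τ0 : ℍ) (a b : Hol) : ordN τ0 (a * b) = ordN τ0 a + ordN τ0 b :=
  analyticOrderAt_mul (hol_analyticAt a τ0) (hol_analyticAt b τ0)

theorem ordN_add (τ0 : ℍ) (a b : Hol) : min (ordN τ0 a) (ordN τ0 b) ≤ ordN τ0 (a + b) :=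
  le_analyticOrderAt_add

theorem ordN_eq_zero_iff (τ0 : ℍ) (a : Hol) : ordN τ0 a = 0 ↔ evalAt τ0 a ≠ 0 := by
  rw [ordN, (hol_analyticAt a τ0).analyticOrderAt_eq_zero]
  simp

theorem ordN_eq_top_iff (τ0 : ℍ) (a : Hol) : ordN τ0 a = ⊤ ↔ a = 0 := by
  constructor
  · intro h
    rw [ordN, analyticOrderAt_eq_top] at h
    apply Subtype.ext
    apply eq_zero_of_frequently a.2 (τ := τ0)
    apply Eventually.frequently
    rw [← isOpenEmbedding_coe.map_nhds_eq, eventually_map] at h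
    rw [eventually_nhdsWithin_iff]
    filter_upwards [h] with z hz _
    simpa using hz
  · rintro rfl
    rw [ordN, analyticOrderAt_eq_top]
    exact Eventually.of_forall fun z => rfl

theorem ordN_one (τ0 : ℍ) : ordN τ0 1 = 0 := by
  rw [ordN_eq_zero_iff]
  simp

/-- The function `τ ↦ τ - τ0`, a uniformizer at `τ0`. -/
def uAt (τ0 : ℍ) : Hol :=
  ⟨fun τ => (τ : ℂ) - (τ0 : ℂ), mdifferentiable_coe.sub mdifferentiable_const⟩

@[simp] theorem uAt_apply (τ0 τ : ℍ) : (uAt τ0 : ℍ → ℂ) τ = (τ : ℂ) - (τ0 : ℂ) := rfl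

theorem ordN_uAt (τ0 : ℍ) : ordN τ0 (uAt τ0) = 1 := by
  have h : ((uAt τ0 : Hol) : ℍ → ℂ) ∘ ofComplex =ᶠ[𝓝 (τ0 : ℂ)] (· - (τ0 : ℂ)) := by
    filter_upwards [isOpen_upperHalfPlaneSet.mem_nhds τ0.im_pos] with z hz
    simp [ofComplex_apply_of_im_pos hz]
  rw [ordN, analyticOrderAt_congr h]
  exact analyticOrderAt_id_sub_const_self

theorem uAt_ne_zero (τ0 : ℍ) : uAt τ0 ≠ 0 := by
  intro h
  have h1 := ordN_uAt τ0
  rw [h, (ordN_eq_top_iff τ0 0).mpr rfl] at h1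
  exact absurd h1 (by simp)

/-- Division by the uniformizer: a holomorphic function vanishing at `τ0` is divisible by
`τ - τ0` in `Hol`. -/
theorem exists_eq_uAt_mul (τ0 : ℍ) (a : Hol) (ha : evalAt τ0 a = 0) :
    ∃ a₁ : Hol, a = uAt τ0 * a₁ := by
  set A : ℂ → ℂ := (a : ℍ → ℂ) ∘ ofComplex with hA
  have hdiff : DifferentiableOn ℂ (dslope A (τ0 : ℂ)) {z | 0 < z.im} :=
    (Complex.differentiableOn_dslope (isOpen_upperHalfPlaneSet.mem_nhds τ0.im_pos)).mpr
      (UpperHalfPlane.mdifferentiable_iff.mp a.2)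
  refine ⟨⟨fun τ => dslope A (τ0 : ℂ) (τ : ℂ), ?_⟩, ?_⟩
  · rw [mem_Hol, UpperHalfPlane.mdifferentiable_iff]
    refine hdiff.congr fun z hz => ?_
    simp [ofComplex_apply_of_im_pos hz]
  · apply Subtype.ext
    funext τ
    have h1 := sub_smul_dslope A (τ0 : ℂ) (τ : ℂ)
    have h2 : A (τ0 : ℂ) = 0 := by simpa [hA] using ha
    have h3 : A (τ : ℂ) = (a : ℍ → ℂ) τ := by simp [hA]
    rw [h2, sub_zero, h3, smul_eq_mul] at h1
    exact h1.symm

/-- `u`-adic decomposition of a nonzero holomorphic function at `τ0`. -/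
theorem exists_eq_uAt_pow_mul (τ0 : ℍ) (a : Hol) (ha : a ≠ 0) :
    ∃ (p : ℕ) (a' : Hol), a = uAt τ0 ^ p * a' ∧ evalAt τ0 a' ≠ 0 ∧ ordN τ0 a = p := by
  have hne : ordN τ0 a ≠ ⊤ := fun h => ha ((ordN_eq_top_iff τ0 a).mp h)
  obtain ⟨n, hn⟩ := ENat.ne_top_iff_exists.mp hne
  induction n generalizing a with
  | zero =>
    refine ⟨0, a, by simp, ?_, hn.symm⟩
    exact (ordN_eq_zero_iff τ0 a).mp hn.symm
  | succ n ih =>
    have h0 : evalAt τ0 a = 0 := by
      by_contra h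
      have := (ordN_eq_zero_iff τ0 a).mpr h
      rw [this] at hn
      exact absurd hn (by simp)
    obtain ⟨a₁, rfl⟩ := exists_eq_uAt_mul τ0 a h0
    have ha₁ : a₁ ≠ 0 := by rintro rfl; exact ha (by simp)
    have h1 : ordN τ0 a₁ = n := by
      rw [ordN_mul, ordN_uAt] at hn
      have : ordN τ0 a₁ ≠ ⊤ := fun h => ha₁ ((ordN_eq_top_iff τ0 a₁).mp h)
      obtain ⟨m, hm⟩ := ENat.ne_top_iff_exists.mp this
      rw [← hm] at hn ⊢
      norm_cast at hn ⊢
      omega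
    obtain ⟨p, a', h2, h3, h4⟩ := ih a₁ ha₁ (fun h => ha₁ ((ordN_eq_top_iff τ0 a₁).mp h)) h1.symm
    refine ⟨p + 1, a', ?_, h3, ?_⟩
    · rw [h2, pow_succ]; ring
    · rw [ordN_mul, ordN_uAt, h4]; push_cast; ring

/-! ## The order valuation -/

/-- The obvious map `ℕ∞ → WithTop ℤ`. -/
def toZ (n : ℕ∞) : WithTop ℤ := WithTop.map (Nat.cast : ℕ → ℤ) n

@[simp] theorem toZ_top : toZ ⊤ = ⊤ := rfl

@[simp] theorem toZ_coe (n : ℕ) : toZ (n : ℕ∞) = ((n : ℤ) : WithTop ℤ) := rfl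

@[simp] theorem toZ_zero : toZ 0 = 0 := rfl

@[simp] theorem toZ_one : toZ 1 = 1 := rfl

theorem toZ_add (a b : ℕ∞) : toZ (a + b) = toZ a + toZ b := by
  induction a using ENat.recTopCoe with
  | top => simp
  | coe a =>
    induction b using ENat.recTopCoe with
    | top => simp
    | coe b =>
      rw [← Nat.cast_add, toZ_coe, toZ_coe, toZ_coe, ← WithTop.coe_add]
      push_cast
      rfl

theorem toZ_mono : Monotone toZ := by
  intro a b h
  induction b using ENat.recTopCoe with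
  | top => simp
  | coe b =>
    induction a using ENat.recTopCoe with
    | top => simp at h
    | coe a =>
      rw [toZ_coe, toZ_coe, WithTop.coe_le_coe]
      exact_mod_cast h

theorem toZ_eq_top_iff (a : ℕ∞) : toZ a = ⊤ ↔ a = ⊤ := by
  induction a using ENat.recTopCoe with
  | top => simp
  | coe a => simp

/-- The order at `τ0` as an additive valuation on `Hol`. -/
def holVal (τ0 : ℍ) : AddValuation Hol (WithTop ℤ) :=
  AddValuation.of (fun a => toZ (ordN τ0 a))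
    (by simp [(ordN_eq_top_iff τ0 0).mpr rfl])
    (by simp [ordN_one])
    (fun a b => by
      rw [← toZ_mono.map_min]
      exact toZ_mono (ordN_add τ0 a b))
    (fun a b => by rw [ordN_mul, toZ_add])

@[simp] theorem holVal_apply (τ0 : ℍ) (a : Hol) : holVal τ0 a = toZ (ordN τ0 a) := rfl

theorem holVal_eq_top_iff (τ0 : ℍ) (a : Hol) : holVal τ0 a = ⊤ ↔ a = 0 := by
  rw [holVal_apply, toZ_eq_top_iff, ordN_eq_top_iff]

theorem nonZeroDivisors_le_primeCompl (τ0 : ℍ) :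
    nonZeroDivisors Hol ≤ (Valuation.supp (holVal τ0)).primeCompl := by
  intro s hs hmem
  have h1 : holVal τ0 s = ⊤ := (AddValuation.mem_supp_iff (holVal τ0) s).mp hmem
  exact nonZeroDivisors.ne_zero hs ((holVal_eq_top_iff τ0 s).mp h1)

/-- The order at `τ0` as an additive valuation on `Mer`. -/
def ordAt (τ0 : ℍ) : AddValuation Mer (WithTop ℤ) :=
  Valuation.extendToLocalization (holVal τ0) (nonZeroDivisors_le_primeCompl τ0) Mer

theorem ordAt_algebraMap (τ0 : ℍ) (a : Hol) :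
    ordAt τ0 (algebraMap Hol Mer a) = toZ (ordN τ0 a) :=
  Valuation.extendToLocalization_apply_map_apply (holVal τ0) (nonZeroDivisors_le_primeCompl τ0)
    Mer a

theorem ordAt_div (τ0 : ℍ) (a b : Hol) :
    ordAt τ0 (algebraMap Hol Mer a / algebraMap Hol Mer b)
      = toZ (ordN τ0 a) - toZ (ordN τ0 b) := by
  rw [AddValuation.map_div, ordAt_algebraMap, ordAt_algebraMap]

theorem ordAt_algebraMap_complex (τ0 : ℍ) (c : ℂ) (hc : c ≠ 0) :
    ordAt τ0 (algebraMap ℂ Mer c) = 0 := by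
  rw [IsScalarTower.algebraMap_apply ℂ Hol Mer, ordAt_algebraMap]
  have : ordN τ0 (algebraMap ℂ Hol c) = 0 := by
    rw [ordN_eq_zero_iff]
    simpa using hc
  rw [this, toZ_zero]

/-! ## The action of `SL(2, ℤ)` by pull back -/

theorem mdiff_comp_smul (g : SL(2, ℤ)) {f : ℍ → ℂ} (hf : MDiff f) :
    MDiff (fun τ : ℍ => f (g • τ)) :=
  hf.comp (mdifferentiable_smul (g := (g : GL (Fin 2) ℝ)) (by simp))

/-- Pull back of holomorphic functions along `τ ↦ g • τ`, as an algebra homomorphism. -/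
def holPullHom (g : SL(2, ℤ)) : Hol →ₐ[ℂ] Hol where
  toFun a := ⟨fun τ => (a : ℍ → ℂ) (g • τ), mdiff_comp_smul g a.2⟩
  map_one' := rfl
  map_mul' _ _ := rfl
  map_zero' := rfl
  map_add' _ _ := rfl
  commutes' _ := rfl

theorem holPullHom_apply (g : SL(2, ℤ)) (a : Hol) (τ : ℍ) :
    (holPullHom g a : ℍ → ℂ) τ = (a : ℍ → ℂ) (g • τ) := rfl

theorem holPullHom_comp (g h : SL(2, ℤ)) (a : Hol) :
    holPullHom g (holPullHom h a) = holPullHom (h * g) a := by
  apply Subtype.ext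
  funext τ
  simp only [holPullHom_apply, mul_smul]

theorem holPullHom_one (a : Hol) : holPullHom 1 a = a := by
  apply Subtype.ext
  funext τ
  simp only [holPullHom_apply, one_smul]

/-- Pull back of holomorphic functions along `τ ↦ g • τ`, as an algebra automorphism. -/
def holPull (g : SL(2, ℤ)) : Hol ≃ₐ[ℂ] Hol :=
  AlgEquiv.ofAlgHom (holPullHom g) (holPullHom g⁻¹)
    (by ext a : 1; simp only [AlgHom.comp_apply, holPullHom_comp, inv_mul_cancel,
      holPullHom_one, AlgHom.id_apply])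
    (by ext a : 1; simp only [AlgHom.comp_apply, holPullHom_comp, mul_inv_cancel,
      holPullHom_one, AlgHom.id_apply])

theorem holPull_apply (g : SL(2, ℤ)) (a : Hol) (τ : ℍ) :
    (holPull g a : ℍ → ℂ) τ = (a : ℍ → ℂ) (g • τ) := rfl

theorem holPull_comp (g h : SL(2, ℤ)) (a : Hol) :
    holPull g (holPull h a) = holPull (h * g) a := holPullHom_comp g h a

theorem holPull_one (a : Hol) : holPull 1 a = a := holPullHom_one a

/-- Pull back of meromorphic functions along `τ ↦ g • τ`. -/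
def merPull (g : SL(2, ℤ)) : Mer ≃ₐ[ℂ] Mer :=
  IsFractionRing.algEquivOfAlgEquiv (holPull g)

theorem merPull_algebraMap (g : SL(2, ℤ)) (a : Hol) :
    merPull g (algebraMap Hol Mer a) = algebraMap Hol Mer (holPull g a) :=
  IsFractionRing.algEquivOfAlgEquiv_algebraMap (holPull g) a

theorem merPull_comp (g h : SL(2, ℤ)) (z : Mer) :
    merPull g (merPull h z) = merPull (h * g) z := by
  obtain ⟨a, b, -, rfl⟩ := IsFractionRing.div_surjective (A := Hol) z
  simp only [map_div₀, merPull_algebraMap, holPull_comp]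

theorem merPull_one (z : Mer) : merPull 1 z = z := by
  obtain ⟨a, b, -, rfl⟩ := IsFractionRing.div_surjective (A := Hol) z
  simp only [map_div₀, merPull_algebraMap, holPull_one]

theorem merPull_iterate (g : SL(2, ℤ)) (k : ℕ) (z : Mer) :
    (merPull g)^[k] z = merPull (g ^ k) z := by
  induction k generalizing z with
  | zero => simp [merPull_one]
  | succ k ih =>
    rw [Function.iterate_succ_apply, ih, merPull_comp, ← pow_succ']

theorem merPull_pow (g : SL(2, ℤ)) (k : ℕ) (z : Mer) :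
    (merPull g ^ k) z = merPull (g ^ k) z := by
  rw [← merPull_iterate]
  induction k generalizing z with
  | zero => rfl
  | succ k ih =>
    rw [pow_succ, AlgEquiv.mul_apply, ih, Function.iterate_succ_apply]

/-! ## Fixed points and the stabilizer lemma -/

/-- The key identity for Möbius transformations of determinant one. -/
theorem smul_sub_smul (g : SL(2, ℤ)) (τ τ0 : ℍ) :
    ((g • τ : ℍ) : ℂ) - ((g • τ0 : ℍ) : ℂ)
      = ((τ : ℂ) - (τ0 : ℂ)) *
        (denom (g : GL (Fin 2) ℝ) τ * denom (g : GL (Fin 2) ℝ) τ0)⁻¹ := by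
  have h1 := denom_ne_zero (g : GL (Fin 2) ℝ) τ
  have h2 := denom_ne_zero (g : GL (Fin 2) ℝ) τ0
  have hdet : ((g 0 0 : ℤ) : ℂ) * (g 1 1 : ℤ) - (g 0 1 : ℤ) * (g 1 0 : ℤ) = 1 := by
    have := g.det_coe
    rw [Matrix.det_fin_two] at this
    exact_mod_cast this
  rw [coe_specialLinearGroup_apply, coe_specialLinearGroup_apply]
  rw [ModularGroup.denom_apply] at h1 h2 ⊢
  rw [ModularGroup.denom_apply]
  simp only [eq_intCast, ofReal_intCast] at *
  rw [div_sub_div _ _ h1 h2, ← div_eq_mul_inv, div_left_inj' (mul_ne_zero h1 h2)]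
  linear_combination ((τ : ℂ) - τ0) * hdet

/-- The cocycle factor `τ ↦ ((cτ + d)(cτ0 + d))⁻¹`, a unit of `Hol`. -/
def cocyc (g : SL(2, ℤ)) (τ0 : ℍ) : Hol :=
  ⟨fun τ => (denom (g : GL (Fin 2) ℝ) τ * denom (g : GL (Fin 2) ℝ) τ0)⁻¹, by
    have h := mdifferentiable_inv_denom (g : GL (Fin 2) ℝ)
    have e : (fun τ : ℍ => (denom (g : GL (Fin 2) ℝ) τ * denom (g : GL (Fin 2) ℝ) τ0)⁻¹)
        = fun τ : ℍ => (denom (g : GL (Fin 2) ℝ) τ)⁻¹ * (denom (g : GL (Fin 2) ℝ) τ0)⁻¹ := by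
      funext τ; rw [mul_inv]
    rw [mem_Hol, e]
    exact h.mul mdifferentiable_const⟩

theorem evalAt_cocyc (g : SL(2, ℤ)) (τ0 : ℍ) :
    evalAt τ0 (cocyc g τ0) = (denom (g : GL (Fin 2) ℝ) τ0 ^ 2)⁻¹ := by
  show (denom (g : GL (Fin 2) ℝ) τ0 * denom (g : GL (Fin 2) ℝ) τ0)⁻¹ = _
  rw [sq]

theorem evalAt_cocyc_ne_zero (g : SL(2, ℤ)) (τ0 : ℍ) : evalAt τ0 (cocyc g τ0) ≠ 0 := by
  rw [evalAt_cocyc]
  exact inv_ne_zero (pow_ne_zero _ (denom_ne_zero _ τ0))

theorem holPull_uAt (g : SL(2, ℤ)) (τ0 : ℍ) (hg : g • τ0 = τ0) :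
    holPull g (uAt τ0) = uAt τ0 * cocyc g τ0 := by
  apply Subtype.ext
  funext τ
  have h := smul_sub_smul g τ τ0
  rw [hg] at h
  exact h

theorem evalAt_holPull (g : SL(2, ℤ)) (τ0 : ℍ) (hg : g • τ0 = τ0) (a : Hol) :
    evalAt τ0 (holPull g a) = evalAt τ0 a := by
  show (a : ℍ → ℂ) (g • τ0) = (a : ℍ → ℂ) τ0
  rw [hg]

theorem ordN_pow (τ0 : ℍ) (a : Hol) (n : ℕ) : ordN τ0 (a ^ n) = n * ordN τ0 a := by
  induction n with
  | zero => simp [ordN_one]
  | succ n ih => rw [pow_succ, ordN_mul, ih]; push_cast; ring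

theorem ordN_holPull (g : SL(2, ℤ)) (τ0 : ℍ) (hg : g • τ0 = τ0) (a : Hol) :
    ordN τ0 (holPull g a) = ordN τ0 a := by
  by_cases ha : a = 0
  · subst ha; simp
  obtain ⟨p, a', h1, h2, h3⟩ := exists_eq_uAt_pow_mul τ0 a ha
  have e1 : ordN τ0 (cocyc g τ0) = 0 := (ordN_eq_zero_iff _ _).mpr (evalAt_cocyc_ne_zero g τ0)
  have e2 : ordN τ0 (holPull g a') = 0 :=
    (ordN_eq_zero_iff _ _).mpr (by rwa [evalAt_holPull g τ0 hg])
  rw [h3, h1, map_mul, map_pow, holPull_uAt g τ0 hg, ordN_mul, ordN_pow, ordN_mul, ordN_uAt,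
    e1, e2]
  simp

theorem ordAt_merPull (g : SL(2, ℤ)) (τ0 : ℍ) (hg : g • τ0 = τ0) (z : Mer) :
    ordAt τ0 (merPull g z) = ordAt τ0 z := by
  obtain ⟨a, b, -, rfl⟩ := IsFractionRing.div_surjective (A := Hol) z
  rw [map_div₀, merPull_algebraMap, merPull_algebraMap, ordAt_div, ordAt_div,
    ordN_holPull g τ0 hg, ordN_holPull g τ0 hg]

/-- **Stabilizer lemma.** If `g` fixes `τ0` and the nonzero meromorphic function `z` is
invariant under `g`, then the multiplier `(c τ0 + d)²` of `g` at `τ0`, raised to the order of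
`z` at `τ0`, is `1`. -/
theorem stabilizer_zpow_eq_one (g : SL(2, ℤ)) (τ0 : ℍ) (hg : g • τ0 = τ0) (z : Mer)
    (hz : z ≠ 0) (hfix : merPull g z = z) :
    ∃ n : ℤ, ordAt τ0 z = ((n : ℤ) : WithTop ℤ) ∧
      (denom (g : GL (Fin 2) ℝ) τ0 ^ 2) ^ n = 1 := by
  obtain ⟨a, b, hb, rfl⟩ := IsFractionRing.div_surjective (A := Hol) z
  have hb0 : b ≠ 0 := nonZeroDivisors.ne_zero hb
  have ha0 : a ≠ 0 := by rintro rfl; simp at hz
  obtain ⟨p, a', ha1, ha2, ha3⟩ := exists_eq_uAt_pow_mul τ0 a ha0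
  obtain ⟨q, b', hb1, hb2, hb3⟩ := exists_eq_uAt_pow_mul τ0 b hb0
  have hinj := IsFractionRing.injective Hol Mer
  have hbM : algebraMap Hol Mer b ≠ 0 := fun h => hb0 (hinj (by rw [h, map_zero]))
  have hgbM : algebraMap Hol Mer (holPull g b) ≠ 0 := fun h =>
    hb0 ((holPull g).injective (hinj (by rw [h, map_zero, map_zero])))
  refine ⟨(p : ℤ) - q, ?_, ?_⟩
  · rw [ordAt_div, ha3, hb3, toZ_coe, toZ_coe]
    rfl
  · rw [map_div₀, merPull_algebraMap, merPull_algebraMap, div_eq_div_iff hgbM hbM,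
      ← map_mul, ← map_mul] at hfix
    have hfix' : holPull g a * b = a * holPull g b := hinj hfix
    have hD : denom (g : GL (Fin 2) ℝ) τ0 ^ 2 ≠ 0 := pow_ne_zero _ (denom_ne_zero _ τ0)
    have key : cocyc g τ0 ^ p * holPull g a' * b' = cocyc g τ0 ^ q * a' * holPull g b' := by
      apply mul_left_cancel₀ (pow_ne_zero (p + q) (uAt_ne_zero τ0))
      have e1 : holPull g a = (uAt τ0 * cocyc g τ0) ^ p * holPull g a' := by
        rw [ha1, map_mul, map_pow, holPull_uAt g τ0 hg]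
      have e2 : holPull g b = (uAt τ0 * cocyc g τ0) ^ q * holPull g b' := by
        rw [hb1, map_mul, map_pow, holPull_uAt g τ0 hg]
      rw [e1, e2] at hfix'
      rw [ha1, hb1] at hfix'
      linear_combination hfix'
    have key2 := congrArg (evalAt τ0) key
    simp only [map_mul, map_pow, evalAt_holPull g τ0 hg, evalAt_cocyc] at key2
    have key3 : ((denom (g : GL (Fin 2) ℝ) τ0 ^ 2)⁻¹) ^ p
        = ((denom (g : GL (Fin 2) ℝ) τ0 ^ 2)⁻¹) ^ q := by
      have h4 : evalAt τ0 a' * evalAt τ0 b' ≠ 0 := mul_ne_zero ha2 hb2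
      apply mul_right_cancel₀ h4
      linear_combination key2
    rw [inv_pow, inv_pow, inv_inj] at key3
    rw [zpow_sub₀ hD, zpow_natCast, zpow_natCast, key3, div_self (pow_ne_zero _ hD)]

theorem pow_smul_fixed (g : SL(2, ℤ)) (τ0 : ℍ) (hg : g • τ0 = τ0) (k : ℕ) :
    (g ^ k) • τ0 = τ0 := by
  induction k with
  | zero => rw [pow_zero, one_smul]
  | succ k ih => rw [pow_succ, mul_smul, hg, ih]

theorem denom_pow_of_fixed (g : SL(2, ℤ)) (τ0 : ℍ) (hg : g • τ0 = τ0) (k : ℕ) :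
    denom ((g ^ k : SL(2, ℤ)) : GL (Fin 2) ℝ) τ0 = denom (g : GL (Fin 2) ℝ) τ0 ^ k := by
  induction k with
  | zero => simp [denom]
  | succ k ih =>
    have h1 : ((g ^ (k + 1) : SL(2, ℤ)) : GL (Fin 2) ℝ)
        = ((g ^ k : SL(2, ℤ)) : GL (Fin 2) ℝ) * (g : GL (Fin 2) ℝ) := by
      rw [pow_succ]; simp
    have h2 : num (g : GL (Fin 2) ℝ) τ0 / denom (g : GL (Fin 2) ℝ) τ0 = (τ0 : ℂ) := by
      rw [← coe_smul_of_det_pos (by simp), ← ModularGroup.sl_moeb, hg]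
    rw [h1, denom_cocycle _ _ τ0.im_ne_zero, h2, ih, pow_succ]

theorem dvd_of_dvd_mul_gcd (m k : ℕ) (hm : 0 < m) (n : ℤ) (h : (m : ℤ) ∣ (k : ℤ) * n) :
    ((m / Nat.gcd k m : ℕ) : ℤ) ∣ n := by
  have hd : 0 < Nat.gcd k m := Nat.gcd_pos_of_pos_right k hm
  have hcop : Nat.Coprime (m / Nat.gcd k m) (k / Nat.gcd k m) :=
    (Nat.coprime_div_gcd_div_gcd hd).symm
  have hm' : m = Nat.gcd k m * (m / Nat.gcd k m) :=
    (Nat.mul_div_cancel' (Nat.gcd_dvd_right k m)).symm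
  have hk' : k = Nat.gcd k m * (k / Nat.gcd k m) :=
    (Nat.mul_div_cancel' (Nat.gcd_dvd_left k m)).symm
  have h2 : ((Nat.gcd k m : ℕ) : ℤ) * ((m / Nat.gcd k m : ℕ) : ℤ)
      ∣ ((Nat.gcd k m : ℕ) : ℤ) * (((k / Nat.gcd k m : ℕ) : ℤ) * n) := by
    rw [← mul_assoc, ← Nat.cast_mul, ← Nat.cast_mul, ← hm', ← hk']
    exact h
  have h3 := (mul_dvd_mul_iff_left (by exact_mod_cast hd.ne')).mp h2
  exact (Nat.isCoprime_iff_coprime.mpr hcop).dvd_of_dvd_mul_left h3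

theorem exists_ordAt_eq (τ0 : ℍ) (z : Mer) (hz : z ≠ 0) : ∃ n : ℤ, ordAt τ0 z = (n : WithTop ℤ) := by
  have h : ordAt τ0 z ≠ ⊤ := (AddValuation.ne_top_iff (ordAt τ0)).mpr hz
  obtain ⟨n, hn⟩ := WithTop.ne_top_iff_exists.mp h
  exact ⟨n, hn.symm⟩

/-- The divisibility hypothesis (`hdiv`) of the orbit counting lemma, at a point `τ0` whose
stabilizer generator `g` has multiplier `(c τ0 + d)²` a primitive `m`-th root of unity. -/
theorem hdiv_of_isPrimitiveRoot (g : SL(2, ℤ)) (τ0 : ℍ) (hg : g • τ0 = τ0) (m : ℕ) (hm : 0 < m)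
    (hprim : IsPrimitiveRoot (denom (g : GL (Fin 2) ℝ) τ0 ^ 2) m) (k : ℕ) (z : Mer)
    (hz : z ≠ 0) (hfix : merPull (g ^ k) z = z) :
    ∃ l : ℤ, ordAt τ0 z = (((m / Nat.gcd k m : ℕ) * l : ℤ) : WithTop ℤ) := by
  obtain ⟨n, hn, hpow⟩ :=
    stabilizer_zpow_eq_one (g ^ k) τ0 (pow_smul_fixed g τ0 hg k) z hz hfix
  rw [denom_pow_of_fixed g τ0 hg k, ← pow_mul, mul_comm, pow_mul, ← zpow_natCast, ← zpow_mul]
    at hpow
  have hdvd : (m : ℤ) ∣ (k : ℤ) * n := (hprim.zpow_eq_one_iff_dvd _).mp hpow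
  obtain ⟨l, hl⟩ := dvd_of_dvd_mul_gcd m k hm n hdvd
  exact ⟨l, by rw [hn, hl]⟩

/-- The trivial `hdiv` (ramification index one). -/
theorem hdiv_one (τ0 : ℍ) (k : ℕ) (z : Mer) (hz : z ≠ 0) :
    ∃ l : ℤ, ordAt τ0 z = (((1 / Nat.gcd k 1 : ℕ) * l : ℤ) : WithTop ℤ) := by
  obtain ⟨n, hn⟩ := exists_ordAt_eq τ0 z hz
  exact ⟨n, by rw [hn]; simp⟩

/-! ### The elliptic point `i` -/

theorem S_smul_I : ModularGroup.S • UpperHalfPlane.I = UpperHalfPlane.I := by
  rw [modular_S_smul]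
  ext
  simp [Complex.inv_I]

theorem denom_S_I_sq :
    denom ((ModularGroup.S : SL(2, ℤ)) : GL (Fin 2) ℝ) UpperHalfPlane.I ^ 2 = -1 := by
  rw [ModularGroup.denom_S]
  simp

theorem hdiv_S_I (k : ℕ) (z : Mer) (hz : z ≠ 0) (hfix : merPull (ModularGroup.S ^ k) z = z) :
    ∃ l : ℤ, ordAt UpperHalfPlane.I z = (((2 / Nat.gcd k 2 : ℕ) * l : ℤ) : WithTop ℤ) := by
  refine hdiv_of_isPrimitiveRoot ModularGroup.S UpperHalfPlane.I S_smul_I 2 (by norm_num) ?_ k z
    hz hfix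
  rw [denom_S_I_sq]
  exact IsPrimitiveRoot.neg_one 0 (by norm_num)

/-! ### The elliptic point `ρ` -/

theorem ST_smul_of_sq (ρ : ℍ) (hρ : (ρ : ℂ) ^ 2 + (ρ : ℂ) + 1 = 0) :
    (ModularGroup.S * ModularGroup.T) • ρ = ρ := by
  ext
  rw [coe_specialLinearGroup_apply]
  have h1 : (ρ : ℂ) + 1 ≠ 0 := by
    intro h
    have : (ρ : ℂ) = -1 := by linear_combination h
    rw [this] at hρ
    norm_num at hρ
  simp [ModularGroup.S, ModularGroup.T]
  field_simp
  linear_combination -hρ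

theorem denom_ST_sq (ρ : ℍ) (hρ : (ρ : ℂ) ^ 2 + (ρ : ℂ) + 1 = 0) :
    denom ((ModularGroup.S * ModularGroup.T : SL(2, ℤ)) : GL (Fin 2) ℝ) ρ ^ 2 = (ρ : ℂ) := by
  rw [ModularGroup.denom_apply]
  simp [ModularGroup.S, ModularGroup.T]
  linear_combination hρ

theorem isPrimitiveRoot_of_sq (ρ : ℂ) (hρ : ρ ^ 2 + ρ + 1 = 0) : IsPrimitiveRoot ρ 3 := by
  refine IsPrimitiveRoot.mk_of_lt ρ (by norm_num) ?_ ?_
  · linear_combination (ρ - 1) * hρ
  · intro l hl0 hl3 h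
    interval_cases l
    · rw [pow_one] at h
      rw [h] at hρ
      norm_num at hρ
    · have h2 : ρ = -2 := by linear_combination hρ - h
      rw [h2] at hρ
      norm_num at hρ

theorem hdiv_ST_rho (ρ : ℍ) (hρ : (ρ : ℂ) ^ 2 + (ρ : ℂ) + 1 = 0) (k : ℕ) (z : Mer) (hz : z ≠ 0)
    (hfix : merPull ((ModularGroup.S * ModularGroup.T) ^ k) z = z) :
    ∃ l : ℤ, ordAt ρ z = (((3 / Nat.gcd k 3 : ℕ) * l : ℤ) : WithTop ℤ) := by
  refine hdiv_of_isPrimitiveRoot (ModularGroup.S * ModularGroup.T) ρ (ST_smul_of_sq ρ hρ) 3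
    (by norm_num) ?_ k z hz hfix
  rw [denom_ST_sq ρ hρ]
  exact isPrimitiveRoot_of_sq _ hρ

end

end Fermat.Agent.S24.helper1301
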