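import Mathlib

/-!
# S24, module M1c + E5 (helper144): Hermite form, coset separation, growth

Mathlib only.  Everything about `J` is stated for an arbitrary `SL(2, ℤ)`-invariant function
`J : ℍ → α` (hypothesis-passing), with points of `ℍ` passed through their coercions to `ℂ`, so the
lemmas apply whatever representation of `τ ↦ n τ` a consumer uses.

* `Jfun` : the modular invariant `J = E₄³ / Δ` on `ℍ` (definitionally `E₄ τ ^ 3 / discriminant τ`),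
  `Jfun_smul` (invariance), `tendsto_qParam_mul_Jfun` (`q J → 1` at `i∞`).
* `exists_hermite` : Hermite normal form `M = γ * !![a, b; 0, d]` of integer matrices of
  positive determinant.  `exists_hermite_scale` : the case `M = diag(n, 1) * g`, with `a d = n`.
* `intGL` : integer matrices of positive determinant acting on `ℍ`.
* `eq_of_hermite`, `exists_hermite_data` : `J (n (g τ)) = J ((a τ + b) / d)`.
* `mem_Gamma0_of_scale_eq` (E5) : if `J (N (g τ)) = J (N τ)` for all `τ` then `g ∈ Γ₀(N)`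
  (for invariant `J` with `q J → 1`); `mem_Gamma0_of_Jfun_scale_eq` for `Jfun`.
* `eq_of_mem_Gamma0` (H5) : `J (d (γ τ)) = J (d τ)` for `d ∣ N`, `γ ∈ Γ₀(N)`.
* `eq_of_add_level` (H6) : `J (d (g (τ + N))) = J (d (g τ))` for `d ∣ N`.
* `qParam_hermite` : `q((a τ + b)/d) = exp(2πi b/d) · exp(2πi τ/N)^e` when `N a = e d`.
* `isBigO_scale`, `isBoundedAtImInfty_discriminant_pow_mul` : `J (n (g τ)) = O(exp(2π n Im τ))`
  at `i∞`, and `Δ^n · J (n (g τ))` is bounded at `i∞`.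
-/

set_option autoImplicit false

open UpperHalfPlane ModularForm EisensteinSeries MatrixGroups Complex Filter Topology

noncomputable section
namespace Fermat.Agent.S24.helper144

/-- The modular invariant `J = E₄³/Δ` on the upper half plane. -/
def Jfun (τ : ℍ) : ℂ := E₄ τ ^ 3 / ModularForm.discriminant τ

theorem Jfun_def (τ : ℍ) : Jfun τ = E₄ τ ^ 3 / ModularForm.discriminant τ := rfl

theorem Jfun_smul (γ : SL(2, ℤ)) (τ : ℍ) : Jfun (γ • τ) = Jfun τ := by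
  have hγ : (γ : GL (Fin 2) ℝ) ∈ 𝒮ℒ := ⟨γ, rfl⟩
  have h4 : E₄ (γ • τ) = denom (γ : GL (Fin 2) ℝ) τ ^ (4 : ℤ) * E₄ τ :=
    SlashInvariantForm.slash_action_eqn'' (k := 4) E₄ hγ τ
  have h12 : ModularForm.discriminant (γ • τ) =
      denom (γ : GL (Fin 2) ℝ) τ ^ (12 : ℤ) * ModularForm.discriminant τ :=
    SlashInvariantForm.slash_action_eqn'' (k := 12) CuspForm.discriminant hγ τ
  have hd : denom (γ : GL (Fin 2) ℝ) τ ≠ 0 := denom_ne_zero _ τ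
  have hΔ := ModularForm.discriminant_ne_zero τ
  rw [Jfun, Jfun, h4, h12]
  field_simp

theorem tendsto_E₄_atImInfty : Tendsto (fun τ : ℍ => E₄ τ) atImInfty (𝓝 1) := by
  have han := ModularFormClass.analyticAt_cuspFunction_zero (f := E₄) (h := 1) one_pos
    one_mem_strictPeriods_SL
  have h0 : cuspFunction 1 E₄ 0 = 1 := by
    have := E_qExpansion_coeff_zero (k := 4) (by norm_num) ⟨2, rfl⟩
    simpa [qExpansion_coeff] using this
  have hcomp : (fun τ : ℍ => E₄ τ) =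
      (cuspFunction 1 E₄) ∘ (fun τ : ℍ => Function.Periodic.qParam 1 τ) := by
    funext τ
    exact (SlashInvariantFormClass.eq_cuspFunction (h := 1) E₄ τ one_mem_strictPeriods_SL
      one_ne_zero).symm
  rw [hcomp, ← h0]
  exact han.continuousAt.tendsto.comp (qParam_tendsto_atImInfty one_pos)

/-- `q · J → 1` at `i∞`. -/
theorem tendsto_qParam_mul_Jfun :
    Tendsto (fun τ : ℍ => Function.Periodic.qParam 1 τ * Jfun τ) atImInfty (𝓝 1) := by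
  have h1 := tendsto_E₄_atImInfty.pow 3
  have h2 := ModularForm.tendsto_atImInfty_tprod_one_sub_eta_q_pow
  have h3 : Tendsto (fun τ : ℍ => E₄ τ ^ 3 / ∏' (n : ℕ), (1 - eta_q n τ) ^ 24) atImInfty
      (𝓝 (1 ^ 3 / 1)) := h1.div h2 one_ne_zero
  simp only [one_pow, div_one] at h3
  refine h3.congr fun τ => ?_
  have hq : Function.Periodic.qParam 1 (τ : ℂ) ≠ 0 := Function.Periodic.qParam_ne_zero _
  have hΔ := ModularForm.discriminant_ne_zero τ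
  rw [Jfun, ModularForm.discriminant_eq_q_prod] at *
  have hprod : ∏' (n : ℕ), (1 - eta_q n τ) ^ 24 ≠ 0 := by
    intro h
    apply hΔ
    rw [h, mul_zero]
  field_simp

/-- Hermite normal form for integer `2 × 2` matrices of positive determinant. -/
theorem exists_hermite (M : Matrix (Fin 2) (Fin 2) ℤ) (hM : 0 < M.det) :
    ∃ (γ : SL(2, ℤ)) (a b d : ℤ), 0 < a ∧ 0 < d ∧ 0 ≤ b ∧ b < d ∧
      M = (γ : Matrix (Fin 2) (Fin 2) ℤ) * !![a, b; 0, d] := by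
  obtain ⟨p, s, r, t, rfl⟩ : ∃ p s r t : ℤ, M = !![p, s; r, t] :=
    ⟨M 0 0, M 0 1, M 1 0, M 1 1, by ext i j; fin_cases i <;> fin_cases j <;> rfl⟩
  have hdet : (!![p, s; r, t] : Matrix (Fin 2) (Fin 2) ℤ).det = p * t - s * r := by
    rw [Matrix.det_fin_two_of]
  rw [hdet] at hM
  have hpr : p ≠ 0 ∨ r ≠ 0 := by
    by_contra h
    push Not at h
    rw [h.1, h.2] at hM
    simp at hM
  obtain ⟨g, hg⟩ : ∃ g : ℤ, g = (Int.gcd p r : ℤ) := ⟨_, rfl⟩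
  have hg_pos : 0 < g := by
    have : 0 < Int.gcd p r := Int.gcd_pos_iff.mpr hpr
    rw [hg]
    exact_mod_cast this
  obtain ⟨p', hp'⟩ : g ∣ p := hg ▸ Int.gcd_dvd_left p r
  obtain ⟨r', hr'⟩ : g ∣ r := hg ▸ Int.gcd_dvd_right p r
  obtain ⟨u, v, hbez⟩ : ∃ u v : ℤ, g = p * u + r * v :=
    ⟨Int.gcdA p r, Int.gcdB p r, hg ▸ Int.gcd_eq_gcd_ab p r⟩
  have hbez' : p' * u + r' * v = 1 := by
    have h1 : g * (p' * u + r' * v) = g * 1 := by
      rw [mul_one]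
      calc g * (p' * u + r' * v) = (g * p') * u + (g * r') * v := by ring
        _ = p * u + r * v := by rw [← hp', ← hr']
        _ = g := hbez.symm
    exact mul_left_cancel₀ hg_pos.ne' h1
  obtain ⟨d₀, hd₀⟩ : ∃ d₀ : ℤ, d₀ = p' * t - r' * s := ⟨_, rfl⟩
  obtain ⟨b₀, hb₀⟩ : ∃ b₀ : ℤ, b₀ = u * s + v * t := ⟨_, rfl⟩
  have hd₀_pos : 0 < d₀ := by
    have h1 : p * t - s * r = g * d₀ := by
      rw [hd₀, hp', hr']; ring
    rw [h1] at hM
    exact (mul_pos_iff_of_pos_left hg_pos).mp hM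
  refine ⟨⟨!![p', -v; r', u] * !![1, b₀ / d₀; 0, 1], ?_⟩, g, b₀ % d₀, d₀, hg_pos, hd₀_pos,
    Int.emod_nonneg _ hd₀_pos.ne', Int.emod_lt_of_pos _ hd₀_pos, ?_⟩
  · rw [Matrix.det_mul, Matrix.det_fin_two_of, Matrix.det_fin_two_of]
    linear_combination hbez'
  · have hb : b₀ % d₀ + d₀ * (b₀ / d₀) = b₀ := Int.emod_add_mul_ediv b₀ d₀
    simp only [Matrix.mul_assoc]
    rw [show (!![1, b₀ / d₀; 0, 1] : Matrix (Fin 2) (Fin 2) ℤ) * !![g, b₀ % d₀; 0, d₀]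
        = !![g, b₀; 0, d₀] by
      ext i j
      fin_cases i <;> fin_cases j <;> simp [Matrix.mul_apply, Fin.sum_univ_two]
      linarith]
    ext i j
    fin_cases i <;> fin_cases j <;> simp [Matrix.mul_apply, Fin.sum_univ_two]
    · rw [hp']; ring
    · rw [hb₀, hd₀]; linear_combination (-s) * hbez'
    · rw [hr']; ring
    · rw [hb₀, hd₀]; linear_combination (-t) * hbez'

/-- An integer `2 × 2` matrix of positive determinant, as an element of `GL (Fin 2) ℝ`. -/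
def intGL (M : Matrix (Fin 2) (Fin 2) ℤ) (hM : 0 < M.det) : GL (Fin 2) ℝ :=
  Matrix.GeneralLinearGroup.mkOfDetNeZero (M.map (Int.cast : ℤ → ℝ))
    (by rw [← Int.cast_det]; exact_mod_cast hM.ne')

@[simp]
theorem intGL_apply (M : Matrix (Fin 2) (Fin 2) ℤ) (hM : 0 < M.det) (i j : Fin 2) :
    (intGL M hM : Matrix (Fin 2) (Fin 2) ℝ) i j = (M i j : ℝ) := rfl

theorem intGL_det_pos (M : Matrix (Fin 2) (Fin 2) ℤ) (hM : 0 < M.det) :
    0 < (intGL M hM).det.val := by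
  have : (intGL M hM).det.val = ((M.det : ℤ) : ℝ) := by
    rw [Int.cast_det]; rfl
  rw [this]
  exact_mod_cast hM

theorem coe_intGL_smul (M : Matrix (Fin 2) (Fin 2) ℤ) (hM : 0 < M.det) (τ : ℍ) :
    ((intGL M hM • τ : ℍ) : ℂ) =
      ((M 0 0 : ℂ) * τ + (M 0 1 : ℂ)) / ((M 1 0 : ℂ) * τ + (M 1 1 : ℂ)) := by
  rw [coe_smul_of_det_pos (intGL_det_pos M hM)]
  simp [num, denom]

theorem intGL_mul (M₁ M₂ : Matrix (Fin 2) (Fin 2) ℤ) (h₁ : 0 < M₁.det) (h₂ : 0 < M₂.det)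
    (h : 0 < (M₁ * M₂).det) : intGL (M₁ * M₂) h = intGL M₁ h₁ * intGL M₂ h₂ := by
  ext i j
  simp [Matrix.mul_apply, Fin.sum_univ_two]

theorem intGL_SL (γ : SL(2, ℤ)) (h : 0 < (γ : Matrix (Fin 2) (Fin 2) ℤ).det) :
    intGL (γ : Matrix (Fin 2) (Fin 2) ℤ) h = (γ : GL (Fin 2) ℝ) := by
  ext i j
  simp

theorem SL_det_pos (γ : SL(2, ℤ)) : 0 < (γ : Matrix (Fin 2) (Fin 2) ℤ).det := by
  rw [γ.det_coe]; exact one_pos

theorem mul_SL_det_pos {M : Matrix (Fin 2) (Fin 2) ℤ} (hM : 0 < M.det) (g : SL(2, ℤ)) :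
    0 < (M * (g : Matrix (Fin 2) (Fin 2) ℤ)).det := by
  rw [Matrix.det_mul, g.det_coe, mul_one]; exact hM

theorem SL_mul_det_pos {M : Matrix (Fin 2) (Fin 2) ℤ} (hM : 0 < M.det) (g : SL(2, ℤ)) :
    0 < ((g : Matrix (Fin 2) (Fin 2) ℤ) * M).det := by
  rw [Matrix.det_mul, g.det_coe, one_mul]; exact hM

/-- `(M * g) • τ = M • (g • τ)` for `g ∈ SL(2, ℤ)`. -/
theorem intGL_mul_SL_smul (M : Matrix (Fin 2) (Fin 2) ℤ) (hM : 0 < M.det) (g : SL(2, ℤ))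
    (τ : ℍ) :
    intGL (M * (g : Matrix (Fin 2) (Fin 2) ℤ)) (mul_SL_det_pos hM g) • τ = intGL M hM • (g • τ) := by
  rw [intGL_mul M _ hM (SL_det_pos g), intGL_SL, mul_smul]
  rfl

/-- `(γ * M) • τ = γ • (M • τ)` for `γ ∈ SL(2, ℤ)`. -/
theorem intGL_SL_mul_smul (M : Matrix (Fin 2) (Fin 2) ℤ) (hM : 0 < M.det) (γ : SL(2, ℤ))
    (τ : ℍ) :
    intGL ((γ : Matrix (Fin 2) (Fin 2) ℤ) * M) (SL_mul_det_pos hM γ) • τ = γ • (intGL M hM • τ) := by
  rw [intGL_mul _ M (SL_det_pos γ) hM, intGL_SL, mul_smul]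
  rfl

/-- `J ((γ * M) • τ) = J (M • τ)`. -/
theorem Jfun_intGL_SL_mul (M : Matrix (Fin 2) (Fin 2) ℤ) (hM : 0 < M.det) (γ : SL(2, ℤ))
    (τ : ℍ) :
    Jfun (intGL ((γ : Matrix (Fin 2) (Fin 2) ℤ) * M) (SL_mul_det_pos hM γ) • τ)
      = Jfun (intGL M hM • τ) := by
  rw [intGL_SL_mul_smul, Jfun_smul]

theorem intGL_congr {M₁ M₂ : Matrix (Fin 2) (Fin 2) ℤ} (h : M₁ = M₂) (h₁ : 0 < M₁.det)
    (h₂ : 0 < M₂.det) : intGL M₁ h₁ = intGL M₂ h₂ := by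
  subst h; rfl

theorem det_diag_pos {n : ℤ} (hn : 0 < n) :
    0 < (!![n, 0; 0, 1] : Matrix (Fin 2) (Fin 2) ℤ).det := by
  rw [Matrix.det_fin_two_of]; simpa using hn

theorem det_upper_pos {a d : ℤ} (b : ℤ) (ha : 0 < a) (hd : 0 < d) :
    0 < (!![a, b; 0, d] : Matrix (Fin 2) (Fin 2) ℤ).det := by
  rw [Matrix.det_fin_two_of]; simpa using mul_pos ha hd

/-- `diag(n,1) • τ = n τ`. -/
theorem coe_intGL_diag_smul {n : ℤ} (hn : 0 < n) (τ : ℍ) :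
    ((intGL !![n, 0; 0, 1] (det_diag_pos hn) • τ : ℍ) : ℂ) = (n : ℂ) * τ := by
  rw [coe_intGL_smul]; simp

/-- `!![a, b; 0, d] • τ = (a τ + b) / d`. -/
theorem coe_intGL_upper_smul {a d : ℤ} (b : ℤ) (ha : 0 < a) (hd : 0 < d) (τ : ℍ) :
    ((intGL !![a, b; 0, d] (det_upper_pos b ha hd) • τ : ℍ) : ℂ)
      = ((a : ℂ) * τ + (b : ℂ)) / (d : ℂ) := by
  rw [coe_intGL_smul]; simp

/-- Hermite normal form of `diag(n, 1) * g` for `g ∈ SL(2, ℤ)`. -/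
theorem exists_hermite_scale {n : ℤ} (hn : 0 < n) (g : SL(2, ℤ)) :
    ∃ (γ : SL(2, ℤ)) (a b d : ℤ), 0 < a ∧ 0 < d ∧ 0 ≤ b ∧ b < d ∧ a * d = n ∧
      (!![n, 0; 0, 1] : Matrix (Fin 2) (Fin 2) ℤ) * (g : Matrix (Fin 2) (Fin 2) ℤ)
        = (γ : Matrix (Fin 2) (Fin 2) ℤ) * !![a, b; 0, d] := by
  obtain ⟨γ, a, b, d, ha, hd, hb, hbd, h⟩ :=
    exists_hermite _ (mul_SL_det_pos (det_diag_pos hn) g)
  refine ⟨γ, a, b, d, ha, hd, hb, hbd, ?_, h⟩
  have h1 := congrArg Matrix.det h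
  rw [Matrix.det_mul, Matrix.det_mul, g.det_coe, γ.det_coe, Matrix.det_fin_two_of,
    Matrix.det_fin_two_of] at h1
  simp at h1
  exact h1.symm

/-- For an `SL(2, ℤ)`-invariant function `J` on `ℍ`: if `diag(n,1) * g = γ * !![a, b; 0, d]`
then `J (n • (g • τ)) = J ((a τ + b) / d)`.  The points `τ₁ = n (g τ)` and `τ₂ = (a τ + b)/d`
are passed as arbitrary elements of `ℍ` with the prescribed coercions. -/
theorem eq_of_hermite {α : Type*} {J : ℍ → α} (hJ : ∀ (γ : SL(2, ℤ)) (τ : ℍ), J (γ • τ) = J τ)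
    {n a b d : ℤ} {g γ : SL(2, ℤ)} (hn : 0 < n) (ha : 0 < a) (hd : 0 < d)
    (h : (!![n, 0; 0, 1] : Matrix (Fin 2) (Fin 2) ℤ) * (g : Matrix (Fin 2) (Fin 2) ℤ)
        = (γ : Matrix (Fin 2) (Fin 2) ℤ) * !![a, b; 0, d])
    (τ τ₁ τ₂ : ℍ) (h₁ : (τ₁ : ℂ) = (n : ℂ) * ((g • τ : ℍ) : ℂ))
    (h₂ : (d : ℂ) * (τ₂ : ℂ) = (a : ℂ) * τ + (b : ℂ)) : J τ₁ = J τ₂ := by
  have hd' : (d : ℂ) ≠ 0 := by exact_mod_cast hd.ne'
  have e₁ : τ₁ = intGL !![n, 0; 0, 1] (det_diag_pos hn) • (g • τ) := by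
    apply UpperHalfPlane.ext
    rw [coe_intGL_diag_smul hn, h₁]
  have e₂ : τ₂ = intGL !![a, b; 0, d] (det_upper_pos b ha hd) • τ := by
    apply UpperHalfPlane.ext
    rw [coe_intGL_upper_smul b ha hd, eq_div_iff hd', mul_comm, h₂]
  rw [e₁, e₂, ← intGL_mul_SL_smul, intGL_congr h (mul_SL_det_pos (det_diag_pos hn) g)
    (SL_mul_det_pos (det_upper_pos b ha hd) γ), intGL_SL_mul_smul, hJ]

/-- Hermite form, packaged: for every `n > 0` and `g ∈ SL(2, ℤ)` there are `a, b, d` with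
`a d = n`, `0 ≤ b < d`, `a ∣ g₁₀` such that `J (n (g τ)) = J ((a τ + b)/d)` for every
`SL(2, ℤ)`-invariant `J`. -/
theorem exists_hermite_data {n : ℤ} (hn : 0 < n) (g : SL(2, ℤ)) :
    ∃ (a b d : ℤ), 0 < a ∧ 0 < d ∧ 0 ≤ b ∧ b < d ∧ a * d = n ∧ a ∣ g 1 0 ∧
      ∀ {α : Type} (J : ℍ → α), (∀ (γ : SL(2, ℤ)) (τ : ℍ), J (γ • τ) = J τ) →
        ∀ τ τ₁ τ₂ : ℍ, (τ₁ : ℂ) = (n : ℂ) * ((g • τ : ℍ) : ℂ) →
          (d : ℂ) * (τ₂ : ℂ) = (a : ℂ) * τ + (b : ℂ) → J τ₁ = J τ₂ := by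
  obtain ⟨γ, a, b, d, ha, hd, hb, hbd, had, h⟩ := exists_hermite_scale hn g
  refine ⟨a, b, d, ha, hd, hb, hbd, had, ?_, fun J hJ τ τ₁ τ₂ h₁ h₂ =>
    eq_of_hermite hJ hn ha hd h τ τ₁ τ₂ h₁ h₂⟩
  have h10 := congrFun (congrFun h 1) 0
  simp [Matrix.mul_apply, Fin.sum_univ_two] at h10
  exact ⟨γ 1 0, by rw [h10]; ring⟩

theorem im_intGL_diag_smul {n : ℤ} (hn : 0 < n) (τ : ℍ) :
    (intGL !![n, 0; 0, 1] (det_diag_pos hn) • τ : ℍ).im = (n : ℝ) * τ.im := by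
  have h := congrArg Complex.im (coe_intGL_diag_smul hn τ)
  rw [← Complex.ofReal_intCast, Complex.im_ofReal_mul] at h
  exact h

theorem im_intGL_upper_smul {a d : ℤ} (b : ℤ) (ha : 0 < a) (hd : 0 < d) (τ : ℍ) :
    (intGL !![a, b; 0, d] (det_upper_pos b ha hd) • τ : ℍ).im = (a : ℝ) * τ.im / (d : ℝ) := by
  have h := congrArg Complex.im (coe_intGL_upper_smul b ha hd τ)
  rw [← Complex.ofReal_intCast d, Complex.div_ofReal_im, Complex.add_im,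
    ← Complex.ofReal_intCast a, Complex.im_ofReal_mul, Complex.intCast_im, add_zero] at h
  exact h

theorem norm_qParam_one (τ : ℍ) :
    ‖Function.Periodic.qParam 1 (τ : ℂ)‖ = Real.exp (-2 * Real.pi * τ.im) := by
  rw [Function.Periodic.norm_qParam]; simp

/-- **E5 (coset separation).**  Let `J : ℍ → ℂ` be `SL(2, ℤ)`-invariant with `q · J → 1` at
`i∞`.  If `J (N (g τ)) = J (N τ)` for all `τ`, then `g ∈ Γ₀(N)`. -/
theorem mem_Gamma0_of_scale_eq {J : ℍ → ℂ} (hJ : ∀ (γ : SL(2, ℤ)) (τ : ℍ), J (γ • τ) = J τ)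
    (hJ' : Tendsto (fun τ : ℍ => Function.Periodic.qParam 1 (τ : ℂ) * J τ) atImInfty (𝓝 1))
    (N : ℕ) [NeZero N] (g : SL(2, ℤ))
    (h : ∀ τ τ₁ τ₂ : ℍ, (τ₁ : ℂ) = (N : ℂ) * ((g • τ : ℍ) : ℂ) → (τ₂ : ℂ) = (N : ℂ) * (τ : ℂ) →
      J τ₁ = J τ₂) :
    g ∈ CongruenceSubgroup.Gamma0 N := by
  have hN : (0 : ℤ) < (N : ℤ) := by exact_mod_cast Nat.pos_of_ne_zero (NeZero.ne N)
  obtain ⟨a, b, d, ha, hd, hb, hbd, had, hdvd, H⟩ := exists_hermite_data hN g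
  set S : ℍ → ℍ := fun τ => intGL !![(N : ℤ), 0; 0, 1] (det_diag_pos hN) • τ with hS
  set T : ℍ → ℍ := fun τ => intGL !![a, b; 0, d] (det_upper_pos b ha hd) • τ with hT
  have hd' : (d : ℂ) ≠ 0 := by exact_mod_cast hd.ne'
  have key : ∀ τ, J (S τ) = J (T τ) := by
    intro τ
    have e1 : J (S (g • τ)) = J (S τ) :=
      h τ (S (g • τ)) (S τ) (by simp only [hS]; rw [coe_intGL_diag_smul hN]; simp)
        (by simp only [hS]; rw [coe_intGL_diag_smul hN]; simp)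
    have e2 : J (S (g • τ)) = J (T τ) :=
      H J hJ τ (S (g • τ)) (T τ) (by simp only [hS]; rw [coe_intGL_diag_smul hN])
        (by simp only [hT]; rw [coe_intGL_upper_smul b ha hd, mul_div_cancel₀ _ hd'])
    rw [← e1, e2]
  have hSt : Tendsto S atImInfty atImInfty := tendsto_smul_atImInfty (by simp [intGL])
  have hTt : Tendsto T atImInfty atImInfty := tendsto_smul_atImInfty (by simp [intGL])
  have l1 : Tendsto (fun τ : ℍ => Real.exp (-2 * Real.pi * ((N : ℝ) * τ.im)) * ‖J (S τ)‖)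
      atImInfty (𝓝 1) := by
    have := (hJ'.comp hSt).norm
    simp only [Function.comp_def, norm_mul, norm_one, norm_qParam_one] at this
    refine this.congr fun τ => ?_
    simp only [hS]
    rw [im_intGL_diag_smul hN]
    simp
  have l2 : Tendsto (fun τ : ℍ => Real.exp (-2 * Real.pi * ((a : ℝ) * τ.im / d)) * ‖J (S τ)‖)
      atImInfty (𝓝 1) := by
    have := (hJ'.comp hTt).norm
    simp only [Function.comp_def, norm_mul, norm_one, norm_qParam_one] at this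
    refine this.congr fun τ => ?_
    rw [key τ]
    simp only [hT]
    rw [im_intGL_upper_smul b ha hd]
  -- the ratio of the two limits
  have hne : ∀ᶠ τ in atImInfty, ‖J (S τ)‖ ≠ 0 := by
    have : ∀ᶠ τ in atImInfty,
        Real.exp (-2 * Real.pi * ((N : ℝ) * τ.im)) * ‖J (S τ)‖ ∈ Set.Ioi (0 : ℝ) :=
      l1 (Ioi_mem_nhds one_pos)
    filter_upwards [this] with τ hτ h0
    rw [h0, mul_zero] at hτ
    exact lt_irrefl (0 : ℝ) (Set.mem_Ioi.mp hτ)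
  set c : ℝ := 2 * Real.pi * ((N : ℝ) - (a : ℝ) / d) with hc
  have l3 : Tendsto (fun τ : ℍ => Real.exp (c * τ.im)) atImInfty (𝓝 1) := by
    have := l2.div l1 one_ne_zero
    rw [div_one] at this
    refine this.congr' ?_
    filter_upwards [hne] with τ hτ
    rw [Pi.div_apply, mul_div_mul_right _ _ hτ, ← Real.exp_sub]
    congr 1
    rw [hc]; ring
  have l4 : Tendsto (fun y : ℝ => Real.exp (c * y)) atTop (𝓝 1) := by
    have hr : Set.range UpperHalfPlane.im ∈ (atTop : Filter ℝ) :=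
      Filter.mem_of_superset (Ioi_mem_atTop 0) fun y hy => ⟨⟨⟨0, y⟩, hy⟩, rfl⟩
    exact (Filter.tendsto_comap'_iff (m := fun y : ℝ => Real.exp (c * y)) hr).mp l3
  have hc0 : c = 0 := by
    rcases lt_trichotomy c 0 with hlt | h0 | hgt
    · have : Tendsto (fun y : ℝ => Real.exp (c * y)) atTop (𝓝 0) :=
        Real.tendsto_exp_atBot.comp (tendsto_id.const_mul_atTop_of_neg hlt)
      exact absurd (tendsto_nhds_unique this l4) zero_ne_one
    · exact h0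
    · have : Tendsto (fun y : ℝ => Real.exp (c * y)) atTop atTop :=
        Real.tendsto_exp_atTop.comp (tendsto_id.const_mul_atTop hgt)
      exact absurd l4 (not_tendsto_nhds_of_tendsto_atTop this 1)
  have hdR : (d : ℝ) ≠ 0 := by exact_mod_cast hd.ne'
  have hNd : (N : ℤ) * d = a := by
    have h1 : (N : ℝ) - (a : ℝ) / d = 0 := by
      rcases mul_eq_zero.mp hc0 with h2 | h2
      · exact absurd h2 (by positivity)
      · exact h2
    have h2 : (N : ℝ) * d = a := by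
      field_simp at h1
      linarith
    exact_mod_cast h2
  have hd1 : d = 1 := by
    have h1 : a * (d * d - 1) = 0 := by
      have : a * d * d = a := by rw [had]; exact hNd
      linear_combination this
    have h2 : d * d = 1 := by
      rcases mul_eq_zero.mp h1 with h3 | h3
      · exact absurd h3 ha.ne'
      · linarith
    nlinarith
  have haN : a = N := by rw [← had, hd1, mul_one]
  rw [CongruenceSubgroup.Gamma0_mem, ZMod.intCast_zmod_eq_zero_iff_dvd]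
  rw [← haN]
  exact hdvd

/-- E5 for the concrete `Jfun = E₄³/Δ`. -/
theorem mem_Gamma0_of_Jfun_scale_eq (N : ℕ) [NeZero N] (g : SL(2, ℤ))
    (h : ∀ τ τ₁ τ₂ : ℍ, (τ₁ : ℂ) = (N : ℂ) * ((g • τ : ℍ) : ℂ) → (τ₂ : ℂ) = (N : ℂ) * (τ : ℂ) →
      Jfun τ₁ = Jfun τ₂) :
    g ∈ CongruenceSubgroup.Gamma0 N :=
  mem_Gamma0_of_scale_eq Jfun_smul tendsto_qParam_mul_Jfun N g h

/-- **(H5)** For `d ∣ N` and `γ ∈ Γ₀(N)`: `J (d (γ τ)) = J (d τ)` for every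
`SL(2, ℤ)`-invariant `J`. -/
theorem eq_of_mem_Gamma0 {α : Type*} {J : ℍ → α}
    (hJ : ∀ (γ : SL(2, ℤ)) (τ : ℍ), J (γ • τ) = J τ) {N : ℕ} {d : ℤ} (hd : 0 < d)
    (hdN : d ∣ (N : ℤ)) {γ : SL(2, ℤ)} (hγ : γ ∈ CongruenceSubgroup.Gamma0 N)
    (τ τ₁ τ₂ : ℍ) (h₁ : (τ₁ : ℂ) = (d : ℂ) * ((γ • τ : ℍ) : ℂ))
    (h₂ : (τ₂ : ℂ) = (d : ℂ) * (τ : ℂ)) : J τ₁ = J τ₂ := by
  rw [CongruenceSubgroup.Gamma0_mem, ZMod.intCast_zmod_eq_zero_iff_dvd] at hγ
  obtain ⟨c', hc'⟩ := hdN.trans hγ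
  have hdet : (γ : Matrix (Fin 2) (Fin 2) ℤ) 0 0 * γ 1 1 - γ 0 1 * γ 1 0 = 1 := by
    have := γ.det_coe
    rwa [Matrix.det_fin_two] at this
  let γ' : SL(2, ℤ) := ⟨!![γ 0 0, d * γ 0 1; c', γ 1 1], by
    rw [Matrix.det_fin_two_of]
    rw [hc'] at hdet
    linear_combination hdet⟩
  have hmat : (!![d, 0; 0, 1] : Matrix (Fin 2) (Fin 2) ℤ) * (γ : Matrix (Fin 2) (Fin 2) ℤ)
      = (γ' : Matrix (Fin 2) (Fin 2) ℤ) * !![d, 0; 0, 1] := by
    ext i j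
    fin_cases i <;> fin_cases j <;> simp [γ', Matrix.mul_apply, Fin.sum_univ_two]
    · ring
    · rw [hc']; ring
  exact eq_of_hermite hJ hd hd one_pos hmat τ τ₁ τ₂ h₁ (by rw [h₂]; push_cast; ring)

/-- `g T^N g⁻¹ ∈ Γ₀(N)`. -/
theorem conj_T_zpow_mem_Gamma0 (N : ℕ) (g : SL(2, ℤ)) :
    g * ModularGroup.T ^ (N : ℤ) * g⁻¹ ∈ CongruenceSubgroup.Gamma0 N := by
  rw [CongruenceSubgroup.Gamma0_mem, ZMod.intCast_zmod_eq_zero_iff_dvd]
  refine ⟨-(g 1 0 * g 1 0), ?_⟩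
  simp only [Matrix.SpecialLinearGroup.coe_mul, Matrix.SpecialLinearGroup.coe_inv,
    ModularGroup.coe_T_zpow, Matrix.adjugate_fin_two, Matrix.mul_apply, Fin.sum_univ_two]
  simp
  ring

/-- **(H6)** `N`-periodicity: for `d ∣ N` and `g ∈ SL(2, ℤ)`,
`J (d (g (τ + N))) = J (d (g τ))` for every `SL(2, ℤ)`-invariant `J`. -/
theorem eq_of_add_level {α : Type*} {J : ℍ → α}
    (hJ : ∀ (γ : SL(2, ℤ)) (τ : ℍ), J (γ • τ) = J τ) {N : ℕ} {d : ℤ} (hd : 0 < d)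
    (hdN : d ∣ (N : ℤ)) (g : SL(2, ℤ)) (τ τ' τ₁ τ₂ : ℍ) (hτ' : (τ' : ℂ) = (τ : ℂ) + (N : ℂ))
    (h₁ : (τ₁ : ℂ) = (d : ℂ) * ((g • τ' : ℍ) : ℂ))
    (h₂ : (τ₂ : ℂ) = (d : ℂ) * ((g • τ : ℍ) : ℂ)) : J τ₁ = J τ₂ := by
  have e : τ' = ModularGroup.T ^ (N : ℤ) • τ := by
    apply UpperHalfPlane.ext
    rw [ModularGroup.coe_T_zpow_smul_eq, hτ']
    push_cast; ring
  have e' : g • τ' = (g * ModularGroup.T ^ (N : ℤ) * g⁻¹) • (g • τ) := by
    rw [e, ← mul_smul, ← mul_smul, inv_mul_cancel_right]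
  exact eq_of_mem_Gamma0 hJ hd hdN (conj_T_zpow_mem_Gamma0 N g) (g • τ) τ₁ τ₂
    (by rw [h₁, e']) h₂

/-- The `q`-parameter at `(a τ + b)/d` in terms of `t = exp(2πiτ/N)` when `N a = e d`:
`q((aτ+b)/d) = exp(2πi b/d) · t^e`. -/
theorem qParam_hermite {a b d : ℤ} (hd : 0 < d) {N e : ℕ} (hN : 0 < N)
    (he : (N : ℤ) * a = (e : ℤ) * d) (τ τ₂ : ℂ) (h₂ : (d : ℂ) * τ₂ = (a : ℂ) * τ + (b : ℂ)) :
    Function.Periodic.qParam 1 τ₂ =
      Complex.exp (2 * Real.pi * Complex.I * (b : ℂ) / (d : ℂ)) *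
        Function.Periodic.qParam (N : ℝ) τ ^ e := by
  have hd' : (d : ℂ) ≠ 0 := by exact_mod_cast hd.ne'
  have hN' : (N : ℂ) ≠ 0 := by exact_mod_cast hN.ne'
  have he' : (N : ℂ) * (a : ℂ) = (e : ℂ) * (d : ℂ) := by exact_mod_cast he
  have hτ₂ : τ₂ = ((a : ℂ) * τ + (b : ℂ)) / (d : ℂ) := by
    rw [eq_div_iff hd', mul_comm, h₂]
  simp only [Function.Periodic.qParam]
  rw [← Complex.exp_nat_mul, ← Complex.exp_add]
  congr 1
  rw [hτ₂]
  push_cast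
  field_simp
  linear_combination τ * he'

/-- **Growth.**  Let `J` be `SL(2, ℤ)`-invariant with `q · J → 1` at `i∞`, and let
`F τ = J (n (g τ))`.  Then `F = O(exp(2π n Im τ))` at `i∞`. -/
theorem isBigO_scale {J : ℍ → ℂ} (hJ : ∀ (γ : SL(2, ℤ)) (τ : ℍ), J (γ • τ) = J τ)
    (hJ' : Tendsto (fun τ : ℍ => Function.Periodic.qParam 1 (τ : ℂ) * J τ) atImInfty (𝓝 1))
    {n : ℤ} (hn : 0 < n) (g : SL(2, ℤ)) (F : ℍ → ℂ)
    (hF : ∀ τ τ₁ : ℍ, (τ₁ : ℂ) = (n : ℂ) * ((g • τ : ℍ) : ℂ) → F τ = J τ₁) :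
    F =O[atImInfty] (fun τ : ℍ => Real.exp (2 * Real.pi * (n : ℝ) * τ.im)) := by
  obtain ⟨a, b, d, ha, hd, hb, hbd, had, hdvd, H⟩ := exists_hermite_data hn g
  set S : ℍ → ℍ := fun τ => intGL !![n, 0; 0, 1] (det_diag_pos hn) • τ with hS
  set T : ℍ → ℍ := fun τ => intGL !![a, b; 0, d] (det_upper_pos b ha hd) • τ with hT
  have hd' : (d : ℂ) ≠ 0 := by exact_mod_cast hd.ne'
  have key : ∀ τ, F τ = J (T τ) := by
    intro τ
    rw [hF τ (S (g • τ)) (by simp only [hS]; rw [coe_intGL_diag_smul hn])]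
    exact H J hJ τ (S (g • τ)) (T τ) (by simp only [hS]; rw [coe_intGL_diag_smul hn])
      (by simp only [hT]; rw [coe_intGL_upper_smul b ha hd, mul_div_cancel₀ _ hd'])
  have hTt : Tendsto T atImInfty atImInfty := tendsto_smul_atImInfty (by simp [intGL])
  have l2 : Tendsto (fun τ : ℍ => Real.exp (-2 * Real.pi * ((a : ℝ) * τ.im / d)) * ‖F τ‖)
      atImInfty (𝓝 1) := by
    have := (hJ'.comp hTt).norm
    simp only [Function.comp_def, norm_mul, norm_one, norm_qParam_one] at this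
    refine this.congr fun τ => ?_
    rw [key τ]
    simp only [hT]
    rw [im_intGL_upper_smul b ha hd]
  have hev : ∀ᶠ τ in atImInfty,
      Real.exp (-2 * Real.pi * ((a : ℝ) * τ.im / d)) * ‖F τ‖ < 2 :=
    l2 (Iio_mem_nhds (by norm_num))
  refine Asymptotics.IsBigO.of_bound 2 ?_
  filter_upwards [hev] with τ hτ
  rw [Real.norm_of_nonneg (Real.exp_pos _).le]
  have hdR : (1 : ℝ) ≤ (d : ℝ) := by exact_mod_cast hd
  have haR : (0 : ℝ) < (a : ℝ) := by exact_mod_cast ha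
  have hle : (a : ℝ) * τ.im / d ≤ (n : ℝ) * τ.im := by
    have h1 : (a : ℝ) * (d : ℝ) = (n : ℝ) := by exact_mod_cast had
    rw [div_le_iff₀ (by linarith), ← h1]
    have hpos := mul_pos haR τ.im_pos
    have hdd : (1 : ℝ) ≤ (d : ℝ) * (d : ℝ) := by nlinarith
    calc (a : ℝ) * τ.im ≤ (a : ℝ) * τ.im * ((d : ℝ) * (d : ℝ)) :=
          le_mul_of_one_le_right hpos.le hdd
      _ = (a : ℝ) * (d : ℝ) * τ.im * (d : ℝ) := by ring
  have h1 : ‖F τ‖ < 2 * Real.exp (2 * Real.pi * ((a : ℝ) * τ.im / d)) := by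
    have hpos := Real.exp_pos (2 * Real.pi * ((a : ℝ) * τ.im / d))
    have : ‖F τ‖ = Real.exp (2 * Real.pi * ((a : ℝ) * τ.im / d)) *
        (Real.exp (-2 * Real.pi * ((a : ℝ) * τ.im / d)) * ‖F τ‖) := by
      rw [← mul_assoc, ← Real.exp_add]
      have : 2 * Real.pi * ((a : ℝ) * τ.im / d) + -2 * Real.pi * ((a : ℝ) * τ.im / d) = 0 := by
        ring
      rw [this, Real.exp_zero, one_mul]
    rw [this]
    nlinarith
  have h2 : Real.exp (2 * Real.pi * ((a : ℝ) * τ.im / d)) ≤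
      Real.exp (2 * Real.pi * (n : ℝ) * τ.im) := by
    apply Real.exp_le_exp.mpr
    have := Real.pi_pos
    nlinarith
  nlinarith [Real.exp_pos (2 * Real.pi * ((a : ℝ) * τ.im / d))]

/-- `Δ = O(exp(-2π Im τ))` at `i∞`. -/
theorem isBigO_discriminant :
    (fun τ : ℍ => ModularForm.discriminant τ) =O[atImInfty]
      (fun τ : ℍ => Real.exp (-2 * Real.pi * τ.im)) := by
  have h2 := ModularForm.tendsto_atImInfty_tprod_one_sub_eta_q_pow
  have hb : (fun τ : ℍ => ∏' (n : ℕ), (1 - eta_q n τ) ^ 24) =O[atImInfty]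
      (fun _ : ℍ => (1 : ℝ)) := h2.isBigO_one ℝ
  have hq : (fun τ : ℍ => Function.Periodic.qParam 1 (τ : ℂ)) =O[atImInfty]
      (fun τ : ℍ => Real.exp (-2 * Real.pi * τ.im)) := by
    refine Asymptotics.IsBigO.of_bound 1 (Filter.Eventually.of_forall fun τ => ?_)
    rw [norm_qParam_one, Real.norm_of_nonneg (Real.exp_pos _).le, one_mul]
  have := hq.mul hb
  simp only [mul_one] at this
  refine this.congr_left fun τ => ?_
  rw [ModularForm.discriminant_eq_q_prod]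

/-- **Growth, `Δ`-form.**  With `F τ = J (n (g τ))` as in `isBigO_scale` (`n : ℕ`),
`Δ ^ n * F` is bounded at `i∞`. -/
theorem isBoundedAtImInfty_discriminant_pow_mul {J : ℍ → ℂ}
    (hJ : ∀ (γ : SL(2, ℤ)) (τ : ℍ), J (γ • τ) = J τ)
    (hJ' : Tendsto (fun τ : ℍ => Function.Periodic.qParam 1 (τ : ℂ) * J τ) atImInfty (𝓝 1))
    {n : ℕ} (hn : 0 < n) (g : SL(2, ℤ)) (F : ℍ → ℂ)
    (hF : ∀ τ τ₁ : ℍ, (τ₁ : ℂ) = (n : ℂ) * ((g • τ : ℍ) : ℂ) → F τ = J τ₁) :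
    IsBoundedAtImInfty (fun τ : ℍ => ModularForm.discriminant τ ^ n * F τ) := by
  have hn' : (0 : ℤ) < (n : ℤ) := by exact_mod_cast hn
  have h1 := isBigO_scale hJ hJ' hn' g F (fun τ τ₁ h => hF τ τ₁ (by rw [h]; push_cast; rfl))
  have h2 := (isBigO_discriminant.pow n).mul h1
  rw [IsBoundedAtImInfty, BoundedAtFilter]
  refine h2.trans (Asymptotics.IsBigO.of_bound 1 (Filter.Eventually.of_forall fun τ => ?_))
  simp only [Pi.one_apply, norm_one, mul_one]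
  rw [← Real.exp_nat_mul, ← Real.exp_add, Real.norm_of_nonneg (Real.exp_pos _).le]
  apply le_of_eq
  rw [← Real.exp_zero]
  congr 1
  push_cast
  ring

end Fermat.Agent.S24.helper144
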