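import Mathlib
import Fermat.Prelude.Def_ModularCurve_X0

/-!
# S24 / Module C1 (backup implementation): the analytic `j`-function and its `q`-expansion

`jFun τ = E₄ τ ^ 3 / Δ τ` on the upper half plane, and the statement that the formal power
series `ModularCurve.jNumQ` of the Prelude converges on the unit disc to `q * jFun`.

Everything lives in `Fermat.Agent.S24.helper458`.
-/

set_option autoImplicit false

noncomputable section

namespace Fermat.Agent.S24.helper458

open Filter Topology Metric Complex UpperHalfPlane ModularForm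
open scoped Nat

/-! ## Taylor series at `0` as a formal power series -/

/-- Taylor series at `0` of a function `ℂ → ℂ`, as a formal power series. -/
def tps (f : ℂ → ℂ) : PowerSeries ℂ :=
  PowerSeries.mk fun m => ((m ! : ℕ) : ℂ)⁻¹ * iteratedDeriv m f 0

lemma coeff_tps (f : ℂ → ℂ) (m : ℕ) :
    PowerSeries.coeff m (tps f) = ((m ! : ℕ) : ℂ)⁻¹ * iteratedDeriv m f 0 := by
  simp [tps]

lemma tps_congr {f g : ℂ → ℂ} (h : f =ᶠ[𝓝 0] g) : tps f = tps g := by
  ext m
  rw [coeff_tps, coeff_tps, h.iteratedDeriv_eq m]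

lemma tps_mul {f g : ℂ → ℂ} (hf : AnalyticAt ℂ f 0) (hg : AnalyticAt ℂ g 0) :
    tps (f * g) = tps f * tps g := by
  ext
  simp only [coeff_tps, iteratedDeriv_mul hf.contDiffAt hg.contDiffAt, Finset.mul_sum,
    PowerSeries.coeff_mul, Finset.Nat.sum_antidiagonal_eq_sum_range_succ_mk, Nat.succ_eq_add_one]
  refine Finset.sum_congr rfl fun i hi ↦ ?_
  rw [Nat.cast_choose _ (by grind)]
  field_simp [Nat.factorial_ne_zero]

lemma tps_pow_succ {f : ℂ → ℂ} (hf : AnalyticAt ℂ f 0) (n : ℕ) :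
    tps (f ^ (n + 1)) = tps f ^ (n + 1) := by
  induction n with
  | zero => rw [zero_add, pow_one, pow_one]
  | succ n ih =>
    rw [pow_succ, tps_mul (hf.pow (n + 1)) hf, ih, ← pow_succ]

lemma hasSum_tps {f : ℂ → ℂ} (hf : DifferentiableOn ℂ f (ball 0 1)) {q : ℂ} (hq : ‖q‖ < 1) :
    HasSum (fun m => PowerSeries.coeff m (tps f) * q ^ m) (f q) := by
  have h := Complex.hasSum_taylorSeries_on_ball hf (z := q) (by simpa using hq)
  have e : (fun m => PowerSeries.coeff m (tps f) * q ^ m) =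
      (fun n : ℕ => ((n ! : ℕ) : ℂ)⁻¹ • (q - 0) ^ n • iteratedDeriv n f 0) := by
    funext m
    simp only [coeff_tps, sub_zero, smul_eq_mul]
    ring
  rw [e]
  exact h

lemma tps_eq_mk_of_hasSum {f : ℂ → ℂ} {c : ℕ → ℂ}
    (hf : ∀ᶠ q in 𝓝 (0 : ℂ), HasSum (fun m => c m * q ^ m) (f q)) :
    tps f = PowerSeries.mk c := by
  have h1 : HasFPowerSeriesAt f (FormalMultilinearSeries.ofScalars ℂ c) 0 := by
    rw [hasFPowerSeriesAt_iff]
    filter_upwards [hf] with z hz
    simpa [FormalMultilinearSeries.coeff_ofScalars, mul_comm] using hz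
  have h2 := h1.analyticAt.hasFPowerSeriesAt
  ext m
  have h3 := congr_arg (FormalMultilinearSeries.coeff · m) (h1.eq_formalMultilinearSeries h2)
  simp only [FormalMultilinearSeries.coeff_ofScalars] at h3
  rw [coeff_tps, PowerSeries.coeff_mk, h3, div_eq_inv_mul]

/-- Taylor series of a polynomial function. -/
lemma tps_polynomial (p : Polynomial ℂ) : tps (fun q => p.eval q) = (p : PowerSeries ℂ) := by
  have h : tps (fun q => p.eval q) = PowerSeries.mk (fun m => p.coeff m) := by
    apply tps_eq_mk_of_hasSum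
    refine Filter.Eventually.of_forall fun q => ?_
    rw [Polynomial.eval_eq_sum_range]
    exact hasSum_sum_of_ne_finset_zero (fun m hm => by
      rw [Polynomial.coeff_eq_zero_of_natDegree_lt (by simpa using hm)]; simp)
  rw [h]
  ext m
  simp [Polynomial.coeff_coe]

/-! ## Iterated derivatives of locally uniform limits -/

lemma tendstoLocallyUniformlyOn_iteratedDeriv {ι : Type*} {l : Filter ι} {F : ι → ℂ → ℂ}
    {f : ℂ → ℂ} {U : Set ℂ} (hU : IsOpen U) (hf : TendstoLocallyUniformlyOn F f l U)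
    (hF : ∀ᶠ n in l, DifferentiableOn ℂ (F n) U) (k : ℕ) :
    TendstoLocallyUniformlyOn (fun n => iteratedDeriv k (F n)) (iteratedDeriv k f) l U ∧
      ∀ᶠ n in l, DifferentiableOn ℂ (iteratedDeriv k (F n)) U := by
  induction k with
  | zero => simpa [iteratedDeriv_zero] using ⟨hf, hF⟩
  | succ k ih =>
    obtain ⟨h1, h2⟩ := ih
    refine ⟨?_, ?_⟩
    · have h3 := h1.deriv h2 hU
      simpa [iteratedDeriv_succ, Function.comp_def] using h3
    · filter_upwards [h2] with n hn
      rw [iteratedDeriv_succ]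
      exact hn.deriv hU

/-! ## The Euler product -/

open scoped PowerSeries.WithPiTopology

/-- The analytic Euler function `q ↦ ∏ (1 - q^(n+1))`. -/
def eulerFun (q : ℂ) : ℂ := ∏' n : ℕ, (1 - q ^ (n + 1))

lemma differentiableOn_eulerFun : DifferentiableOn ℂ eulerFun (ball 0 1) :=
  differentiableOn_tprod_one_sub_pow

lemma eulerFun_ne_zero {q : ℂ} (hq : ‖q‖ < 1) : eulerFun q ≠ 0 := by
  unfold eulerFun
  have h := tprod_one_add_ne_zero_of_summable (f := fun n : ℕ => -q ^ (n + 1)) ?_ ?_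
  · simpa [sub_eq_add_neg] using h
  · intro i h0
    have h1 : q ^ (i + 1) = 1 := by
      have := eq_neg_of_add_eq_zero_left h0
      simpa using this.symm
    have h2 : ‖q‖ ^ (i + 1) = 1 := by rw [← norm_pow, h1, norm_one]
    have h3 : ‖q‖ ^ (i + 1) < 1 := pow_lt_one₀ (norm_nonneg _) hq (by omega)
    linarith
  · simpa using (summable_nat_add_iff 1).mpr (summable_geometric_of_lt_one (norm_nonneg _) hq)

lemma tps_finprod (s : Finset ℕ) :
    tps (fun q => ∏ n ∈ s, (1 - q ^ (n + 1))) =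
      PowerSeries.map (Int.castRingHom ℂ)
        (∏ n ∈ s, (1 - PowerSeries.X ^ (n + 1)) : PowerSeries ℤ) := by
  have h : (fun q : ℂ => ∏ n ∈ s, (1 - q ^ (n + 1))) =
      fun q => (∏ n ∈ s, (1 - Polynomial.X ^ (n + 1)) : Polynomial ℂ).eval q := by
    funext q
    simp [Polynomial.eval_prod]
  rw [h, tps_polynomial, ← Polynomial.coeToPowerSeries.ringHom_apply, map_prod, map_prod]
  refine Finset.prod_congr rfl fun n _ => ?_
  simp [Polynomial.coeToPowerSeries.ringHom_apply]

lemma tps_eulerFun :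
    tps eulerFun = PowerSeries.map (Int.castRingHom ℂ) ModularCurve.etaProd := by
  ext k
  rw [coeff_tps, PowerSeries.coeff_map]
  have hloc : TendstoLocallyUniformlyOn
      (fun (s : Finset ℕ) (q : ℂ) => ∏ n ∈ s, (1 - q ^ (n + 1))) eulerFun atTop (ball 0 1) :=
    multipliableLocallyUniformlyOn_one_sub_pow.hasProdLocallyUniformlyOn
  have hdiff : ∀ᶠ s in (atTop : Filter (Finset ℕ)),
      DifferentiableOn ℂ (fun q : ℂ => ∏ n ∈ s, (1 - q ^ (n + 1))) (ball 0 1) :=
    .of_forall fun s => by fun_prop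
  have h1 := ((tendstoLocallyUniformlyOn_iteratedDeriv isOpen_ball hloc hdiff k).1.tendsto_at
    (mem_ball_self one_pos)).const_mul ((k ! : ℕ) : ℂ)⁻¹
  have h2 : ∀ s : Finset ℕ, ((k ! : ℕ) : ℂ)⁻¹ *
      iteratedDeriv k (fun q : ℂ => ∏ n ∈ s, (1 - q ^ (n + 1))) 0 =
      ((PowerSeries.coeff k (∏ n ∈ s, (1 - PowerSeries.X ^ (n + 1)) : PowerSeries ℤ) : ℤ) : ℂ) := by
    intro s
    rw [← coeff_tps, tps_finprod, PowerSeries.coeff_map]
    rfl
  have h3 : Tendsto (fun s : Finset ℕ =>
      ((PowerSeries.coeff k (∏ n ∈ s, (1 - PowerSeries.X ^ (n + 1)) : PowerSeries ℤ) : ℤ) : ℂ))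
      atTop (𝓝 ((PowerSeries.coeff k ModularCurve.etaProd : ℤ) : ℂ)) := by
    have hp : HasProd (fun n : ℕ => (1 - PowerSeries.X ^ (n + 1) : PowerSeries ℤ))
        ModularCurve.etaProd :=
      (PowerSeries.WithPiTopology.multipliable_one_sub_X_pow ℤ).hasProd
    have h4 := ((PowerSeries.WithPiTopology.continuous_coeff ℤ k).tendsto _).comp hp
    exact ((continuous_of_discreteTopology (f := (Int.cast : ℤ → ℂ))).tendsto _).comp h4
  exact tendsto_nhds_unique (h1.congr h2) h3

/-! ## The Eisenstein series `E₄` on the disc -/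

/-- The cusp function of `E₄`: the function of `q` on the unit disc with `E₄ τ = e4Fun (q τ)`. -/
def e4Fun : ℂ → ℂ := cuspFunction 1 E₄

lemma differentiableOn_e4Fun : DifferentiableOn ℂ e4Fun (ball 0 1) := fun q hq =>
  (ModularFormClass.differentiableAt_cuspFunction E₄ one_pos one_mem_strictPeriods_SL
    (by simpa using hq)).differentiableWithinAt

lemma e4Fun_qParam (τ : ℍ) : e4Fun (Function.Periodic.qParam 1 (τ : ℂ)) = E₄ τ :=
  SlashInvariantFormClass.eq_cuspFunction E₄ τ one_mem_strictPeriods_SL one_ne_zero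

lemma tps_e4Fun : tps e4Fun = PowerSeries.map (Int.castRingHom ℂ) ModularCurve.eisenstein4 := by
  have h0 : tps e4Fun = qExpansion 1 E₄ := rfl
  have hc := EisensteinSeries.E_qExpansion_coeff (k := 4) (by norm_num) ⟨2, rfl⟩
  have h240 : (-(2 * (4 : ℕ) / bernoulli 4 : ℂ)) = 240 := by
    have h1 := hc 1
    rw [E₄_qExpansion_coeff_one] at h1
    simpa using h1.symm
  ext m
  rw [h0, hc m, h240, PowerSeries.coeff_map, ModularCurve.eisenstein4, PowerSeries.coeff_mk]
  split_ifs with hm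
  · simp
  · simp [ArithmeticFunction.sigma_apply]

/-! ## The numerator function `q * j` on the disc -/

/-- `q ↦ e4(q)^3 / ∏ (1 - q^n)^24`, i.e. `q * j` as a function of `q`. -/
def jNumFun (q : ℂ) : ℂ := e4Fun q ^ 3 / eulerFun q ^ 24

lemma differentiableOn_jNumFun : DifferentiableOn ℂ jNumFun (ball 0 1) :=
  (differentiableOn_e4Fun.pow 3).div (differentiableOn_eulerFun.pow 24)
    (fun q hq => pow_ne_zero _ (eulerFun_ne_zero (by simpa using hq)))

lemma tps_jNumFun : tps jNumFun = PowerSeries.map (Int.castRingHom ℂ) ModularCurve.jNum := by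
  have hA : AnalyticAt ℂ e4Fun 0 :=
    differentiableOn_e4Fun.analyticAt (ball_mem_nhds 0 one_pos)
  have hP : AnalyticAt ℂ eulerFun 0 :=
    differentiableOn_eulerFun.analyticAt (ball_mem_nhds 0 one_pos)
  have hG : AnalyticAt ℂ jNumFun 0 :=
    differentiableOn_jNumFun.analyticAt (ball_mem_nhds 0 one_pos)
  have h1 : tps (jNumFun * eulerFun ^ 24) = tps (e4Fun ^ 3) := by
    apply tps_congr
    filter_upwards [ball_mem_nhds (0 : ℂ) one_pos] with q hq
    have hne := eulerFun_ne_zero (q := q) (by simpa using hq)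
    simp only [Pi.mul_apply, Pi.pow_apply, jNumFun]
    field_simp
  rw [tps_mul hG (hP.pow 24), tps_pow_succ hP 23, tps_pow_succ hA 2, tps_eulerFun, tps_e4Fun]
    at h1
  have h2 : PowerSeries.map (Int.castRingHom ℂ) ModularCurve.jNum *
      (PowerSeries.map (Int.castRingHom ℂ) ModularCurve.etaProd) ^ 24 =
      (PowerSeries.map (Int.castRingHom ℂ) ModularCurve.eisenstein4) ^ 3 := by
    rw [← map_pow, ← map_pow, ← map_mul]
    congr 1
    rw [ModularCurve.jNum, mul_assoc, mul_comm ModularCurve.dedekindEtaUnitInv,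
      ← ModularCurve.dedekindEtaUnit, ModularCurve.dedekindEtaUnit_mul_inv, mul_one]
  have h3 : (PowerSeries.map (Int.castRingHom ℂ) ModularCurve.etaProd) ^ 24 ≠ 0 := by
    intro h
    have h4 := congrArg (PowerSeries.constantCoeff (R := ℂ)) h
    rw [← map_pow, ← PowerSeries.coeff_zero_eq_constantCoeff, PowerSeries.coeff_map,
      PowerSeries.coeff_zero_eq_constantCoeff, map_pow, ModularCurve.constantCoeff_etaProd] at h4
    simp at h4
  exact mul_right_cancel₀ h3 (h1.trans h2.symm)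

/-! ## The analytic `j`-function -/

/-- The analytic `j`-invariant `j = E₄³ / Δ` on the upper half plane. -/
def jFun (τ : ℍ) : ℂ := E₄ τ ^ 3 / ModularForm.discriminant τ

lemma norm_qParam_lt_one' (τ : ℍ) : ‖Function.Periodic.qParam 1 (τ : ℂ)‖ < 1 :=
  Function.Periodic.norm_qParam_lt_one one_pos τ.im_pos

lemma jNumFun_qParam (τ : ℍ) :
    jNumFun (Function.Periodic.qParam 1 (τ : ℂ)) = Function.Periodic.qParam 1 (τ : ℂ) * jFun τ := by
  have hq := norm_qParam_lt_one' τ
  have hP := eulerFun_ne_zero hq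
  have hq0 : Function.Periodic.qParam 1 (τ : ℂ) ≠ 0 := Function.Periodic.qParam_ne_zero _
  have hΔ : ModularForm.discriminant τ =
      Function.Periodic.qParam 1 (τ : ℂ) * eulerFun (Function.Periodic.qParam 1 (τ : ℂ)) ^ 24 := by
    rw [discriminant_eq_q_prod, eulerFun, ← (multipliable_one_sub_pow hq).tprod_pow 24]
  rw [jNumFun, jFun, hΔ, e4Fun_qParam]
  field_simp

/-- **C1a.** The formal power series `jNumQ` of the Prelude converges at `q = exp(2πiτ)` to
`q * j(τ)`. -/
theorem hasSum_jNumQ (τ : ℍ) :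
    HasSum (fun n : ℕ => ((PowerSeries.coeff n ModularCurve.jNumQ : ℚ) : ℂ) *
      (Function.Periodic.qParam 1 (τ : ℂ)) ^ n)
      (Function.Periodic.qParam 1 (τ : ℂ) * jFun τ) := by
  have h := hasSum_tps differentiableOn_jNumFun (norm_qParam_lt_one' τ)
  rw [tps_jNumFun, jNumFun_qParam] at h
  have e : (fun n : ℕ => ((PowerSeries.coeff n ModularCurve.jNumQ : ℚ) : ℂ) *
      (Function.Periodic.qParam 1 (τ : ℂ)) ^ n) =
      fun m => PowerSeries.coeff m (PowerSeries.map (Int.castRingHom ℂ) ModularCurve.jNum) *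
        (Function.Periodic.qParam 1 (τ : ℂ)) ^ m := by
    funext n
    simp [ModularCurve.jNumQ, PowerSeries.coeff_map]
  rw [e]
  exact h

/-- Disc version of C1a: for every `q` in the unit disc, `∑ c_n q^n = jNumFun q`, where
`jNumFun (exp(2πiτ)) = exp(2πiτ) * jFun τ` (`jNumFun_qParam`). -/
theorem hasSum_jNumQ_disc {q : ℂ} (hq : ‖q‖ < 1) :
    HasSum (fun n : ℕ => ((PowerSeries.coeff n ModularCurve.jNumQ : ℚ) : ℂ) * q ^ n)
      (jNumFun q) := by
  have h := hasSum_tps differentiableOn_jNumFun hq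
  rw [tps_jNumFun] at h
  have e : (fun n : ℕ => ((PowerSeries.coeff n ModularCurve.jNumQ : ℚ) : ℂ) * q ^ n) =
      fun m => PowerSeries.coeff m (PowerSeries.map (Int.castRingHom ℂ) ModularCurve.jNum) *
        q ^ m := by
    funext n
    simp [ModularCurve.jNumQ, PowerSeries.coeff_map]
  rw [e]
  exact h

/-- **C1b.** Absolute convergence of `jNumQ` on the unit disc. -/
theorem summable_norm_jNumQ {r : ℝ} (hr0 : 0 ≤ r) (hr : r < 1) :
    Summable (fun n : ℕ => ‖((PowerSeries.coeff n ModularCurve.jNumQ : ℚ) : ℂ)‖ * r ^ n) := by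
  have h := (hasSum_jNumQ_disc (q := (r : ℂ))
    (by simpa [abs_of_nonneg hr0] using hr)).summable.norm
  refine h.congr fun n => ?_
  simp [abs_of_nonneg hr0]

open scoped MatrixGroups Manifold

/-- **C1c.** `SL(2, ℤ)`-invariance of `j`. -/
theorem jFun_smul (γ : Matrix.SpecialLinearGroup (Fin 2) ℤ) (τ : ℍ) : jFun (γ • τ) = jFun τ := by
  have hγ : (Matrix.SpecialLinearGroup.mapGL ℝ γ : GL (Fin 2) ℝ) ∈ 𝒮ℒ := ⟨γ, rfl⟩
  have h4 := SlashInvariantForm.slash_action_eqn'' E₄ hγ τ
  have h12 := SlashInvariantForm.slash_action_eqn'' CuspForm.discriminant hγ τ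
  have hd : denom (Matrix.SpecialLinearGroup.mapGL ℝ γ) τ ≠ 0 := denom_ne_zero _ τ
  have e : (Matrix.SpecialLinearGroup.mapGL ℝ γ) • τ = γ • τ := rfl
  rw [e] at h4 h12
  have h12' : ModularForm.discriminant (γ • τ) =
      denom (Matrix.SpecialLinearGroup.mapGL ℝ γ) τ ^ (12 : ℤ) * ModularForm.discriminant τ := h12
  have hΔ := discriminant_ne_zero τ
  have h1 : denom (Matrix.SpecialLinearGroup.mapGL ℝ γ) τ ^ (12 : ℤ) =
      (denom (Matrix.SpecialLinearGroup.mapGL ℝ γ) τ ^ (4 : ℤ)) ^ 3 := by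
    rw [← zpow_natCast, ← zpow_mul]
    norm_num
  rw [jFun, jFun, h4, h12', h1]
  field_simp

/-- `j - 1728 = E₆² / Δ`. -/
theorem jFun_sub_1728 (τ : ℍ) : jFun τ - 1728 = E₆ τ ^ 2 / ModularForm.discriminant τ := by
  have hΔ := discriminant_ne_zero τ
  have h := discriminant_eq_E₄_cube_sub_E₆_sq τ
  have h' : E₄ τ ^ 3 = 1728 * ModularForm.discriminant τ + E₆ τ ^ 2 := by
    rw [h]
    ring
  rw [jFun, h']
  field_simp
  ring

/-- `j = 1728 + E₆² / Δ`. -/
theorem jFun_eq_add (τ : ℍ) : jFun τ = 1728 + E₆ τ ^ 2 / ModularForm.discriminant τ := by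
  rw [← jFun_sub_1728]
  ring

/-- Holomorphy of `j` on the upper half plane (in the `ofComplex` form). -/
theorem differentiableOn_jFun :
    DifferentiableOn ℂ (jFun ∘ ofComplex) upperHalfPlaneSet := by
  have h4 : DifferentiableOn ℂ ((E₄ : ℍ → ℂ) ∘ ofComplex) upperHalfPlaneSet :=
    UpperHalfPlane.mdifferentiable_iff.mp (ModularFormClass.holo E₄)
  have h12 : DifferentiableOn ℂ ((CuspForm.discriminant : ℍ → ℂ) ∘ ofComplex)
      upperHalfPlaneSet :=
    UpperHalfPlane.mdifferentiable_iff.mp (CuspFormClass.holo CuspForm.discriminant)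
  have h := (h4.pow 3).div h12 (fun z _ => discriminant_ne_zero (ofComplex z))
  exact h

/-- Holomorphy of `j` on the upper half plane (manifold form). -/
theorem mdifferentiable_jFun : MDiff jFun :=
  UpperHalfPlane.mdifferentiable_iff.mpr differentiableOn_jFun

end Fermat.Agent.S24.helper458
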