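import Fermat.Agent.S24.helper3176_FieldAlg
import Fermat.Agent.S24.helper315_CuspExp
import Fermat.Agent.S24.helper458_AnalyticJ
import Fermat.Agent.S24.helper144_Hermite

/-!
# S24 / MOD: the analytic model `ev` of `A_N = ℚ̄[j(q^d) : d ∣ N]`  (helper2810)

`ev N : helper3176.AN N →+* (ℍ → ℂ)` sends the formal series `j(q^d)` to the function
`τ ↦ J(dτ)` and a constant `c : ℚ̄` to the constant function `i0 c`.  It is constructed through
the presentation `MvPolynomial {d // d ∣ N} ℚ̄ → A_N`: the kernel of the formal evaluation equals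
the kernel of the analytic evaluation because the `q`-expansion homomorphism
`helper315.cuspExp 1` is injective and intertwines the two (this uses only the convergence
statement `helper458.hasSum_jNumQ`).

Main statements (`N : ℕ` with `[NeZero N]`):
* `ev_algebraMap`, `ev_jBarD`, `ev_jBar` : values on constants and generators;
* `mdiff_ev` : every `ev N a` is holomorphic; `ev_mem_cuspMer` : meromorphic at `i∞`, `1`-periodic;
* `cuspExp_ev` : the `q`-expansion of `ev N a` is `coeffMap i0 a`;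
* `ev_injective`;
* `ev_smul_of_mem_Gamma0` : `Γ₀(N)`-invariance;
* `mem_Gamma0_of_ev_smul` : separation (E5);
* `exists_analyticModel` : all of it as one existential statement.
-/

set_option autoImplicit false

open ModularCurve UpperHalfPlane CongruenceSubgroup
open scoped MatrixGroups Manifold

noncomputable section

namespace Fermat.Agent.S24.helper2810

open Fermat.Agent.S24.helper24

local notation "𝕢" => Function.Periodic.qParam

/-! ## The embedding `ℚ̄ → ℂ` and the scaling `τ ↦ dτ` -/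

/-- A fixed embedding `ℚ̄ → ℂ`. -/
def i0 : Kbar →+* ℂ :=
  haveI : Algebra.IsAlgebraic ℚ (AlgebraicClosure ℚ) := AlgebraicClosure.isAlgebraic ℚ
  ((IsAlgClosed.lift : AlgebraicClosure ℚ →ₐ[ℚ] ℂ) : AlgebraicClosure ℚ →+* ℂ)

theorem i0_injective : Function.Injective i0 := i0.injective

theorem i0_algebraMap_rat (r : ℚ) : i0 (algebraMap ℚ Kbar r) = (r : ℂ) := by
  rw [eq_ratCast, map_ratCast]

/-- The point `dτ` of the upper half plane. -/
def sc (d : ℕ) [NeZero d] (τ : ℍ) : ℍ :=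
  ⟨(d : ℂ) * τ, by
    have hd : (0 : ℝ) < d := Nat.cast_pos.mpr (Nat.pos_of_ne_zero (NeZero.ne d))
    simpa using mul_pos hd τ.im_pos⟩

theorem coe_sc (d : ℕ) [NeZero d] (τ : ℍ) : ((sc d τ : ℍ) : ℂ) = (d : ℂ) * τ := rfl

/-- The function `τ ↦ J(dτ)`. -/
def Jd (d : ℕ) [NeZero d] : ℍ → ℂ := fun τ => jFun (sc d τ)

theorem Jd_apply (d : ℕ) [NeZero d] (τ : ℍ) : Jd d τ = jFun (sc d τ) := rfl

theorem jFun_eq : (jFun : ℍ → ℂ) = helper458.jFun := rfl

theorem jFun_eq' : (jFun : ℍ → ℂ) = helper144.Jfun := rfl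

theorem jFun_smul (γ : SL(2, ℤ)) (τ : ℍ) : jFun (γ • τ) = jFun τ :=
  helper458.jFun_smul γ τ

/-- `Jd d τ = jFun τ'` whenever `τ' = dτ`. -/
theorem Jd_eq (d : ℕ) [NeZero d] (τ τ' : ℍ) (h : (τ' : ℂ) = (d : ℂ) * τ) :
    Jd d τ = jFun τ' := by
  rw [Jd_apply]
  congr 1
  exact UpperHalfPlane.ext (by rw [coe_sc, h])

theorem mdiff_Jd (d : ℕ) [NeZero d] : MDiff (Jd d) := by
  rw [UpperHalfPlane.mdifferentiable_iff]
  have hd : (0 : ℝ) < d := Nat.cast_pos.mpr (Nat.pos_of_ne_zero (NeZero.ne d))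
  have hmaps : ∀ z : ℂ, 0 < z.im → 0 < ((d : ℂ) * z).im := fun z hz => by
    simpa using mul_pos hd hz
  have h1 : DifferentiableOn ℂ ((helper458.jFun ∘ ofComplex) ∘ (fun z : ℂ => (d : ℂ) * z))
      upperHalfPlaneSet :=
    helper458.differentiableOn_jFun.comp (by fun_prop) (fun z hz => hmaps z hz)
  refine h1.congr fun z hz => ?_
  have hz' : 0 < z.im := hz
  simp only [Function.comp_apply, Jd]
  rw [jFun_eq]
  congr 1
  apply UpperHalfPlane.ext
  rw [coe_sc, ofComplex_apply_of_im_pos hz', ofComplex_apply_of_im_pos (hmaps z hz')]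

theorem hPeriodic_Jd (d : ℕ) [NeZero d] : helper315.HPeriodic ((1 : ℕ) : ℝ) (Jd d) := by
  intro τ
  have e : sc d (((1 : ℕ) : ℝ) +ᵥ τ) = ModularGroup.T ^ (d : ℤ) • sc d τ := by
    apply UpperHalfPlane.ext
    rw [ModularGroup.coe_T_zpow_smul_eq, coe_sc, coe_sc, UpperHalfPlane.coe_vadd]
    push_cast
    ring
  rw [Jd_apply, Jd_apply, e, jFun_smul]

/-- The coefficients of `q^d J(dτ)` as a power series in `q`. -/
def cJ (d : ℕ) : ℕ → ℂ := fun n =>
  if d ∣ n then ((PowerSeries.coeff (n / d) jNumQ : ℚ) : ℂ) else 0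

theorem qParam_sc (d : ℕ) [NeZero d] (τ : ℍ) :
    𝕢 1 ((sc d τ : ℍ) : ℂ) = 𝕢 1 (τ : ℂ) ^ d := by
  rw [coe_sc, Function.Periodic.qParam, Function.Periodic.qParam, ← Complex.exp_nat_mul]
  congr 1
  push_cast
  ring

theorem hasSum_Jd (d : ℕ) [NeZero d] (τ : ℍ) :
    HasSum (fun n : ℕ => cJ d n * helper315.qH ((1 : ℕ) : ℝ) τ ^ n)
      (helper315.qH ((1 : ℕ) : ℝ) τ ^ d * Jd d τ) := by
  have hd0 : 0 < d := Nat.pos_of_ne_zero (NeZero.ne d)
  have h1 := helper458.hasSum_jNumQ (sc d τ)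
  rw [qParam_sc] at h1
  have hq : helper315.qH ((1 : ℕ) : ℝ) τ = 𝕢 1 (τ : ℂ) := by
    rw [helper315.qH_apply, Nat.cast_one]
  rw [hq]
  have hinj : Function.Injective (fun n : ℕ => d * n) := fun a b h =>
    Nat.eq_of_mul_eq_mul_left hd0 h
  refine (Function.Injective.hasSum_iff hinj ?_).mp ?_
  · intro x hx
    have hx' : ¬ d ∣ x := fun ⟨m, hm⟩ => hx ⟨m, hm.symm⟩
    simp [cJ, hx']
  · have e : ((fun n : ℕ => cJ d n * 𝕢 1 (τ : ℂ) ^ n) ∘ fun n : ℕ => d * n)
        = fun n : ℕ => ((PowerSeries.coeff n jNumQ : ℚ) : ℂ) * (𝕢 1 (τ : ℂ) ^ d) ^ n := by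
      funext n
      simp only [Function.comp_apply, cJ, dvd_mul_right, if_true,
        Nat.mul_div_cancel_left n hd0, pow_mul]
    rw [e]
    exact h1

theorem Jd_mem (d : ℕ) [NeZero d] : Jd d ∈ helper315.cuspMer 1 :=
  ⟨d, (helper315.cuspExpFun_eq_of_hasSum (helper315.natCast_pos' 1) (mdiff_Jd d)
    (hPeriodic_Jd d) (hasSum_Jd d)).1⟩

theorem coeff_jq (m : ℤ) :
    jq.coeff m = (HahnSeries.ofPowerSeries ℤ ℚ jNumQ).coeff (m + 1) := by
  rw [jq, HahnSeries.coeff_single_mul, one_mul, sub_neg_eq_add]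

/-- The `q`-expansion of `J(dτ)` is the formal series `j(q^d)`. -/
theorem cuspExpFun_Jd (d : ℕ) [NeZero d] :
    helper315.cuspExpFun ((1 : ℕ) : ℝ) (Jd d) = coeffMap i0 (jSeries d) := by
  have hd0 : 0 < d := Nat.pos_of_ne_zero (NeZero.ne d)
  have hdz : (0 : ℤ) < (d : ℤ) := by exact_mod_cast hd0
  rw [(helper315.cuspExpFun_eq_of_hasSum (helper315.natCast_pos' 1) (mdiff_Jd d)
    (hPeriodic_Jd d) (hasSum_Jd d)).2]
  ext k
  rw [HahnSeries.coeff_single_mul, one_mul, sub_neg_eq_add, coeffMap_coeff, jSeries,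
    coeffEmb_coeff, i0_algebraMap_rat]
  by_cases hk : (d : ℤ) ∣ k
  · obtain ⟨m, rfl⟩ := hk
    rw [qExpand_coeff_mul, coeff_jq]
    by_cases hm : 0 ≤ m + 1
    · obtain ⟨n, hn⟩ := Int.eq_ofNat_of_zero_le hm
      have e : (d : ℤ) * m + d = ((d * n : ℕ) : ℤ) := by
        push_cast
        rw [← hn]
        ring
      rw [e, hn, HahnSeries.ofPowerSeries_apply_coeff, HahnSeries.ofPowerSeries_apply_coeff,
        PowerSeries.coeff_mk]
      simp [cJ, Nat.mul_div_cancel_left n hd0]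
    · have hm' : m + 1 < 0 := not_le.mp hm
      have e : (d : ℤ) * m + d < 0 := by nlinarith
      rw [ofPowerSeries_coeff_of_neg _ e, ofPowerSeries_coeff_of_neg _ hm']
      simp
  · rw [qExpand_coeff_of_not_dvd d jq hk]
    by_cases hkd : 0 ≤ k + d
    · obtain ⟨n, hn⟩ := Int.eq_ofNat_of_zero_le hkd
      have hdn : ¬ d ∣ n := by
        intro hdn
        apply hk
        have h2 : (d : ℤ) ∣ (n : ℤ) := Int.natCast_dvd_natCast.mpr hdn
        rw [← hn] at h2
        exact (Int.dvd_add_left (dvd_refl _)).mp h2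
      rw [hn, HahnSeries.ofPowerSeries_apply_coeff, PowerSeries.coeff_mk]
      simp [cJ, hdn]
    · rw [ofPowerSeries_coeff_of_neg _ (not_le.mp hkd)]
      simp

/-! ## The two evaluations of the polynomial ring -/

/-- The index type of the generators. -/
abbrev DN (N : ℕ) : Type := {d : ℕ // d ∣ N}

instance neZero_DN (N : ℕ) [NeZero N] (d : DN N) : NeZero d.1 :=
  ⟨fun h => NeZero.ne N (zero_dvd_iff.mp (h ▸ d.2))⟩

variable (N : ℕ) [NeZero N]

/-- The generators `j(q^d)` of the function field. -/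
def genF (d : DN N) : FN N := jBarD N d.1 d.2

/-- Formal evaluation `X_d ↦ j(q^d)`. -/
def piF : MvPolynomial (DN N) Kbar →ₐ[Kbar] FN N := MvPolynomial.aeval (genF N)

/-- Constant functions. -/
def constHom : ℂ →+* helper315.cuspMer 1 where
  toFun c := ⟨fun _ => c, (helper315.IsCuspHol.const _ c).isCuspMer⟩
  map_one' := rfl
  map_mul' _ _ := rfl
  map_zero' := rfl
  map_add' _ _ := rfl

/-- The generators `J(dτ)` of the analytic model. -/
def genC (d : DN N) : helper315.cuspMer 1 := ⟨Jd d.1, Jd_mem d.1⟩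

/-- Analytic evaluation `X_d ↦ J(dτ)`. -/
def piC : MvPolynomial (DN N) Kbar →+* helper315.cuspMer 1 :=
  MvPolynomial.eval₂Hom (constHom.comp i0) (genC N)

theorem cuspExp_piC (p : MvPolynomial (DN N) Kbar) :
    helper315.cuspExp 1 (piC N p) = coeffMap i0 ((piF N p : FN N) : LaurentSeries Kbar) := by
  have h : (helper315.cuspExp 1).comp (piC N) = (coeffMap i0).comp
      ((modularFunctionFieldBar N).val.toRingHom.comp (piF N).toRingHom) := by
    apply MvPolynomial.ringHom_ext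
    · intro r
      have e1 : (piF N) (MvPolynomial.C r) = algebraMap Kbar (FN N) r := MvPolynomial.aeval_C _ r
      have e2 : ((algebraMap Kbar (FN N) r : FN N) : LaurentSeries Kbar)
          = algebraMap Kbar (LaurentSeries Kbar) r := rfl
      have e3 : (piC N) (MvPolynomial.C r) = constHom (i0 r) := MvPolynomial.eval₂Hom_C _ _ r
      show helper315.cuspExp 1 (piC N (MvPolynomial.C r))
        = coeffMap i0 ((piF N (MvPolynomial.C r) : FN N) : LaurentSeries Kbar)
      rw [e1, e2, e3, algebraMap_laurentSeries_eq_single, coeffMap_single]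
      exact helper315.cuspExpFun_const (helper315.natCast_pos' 1) (i0 r)
    · intro d
      have e1 : (piF N) (MvPolynomial.X d) = genF N d := MvPolynomial.aeval_X _ d
      have e3 : (piC N) (MvPolynomial.X d) = genC N d := MvPolynomial.eval₂Hom_X' _ _ d
      show helper315.cuspExp 1 (piC N (MvPolynomial.X d))
        = coeffMap i0 ((piF N (MvPolynomial.X d) : FN N) : LaurentSeries Kbar)
      rw [e1, e3]
      exact cuspExpFun_Jd d.1
  exact RingHom.congr_fun h p

theorem coeffMap_i0_injective : Function.Injective (coeffMap i0 : LaurentSeries Kbar → _) := by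
  intro x y hxy
  ext k
  have := congrArg (fun z : LaurentSeries ℂ => z.coeff k) hxy
  simp only [coeffMap_coeff] at this
  exact i0_injective this

theorem piC_eq_zero_iff (p : MvPolynomial (DN N) Kbar) : piC N p = 0 ↔ piF N p = 0 := by
  constructor
  · intro h
    have h1 := cuspExp_piC N p
    rw [h, map_zero] at h1
    have h2 : ((piF N p : FN N) : LaurentSeries Kbar) = 0 :=
      coeffMap_i0_injective (by rw [← h1, map_zero])
    exact Subtype.ext h2
  · intro h
    have h1 := cuspExp_piC N p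
    rw [h] at h1
    have h2 : helper315.cuspExp 1 (piC N p) = 0 := by
      rw [h1]
      exact map_zero _
    exact helper315.cuspExp_injective 1 (by rw [h2, map_zero])

/-! ## The analytic model -/

theorem genSetF_eq_range : helper3176.genSetF N = Set.range (genF N) := by
  ext x
  constructor
  · rintro ⟨d, hd0, hd, rfl⟩
    exact ⟨⟨d, hd⟩, rfl⟩
  · rintro ⟨d, rfl⟩
    exact ⟨d.1, inferInstance, d.2, rfl⟩

theorem AN_eq_range : helper3176.AN N = (piF N).range := by
  rw [helper3176.AN, genSetF_eq_range, Algebra.adjoin_range_eq_range_aeval]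
  rfl

theorem piF_mem (p : MvPolynomial (DN N) Kbar) : piF N p ∈ helper3176.AN N := by
  rw [AN_eq_range]
  exact ⟨p, rfl⟩

/-- The formal evaluation with codomain `A_N`. -/
def piA : MvPolynomial (DN N) Kbar →+* helper3176.AN N :=
  ((piF N).codRestrict (helper3176.AN N) (piF_mem N)).toRingHom

theorem coe_piA (p : MvPolynomial (DN N) Kbar) : ((piA N p : helper3176.AN N) : FN N) = piF N p :=
  rfl

theorem piA_surjective : Function.Surjective (piA N) := by
  rintro ⟨a, ha⟩
  rw [AN_eq_range] at ha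
  obtain ⟨p, rfl⟩ := ha
  exact ⟨p, rfl⟩

theorem ker_piA_le :
    RingHom.ker (piA N) ≤ RingHom.ker ((helper315.cuspMer 1).subtype.comp (piC N)) := by
  intro p hp
  rw [RingHom.mem_ker] at hp ⊢
  have h1 : piF N p = 0 := by
    rw [← coe_piA, hp]
    rfl
  rw [RingHom.comp_apply, (piC_eq_zero_iff N p).mpr h1, map_zero]

/-- **The analytic model**: `ev N a` is the holomorphic function on `ℍ` attached to
`a ∈ A_N = ℚ̄[j(q^d) : d ∣ N]`. -/
def ev : helper3176.AN N →+* (ℍ → ℂ) :=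
  RingHom.liftOfSurjective (piA N) (piA_surjective N)
    ⟨(helper315.cuspMer 1).subtype.comp (piC N), ker_piA_le N⟩

theorem ev_piA (p : MvPolynomial (DN N) Kbar) :
    ev N (piA N p) = ((piC N p : helper315.cuspMer 1) : ℍ → ℂ) :=
  RingHom.liftOfSurjective_comp_apply (piA N) (piA_surjective N) _ p

theorem ev_mem_cuspMer (a : helper3176.AN N) : ev N a ∈ helper315.cuspMer 1 := by
  obtain ⟨p, rfl⟩ := piA_surjective N a
  rw [ev_piA]
  exact (piC N p).2

/-- Every `ev N a` is holomorphic on `ℍ`. -/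
theorem mdiff_ev (a : helper3176.AN N) : MDiff (ev N a) :=
  helper315.IsCuspMer.mdiff (ev_mem_cuspMer N a)

/-- Every `ev N a` is `1`-periodic. -/
theorem ev_vadd_one (a : helper3176.AN N) (τ : ℍ) : ev N a ((1 : ℝ) +ᵥ τ) = ev N a τ := by
  have h := helper315.IsCuspMer.periodic (helper315.natCast_pos' 1) (ev_mem_cuspMer N a) τ
  rwa [Nat.cast_one] at h

/-- The `q`-expansion of `ev N a` is the formal series `a` (with coefficients mapped to `ℂ`). -/
theorem cuspExp_ev (a : helper3176.AN N) :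
    helper315.cuspExp 1 ⟨ev N a, ev_mem_cuspMer N a⟩
      = coeffMap i0 (((a : FN N)) : LaurentSeries Kbar) := by
  obtain ⟨p, rfl⟩ := piA_surjective N a
  rw [coe_piA, ← cuspExp_piC]
  congr 1
  exact Subtype.ext (ev_piA N p)

theorem ev_injective : Function.Injective (ev N) := by
  rw [injective_iff_map_eq_zero]
  intro a ha
  obtain ⟨p, rfl⟩ := piA_surjective N a
  rw [ev_piA] at ha
  have h1 : piC N p = 0 := Subtype.ext ha
  have h2 := (piC_eq_zero_iff N p).mp h1
  exact Subtype.ext (by rw [coe_piA, h2]; rfl)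

/-- `ev` on constants. -/
theorem ev_algebraMap (c : Kbar) :
    ev N (algebraMap Kbar (helper3176.AN N) c) = fun _ => i0 c := by
  have e : algebraMap Kbar (helper3176.AN N) c = piA N (MvPolynomial.C c) := by
    apply Subtype.ext
    rw [coe_piA]
    exact (MvPolynomial.aeval_C _ c).symm
  rw [e, ev_piA]
  have e3 : (piC N) (MvPolynomial.C c) = constHom (i0 c) := MvPolynomial.eval₂Hom_C _ _ c
  rw [e3]
  rfl

/-- `ev` on the generators: `ev (j(q^d)) = (τ ↦ J(dτ))`. -/
theorem ev_jBarD (d : ℕ) [NeZero d] (hd : d ∣ N) :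
    ev N ⟨jBarD N d hd, helper3176.jBarD_mem_AN N d hd⟩ = Jd d := by
  have e : (⟨jBarD N d hd, helper3176.jBarD_mem_AN N d hd⟩ : helper3176.AN N)
      = piA N (MvPolynomial.X ⟨d, hd⟩) := by
    apply Subtype.ext
    rw [coe_piA]
    exact (MvPolynomial.aeval_X (genF N) (⟨d, hd⟩ : DN N)).symm
  rw [e, ev_piA]
  have e3 : (piC N) (MvPolynomial.X ⟨d, hd⟩) = genC N ⟨d, hd⟩ :=
    MvPolynomial.eval₂Hom_X' _ _ _
  rw [e3]
  rfl

/-- `ev j = J`. -/
theorem ev_jBar : ev N ⟨jBar N, helper3176.jBar_mem_AN N⟩ = jFun := by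
  have h := ev_jBarD N 1 (one_dvd N)
  have e : Jd 1 = jFun := by
    funext τ
    exact Jd_eq 1 τ τ (by simp)
  rw [← e, ← h]
  rfl

/-- An induction principle: a property of functions that holds for constants and is preserved
by sums and by multiplication with the functions `J(dτ)`, `d ∣ N`, holds for all `ev N a`. -/
theorem ev_induction {P : (ℍ → ℂ) → Prop} (hc : ∀ c : ℂ, P (fun _ => c))
    (hadd : ∀ f g, P f → P g → P (f + g))
    (hmul : ∀ (f : ℍ → ℂ) (d : ℕ) [NeZero d], d ∣ N → P f → P (f * Jd d))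
    (a : helper3176.AN N) : P (ev N a) := by
  obtain ⟨p, rfl⟩ := piA_surjective N a
  induction p using MvPolynomial.induction_on with
  | C c =>
    have e : ev N (piA N (MvPolynomial.C c)) = fun _ => i0 c := by
      rw [ev_piA]
      have e3 : (piC N) (MvPolynomial.C c) = constHom (i0 c) := MvPolynomial.eval₂Hom_C _ _ c
      rw [e3]
      rfl
    rw [e]
    exact hc _
  | add p q hp hq =>
    rw [map_add, map_add]
    exact hadd _ _ hp hq
  | mul_X p d hp =>
    have e : ev N (piA N (MvPolynomial.X d)) = Jd d.1 := by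
      rw [ev_piA]
      have e3 : (piC N) (MvPolynomial.X d) = genC N d := MvPolynomial.eval₂Hom_X' _ _ _
      rw [e3]
      rfl
    rw [map_mul, map_mul, e]
    exact hmul _ d.1 d.2 hp

/-- `Γ₀(N)`-invariance of the analytic model. -/
theorem ev_smul_of_mem_Gamma0 {γ : SL(2, ℤ)} (hγ : γ ∈ Gamma0 N) (a : helper3176.AN N)
    (τ : ℍ) : ev N a (γ • τ) = ev N a τ := by
  revert τ
  refine ev_induction N (P := fun f => ∀ τ : ℍ, f (γ • τ) = f τ) (fun c τ => rfl)
    (fun f g hf hg τ => by simp only [Pi.add_apply, hf τ, hg τ]) ?_ a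
  intro f d _ hd hf τ
  have hd0 : (0 : ℤ) < (d : ℤ) := by exact_mod_cast Nat.pos_of_ne_zero (NeZero.ne d)
  have hdN : (d : ℤ) ∣ (N : ℤ) := Int.natCast_dvd_natCast.mpr hd
  have h := helper144.eq_of_mem_Gamma0 (J := jFun) jFun_smul hd0 hdN hγ τ
    (sc d (γ • τ)) (sc d τ) (by rw [coe_sc]; push_cast; rfl) (by rw [coe_sc]; push_cast; rfl)
  simp only [Pi.mul_apply, hf τ, Jd_apply, h]

/-- Separation (E5): an element of `SL(2, ℤ)` fixing every `ev N a` lies in `Γ₀(N)`. -/
theorem mem_Gamma0_of_ev_smul (g : SL(2, ℤ))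
    (h : ∀ (a : helper3176.AN N) (τ : ℍ), ev N a (g • τ) = ev N a τ) : g ∈ Gamma0 N := by
  apply helper144.mem_Gamma0_of_Jfun_scale_eq N g
  intro τ τ₁ τ₂ h₁ h₂
  have h' := h ⟨jBarD N N dvd_rfl, helper3176.jBarD_mem_AN N N dvd_rfl⟩ τ
  rw [ev_jBarD] at h'
  rw [← jFun_eq', ← Jd_eq N (g • τ) τ₁ h₁, ← Jd_eq N τ τ₂ h₂]
  exact h'

/-- **The analytic model of `A_N`**, as one existential statement. -/
theorem exists_analyticModel :
    ∃ (κ : Kbar →+* ℂ) (e : helper3176.AN N →+* (ℍ → ℂ)),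
      (∀ c : Kbar, e (algebraMap Kbar (helper3176.AN N) c) = fun _ => κ c) ∧
      (∀ a, MDiff (e a)) ∧
      Function.Injective e ∧
      (∀ (d : ℕ) [NeZero d] (hd : d ∣ N) (τ τ' : ℍ), (τ' : ℂ) = (d : ℂ) * τ →
        e ⟨jBarD N d hd, helper3176.jBarD_mem_AN N d hd⟩ τ = jFun τ') ∧
      e ⟨jBar N, helper3176.jBar_mem_AN N⟩ = jFun ∧
      (∀ γ ∈ Gamma0 N, ∀ a τ, e a (γ • τ) = e a τ) ∧
      (∀ g : SL(2, ℤ), (∀ a τ, e a (g • τ) = e a τ) → g ∈ Gamma0 N) :=
  ⟨i0, ev N, ev_algebraMap N, mdiff_ev N, ev_injective N,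
    fun d _ hd τ τ' h => by rw [ev_jBarD N d hd]; exact Jd_eq d τ τ' h,
    ev_jBar N, fun _ hγ a τ => ev_smul_of_mem_Gamma0 N hγ a τ, mem_Gamma0_of_ev_smul N⟩

end Fermat.Agent.S24.helper2810
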