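import Fermat.Agent.S24.helper24_Spec

/-!
# S24, module M3-GLUE (helper481): the three finite-point local data in the Spec shape

`local_of_package : Stmt_MerPackage → Stmt_JSurj → Stmt_JGeneric → Stmt_JElliptic →
  Stmt_LocalGeneric ∧ Stmt_Local1728 ∧ Stmt_LocalZero`.

`Stmt_MerPackage` is an abstract description of "a field of meromorphic functions on the upper
half plane containing the function field": any field `M` with order valuations at the points of
`ℍ`, an action of `SL(2, ℤ)` and an embedding `ev` of the function field will do.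
-/

set_option autoImplicit false

open ModularCurve AlgebraicCurve CongruenceSubgroup UpperHalfPlane
open scoped MatrixGroups

namespace Fermat.Agent.S24.helper481

open Fermat.Agent.S24.helper24

/-- The divisibility hypothesis of `Stmt_LOC` / `LocalDatum` for `(w, σ, m)`. -/
def HDiv {M : Type} [Field M] [Algebra Kbar M] (w : AddValuation M (WithTop ℤ))
    (σ : M ≃ₐ[Kbar] M) (m : ℕ) : Prop :=
  ∀ (k : ℕ) (z : M), z ≠ 0 → (σ ^ k) z = z →
    ∃ l : ℤ, w z = (((m / Nat.gcd k m : ℕ) * l : ℤ) : WithTop ℤ)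

/-- Abstract "field of meromorphic functions" package at level `N`:
a field `M` over `ℚ̄` with order valuations `ord τ` (`τ : ℍ`), an action `act` of `SL(2, ℤ)` by
automorphisms (`act g z` is `z ∘ g⁻¹`; only stabilizers are used for `ord`), and an embedding `ev` of the function field whose image
is fixed exactly by `Γ₀(N)`, sending `j` to the analytic `j`-function. -/
def Stmt_MerPackage : Prop :=
  ∀ (N : ℕ) [NeZero N], ∃ (M : Type) (_ : Field M) (_ : Algebra Kbar M) (i0 : Kbar →+* ℂ)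
    (ord : ℍ → AddValuation M (WithTop ℤ)) (act : SL(2, ℤ) → (M ≃ₐ[Kbar] M))
    (ev : FN N →ₐ[Kbar] M),
    (∀ (g h : SL(2, ℤ)) (z : M), act (g * h) z = act g (act h z)) ∧
    (∀ (τ : ℍ) (a : Kbar), a ≠ 0 → ord τ (algebraMap Kbar M a) = 0) ∧
    (∀ (g : SL(2, ℤ)) (τ : ℍ) (z : M), g • τ = τ → ord τ (act g z) = ord τ z) ∧
    (∀ γ ∈ Gamma0 N, ∀ f : FN N, act γ (ev f) = ev f) ∧
    (∀ g : SL(2, ℤ), (∀ f : FN N, act g (ev f) = ev f) → g ∈ Gamma0 N) ∧
    (∀ g : SL(2, ℤ), act g (ev (jBar N)) = ev (jBar N)) ∧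
    (∀ (τ : ℍ) (c : Kbar), jFun τ = i0 c →
      ord τ (ev (jBar N) - algebraMap Kbar M c)
        = (analyticOrderAt (fun z : ℂ => jFun (ofComplex z) - jFun τ) (τ : ℂ)).map (↑)) ∧
    (∀ τ : ℍ, ModularGroup.S • τ = τ → HDiv (ord τ) (act ModularGroup.S) 2) ∧
    (∀ τ : ℍ, (ModularGroup.S * ModularGroup.T) • τ = τ →
      HDiv (ord τ) (act (ModularGroup.S * ModularGroup.T)) 3)

/-- C2: the analytic `j`-function is surjective. -/
def Stmt_JSurj : Prop := ∀ c : ℂ, ∃ τ : ℍ, jFun τ = c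

/-- J5, generic part: `j - j(τ₀)` has a simple zero at `τ₀` unless `j(τ₀) ∈ {0, 1728}`. -/
def Stmt_JGeneric : Prop :=
  ∀ τ₀ : ℍ, jFun τ₀ ≠ 0 → jFun τ₀ ≠ 1728 →
    analyticOrderAt (fun z : ℂ => jFun (ofComplex z) - jFun τ₀) (τ₀ : ℂ) = 1

/-- J5, elliptic part: a fixed point of `S` with `j = 1728` where `j - 1728` vanishes to order
`2`, and a fixed point of `S * T` with `j = 0` where `j` vanishes to order `3`. -/
def Stmt_JElliptic : Prop :=
  (∃ τ : ℍ, ModularGroup.S • τ = τ ∧ jFun τ = 1728 ∧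
    analyticOrderAt (fun z : ℂ => jFun (ofComplex z) - jFun τ) (τ : ℂ) = 2) ∧
  (∃ τ : ℍ, (ModularGroup.S * ModularGroup.T) • τ = τ ∧ jFun τ = 0 ∧
    analyticOrderAt (fun z : ℂ => jFun (ofComplex z) - jFun τ) (τ : ℂ) = 3)

section glue

variable {N : ℕ} {M : Type} [Field M] [Algebra Kbar M]

/-- The conjugate embeddings `ι_x = act (g_x) ∘ ev`, `g_x` a chosen representative of `x`. -/
noncomputable def iotaOf (act : SL(2, ℤ) → (M ≃ₐ[Kbar] M)) (ev : FN N →ₐ[Kbar] M)
    (x : XN N) : FN N →ₐ[Kbar] M :=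
  ((act (Quotient.out x) : M ≃ₐ[Kbar] M) : M →ₐ[Kbar] M).comp ev

theorem iotaOf_apply (act : SL(2, ℤ) → (M ≃ₐ[Kbar] M)) (ev : FN N →ₐ[Kbar] M)
    (x : XN N) (f : FN N) : iotaOf act ev x f = act (Quotient.out x) (ev f) := rfl

theorem act_one_apply (act : SL(2, ℤ) → (M ≃ₐ[Kbar] M))
    (hmul : ∀ (g h : SL(2, ℤ)) (z : M), act (g * h) z = act g (act h z)) (z : M) :
    act 1 z = z := by
  have h := hmul 1 1 z
  rw [one_mul] at h
  exact ((act 1).injective h).symm

theorem iotaOf_injective (act : SL(2, ℤ) → (M ≃ₐ[Kbar] M)) (ev : FN N →ₐ[Kbar] M)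
    (hmul : ∀ (g h : SL(2, ℤ)) (z : M), act (g * h) z = act g (act h z))
    (hsep : ∀ g : SL(2, ℤ), (∀ f : FN N, act g (ev f) = ev f) → g ∈ Gamma0 N) :
    Function.Injective (iotaOf (N := N) act ev) := by
  intro x y hxy
  have key : (Quotient.out y)⁻¹ * Quotient.out x ∈ Gamma0 N := by
    apply hsep
    intro f
    have h1 : act (Quotient.out x) (ev f) = act (Quotient.out y) (ev f) := by
      have := congrArg (fun φ : FN N →ₐ[Kbar] M => φ f) hxy
      simpa [iotaOf_apply] using this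
    rw [hmul, h1, ← hmul, inv_mul_cancel, act_one_apply act hmul]
  have h2 : (QuotientGroup.mk (Quotient.out y) : XN N) = QuotientGroup.mk (Quotient.out x) :=
    QuotientGroup.eq.mpr key
  have hx : (QuotientGroup.mk (Quotient.out x) : XN N) = x := Quotient.out_eq x
  have hy : (QuotientGroup.mk (Quotient.out y) : XN N) = y := Quotient.out_eq y
  rw [← hx, ← hy, h2]

theorem act_iotaOf (act : SL(2, ℤ) → (M ≃ₐ[Kbar] M)) (ev : FN N →ₐ[Kbar] M)
    (hmul : ∀ (g h : SL(2, ℤ)) (z : M), act (g * h) z = act g (act h z))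
    (hinv : ∀ γ ∈ Gamma0 N, ∀ f : FN N, act γ (ev f) = ev f)
    (g : SL(2, ℤ)) (x : XN N) (f : FN N) :
    act g (iotaOf act ev x f) = iotaOf act ev (g • x) f := by
  rw [iotaOf_apply, iotaOf_apply, ← hmul]
  have hx : (QuotientGroup.mk (Quotient.out x) : XN N) = x := Quotient.out_eq x
  have h1 : (QuotientGroup.mk (g * Quotient.out x) : XN N)
      = QuotientGroup.mk (Quotient.out (g • x)) := by
    have h2 : (QuotientGroup.mk (Quotient.out (g • x)) : XN N) = g • x := Quotient.out_eq _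
    rw [h2]
    conv_rhs => rw [← hx]
    rfl
  have key : (g * Quotient.out x)⁻¹ * Quotient.out (g • x) ∈ Gamma0 N := QuotientGroup.eq.mp h1
  have h3 : Quotient.out (g • x)
      = (g * Quotient.out x) * ((g * Quotient.out x)⁻¹ * Quotient.out (g • x)) := by
    group
  conv_rhs => rw [h3, hmul, hinv _ key]

theorem iotaOf_j (act : SL(2, ℤ) → (M ≃ₐ[Kbar] M)) (ev : FN N →ₐ[Kbar] M)
    (hj : ∀ g : SL(2, ℤ), act g (ev (jBar N)) = ev (jBar N)) (c : Kbar) (x : XN N) :
    iotaOf act ev x (jBar N - algebraMap Kbar (FN N) c)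
      = ev (jBar N) - algebraMap Kbar M c := by
  rw [iotaOf_apply, map_sub, map_sub, hj, AlgHom.commutes, AlgEquiv.commutes]

end glue

/-- The local datum at a point `τ₀` fixed by `g₀` where `j - c` vanishes to order `m`, given the
divisibility property of the stabilizer. -/
theorem localDatum_of_package {N : ℕ} [NeZero N] {M : Type} [Field M] [Algebra Kbar M]
    (ord : ℍ → AddValuation M (WithTop ℤ)) (act : SL(2, ℤ) → (M ≃ₐ[Kbar] M))
    (ev : FN N →ₐ[Kbar] M)
    (hmul : ∀ (g h : SL(2, ℤ)) (z : M), act (g * h) z = act g (act h z))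
    (hconst : ∀ (τ : ℍ) (a : Kbar), a ≠ 0 → ord τ (algebraMap Kbar M a) = 0)
    (hord : ∀ (g : SL(2, ℤ)) (τ : ℍ) (z : M), g • τ = τ → ord τ (act g z) = ord τ z)
    (hinv : ∀ γ ∈ Gamma0 N, ∀ f : FN N, act γ (ev f) = ev f)
    (hsep : ∀ g : SL(2, ℤ), (∀ f : FN N, act g (ev f) = ev f) → g ∈ Gamma0 N)
    (hj : ∀ g : SL(2, ℤ), act g (ev (jBar N)) = ev (jBar N))
    (c : Kbar) (τ₀ : ℍ) (g₀ : SL(2, ℤ)) (m : ℕ) (hm : 0 < m) (hfix : g₀ • τ₀ = τ₀)
    (hval : ord τ₀ (ev (jBar N) - algebraMap Kbar M c) = ((m : ℤ) : WithTop ℤ))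
    (hdiv : HDiv (ord τ₀) (act g₀) m) :
    LocalDatum N (jBar N - algebraMap Kbar (FN N) c) m g₀ := by
  refine ⟨M, inferInstance, inferInstance, ord τ₀, iotaOf act ev, act g₀,
    ev (jBar N) - algebraMap Kbar M c, hconst τ₀, iotaOf_injective act ev hmul hsep,
    iotaOf_j act ev hj c, hm, hval, ?_, Or.inl (act_iotaOf act ev hmul hinv g₀), hdiv⟩
  intro z
  exact hord g₀ τ₀ z hfix

theorem hDiv_one {M : Type} [Field M] [Algebra Kbar M] (w : AddValuation M (WithTop ℤ))
    (σ : M ≃ₐ[Kbar] M) : HDiv w σ 1 := by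
  intro k z hz _
  have hne : w z ≠ ⊤ := by
    rw [Ne, AddValuation.top_iff]
    exact hz
  obtain ⟨l, hl⟩ := WithTop.ne_top_iff_exists.mp hne
  refine ⟨l, ?_⟩
  rw [← hl]
  simp

/-- **M3-GLUE**: the three finite-point local data of the Spec from the abstract package. -/
theorem local_of_package (hP : Stmt_MerPackage) (hC2 : Stmt_JSurj) (hG : Stmt_JGeneric)
    (hE : Stmt_JElliptic) :
    Stmt_LocalGeneric ∧ Stmt_Local1728 ∧ Stmt_LocalZero := by
  refine ⟨?_, ?_, ?_⟩
  · intro N _ c hc0 hc1728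
    obtain ⟨M, instF, instA, i0, ord, act, ev, hmul, hconst, hord, hinv, hsep, hj, hval, -, -⟩ :=
      hP N
    obtain ⟨τ₀, hτ₀⟩ := hC2 (i0 c)
    have h0 : jFun τ₀ ≠ 0 := by
      rw [hτ₀]
      exact (map_ne_zero i0).mpr hc0
    have h1 : jFun τ₀ ≠ 1728 := by
      rw [hτ₀]
      intro h
      apply hc1728
      apply i0.injective
      rw [h]
      exact (map_ofNat i0 1728).symm
    have hv := hval τ₀ c hτ₀
    rw [hG τ₀ h0 h1] at hv
    have hd : LocalDatum N (jBar N - algebraMap Kbar (FN N) c) 1 1 := by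
      refine localDatum_of_package ord act ev hmul hconst hord hinv hsep hj c τ₀ 1 1
        Nat.one_pos (one_smul _ _) ?_ (hDiv_one _ _)
      rw [hv]
      rfl
    exact hd
  · intro N _
    obtain ⟨M, instF, instA, i0, ord, act, ev, hmul, hconst, hord, hinv, hsep, hj, hval, hS, -⟩ :=
      hP N
    obtain ⟨⟨τ₀, hfix, hτ₀, hord2⟩, -⟩ := hE
    have hτ₀' : jFun τ₀ = i0 1728 := by
      rw [hτ₀]
      exact (map_ofNat i0 1728).symm
    have hv := hval τ₀ 1728 hτ₀'
    rw [hord2] at hv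
    refine localDatum_of_package ord act ev hmul hconst hord hinv hsep hj 1728 τ₀
      ModularGroup.S 2 (by norm_num) hfix ?_ (hS τ₀ hfix)
    rw [hv]
    rfl
  · intro N _
    obtain ⟨M, instF, instA, i0, ord, act, ev, hmul, hconst, hord, hinv, hsep, hj, hval, -, hST⟩ :=
      hP N
    obtain ⟨-, ⟨τ₀, hfix, hτ₀, hord3⟩⟩ := hE
    have hτ₀' : jFun τ₀ = i0 0 := by
      rw [hτ₀]
      exact (map_zero i0).symm
    have hv := hval τ₀ 0 hτ₀'
    rw [hord3] at hv
    have hd := localDatum_of_package ord act ev hmul hconst hord hinv hsep hj 0 τ₀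
      (ModularGroup.S * ModularGroup.T) 3 (by norm_num) hfix
      (by rw [hv]; rfl) (hST τ₀ hfix)
    rw [map_zero, sub_zero] at hd
    exact hd

end Fermat.Agent.S24.helper481

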