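import Fermat.Agent.S24.helper1301_HolMer
import Fermat.Agent.S24.helper2810_Ev
import Fermat.Agent.S24.helper481_LocalFinite

/-!
# S24: `helper481.Stmt_MerPackage` (helper1301)

The abstract "field of meromorphic functions" package of `helper481_LocalFinite` is realised by
`Mer = FractionRing Hol` (`helper1301_HolMer`) with the analytic model `helper2810.ev` of the
function field.
-/

set_option autoImplicit false

open ModularCurve UpperHalfPlane CongruenceSubgroup Complex
open scoped MatrixGroups Manifold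

noncomputable section

namespace Fermat.Agent.S24.helper1301

open Fermat.Agent.S24.helper24

/-- The `ℚ̄`-algebra structure on `Mer` given by the fixed embedding `helper2810.i0 : ℚ̄ → ℂ`. -/
instance merAlgebraKbar : Algebra Kbar Mer :=
  ((algebraMap ℂ Mer).comp helper2810.i0).toAlgebra

theorem algebraMap_Kbar_Mer (c : Kbar) :
    algebraMap Kbar Mer c = algebraMap ℂ Mer (helper2810.i0 c) := rfl

/-- The (left) action of `SL(2, ℤ)` on `Mer`: `act g z = z ∘ g⁻¹`. -/
def act (g : SL(2, ℤ)) : Mer ≃ₐ[Kbar] Mer :=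
  AlgEquiv.ofRingEquiv (f := (merPull g⁻¹).toRingEquiv) (fun c => by
    rw [algebraMap_Kbar_Mer]
    exact (merPull g⁻¹).commutes _)

theorem act_apply (g : SL(2, ℤ)) (z : Mer) : act g z = merPull g⁻¹ z := rfl

theorem act_mul (g h : SL(2, ℤ)) (z : Mer) : act (g * h) z = act g (act h z) := by
  rw [act_apply, act_apply, act_apply, merPull_comp, mul_inv_rev]

theorem act_pow (g : SL(2, ℤ)) (k : ℕ) (z : Mer) : (act g ^ k) z = merPull (g⁻¹ ^ k) z := by
  induction k generalizing z with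
  | zero => rw [pow_zero, pow_zero, merPull_one]; rfl
  | succ k ih =>
    rw [pow_succ, AlgEquiv.mul_apply, ih, act_apply, merPull_comp, ← pow_succ']

theorem denom_inv_of_fixed (g : SL(2, ℤ)) (τ : ℍ) (hg : g • τ = τ) :
    denom ((g⁻¹ : SL(2, ℤ)) : GL (Fin 2) ℝ) τ = (denom (g : GL (Fin 2) ℝ) τ)⁻¹ := by
  have h1 : ((g⁻¹ : SL(2, ℤ)) : GL (Fin 2) ℝ) * (g : GL (Fin 2) ℝ) = 1 := by simp
  have h2 : num (g : GL (Fin 2) ℝ) τ / denom (g : GL (Fin 2) ℝ) τ = (τ : ℂ) := by
    rw [← coe_smul_of_det_pos (by simp), ← ModularGroup.sl_moeb, hg]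
  have h3 := denom_cocycle ((g⁻¹ : SL(2, ℤ)) : GL (Fin 2) ℝ) (g : GL (Fin 2) ℝ) τ.im_ne_zero
  rw [h1, h2] at h3
  have h4 : denom (1 : GL (Fin 2) ℝ) τ = 1 := by simp [denom]
  rw [h4] at h3
  exact eq_inv_of_mul_eq_one_left h3.symm

theorem inv_smul_fixed (g : SL(2, ℤ)) (τ : ℍ) (hg : g • τ = τ) : g⁻¹ • τ = τ := by
  rw [inv_smul_eq_iff, hg]

theorem sq_eq_neg_one_of_S_smul (τ : ℍ) (h : ModularGroup.S • τ = τ) : (τ : ℂ) ^ 2 = -1 := by
  have h1 : ((ModularGroup.S • τ : ℍ) : ℂ) = (τ : ℂ) := congrArg (fun x : ℍ => (x : ℂ)) h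
  rw [modular_S_smul] at h1
  have h2 : (-(τ : ℂ))⁻¹ = (τ : ℂ) := h1
  have h3 : (τ : ℂ) ≠ 0 := ne_zero τ
  have h4 : -(τ : ℂ) ≠ 0 := neg_ne_zero.mpr h3
  have h5 : (-(τ : ℂ))⁻¹ * (-(τ : ℂ)) = 1 := inv_mul_cancel₀ h4
  rw [h2] at h5
  linear_combination -h5

theorem sq_add_of_ST_smul (τ : ℍ) (h : (ModularGroup.S * ModularGroup.T) • τ = τ) :
    (τ : ℂ) ^ 2 + (τ : ℂ) + 1 = 0 := by
  have h1 : (((ModularGroup.S * ModularGroup.T) • τ : ℍ) : ℂ) = (τ : ℂ) :=
    congrArg (fun x : ℍ => (x : ℂ)) h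
  rw [coe_specialLinearGroup_apply] at h1
  have h2 : (τ : ℂ) + 1 ≠ 0 := by
    intro h0
    have h3 := congrArg Complex.im h0
    simp at h3
    exact τ.im_ne_zero h3
  simp [ModularGroup.S, ModularGroup.T] at h1
  field_simp at h1
  linear_combination -h1

variable (N : ℕ) [NeZero N]

/-- The analytic model, with values in `Hol`. -/
def evHol : helper3176.AN N →+* Hol where
  toFun a := ⟨helper2810.ev N a, helper2810.mdiff_ev N a⟩
  map_one' := Subtype.ext (map_one (helper2810.ev N))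
  map_mul' a b := Subtype.ext (map_mul (helper2810.ev N) a b)
  map_zero' := Subtype.ext (map_zero (helper2810.ev N))
  map_add' a b := Subtype.ext (map_add (helper2810.ev N) a b)

theorem evHol_apply (a : helper3176.AN N) (τ : ℍ) :
    (evHol N a : ℍ → ℂ) τ = helper2810.ev N a τ := rfl

theorem evHol_injective : Function.Injective (evHol N) := by
  intro a b h
  apply helper2810.ev_injective N
  have h1 := congrArg (fun x : Hol => (x : ℍ → ℂ)) h
  exact h1

/-- The analytic model on `A_N`, with values in `Mer`, as a `ℚ̄`-algebra map. -/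
def evA : helper3176.AN N →ₐ[Kbar] Mer where
  toRingHom := (algebraMap Hol Mer).comp (evHol N)
  commutes' c := by
    show algebraMap Hol Mer (evHol N (algebraMap Kbar _ c)) = algebraMap Kbar Mer c
    rw [algebraMap_Kbar_Mer, IsScalarTower.algebraMap_apply ℂ Hol Mer]
    congr 1
    apply Subtype.ext
    exact helper2810.ev_algebraMap N c

theorem evA_apply (a : helper3176.AN N) : evA N a = algebraMap Hol Mer (evHol N a) := rfl

theorem evA_injective : Function.Injective (evA N) :=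
  (IsFractionRing.injective Hol Mer).comp (evHol_injective N)

/-- The embedding of the function field into `Mer`. -/
def evF : FN N →ₐ[Kbar] Mer :=
  (helper3176.exists_algHom_extension N (evA N) (evA_injective N)).choose

theorem evF_coe (a : helper3176.AN N) : evF N (a : FN N) = algebraMap Hol Mer (evHol N a) :=
  (helper3176.exists_algHom_extension N (evA N) (evA_injective N)).choose_spec a

theorem act_evF_of_mem {γ : SL(2, ℤ)} (hγ : γ ∈ Gamma0 N) (f : FN N) :
    act γ (evF N f) = evF N f := by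
  have key : ((act γ : Mer ≃ₐ[Kbar] Mer) : Mer →+* Mer).comp (evF N : FN N →+* Mer)
      = (evF N : FN N →+* Mer) := by
    apply helper3176.ringHom_ext_of_AN N
    intro a
    show act γ (evF N (a : FN N)) = evF N (a : FN N)
    rw [evF_coe, act_apply, merPull_algebraMap]
    congr 1
    apply Subtype.ext
    funext τ
    exact helper2810.ev_smul_of_mem_Gamma0 N (inv_mem hγ) a τ
  exact RingHom.congr_fun key f

theorem mem_of_act_evF (g : SL(2, ℤ)) (h : ∀ f : FN N, act g (evF N f) = evF N f) :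
    g ∈ Gamma0 N := by
  have h1 : g⁻¹ ∈ Gamma0 N := by
    apply helper2810.mem_Gamma0_of_ev_smul N g⁻¹
    intro a τ
    have h2 := h (a : FN N)
    rw [evF_coe, act_apply, merPull_algebraMap] at h2
    have h3 := IsFractionRing.injective Hol Mer h2
    exact congrFun (congrArg Subtype.val h3) τ
  exact inv_mem_iff.mp h1

theorem evF_jBar :
    evF N (jBar N) = algebraMap Hol Mer (evHol N ⟨jBar N, helper3176.jBar_mem_AN N⟩) :=
  evF_coe N ⟨jBar N, helper3176.jBar_mem_AN N⟩

theorem act_evF_jBar (g : SL(2, ℤ)) : act g (evF N (jBar N)) = evF N (jBar N) := by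
  rw [evF_jBar, act_apply, merPull_algebraMap]
  congr 1
  apply Subtype.ext
  funext τ
  show helper2810.ev N ⟨jBar N, helper3176.jBar_mem_AN N⟩ (g⁻¹ • τ)
    = helper2810.ev N ⟨jBar N, helper3176.jBar_mem_AN N⟩ τ
  rw [helper2810.ev_jBar]
  exact helper2810.jFun_smul g⁻¹ τ

theorem ordAt_evF_jBar_sub (τ : ℍ) (c : Kbar) (hτ : jFun τ = helper2810.i0 c) :
    ordAt τ (evF N (jBar N) - algebraMap Kbar Mer c)
      = (analyticOrderAt (fun z : ℂ => jFun (ofComplex z) - jFun τ) (τ : ℂ)).map (↑) := by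
  rw [evF_jBar, algebraMap_Kbar_Mer, IsScalarTower.algebraMap_apply ℂ Hol Mer, ← map_sub,
    ordAt_algebraMap]
  have e : ((evHol N ⟨jBar N, helper3176.jBar_mem_AN N⟩ - algebraMap ℂ Hol (helper2810.i0 c)
      : Hol) : ℍ → ℂ) ∘ ofComplex = fun z : ℂ => jFun (ofComplex z) - jFun τ := by
    funext z
    show helper2810.ev N ⟨jBar N, helper3176.jBar_mem_AN N⟩ (ofComplex z) - helper2810.i0 c
      = jFun (ofComplex z) - jFun τ
    rw [helper2810.ev_jBar, hτ]
  rw [ordN, e]
  rfl

/-- **P2**: the meromorphic package of `helper481_LocalFinite`. -/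
theorem stmt_MerPackage : helper481.Stmt_MerPackage := by
  intro N _
  refine ⟨Mer, inferInstance, merAlgebraKbar, helper2810.i0, ordAt, act, evF N,
    act_mul, ?_, ?_, fun γ hγ f => act_evF_of_mem N hγ f, mem_of_act_evF N, act_evF_jBar N,
    ordAt_evF_jBar_sub N, ?_, ?_⟩
  · intro τ a ha
    rw [algebraMap_Kbar_Mer]
    exact ordAt_algebraMap_complex τ _ ((map_ne_zero _).mpr ha)
  · intro g τ z hg
    exact ordAt_merPull g⁻¹ τ (inv_smul_fixed g τ hg) z
  · intro τ hfix k z hz hk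
    rw [act_pow] at hk
    refine hdiv_of_isPrimitiveRoot ModularGroup.S⁻¹ τ (inv_smul_fixed _ τ hfix) 2 (by norm_num)
      ?_ k z hz hk
    rw [denom_inv_of_fixed _ τ hfix, inv_pow]
    apply IsPrimitiveRoot.inv
    rw [ModularGroup.denom_S, sq_eq_neg_one_of_S_smul τ hfix]
    exact IsPrimitiveRoot.neg_one 0 (by norm_num)
  · intro τ hfix k z hz hk
    rw [act_pow] at hk
    refine hdiv_of_isPrimitiveRoot (ModularGroup.S * ModularGroup.T)⁻¹ τ
      (inv_smul_fixed _ τ hfix) 3 (by norm_num) ?_ k z hz hk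
    rw [denom_inv_of_fixed _ τ hfix, inv_pow]
    apply IsPrimitiveRoot.inv
    rw [denom_ST_sq τ (sq_add_of_ST_smul τ hfix)]
    exact isPrimitiveRoot_of_sq _ (sq_add_of_ST_smul τ hfix)

end Fermat.Agent.S24.helper1301
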