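import Mathlib

/-!
# The analytic base of the MOD modules of S24 (helper133)

* `Hol` : the `ℂ`-algebra of holomorphic functions on the upper half plane (a domain).
* `Mer` : its fraction field.
* `ordAt τ₀ : AddValuation Mer (WithTop ℤ)` : order of vanishing at `τ₀`.
* `pullMer : SL(2, ℤ) →* (Mer ≃ₐ[ℂ] Mer)` : `(pullMer g f) τ = f (g⁻¹ • τ)`.
* stabilizer lemmas: invariance under an elliptic element forces divisibility of the order
  at its fixed point.
-/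

set_option autoImplicit false

namespace Fermat.Agent.S24.helper133

open UpperHalfPlane Filter Topology
open scoped Manifold MatrixGroups

noncomputable section

/-! ### The ring of holomorphic functions on `ℍ` -/

/-- Holomorphic functions on the upper half plane, as a `ℂ`-subalgebra of `ℍ → ℂ`. -/
def Hol : Subalgebra ℂ (ℍ → ℂ) where
  carrier := {f | MDiff f}
  mul_mem' hf hg := hf.mul hg
  one_mem' := mdifferentiable_const
  add_mem' hf hg := hf.add hg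
  zero_mem' := mdifferentiable_const
  algebraMap_mem' _ := mdifferentiable_const

lemma mem_Hol {f : ℍ → ℂ} : f ∈ Hol ↔ MDiff f := Iff.rfl

lemma Hol.mdiff (f : Hol) : MDiff (f : ℍ → ℂ) := f.2

/-- Constructor for elements of `Hol`. -/
def Hol.mk (f : ℍ → ℂ) (hf : MDiff f) : Hol := ⟨f, hf⟩

@[simp] lemma Hol.mk_apply (f : ℍ → ℂ) (hf : MDiff f) (τ : ℍ) : (Hol.mk f hf : ℍ → ℂ) τ = f τ := rfl

@[simp] lemma Hol.coe_mk (f : ℍ → ℂ) (hf : MDiff f) : ((Hol.mk f hf : Hol) : ℍ → ℂ) = f := rfl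

instance : IsDomain Hol := by
  have : Nontrivial Hol := ⟨⟨0, 1, fun h => by
    have := congrFun (congrArg Subtype.val h) UpperHalfPlane.I
    simp at this⟩⟩
  have : NoZeroDivisors Hol := ⟨fun {a b} h => by
    have h' : (a : ℍ → ℂ) * (b : ℍ → ℂ) = 0 := congrArg Subtype.val h
    rcases (UpperHalfPlane.mul_eq_zero_iff a.2 b.2).mp h' with h0 | h0
    · exact Or.inl (Subtype.ext h0)
    · exact Or.inr (Subtype.ext h0)⟩
  exact NoZeroDivisors.to_isDomain _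

/-- The field of meromorphic functions on `ℍ` (fractions of holomorphic functions). -/
abbrev Mer : Type := FractionRing Hol

/-! ### The action of `SL(2, ℤ)` -/

lemma det_coe_pos (g : SL(2, ℤ)) : 0 < ((g : GL (Fin 2) ℝ)).det.val := by simp

lemma mdiff_smul (g : SL(2, ℤ)) : MDiff (fun τ : ℍ => g • τ) := by
  have h : MDiff (fun τ : ℍ => (g : GL (Fin 2) ℝ) • τ) :=
    mdifferentiable_smul (det_coe_pos g)
  exact h

lemma mdiff_comp_smul {f : ℍ → ℂ} (hf : MDiff f) (g : SL(2, ℤ)) :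
    MDiff (fun τ : ℍ => f (g • τ)) :=
  hf.comp (mdiff_smul g)

/-- Pull-back of holomorphic functions: `(pullHol g f) τ = f (g⁻¹ • τ)`. -/
def pullHol (g : SL(2, ℤ)) : Hol ≃ₐ[ℂ] Hol where
  toFun f := ⟨fun τ => (f : ℍ → ℂ) (g⁻¹ • τ), mdiff_comp_smul f.2 g⁻¹⟩
  invFun f := ⟨fun τ => (f : ℍ → ℂ) (g • τ), mdiff_comp_smul f.2 g⟩
  left_inv f := by
    apply Subtype.ext
    funext τ
    simp
  right_inv f := by
    apply Subtype.ext
    funext τ
    simp
  map_mul' f₁ f₂ := rfl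
  map_add' f₁ f₂ := rfl
  commutes' c := rfl

@[simp] lemma pullHol_apply (g : SL(2, ℤ)) (f : Hol) (τ : ℍ) :
    (pullHol g f : ℍ → ℂ) τ = (f : ℍ → ℂ) (g⁻¹ • τ) := rfl

lemma pullHol_symm_apply (g : SL(2, ℤ)) (f : Hol) (τ : ℍ) :
    ((pullHol g).symm f : ℍ → ℂ) τ = (f : ℍ → ℂ) (g • τ) := rfl

lemma pullHol_one : pullHol 1 = AlgEquiv.refl := by
  ext f τ
  simp

lemma pullHol_mul (g h : SL(2, ℤ)) : pullHol (g * h) = (pullHol h).trans (pullHol g) := by
  ext f τ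
  simp [mul_smul]

/-- Pull-back of meromorphic functions by `g⁻¹`, as a `ℂ`-algebra automorphism of `Mer`. -/
def pullMerEquiv (g : SL(2, ℤ)) : Mer ≃ₐ[ℂ] Mer :=
  IsFractionRing.algEquivOfAlgEquiv (pullHol g)

@[simp] lemma pullMerEquiv_algebraMap (g : SL(2, ℤ)) (f : Hol) :
    pullMerEquiv g (algebraMap Hol Mer f) = algebraMap Hol Mer (pullHol g f) :=
  IsFractionRing.algEquivOfAlgEquiv_algebraMap _ _

/-- The action of `SL(2, ℤ)` on `Mer` by `ℂ`-algebra automorphisms: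
`(pullMer g f) τ = f (g⁻¹ • τ)`. -/
def pullMer : SL(2, ℤ) →* (Mer ≃ₐ[ℂ] Mer) where
  toFun := pullMerEquiv
  map_one' := by
    apply AlgEquiv.coe_toAlgHom_injective
    apply IsLocalization.algHom_ext (nonZeroDivisors Hol)
    ext f
    show pullMerEquiv 1 (algebraMap Hol Mer f) = algebraMap Hol Mer f
    rw [pullMerEquiv_algebraMap, pullHol_one]
    rfl
  map_mul' g h := by
    apply AlgEquiv.coe_toAlgHom_injective
    apply IsLocalization.algHom_ext (nonZeroDivisors Hol)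
    ext f
    show pullMerEquiv (g * h) (algebraMap Hol Mer f)
      = pullMerEquiv g (pullMerEquiv h (algebraMap Hol Mer f))
    rw [pullMerEquiv_algebraMap, pullMerEquiv_algebraMap, pullMerEquiv_algebraMap, pullHol_mul]
    rfl

@[simp] lemma pullMer_algebraMap (g : SL(2, ℤ)) (f : Hol) :
    pullMer g (algebraMap Hol Mer f) = algebraMap Hol Mer (pullHol g f) :=
  pullMerEquiv_algebraMap g f

/-! ### Order of vanishing -/

lemma Hol.differentiableOn (f : Hol) :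
    DifferentiableOn ℂ ((f : ℍ → ℂ) ∘ ofComplex) {z | 0 < z.im} :=
  mdifferentiable_iff.mp f.2

lemma Hol.analyticAt (f : Hol) (τ : ℍ) : AnalyticAt ℂ ((f : ℍ → ℂ) ∘ ofComplex) τ :=
  (Hol.differentiableOn f).analyticAt (isOpen_upperHalfPlaneSet.mem_nhds τ.im_pos)

lemma Hol.meromorphicAt (f : Hol) (τ : ℍ) : MeromorphicAt ((f : ℍ → ℂ) ∘ ofComplex) τ :=
  (Hol.analyticAt f τ).meromorphicAt

lemma Hol.analyticOrderAt_eq_top_iff (f : Hol) (τ : ℍ) :
    analyticOrderAt ((f : ℍ → ℂ) ∘ ofComplex) τ = ⊤ ↔ f = 0 := by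
  constructor
  · intro h
    rw [analyticOrderAt_eq_top] at h
    have han : AnalyticOnNhd ℂ ((f : ℍ → ℂ) ∘ ofComplex) {z | 0 < z.im} :=
      (Hol.differentiableOn f).analyticOnNhd isOpen_upperHalfPlaneSet
    have hpre : IsPreconnected {z : ℂ | 0 < z.im} :=
      (Complex.isConnected_of_upperHalfPlane subset_rfl (by grind)).isPreconnected
    have key := han.eqOn_zero_of_preconnected_of_eventuallyEq_zero hpre τ.im_pos h
    apply Subtype.ext
    funext w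
    have := key w.im_pos
    simpa using this
  · rintro rfl
    rw [analyticOrderAt_eq_top]
    exact Eventually.of_forall fun z => rfl

/-- Order of vanishing at `τ₀` as an additive valuation on `Hol`. -/
def ordHol (τ₀ : ℍ) : AddValuation Hol (WithTop ℤ) :=
  AddValuation.of (fun f => meromorphicOrderAt ((f : ℍ → ℂ) ∘ ofComplex) τ₀)
    (by
      rw [meromorphicOrderAt_eq_top_iff]
      exact Eventually.of_forall fun z => rfl)
    (by
      have h : (((1 : Hol) : ℍ → ℂ) ∘ ofComplex) = fun _ => (1 : ℂ) := rfl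
      rw [h, meromorphicOrderAt_const]
      simp)
    (fun f g => meromorphicOrderAt_add (Hol.meromorphicAt f τ₀) (Hol.meromorphicAt g τ₀))
    (fun f g => meromorphicOrderAt_mul (Hol.meromorphicAt f τ₀) (Hol.meromorphicAt g τ₀))

lemma ordHol_apply (τ₀ : ℍ) (f : Hol) :
    ordHol τ₀ f = meromorphicOrderAt ((f : ℍ → ℂ) ∘ ofComplex) τ₀ := rfl

lemma ordHol_eq_analyticOrderAt (τ₀ : ℍ) (f : Hol) :
    ordHol τ₀ f = (analyticOrderAt ((f : ℍ → ℂ) ∘ ofComplex) τ₀).map Nat.cast := by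
  rw [ordHol_apply, (Hol.analyticAt f τ₀).meromorphicOrderAt_eq]

lemma ordHol_eq_top_iff (τ₀ : ℍ) (f : Hol) : ordHol τ₀ f = ⊤ ↔ f = 0 := by
  rw [ordHol_eq_analyticOrderAt, ← Hol.analyticOrderAt_eq_top_iff f τ₀]
  cases analyticOrderAt ((f : ℍ → ℂ) ∘ ofComplex) τ₀ with
  | top => simp
  | coe n => simp

lemma ordHol_nonneg (τ₀ : ℍ) (f : Hol) : 0 ≤ ordHol τ₀ f := by
  rw [ordHol_eq_analyticOrderAt]
  cases analyticOrderAt ((f : ℍ → ℂ) ∘ ofComplex) τ₀ with
  | top => simp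
  | coe n => simp

/-- `ordHol` as a multiplicative valuation (auxiliary). -/
def ordHolVal (τ₀ : ℍ) : Valuation Hol (Multiplicative (WithTop ℤ)ᵒᵈ) := ordHol τ₀

lemma ordHol_eq_of_analyticOrderAt (τ₀ : ℍ) (f : Hol) {n : ℕ}
    (h : analyticOrderAt ((f : ℍ → ℂ) ∘ ofComplex) τ₀ = n) :
    ordHol τ₀ f = ((n : ℤ) : WithTop ℤ) := by
  rw [ordHol_eq_analyticOrderAt, h]
  rfl

lemma ordHol_eq_zero_iff (τ₀ : ℍ) (f : Hol) : ordHol τ₀ f = 0 ↔ (f : ℍ → ℂ) τ₀ ≠ 0 := by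
  rw [ordHol_eq_analyticOrderAt]
  have h := (Hol.analyticAt f τ₀).analyticOrderAt_eq_zero
  have h2 : ((f : ℍ → ℂ) ∘ ofComplex) τ₀ = (f : ℍ → ℂ) τ₀ := by simp
  rw [h2] at h
  rw [← h]
  cases analyticOrderAt ((f : ℍ → ℂ) ∘ ofComplex) τ₀ with
  | top => simp
  | coe n => simp

lemma ordHol_pos_iff (τ₀ : ℍ) (f : Hol) : 0 < ordHol τ₀ f ↔ (f : ℍ → ℂ) τ₀ = 0 := by
  rw [← not_iff_not, ← ne_eq, ← ordHol_eq_zero_iff, not_lt]
  exact ⟨fun h => le_antisymm h (ordHol_nonneg τ₀ f), fun h => h.le⟩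

lemma nonZeroDivisors_le_supp_primeCompl (τ₀ : ℍ) :
    nonZeroDivisors Hol ≤ (Valuation.supp (ordHolVal τ₀)).primeCompl := by
  intro f hf
  show f ∉ AddValuation.supp (ordHol τ₀)
  rw [AddValuation.mem_supp_iff, ordHol_eq_top_iff]
  exact nonZeroDivisors.ne_zero hf

/-- Order of vanishing at `τ₀` as an additive valuation on the field `Mer`. -/
def ordAt (τ₀ : ℍ) : AddValuation Mer (WithTop ℤ) :=
  Valuation.extendToLocalization (ordHolVal τ₀) (nonZeroDivisors_le_supp_primeCompl τ₀) Mer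

@[simp] lemma ordAt_algebraMap (τ₀ : ℍ) (f : Hol) :
    ordAt τ₀ (algebraMap Hol Mer f) = ordHol τ₀ f :=
  Valuation.extendToLocalization_apply_map_apply (ordHolVal τ₀)
    (nonZeroDivisors_le_supp_primeCompl τ₀) Mer f

lemma ordAt_eq_top_iff (τ₀ : ℍ) (z : Mer) : ordAt τ₀ z = ⊤ ↔ z = 0 :=
  AddValuation.top_iff _

lemma ordAt_ne_top (τ₀ : ℍ) {z : Mer} (hz : z ≠ 0) : ordAt τ₀ z ≠ ⊤ :=
  fun h => hz ((ordAt_eq_top_iff τ₀ z).mp h)

lemma ordAt_div (τ₀ : ℍ) (a b : Hol) :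
    ordAt τ₀ (algebraMap Hol Mer a / algebraMap Hol Mer b) = ordHol τ₀ a - ordHol τ₀ b := by
  rw [AddValuation.map_div, ordAt_algebraMap, ordAt_algebraMap]

/-- The valuations `ordAt τ₀` are trivial on nonzero constants. -/
lemma ordAt_algebraMap_complex (τ₀ : ℍ) {c : ℂ} (hc : c ≠ 0) :
    ordAt τ₀ (algebraMap ℂ Mer c) = 0 := by
  rw [IsScalarTower.algebraMap_apply ℂ Hol Mer, ordAt_algebraMap, ordHol_apply]
  have h : ((algebraMap ℂ Hol c : Hol) : ℍ → ℂ) ∘ ofComplex = fun _ => c := rfl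
  rw [h, meromorphicOrderAt_const]
  simp [hc]

lemma ordHol_pullHol (τ₀ : ℍ) (g : SL(2, ℤ)) (f : Hol) :
    ordHol τ₀ (pullHol g f) = ordHol (g⁻¹ • τ₀) f := by
  rw [ordHol_apply, ordHol_apply]
  exact UpperHalfPlane.meromorphicOrderAt_comp_smul (f := (f : ℍ → ℂ)) (τ := τ₀)
    (g := ((g⁻¹ : SL(2, ℤ)) : GL (Fin 2) ℝ)) (det_coe_pos g⁻¹)

/-- Compatibility of the order with the action. -/
lemma ordAt_pullMer (τ₀ : ℍ) (g : SL(2, ℤ)) (z : Mer) :
    ordAt τ₀ (pullMer g z) = ordAt (g⁻¹ • τ₀) z := by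
  obtain ⟨a, b, -, rfl⟩ := IsFractionRing.div_surjective Hol z
  rw [map_div₀, pullMer_algebraMap, pullMer_algebraMap, ordAt_div, ordAt_div, ordHol_pullHol,
    ordHol_pullHol]

lemma ordAt_pullMer_of_fixed {τ₀ : ℍ} {g : SL(2, ℤ)} (hfix : g • τ₀ = τ₀) (z : Mer) :
    ordAt τ₀ (pullMer g z) = ordAt τ₀ z := by
  rw [ordAt_pullMer]
  congr 2
  rw [inv_smul_eq_iff, hfix]

end

end Fermat.Agent.S24.helper133
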