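import Fermat.Agent.S24.helper133_HolRing

/-!
# Stabilizer lemma for meromorphic functions on `ℍ` (helper133)

If `z : Mer` is nonzero and invariant under `g ∈ SL(2, ℤ)` fixing `τ₀`, then
`(denom g τ₀ ^ 2) ^ (ord_{τ₀} z) = 1`.  Consequences: invariance under `S` forces an even order at
a fixed point of `S`, invariance under `S * T` forces an order divisible by `3` at a fixed point of
`S * T`.
-/

set_option autoImplicit false

namespace Fermat.Agent.S24.helper133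

open UpperHalfPlane Filter Topology
open scoped Manifold MatrixGroups

noncomputable section

/-- The trailing coefficient of `G - G x` at a point where `G' ≠ 0` is `G' x`. -/
lemma trailingCoeff_sub_eq_deriv {G : ℂ → ℂ} {x : ℂ} (hG : AnalyticAt ℂ G x)
    (h' : deriv G x ≠ 0) :
    meromorphicTrailingCoeffAt (fun z => G z - G x) x = deriv G x := by
  have hord : analyticOrderAt (fun z => G z - G x) x = 1 :=
    hG.analyticOrderAt_sub_eq_one_of_deriv_ne_zero h'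
  have han : AnalyticAt ℂ (fun z => G z - G x) x := hG.sub analyticAt_const
  have hmord : meromorphicOrderAt (fun z => G z - G x) x = 1 := by
    rw [han.meromorphicOrderAt_eq, hord]
    rfl
  have h1 := han.meromorphicAt.tendsto_nhds_meromorphicTrailingCoeffAt
  rw [hmord] at h1
  have h2 : Tendsto (slope G x) (𝓝[≠] x) (𝓝 (deriv G x)) :=
    hG.differentiableAt.hasDerivAt.tendsto_slope
  refine tendsto_nhds_unique (h1.congr' ?_) h2
  filter_upwards with z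
  simp [slope_def_field, div_eq_inv_mul]

/-- Trailing coefficient of `f ∘ γ` at a fixed point `τ₀` of `γ`. -/
lemma trailingCoeff_comp_smul {f : ℍ → ℂ} (hf : MDiff f) {γ : GL (Fin 2) ℝ}
    (hγ : 0 < γ.val.det) {τ₀ : ℍ} (hfix : γ • τ₀ = τ₀) :
    meromorphicTrailingCoeffAt (fun z : ℂ => f (γ • ofComplex z)) (τ₀ : ℂ)
      = ((γ.val.det : ℂ) / denom γ τ₀ ^ 2) ^ (meromorphicOrderAt (f ∘ ofComplex) (τ₀ : ℂ)).untop₀
        * meromorphicTrailingCoeffAt (f ∘ ofComplex) (τ₀ : ℂ) := by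
  set G : ℂ → ℂ := fun z => ((γ • ofComplex z : ℍ) : ℂ) with hG
  have hcomp : (fun z : ℂ => f (γ • ofComplex z)) = (f ∘ ofComplex) ∘ G := by
    funext z
    simp [hG]
  have hGτ : G (τ₀ : ℂ) = (τ₀ : ℂ) := by
    simp [hG, hfix]
  have hGan : AnalyticAt ℂ G (τ₀ : ℂ) := τ₀.analyticAt_smul hγ
  have hGd : deriv G (τ₀ : ℂ) = (γ.val.det : ℂ) / denom γ τ₀ ^ 2 := τ₀.deriv_smul hγ
  have hGd0 : deriv G (τ₀ : ℂ) ≠ 0 := τ₀.deriv_smul_ne_zero hγ
  have hnc : ¬ EventuallyConst G (𝓝 (τ₀ : ℂ)) := by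
    rw [eventuallyConst_iff_analyticOrderAt_sub_eq_top,
      hGan.analyticOrderAt_sub_eq_one_of_deriv_ne_zero hGd0]
    simp
  have hfan : AnalyticAt ℂ (f ∘ ofComplex) (τ₀ : ℂ) :=
    (UpperHalfPlane.mdifferentiable_iff.mp hf).analyticAt
      (isOpen_upperHalfPlaneSet.mem_nhds τ₀.im_pos)
  have hfm : MeromorphicAt (f ∘ ofComplex) (G (τ₀ : ℂ)) := by
    rw [hGτ]
    exact hfan.meromorphicAt
  rw [hcomp, MeromorphicAt.meromorphicTrailingCoeffAt_comp hfm hGan hnc,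
    trailingCoeff_sub_eq_deriv hGan hGd0, hGτ, hGd, smul_eq_mul]

lemma det_coe_eq_one (g : SL(2, ℤ)) : ((g : GL (Fin 2) ℝ)).val.det = 1 := by
  show ((Matrix.SpecialLinearGroup.map (Int.castRingHom ℝ) g).val).det = 1
  exact Matrix.SpecialLinearGroup.det_coe _

/-- Trailing coefficient at `τ₀` of a holomorphic function. -/
def tcHol (τ₀ : ℍ) (f : Hol) : ℂ :=
  meromorphicTrailingCoeffAt ((f : ℍ → ℂ) ∘ ofComplex) (τ₀ : ℂ)

lemma tcHol_mul (τ₀ : ℍ) (f g : Hol) : tcHol τ₀ (f * g) = tcHol τ₀ f * tcHol τ₀ g :=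
  (Hol.meromorphicAt f τ₀).meromorphicTrailingCoeffAt_mul (Hol.meromorphicAt g τ₀)

lemma tcHol_ne_zero (τ₀ : ℍ) {f : Hol} (hf : f ≠ 0) : tcHol τ₀ f ≠ 0 := by
  apply (Hol.meromorphicAt f τ₀).meromorphicTrailingCoeffAt_ne_zero
  rw [← ordHol_apply, Ne, ordHol_eq_top_iff]
  exact hf

lemma tcHol_pullHol {τ₀ : ℍ} {g : SL(2, ℤ)} (hfix : g • τ₀ = τ₀) (f : Hol) :
    tcHol τ₀ (pullHol g f)
      = (1 / denom ((g⁻¹ : SL(2, ℤ)) : GL (Fin 2) ℝ) τ₀ ^ 2) ^ (ordHol τ₀ f).untop₀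
        * tcHol τ₀ f := by
  have hfix' : ((g⁻¹ : SL(2, ℤ)) : GL (Fin 2) ℝ) • τ₀ = τ₀ := by
    show g⁻¹ • τ₀ = τ₀
    rw [inv_smul_eq_iff, hfix]
  have h := trailingCoeff_comp_smul (f := (f : ℍ → ℂ)) f.2 (det_coe_pos g⁻¹) hfix'
  rw [det_coe_eq_one g⁻¹, Complex.ofReal_one] at h
  exact h

lemma untop₀_sub_coe (a b : ℤ) : ((a : WithTop ℤ) - (b : WithTop ℤ)).untop₀ = a - b := by
  rw [← WithTop.LinearOrderedAddCommGroup.coe_sub]
  rfl

lemma ordHol_ne_top (τ₀ : ℍ) {f : Hol} (hf : f ≠ 0) : ordHol τ₀ f ≠ ⊤ :=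
  fun h => hf ((ordHol_eq_top_iff τ₀ f).mp h)

theorem stabilizer_aux {τ₀ : ℍ} {g : SL(2, ℤ)} (hfix : g • τ₀ = τ₀) {z : Mer} (hz : z ≠ 0)
    (hinv : pullMer g z = z) :
    (1 / denom ((g⁻¹ : SL(2, ℤ)) : GL (Fin 2) ℝ) τ₀ ^ 2) ^ (ordAt τ₀ z).untop₀ = 1 := by
  obtain ⟨a, b, hb, rfl⟩ := IsFractionRing.div_surjective Hol z
  have hb0 : b ≠ 0 := nonZeroDivisors.ne_zero hb
  have ha0 : a ≠ 0 := by
    rintro rfl
    simp at hz
  have hinj : Function.Injective (algebraMap Hol Mer) := IsFractionRing.injective Hol Mer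
  have hb0' : algebraMap Hol Mer b ≠ 0 := fun h => hb0 (hinj (by rw [h, map_zero]))
  have hpb0 : pullHol g b ≠ 0 := fun h => hb0 ((pullHol g).injective (by rw [h, map_zero]))
  have hpb0' : algebraMap Hol Mer (pullHol g b) ≠ 0 :=
    fun h => hpb0 (hinj (by rw [h, map_zero]))
  rw [map_div₀, pullMer_algebraMap, pullMer_algebraMap, div_eq_div_iff hpb0' hb0',
    ← map_mul, ← map_mul] at hinv
  have hrel : pullHol g a * b = a * pullHol g b := hinj hinv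
  have htc := congrArg (tcHol τ₀) hrel
  rw [tcHol_mul, tcHol_mul, tcHol_pullHol hfix, tcHol_pullHol hfix] at htc
  set μ : ℂ := 1 / denom ((g⁻¹ : SL(2, ℤ)) : GL (Fin 2) ℝ) τ₀ ^ 2 with hμ
  have hμ0 : μ ≠ 0 := by
    rw [hμ]
    exact one_div_ne_zero (pow_ne_zero _ (denom_ne_zero _ τ₀))
  have hta := tcHol_ne_zero τ₀ ha0
  have htb := tcHol_ne_zero τ₀ hb0
  obtain ⟨na, hna⟩ := WithTop.ne_top_iff_exists.mp (ordHol_ne_top τ₀ ha0)
  obtain ⟨nb, hnb⟩ := WithTop.ne_top_iff_exists.mp (ordHol_ne_top τ₀ hb0)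
  rw [← hna, ← hnb] at htc
  simp only [WithTop.untop₀_coe] at htc
  have hpow : μ ^ na = μ ^ nb := by
    have h1 : μ ^ na * (tcHol τ₀ a * tcHol τ₀ b) = μ ^ nb * (tcHol τ₀ a * tcHol τ₀ b) := by
      linear_combination htc
    exact mul_right_cancel₀ (mul_ne_zero hta htb) h1
  rw [ordAt_div, ← hna, ← hnb, untop₀_sub_coe, zpow_sub₀ hμ0, hpow,
    div_self (zpow_ne_zero _ hμ0)]

/-- **Stabilizer lemma.** If `z ≠ 0` is invariant under `g` and `g` fixes `τ₀`, then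
`((c τ₀ + d)^2)^(ord_{τ₀} z) = 1`. -/
theorem denom_sq_zpow_ordAt_eq_one {τ₀ : ℍ} {g : SL(2, ℤ)} (hfix : g • τ₀ = τ₀) {z : Mer}
    (hz : z ≠ 0) (hinv : pullMer g z = z) :
    (denom (g : GL (Fin 2) ℝ) τ₀ ^ 2) ^ (ordAt τ₀ z).untop₀ = 1 := by
  have hfix' : g⁻¹ • τ₀ = τ₀ := by rw [inv_smul_eq_iff, hfix]
  have hinv' : pullMer g⁻¹ z = z := by
    rw [map_inv]
    conv_lhs => rw [← hinv]
    exact (pullMer g).symm_apply_apply z
  have h := stabilizer_aux hfix' hz hinv'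
  rw [inv_inv, one_div, inv_zpow, inv_eq_one] at h
  exact h

lemma coe_mul_GL (g h : SL(2, ℤ)) :
    ((g * h : SL(2, ℤ)) : GL (Fin 2) ℝ) = (g : GL (Fin 2) ℝ) * (h : GL (Fin 2) ℝ) := by
  simp

lemma denom_mul_of_fixed {τ₀ : ℍ} (g h : SL(2, ℤ)) (hfix : h • τ₀ = τ₀) :
    denom ((g * h : SL(2, ℤ)) : GL (Fin 2) ℝ) τ₀
      = denom (g : GL (Fin 2) ℝ) τ₀ * denom (h : GL (Fin 2) ℝ) τ₀ := by
  rw [coe_mul_GL, denom_cocycle _ _ τ₀.im_ne_zero, ← coe_smul_of_det_pos (det_coe_pos h)]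
  have : ((h : GL (Fin 2) ℝ) • τ₀ : ℍ) = τ₀ := hfix
  rw [this]

lemma pow_smul_of_fixed {τ₀ : ℍ} {g : SL(2, ℤ)} (hfix : g • τ₀ = τ₀) (k : ℕ) :
    (g ^ k) • τ₀ = τ₀ := by
  induction k with
  | zero => simp
  | succ k ih => rw [pow_succ, mul_smul, hfix, ih]

lemma denom_pow_of_fixed {τ₀ : ℍ} {g : SL(2, ℤ)} (hfix : g • τ₀ = τ₀) (k : ℕ) :
    denom ((g ^ k : SL(2, ℤ)) : GL (Fin 2) ℝ) τ₀ = denom (g : GL (Fin 2) ℝ) τ₀ ^ k := by
  induction k with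
  | zero => simp [ModularGroup.denom_apply]
  | succ k ih => rw [pow_succ, denom_mul_of_fixed _ _ hfix, ih, pow_succ]

/-- Stabilizer lemma for powers: if `z ≠ 0` is invariant under `g ^ k` and `g` fixes `τ₀`, then
`μ ^ (k * ord_{τ₀} z) = 1` with `μ = (c τ₀ + d)^2`. -/
theorem denom_sq_zpow_mul_ordAt_eq_one {τ₀ : ℍ} {g : SL(2, ℤ)} (hfix : g • τ₀ = τ₀) (k : ℕ)
    {z : Mer} (hz : z ≠ 0) (hinv : pullMer (g ^ k) z = z) :
    (denom (g : GL (Fin 2) ℝ) τ₀ ^ 2) ^ ((k : ℤ) * (ordAt τ₀ z).untop₀) = 1 := by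
  have h := denom_sq_zpow_ordAt_eq_one (pow_smul_of_fixed hfix k) hz hinv
  rw [denom_pow_of_fixed hfix] at h
  rw [zpow_mul, zpow_natCast, ← pow_mul, mul_comm 2 k, pow_mul]
  exact h

/-! ### The two elliptic points -/

lemma sq_eq_neg_one_of_S_fixed {τ₀ : ℍ} (hfix : ModularGroup.S • τ₀ = τ₀) :
    (τ₀ : ℂ) ^ 2 = -1 := by
  have h := congrArg (fun τ : ℍ => (τ : ℂ)) hfix
  simp only [modular_S_smul] at h
  have h0 : (τ₀ : ℂ) ≠ 0 := ne_zero τ₀
  have h1 : (-(τ₀ : ℂ))⁻¹ = (τ₀ : ℂ) := h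
  have h2 : (1 : ℂ) = (τ₀ : ℂ) * (-(τ₀ : ℂ)) := by
    have := inv_mul_cancel₀ (neg_ne_zero.mpr h0)
    rw [h1] at this
    exact this.symm
  linear_combination h2

/-- Invariance under a power of `S` and the order at a fixed point of `S`
(the `hdiv` hypothesis of `Stmt_LOC` with `m = 2`). -/
theorem hdiv_S {τ₀ : ℍ} (hfix : ModularGroup.S • τ₀ = τ₀) (k : ℕ) {z : Mer} (hz : z ≠ 0)
    (hinv : pullMer (ModularGroup.S ^ k) z = z) :
    ∃ l : ℤ, ordAt τ₀ z = (((2 / Nat.gcd k 2 : ℕ) * l : ℤ) : WithTop ℤ) := by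
  have hn : ((ordAt τ₀ z).untop₀ : WithTop ℤ) = ordAt τ₀ z :=
    WithTop.coe_untop₀_of_ne_top (ordAt_ne_top τ₀ hz)
  set n : ℤ := (ordAt τ₀ z).untop₀ with hndef
  have h := denom_sq_zpow_mul_ordAt_eq_one hfix k hz hinv
  rw [ModularGroup.denom_S, sq_eq_neg_one_of_S_fixed hfix] at h
  have hev : Even ((k : ℤ) * n) := by
    rcases Int.even_or_odd ((k : ℤ) * n) with he | ho
    · exact he
    · rw [ho.neg_one_zpow] at h
      norm_num at h
  rcases Nat.even_or_odd k with hk | hk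
  · refine ⟨n, ?_⟩
    have hg : Nat.gcd k 2 = 2 := Nat.gcd_eq_right hk.two_dvd
    rw [hg, ← hn]
    norm_num
  · have hg : Nat.gcd k 2 = 1 := Nat.Coprime.gcd_eq_one (Nat.coprime_two_right.mpr hk)
    have hen : Even n := by
      rcases Int.even_mul.mp hev with h1 | h1
      · exact absurd ((Int.even_coe_nat k).mp h1) (Nat.not_even_iff_odd.mpr hk)
      · exact h1
    obtain ⟨l, hl⟩ := hen.two_dvd
    refine ⟨l, ?_⟩
    rw [hg, ← hn, hl]
    norm_num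

lemma ST_apply_zero_zero : (ModularGroup.S * ModularGroup.T : SL(2, ℤ)) 0 0 = 0 := by
  show ((ModularGroup.S : SL(2, ℤ)).1 * (ModularGroup.T : SL(2, ℤ)).1) 0 0 = 0
  simp [ModularGroup.S, ModularGroup.T, Matrix.mul_apply, Fin.sum_univ_two]

lemma ST_apply_zero_one : (ModularGroup.S * ModularGroup.T : SL(2, ℤ)) 0 1 = -1 := by
  show ((ModularGroup.S : SL(2, ℤ)).1 * (ModularGroup.T : SL(2, ℤ)).1) 0 1 = -1
  simp [ModularGroup.S, ModularGroup.T, Matrix.mul_apply, Fin.sum_univ_two]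

lemma ST_apply_one_zero : (ModularGroup.S * ModularGroup.T : SL(2, ℤ)) 1 0 = 1 := by
  show ((ModularGroup.S : SL(2, ℤ)).1 * (ModularGroup.T : SL(2, ℤ)).1) 1 0 = 1
  simp [ModularGroup.S, ModularGroup.T, Matrix.mul_apply, Fin.sum_univ_two]

lemma ST_apply_one_one : (ModularGroup.S * ModularGroup.T : SL(2, ℤ)) 1 1 = 1 := by
  show ((ModularGroup.S : SL(2, ℤ)).1 * (ModularGroup.T : SL(2, ℤ)).1) 1 1 = 1
  simp [ModularGroup.S, ModularGroup.T, Matrix.mul_apply, Fin.sum_univ_two]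

lemma quad_of_ST_fixed {τ₀ : ℍ} (hfix : (ModularGroup.S * ModularGroup.T) • τ₀ = τ₀) :
    (τ₀ : ℂ) ^ 2 + (τ₀ : ℂ) + 1 = 0 := by
  have h := congrArg (fun τ : ℍ => (τ : ℂ)) hfix
  simp only [coe_specialLinearGroup_apply] at h
  have hd : denom ((ModularGroup.S * ModularGroup.T : SL(2, ℤ)) : GL (Fin 2) ℝ) τ₀ ≠ 0 :=
    denom_ne_zero _ τ₀
  rw [ModularGroup.denom_apply] at hd
  have h00 := ST_apply_zero_zero
  have h01 := ST_apply_zero_one
  have h10 := ST_apply_one_zero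
  have h11 := ST_apply_one_one
  rw [h10, h11] at hd
  rw [h00, h01, h10, h11] at h
  simp only [Int.cast_zero, Int.cast_one, Int.cast_neg, zero_mul, zero_add, one_mul,
    algebraMap_int_eq, eq_intCast, Complex.ofReal_zero, Complex.ofReal_one, Complex.ofReal_neg]
    at h hd
  rw [div_eq_iff hd] at h
  linear_combination -h

lemma denom_ST (τ₀ : ℍ) :
    denom ((ModularGroup.S * ModularGroup.T : SL(2, ℤ)) : GL (Fin 2) ℝ) τ₀ = (τ₀ : ℂ) + 1 := by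
  rw [ModularGroup.denom_apply]
  rw [ST_apply_one_zero, ST_apply_one_one]
  simp

lemma isPrimitiveRoot_of_ST_fixed {τ₀ : ℍ}
    (hfix : (ModularGroup.S * ModularGroup.T) • τ₀ = τ₀) : IsPrimitiveRoot (τ₀ : ℂ) 3 := by
  have hq := quad_of_ST_fixed hfix
  have him : (τ₀ : ℂ).im ≠ 0 := τ₀.im_ne_zero
  refine IsPrimitiveRoot.mk_of_lt _ (by norm_num) ?_ ?_
  · linear_combination ((τ₀ : ℂ) - 1) * hq
  · intro l hl0 hl3
    interval_cases l
    · intro h1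
      rw [pow_one] at h1
      rw [h1] at him
      simp at him
    · intro h2
      have h3 : (τ₀ : ℂ) = -2 := by linear_combination hq - h2
      rw [h3] at him
      simp at him

/-- Invariance under a power of `S * T` and the order at a fixed point of `S * T`
(the `hdiv` hypothesis of `Stmt_LOC` with `m = 3`). -/
theorem hdiv_ST {τ₀ : ℍ} (hfix : (ModularGroup.S * ModularGroup.T) • τ₀ = τ₀) (k : ℕ) {z : Mer}
    (hz : z ≠ 0) (hinv : pullMer ((ModularGroup.S * ModularGroup.T) ^ k) z = z) :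
    ∃ l : ℤ, ordAt τ₀ z = (((3 / Nat.gcd k 3 : ℕ) * l : ℤ) : WithTop ℤ) := by
  have hn : ((ordAt τ₀ z).untop₀ : WithTop ℤ) = ordAt τ₀ z :=
    WithTop.coe_untop₀_of_ne_top (ordAt_ne_top τ₀ hz)
  set n : ℤ := (ordAt τ₀ z).untop₀ with hndef
  have h := denom_sq_zpow_mul_ordAt_eq_one hfix k hz hinv
  have hq := quad_of_ST_fixed hfix
  have hμ : ((τ₀ : ℂ) + 1) ^ 2 = (τ₀ : ℂ) := by linear_combination hq
  rw [denom_ST, hμ] at h
  have hdvd : (3 : ℤ) ∣ (k : ℤ) * n := by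
    have := ((isPrimitiveRoot_of_ST_fixed hfix).zpow_eq_one_iff_dvd _).mp h
    exact_mod_cast this
  by_cases hk : 3 ∣ k
  · refine ⟨n, ?_⟩
    have hg : Nat.gcd k 3 = 3 := Nat.gcd_eq_right hk
    rw [hg, ← hn]
    norm_num
  · have hcop : Nat.Coprime 3 k := (Nat.Prime.coprime_iff_not_dvd Nat.prime_three).mpr hk
    have hg : Nat.gcd k 3 = 1 := Nat.Coprime.gcd_eq_one hcop.symm
    have hcop' : IsCoprime (3 : ℤ) (k : ℤ) := by
      have := Nat.isCoprime_iff_coprime.mpr hcop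
      exact_mod_cast this
    obtain ⟨l, hl⟩ := hcop'.dvd_of_dvd_mul_left hdvd
    refine ⟨l, ?_⟩
    rw [hg, ← hn, hl]
    norm_num

end

end Fermat.Agent.S24.helper133
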