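import Fermat.Agent.S24.helper137_CuspDict
import Fermat.Prelude.Thm_ModularCurve_coeffMap_qExpand

/-!
# S24, cusp slice, part 2 (helper137): the local datum at the cusp

`theorem stmt_LocalInf (hJ : Stmt_JExp) : helper24.Stmt_LocalInf`.
-/

set_option autoImplicit false

open Complex UpperHalfPlane ModularCurve IntermediateField
open scoped MatrixGroups Real

namespace Fermat.Agent.S24.helper137

open Fermat.Agent.S24.helper24

noncomputable section

/-! ## The function field as a fraction field of `ℚ̄[j(q^d) : d ∣ N]` -/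

/-- Divisors of `N` (index type of the generators). -/
abbrev Dv (N : ℕ) : Type := {d : ℕ // d ∣ N}

theorem Dv.neZero {N : ℕ} [NeZero N] (d : Dv N) : NeZero d.1 :=
  ⟨ne_zero_of_dvd_ne_zero (NeZero.ne N) d.2⟩

/-- The generator `j(q^d)` of the function field. -/
def genF (N : ℕ) [NeZero N] (d : Dv N) : FN N :=
  haveI := d.neZero
  jBarD N d.1 d.2

/-- The generator `j(q^d)` as a Laurent series. -/
def genS (N : ℕ) [NeZero N] (d : Dv N) : LaurentSeries Kbar :=
  haveI := d.neZero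
  jSeries d.1

theorem coe_genF (N : ℕ) [NeZero N] (d : Dv N) : ((genF N d : FN N) : LaurentSeries Kbar) = genS N d :=
  rfl

theorem genF_one (N : ℕ) [NeZero N] : genF N ⟨1, one_dvd N⟩ = jBar N := rfl

theorem coeffEmb_algebraMap (c : ℚ) :
    coeffEmb Kbar (algebraMap ℚ (LaurentSeries ℚ) c)
      = algebraMap Kbar (LaurentSeries Kbar) (algebraMap ℚ Kbar c) := by
  rw [algebraMap_apply_eq_single, algebraMap_laurentSeries_eq_single, coeffEmb, coeffMap_single]

/-- The function field is generated by the `j(q^d)`, `d ∣ N`. -/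
theorem modularFunctionFieldBar_eq_adjoin (N : ℕ) [NeZero N] :
    modularFunctionFieldBar N = IntermediateField.adjoin Kbar (Set.range (genS N)) := by
  apply le_antisymm
  · show laurentBaseChange Kbar (modularFunctionFieldFull N) ≤ _
    rw [laurentBaseChange, IntermediateField.adjoin_le_iff]
    have key : ∀ x : LaurentSeries ℚ, x ∈ IntermediateField.adjoin ℚ (divisorExpansions N) →
        coeffEmb Kbar x ∈ IntermediateField.adjoin Kbar (Set.range (genS N)) := by
      intro x hx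
      induction hx using IntermediateField.adjoin_induction with
      | mem y hy =>
        obtain ⟨d, hne, hdvd, rfl⟩ := hy
        exact IntermediateField.subset_adjoin Kbar _ ⟨⟨d, hdvd⟩, rfl⟩
      | algebraMap c =>
        rw [coeffEmb_algebraMap]
        exact IntermediateField.algebraMap_mem _ _
      | add y z _ _ hy hz =>
        rw [map_add]
        exact add_mem hy hz
      | inv y _ hy =>
        rw [map_inv₀]
        exact inv_mem hy
      | mul y z _ _ hy hz =>
        rw [map_mul]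
        exact mul_mem hy hz
    rintro _ ⟨x, hx, rfl⟩
    exact key x hx
  · rw [IntermediateField.adjoin_le_iff]
    rintro _ ⟨d, rfl⟩
    exact (genF N d).2

/-- The subalgebra `ℚ̄[j(q^d) : d ∣ N]` of the function field. -/
def genAlg (N : ℕ) [NeZero N] : Subalgebra Kbar (FN N) := (MvPolynomial.aeval (genF N)).range

theorem coe_aeval_genF (N : ℕ) [NeZero N] (P : MvPolynomial (Dv N) Kbar) :
    ((MvPolynomial.aeval (genF N) P : FN N) : LaurentSeries Kbar)
      = MvPolynomial.aeval (genS N) P :=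
  MvPolynomial.comp_aeval_apply (genF N) (modularFunctionFieldBar N).val P

theorem exists_div_genAlg (N : ℕ) [NeZero N] (z : FN N) :
    ∃ x y : genAlg N, z = algebraMap (genAlg N) (FN N) x / algebraMap (genAlg N) (FN N) y := by
  have hz : (z : LaurentSeries Kbar) ∈ IntermediateField.adjoin Kbar (Set.range (genS N)) := by
    rw [← modularFunctionFieldBar_eq_adjoin]
    exact z.2
  obtain ⟨r, hr, t, ht, hzrt⟩ := IntermediateField.mem_adjoin_iff_div.mp hz
  rw [Algebra.adjoin_range_eq_range_aeval] at hr ht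
  obtain ⟨P, rfl⟩ := hr
  obtain ⟨Q, rfl⟩ := ht
  refine ⟨⟨MvPolynomial.aeval (genF N) P, P, rfl⟩, ⟨MvPolynomial.aeval (genF N) Q, Q, rfl⟩, ?_⟩
  apply Subtype.ext
  show (z : LaurentSeries Kbar)
    = ((MvPolynomial.aeval (genF N) P / MvPolynomial.aeval (genF N) Q : FN N) : LaurentSeries Kbar)
  rw [IntermediateField.coe_div, coe_aeval_genF, coe_aeval_genF]
  exact hzrt

theorem isFractionRing_genAlg (N : ℕ) [NeZero N] : IsFractionRing (genAlg N) (FN N) :=
  IsFractionRing.of_field (genAlg N) (FN N) (exists_div_genAlg N)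

/-- Universal property of the function field: a family `e_d` in a field `Ω` satisfying exactly
the same polynomial relations over `ℚ̄` as the `j(q^d)` defines an embedding. -/
theorem exists_algHom (N : ℕ) [NeZero N] {Ω : Type} [Field Ω] [Algebra Kbar Ω] (e : Dv N → Ω)
    (hker : ∀ P : MvPolynomial (Dv N) Kbar,
      MvPolynomial.aeval (genF N) P = 0 ↔ MvPolynomial.aeval e P = 0) :
    ∃ Φ : FN N →ₐ[Kbar] Ω, ∀ d, Φ (genF N d) = e d := by
  have : IsFractionRing (genAlg N) (FN N) := isFractionRing_genAlg N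
  let a1 : MvPolynomial (Dv N) Kbar →ₐ[Kbar] genAlg N :=
    (MvPolynomial.aeval (genF N)).rangeRestrict
  have ha1 : Function.Surjective a1 := AlgHom.rangeRestrict_surjective _
  have ha1coe : ∀ P, ((a1 P : genAlg N) : FN N) = MvPolynomial.aeval (genF N) P := fun P => rfl
  let a2 : MvPolynomial (Dv N) Kbar →ₐ[Kbar] Ω := MvPolynomial.aeval e
  have hle : RingHom.ker a1.toRingHom ≤ RingHom.ker a2.toRingHom := by
    intro P hP
    rw [RingHom.mem_ker] at hP ⊢
    have h1 : MvPolynomial.aeval (genF N) P = 0 := by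
      rw [← ha1coe]
      exact congrArg Subtype.val hP
    exact (hker P).mp h1
  have hg0 : ∀ P, AlgHom.liftOfSurjective a1 ha1 a2 hle (a1 P) = a2 P :=
    AlgHom.liftOfSurjective_apply a1 ha1 a2 hle
  have hinj : Function.Injective (AlgHom.liftOfSurjective a1 ha1 a2 hle) := by
    rw [injective_iff_map_eq_zero]
    intro x hx
    obtain ⟨P, rfl⟩ := ha1 x
    rw [hg0] at hx
    apply Subtype.ext
    rw [ha1coe]
    exact (hker P).mpr hx
  refine ⟨IsFractionRing.liftAlgHom hinj, fun d => ?_⟩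
  have h1 : genF N d = algebraMap (genAlg N) (FN N) (a1 (MvPolynomial.X d)) := by
    show genF N d = ((a1 (MvPolynomial.X d) : genAlg N) : FN N)
    rw [ha1coe, MvPolynomial.aeval_X]
  rw [h1, IsFractionRing.liftAlgHom_apply, IsFractionRing.lift_algebraMap]
  exact (hg0 _).trans (MvPolynomial.aeval_X e d)

/-- Two embeddings of the function field which agree on the generators `j(q^d)` are equal. -/
theorem algHom_ext_genF (N : ℕ) [NeZero N] {Ω : Type} [Field Ω] [Algebra Kbar Ω]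
    {Φ₁ Φ₂ : FN N →ₐ[Kbar] Ω} (h : ∀ d, Φ₁ (genF N d) = Φ₂ (genF N d)) : Φ₁ = Φ₂ := by
  refine IntermediateField.algHom_ext_of_eq_adjoin Kbar (modularFunctionFieldBar_eq_adjoin N) ?_
  rintro _ ⟨d, rfl⟩
  exact h d

/-! ## The coefficient field embedding and the transfer map -/

/-- A fixed embedding of `ℚ̄` into `ℂ`. -/
def phi0 : Kbar →+* ℂ := by
  letI : Algebra ℚ (AlgebraicClosure ℚ) := AlgebraicClosure.instAlgebra ℚ
  exact ((IsAlgClosed.lift : AlgebraicClosure ℚ →ₐ[ℚ] ℂ) : AlgebraicClosure ℚ →+* ℂ)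

/-- `LaurentSeries ℂ` as a `ℚ̄`-algebra through `phi0`. -/
@[instance_reducible]
def algK : Algebra Kbar (LaurentSeries ℂ) :=
  ((HahnSeries.C : ℂ →+* LaurentSeries ℂ).comp phi0).toAlgebra

attribute [local instance] algK

theorem algebraMap_Kbar_apply (a : Kbar) :
    algebraMap Kbar (LaurentSeries ℂ) a = HahnSeries.C (phi0 a) := rfl

/-- The transfer map `E(q) ↦ E^{φ₀}(t^N)` from `ℚ̄((q))` to `ℂ((t))`, `q = t^N`. -/
def Psi (N : ℕ) [NeZero N] : LaurentSeries Kbar →+* LaurentSeries ℂ :=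
  (qExpand ℂ N).comp (coeffMap phi0)

theorem Psi_injective (N : ℕ) [NeZero N] : Function.Injective (Psi N) := by
  refine (qExpand_injective N).comp ?_
  intro x y hxy
  ext n
  have h := congrArg (fun F : LaurentSeries ℂ => F.coeff n) hxy
  simp only [coeffMap_coeff] at h
  exact phi0.injective h

theorem Psi_algebraMap (N : ℕ) [NeZero N] (a : Kbar) :
    Psi N (algebraMap Kbar (LaurentSeries Kbar) a) = HahnSeries.C (phi0 a) := by
  rw [Psi, RingHom.comp_apply, algebraMap_laurentSeries_eq_single, coeffMap_single,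
    qExpand_single, mul_zero]
  rfl

theorem Psi_genS (N : ℕ) [NeZero N] (d : Dv N) [NeZero d.1] :
    Psi N (genS N d) = qExpand ℂ (N * d.1) jqC := by
  show qExpand ℂ N (coeffMap phi0 (coeffEmb Kbar (qExpand ℚ d.1 jq))) = _
  rw [coeffEmb, coeffMap_coeffMap, coeffMap_qExpand, qExpand_qExpand]
  congr 1
  exact coeffMap_congr (Subsingleton.elim _ _) jq

/-- The kernel lemma: the `j(q^d)` and the `t`-expansions of the conjugates `j(d γ⁻¹ τ)`
satisfy the same polynomial relations over `ℚ̄`. -/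
theorem aeval_genF_eq_zero_iff (hJ : IsExp 1 jFun jqC) (N : ℕ) [NeZero N] (γ : SL(2, ℤ))
    (E : Dv N → LaurentSeries ℂ) (hE : ∀ d : Dv N, IsExp N (jConj d.1 γ) (E d))
    (P : MvPolynomial (Dv N) Kbar) :
    MvPolynomial.aeval (genF N) P = 0 ↔ MvPolynomial.aeval E P = 0 := by
  have h1 : MvPolynomial.aeval E P = 0 ↔
      ∀ τ : ℍ, MvPolynomial.eval₂ phi0 (fun d : Dv N => jConj d.1 γ τ) P = 0 := by
    rw [MvPolynomial.aeval_def]
    exact IsExp.eval₂_eq_zero_iff phi0 hE P
  have h2 : (∀ τ : ℍ, MvPolynomial.eval₂ phi0 (fun d : Dv N => jConj d.1 γ τ) P = 0) ↔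
      ∀ τ : ℍ, MvPolynomial.eval₂ phi0 (fun d : Dv N => jConj d.1 1 τ) P = 0 := by
    have hconj : ∀ (d : ℕ) (τ : ℍ), jConj d γ τ = jConj d 1 (γ⁻¹ • τ) := by
      intro d τ
      rw [jConj, jConj, inv_one, one_smul]
    constructor
    · intro h τ
      have h' := h (γ • τ)
      simp only [hconj, inv_smul_smul] at h'
      exact h'
    · intro h τ
      simp only [hconj]
      exact h (γ⁻¹ • τ)
  have hE1 : ∀ d : Dv N, IsExp N (jConj d.1 1) (Psi N (genS N d)) := by
    intro d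
    have := d.neZero
    rw [Psi_genS]
    exact isExp_jConj_one hJ N d.1
  have h3 : MvPolynomial.eval₂ ((HahnSeries.C : ℂ →+* LaurentSeries ℂ).comp phi0)
      (fun d => Psi N (genS N d)) P = 0 ↔
      ∀ τ : ℍ, MvPolynomial.eval₂ phi0 (fun d : Dv N => jConj d.1 1 τ) P = 0 :=
    IsExp.eval₂_eq_zero_iff phi0 hE1 P
  have h4 : MvPolynomial.eval₂ ((HahnSeries.C : ℂ →+* LaurentSeries ℂ).comp phi0)
      (fun d => Psi N (genS N d)) P = Psi N (MvPolynomial.aeval (genS N) P) := by
    rw [MvPolynomial.aeval_def, MvPolynomial.hom_eval₂]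
    congr 1
    exact RingHom.ext fun a => (Psi_algebraMap N a).symm
  rw [h1, h2, ← h3, h4, map_eq_zero_iff (Psi N) (Psi_injective N), ← coe_aeval_genF]
  exact ⟨fun h => by rw [h]; rfl, fun h => Subtype.ext h⟩

/-! ## The twist automorphism -/

/-- The root of unity `ζ_N = exp (2 π i / N)`. -/
def zetaN (N : ℕ) : ℂ := cexp (2 * π * Complex.I / N)

theorem zetaN_ne_zero (N : ℕ) : zetaN N ≠ 0 := exp_ne_zero _

/-- The twist `t ↦ ζ_N t` as a `ℚ̄`-algebra automorphism of `ℂ((t))`. -/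
def sigmaN (N : ℕ) : LaurentSeries ℂ ≃ₐ[Kbar] LaurentSeries ℂ :=
  AlgEquiv.ofRingEquiv
    (f := RingEquiv.ofRingHom (twist (zetaN N) (zetaN_ne_zero N))
      (twist (zetaN N)⁻¹ (inv_ne_zero (zetaN_ne_zero N)))
      (RingHom.ext fun E => by
        ext n
        simp only [RingHom.comp_apply, twist_coeff, RingHom.id_apply]
        rw [← mul_assoc, ← mul_zpow, mul_inv_cancel₀ (zetaN_ne_zero N), one_zpow, one_mul])
      (RingHom.ext fun E => by
        ext n
        simp only [RingHom.comp_apply, twist_coeff, RingHom.id_apply]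
        rw [← mul_assoc, ← mul_zpow, inv_mul_cancel₀ (zetaN_ne_zero N), one_zpow, one_mul]))
    (fun a => twist_C (zetaN N) (zetaN_ne_zero N) (phi0 a))

theorem sigmaN_apply (N : ℕ) (E : LaurentSeries ℂ) :
    sigmaN N E = twist (zetaN N) (zetaN_ne_zero N) E := rfl

theorem sigmaN_pow_coeff (N k : ℕ) (E : LaurentSeries ℂ) (n : ℤ) :
    ((sigmaN N ^ k) E).coeff n = (zetaN N ^ k) ^ n * E.coeff n := by
  induction k with
  | zero => simp
  | succ k ih =>
    rw [pow_succ', AlgEquiv.mul_apply, sigmaN_apply, twist_coeff, ih, pow_succ, mul_zpow]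
    ring

theorem orderTop_qExpand_jqC (N : ℕ) [NeZero N] :
    (qExpand ℂ N jqC).orderTop = ((-(N : ℤ) : ℤ) : WithTop ℤ) := by
  apply HahnSeries.orderTop_eq_of_le
  · rw [HahnSeries.mem_support]
    have h3 : (-(N : ℤ)) = (N : ℤ) * (-1) := by ring
    rw [h3, qExpand_coeff_mul, jqC_coeff_neg_one]
    exact one_ne_zero
  · intro n hn
    rw [HahnSeries.mem_support] at hn
    by_contra hlt
    rw [not_le] at hlt
    apply hn
    by_cases hdvd : (N : ℤ) ∣ n
    · obtain ⟨k, rfl⟩ := hdvd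
      rw [qExpand_coeff_mul]
      apply jqC_coeff_of_lt
      have hN : (0 : ℤ) < N := by exact_mod_cast Nat.pos_of_ne_zero (NeZero.ne N)
      by_contra hk
      rw [not_lt] at hk
      nlinarith
    · exact qExpand_coeff_of_not_dvd N _ hdvd

/-! ## The embeddings at the cusp -/

section Datum

variable (N : ℕ) [NeZero N] (hJ : IsExp 1 jFun jqC)
  (E : SL(2, ℤ) → Dv N → LaurentSeries ℂ)
  (hE : ∀ (γ : SL(2, ℤ)) (d : Dv N), IsExp N (jConj d.1 γ) (E γ d))
  (Φ : SL(2, ℤ) → (FN N →ₐ[Kbar] LaurentSeries ℂ))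
  (hΦ : ∀ (γ : SL(2, ℤ)) (d : Dv N), Φ γ (genF N d) = E γ d)

include hE hΦ in
theorem Phi_congr {γ γ' : SL(2, ℤ)} (h : γ⁻¹ * γ' ∈ CongruenceSubgroup.Gamma0 N) :
    Φ γ = Φ γ' := by
  refine algHom_ext_genF N fun d => ?_
  rw [hΦ, hΦ]
  have hd0 : 0 < d.1 := Nat.pos_of_ne_zero d.neZero.ne
  refine (hE γ d).unique_right ((hE γ' d).congr_left fun τ => ?_)
  have h1 : γ' = γ * (γ⁻¹ * γ') := by group
  rw [h1]
  exact jConj_mul_Gamma0 hd0 d.2 γ _ h τ

include hJ hE hΦ in
theorem mem_Gamma0_of_Phi_eq {γ γ' : SL(2, ℤ)} (h : Φ γ = Φ γ') :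
    γ⁻¹ * γ' ∈ CongruenceSubgroup.Gamma0 N := by
  have h1 : E γ ⟨N, dvd_rfl⟩ = E γ' ⟨N, dvd_rfl⟩ := by
    rw [← hΦ, ← hΦ, h]
  have h2 : jConj N γ = jConj N γ' :=
    (hE γ ⟨N, dvd_rfl⟩).unique_left (h1 ▸ hE γ' ⟨N, dvd_rfl⟩)
  have h3 : ∀ τ, jConj N (γ'⁻¹ * γ) τ = jConj N 1 τ := by
    intro τ
    rw [← jConj_smul, h2, jConj_smul, inv_mul_cancel]
  have h4 := mem_Gamma0_of_jConj_eq hJ N (γ'⁻¹ * γ) h3
  rwa [mul_inv_rev, inv_inv] at h4

include hJ hE hΦ in
theorem Phi_jBar (γ : SL(2, ℤ)) : Φ γ (jBar N) = qExpand ℂ N jqC := by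
  rw [← genF_one, hΦ]
  have h1 : IsExp N (jConj 1 γ) (qExpand ℂ (N * 1) jqC) :=
    (isExp_jConj_one hJ N 1).congr_left fun τ => by
      rw [jConj_one_left, jConj_one_left]
  rw [(hE γ ⟨1, one_dvd N⟩).unique_right h1]
  exact qExpand_congr (mul_one N) jqC

include hE hΦ in
theorem sigmaN_Phi (γ : SL(2, ℤ)) (f : FN N) :
    sigmaN N (Φ γ f) = Φ (ModularGroup.T⁻¹ * γ) f := by
  have h : ((sigmaN N : LaurentSeries ℂ ≃ₐ[Kbar] LaurentSeries ℂ) : LaurentSeries ℂ →ₐ[Kbar]
      LaurentSeries ℂ).comp (Φ γ) = Φ (ModularGroup.T⁻¹ * γ) := by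
    refine algHom_ext_genF N fun d => ?_
    rw [AlgHom.comp_apply, hΦ, hΦ]
    show sigmaN N (E γ d) = _
    rw [sigmaN_apply]
    refine ((hE γ d).comp_T).unique_right ((hE (ModularGroup.T⁻¹ * γ) d).congr_left fun τ => ?_)
    rw [jConj_smul]
  exact congrArg (fun Ψ : FN N →ₐ[Kbar] LaurentSeries ℂ => Ψ f) h

end Datum

/-- The local datum at the cusp, from the `q`-expansion of `j`. -/
theorem stmt_LocalInf (hJ : Stmt_JExp) : Stmt_LocalInf := by
  intro N _
  have hJ1 := isExp_jFun hJ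
  choose E hE using fun (γ : SL(2, ℤ)) (d : Dv N) => exists_isExp_jConj hJ1 d.2 γ
  choose Φ hΦ using fun γ : SL(2, ℤ) =>
    exists_algHom N (E γ) (aeval_genF_eq_zero_iff hJ1 N γ (E γ) (hE γ))
  have hout : ∀ (g : SL(2, ℤ)) (x : XN N),
      (g * x.out)⁻¹ * (g • x).out ∈ CongruenceSubgroup.Gamma0 N := by
    intro g x
    rw [← QuotientGroup.eq, QuotientGroup.out_eq']
    conv_rhs => rw [← QuotientGroup.out_eq' x]
    rfl
  refine ⟨LaurentSeries ℂ, inferInstance, algK, HahnSeries.addVal ℤ ℂ, fun x => Φ x.out,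
    sigmaN N, (qExpand ℂ N jqC)⁻¹, ?_, ?_, ?_, ?_, ?_, ?_, ?_, ?_⟩
  · intro a ha
    rw [HahnSeries.addVal_apply, algebraMap_Kbar_apply, HahnSeries.C_apply,
      HahnSeries.orderTop_single ((map_ne_zero phi0).mpr ha)]
    rfl
  · intro x x' hxx'
    have h1 := mem_Gamma0_of_Phi_eq N hJ1 E hE Φ hΦ hxx'
    rw [← QuotientGroup.out_eq' x, ← QuotientGroup.out_eq' x']
    exact QuotientGroup.eq.mpr h1
  · intro x
    rw [map_inv₀, Phi_jBar N hJ1 E hE Φ hΦ]
  · exact Nat.pos_of_ne_zero (NeZero.ne N)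
  · rw [AddValuation.map_inv, HahnSeries.addVal_apply, orderTop_qExpand_jqC,
      ← WithTop.LinearOrderedAddCommGroup.coe_neg, neg_neg]
  · intro z
    rw [HahnSeries.addVal_apply, HahnSeries.addVal_apply, sigmaN_apply, twist_orderTop]
  · right
    intro x f
    show sigmaN N (Φ x.out f) = Φ (ModularGroup.T⁻¹ • x).out f
    rw [sigmaN_Phi N E hE Φ hΦ, Phi_congr N E hE Φ hΦ (hout ModularGroup.T⁻¹ x)]
  · intro k z hz hk
    rw [HahnSeries.addVal_apply]
    refine exists_orderTop_eq_of_twist_eq N k z hz ?_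
    ext n
    rw [twist_coeff]
    have h1 := congrArg (fun F : LaurentSeries ℂ => F.coeff n) hk
    simp only [sigmaN_pow_coeff] at h1
    exact h1

end

end Fermat.Agent.S24.helper137


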