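import Mathlib
import Fermat.Agent.S24.helper24_Spec

/-!
# S24, cusp slice, part 1 (helper137): the analytic dictionary at level `N`

* `twist ζ` : the ring automorphism `E(t) ↦ E(ζ t)` of `LaurentSeries ℂ`;
* `LSum E z s` : the Laurent series `E` converges absolutely at `z` with sum `s`; closed under
  constants, sums, products, substitution `t ↦ ζ t ^ A`; uniqueness of the expansion;
* `IsExp N f E` : `f τ = ∑ E_n t^n` with `t = exp (2 π i τ / N)` for all `τ` in the upper half plane.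
-/

set_option autoImplicit false

open Complex UpperHalfPlane ModularCurve
open scoped MatrixGroups Real

namespace Fermat.Agent.S24.helper137

noncomputable section

/-! ## The twist `E(t) ↦ E(ζ t)` -/

/-- Coefficientwise twist `E(t) ↦ E(ζ t)`. -/
def twistFun (ζ : ℂ) (E : LaurentSeries ℂ) : LaurentSeries ℂ where
  coeff n := ζ ^ n * E.coeff n
  isPWO_support' := E.isPWO_support.mono (fun n hn => by
    simp only [Function.mem_support, ne_eq] at hn ⊢
    exact fun h => hn (by rw [h, mul_zero]))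

@[simp]
theorem twistFun_coeff (ζ : ℂ) (E : LaurentSeries ℂ) (n : ℤ) :
    (twistFun ζ E).coeff n = ζ ^ n * E.coeff n := rfl

theorem twistFun_support {ζ : ℂ} (hζ : ζ ≠ 0) (E : LaurentSeries ℂ) :
    (twistFun ζ E).support = E.support := by
  ext n
  simp [HahnSeries.mem_support, zpow_ne_zero _ hζ]

theorem twistFun_mul {ζ : ℂ} (hζ : ζ ≠ 0) (x y : LaurentSeries ℂ) :
    twistFun ζ (x * y) = twistFun ζ x * twistFun ζ y := by
  ext n
  rw [twistFun_coeff, HahnSeries.coeff_mul, HahnSeries.coeff_mul, Finset.mul_sum]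
  have hfin : Finset.antidiagonal (twistFun ζ x).isPWO_support (twistFun ζ y).isPWO_support n
      = Finset.antidiagonal x.isPWO_support y.isPWO_support n := by
    ext ij
    simp only [Finset.mem_antidiagonal, twistFun_support hζ]
  rw [hfin]
  refine Finset.sum_congr rfl fun ij hij => ?_
  have hsum : ij.1 + ij.2 = n := (Finset.mem_antidiagonal.mp hij).2.2
  rw [twistFun_coeff, twistFun_coeff, ← hsum, zpow_add₀ hζ]
  ring

/-- The twist `E(t) ↦ E(ζ t)` as a ring homomorphism. -/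
def twist (ζ : ℂ) (hζ : ζ ≠ 0) : LaurentSeries ℂ →+* LaurentSeries ℂ where
  toFun := twistFun ζ
  map_one' := by
    ext n
    rw [twistFun_coeff, HahnSeries.coeff_one]
    split_ifs with h
    · subst h; simp
    · simp
  map_mul' := twistFun_mul hζ
  map_zero' := by
    ext n
    simp
  map_add' x y := by
    ext n
    simp [mul_add]

@[simp]
theorem twist_coeff (ζ : ℂ) (hζ : ζ ≠ 0) (E : LaurentSeries ℂ) (n : ℤ) :
    (twist ζ hζ E).coeff n = ζ ^ n * E.coeff n := rfl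

theorem twist_C (ζ : ℂ) (hζ : ζ ≠ 0) (c : ℂ) :
    twist ζ hζ (HahnSeries.C c) = HahnSeries.C c := by
  ext n
  rw [twist_coeff, HahnSeries.C_apply, HahnSeries.coeff_single]
  split_ifs with h
  · subst h; simp
  · simp

theorem twist_twist (ζ ξ : ℂ) (hζ : ζ ≠ 0) (hξ : ξ ≠ 0) (E : LaurentSeries ℂ) :
    twist ζ hζ (twist ξ hξ E) = twist (ζ * ξ) (mul_ne_zero hζ hξ) E := by
  ext n
  simp [mul_zpow, mul_assoc]

theorem twist_one (E : LaurentSeries ℂ) : twist 1 one_ne_zero E = E := by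
  ext n
  simp

theorem orderTop_le_orderTop_of_coeff {x y : LaurentSeries ℂ}
    (h : ∀ n, y.coeff n ≠ 0 → x.coeff n ≠ 0) : x.orderTop ≤ y.orderTop := by
  by_cases hy : y = 0
  · simp [hy]
  · obtain ⟨n, hn⟩ := WithTop.ne_top_iff_exists.mp (HahnSeries.orderTop_ne_top.2 hy)
    rw [← hn]
    exact HahnSeries.orderTop_le_of_coeff_ne_zero (h n (HahnSeries.coeff_orderTop_ne hn.symm))

theorem twist_orderTop (ζ : ℂ) (hζ : ζ ≠ 0) (E : LaurentSeries ℂ) :
    (twist ζ hζ E).orderTop = E.orderTop := by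
  refine le_antisymm (orderTop_le_orderTop_of_coeff fun n hn => ?_)
    (orderTop_le_orderTop_of_coeff fun n hn => ?_)
  · rw [twist_coeff]
    exact mul_ne_zero (zpow_ne_zero _ hζ) hn
  · rw [twist_coeff] at hn
    exact right_ne_zero_of_mul hn

/-! ## Absolutely convergent evaluation of Laurent series -/

/-- `LSum E z s`: the Laurent series `E` converges absolutely at `z`, with sum `s`. -/
def LSum (E : LaurentSeries ℂ) (z s : ℂ) : Prop :=
  Summable (fun n : ℤ => ‖E.coeff n * z ^ n‖) ∧ HasSum (fun n : ℤ => E.coeff n * z ^ n) s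

theorem LSum.unique {E : LaurentSeries ℂ} {z s s' : ℂ} (h : LSum E z s) (h' : LSum E z s') :
    s = s' :=
  h.2.unique h'.2

theorem lSum_C (c z : ℂ) : LSum (HahnSeries.C c) z c := by
  have h : (fun n : ℤ => (HahnSeries.C c : LaurentSeries ℂ).coeff n * z ^ n)
      = fun n : ℤ => if n = 0 then c else 0 := by
    funext n
    rw [HahnSeries.C_apply, HahnSeries.coeff_single]
    split_ifs with h
    · subst h; simp
    · simp
  constructor
  · have h' : (fun n : ℤ => ‖(HahnSeries.C c : LaurentSeries ℂ).coeff n * z ^ n‖)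
        = fun n : ℤ => if n = 0 then ‖c‖ else 0 := by
      funext n
      rw [congrFun h n]
      split_ifs <;> simp
    rw [h']
    exact (hasSum_ite_eq 0 ‖c‖).summable
  · rw [h]
    exact hasSum_ite_eq 0 c

theorem lSum_zero (z : ℂ) : LSum 0 z 0 := by
  simpa using lSum_C 0 z

theorem LSum.add {E E' : LaurentSeries ℂ} {z s s' : ℂ} (h : LSum E z s) (h' : LSum E' z s') :
    LSum (E + E') z (s + s') := by
  have hfun : (fun n : ℤ => (E + E').coeff n * z ^ n)
      = fun n : ℤ => E.coeff n * z ^ n + E'.coeff n * z ^ n := by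
    funext n
    rw [HahnSeries.coeff_add, add_mul]
  refine ⟨?_, ?_⟩
  · refine Summable.of_nonneg_of_le (fun n => norm_nonneg _) (fun n => ?_) (h.1.add h'.1)
    rw [congrFun hfun n]
    exact norm_add_le _ _
  · rw [hfun]
    exact h.2.add h'.2

theorem LSum.neg {E : LaurentSeries ℂ} {z s : ℂ} (h : LSum E z s) : LSum (-E) z (-s) := by
  have hfun : (fun n : ℤ => (-E).coeff n * z ^ n) = fun n : ℤ => -(E.coeff n * z ^ n) := by
    funext n
    rw [HahnSeries.coeff_neg, neg_mul]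
  refine ⟨?_, ?_⟩
  · have hn : (fun n : ℤ => ‖(-E).coeff n * z ^ n‖) = fun n : ℤ => ‖E.coeff n * z ^ n‖ := by
      funext n
      rw [congrFun hfun n, norm_neg]
    rw [hn]
    exact h.1
  · rw [hfun]
    exact h.2.neg

theorem LSum.sub {E E' : LaurentSeries ℂ} {z s s' : ℂ} (h : LSum E z s) (h' : LSum E' z s') :
    LSum (E - E') z (s - s') := by
  simpa [sub_eq_add_neg] using h.add h'.neg

/-- The reindexing `(n, i) ↦ (i, n - i)` of `ℤ × ℤ`. -/
def shearEquiv : ℤ × ℤ ≃ ℤ × ℤ where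
  toFun p := (p.2, p.1 - p.2)
  invFun p := (p.1 + p.2, p.1)
  left_inv p := by simp
  right_inv p := by simp

theorem LSum.mul {E E' : LaurentSeries ℂ} {z s s' : ℂ} (hz : z ≠ 0) (h : LSum E z s)
    (h' : LSum E' z s') : LSum (E * E') z (s * s') := by
  obtain ⟨hE1, hE2⟩ := h
  obtain ⟨hE'1, hE'2⟩ := h'
  have hnorm : Summable (fun p : ℤ × ℤ => ‖(E.coeff p.1 * z ^ p.1) * (E'.coeff p.2 * z ^ p.2)‖) :=
    Summable.mul_norm (f := fun n : ℤ => E.coeff n * z ^ n) (g := fun n : ℤ => E'.coeff n * z ^ n)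
      hE1 hE'1
  have hsum : HasSum (fun p : ℤ × ℤ => (E.coeff p.1 * z ^ p.1) * (E'.coeff p.2 * z ^ p.2))
      (s * s') :=
    HasSum.mul (f := fun n : ℤ => E.coeff n * z ^ n) (g := fun n : ℤ => E'.coeff n * z ^ n)
      hE2 hE'2 (summable_mul_of_summable_norm
        (f := fun n : ℤ => E.coeff n * z ^ n) (g := fun n : ℤ => E'.coeff n * z ^ n) hE1 hE'1)
  have hsum' : HasSum (fun p : ℤ × ℤ =>
      (E.coeff p.2 * z ^ p.2) * (E'.coeff (p.1 - p.2) * z ^ (p.1 - p.2))) (s * s') :=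
    (shearEquiv.hasSum_iff (f := fun p : ℤ × ℤ =>
      (E.coeff p.1 * z ^ p.1) * (E'.coeff p.2 * z ^ p.2))).mpr hsum
  have hnorm' : Summable (fun p : ℤ × ℤ =>
      ‖(E.coeff p.2 * z ^ p.2) * (E'.coeff (p.1 - p.2) * z ^ (p.1 - p.2))‖) :=
    (shearEquiv.summable_iff (f := fun p : ℤ × ℤ =>
      ‖(E.coeff p.1 * z ^ p.1) * (E'.coeff p.2 * z ^ p.2)‖)).mpr hnorm
  have hfiber : ∀ n : ℤ, HasSum (fun i : ℤ =>
      (E.coeff i * z ^ i) * (E'.coeff (n - i) * z ^ (n - i))) ((E * E').coeff n * z ^ n) := by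
    intro n
    rw [HahnSeries.coeff_mul, Finset.sum_mul]
    have hinj : Set.InjOn (Prod.fst : ℤ × ℤ → ℤ)
        (Finset.antidiagonal E.isPWO_support E'.isPWO_support n : Set (ℤ × ℤ)) := by
      intro p hp q hq hpq
      have h1 := (Finset.mem_antidiagonal.mp hp).2.2
      have h2 := (Finset.mem_antidiagonal.mp hq).2.2
      have h3 : p.1 = q.1 := hpq
      ext
      · exact h3
      · omega
    have hrw : ∑ ij ∈ Finset.antidiagonal E.isPWO_support E'.isPWO_support n,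
          E.coeff ij.1 * E'.coeff ij.2 * z ^ n
        = ∑ i ∈ (Finset.antidiagonal E.isPWO_support E'.isPWO_support n).image Prod.fst,
          (E.coeff i * z ^ i) * (E'.coeff (n - i) * z ^ (n - i)) := by
      rw [Finset.sum_image hinj]
      refine Finset.sum_congr rfl fun ij hij => ?_
      have h1 := (Finset.mem_antidiagonal.mp hij).2.2
      have h2 : n - ij.1 = ij.2 := by omega
      rw [h2, ← h1, zpow_add₀ hz]
      ring
    rw [hrw]
    refine hasSum_sum_of_ne_finset_zero fun i hi => ?_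
    by_contra hne
    apply hi
    have h1 : E.coeff i ≠ 0 := by
      intro h0
      apply hne
      simp [h0]
    have h2 : E'.coeff (n - i) ≠ 0 := by
      intro h0
      apply hne
      simp [h0]
    exact Finset.mem_image.mpr ⟨(i, n - i), Finset.mem_antidiagonal.mpr ⟨h1, h2, by simp⟩, rfl⟩
  refine ⟨?_, ?_⟩
  · have hS := hnorm'.prod
    refine Summable.of_nonneg_of_le (fun n => norm_nonneg _) (fun n => ?_) hS
    rw [← (hfiber n).tsum_eq]
    exact norm_tsum_le_tsum_norm (hnorm'.prod_factor n)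
  · exact HasSum.prod_fiberwise hsum' hfiber

/-- Substitution `t ↦ ζ t ^ A`. -/
theorem LSum.qExpand_twist {E : LaurentSeries ℂ} (A : ℕ) [NeZero A] {ζ z s : ℂ} (hζ : ζ ≠ 0)
    (h : LSum E (ζ * z ^ A) s) : LSum (qExpand ℂ A (twist ζ hζ E)) z s := by
  have hinj : Function.Injective (fun k : ℤ => (A : ℤ) * k) :=
    mul_right_injective₀ (by exact_mod_cast NeZero.ne A)
  have hzero : ∀ n : ℤ, n ∉ Set.range (fun k : ℤ => (A : ℤ) * k) →
      (qExpand ℂ A (twist ζ hζ E)).coeff n = 0 := by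
    intro n hn
    refine qExpand_coeff_of_not_dvd A _ ?_
    rintro ⟨k, rfl⟩
    exact hn ⟨k, rfl⟩
  have hcomp : ∀ k : ℤ, (qExpand ℂ A (twist ζ hζ E)).coeff ((A : ℤ) * k) * z ^ ((A : ℤ) * k)
      = E.coeff k * (ζ * z ^ A) ^ k := by
    intro k
    rw [qExpand_coeff_mul, twist_coeff, mul_zpow, zpow_mul, zpow_natCast]
    ring
  constructor
  · refine (hinj.summable_iff (f := fun n : ℤ => ‖(qExpand ℂ A (twist ζ hζ E)).coeff n * z ^ n‖)
      (fun n hn => by rw [hzero n hn]; simp)).mp ?_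
    have hfun : ((fun n : ℤ => ‖(qExpand ℂ A (twist ζ hζ E)).coeff n * z ^ n‖) ∘
        fun k : ℤ => (A : ℤ) * k) = fun k : ℤ => ‖E.coeff k * (ζ * z ^ A) ^ k‖ := by
      funext k
      simp only [Function.comp]
      rw [hcomp]
    rw [hfun]
    exact h.1
  · refine (hinj.hasSum_iff (f := fun n : ℤ => (qExpand ℂ A (twist ζ hζ E)).coeff n * z ^ n)
      (fun n hn => by rw [hzero n hn]; simp)).mp ?_
    have hfun : ((fun n : ℤ => (qExpand ℂ A (twist ζ hζ E)).coeff n * z ^ n) ∘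
        fun k : ℤ => (A : ℤ) * k) = fun k : ℤ => E.coeff k * (ζ * z ^ A) ^ k := by
      funext k
      simp only [Function.comp]
      rw [hcomp]
    rw [hfun]
    exact h.2

/-- If a power series converges absolutely to `0` on the punctured unit disc, its constant
coefficient vanishes. -/
theorem coeff_zero_eq_zero_of_hasSum_zero (a : ℕ → ℂ)
    (key : ∀ z : ℂ, z ≠ 0 → ‖z‖ < 1 →
      Summable (fun m : ℕ => ‖a m * z ^ m‖) ∧ HasSum (fun m : ℕ => a m * z ^ m) 0) :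
    a 0 = 0 := by
  by_contra ha0
  obtain ⟨hS, -⟩ := key (1 / 2) (by norm_num) (by norm_num)
  have hS1 : Summable (fun m : ℕ => ‖a (m + 1) * (1 / 2 : ℂ) ^ (m + 1)‖) :=
    (summable_nat_add_iff (f := fun m : ℕ => ‖a m * (1 / 2 : ℂ) ^ m‖) 1).mpr hS
  obtain ⟨C, hC⟩ : ∃ C : ℝ, C = ∑' m : ℕ, ‖a (m + 1) * (1 / 2 : ℂ) ^ (m + 1)‖ := ⟨_, rfl⟩
  have hC0 : 0 ≤ C := hC ▸ tsum_nonneg fun m => norm_nonneg _
  have hbound : ∀ x : ℝ, 0 < x → x ≤ 1 / 2 → ‖a 0‖ ≤ 2 * x * C := by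
    intro x hx0 hx1
    have hxn : ‖(x : ℂ)‖ = x := by rw [Complex.norm_real, Real.norm_of_nonneg hx0.le]
    obtain ⟨hs1, hs2⟩ := key (x : ℂ) (by exact_mod_cast hx0.ne') (by rw [hxn]; linarith)
    have hs1' : Summable (fun m : ℕ => ‖a (m + 1) * (x : ℂ) ^ (m + 1)‖) :=
      (summable_nat_add_iff (f := fun m : ℕ => ‖a m * (x : ℂ) ^ m‖) 1).mpr hs1
    have hs2' : HasSum (fun m : ℕ => a (m + 1) * (x : ℂ) ^ (m + 1)) (-a 0) := by
      have h3 := (hasSum_nat_add_iff' (f := fun m : ℕ => a m * (x : ℂ) ^ m) 1).mpr hs2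
      simpa using h3
    have h1 : ‖a 0‖ ≤ ∑' m : ℕ, ‖a (m + 1) * (x : ℂ) ^ (m + 1)‖ := by
      rw [← norm_neg, ← hs2'.tsum_eq]
      exact norm_tsum_le_tsum_norm hs1'
    have h2 : ∑' m : ℕ, ‖a (m + 1) * (x : ℂ) ^ (m + 1)‖
        ≤ ∑' m : ℕ, 2 * x * ‖a (m + 1) * (1 / 2 : ℂ) ^ (m + 1)‖ := by
      refine Summable.tsum_le_tsum (fun m => ?_) hs1' (hS1.mul_left _)
      rw [norm_mul, norm_mul, norm_pow, norm_pow, hxn]
      have h12 : ‖(1 / 2 : ℂ)‖ = 1 / 2 := by norm_num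
      rw [h12]
      have hpow : x ^ m ≤ (1 / 2 : ℝ) ^ m := pow_le_pow_left₀ hx0.le hx1 m
      have hna : 0 ≤ ‖a (m + 1)‖ := norm_nonneg _
      calc ‖a (m + 1)‖ * x ^ (m + 1) = x * (‖a (m + 1)‖ * x ^ m) := by ring
        _ ≤ x * (‖a (m + 1)‖ * (1 / 2 : ℝ) ^ m) := by
            apply mul_le_mul_of_nonneg_left _ hx0.le
            exact mul_le_mul_of_nonneg_left hpow hna
        _ = 2 * x * (‖a (m + 1)‖ * (1 / 2 : ℝ) ^ (m + 1)) := by ring
    rw [tsum_mul_left, ← hC] at h2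
    exact h1.trans h2
  have hpos : 0 < ‖a 0‖ := norm_pos_iff.mpr ha0
  have hx : 0 < min (1 / 2) (‖a 0‖ / (4 * C + 1)) := by positivity
  have hb := hbound _ hx (min_le_left _ _)
  have hle : min (1 / 2) (‖a 0‖ / (4 * C + 1)) ≤ ‖a 0‖ / (4 * C + 1) := min_le_right _ _
  have h4 : 2 * (‖a 0‖ / (4 * C + 1)) * C < ‖a 0‖ := by
    have h5 : 2 * (‖a 0‖ / (4 * C + 1)) * C = ‖a 0‖ * (2 * C / (4 * C + 1)) := by ring
    rw [h5]
    have h6 : 2 * C / (4 * C + 1) < 1 := by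
      rw [div_lt_one (by positivity)]
      linarith
    nlinarith
  have h7 : 2 * min (1 / 2) (‖a 0‖ / (4 * C + 1)) * C ≤ 2 * (‖a 0‖ / (4 * C + 1)) * C := by
    apply mul_le_mul_of_nonneg_right _ hC0
    linarith
  linarith

/-- A Laurent series which converges absolutely to `0` on the punctured unit disc is `0`. -/
theorem eq_zero_of_lSum_zero {E : LaurentSeries ℂ}
    (h : ∀ z : ℂ, z ≠ 0 → ‖z‖ < 1 → LSum E z 0) : E = 0 := by
  by_contra hE
  have hc : E.coeff E.order ≠ 0 := by rwa [Ne, HahnSeries.coeff_order_eq_zero]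
  have key : ∀ z : ℂ, z ≠ 0 → ‖z‖ < 1 →
      Summable (fun m : ℕ => ‖E.coeff (E.order + m) * z ^ m‖) ∧
        HasSum (fun m : ℕ => E.coeff (E.order + m) * z ^ m) 0 := by
    intro z hz hz1
    obtain ⟨h1, h2⟩ := h z hz hz1
    have hinj : Function.Injective (fun m : ℕ => E.order + (m : ℤ)) :=
      fun m m' hmm => by simpa using hmm
    have hzero : ∀ n : ℤ, n ∉ Set.range (fun m : ℕ => E.order + (m : ℤ)) → E.coeff n = 0 := by
      intro n hn
      apply HahnSeries.coeff_eq_zero_of_lt_order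
      by_contra hlt
      rw [not_lt] at hlt
      exact hn ⟨(n - E.order).toNat, by
        show E.order + ((n - E.order).toNat : ℤ) = n
        omega⟩
    have hcomp : ∀ m : ℕ, E.coeff (E.order + m) * z ^ (E.order + (m : ℤ))
        = z ^ E.order * (E.coeff (E.order + m) * z ^ m) := by
      intro m
      rw [zpow_add₀ hz, zpow_natCast]
      ring
    constructor
    · have h1' := (hinj.summable_iff (f := fun n : ℤ => ‖E.coeff n * z ^ n‖)
        (fun n hn => by rw [hzero n hn]; simp)).mpr h1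
      have hfun : (fun m : ℕ => ‖E.coeff (E.order + m) * z ^ m‖)
          = fun m : ℕ => ‖z ^ E.order‖⁻¹ *
            ((fun n : ℤ => ‖E.coeff n * z ^ n‖) ∘ (fun m : ℕ => E.order + (m : ℤ))) m := by
        funext m
        simp only [Function.comp]
        rw [hcomp, norm_mul (z ^ E.order), ← mul_assoc,
          inv_mul_cancel₀ (norm_ne_zero_iff.mpr (zpow_ne_zero _ hz)), one_mul]
      rw [hfun]
      exact h1'.mul_left _
    · have h2' := (hinj.hasSum_iff (f := fun n : ℤ => E.coeff n * z ^ n)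
        (fun n hn => by rw [hzero n hn]; simp)).mpr h2
      have hfun : (fun m : ℕ => E.coeff (E.order + m) * z ^ m)
          = fun m : ℕ => (z ^ E.order)⁻¹ *
            ((fun n : ℤ => E.coeff n * z ^ n) ∘ (fun m : ℕ => E.order + (m : ℤ))) m := by
        funext m
        simp only [Function.comp]
        rw [hcomp, ← mul_assoc, inv_mul_cancel₀ (zpow_ne_zero _ hz), one_mul]
      rw [hfun]
      simpa using h2'.mul_left ((z ^ E.order)⁻¹)
  have h0 := coeff_zero_eq_zero_of_hasSum_zero (fun m : ℕ => E.coeff (E.order + m)) key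
  apply hc
  simpa using h0

/-! ## Expansions at the cusp in the parameter `t = exp (2 π i τ / N)` -/

/-- The local parameter `t = exp (2 π i τ / N)` at the cusp. -/
def tN (N : ℕ) (τ : ℍ) : ℂ := cexp (2 * π * Complex.I * τ / N)

theorem tN_ne_zero (N : ℕ) (τ : ℍ) : tN N τ ≠ 0 := exp_ne_zero _

theorem exists_tN_eq (N : ℕ) [NeZero N] {z : ℂ} (hz : z ≠ 0) (hz1 : ‖z‖ < 1) :
    ∃ τ : ℍ, tN N τ = z := by
  have hN : (N : ℝ) ≠ 0 := by exact_mod_cast NeZero.ne N
  have hNpos : (0 : ℝ) < N := by exact_mod_cast Nat.pos_of_ne_zero (NeZero.ne N)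
  have him : 0 < (Function.Periodic.invQParam N z).im := by
    rw [Function.Periodic.im_invQParam]
    have hlog : Real.log ‖z‖ < 0 := Real.log_neg (norm_pos_iff.mpr hz) hz1
    have hneg : -(N : ℝ) / (2 * π) < 0 := div_neg_of_neg_of_pos (by linarith) (by positivity)
    exact mul_pos_of_neg_of_neg hneg hlog
  refine ⟨⟨_, him⟩, ?_⟩
  have := Function.Periodic.qParam_right_inv hN hz
  simpa [tN, Function.Periodic.qParam] using this

/-- `IsExp N f E`: for every `τ`, `f τ = ∑ E_n t^n` (absolutely convergent),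
`t = exp (2 π i τ / N)`. -/
def IsExp (N : ℕ) (f : ℍ → ℂ) (E : LaurentSeries ℂ) : Prop :=
  ∀ τ : ℍ, LSum E (tN N τ) (f τ)

theorem IsExp.unique_left {N : ℕ} {f f' : ℍ → ℂ} {E : LaurentSeries ℂ} (h : IsExp N f E)
    (h' : IsExp N f' E) : f = f' :=
  funext fun τ => (h τ).unique (h' τ)

theorem IsExp.unique_right {N : ℕ} [NeZero N] {f : ℍ → ℂ} {E E' : LaurentSeries ℂ}
    (h : IsExp N f E) (h' : IsExp N f E') : E = E' := by
  rw [← sub_eq_zero]
  refine eq_zero_of_lSum_zero fun z hz hz1 => ?_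
  obtain ⟨τ, rfl⟩ := exists_tN_eq N hz hz1
  simpa using (h τ).sub (h' τ)

theorem IsExp.congr_left {N : ℕ} {f f' : ℍ → ℂ} {E : LaurentSeries ℂ} (h : IsExp N f E)
    (hff' : ∀ τ, f τ = f' τ) : IsExp N f' E :=
  fun τ => hff' τ ▸ h τ

/-- Polynomial expressions in expandable functions are expandable. -/
theorem IsExp.eval₂ {K : Type*} [CommRing K] (φ : K →+* ℂ) {ι : Type*} {N : ℕ}
    {f : ι → ℍ → ℂ} {E : ι → LaurentSeries ℂ} (h : ∀ i, IsExp N (f i) (E i))
    (P : MvPolynomial ι K) :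
    IsExp N (fun τ => MvPolynomial.eval₂ φ (fun i => f i τ) P)
      (MvPolynomial.eval₂ ((HahnSeries.C : ℂ →+* LaurentSeries ℂ).comp φ) E P) := by
  induction P using MvPolynomial.induction_on with
  | C a =>
    intro τ
    simp only [MvPolynomial.eval₂_C, RingHom.comp_apply]
    exact lSum_C _ _
  | add p q hp hq =>
    intro τ
    simp only [MvPolynomial.eval₂_add]
    exact (hp τ).add (hq τ)
  | mul_X p i hp =>
    intro τ
    simp only [MvPolynomial.eval₂_mul, MvPolynomial.eval₂_X]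
    exact (hp τ).mul (tN_ne_zero N τ) (h i τ)

/-- The kernel lemma: a polynomial relation holds among the expansions iff it holds among the
functions. -/
theorem IsExp.eval₂_eq_zero_iff {K : Type*} [CommRing K] (φ : K →+* ℂ) {ι : Type*} {N : ℕ}
    [NeZero N] {f : ι → ℍ → ℂ} {E : ι → LaurentSeries ℂ} (h : ∀ i, IsExp N (f i) (E i))
    (P : MvPolynomial ι K) :
    MvPolynomial.eval₂ ((HahnSeries.C : ℂ →+* LaurentSeries ℂ).comp φ) E P = 0 ↔
      ∀ τ : ℍ, MvPolynomial.eval₂ φ (fun i => f i τ) P = 0 := by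
  have hP := IsExp.eval₂ φ h P
  constructor
  · intro h0 τ
    rw [h0] at hP
    exact (hP τ).unique (lSum_zero _)
  · intro h0
    have hP' : IsExp N (fun τ => MvPolynomial.eval₂ φ (fun i => f i τ) P) 0 := by
      intro τ
      show LSum 0 (tN N τ) (MvPolynomial.eval₂ φ (fun i => f i τ) P)
      rw [h0 τ]
      exact lSum_zero _
    exact hP.unique_right hP'

theorem LSum.twist_mul {E : LaurentSeries ℂ} {ζ z s : ℂ} (hζ : ζ ≠ 0) (h : LSum E (ζ * z) s) :
    LSum (twist ζ hζ E) z s := by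
  have hfun : (fun n : ℤ => (twist ζ hζ E).coeff n * z ^ n) = fun n : ℤ => E.coeff n * (ζ * z) ^ n := by
    funext n
    rw [twist_coeff, mul_zpow]
    ring
  constructor
  · have hn : (fun n : ℤ => ‖(twist ζ hζ E).coeff n * z ^ n‖)
        = fun n : ℤ => ‖E.coeff n * (ζ * z) ^ n‖ := by
      funext n
      rw [congrFun hfun n]
    rw [hn]
    exact h.1
  · rw [hfun]
    exact h.2

/-- Translation `τ ↦ τ + 1` twists the expansion by `ζ_N = exp (2 π i / N)`. -/
theorem IsExp.comp_T {N : ℕ} {f : ℍ → ℂ} {E : LaurentSeries ℂ} (h : IsExp N f E) :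
    IsExp N (fun τ => f (ModularGroup.T • τ))
      (twist (cexp (2 * π * Complex.I / N)) (exp_ne_zero _) E) := by
  intro τ
  refine LSum.twist_mul _ ?_
  have ht : cexp (2 * π * Complex.I / N) * tN N τ = tN N (ModularGroup.T • τ) := by
    rw [tN, tN, ← Complex.exp_add, UpperHalfPlane.modular_T_smul, UpperHalfPlane.coe_vadd]
    congr 1
    push_cast
    ring
  rw [ht]
  exact h _

/-- Divisibility of the order of a Laurent series fixed by the `k`-th power of the twist by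
`ζ_N`. -/
theorem exists_orderTop_eq_of_twist_eq (N : ℕ) [NeZero N] (k : ℕ) (E : LaurentSeries ℂ)
    (hE : E ≠ 0)
    (h : twist (cexp (2 * π * Complex.I / N) ^ k) (pow_ne_zero _ (exp_ne_zero _)) E = E) :
    ∃ l : ℤ, E.orderTop = (((N / Nat.gcd k N : ℕ) * l : ℤ) : WithTop ℤ) := by
  have hprim := Complex.isPrimitiveRoot_exp N (NeZero.ne N)
  have hc : E.coeff E.order ≠ 0 := by rwa [Ne, HahnSeries.coeff_order_eq_zero]
  have h1 := congrArg (fun F : LaurentSeries ℂ => F.coeff E.order) h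
  simp only [twist_coeff] at h1
  have h2 : (cexp (2 * π * Complex.I / N) ^ k) ^ E.order = 1 := by
    have h3 : ((cexp (2 * π * Complex.I / N) ^ k) ^ E.order - 1) * E.coeff E.order = 0 := by
      rw [sub_mul, h1, one_mul, sub_self]
    rcases mul_eq_zero.mp h3 with h4 | h4
    · exact sub_eq_zero.mp h4
    · exact absurd h4 hc
  rw [← zpow_natCast, ← zpow_mul, hprim.zpow_eq_one_iff_dvd] at h2
  have hg : 0 < Nat.gcd k N := Nat.gcd_pos_of_pos_right k (Nat.pos_of_ne_zero (NeZero.ne N))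
  have hcop : IsCoprime ((N / Nat.gcd k N : ℕ) : ℤ) ((k / Nat.gcd k N : ℕ) : ℤ) :=
    Nat.isCoprime_iff_coprime.mpr (Nat.coprime_div_gcd_div_gcd hg).symm
  have hN : (N : ℤ) = (Nat.gcd k N : ℤ) * ((N / Nat.gcd k N : ℕ) : ℤ) := by
    exact_mod_cast (Nat.mul_div_cancel' (Nat.gcd_dvd_right k N)).symm
  have hk : (k : ℤ) = (Nat.gcd k N : ℤ) * ((k / Nat.gcd k N : ℕ) : ℤ) := by
    exact_mod_cast (Nat.mul_div_cancel' (Nat.gcd_dvd_left k N)).symm
  have h5 : ((N / Nat.gcd k N : ℕ) : ℤ) ∣ ((k / Nat.gcd k N : ℕ) : ℤ) * E.order := by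
    rw [hN, hk, mul_assoc] at h2
    exact Int.dvd_of_mul_dvd_mul_left (by exact_mod_cast hg.ne') h2
  obtain ⟨l, hl⟩ := hcop.dvd_of_dvd_mul_left h5
  refine ⟨l, ?_⟩
  rw [← HahnSeries.order_eq_orderTop_of_ne_zero hE, hl]

/-! ## The `j`-function and its conjugates -/

/-- The formal `j` with complex coefficients. -/
def jqC : LaurentSeries ℂ := coeffMap (algebraMap ℚ ℂ) jq

/-- The analytic input of the cusp slice: the formal power series `jNumQ` of the Prelude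
converges to `q * j(τ)`, `q = exp (2 π i τ)`. -/
def Stmt_JExp : Prop :=
  ∀ τ : ℍ, HasSum (fun n : ℕ => ((PowerSeries.coeff n jNumQ : ℚ) : ℂ) *
      cexp (2 * π * Complex.I * τ) ^ n) (cexp (2 * π * Complex.I * τ) * helper24.jFun τ)

/-- A power series which converges on the punctured unit disc converges absolutely there. -/
theorem summable_norm_of_summable_ball (c : ℕ → ℂ)
    (h : ∀ q : ℂ, q ≠ 0 → ‖q‖ < 1 → Summable (fun n => c n * q ^ n)) (q : ℂ) (hq : ‖q‖ < 1) :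
    Summable (fun n => ‖c n * q ^ n‖) := by
  obtain ⟨r, hr1, hr2⟩ := exists_between hq
  have hr0 : 0 < r := lt_of_le_of_lt (norm_nonneg q) hr1
  have hrn : ‖(r : ℂ)‖ = r := by rw [Complex.norm_real, Real.norm_of_nonneg hr0.le]
  have hsr := h (r : ℂ) (by exact_mod_cast hr0.ne') (by rw [hrn]; exact hr2)
  obtain ⟨M, hM⟩ : ∃ M : ℝ, ∀ n, ‖c n * (r : ℂ) ^ n‖ ≤ M := by
    obtain ⟨M, hM⟩ := (Metric.isBounded_range_of_tendsto _ hsr.tendsto_atTop_zero).exists_norm_le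
    exact ⟨M, fun n => hM _ ⟨n, rfl⟩⟩
  have hgeo : Summable (fun n : ℕ => M * (‖q‖ / r) ^ n) :=
    (summable_geometric_of_lt_one (by positivity) ((div_lt_one hr0).mpr hr1)).mul_left M
  refine Summable.of_nonneg_of_le (fun n => norm_nonneg _) (fun n => ?_) hgeo
  have hMn := hM n
  rw [norm_mul, norm_pow, hrn] at hMn
  rw [norm_mul, norm_pow, div_pow]
  have hrpow : 0 < r ^ n := pow_pos hr0 n
  calc ‖c n‖ * ‖q‖ ^ n = (‖c n‖ * r ^ n) * (‖q‖ ^ n / r ^ n) := by field_simp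
    _ ≤ M * (‖q‖ ^ n / r ^ n) := by
        apply mul_le_mul_of_nonneg_right hMn
        positivity

theorem jqC_coeff_natCast_sub_one (m : ℕ) :
    jqC.coeff ((m : ℤ) - 1) = ((PowerSeries.coeff m jNumQ : ℚ) : ℂ) := by
  rw [jqC, coeffMap_coeff, jq, HahnSeries.coeff_single_mul, one_mul, sub_neg_eq_add,
    sub_add_cancel, HahnSeries.ofPowerSeries_apply_coeff]
  rfl

theorem jqC_coeff_of_lt {n : ℤ} (hn : n < -1) : jqC.coeff n = 0 := by
  rw [jqC, coeffMap_coeff, coeff_jq_of_lt hn, map_zero]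

theorem jqC_coeff_neg_one : jqC.coeff (-1) = 1 := by
  rw [jqC, coeffMap_coeff, coeff_jq_neg_one, map_one]

/-- The `q`-expansion of the analytic `j` is the formal `jq` (level one dictionary). -/
theorem isExp_jFun (hJ : Stmt_JExp) : IsExp 1 helper24.jFun jqC := by
  have hsum : ∀ q : ℂ, q ≠ 0 → ‖q‖ < 1 →
      Summable (fun n : ℕ => ((PowerSeries.coeff n jNumQ : ℚ) : ℂ) * q ^ n) := by
    intro q hq hq1
    obtain ⟨τ, hτ⟩ := exists_tN_eq 1 hq hq1
    have hq' : cexp (2 * π * Complex.I * τ) = q := by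
      rw [← hτ, tN]
      simp
    rw [← hq']
    exact (hJ τ).summable
  intro τ
  have htN : tN 1 τ = cexp (2 * π * Complex.I * τ) := by
    rw [tN]
    simp
  rw [htN]
  have hs := hJ τ
  have hq0 : cexp (2 * π * Complex.I * τ) ≠ 0 := exp_ne_zero _
  have hq1 : ‖cexp (2 * π * Complex.I * τ)‖ < 1 := UpperHalfPlane.norm_exp_two_pi_I_lt_one τ
  generalize cexp (2 * π * Complex.I * τ) = q at hq0 hq1 hs ⊢
  have habs : Summable (fun n : ℕ => ‖((PowerSeries.coeff n jNumQ : ℚ) : ℂ) * q ^ n‖) :=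
    summable_norm_of_summable_ball _ hsum q hq1
  have hinj : Function.Injective (fun m : ℕ => (m : ℤ) - 1) :=
    fun m m' hmm => by simpa using hmm
  have hzero : ∀ n : ℤ, n ∉ Set.range (fun m : ℕ => (m : ℤ) - 1) → jqC.coeff n = 0 := by
    intro n hn
    apply jqC_coeff_of_lt
    by_contra hlt
    rw [not_lt] at hlt
    exact hn ⟨(n + 1).toNat, by
      show (((n + 1).toNat : ℤ)) - 1 = n
      omega⟩
  have hcomp : ∀ m : ℕ, jqC.coeff ((m : ℤ) - 1) * q ^ ((m : ℤ) - 1)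
      = (((PowerSeries.coeff m jNumQ : ℚ) : ℂ) * q ^ m) * q⁻¹ := by
    intro m
    rw [jqC_coeff_natCast_sub_one, zpow_sub₀ hq0, zpow_natCast, zpow_one]
    ring
  constructor
  · refine (hinj.summable_iff (f := fun n : ℤ => ‖jqC.coeff n * q ^ n‖)
      (fun n hn => by rw [hzero n hn]; simp)).mp ?_
    have hfun : ((fun n : ℤ => ‖jqC.coeff n * q ^ n‖) ∘ fun m : ℕ => (m : ℤ) - 1)
        = fun m : ℕ => ‖((PowerSeries.coeff m jNumQ : ℚ) : ℂ) * q ^ m‖ * ‖q⁻¹‖ := by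
      funext m
      simp only [Function.comp]
      rw [hcomp, norm_mul]
    rw [hfun]
    exact habs.mul_right _
  · refine (hinj.hasSum_iff (f := fun n : ℤ => jqC.coeff n * q ^ n)
      (fun n hn => by rw [hzero n hn]; simp)).mp ?_
    have hfun : ((fun n : ℤ => jqC.coeff n * q ^ n) ∘ fun m : ℕ => (m : ℤ) - 1)
        = fun m : ℕ => (((PowerSeries.coeff m jNumQ : ℚ) : ℂ) * q ^ m) * q⁻¹ := by
      funext m
      simp only [Function.comp]
      rw [hcomp]
    rw [hfun]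
    have h3 := hs.mul_right q⁻¹
    rwa [mul_comm q, mul_assoc, mul_inv_cancel₀ hq0, mul_one] at h3

/-- `j` is invariant under `SL(2, ℤ)`. -/
theorem jFun_smul (g : SL(2, ℤ)) (τ : ℍ) : helper24.jFun (g • τ) = helper24.jFun τ := by
  have h4 := congrFun
    (SlashInvariantForm.slash_action_eqn ModularForm.E₄ (g : GL (Fin 2) ℝ) ⟨g, rfl⟩) τ
  have h12 := congrFun (SlashInvariantForm.slash_action_generators_SL2Z
    ModularForm.discriminant_S_invariant ModularForm.discriminant_T_invariant g) τ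
  rw [← ModularForm.SL_slash, ModularForm.SL_slash_apply] at h4
  rw [ModularForm.SL_slash_apply] at h12
  have hd : denom g τ ≠ 0 := denom_ne_zero g τ
  have e4 : ModularForm.E₄ (g • τ) = ModularForm.E₄ τ * denom g τ ^ (4 : ℕ) := by
    rw [← h4, mul_assoc, ← zpow_natCast, ← zpow_add₀ hd]
    norm_num
  have e12 : ModularForm.discriminant (g • τ) = ModularForm.discriminant τ * denom g τ ^ (12 : ℕ) := by
    rw [← h12, mul_assoc, ← zpow_natCast, ← zpow_add₀ hd]
    norm_num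
  have hΔ : ModularForm.discriminant τ ≠ 0 := ModularForm.discriminant_ne_zero τ
  unfold helper24.jFun
  rw [e4, e12]
  field_simp

/-- The point `(a τ + b) / d` of the upper half plane (junk unless `a, d > 0`). -/
def affH (a b d : ℤ) (τ : ℍ) : ℍ := UpperHalfPlane.ofComplex (((a : ℂ) * τ + b) / d)

theorem coe_affH {a b d : ℤ} (ha : 0 < a) (hd : 0 < d) (τ : ℍ) :
    (affH a b d τ : ℂ) = ((a : ℂ) * τ + b) / d := by
  have him : 0 < (((a : ℂ) * τ + b) / d).im := by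
    rw [Complex.div_intCast_im]
    have h1 : ((a : ℂ) * τ + b).im = a * τ.im := by simp
    rw [h1]
    have h2 : (0 : ℝ) < a := by exact_mod_cast ha
    have h3 : (0 : ℝ) < d := by exact_mod_cast hd
    have h4 := τ.im_pos
    positivity
  rw [affH, UpperHalfPlane.ofComplex_apply_of_im_pos him]

theorem affH_one (τ : ℍ) : affH 1 0 1 τ = τ := by
  apply UpperHalfPlane.ext
  rw [coe_affH one_pos one_pos]
  simp

/-- The matrix identity `diag(d, 1) * g = δ * [A, B; 0, D]` on the upper half plane. -/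
theorem affH_smul_eq (δ g : SL(2, ℤ)) (d A B D : ℤ) (hd : 0 < d) (hA : 0 < A) (hD : 0 < D)
    (h00 : δ 0 0 * A = d * g 0 0) (h01 : δ 0 0 * B + δ 0 1 * D = d * g 0 1)
    (h10 : δ 1 0 * A = g 1 0) (h11 : δ 1 0 * B + δ 1 1 * D = g 1 1) (τ : ℍ) :
    affH d 0 1 (g • τ) = δ • affH A B D τ := by
  apply UpperHalfPlane.ext
  rw [coe_affH hd one_pos, UpperHalfPlane.coe_specialLinearGroup_apply,
    UpperHalfPlane.coe_specialLinearGroup_apply, coe_affH hA hD]
  have hDne : (D : ℂ) ≠ 0 := by exact_mod_cast hD.ne'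
  have hden : ((g 1 0 : ℤ) : ℂ) * τ + ((g 1 1 : ℤ) : ℂ) ≠ 0 := by
    have := UpperHalfPlane.denom_ne_zero g τ
    simpa [UpperHalfPlane.denom] using this
  have e00 : ((δ 0 0 : ℤ) : ℂ) * A = d * ((g 0 0 : ℤ) : ℂ) := by exact_mod_cast congrArg (Int.cast : ℤ → ℂ) h00
  have e01 : ((δ 0 0 : ℤ) : ℂ) * B + ((δ 0 1 : ℤ) : ℂ) * D = d * ((g 0 1 : ℤ) : ℂ) := by
    exact_mod_cast congrArg (Int.cast : ℤ → ℂ) h01
  have e10 : ((δ 1 0 : ℤ) : ℂ) * A = ((g 1 0 : ℤ) : ℂ) := by exact_mod_cast congrArg (Int.cast : ℤ → ℂ) h10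
  have e11 : ((δ 1 0 : ℤ) : ℂ) * B + ((δ 1 1 : ℤ) : ℂ) * D = ((g 1 1 : ℤ) : ℂ) := by
    exact_mod_cast congrArg (Int.cast : ℤ → ℂ) h11
  have hden2 : ((δ 1 0 : ℤ) : ℂ) * (((A : ℂ) * τ + B) / D) + ((δ 1 1 : ℤ) : ℂ)
      = (((g 1 0 : ℤ) : ℂ) * τ + ((g 1 1 : ℤ) : ℂ)) / D := by
    field_simp
    linear_combination (τ : ℂ) * e10 + e11
  have hnum2 : ((δ 0 0 : ℤ) : ℂ) * (((A : ℂ) * τ + B) / D) + ((δ 0 1 : ℤ) : ℂ)
      = (d * (((g 0 0 : ℤ) : ℂ) * τ + ((g 0 1 : ℤ) : ℂ))) / D := by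
    field_simp
    linear_combination (τ : ℂ) * e00 + e01
  simp only [algebraMap_int_eq, Int.coe_castRingHom, Complex.ofReal_intCast, Int.cast_zero,
    add_zero, Int.cast_one, div_one]
  rw [hden2, hnum2]
  field_simp

/-- Hermite form: `diag(d, 1) * g = δ * [A, B; 0, D]` with `A = gcd(d, g₁₀)`, `A * D = d`. -/
theorem exists_hermite (g : SL(2, ℤ)) (d : ℤ) (hd : 0 < d) :
    ∃ (A B D : ℤ) (δ : SL(2, ℤ)), 0 < A ∧ 0 < D ∧ A * D = d ∧ A = Int.gcd d (g 1 0) ∧
      ∀ τ : ℍ, affH d 0 1 (g • τ) = δ • affH A B D τ := by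
  have hdet : g 0 0 * g 1 1 - g 0 1 * g 1 0 = 1 := by
    have h := g.det_coe
    rw [Matrix.det_fin_two] at h
    exact h
  obtain ⟨A, hAdef⟩ : ∃ A : ℤ, A = Int.gcd d (g 1 0) := ⟨_, rfl⟩
  have hApos : 0 < A := by
    rw [hAdef]
    exact_mod_cast Int.gcd_pos_of_ne_zero_left _ hd.ne'
  obtain ⟨D, hD⟩ : A ∣ d := hAdef ▸ Int.gcd_dvd_left d (g 1 0)
  obtain ⟨c', hc'⟩ : A ∣ g 1 0 := hAdef ▸ Int.gcd_dvd_right d (g 1 0)
  have hDpos : 0 < D := by
    by_contra hneg
    rw [not_lt] at hneg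
    have : A * D ≤ 0 := mul_nonpos_of_nonneg_of_nonpos hApos.le hneg
    omega
  have hbez : A = d * Int.gcdA d (g 1 0) + g 1 0 * Int.gcdB d (g 1 0) :=
    hAdef ▸ Int.gcd_eq_gcd_ab d (g 1 0)
  generalize Int.gcdA d (g 1 0) = u at hbez
  generalize Int.gcdB d (g 1 0) = v at hbez
  obtain ⟨p, hp⟩ : ∃ p : ℤ, p = u * g 1 1 := ⟨_, rfl⟩
  obtain ⟨q, hq⟩ : ∃ q : ℤ, q = v - u * d * g 0 1 := ⟨_, rfl⟩
  have hpq : p * (D * g 0 0) + q * c' = 1 := by
    have h1 : A * (p * (D * g 0 0) + q * c') = A * 1 := by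
      rw [hp, hq, hD]
      rw [hc'] at hdet
      rw [hD, hc'] at hbez
      linear_combination (u * A * D) * hdet - hbez
    exact mul_left_cancel₀ hApos.ne' h1
  let δ : SL(2, ℤ) := ⟨!![D * g 0 0, -q; c', p], by
    rw [Matrix.det_fin_two_of]
    linarith⟩
  have hδ00 : δ 0 0 = D * g 0 0 := rfl
  have hδ01 : δ 0 1 = -q := rfl
  have hδ10 : δ 1 0 = c' := rfl
  have hδ11 : δ 1 1 = p := rfl
  rw [hc'] at hdet
  refine ⟨A, p * d * g 0 1 + q * g 1 1, D, δ, hApos, hDpos, hD.symm, hAdef,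
    fun τ => affH_smul_eq δ g d A _ D hd hApos hDpos ?_ ?_ ?_ ?_ τ⟩
  · rw [hδ00, hD]
    ring
  · rw [hδ00, hδ01, hD]
    linear_combination (D * A * g 0 1) * hpq + (D * q) * hdet
  · rw [hδ10, hc']
    ring
  · rw [hδ10, hδ11, hD]
    linear_combination (g 1 1) * hpq - (p * D) * hdet

/-- The `t`-expansion of `τ ↦ j((A τ + B) / D)` at level `N`, for `D ∣ N`. -/
theorem isExp_jFun_affH (hJ : IsExp 1 helper24.jFun jqC) (N : ℕ) [NeZero N] (A B D : ℤ)
    (hA : 0 < A) (hD : 0 < D) (m : ℕ) [NeZero m] (hm : (m : ℤ) * D = N * A) :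
    IsExp N (fun τ => helper24.jFun (affH A B D τ))
      (qExpand ℂ m (twist (cexp (2 * π * Complex.I * B / D)) (exp_ne_zero _) jqC)) := by
  intro τ
  refine LSum.qExpand_twist m _ ?_
  have ht : cexp (2 * π * Complex.I * B / D) * tN N τ ^ m = tN 1 (affH A B D τ) := by
    rw [tN, tN, ← Complex.exp_nat_mul, ← Complex.exp_add, coe_affH hA hD]
    congr 1
    have hN : (N : ℂ) ≠ 0 := by exact_mod_cast NeZero.ne N
    have hDne : (D : ℂ) ≠ 0 := by exact_mod_cast hD.ne'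
    have hm' : (m : ℂ) * D = N * A := by exact_mod_cast congrArg (Int.cast : ℤ → ℂ) hm
    simp only [Nat.cast_one, div_one]
    field_simp
    linear_combination (τ : ℂ) * hm'
  rw [ht]
  exact hJ _

/-- The conjugate `τ ↦ j(d · γ⁻¹ τ)` of `τ ↦ j(d τ)`. -/
def jConj (d : ℕ) (γ : SL(2, ℤ)) (τ : ℍ) : ℂ := helper24.jFun (affH d 0 1 (γ⁻¹ • τ))

theorem jConj_one_left (γ : SL(2, ℤ)) (τ : ℍ) : jConj 1 γ τ = helper24.jFun τ := by
  rw [jConj]
  simp only [Nat.cast_one]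
  rw [affH_one, jFun_smul]

theorem jConj_smul (d : ℕ) (γ g : SL(2, ℤ)) (τ : ℍ) :
    jConj d γ (g • τ) = jConj d (g⁻¹ * γ) τ := by
  rw [jConj, jConj, mul_inv_rev, inv_inv, mul_smul]

/-- `τ ↦ j(d · γ⁻¹ τ)` only depends on the coset `γ Γ₀(N)` when `d ∣ N`. -/
theorem jConj_mul_Gamma0 {N d : ℕ} (hd0 : 0 < d) (hd : d ∣ N) (γ γ0 : SL(2, ℤ))
    (h0 : γ0 ∈ CongruenceSubgroup.Gamma0 N) (τ : ℍ) :
    jConj d (γ * γ0) τ = jConj d γ τ := by
  rw [jConj, jConj, mul_inv_rev, mul_smul]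
  have hmem : γ0⁻¹ ∈ CongruenceSubgroup.Gamma0 N := inv_mem h0
  rw [CongruenceSubgroup.Gamma0_mem] at hmem
  generalize γ0⁻¹ = g at hmem
  have hdvd : (d : ℤ) ∣ g 1 0 :=
    (Int.natCast_dvd_natCast.mpr hd).trans ((ZMod.intCast_zmod_eq_zero_iff_dvd _ N).mp hmem)
  obtain ⟨c', hc'⟩ := hdvd
  have hdet : g 0 0 * g 1 1 - g 0 1 * g 1 0 = 1 := by
    have h := g.det_coe
    rw [Matrix.det_fin_two] at h
    exact h
  let δ : SL(2, ℤ) := ⟨!![g 0 0, g 0 1 * d; c', g 1 1], by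
    rw [Matrix.det_fin_two_of]
    rw [hc'] at hdet
    linarith⟩
  have hδ00 : δ 0 0 = g 0 0 := rfl
  have hδ01 : δ 0 1 = g 0 1 * d := rfl
  have hδ10 : δ 1 0 = c' := rfl
  have hδ11 : δ 1 1 = g 1 1 := rfl
  have hdpos : (0 : ℤ) < d := by exact_mod_cast hd0
  rw [affH_smul_eq δ g d d 0 1 hdpos hdpos one_pos (by rw [hδ00]; ring)
    (by rw [hδ00, hδ01]; ring) (by rw [hδ10, hc']; ring) (by rw [hδ10, hδ11]; ring) (γ⁻¹ • τ),
    jFun_smul]

/-- Every conjugate `τ ↦ j(d · γ⁻¹ τ)`, `d ∣ N`, has a `t`-expansion at level `N`. -/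
theorem exists_isExp_jConj (hJ : IsExp 1 helper24.jFun jqC) {N d : ℕ} [NeZero N] (hd : d ∣ N)
    (γ : SL(2, ℤ)) : ∃ E : LaurentSeries ℂ, IsExp N (jConj d γ) E := by
  have hN0 : 0 < N := Nat.pos_of_ne_zero (NeZero.ne N)
  have hd0 : 0 < d := Nat.pos_of_dvd_of_pos hd hN0
  obtain ⟨A, B, D, δ, hA, hD, hAD, -, hδ⟩ := exists_hermite γ⁻¹ d (by exact_mod_cast hd0)
  have hDN : D ∣ (N : ℤ) := (Dvd.intro_left A hAD).trans (Int.natCast_dvd_natCast.mpr hd)
  obtain ⟨L, hL⟩ := hDN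
  have hLpos : 0 < L := by
    by_contra hneg
    rw [not_lt] at hneg
    have h1 : D * L ≤ 0 := mul_nonpos_of_nonneg_of_nonpos hD.le hneg
    have h2 : (0 : ℤ) < N := by exact_mod_cast hN0
    omega
  have hLA : 0 < L * A := mul_pos hLpos hA
  have : NeZero (L * A).toNat := ⟨by omega⟩
  refine ⟨_, (isExp_jFun_affH hJ N A B D hA hD (L * A).toNat ?_).congr_left fun τ => ?_⟩
  · rw [Int.toNat_of_nonneg hLA.le, hL]
    ring
  · rw [jConj, hδ, jFun_smul]

theorem twist_exp_zero (E : LaurentSeries ℂ) :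
    twist (cexp (2 * π * Complex.I * ((0 : ℤ) : ℂ) / ((1 : ℤ) : ℂ))) (exp_ne_zero _) E = E := by
  ext n
  simp

/-- The `t`-expansion at level `N` of `τ ↦ j(d τ)`. -/
theorem isExp_jConj_one (hJ : IsExp 1 helper24.jFun jqC) (N d : ℕ) [NeZero N] [NeZero d] :
    IsExp N (jConj d 1) (qExpand ℂ (N * d) jqC) := by
  have hd0 : (0 : ℤ) < d := by exact_mod_cast Nat.pos_of_ne_zero (NeZero.ne d)
  have h := isExp_jFun_affH hJ N d 0 1 hd0 one_pos (N * d) (by push_cast; ring)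
  rw [twist_exp_zero] at h
  refine h.congr_left fun τ => ?_
  rw [jConj, inv_one, one_smul]

/-- Coset separation: if `j(N · γ⁻¹ τ) = j(N τ)` for all `τ`, then `γ⁻¹ ∈ Γ₀(N)`. -/
theorem mem_Gamma0_of_jConj_eq (hJ : IsExp 1 helper24.jFun jqC) (N : ℕ) [NeZero N]
    (γ : SL(2, ℤ)) (h : ∀ τ, jConj N γ τ = jConj N 1 τ) :
    γ⁻¹ ∈ CongruenceSubgroup.Gamma0 N := by
  have hN0 : 0 < N := Nat.pos_of_ne_zero (NeZero.ne N)
  have hN0' : (0 : ℤ) < N := by exact_mod_cast hN0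
  obtain ⟨A, B, D, δ, hA, hD, hAD, hAgcd, hδ⟩ := exists_hermite γ⁻¹ N hN0'
  have hAA : 0 < A * A := mul_pos hA hA
  have : NeZero (A * A).toNat := ⟨by omega⟩
  have h1 : IsExp N (jConj N γ) (qExpand ℂ (A * A).toNat
      (twist (cexp (2 * π * Complex.I * B / D)) (exp_ne_zero _) jqC)) :=
    (isExp_jFun_affH hJ N A B D hA hD (A * A).toNat (by
      rw [Int.toNat_of_nonneg hAA.le, ← hAD]
      ring)).congr_left fun τ => by rw [jConj, hδ, jFun_smul]
  have h2 : IsExp N (jConj N γ) (qExpand ℂ (N * N) jqC) :=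
    (isExp_jConj_one hJ N N).congr_left fun τ => (h τ).symm
  have heq := h1.unique_right h2
  by_contra hmem
  have hAle : A ≤ N := Int.le_of_dvd hN0' (hAgcd ▸ Int.gcd_dvd_left (N : ℤ) _)
  have hAne : A ≠ N := by
    intro hAN
    apply hmem
    rw [CongruenceSubgroup.Gamma0_mem, ZMod.intCast_zmod_eq_zero_iff_dvd]
    rw [← hAN, hAgcd]
    exact Int.gcd_dvd_right _ _
  have hAlt : A < N := lt_of_le_of_ne hAle hAne
  have hc1 : (qExpand ℂ (N * N) jqC).coeff (-((N : ℤ) * N)) = 1 := by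
    have h3 : (-((N : ℤ) * N)) = ((N * N : ℕ) : ℤ) * (-1) := by
      push_cast
      ring
    rw [h3, qExpand_coeff_mul, jqC_coeff_neg_one]
  have hc2 : (qExpand ℂ (A * A).toNat
      (twist (cexp (2 * π * Complex.I * B / D)) (exp_ne_zero _) jqC)).coeff
        (-((N : ℤ) * N)) = 0 := by
    by_cases hdvd : (((A * A).toNat : ℕ) : ℤ) ∣ (-((N : ℤ) * N))
    · obtain ⟨k, hk⟩ := hdvd
      rw [hk, qExpand_coeff_mul, twist_coeff, jqC_coeff_of_lt, mul_zero]
      rw [Int.toNat_of_nonneg hAA.le] at hk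
      by_contra hk1
      rw [not_lt] at hk1
      nlinarith
    · exact qExpand_coeff_of_not_dvd _ _ hdvd
  rw [heq, hc1] at hc2
  exact one_ne_zero hc2

end

end Fermat.Agent.S24.helper137
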