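import Fermat.Agent.S24.helper3176_FieldAlg
import Fermat.Agent.S24.helper315_CuspExp
import Fermat.Agent.S24.helper1644_AnalyticJ
import Fermat.Agent.S24.helper288_Conj

/-!
# S24, MOD core "EV" (helper144): the analytic model of `A_N = ℚ̄[j(q^d) : d ∣ N]`

Built only on files on main: `helper3176_FieldAlg` (`AN N`, `FN N = Frac (AN N)`),
`helper315_CuspExp` (`cuspExpFun`: injective Laurent expansion at `i∞`),
`helper1644_AnalyticJ` (`hasSum_jNumQ`: the Prelude's `jNumQ` is the `q`-expansion of `q·J`),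
`helper288_Conj`/`helper288_Hermite` (conjugates `J (d (g τ))`: holomorphy, growth,
`Γ₀(N)`-invariance, coset separation).

Main definitions and results:
* `i0 : ℚ̄ →+* ℂ` : a fixed embedding.
* `jD d : ℍ → ℂ`, `jD d τ = J (d τ)` (as `jFn (ofComplex (d * τ))`, the shape of `helper288`).
* `ev N : AN N →+* (ℍ → ℂ)` : the evaluation ring hom, with
  `ev_algebraMap`, `ev_jBarD`, `cuspExpFun_ev : cuspExpFun 1 (ev N a) = coeffMap i0 a`,
  `ev_injective`, and the induction principle `ev_induction`.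
* `mdiff_ev`, `ev_smul_of_mem_Gamma0` (`Γ₀(N)`-invariance), `mem_Gamma0_of_ev_smul` (separation),
  `hasExpGrowth_ev_smul` (growth of conjugates), `mdiff_ev_smul`.
-/

set_option autoImplicit false

open UpperHalfPlane ModularCurve HahnSeries
open scoped MatrixGroups Manifold

noncomputable section

namespace Fermat.Agent.S24.helper144

open Fermat.Agent.S24.helper24 Fermat.Agent.S24.helper315 Fermat.Agent.S24.helper3176

/-- A fixed embedding `ℚ̄ → ℂ`. -/
def i0 : Kbar →+* ℂ :=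
  letI : Algebra ℚ (AlgebraicClosure ℚ) := AlgebraicClosure.instAlgebra ℚ
  haveI : Algebra.IsAlgebraic ℚ (AlgebraicClosure ℚ) := AlgebraicClosure.isAlgebraic ℚ
  (IsAlgClosed.lift (R := ℚ) (S := AlgebraicClosure ℚ) (M := ℂ)).toRingHom

theorem i0_algebraMap (r : ℚ) : i0 (algebraMap ℚ Kbar r) = algebraMap ℚ ℂ r := by
  rw [eq_ratCast, eq_ratCast, map_ratCast]

theorem i0_injective : Function.Injective i0 := i0.injective

theorem coeffMap_i0_coeffEmb (x : LaurentSeries ℚ) :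
    coeffMap i0 (coeffEmb Kbar x) = coeffEmb ℂ x := by
  ext k
  simp

theorem coeffMap_i0_injective : Function.Injective (coeffMap i0) := by
  intro x y h
  ext k
  have := congrArg (fun z : LaurentSeries ℂ => z.coeff k) h
  simp only [coeffMap_coeff] at this
  exact i0_injective this

/-- The function `τ ↦ J (d τ)`. -/
def jD (d : ℕ) (τ : ℍ) : ℂ := helper288.jFn (ofComplex ((d : ℂ) * (τ : ℂ)))

theorem jD_one (τ : ℍ) : jD 1 τ = jFun τ := by
  simp [jD, helper288.jFn, jFun, ofComplex_apply]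

theorem im_mul_pos {d : ℕ} (hd : 0 < d) (τ : ℍ) : 0 < ((d : ℂ) * (τ : ℂ)).im := by
  have h : ((d : ℂ) * (τ : ℂ)).im = (d : ℝ) * τ.im := by
    rw [← Complex.ofReal_natCast, Complex.im_ofReal_mul]; rfl
  rw [h]
  exact mul_pos (by exact_mod_cast hd) τ.im_pos

theorem coe_ofComplex_mul {d : ℕ} (hd : 0 < d) (τ : ℍ) :
    ((ofComplex ((d : ℂ) * (τ : ℂ)) : ℍ) : ℂ) = (d : ℂ) * (τ : ℂ) := by
  rw [ofComplex_apply_of_im_pos (im_mul_pos hd τ)]

theorem mdiff_jD {d : ℕ} (hd : 0 < d) : MDiff (jD d) := by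
  have h := helper288.mdiff_jFn_mul_smul 1 d hd
  show MDiff (fun τ : ℍ => helper288.jFn (ofComplex ((d : ℂ) * (τ : ℂ))))
  simpa using h

theorem hPeriodic_jD {d : ℕ} (hd : 0 < d) : HPeriodic 1 (jD d) := by
  intro τ
  unfold jD
  have e : ofComplex ((d : ℂ) * (((1 : ℝ) +ᵥ τ : ℍ) : ℂ))
      = ModularGroup.T ^ (d : ℤ) • ofComplex ((d : ℂ) * (τ : ℂ)) := by
    apply UpperHalfPlane.ext
    rw [ModularGroup.coe_T_zpow_smul_eq, coe_ofComplex_mul hd τ, coe_ofComplex_mul hd,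
      UpperHalfPlane.coe_vadd]
    push_cast
    ring
  rw [e, helper288.jFn_smul]

/-- Coefficients of the `q`-expansion of `q^d · J (d τ)`. -/
def cJ (d : ℕ) [NeZero d] (n : ℕ) : ℂ :=
  (qExpand ℂ d (coeffEmb ℂ jq)).coeff ((n : ℤ) - (d : ℤ))

theorem cJ_mul (d : ℕ) [NeZero d] (k : ℕ) :
    cJ d (d * k) = ((PowerSeries.coeff k jNumQ : ℚ) : ℂ) := by
  unfold cJ
  have e : (((d * k : ℕ) : ℤ)) - (d : ℤ) = (d : ℤ) * ((k : ℤ) - 1) := by push_cast; ring
  rw [e, qExpand_coeff_mul, coeffEmb_coeff, helper1644.coeff_jq_natCast_sub_one]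
  rfl

theorem cJ_of_not_dvd (d : ℕ) [NeZero d] {n : ℕ} (hn : ¬ d ∣ n) : cJ d n = 0 := by
  unfold cJ
  apply qExpand_coeff_of_not_dvd
  intro h
  apply hn
  have h2 : (d : ℤ) ∣ (n : ℤ) := by
    have := dvd_add h (dvd_refl (d : ℤ))
    simpa using this
  exact Int.natCast_dvd_natCast.mp h2

theorem qH_one_ofComplex_mul {d : ℕ} (hd : 0 < d) (τ : ℍ) :
    Function.Periodic.qParam 1 ((ofComplex ((d : ℂ) * (τ : ℂ)) : ℍ) : ℂ) = qH 1 τ ^ d := by
  rw [coe_ofComplex_mul hd, qH_apply]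
  simp only [Function.Periodic.qParam]
  rw [← Complex.exp_nat_mul]
  congr 1
  push_cast
  ring

/-- `q^d · J (d τ) = ∑ cJ d n · q^n`. -/
theorem hasSum_jD (d : ℕ) [NeZero d] (τ : ℍ) :
    HasSum (fun n : ℕ => cJ d n * qH 1 τ ^ n) (qH 1 τ ^ d * jD d τ) := by
  have hd : 0 < d := Nat.pos_of_ne_zero (NeZero.ne d)
  have h := helper1644.hasSum_jNumQ (ofComplex ((d : ℂ) * (τ : ℂ)))
  rw [qH_one_ofComplex_mul hd] at h
  have hi : Function.Injective (fun k : ℕ => d * k) := fun a b hab =>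
    Nat.eq_of_mul_eq_mul_left hd hab
  have key : HasSum ((fun n : ℕ => cJ d n * qH 1 τ ^ n) ∘ fun k : ℕ => d * k)
      (qH 1 τ ^ d * jD d τ) := by
    have hfun : ((fun n : ℕ => cJ d n * qH 1 τ ^ n) ∘ fun k : ℕ => d * k)
        = fun k : ℕ => ((PowerSeries.coeff k jNumQ : ℚ) : ℂ) * (qH 1 τ ^ d) ^ k := by
      funext k
      simp only [Function.comp_apply, cJ_mul, pow_mul]
    rw [hfun]
    exact h
  refine (hi.hasSum_iff ?_).mp key
  intro n hn
  have hnd : ¬ d ∣ n := fun ⟨k, hk⟩ => hn ⟨k, hk.symm⟩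
  rw [cJ_of_not_dvd d hnd, zero_mul]

/-- A Laurent series with no terms below `-m` is `X^(-m)` times a power series. -/
theorem single_mul_ofPowerSeries_mk (E : LaurentSeries ℂ) (m : ℕ)
    (hE : ∀ k : ℤ, k < -(m : ℤ) → E.coeff k = 0) :
    HahnSeries.single (-(m : ℤ)) (1 : ℂ) *
      HahnSeries.ofPowerSeries ℤ ℂ (PowerSeries.mk fun n : ℕ => E.coeff ((n : ℤ) - (m : ℤ))) = E := by
  ext k
  rw [HahnSeries.coeff_single_mul, one_mul, sub_neg_eq_add]
  by_cases hk : 0 ≤ k + (m : ℤ)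
  · obtain ⟨n, hn⟩ := Int.eq_ofNat_of_zero_le hk
    rw [hn, HahnSeries.ofPowerSeries_apply_coeff, PowerSeries.coeff_mk, ← hn]
    congr 1
    ring
  · push Not at hk
    rw [ofPowerSeries_coeff_of_neg _ hk, hE k (by omega)]

theorem coeffMap_i0_jSeries (d : ℕ) [NeZero d] :
    coeffMap i0 (jSeries d) = qExpand ℂ d (coeffEmb ℂ jq) := by
  rw [jSeries, coeffMap_i0_coeffEmb, coeffEmb_qExpand]

theorem coeff_coeffMap_i0_jSeries_of_lt (d : ℕ) [NeZero d] {k : ℤ} (hk : k < -(d : ℤ)) :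
    (coeffMap i0 (jSeries d)).coeff k = 0 := by
  rw [coeffMap_i0_jSeries]
  by_cases hdk : (d : ℤ) ∣ k
  · obtain ⟨m, rfl⟩ := hdk
    rw [qExpand_coeff_mul, coeffEmb_coeff, coeff_jq_of_lt, map_zero]
    have hd : (0 : ℤ) < (d : ℤ) := by exact_mod_cast Nat.pos_of_ne_zero (NeZero.ne d)
    by_contra hcon
    push Not at hcon
    nlinarith
  · exact qExpand_coeff_of_not_dvd d _ hdk

/-- `J (d τ)` is meromorphic at the cusp, with `q`-expansion the formal series `j(q^d)`. -/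
theorem isCuspHol_jD (d : ℕ) [NeZero d] : IsCuspHol 1 (qH 1 ^ d * jD d) :=
  (cuspExpFun_eq_of_hasSum one_pos (mdiff_jD (Nat.pos_of_ne_zero (NeZero.ne d)))
    (hPeriodic_jD (Nat.pos_of_ne_zero (NeZero.ne d))) (hasSum_jD d)).1

theorem isCuspMer_jD (d : ℕ) [NeZero d] : IsCuspMer 1 (jD d) := ⟨d, isCuspHol_jD d⟩

theorem cuspExpFun_jD (d : ℕ) [NeZero d] : cuspExpFun 1 (jD d) = coeffMap i0 (jSeries d) := by
  rw [(cuspExpFun_eq_of_hasSum one_pos (mdiff_jD (Nat.pos_of_ne_zero (NeZero.ne d)))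
    (hPeriodic_jD (Nat.pos_of_ne_zero (NeZero.ne d))) (hasSum_jD d)).2]
  have h := single_mul_ofPowerSeries_mk (coeffMap i0 (jSeries d)) d
    (fun k hk => coeff_coeffMap_i0_jSeries_of_lt d hk)
  rw [← h]
  congr 3
  funext n
  rw [cJ, coeffMap_i0_jSeries]

/-! ## Uniqueness -/

theorem cuspExpFun_neg' {h : ℝ} (hh : 0 < h) {f : ℍ → ℂ} (hf : IsCuspMer h f) :
    cuspExpFun h (-f) = -cuspExpFun h f := by
  have h1 := cuspExpFun_add hh hf hf.neg
  rw [add_neg_cancel, cuspExpFun_zero hh] at h1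
  exact (neg_eq_of_add_eq_zero_right h1.symm).symm

/-- A function meromorphic at the cusp is determined by its expansion. -/
theorem eq_of_cuspExpFun_eq {h : ℝ} (hh : 0 < h) {f g : ℍ → ℂ} (hf : IsCuspMer h f)
    (hg : IsCuspMer h g) (hfg : cuspExpFun h f = cuspExpFun h g) : f = g := by
  have h1 : cuspExpFun h (f + -g) = 0 := by
    rw [cuspExpFun_add hh hf hg.neg, cuspExpFun_neg' hh hg, hfg, add_neg_cancel]
  have h2 := (cuspExpFun_eq_zero_iff hh (hf.add hh hg.neg)).mp h1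
  exact add_neg_eq_zero.mp h2

/-! ## The evaluation map -/

/-- The coefficientwise embedding `AN N → ℂ((q))`. -/
def valHom (N : ℕ) : AN N →+* LaurentSeries ℂ :=
  (coeffMap i0).comp ((modularFunctionFieldBar N).val.toRingHom.comp (AN N).val.toRingHom)

theorem valHom_apply (N : ℕ) (a : AN N) :
    valHom N a = coeffMap i0 (((a : FN N)) : LaurentSeries Kbar) := rfl

theorem valHom_injective (N : ℕ) : Function.Injective (valHom N) := by
  intro a b h
  apply Subtype.ext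
  apply Subtype.ext
  exact coeffMap_i0_injective h

theorem exists_fun_of_mem_AN (N : ℕ) (x : FN N) (hx : x ∈ AN N) :
    ∃ f : ℍ → ℂ, IsCuspMer 1 f ∧ cuspExpFun 1 f = coeffMap i0 (x : LaurentSeries Kbar) := by
  unfold AN at hx
  induction hx using Algebra.adjoin_induction with
  | mem x hx =>
      obtain ⟨d, hd0, hd, rfl⟩ := hx
      exact ⟨jD d, isCuspMer_jD d, cuspExpFun_jD d⟩
  | algebraMap c =>
      refine ⟨fun _ => i0 c, (IsCuspHol.const 1 _).isCuspMer, ?_⟩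
      rw [cuspExpFun_const one_pos]
      have : ((algebraMap Kbar (FN N) c : FN N) : LaurentSeries Kbar)
          = algebraMap Kbar (LaurentSeries Kbar) c := rfl
      rw [this, algebraMap_laurentSeries_eq_single, coeffMap_single]
      rfl
  | add x y _ _ hx hy =>
      obtain ⟨f, hf, hf'⟩ := hx
      obtain ⟨g, hg, hg'⟩ := hy
      refine ⟨f + g, hf.add one_pos hg, ?_⟩
      rw [cuspExpFun_add one_pos hf hg, hf', hg']
      exact (map_add (coeffMap i0) _ _).symm
  | mul x y _ _ hx hy =>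
      obtain ⟨f, hf, hf'⟩ := hx
      obtain ⟨g, hg, hg'⟩ := hy
      refine ⟨f * g, hf.mul hg, ?_⟩
      rw [cuspExpFun_mul one_pos hf hg, hf', hg']
      exact (map_mul (coeffMap i0) _ _).symm

/-- The holomorphic function on `ℍ` attached to an element of `AN N`. -/
def evFun (N : ℕ) (a : AN N) : ℍ → ℂ := Classical.choose (exists_fun_of_mem_AN N a.1 a.2)

theorem isCuspMer_evFun (N : ℕ) (a : AN N) : IsCuspMer 1 (evFun N a) :=
  (Classical.choose_spec (exists_fun_of_mem_AN N a.1 a.2)).1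

theorem cuspExpFun_evFun (N : ℕ) (a : AN N) : cuspExpFun 1 (evFun N a) = valHom N a :=
  (Classical.choose_spec (exists_fun_of_mem_AN N a.1 a.2)).2

/-- Characterisation of `evFun`. -/
theorem evFun_eq (N : ℕ) (a : AN N) {f : ℍ → ℂ} (hf : IsCuspMer 1 f)
    (h : cuspExpFun 1 f = valHom N a) : evFun N a = f :=
  eq_of_cuspExpFun_eq one_pos (isCuspMer_evFun N a) hf ((cuspExpFun_evFun N a).trans h.symm)

/-- **The evaluation ring hom** `AN N → (ℍ → ℂ)`. -/
def ev (N : ℕ) : AN N →+* (ℍ → ℂ) where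
  toFun := evFun N
  map_one' := evFun_eq N 1 (IsCuspHol.one 1).isCuspMer
    (by rw [cuspExpFun_one one_pos, map_one])
  map_mul' a b := evFun_eq N (a * b) ((isCuspMer_evFun N a).mul (isCuspMer_evFun N b))
    (by rw [cuspExpFun_mul one_pos (isCuspMer_evFun N a) (isCuspMer_evFun N b),
      cuspExpFun_evFun, cuspExpFun_evFun, map_mul])
  map_zero' := evFun_eq N 0 (IsCuspHol.zero 1).isCuspMer
    (by rw [cuspExpFun_zero one_pos, map_zero])
  map_add' a b := evFun_eq N (a + b) ((isCuspMer_evFun N a).add one_pos (isCuspMer_evFun N b))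
    (by rw [cuspExpFun_add one_pos (isCuspMer_evFun N a) (isCuspMer_evFun N b),
      cuspExpFun_evFun, cuspExpFun_evFun, map_add])

theorem ev_apply (N : ℕ) (a : AN N) : ev N a = evFun N a := rfl

theorem isCuspMer_ev (N : ℕ) (a : AN N) : IsCuspMer 1 (ev N a) := isCuspMer_evFun N a

/-- The `q`-expansion of `ev N a` is `a` (with coefficients mapped to `ℂ`). -/
theorem cuspExpFun_ev (N : ℕ) (a : AN N) :
    cuspExpFun 1 (ev N a) = coeffMap i0 ((a : FN N) : LaurentSeries Kbar) :=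
  cuspExpFun_evFun N a

theorem ev_eq (N : ℕ) (a : AN N) {f : ℍ → ℂ} (hf : IsCuspMer 1 f)
    (h : cuspExpFun 1 f = coeffMap i0 ((a : FN N) : LaurentSeries Kbar)) : ev N a = f :=
  evFun_eq N a hf h

theorem ev_injective (N : ℕ) : Function.Injective (ev N) := by
  rw [injective_iff_map_eq_zero]
  intro a ha
  apply valHom_injective N
  rw [map_zero, ← cuspExpFun_evFun, ← ev_apply, ha, cuspExpFun_zero one_pos]

theorem ev_algebraMap (N : ℕ) (c : Kbar) : ev N (algebraMap Kbar (AN N) c) = fun _ => i0 c := by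
  refine ev_eq N _ (IsCuspHol.const 1 _).isCuspMer ?_
  rw [cuspExpFun_const one_pos]
  have : (((algebraMap Kbar (AN N) c : AN N) : FN N) : LaurentSeries Kbar)
      = algebraMap Kbar (LaurentSeries Kbar) c := rfl
  rw [this, algebraMap_laurentSeries_eq_single, coeffMap_single]
  rfl

theorem ev_jBarD (N d : ℕ) [NeZero d] (hd : d ∣ N) :
    ev N ⟨jBarD N d hd, jBarD_mem_AN N d hd⟩ = jD d :=
  ev_eq N _ (isCuspMer_jD d) (cuspExpFun_jD d)

theorem ev_jBar (N : ℕ) : ev N ⟨jBar N, jBar_mem_AN N⟩ = jFun := by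
  have h := ev_jBarD N 1 (one_dvd N)
  have h2 : jD 1 = jFun := funext jD_one
  rw [← h2, ← h]
  rfl

/-- Induction principle: a property of functions which holds for constants and for the
`J (d τ)`, `d ∣ N`, and is stable under sums and products, holds for all `ev N a`. -/
theorem ev_induction (N : ℕ) {P : (ℍ → ℂ) → Prop} (hc : ∀ c : ℂ, P (fun _ => c))
    (hgen : ∀ (d : ℕ) [NeZero d], d ∣ N → P (jD d))
    (hadd : ∀ f g, P f → P g → P (f + g)) (hmul : ∀ f g, P f → P g → P (f * g))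
    (a : AN N) : P (ev N a) := by
  obtain ⟨x, hx⟩ := a
  have key : ∀ (x : FN N) (hx : x ∈ Algebra.adjoin Kbar (genSetF N)),
      P (ev N ⟨x, hx⟩) := by
    intro x hx
    induction hx using Algebra.adjoin_induction with
    | mem x hx =>
        obtain ⟨d, hd0, hd, rfl⟩ := hx
        have := ev_jBarD N d hd
        rw [show (⟨jBarD N d hd, _⟩ : AN N) = ⟨jBarD N d hd, jBarD_mem_AN N d hd⟩ from rfl, this]
        exact hgen d hd
    | algebraMap c =>
        have := ev_algebraMap N c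
        rw [show (⟨algebraMap Kbar (FN N) c, _⟩ : AN N) = algebraMap Kbar (AN N) c from rfl, this]
        exact hc _
    | add x y hx hy hx' hy' =>
        rw [show (⟨x + y, _⟩ : AN N) = ⟨x, hx⟩ + ⟨y, hy⟩ from rfl, map_add]
        exact hadd _ _ hx' hy'
    | mul x y hx hy hx' hy' =>
        rw [show (⟨x * y, _⟩ : AN N) = ⟨x, hx⟩ * ⟨y, hy⟩ from rfl, map_mul]
        exact hmul _ _ hx' hy'
  exact key x hx

/-! ## Properties of `ev` -/

theorem mdiff_ev (N : ℕ) (a : AN N) : MDiff (ev N a) := (isCuspMer_ev N a).mdiff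

/-- `Γ₀(N)`-invariance. -/
theorem ev_smul_of_mem_Gamma0 (N : ℕ) (a : AN N) {γ : SL(2, ℤ)}
    (hγ : γ ∈ CongruenceSubgroup.Gamma0 N) (τ : ℍ) : ev N a (γ • τ) = ev N a τ := by
  revert τ
  refine ev_induction N (P := fun f => ∀ τ : ℍ, f (γ • τ) = f τ) (fun c τ => rfl) ?_ ?_ ?_ a
  · intro d _ hd τ
    exact helper288.jFn_mul_smul_of_mem_Gamma0 N d (Nat.pos_of_ne_zero (NeZero.ne d)) hd γ hγ τ
  · intro f g hf hg τ
    simp only [Pi.add_apply, hf τ, hg τ]
  · intro f g hf hg τ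
    simp only [Pi.mul_apply, hf τ, hg τ]

/-- Separation of cosets (E5). -/
theorem mem_Gamma0_of_ev_smul (N : ℕ) [NeZero N] (g : SL(2, ℤ))
    (h : ∀ (a : AN N) (τ : ℍ), ev N a (g • τ) = ev N a τ) : g ∈ CongruenceSubgroup.Gamma0 N := by
  refine helper288.mem_Gamma0_of_jFn_eq N g fun τ => ?_
  have h1 := h ⟨jBarD N N dvd_rfl, jBarD_mem_AN N N dvd_rfl⟩ τ
  rw [ev_jBarD] at h1
  exact h1

/-- Two-coset form of the separation. -/
theorem mul_inv_mem_Gamma0_of_ev_smul (N : ℕ) [NeZero N] (g g' : SL(2, ℤ))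
    (h : ∀ (a : AN N) (τ : ℍ), ev N a (g • τ) = ev N a (g' • τ)) :
    g * g'⁻¹ ∈ CongruenceSubgroup.Gamma0 N := by
  refine mem_Gamma0_of_ev_smul N _ fun a τ => ?_
  have := h a (g'⁻¹ • τ)
  rwa [← mul_smul, ← mul_smul, mul_inv_cancel, one_smul] at this

/-- Conjugates are holomorphic. -/
theorem mdiff_ev_smul (N : ℕ) (a : AN N) (g : SL(2, ℤ)) : MDiff (fun τ : ℍ => ev N a (g • τ)) := by
  refine ev_induction N (P := fun f => MDiff (fun τ : ℍ => f (g • τ)))
    (fun c => mdifferentiable_const) ?_ ?_ ?_ a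
  · intro d _ hd
    exact helper288.mdiff_jFn_mul_smul g d (Nat.pos_of_ne_zero (NeZero.ne d))
  · intro f₁ f₂ hf hg
    exact hf.add hg
  · intro f₁ f₂ hf hg
    exact hf.mul hg

/-- Conjugates have at most exponential growth at `i∞` (uniformly on `im τ ≥ 1`). -/
theorem hasExpGrowth_ev_smul (N : ℕ) (a : AN N) (g : SL(2, ℤ)) :
    helper167.HasExpGrowth (fun τ : ℍ => ev N a (g • τ)) := by
  refine ev_induction N (P := fun f => helper167.HasExpGrowth (fun τ : ℍ => f (g • τ)))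
    (fun c => helper167.hasExpGrowth_const c) ?_ ?_ ?_ a
  · intro d _ hd
    exact helper288.hasExpGrowth_jFn_mul_smul g d (Nat.pos_of_ne_zero (NeZero.ne d))
  · intro f₁ f₂ hf hg
    exact hf.add hg
  · intro f₁ f₂ hf hg
    exact hf.mul hg

/-- Every element of the function field is a quotient of two elements of `AN N`
(restatement of `helper3176.exists_div_AN`). -/
theorem exists_div (N : ℕ) (z : FN N) :
    ∃ a b : AN N, (b : FN N) ≠ 0 ∧ z = (a : FN N) / (b : FN N) := exists_div_AN N z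

/-- **EV package**, in the neutral shape used by the finite-point and cusp verticals:
a subalgebra `A` of `FN N` with fraction field `FN N` and a ring hom `ev : A →+* (ℍ → ℂ)` which is
holomorphic-valued, sends constants to constants (through `i0`), is injective, sends `j` to the
analytic `jFun`, is `Γ₀(N)`-invariant and separates the cosets of `Γ₀(N)`. -/
theorem stmt_Ev (N : ℕ) [NeZero N] :
    ∃ (i : Kbar →+* ℂ) (A : Subalgebra Kbar (FN N)) (e : A →+* (ℍ → ℂ)),
      (∀ z : FN N, ∃ a b : A, (b : FN N) ≠ 0 ∧ z = (a : FN N) / (b : FN N)) ∧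
      (∀ a : A, MDiff (e a)) ∧
      (∀ c : Kbar, e (algebraMap Kbar A c) = fun _ => i c) ∧
      (∀ a : A, e a = 0 → a = 0) ∧
      (∃ h : jBar N ∈ A, e ⟨jBar N, h⟩ = jFun) ∧
      (∀ (a : A) (γ : SL(2, ℤ)), γ ∈ CongruenceSubgroup.Gamma0 N → ∀ τ : ℍ, e a (γ • τ) = e a τ) ∧
      (∀ g : SL(2, ℤ), (∀ (a : A) (τ : ℍ), e a (g • τ) = e a τ) →
        g ∈ CongruenceSubgroup.Gamma0 N) ∧
      (∀ (a : A) (g : SL(2, ℤ)), MDiff (fun τ : ℍ => e a (g • τ))) ∧
      (∀ (a : A) (g : SL(2, ℤ)), helper167.HasExpGrowth (fun τ : ℍ => e a (g • τ))) :=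
  ⟨i0, AN N, ev N, exists_div_AN N, mdiff_ev N, ev_algebraMap N,
    fun a ha => (ev_injective N) (by rw [ha, map_zero]),
    ⟨jBar_mem_AN N, ev_jBar N⟩, fun a γ hγ τ => ev_smul_of_mem_Gamma0 N a hγ τ,
    mem_Gamma0_of_ev_smul N, mdiff_ev_smul N, hasExpGrowth_ev_smul N⟩

end Fermat.Agent.S24.helper144
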