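import Mathlib

/-!
# S24, module MOD-U, file 1: pointwise evaluation of complex Laurent series

`LSum z E a` says that the Laurent series `E` converges at the point `z` with sum `a`.
The relation is compatible with the ring operations (for `z ≠ 0`), a Laurent series that
sums to zero on a punctured disc is zero, and the coefficient twist `coeff k ↦ ε ^ k * coeff k`
is an automorphism of `LaurentSeries ℂ` preserving the order.
-/

set_option autoImplicit false

open HahnSeries

namespace Fermat.Agent.S24.helper77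

/-- The Laurent series `E` converges at `z` with sum `a`. -/
def LSum (z : ℂ) (E : LaurentSeries ℂ) (a : ℂ) : Prop :=
  HasSum (fun k : ℤ => E.coeff k * z ^ k) a

theorem LSum.unique_val {z : ℂ} {E : LaurentSeries ℂ} {a b : ℂ} (h : LSum z E a)
    (h' : LSum z E b) : a = b :=
  HasSum.unique h h'

theorem LSum.zero (z : ℂ) : LSum z 0 0 := by
  unfold LSum
  simp [hasSum_zero]

theorem LSum.single (z : ℂ) (k : ℤ) (c : ℂ) : LSum z (HahnSeries.single k c) (c * z ^ k) := by
  unfold LSum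
  have h := hasSum_single (f := fun j : ℤ => (HahnSeries.single k c).coeff j * z ^ j) k
    (fun j hj => by simp [HahnSeries.coeff_single_of_ne hj])
  simpa using h

theorem LSum.C (z : ℂ) (c : ℂ) : LSum z (HahnSeries.C c) c := by
  have h := LSum.single z 0 c
  simpa using h

theorem LSum.one (z : ℂ) : LSum z 1 1 := by
  have h := LSum.C z 1
  simpa using h

theorem LSum.add {z : ℂ} {E E' : LaurentSeries ℂ} {a b : ℂ} (h : LSum z E a)
    (h' : LSum z E' b) : LSum z (E + E') (a + b) := by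
  unfold LSum at *
  have h2 := h.add h'
  have h3 : (fun k : ℤ => (E + E').coeff k * z ^ k)
      = fun k : ℤ => E.coeff k * z ^ k + E'.coeff k * z ^ k := by
    funext k
    simp [add_mul]
  rw [h3]
  exact h2

theorem LSum.neg {z : ℂ} {E : LaurentSeries ℂ} {a : ℂ} (h : LSum z E a) :
    LSum z (-E) (-a) := by
  unfold LSum at *
  have h2 := h.neg
  have h3 : (fun k : ℤ => (-E).coeff k * z ^ k) = fun k : ℤ => -(E.coeff k * z ^ k) := by
    funext k
    simp
  rw [h3]
  exact h2

theorem LSum.sub {z : ℂ} {E E' : LaurentSeries ℂ} {a b : ℂ} (h : LSum z E a)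
    (h' : LSum z E' b) : LSum z (E - E') (a - b) := by
  rw [sub_eq_add_neg, sub_eq_add_neg]
  exact h.add h'.neg

/-- Finite convolution: the coefficient of a product as a (finitely supported) sum over `ℤ`. -/
theorem hasSum_coeff_mul (E E' : LaurentSeries ℂ) (n : ℤ) :
    HasSum (fun k : ℤ => E.coeff k * E'.coeff (n - k)) ((E * E').coeff n) := by
  classical
  rw [HahnSeries.coeff_mul]
  set s := Finset.antidiagonal E.isPWO_support E'.isPWO_support n with hs
  have h1 : ∀ k ∉ s.image Prod.fst, E.coeff k * E'.coeff (n - k) = 0 := by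
    intro k hk
    by_contra hne
    apply hk
    rw [Finset.mem_image]
    refine ⟨(k, n - k), ?_, rfl⟩
    rw [hs, Finset.mem_antidiagonal]
    refine ⟨?_, ?_, by simp⟩
    · simp only [HahnSeries.mem_support]
      intro h0
      exact hne (by rw [h0, zero_mul])
    · simp only [HahnSeries.mem_support]
      intro h0
      exact hne (by rw [h0, mul_zero])
  have h2 := hasSum_sum_of_ne_finset_zero (L := SummationFilter.unconditional ℤ)
    (f := fun k : ℤ => E.coeff k * E'.coeff (n - k)) h1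
  have h3 : ∑ b ∈ s.image Prod.fst, E.coeff b * E'.coeff (n - b)
      = ∑ ij ∈ s, E.coeff ij.1 * E'.coeff ij.2 := by
    rw [Finset.sum_image]
    · refine Finset.sum_congr rfl ?_
      intro ij hij
      rw [hs, Finset.mem_antidiagonal] at hij
      have : n - ij.1 = ij.2 := by omega
      rw [this]
    · intro x hx y hy hxy
      have hx' := hx
      have hy' := hy
      simp only [hs, Finset.mem_coe, Finset.mem_antidiagonal] at hx' hy'
      refine Prod.ext hxy ?_
      have h1 := hx'.2.2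
      have h2 := hy'.2.2
      omega
  rw [← h3]
  exact h2

/-- Cauchy product of two absolutely summable families indexed by `ℤ`, regrouped. -/
theorem hasSum_int_prod_regroup {f g : ℤ → ℂ} {a b : ℂ} (h : HasSum f a) (h' : HasSum g b) :
    HasSum (fun p : ℤ × ℤ => f p.2 * g (p.1 - p.2)) (a * b) := by
  have hn : Summable fun k : ℤ => ‖f k‖ := h.summable.norm
  have hn' : Summable fun k : ℤ => ‖g k‖ := h'.summable.norm
  have hprod := HasSum.mul h h' (summable_mul_of_summable_norm hn hn')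
  let e : ℤ × ℤ ≃ ℤ × ℤ :=
    { toFun := fun p => (p.2, p.1 - p.2)
      invFun := fun p => (p.1 + p.2, p.1)
      left_inv := fun p => by ext <;> simp
      right_inv := fun p => by ext <;> simp }
  exact (e.hasSum_iff (f := fun x : ℤ × ℤ => f x.1 * g x.2) (a := a * b)).mpr hprod

theorem LSum.mul {z : ℂ} (hz : z ≠ 0) {E E' : LaurentSeries ℂ} {a b : ℂ} (h : LSum z E a)
    (h' : LSum z E' b) : LSum z (E * E') (a * b) := by
  unfold LSum at *
  have hprod' := hasSum_int_prod_regroup h h'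
  refine HasSum.prod_fiberwise hprod' ?_
  intro n
  have h4 := (hasSum_coeff_mul E E' n).mul_right (z ^ n)
  have h5 : (fun k : ℤ => E.coeff k * E'.coeff (n - k) * z ^ n)
      = fun k : ℤ => E.coeff k * z ^ k * (E'.coeff (n - k) * z ^ (n - k)) := by
    funext k
    have : z ^ n = z ^ k * z ^ (n - k) := by
      rw [← zpow_add₀ hz]
      congr 1
      ring
    rw [this]
    ring
  rw [h5] at h4
  exact h4

theorem LSum.pow {z : ℂ} (hz : z ≠ 0) {E : LaurentSeries ℂ} {a : ℂ} (h : LSum z E a) (n : ℕ) :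
    LSum z (E ^ n) (a ^ n) := by
  induction n with
  | zero => simpa using LSum.one z
  | succ n ih =>
    rw [pow_succ, pow_succ]
    exact ih.mul hz h

/-- Shift to a power series: if `E ≠ 0` has order `o` then `∑ E_{o+n} z^n = z^{-o} a`. -/
theorem LSum.hasSum_nat {z : ℂ} (hz : z ≠ 0) {E : LaurentSeries ℂ} {a : ℂ} (h : LSum z E a)
    (o : ℤ) (ho : ∀ k < o, E.coeff k = 0) :
    HasSum (fun n : ℕ => E.coeff (o + n) * z ^ n) (a * z ^ (-o)) := by
  unfold LSum at h
  have h1 := h.mul_right (z ^ (-o))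
  have hinj : Function.Injective (fun n : ℕ => o + (n : ℤ)) := by
    intro m n hmn
    simpa using hmn
  have h2 := (hinj.hasSum_iff (f := fun k : ℤ => E.coeff k * z ^ k * z ^ (-o))
    (a := a * z ^ (-o)) ?_).mpr h1
  · have h3 : ((fun k : ℤ => E.coeff k * z ^ k * z ^ (-o)) ∘ fun n : ℕ => o + (n : ℤ))
        = fun n : ℕ => E.coeff (o + n) * z ^ n := by
      funext n
      simp only [Function.comp_apply]
      rw [mul_assoc, ← zpow_add₀ hz, show o + (n : ℤ) + -o = (n : ℤ) by ring, zpow_natCast]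
    rw [h3] at h2
    exact h2
  · intro k hk
    have hlt : k < o := by
      by_contra hge
      apply hk
      refine ⟨(k - o).toNat, ?_⟩
      simp only
      omega
    rw [ho k hlt]
    simp

/-- Identity principle: a Laurent series summing to `0` on a punctured disc is `0`. -/
theorem eq_zero_of_forall_LSum {E : LaurentSeries ℂ} {r : ℝ} (hr : 0 < r)
    (h : ∀ z : ℂ, z ≠ 0 → ‖z‖ < r → LSum z E 0) : E = 0 := by
  by_contra hE
  set o := E.order with ho
  have ho' : ∀ k < o, E.coeff k = 0 := fun k hk => HahnSeries.coeff_eq_zero_of_lt_order hk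
  have hc0 : E.coeff o ≠ 0 := fun h0 => hE (HahnSeries.coeff_order_eq_zero.mp h0)
  set c : ℕ → ℂ := fun n => E.coeff (o + n) with hc
  have hsum : ∀ z : ℂ, z ≠ 0 → ‖z‖ < r → HasSum (fun n : ℕ => c n * z ^ n) 0 := by
    intro z hz hzr
    have := (h z hz hzr).hasSum_nat hz o ho'
    simpa using this
  set ρ : ℝ := r / 2 with hρ
  have hρ0 : 0 < ρ := by positivity
  have hρr : ρ < r := by rw [hρ]; linarith
  have hρne : (ρ : ℂ) ≠ 0 := by exact_mod_cast hρ0.ne'
  have hnormρ : ‖(ρ : ℂ)‖ = ρ := by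
    rw [Complex.norm_real, Real.norm_of_nonneg hρ0.le]
  have hsummable : Summable fun n : ℕ => ‖c n‖ * ρ ^ n := by
    have h1 := (hsum (ρ : ℂ) hρne (by rw [hnormρ]; exact hρr)).summable.norm
    refine h1.congr ?_
    intro n
    rw [norm_mul, norm_pow, hnormρ]
  have hsummable' : Summable fun n : ℕ => ‖c (n + 1)‖ * ρ ^ (n + 1) :=
    (summable_nat_add_iff 1).mpr hsummable
  set S := ∑' n : ℕ, ‖c (n + 1)‖ * ρ ^ (n + 1) with hS
  have hbound : ∀ t : ℝ, 0 < t → t ≤ 1 → ‖c 0‖ ≤ t * S := by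
    intro t ht0 ht1
    have hz : ((ρ * t : ℝ) : ℂ) ≠ 0 := by
      have : ρ * t ≠ 0 := (mul_pos hρ0 ht0).ne'
      exact_mod_cast this
    have hnz : ‖((ρ * t : ℝ) : ℂ)‖ = ρ * t := by
      rw [Complex.norm_real, Real.norm_of_nonneg (mul_pos hρ0 ht0).le]
    have hzr : ‖((ρ * t : ℝ) : ℂ)‖ < r := by
      rw [hnz]
      calc ρ * t ≤ ρ * 1 := by gcongr
        _ < r := by rw [mul_one]; exact hρr
    have h1 := hsum _ hz hzr
    have h2 := (hasSum_nat_add_iff' (f := fun n : ℕ => c n * ((ρ * t : ℝ) : ℂ) ^ n) 1).mpr h1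
    simp only [Finset.range_one, Finset.sum_singleton, pow_zero, mul_one, zero_sub] at h2
    have h3 : HasSum (fun n : ℕ => t * (‖c (n + 1)‖ * ρ ^ (n + 1))) (t * S) :=
      hsummable'.hasSum.mul_left t
    have h4 := h2.norm_le_of_bounded h3 ?_
    · rwa [norm_neg] at h4
    · intro n
      rw [norm_mul, norm_pow, hnz]
      have : (ρ * t) ^ (n + 1) ≤ t * ρ ^ (n + 1) := by
        rw [mul_pow]
        have : t ^ (n + 1) ≤ t := by
          calc t ^ (n + 1) ≤ t ^ 1 := pow_le_pow_of_le_one ht0.le ht1 (by omega)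
            _ = t := pow_one t
        calc ρ ^ (n + 1) * t ^ (n + 1) ≤ ρ ^ (n + 1) * t := by gcongr
          _ = t * ρ ^ (n + 1) := by ring
      calc ‖c (n + 1)‖ * (ρ * t) ^ (n + 1) ≤ ‖c (n + 1)‖ * (t * ρ ^ (n + 1)) := by gcongr
        _ = t * (‖c (n + 1)‖ * ρ ^ (n + 1)) := by ring
  have hc0' : 0 < ‖c 0‖ := by
    rw [norm_pos_iff]
    simpa [hc] using hc0
  have hSpos : 0 < S := by
    have := hbound 1 one_pos le_rfl
    linarith
  have hS1 := hbound (min 1 (‖c 0‖ / (2 * S))) (lt_min one_pos (by positivity)) (min_le_left _ _)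
  have hS2 : min 1 (‖c 0‖ / (2 * S)) * S ≤ ‖c 0‖ / (2 * S) * S := by
    gcongr
    exact min_le_right _ _
  have hS3 : ‖c 0‖ / (2 * S) * S = ‖c 0‖ / 2 := by
    field_simp
  linarith

/-- Coefficient twist `coeff k ↦ ε ^ k * coeff k` (substitution `X ↦ ε X`). -/
noncomputable def twistFun (ε : ℂ) (E : LaurentSeries ℂ) : LaurentSeries ℂ where
  coeff k := ε ^ k * E.coeff k
  isPWO_support' := E.isPWO_support.mono (fun k hk => by
    simp only [Function.mem_support, ne_eq, mul_eq_zero, not_or] at hk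
    exact hk.2)

@[simp]
theorem twistFun_coeff (ε : ℂ) (E : LaurentSeries ℂ) (k : ℤ) :
    (twistFun ε E).coeff k = ε ^ k * E.coeff k := rfl

theorem twistFun_one (E : LaurentSeries ℂ) : twistFun 1 E = E := by
  ext k
  simp

theorem twistFun_twistFun (ε ε' : ℂ) (E : LaurentSeries ℂ) :
    twistFun ε (twistFun ε' E) = twistFun (ε * ε') E := by
  ext k
  simp [mul_zpow, mul_assoc]

theorem twistFun_zero (ε : ℂ) : twistFun ε 0 = 0 := by
  ext k
  simp

theorem twistFun_add (ε : ℂ) (E E' : LaurentSeries ℂ) :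
    twistFun ε (E + E') = twistFun ε E + twistFun ε E' := by
  ext k
  simp [mul_add]

theorem twistFun_single (ε : ℂ) (k : ℤ) (c : ℂ) :
    twistFun ε (HahnSeries.single k c) = HahnSeries.single k (ε ^ k * c) := by
  ext j
  rcases eq_or_ne j k with rfl | hj
  · simp
  · simp [HahnSeries.coeff_single_of_ne hj]

theorem twistFun_C (ε : ℂ) (c : ℂ) : twistFun ε (HahnSeries.C c) = HahnSeries.C c := by
  rw [HahnSeries.C_apply, twistFun_single]
  simp

theorem twistFun_one' (ε : ℂ) : twistFun ε 1 = 1 := by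
  have h := twistFun_C ε 1
  simpa using h

theorem twistFun_mul {ε : ℂ} (hε : ε ≠ 0) (E E' : LaurentSeries ℂ) :
    twistFun ε (E * E') = twistFun ε E * twistFun ε E' := by
  ext n
  have h1 := (hasSum_coeff_mul E E' n).mul_left (ε ^ n)
  have h2 := hasSum_coeff_mul (twistFun ε E) (twistFun ε E') n
  have h3 : (fun k : ℤ => (twistFun ε E).coeff k * (twistFun ε E').coeff (n - k))
      = fun k : ℤ => ε ^ n * (E.coeff k * E'.coeff (n - k)) := by
    funext k
    simp only [twistFun_coeff]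
    have : ε ^ n = ε ^ k * ε ^ (n - k) := by
      rw [← zpow_add₀ hε]
      congr 1
      ring
    rw [this]
    ring
  rw [h3] at h2
  rw [twistFun_coeff]
  exact h1.unique h2

/-- The twist as a ring automorphism of `LaurentSeries ℂ`. -/
noncomputable def twist (ε : ℂ) (hε : ε ≠ 0) : LaurentSeries ℂ ≃+* LaurentSeries ℂ where
  toFun := twistFun ε
  invFun := twistFun ε⁻¹
  left_inv E := by rw [twistFun_twistFun, inv_mul_cancel₀ hε, twistFun_one]
  right_inv E := by rw [twistFun_twistFun, mul_inv_cancel₀ hε, twistFun_one]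
  map_mul' := twistFun_mul hε
  map_add' := twistFun_add ε

@[simp]
theorem twist_apply (ε : ℂ) (hε : ε ≠ 0) (E : LaurentSeries ℂ) :
    twist ε hε E = twistFun ε E := rfl

theorem LSum.twist_iff {ε z : ℂ} {E : LaurentSeries ℂ} {a : ℂ} :
    LSum z (twistFun ε E) a ↔ LSum (ε * z) E a := by
  unfold LSum
  have h : (fun k : ℤ => (twistFun ε E).coeff k * z ^ k) = fun k : ℤ => E.coeff k * (ε * z) ^ k := by
    funext k
    rw [twistFun_coeff, mul_zpow]
    ring
  rw [h]

theorem twistFun_eq_zero_iff {ε : ℂ} (hε : ε ≠ 0) {E : LaurentSeries ℂ} :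
    twistFun ε E = 0 ↔ E = 0 := by
  constructor
  · intro h
    have := congrArg (twistFun ε⁻¹) h
    rwa [twistFun_twistFun, inv_mul_cancel₀ hε, twistFun_one, twistFun_zero] at this
  · rintro rfl
    exact twistFun_zero ε

theorem orderTop_twistFun {ε : ℂ} (hε : ε ≠ 0) (E : LaurentSeries ℂ) :
    (twistFun ε E).orderTop = E.orderTop := by
  have key : ∀ (δ : ℂ) (_ : δ ≠ 0) (G : LaurentSeries ℂ), (twistFun δ G).orderTop ≤ G.orderTop := by
    intro δ hδ G
    by_cases hG : G = 0
    · rw [hG, twistFun_zero]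
    · have h1 : G.coeff G.order ≠ 0 := fun h0 => hG (HahnSeries.coeff_order_eq_zero.mp h0)
      have h2 : (twistFun δ G).coeff G.order ≠ 0 := by
        rw [twistFun_coeff]
        exact mul_ne_zero (zpow_ne_zero _ hδ) h1
      rw [← HahnSeries.order_eq_orderTop_of_ne_zero hG]
      exact HahnSeries.orderTop_le_of_coeff_ne_zero h2
  refine le_antisymm (key ε hε E) ?_
  have := key ε⁻¹ (inv_ne_zero hε) (twistFun ε E)
  rwa [twistFun_twistFun, inv_mul_cancel₀ hε, twistFun_one] at this

theorem addVal_twistFun {ε : ℂ} (hε : ε ≠ 0) (E : LaurentSeries ℂ) :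
    HahnSeries.addVal ℤ ℂ (twistFun ε E) = HahnSeries.addVal ℤ ℂ E := by
  rw [HahnSeries.addVal_apply, HahnSeries.addVal_apply, orderTop_twistFun hε]

/-- The formal divisibility lemma ("hdiv"): a nonzero Laurent series fixed by the twist by
`ε ^ k`, `ε` a primitive `m`-th root of unity, has order divisible by `m / gcd k m`. -/
theorem addVal_eq_of_twistFun_pow_eq {ε : ℂ} {m : ℕ} (hε : IsPrimitiveRoot ε m) (hm : 0 < m)
    (k : ℕ) {z : LaurentSeries ℂ} (hz : z ≠ 0) (hfix : twistFun (ε ^ k) z = z) :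
    ∃ l : ℤ, HahnSeries.addVal ℤ ℂ z = (((m / Nat.gcd k m : ℕ) * l : ℤ) : WithTop ℤ) := by
  have h1 : z.coeff z.order ≠ 0 := fun h0 => hz (HahnSeries.coeff_order_eq_zero.mp h0)
  have h2 := congrArg (fun E : LaurentSeries ℂ => E.coeff z.order) hfix
  simp only [twistFun_coeff] at h2
  have h3 : (ε ^ k) ^ z.order = 1 := by
    have := mul_right_cancel₀ h1 (h2.trans (one_mul _).symm)
    exact this
  have h4 : ε ^ ((k : ℤ) * z.order) = 1 := by
    rw [zpow_mul, zpow_natCast]
    exact h3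
  have h5 : (m : ℤ) ∣ (k : ℤ) * z.order := (hε.zpow_eq_one_iff_dvd _).mp h4
  have hg : 0 < Nat.gcd k m := Nat.gcd_pos_of_pos_right k hm
  have hcop : Nat.Coprime (m / Nat.gcd k m) (k / Nat.gcd k m) := by
    have := Nat.coprime_div_gcd_div_gcd hg
    exact this.symm
  have hm' : (m : ℤ) = ((m / Nat.gcd k m : ℕ) : ℤ) * (Nat.gcd k m : ℤ) := by
    exact_mod_cast (Nat.div_mul_cancel (Nat.gcd_dvd_right k m)).symm
  have hk' : (k : ℤ) = ((k / Nat.gcd k m : ℕ) : ℤ) * (Nat.gcd k m : ℤ) := by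
    exact_mod_cast (Nat.div_mul_cancel (Nat.gcd_dvd_left k m)).symm
  have h6 : ((m / Nat.gcd k m : ℕ) : ℤ) ∣ ((k / Nat.gcd k m : ℕ) : ℤ) * z.order := by
    obtain ⟨t, ht⟩ := h5
    refine ⟨t, ?_⟩
    have hg' : (Nat.gcd k m : ℤ) ≠ 0 := by exact_mod_cast hg.ne'
    apply mul_left_cancel₀ hg'
    calc (Nat.gcd k m : ℤ) * (((k / Nat.gcd k m : ℕ) : ℤ) * z.order)
        = (((k / Nat.gcd k m : ℕ) : ℤ) * (Nat.gcd k m : ℤ)) * z.order := by ring
      _ = (k : ℤ) * z.order := by rw [← hk']
      _ = (m : ℤ) * t := ht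
      _ = (((m / Nat.gcd k m : ℕ) : ℤ) * (Nat.gcd k m : ℤ)) * t := by rw [← hm']
      _ = (Nat.gcd k m : ℤ) * (((m / Nat.gcd k m : ℕ) : ℤ) * t) := by ring
  have h7 : ((m / Nat.gcd k m : ℕ) : ℤ) ∣ z.order := by
    have hcop' : IsCoprime ((m / Nat.gcd k m : ℕ) : ℤ) ((k / Nat.gcd k m : ℕ) : ℤ) :=
      Nat.isCoprime_iff_coprime.mpr hcop
    exact hcop'.dvd_of_dvd_mul_left h6
  obtain ⟨l, hl⟩ := h7
  refine ⟨l, ?_⟩
  rw [HahnSeries.addVal_apply_of_ne hz, hl]

end Fermat.Agent.S24.helper77
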