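import Fermat.Agent.S24.helper24_Spec
import Fermat.Agent.S24.helper77_LaurentDict
import Fermat.Agent.S24.helper1644_AnalyticJ
import Fermat.Agent.S24.helper3176_FieldAlg
import Fermat.Agent.S24.helper144_Hermite

/-!
# S24, module EV (helper1464): the analytic model of `A_N = ℚ̄[j(q^d) : d ∣ N]`

Built on the landed dictionary `helper77.LSum` (pointwise convergence of complex Laurent series),
`helper1644.hasSum_jq` (the formal `jq` is the `q`-expansion of the analytic `j`),
`helper3176.AN` (the subalgebra `A_N` with fraction field `F_N`) and `helper144` (H5, E5).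

* `convRing : Subring (LaurentSeries ℂ)` : Laurent series converging on the punctured unit disc;
  `evC : convRing →+* (ℍ → ℂ)`, `E ↦ (τ ↦ ∑ E_k q(τ)^k)`, an injective ring hom (`evC_eq_zero`).
* `jC d = j(q^d)` with complex coefficients lies in `convRing` and `evC (jC d) τ = jFun (d τ)`.
* `ev i0 N : AN N →+* (ℍ → ℂ)` for any `i0 : ℚ̄ →+* ℂ`, with holomorphy, values on constants,
  injectivity, `ev (j(q^d)) τ = jFun (d τ)`, `Γ₀(N)`-invariance and coset separation.
* `stmt_Ev : Stmt_Ev` : the existential package (the "ev datum" / "analytic model").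
-/

set_option autoImplicit false

open ModularCurve UpperHalfPlane CongruenceSubgroup
open scoped MatrixGroups Manifold

namespace Fermat.Agent.S24.helper1464

open Fermat.Agent.S24.helper24 Fermat.Agent.S24.helper77

noncomputable section

/-! ### The nome -/

/-- The nome `q = exp(2πiτ)`. -/
def qq (τ : ℍ) : ℂ := Function.Periodic.qParam 1 (τ : ℂ)

lemma qq_ne_zero (τ : ℍ) : qq τ ≠ 0 := Function.Periodic.qParam_ne_zero _

lemma norm_qq_lt_one (τ : ℍ) : ‖qq τ‖ < 1 :=
  Function.Periodic.norm_qParam_lt_one one_pos τ.im_pos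

lemma exists_qq_eq {z : ℂ} (hz0 : z ≠ 0) (hz1 : ‖z‖ < 1) : ∃ τ : ℍ, qq τ = z := by
  have him := Function.Periodic.im_invQParam_pos_of_norm_lt_one one_pos hz1 hz0
  refine ⟨⟨Function.Periodic.invQParam 1 z, him⟩, ?_⟩
  exact Function.Periodic.qParam_right_inv one_ne_zero hz0

/-- The point `d τ` of the upper half plane. -/
def scale (d : ℕ) [NeZero d] (τ : ℍ) : ℍ :=
  ⟨(d : ℂ) * (τ : ℂ), by
    have hd : (0 : ℝ) < (d : ℝ) := by exact_mod_cast Nat.pos_of_ne_zero (NeZero.ne d)
    have : ((d : ℂ) * (τ : ℂ)).im = (d : ℝ) * τ.im := by simp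
    rw [this]
    exact mul_pos hd τ.im_pos⟩

@[simp] lemma coe_scale (d : ℕ) [NeZero d] (τ : ℍ) : ((scale d τ : ℍ) : ℂ) = (d : ℂ) * (τ : ℂ) :=
  rfl

lemma qq_pow_eq {d : ℕ} {τ σ : ℍ} (h : (σ : ℂ) = (d : ℂ) * (τ : ℂ)) : qq τ ^ d = qq σ := by
  unfold qq Function.Periodic.qParam
  rw [h, ← Complex.exp_nat_mul]
  congr 1
  push_cast
  ring

/-! ### Laurent series converging on the punctured unit disc -/

/-- The Laurent series `E` converges at every point of the punctured unit disc. -/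
def Conv (E : LaurentSeries ℂ) : Prop := ∀ z : ℂ, z ≠ 0 → ‖z‖ < 1 → ∃ a : ℂ, LSum z E a

/-- The sum of a Laurent series at a point (junk value if it does not converge). -/
def lsVal (E : LaurentSeries ℂ) (z : ℂ) : ℂ := ∑' k : ℤ, E.coeff k * z ^ k

lemma lsVal_eq {E : LaurentSeries ℂ} {z a : ℂ} (h : LSum z E a) : lsVal E z = a :=
  HasSum.tsum_eq h

lemma Conv.lsum {E : LaurentSeries ℂ} (hE : Conv E) {z : ℂ} (hz0 : z ≠ 0) (hz1 : ‖z‖ < 1) :
    LSum z E (lsVal E z) := by
  obtain ⟨a, ha⟩ := hE z hz0 hz1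
  rwa [lsVal_eq ha]

/-- The ring of Laurent series converging on the punctured unit disc. -/
def convRing : Subring (LaurentSeries ℂ) where
  carrier := {E | Conv E}
  mul_mem' := fun hE hE' _ hz0 hz1 =>
    ⟨_, (Conv.lsum hE hz0 hz1).mul hz0 (Conv.lsum hE' hz0 hz1)⟩
  one_mem' := fun z _ _ => ⟨1, LSum.one z⟩
  add_mem' := fun hE hE' _ hz0 hz1 =>
    ⟨_, (Conv.lsum hE hz0 hz1).add (Conv.lsum hE' hz0 hz1)⟩
  zero_mem' := fun z _ _ => ⟨0, LSum.zero z⟩
  neg_mem' := fun hE _ hz0 hz1 => ⟨_, (Conv.lsum hE hz0 hz1).neg⟩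

lemma mem_convRing {E : LaurentSeries ℂ} : E ∈ convRing ↔ Conv E := Iff.rfl

lemma convRing_lsum (E : convRing) (τ : ℍ) :
    LSum (qq τ) (E : LaurentSeries ℂ) (lsVal (E : LaurentSeries ℂ) (qq τ)) :=
  Conv.lsum E.2 (qq_ne_zero τ) (norm_qq_lt_one τ)

/-- Evaluation of a convergent Laurent series at the nome: a ring hom into functions on `ℍ`. -/
def evC : convRing →+* (ℍ → ℂ) where
  toFun E τ := lsVal (E : LaurentSeries ℂ) (qq τ)
  map_one' := by
    funext τ
    exact lsVal_eq (LSum.one _)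
  map_mul' E E' := by
    funext τ
    exact lsVal_eq ((convRing_lsum E τ).mul (qq_ne_zero τ) (convRing_lsum E' τ))
  map_zero' := by
    funext τ
    exact lsVal_eq (LSum.zero _)
  map_add' E E' := by
    funext τ
    exact lsVal_eq ((convRing_lsum E τ).add (convRing_lsum E' τ))

lemma evC_apply (E : convRing) (τ : ℍ) : evC E τ = lsVal (E : LaurentSeries ℂ) (qq τ) := rfl

lemma evC_eq_of_lsum {E : convRing} {τ : ℍ} {a : ℂ}
    (h : LSum (qq τ) (E : LaurentSeries ℂ) a) : evC E τ = a :=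
  lsVal_eq h

/-- `evC` is injective (identity theorem). -/
theorem evC_eq_zero {E : convRing} (h : evC E = 0) : E = 0 := by
  apply Subtype.ext
  apply eq_zero_of_forall_LSum one_pos
  intro z hz0 hz1
  obtain ⟨τ, rfl⟩ := exists_qq_eq hz0 hz1
  have h1 := convRing_lsum E τ
  have h2 : lsVal (E : LaurentSeries ℂ) (qq τ) = 0 := congrFun h τ
  rwa [h2] at h1

theorem evC_injective : Function.Injective evC :=
  (injective_iff_map_eq_zero evC).mpr fun _ h => evC_eq_zero h

/-! ### The generators `j(q^d)` -/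

/-- `j(q^d)` with complex coefficients. -/
def jC (d : ℕ) [NeZero d] : LaurentSeries ℂ := qExpand ℂ d (coeffMap (algebraMap ℚ ℂ) jq)

/-- Substitution `q ↦ q^d` in the dictionary. -/
lemma lsum_qExpand {z : ℂ} {E : LaurentSeries ℂ} {a : ℂ} (d : ℕ) [NeZero d]
    (h : LSum (z ^ d) E a) : LSum z (qExpand ℂ d E) a := by
  unfold LSum at *
  have hinj : Function.Injective (fun m : ℤ => (d : ℤ) * m) :=
    mul_right_injective₀ (by exact_mod_cast NeZero.ne d)
  rw [← hinj.hasSum_iff]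
  · have hfun : ((fun k : ℤ => (qExpand ℂ d E).coeff k * z ^ k) ∘ fun m : ℤ => (d : ℤ) * m)
        = fun m : ℤ => E.coeff m * (z ^ d) ^ m := by
      funext m
      simp only [Function.comp_apply, qExpand_coeff_mul]
      rw [zpow_mul, zpow_natCast]
    rw [hfun]
    exact h
  · intro k hk
    rw [qExpand_coeff_of_not_dvd d E (fun ⟨m, hm⟩ => hk ⟨m, hm.symm⟩), zero_mul]

/-- The dictionary entry of the generators: `j(q^d)` sums to `jFun (d τ)` at `q(τ)`. -/
lemma lsum_jC (d : ℕ) [NeZero d] (τ σ : ℍ) (h : (σ : ℂ) = (d : ℂ) * (τ : ℂ)) :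
    LSum (qq τ) (jC d) (jFun σ) := by
  apply lsum_qExpand
  rw [qq_pow_eq h]
  have h1 := helper1644.hasSum_jq σ
  unfold LSum
  have hfun : (fun k : ℤ => (coeffMap (algebraMap ℚ ℂ) jq).coeff k * qq σ ^ k)
      = fun k : ℤ => ((jq.coeff k : ℚ) : ℂ) * Function.Periodic.qParam 1 (σ : ℂ) ^ k := by
    funext k
    rw [coeffMap_coeff, eq_ratCast]
    rfl
  rw [hfun]
  exact h1

lemma conv_jC (d : ℕ) [NeZero d] : Conv (jC d) := by
  intro z hz0 hz1
  obtain ⟨τ, rfl⟩ := exists_qq_eq hz0 hz1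
  exact ⟨_, lsum_jC d τ (scale d τ) rfl⟩

lemma conv_C (c : ℂ) : Conv (HahnSeries.C c) := fun z _ _ => ⟨c, LSum.C z c⟩

/-! ### The analytic model of `A_N` -/

section Model

variable (i0 : Kbar →+* ℂ)

lemma coeffMap_jSeries (d : ℕ) [NeZero d] : coeffMap i0 (jSeries d) = jC d := by
  unfold jSeries jC coeffEmb
  rw [coeffMap_coeffMap, helper3176.coeffMap_qExpand]
  have h : i0.comp (algebraMap ℚ Kbar) = algebraMap ℚ ℂ := RingHom.ext_rat _ _
  rw [h]

lemma coeffMap_algebraMap_Kbar (c : Kbar) :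
    coeffMap i0 (algebraMap Kbar (LaurentSeries Kbar) c) = HahnSeries.C (i0 c) := by
  rw [algebraMap_laurentSeries_eq_single, coeffMap_single]
  rfl

lemma coeffMap_injective : Function.Injective (coeffMap i0) := by
  intro x y h
  ext k
  have := congrArg (fun E : LaurentSeries ℂ => E.coeff k) h
  simp only [coeffMap_coeff] at this
  exact i0.injective this

variable (N : ℕ)

lemma conv_coeffMap (a : FN N) (ha : a ∈ helper3176.AN N) :
    Conv (coeffMap i0 (a : LaurentSeries Kbar)) := by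
  unfold helper3176.AN at ha
  induction ha using Algebra.adjoin_induction with
  | mem x hx =>
      obtain ⟨d, hd0, hd, rfl⟩ := hx
      have := hd0
      show Conv (coeffMap i0 (jSeries d))
      rw [coeffMap_jSeries]
      exact conv_jC d
  | algebraMap c =>
      show Conv (coeffMap i0 (algebraMap Kbar (LaurentSeries Kbar) c))
      rw [coeffMap_algebraMap_Kbar]
      exact conv_C _
  | add x y _ _ hx hy =>
      show Conv (coeffMap i0 ((x : LaurentSeries Kbar) + (y : LaurentSeries Kbar)))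
      rw [map_add]
      exact convRing.add_mem hx hy
  | mul x y _ _ hx hy =>
      show Conv (coeffMap i0 ((x : LaurentSeries Kbar) * (y : LaurentSeries Kbar)))
      rw [map_mul]
      exact convRing.mul_mem hx hy

/-- `A_N → convRing`, `a ↦` (the series `a` with coefficients pushed to `ℂ` along `i0`). -/
def toConv : helper3176.AN N →+* convRing where
  toFun a := ⟨coeffMap i0 (((a : FN N)) : LaurentSeries Kbar), conv_coeffMap i0 N a a.2⟩
  map_one' := Subtype.ext (by
    show coeffMap i0 (1 : LaurentSeries Kbar) = 1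
    exact map_one _)
  map_mul' a b := Subtype.ext (by
    show coeffMap i0 ((((a : FN N)) : LaurentSeries Kbar) * (((b : FN N)) : LaurentSeries Kbar))
      = _
    exact map_mul _ _ _)
  map_zero' := Subtype.ext (by
    show coeffMap i0 (0 : LaurentSeries Kbar) = 0
    exact map_zero _)
  map_add' a b := Subtype.ext (by
    show coeffMap i0 ((((a : FN N)) : LaurentSeries Kbar) + (((b : FN N)) : LaurentSeries Kbar))
      = _
    exact map_add _ _ _)

lemma coe_toConv (a : helper3176.AN N) :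
    ((toConv i0 N a : convRing) : LaurentSeries ℂ) = coeffMap i0 (((a : FN N)) : LaurentSeries Kbar) :=
  rfl

/-- The analytic model: `ev a τ = ∑ i0(a_k) q(τ)^k`. -/
def ev : helper3176.AN N →+* (ℍ → ℂ) := evC.comp (toConv i0 N)

lemma ev_apply (a : helper3176.AN N) : ev i0 N a = evC (toConv i0 N a) := rfl

/-- `ev` is injective. -/
theorem ev_eq_zero {a : helper3176.AN N} (h : ev i0 N a = 0) : a = 0 := by
  have h1 : toConv i0 N a = 0 := evC_eq_zero h
  have h2 : coeffMap i0 (((a : FN N)) : LaurentSeries Kbar) = 0 := congrArg Subtype.val h1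
  have h3 : (((a : FN N)) : LaurentSeries Kbar) = 0 := by
    apply coeffMap_injective i0
    rw [h2, map_zero]
  exact Subtype.ext (Subtype.ext h3)

/-- Constants. -/
theorem ev_algebraMap (c : Kbar) :
    ev i0 N (algebraMap Kbar (helper3176.AN N) c) = fun _ => i0 c := by
  funext τ
  apply evC_eq_of_lsum
  rw [coe_toConv]
  have : (((algebraMap Kbar (helper3176.AN N) c : helper3176.AN N) : FN N) : LaurentSeries Kbar)
      = algebraMap Kbar (LaurentSeries Kbar) c := rfl
  rw [this, coeffMap_algebraMap_Kbar]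
  exact LSum.C _ _

/-- Generators: `ev (j(q^d)) τ = jFun (d τ)`. -/
theorem ev_jBarD (d : ℕ) [NeZero d] (hd : d ∣ N) (τ σ : ℍ) (h : (σ : ℂ) = (d : ℂ) * (τ : ℂ)) :
    ev i0 N ⟨jBarD N d hd, helper3176.jBarD_mem_AN N d hd⟩ τ = jFun σ := by
  apply evC_eq_of_lsum
  rw [coe_toConv]
  have : (((⟨jBarD N d hd, helper3176.jBarD_mem_AN N d hd⟩ : helper3176.AN N) : FN N) :
      LaurentSeries Kbar) = jSeries d := rfl
  rw [this, coeffMap_jSeries]
  exact lsum_jC d τ σ h

end Model

/-! ### Properties of the analytic model -/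

section Props

variable (i0 : Kbar →+* ℂ) (N : ℕ)

/-- Induction principle for `A_N = ℚ̄[j(q^d) : d ∣ N]`. -/
theorem AN_induction {P : helper3176.AN N → Prop}
    (hgen : ∀ (d : ℕ) [NeZero d] (hd : d ∣ N),
      P ⟨jBarD N d hd, helper3176.jBarD_mem_AN N d hd⟩)
    (hconst : ∀ c : Kbar, P (algebraMap Kbar (helper3176.AN N) c))
    (hadd : ∀ a b, P a → P b → P (a + b)) (hmul : ∀ a b, P a → P b → P (a * b))
    (a : helper3176.AN N) : P a := by
  have key : ∀ (x : FN N) (hx : x ∈ Algebra.adjoin Kbar (helper3176.genSetF N)),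
      P ⟨x, hx⟩ := by
    intro x hx
    induction hx using Algebra.adjoin_induction with
    | mem x hx =>
        obtain ⟨d, hd0, hd, rfl⟩ := hx
        exact @hgen d hd0 hd
    | algebraMap c => exact hconst c
    | add x y hx hy ihx ihy => exact hadd ⟨x, hx⟩ ⟨y, hy⟩ ihx ihy
    | mul x y hx hy ihx ihy => exact hmul ⟨x, hx⟩ ⟨y, hy⟩ ihx ihy
  exact key a.1 a.2

lemma jFun_smul (γ : SL(2, ℤ)) (τ : ℍ) : jFun (γ • τ) = jFun τ := helper1644.jFun_smul γ τ

lemma mdiff_jFun_scale (d : ℕ) [NeZero d] : MDiff (fun τ : ℍ => jFun (scale d τ)) := by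
  rw [UpperHalfPlane.mdifferentiable_iff]
  have h1 : DifferentiableOn ℂ (jFun ∘ ofComplex) upperHalfPlaneSet :=
    helper1644.differentiableOn_jFun_comp_ofComplex
  have hd : (0 : ℝ) < (d : ℝ) := by exact_mod_cast Nat.pos_of_ne_zero (NeZero.ne d)
  have hmap : Set.MapsTo (fun z : ℂ => (d : ℂ) * z) upperHalfPlaneSet upperHalfPlaneSet := by
    intro z hz
    have hz' : 0 < z.im := hz
    show 0 < ((d : ℂ) * z).im
    have : ((d : ℂ) * z).im = (d : ℝ) * z.im := by simp
    rw [this]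
    exact mul_pos hd hz'
  have h2 : DifferentiableOn ℂ (fun z : ℂ => (jFun ∘ ofComplex) ((d : ℂ) * z))
      upperHalfPlaneSet :=
    h1.comp (differentiableOn_id.const_mul _) hmap
  refine h2.congr ?_
  intro z hz
  have hz' : 0 < z.im := hz
  have hz'' : 0 < ((d : ℂ) * z).im := hmap hz
  simp only [Function.comp_apply]
  congr 1
  apply UpperHalfPlane.ext
  rw [coe_scale, ofComplex_apply_of_im_pos hz', ofComplex_apply_of_im_pos hz'']

/-- Holomorphy. -/
theorem ev_mdiff (a : helper3176.AN N) : MDiff (ev i0 N a) := by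
  induction a using AN_induction N with
  | hgen d hd =>
      have h : ev i0 N ⟨jBarD N d hd, helper3176.jBarD_mem_AN N d hd⟩
          = fun τ : ℍ => jFun (scale d τ) := by
        funext τ
        exact ev_jBarD i0 N d hd τ (scale d τ) rfl
      rw [h]
      exact mdiff_jFun_scale d
  | hconst c =>
      rw [ev_algebraMap]
      exact mdifferentiable_const
  | hadd a b ha hb =>
      rw [map_add]
      exact ha.add hb
  | hmul a b ha hb =>
      rw [map_mul]
      exact ha.mul hb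

/-- `Γ₀(N)`-invariance. -/
theorem ev_smul_of_mem_Gamma0 {γ : SL(2, ℤ)} (hγ : γ ∈ Gamma0 N) (a : helper3176.AN N) :
    ∀ τ : ℍ, ev i0 N a (γ • τ) = ev i0 N a τ := by
  induction a using AN_induction N with
  | hgen d hd =>
      intro τ
      rw [ev_jBarD i0 N d hd (γ • τ) (scale d (γ • τ)) rfl,
        ev_jBarD i0 N d hd τ (scale d τ) rfl]
      have hd0 : (0 : ℤ) < (d : ℤ) := by exact_mod_cast Nat.pos_of_ne_zero (NeZero.ne d)
      have hdN : (d : ℤ) ∣ (N : ℤ) := Int.natCast_dvd_natCast.mpr hd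
      exact helper144.eq_of_mem_Gamma0 (J := jFun) jFun_smul hd0 hdN hγ τ _ _
        (by simp) (by simp)
  | hconst c =>
      intro τ
      rw [ev_algebraMap]
  | hadd a b ha hb =>
      intro τ
      rw [map_add, Pi.add_apply, Pi.add_apply, ha τ, hb τ]
  | hmul a b ha hb =>
      intro τ
      rw [map_mul, Pi.mul_apply, Pi.mul_apply, ha τ, hb τ]

/-- Coset separation (E5). -/
theorem mem_Gamma0_of_ev_smul [NeZero N] (g : SL(2, ℤ))
    (h : ∀ (a : helper3176.AN N) (τ : ℍ), ev i0 N a (g • τ) = ev i0 N a τ) : g ∈ Gamma0 N := by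
  apply helper144.mem_Gamma0_of_Jfun_scale_eq N g
  intro τ τ₁ τ₂ h₁ h₂
  have e1 := ev_jBarD i0 N N dvd_rfl (g • τ) τ₁ h₁
  have e2 := ev_jBarD i0 N N dvd_rfl τ τ₂ h₂
  have e3 := h ⟨jBarD N N dvd_rfl, helper3176.jBarD_mem_AN N N dvd_rfl⟩ τ
  show jFun τ₁ = jFun τ₂
  rw [← e1, ← e2, e3]

/-- `ev j = jFun`. -/
theorem ev_jBar : ev i0 N ⟨jBar N, helper3176.jBar_mem_AN N⟩ = jFun := by
  funext τ
  exact ev_jBarD i0 N 1 (one_dvd N) τ τ (by simp)

/-- Every element of the function field is a fraction of elements of `A_N`. -/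
theorem exists_fraction (f : FN N) :
    ∃ a b : helper3176.AN N, (b : FN N) ≠ 0 ∧ f * (b : FN N) = (a : FN N) := by
  obtain ⟨a, b, hb, rfl⟩ := helper3176.exists_div_AN N f
  exact ⟨a, b, hb, div_mul_cancel₀ _ hb⟩

end Props

/-! ### The package -/

/-- A fixed embedding `ℚ̄ → ℂ`. -/
def i0Std : Kbar →+* ℂ :=
  letI : Algebra ℚ (AlgebraicClosure ℚ) := AlgebraicClosure.instAlgebra ℚ
  ((IsAlgClosed.lift : AlgebraicClosure ℚ →ₐ[ℚ] ℂ) : AlgebraicClosure ℚ →+* ℂ)

/-- The "ev datum" (analytic model of `A_N`), in a shape independent of any construction. -/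
def Stmt_Ev : Prop :=
  ∀ (N : ℕ) [NeZero N], ∃ (i0 : Kbar →+* ℂ) (A : Subalgebra Kbar (FN N)) (ev : A →+* (ℍ → ℂ)),
    (∀ f : FN N, ∃ a b : A, (b : FN N) ≠ 0 ∧ f * (b : FN N) = (a : FN N)) ∧
    (∀ a : A, MDiff (ev a)) ∧
    (∀ c : Kbar, ev (algebraMap Kbar A c) = fun _ => i0 c) ∧
    (∀ a : A, ev a = 0 → a = 0) ∧
    (∃ hj : jBar N ∈ A, ev ⟨jBar N, hj⟩ = jFun) ∧
    (∀ γ ∈ Gamma0 N, ∀ (a : A) (τ : ℍ), ev a (γ • τ) = ev a τ) ∧
    (∀ g : SL(2, ℤ), (∀ (a : A) (τ : ℍ), ev a (g • τ) = ev a τ) → g ∈ Gamma0 N)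

theorem stmt_Ev : Stmt_Ev := by
  intro N _
  refine ⟨i0Std, helper3176.AN N, ev i0Std N, exists_fraction N, ev_mdiff i0Std N,
    ev_algebraMap i0Std N, fun a h => ev_eq_zero i0Std N h, ⟨helper3176.jBar_mem_AN N,
    ev_jBar i0Std N⟩, fun γ hγ a τ => ev_smul_of_mem_Gamma0 i0Std N hγ a τ,
    mem_Gamma0_of_ev_smul i0Std N⟩

end

end Fermat.Agent.S24.helper1464
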