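import Fermat.Agent.S24.helper164_FinitePoints
import Fermat.Agent.S24.helper1464_Ev
import Fermat.Agent.S24.helper2064_JOrder
import Fermat.Agent.S24.helper454_JSurj

/-!
# S24: the three finite-point leaves, unconditional (helper1464)

`Stmt_LocalGeneric`, `Stmt_Local1728`, `Stmt_LocalZero` of `helper24_Spec`, with no hypotheses:
`helper164_FinitePoints` (Cayley/Taylor glue) applied to the ev datum of `helper1464_Ev`,
the local orders of `j` (`helper2064_JOrder`) and surjectivity / special values (`helper454_JSurj`).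
-/

set_option autoImplicit false

open ModularCurve UpperHalfPlane CongruenceSubgroup
open scoped MatrixGroups Manifold

namespace Fermat.Agent.S24.helper1464

open Fermat.Agent.S24.helper24

/-- The ev datum in the shape consumed by `helper164_FinitePoints`. -/
theorem embPackage (N : ℕ) [NeZero N] : helper164.EmbPackage N := by
  refine ⟨i0Std, helper3176.AN N, ev i0Std N, ?_, ev_mdiff i0Std N,
    fun a h => ev_eq_zero i0Std N h, ev_algebraMap i0Std N,
    ⟨⟨jBar N, helper3176.jBar_mem_AN N⟩, rfl, ev_jBar i0Std N⟩,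
    fun r γ hγ τ => ev_smul_of_mem_Gamma0 i0Std N hγ r τ, mem_Gamma0_of_ev_smul i0Std N⟩
  intro f
  obtain ⟨a, b, hb, h⟩ := helper3176.exists_div_AN N f
  exact ⟨a, b, hb, h⟩

/-- M3: local datum over a value `c ∉ {0, 1728}`. -/
theorem stmt_LocalGeneric : Stmt_LocalGeneric :=
  helper164.stmt_LocalGeneric_of (fun N _ => embPackage N) jFun_smul
    (fun c => helper454.exists_j_eq c)
    (fun τ₀ h0 h1 => (helper2064.analyticOrderAt_sub_of_eq jFun (fun _ => rfl) τ₀).2.2 h0 h1)

/-- M4: local datum over `j = 1728`. -/
theorem stmt_Local1728 : Stmt_Local1728 := by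
  refine helper164.stmt_Local1728_of (fun N _ => embPackage N) jFun_smul
    ⟨UpperHalfPlane.I, helper454.S_smul_I, ?_⟩
  have hI : jFun UpperHalfPlane.I = 1728 := helper454.j_I
  have h := (helper2064.analyticOrderAt_sub_of_eq jFun (fun _ => rfl) UpperHalfPlane.I).2.1 hI
  rw [hI] at h
  exact h

/-- M5: local datum over `j = 0`. -/
theorem stmt_LocalZero : Stmt_LocalZero := by
  refine helper164.stmt_LocalZero_of (fun N _ => embPackage N) jFun_smul
    ⟨helper454.rho, helper454.ST_smul_rho, ?_⟩
  have hρ : jFun helper454.rho = 0 := helper454.j_rho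
  have h := (helper2064.analyticOrderAt_sub_of_eq jFun (fun _ => rfl) helper454.rho).1 hρ
  rw [hρ] at h
  simpa using h

end Fermat.Agent.S24.helper1464
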