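import Fermat.Agent.S24.helper24_Spec

/-!
# S24, statement G5 (`Stmt_KaehlerSpan`), seat helper1529

For a field `F` finite over `K⟮x⟯` with `x` transcendental over `K` (characteristic zero), the
module of Kähler differentials `Ω[F⁄K]` is free of rank one on `dx`.

Route: the evaluation map `K[X] → F`, `X ↦ x`, is formally étale (a localization followed by a
finite separable extension), hence `Ω[F⁄K] ≃ F ⊗[K[X]] Ω[K[X]⁄K] ≃ F ⊗[K[X]] K[X] ≃ F`.
-/

set_option autoImplicit false

open KaehlerDifferential IntermediateField Polynomial TensorProduct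

namespace Fermat.Agent.S24.helper1529

variable {K F : Type} [Field K] [Field F] [Algebra K F]

/-- The evaluation map `K[X] → F`, `X ↦ x`, is formally étale when `x` is transcendental over
`K` and `F` is finite over `K⟮x⟯` (characteristic zero). -/
theorem formallyEtale_aeval [CharZero K] (x : F) (hx : Transcendental K x)
    [FiniteDimensional K⟮x⟯ F] :
    (aeval x : K[X] →ₐ[K] F).toRingHom.FormallyEtale := by
  -- the map factors as `K[X] → K⟮x⟯ → F`
  let ψ : K[X] →ₐ[K] K⟮x⟯ := aeval (AdjoinSimple.gen K x)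
  have hfac : (aeval x : K[X] →ₐ[K] F).toRingHom = (algebraMap K⟮x⟯ F).comp ψ.toRingHom := by
    ext p
    · simp [ψ]
    · simp [ψ]
  rw [hfac]
  refine RingHom.FormallyEtale.comp ?_ ?_
  · -- `K[X] → K⟮x⟯` is a localization
    letI : Algebra K[X] K⟮x⟯ := ψ.toRingHom.toAlgebra
    let e : RatFunc K ≃ₐ[K[X]] K⟮x⟯ :=
      AlgEquiv.ofRingEquiv (f := (RatFunc.algEquivOfTranscendental x hx).toRingEquiv)
        (fun g => RatFunc.algEquivOfTranscendental_algebraMap x hx g)
    haveI : IsLocalization (nonZeroDivisors K[X]) K⟮x⟯ :=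
      IsLocalization.isLocalization_of_algEquiv (nonZeroDivisors K[X]) e
    have h : Algebra.FormallyEtale K[X] K⟮x⟯ :=
      Algebra.FormallyEtale.of_isLocalization (nonZeroDivisors K[X])
    exact RingHom.formallyEtale_algebraMap.mpr h
  · -- `K⟮x⟯ → F` is finite separable
    haveI : CharZero K⟮x⟯ := charZero_of_injective_algebraMap (algebraMap K K⟮x⟯).injective
    haveI : Algebra.IsSeparable K⟮x⟯ F := Algebra.IsAlgebraic.isSeparable_of_perfectField
    exact RingHom.formallyEtale_algebraMap.mpr (Algebra.FormallyEtale.of_isSeparable K⟮x⟯ F)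

/-- `Ω[F⁄K]` is free of rank one on `dx`: there is an `F`-linear equivalence `Ω[F⁄K] ≃ F` sending
`dx` to `1`. -/
theorem exists_kaehlerEquiv [CharZero K] (x : F) (hx : Transcendental K x)
    [FiniteDimensional K⟮x⟯ F] :
    ∃ e : Ω[F⁄K] ≃ₗ[F] F, e (D K F x) = 1 := by
  have hφ := formallyEtale_aeval x hx
  letI : Algebra K[X] F := (aeval x : K[X] →ₐ[K] F).toRingHom.toAlgebra
  haveI : IsScalarTower K K[X] F :=
    IsScalarTower.of_algebraMap_eq (fun r => ((aeval x : K[X] →ₐ[K] F).commutes r).symm)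
  haveI : Algebra.FormallyEtale K[X] F := hφ
  let e1 : Ω[F⁄K] ≃ₗ[F] F ⊗[K[X]] Ω[K[X]⁄K] := (tensorKaehlerEquivOfFormallyEtale K K[X] F).symm
  let e2 : F ⊗[K[X]] Ω[K[X]⁄K] ≃ₗ[F] F ⊗[K[X]] K[X] :=
    LinearEquiv.baseChange K[X] F _ _ (polynomialEquiv K)
  let e3 : F ⊗[K[X]] K[X] ≃ₗ[F] F := TensorProduct.AlgebraTensorModule.rid K[X] F F
  refine ⟨e1.trans (e2.trans e3), ?_⟩
  have hx' : x = algebraMap K[X] F X := by
    show x = (aeval x : K[X] →ₐ[K] F) X
    simp
  have h1 : e1 (D K F x) = 1 ⊗ₜ[K[X]] D K K[X] X := by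
    conv_lhs => rw [hx']
    exact tensorKaehlerEquivOfFormallyEtale_symm_D_algebraMap K K[X] F X
  simp only [LinearEquiv.trans_apply, h1]
  simp [e2, e3, polynomialEquiv_D]

/-- **G5** (`Stmt_KaehlerSpan` of the S24 spec): `Ω[F⁄K]` is spanned by `dx`, and `dx ≠ 0`. -/
theorem span_D_eq_top_and_D_ne_zero [CharZero K] (x : F) (hx : Transcendental K x)
    [FiniteDimensional K⟮x⟯ F] :
    Submodule.span F {D K F x} = ⊤ ∧ D K F x ≠ 0 := by
  obtain ⟨e, he⟩ := exists_kaehlerEquiv x hx
  refine ⟨?_, ?_⟩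
  · rw [eq_top_iff]
    intro ω _
    have : ω = e ω • D K F x := by
      apply e.injective
      rw [map_smul, he, smul_eq_mul, mul_one]
    rw [this]
    exact Submodule.smul_mem _ _ (Submodule.subset_span rfl)
  · intro h
    rw [h, map_zero] at he
    exact zero_ne_one he

/-- `Ω[F⁄K]` is nontrivial. -/
theorem nontrivial_kaehler [CharZero K] (x : F) (hx : Transcendental K x)
    [FiniteDimensional K⟮x⟯ F] : Nontrivial Ω[F⁄K] :=
  ⟨⟨D K F x, 0, (span_D_eq_top_and_D_ne_zero x hx).2⟩⟩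

/-- Every differential is a unique multiple of `dx`. -/
theorem existsUnique_eq_smul_D [CharZero K] (x : F) (hx : Transcendental K x)
    [FiniteDimensional K⟮x⟯ F] (ω : Ω[F⁄K]) : ∃! f : F, ω = f • D K F x := by
  obtain ⟨e, he⟩ := exists_kaehlerEquiv x hx
  refine ⟨e ω, ?_, ?_⟩
  · apply e.injective
    rw [map_smul, he, smul_eq_mul, mul_one]
  · intro f hf
    rw [hf, map_smul, he, smul_eq_mul, mul_one]

/-- A nonzero differential is a nonzero multiple of `dx`. -/
theorem exists_ne_zero_eq_smul_D [CharZero K] (x : F) (hx : Transcendental K x)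
    [FiniteDimensional K⟮x⟯ F] {ω : Ω[F⁄K]} (hω : ω ≠ 0) :
    ∃ f : F, f ≠ 0 ∧ ω = f • D K F x := by
  obtain ⟨f, hf, -⟩ := existsUnique_eq_smul_D x hx ω
  refine ⟨f, ?_, hf⟩
  rintro rfl
  exact hω (by rw [hf, zero_smul])

/-- `Ω[F⁄K]` has rank one over `F`. -/
theorem finrank_kaehler [CharZero K] (x : F) (hx : Transcendental K x)
    [FiniteDimensional K⟮x⟯ F] : Module.finrank F Ω[F⁄K] = 1 := by
  obtain ⟨e, -⟩ := exists_kaehlerEquiv x hx
  rw [e.finrank_eq, Module.finrank_self]

/-- **G5** in the exact shape of the captain's spec. -/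
theorem stmt_KaehlerSpan : Fermat.Agent.S24.helper24.Stmt_KaehlerSpan := by
  intro K F _ _ _ _ x hx _
  exact span_D_eq_top_and_D_ne_zero x hx

end Fermat.Agent.S24.helper1529
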