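import Fermat.Agent.S24.helper24_Spec

/-!
# S24 top assembly (helper1635)

Implications between the captain's `Stmt_*` (file `helper24_Spec`), hypothesis-passing style:

* `stmt_INT_of`    : Hurwitz + Index + OrbitsT + OrbitsS + OrbitsST ⟹ `Stmt_INT`
* `stmt_Places_of` : LOC + FundId + JTranscendental + JFinrank + the four local data
                     + OrbitsT + OrbitsS + OrbitsST ⟹ `Stmt_Places`
* `stmt_S24_of_leaves` : all leaves ⟹ `Stmt_S24`;  `result_of` : `Stmt_S24` ⟹ frozen shape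
* `stmt_DEG_of`    : RH + Places + JTranscendental + JFinrank + Index ⟹ `Stmt_DEG`
* `stmt_S24_of`    : INT + DEG + KaehlerSpan + JTranscendental + JFinrank ⟹ `Stmt_S24`
-/

set_option autoImplicit false

open ModularCurve AlgebraicCurve KaehlerDifferential IntermediateField CongruenceSubgroup
open scoped MatrixGroups

namespace Fermat.Agent.S24.helper1635

open Fermat.Agent.S24.helper24

/-! ## T1 : the genus formula is a natural number -/

theorem stmt_INT_of (hH : Stmt_Hurwitz) (hI : Stmt_Index) (hT : Stmt_OrbitsT)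
    (hS : Stmt_OrbitsS) (hST : Stmt_OrbitsST) : Stmt_INT := by
  intro N _
  obtain ⟨g, hg⟩ := hH N
  refine ⟨g, ?_⟩
  have h1 := hI N
  have h2 := hT N
  have h3 := hS N
  have h4 := hST N
  rw [h1, h2] at hg
  have hgq : ((dedekindPsi N : ℤ) : ℚ) + 2 = 2 * ((g : ℤ) : ℚ)
      + ((Nat.card (MulAction.orbitRel.Quotient (Subgroup.zpowers ModularGroup.S) (XN N)) : ℤ) : ℚ)
      + ((cuspCount N : ℤ) : ℚ)
      + ((Nat.card (MulAction.orbitRel.Quotient
          (Subgroup.zpowers (ModularGroup.S * ModularGroup.T)) (XN N)) : ℤ) : ℚ) := by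
    exact_mod_cast hg
  have h3q : (2 : ℚ) * (Nat.card (MulAction.orbitRel.Quotient
      (Subgroup.zpowers ModularGroup.S) (XN N)) : ℚ) = (dedekindPsi N : ℚ) + (nuTwo N : ℚ) := by
    exact_mod_cast h3
  have h4q : (3 : ℚ) * (Nat.card (MulAction.orbitRel.Quotient
      (Subgroup.zpowers (ModularGroup.S * ModularGroup.T)) (XN N)) : ℚ)
      = (dedekindPsi N : ℚ) + 2 * (nuThree N : ℚ) := by
    exact_mod_cast h4
  unfold genusFormula
  push_cast at hgq
  linarith

/-! ## T2 : the place counts from orbit counting and the local data -/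

section Generic

variable {K F : Type} [Field K] [Field F] [Algebra K F]

theorem adjoin_simple_eq_of_mem {x y : F} (h1 : y ∈ K⟮x⟯) (h2 : x ∈ K⟮y⟯) : K⟮y⟯ = K⟮x⟯ :=
  le_antisymm (adjoin_simple_le_iff.mpr h1) (adjoin_simple_le_iff.mpr h2)

theorem finiteDimensional_of_eq {E E' : IntermediateField K F} (h : E = E')
    [hE : FiniteDimensional E F] : FiniteDimensional E' F := by
  subst h; exact hE

theorem finrank_of_eq {E E' : IntermediateField K F} (h : E = E') :
    Module.finrank E F = Module.finrank E' F := by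
  subst h; rfl

theorem adjoin_sub_algebraMap (x : F) (c : K) : K⟮x - algebraMap K F c⟯ = K⟮x⟯ := by
  refine adjoin_simple_eq_of_mem ?_ ?_
  · exact sub_mem (mem_adjoin_simple_self K x) (IntermediateField.algebraMap_mem _ c)
  · have h : (x - algebraMap K F c) + algebraMap K F c ∈ K⟮x - algebraMap K F c⟯ :=
      add_mem (mem_adjoin_simple_self K _) (IntermediateField.algebraMap_mem _ c)
    simpa using h

theorem adjoin_inv (x : F) : K⟮x⁻¹⟯ = K⟮x⟯ := by
  refine adjoin_simple_eq_of_mem ?_ ?_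
  · exact inv_mem (mem_adjoin_simple_self K x)
  · have h : (x⁻¹)⁻¹ ∈ K⟮x⁻¹⟯ := inv_mem (mem_adjoin_simple_self K _)
    simpa using h

theorem transcendental_sub_algebraMap {x : F} (hx : Transcendental K x) (c : K) :
    Transcendental K (x - algebraMap K F c) := by
  intro h
  apply hx
  have h2 : IsAlgebraic K ((x - algebraMap K F c) + algebraMap K F c) :=
    h.add (isAlgebraic_algebraMap c)
  simpa using h2

theorem transcendental_inv {x : F} (hx : Transcendental K x) : Transcendental K x⁻¹ := by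
  intro h
  exact hx (IsAlgebraic.inv_iff.mp h)

end Generic

section Orbits

variable {G X : Type} [Group G] [MulAction G X]

theorem mem_orbit_zpowers_iff (g : G) (a b : X) :
    a ∈ MulAction.orbit (Subgroup.zpowers g) b ↔ ∃ k : ℤ, g ^ k • b = a := by
  constructor
  · rintro ⟨⟨h, hh⟩, rfl⟩
    obtain ⟨k, rfl⟩ := Subgroup.mem_zpowers_iff.mp hh
    exact ⟨k, rfl⟩
  · rintro ⟨k, rfl⟩
    exact ⟨⟨g ^ k, Subgroup.mem_zpowers_iff.mpr ⟨k, rfl⟩⟩, rfl⟩

theorem card_orbits_perm_eq (g : G) (ρ : Equiv.Perm X)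
    (h : (∀ x, ρ x = g • x) ∨ (∀ x, ρ x = g⁻¹ • x)) :
    Nat.card (MulAction.orbitRel.Quotient (Subgroup.zpowers ρ) X)
      = Nat.card (MulAction.orbitRel.Quotient (Subgroup.zpowers g) X) := by
  refine Nat.card_congr (Quotient.congrRight fun a b => ?_)
  rw [MulAction.orbitRel_apply, MulAction.orbitRel_apply, mem_orbit_zpowers_iff,
    mem_orbit_zpowers_iff]
  rcases h with h | h
  · have hρ : ρ = MulAction.toPermHom G X g := Equiv.ext fun x => by simp [h x]
    constructor
    · rintro ⟨k, rfl⟩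
      refine ⟨k, ?_⟩
      rw [hρ, ← map_zpow]
      simp
    · rintro ⟨k, rfl⟩
      refine ⟨k, ?_⟩
      rw [hρ, ← map_zpow]
      simp
  · have hρ : ρ = MulAction.toPermHom G X g⁻¹ := Equiv.ext fun x => by simp [h x]
    constructor
    · rintro ⟨k, rfl⟩
      refine ⟨-k, ?_⟩
      rw [hρ, ← map_zpow]
      simp
    · rintro ⟨k, rfl⟩
      refine ⟨-k, ?_⟩
      rw [hρ, ← map_zpow]
      simp

theorem card_orbits_one : Nat.card (MulAction.orbitRel.Quotient (Subgroup.zpowers (1 : G)) X)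
    = Nat.card X := by
  symm
  refine Nat.card_congr (Equiv.ofBijective (Quotient.mk _) ⟨?_, Quotient.mk_surjective⟩)
  intro a b hab
  have h := Quotient.exact hab
  change MulAction.orbitRel _ _ a b at h
  rw [MulAction.orbitRel_apply, mem_orbit_zpowers_iff] at h
  obtain ⟨k, hk⟩ := h
  simpa using hk.symm

end Orbits

/-- Orbit counting applied to a local datum. -/
theorem card_zeros_of_localDatum (hLOC : Stmt_LOC) (N : ℕ) [NeZero N] (y : FN N) (m : ℕ)
    (g : SL(2, ℤ)) (hy : Transcendental Kbar y) [FiniteDimensional Kbar⟮y⟯ (FN N)]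
    (hcard : Nat.card (XN N) = Module.finrank Kbar⟮y⟯ (FN N))
    (hdat : LocalDatum N y m g) :
    Nat.card {v : Place Kbar (FN N) // 0 < v.ord y}
      = Nat.card (MulAction.orbitRel.Quotient (Subgroup.zpowers g) (XN N)) := by
  obtain ⟨Ω, _, _, w, ι, σ, ξ, hwK, hι, hξ, hm, hwξ, hwσ, hσ, hdiv⟩ := hdat
  have hpos : 0 < Module.finrank Kbar⟮y⟯ (FN N) := Module.finrank_pos
  haveI : Finite (XN N) := Nat.finite_of_card_ne_zero (by omega)
  letI : Fintype (XN N) := Fintype.ofFinite _
  have hcard' : Fintype.card (XN N) = Module.finrank Kbar⟮y⟯ (FN N) := by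
    rw [← Nat.card_eq_fintype_card]; exact hcard
  rcases hσ with hσ | hσ
  · have key := hLOC Kbar (FN N) Ω y hy w hwK (XN N) hcard' ι hι ξ hξ m hm hwξ σ hwσ
      (MulAction.toPerm g) (fun i f => by simpa using hσ i f) hdiv
    rw [key]
    exact card_orbits_perm_eq g _ (Or.inl fun x => rfl)
  · have key := hLOC Kbar (FN N) Ω y hy w hwK (XN N) hcard' ι hι ξ hξ m hm hwξ σ hwσ
      (MulAction.toPerm g⁻¹) (fun i f => by simpa using hσ i f) hdiv
    rw [key]
    exact card_orbits_perm_eq g _ (Or.inr fun x => rfl)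

theorem stmt_Places_of (hLOC : Stmt_LOC) (hFund : Stmt_FundId) (hJT : Stmt_JTranscendental)
    (hJF : Stmt_JFinrank) (hGen : Stmt_LocalGeneric) (h1728 : Stmt_Local1728)
    (h0 : Stmt_LocalZero) (hInf : Stmt_LocalInf) (hT : Stmt_OrbitsT)
    (hS : Stmt_OrbitsS) (hST : Stmt_OrbitsST) : Stmt_Places := by
  intro N _
  haveI : FiniteDimensional Kbar⟮jBar N⟯ (FN N) := (hJF N).1
  have hn : Module.finrank Kbar⟮jBar N⟯ (FN N) = Nat.card (XN N) := (hJF N).2
  have hshift : ∀ c : Kbar,
      FiniteDimensional Kbar⟮jBar N - algebraMap Kbar (FN N) c⟯ (FN N) ∧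
      Nat.card (XN N) = Module.finrank Kbar⟮jBar N - algebraMap Kbar (FN N) c⟯ (FN N) := by
    intro c
    have he := adjoin_sub_algebraMap (K := Kbar) (jBar N) c
    exact ⟨finiteDimensional_of_eq he.symm, by rw [finrank_of_eq he, hn]⟩
  refine ⟨?_, ?_, ?_, ?_⟩
  · -- unramified over `c ∉ {0, 1728}`
    intro c hc0 hc1728 v hv
    obtain ⟨hfd, hcard⟩ := hshift c
    haveI := hfd
    have htr := transcendental_sub_algebraMap (hJT N) c
    have hcount : Nat.card {v : Place Kbar (FN N) //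
        0 < v.ord (jBar N - algebraMap Kbar (FN N) c)} = Nat.card (XN N) :=
      (card_zeros_of_localDatum hLOC N _ 1 1 htr hcard (hGen N c hc0 hc1728)).trans
        card_orbits_one
    obtain ⟨s, hs, hsum⟩ := hFund Kbar (FN N) _ htr
    have hscard : Nat.card {v : Place Kbar (FN N) //
        0 < v.ord (jBar N - algebraMap Kbar (FN N) c)} = s.card := by
      rw [Nat.card_congr (Equiv.subtypeEquivRight (fun v => (hs v).symm))]
      simp
    have hsum0 : ∑ v ∈ s, (v.ord (jBar N - algebraMap Kbar (FN N) c) - 1) = 0 := by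
      rw [Finset.sum_sub_distrib, hsum, ← hcard, ← hcount, hscard]
      simp
    have hz := (Finset.sum_eq_zero_iff_of_nonneg (fun u hu => by
      have := (hs u).mp hu; omega)).mp hsum0 v ((hs v).mpr hv)
    omega
  · -- over 1728
    obtain ⟨hfd, hcard⟩ := hshift 1728
    haveI := hfd
    have htr := transcendental_sub_algebraMap (hJT N) (1728 : Kbar)
    rw [card_zeros_of_localDatum hLOC N _ 2 ModularGroup.S htr hcard (h1728 N)]
    exact hS N
  · -- over 0
    have hcount := card_zeros_of_localDatum hLOC N (jBar N) 3 (ModularGroup.S * ModularGroup.T)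
      (hJT N) hn.symm (h0 N)
    simp only [map_zero, sub_zero]
    rw [hcount]
    exact hST N
  · -- over infinity
    have he := adjoin_inv (K := Kbar) (jBar N)
    haveI : FiniteDimensional Kbar⟮(jBar N)⁻¹⟯ (FN N) := finiteDimensional_of_eq he.symm
    have hcard : Nat.card (XN N) = Module.finrank Kbar⟮(jBar N)⁻¹⟯ (FN N) := by
      rw [finrank_of_eq he, hn]
    have hcount := card_zeros_of_localDatum hLOC N (jBar N)⁻¹ N ModularGroup.T
      (transcendental_inv (hJT N)) hcard (hInf N)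
    rw [← hT N, ← hcount]
    refine Nat.card_congr (Equiv.subtypeEquivRight fun v => ?_)
    rw [Place.ord_inv]
    omega

/-! ## T3 : the degree of a canonical divisor from Riemann–Hurwitz and the place counts -/

theorem stmt_DEG_of (hRH : Stmt_RH) (hP : Stmt_Places) (hJT : Stmt_JTranscendental)
    (hJF : Stmt_JFinrank) (hI : Stmt_Index) : Stmt_DEG := by
  classical
  intro N _ ω hω Dv hDv
  haveI : FiniteDimensional Kbar⟮jBar N⟯ (FN N) := (hJF N).1
  have hn : Module.finrank Kbar⟮jBar N⟯ (FN N) = dedekindPsi N := by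
    rw [(hJF N).2, hI N]
  obtain ⟨hunr, h1728, h0, hinf⟩ := hP N
  have hne : (0 : Kbar) ≠ 1728 := by norm_num
  have hS : ∀ c : Kbar, c ∉ ({0, 1728} : Finset Kbar) → ∀ v : Place Kbar (FN N),
      0 < v.ord (jBar N - algebraMap Kbar (FN N) c) →
      v.ord (jBar N - algebraMap Kbar (FN N) c) = 1 := by
    intro c hc v hv
    simp only [Finset.mem_insert, Finset.mem_singleton, not_or] at hc
    exact hunr c hc.1 hc.2 v hv
  have key := hRH Kbar (FN N) (jBar N) (hJT N) ({0, 1728} : Finset Kbar) hS ω hω Dv hDv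
  rw [Finset.sum_pair hne, hn, hinf] at key
  have h1728q : (2 : ℚ) * (Nat.card {v : Place Kbar (FN N) //
      0 < v.ord (jBar N - algebraMap Kbar (FN N) 1728)} : ℚ)
      = (dedekindPsi N : ℚ) + (nuTwo N : ℚ) := by exact_mod_cast h1728
  have h0q : (3 : ℚ) * (Nat.card {v : Place Kbar (FN N) //
      0 < v.ord (jBar N - algebraMap Kbar (FN N) 0)} : ℚ)
      = (dedekindPsi N : ℚ) + 2 * (nuThree N : ℚ) := by exact_mod_cast h0
  have keyq : ((Divisor.degree Dv : ℤ) : ℚ) =
      ((dedekindPsi N : ℚ) - (Nat.card {v : Place Kbar (FN N) //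
          0 < v.ord (jBar N - algebraMap Kbar (FN N) 0)} : ℚ))
      + ((dedekindPsi N : ℚ) - (Nat.card {v : Place Kbar (FN N) //
          0 < v.ord (jBar N - algebraMap Kbar (FN N) 1728)} : ℚ))
      - (dedekindPsi N : ℚ) - (cuspCount N : ℚ) := by
    rw [key]; push_cast; ring
  rw [keyq]
  unfold genusFormula
  linarith

/-! ## T4 : the frozen statement from `Stmt_INT` and `Stmt_DEG` -/

theorem stmt_S24_of (hINT : Stmt_INT) (hDEG : Stmt_DEG) (hK : Stmt_KaehlerSpan)
    (hJT : Stmt_JTranscendental) (hJF : Stmt_JFinrank) : Stmt_S24 := by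
  intro N _ _
  haveI : FiniteDimensional Kbar⟮jBar N⟯ (FN N) := (hJF N).1
  have hdx : D Kbar (FN N) (jBar N) ≠ 0 := (hK Kbar (FN N) (jBar N) (hJT N)).2
  have hex : ∃ ω : Ω[FN N⁄Kbar], ω ≠ 0 := ⟨_, hdx⟩
  obtain ⟨g, hg⟩ := hINT N
  have hdeg := hDEG N hex.choose hex.choose_spec (canonicalDivisorOf hex.choose_spec)
    (fun v => canonicalDivisorOf_apply hex.choose_spec v)
  rw [← hg] at hdeg ⊢
  have hdegZ : Divisor.degree (canonicalDivisorOf hex.choose_spec) = 2 * (g : ℤ) - 2 := by
    exact_mod_cast hdeg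
  have hgenus : AlgebraicCurve.genus (AlgebraicClosure ℚ) ↥(modularFunctionFieldBar N) = g := by
    unfold AlgebraicCurve.genus
    rw [dif_pos hex, hdegZ]
    have : (2 * (g : ℤ) - 2 + 2).toNat = 2 * g := by omega
    rw [this]
    omega
  rw [hgenus]

/-! ## Full composition -/

/-- All leaf statements of the captain's spec imply the final statement. -/
theorem stmt_S24_of_leaves
    (hFund : Stmt_FundId) (hK : Stmt_KaehlerSpan) (hRH : Stmt_RH) (hLOC : Stmt_LOC)
    (hJT : Stmt_JTranscendental) (hJF : Stmt_JFinrank)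
    (hGen : Stmt_LocalGeneric) (h1728 : Stmt_Local1728) (h0 : Stmt_LocalZero)
    (hInf : Stmt_LocalInf)
    (hI : Stmt_Index) (hT : Stmt_OrbitsT) (hS : Stmt_OrbitsS) (hST : Stmt_OrbitsST)
    (hH : Stmt_Hurwitz) : Stmt_S24 :=
  stmt_S24_of (stmt_INT_of hH hI hT hS hST)
    (stmt_DEG_of hRH (stmt_Places_of hLOC hFund hJT hJF hGen h1728 h0 hInf hT hS hST) hJT hJF hI)
    hK hJT hJF

/-- `Stmt_S24` in the exact shape of the frozen statement (for `Fermat/Agent/S24.lean`). -/
theorem result_of (h : Stmt_S24) (N : ℕ) [NeZero N]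
    [AlgebraicCurve.HasCanonicalDivisor (K := AlgebraicClosure ℚ)
      (F := ↥(ModularCurve.modularFunctionFieldBar N))] :
    (AlgebraicCurve.genus (AlgebraicClosure ℚ) ↥(ModularCurve.modularFunctionFieldBar N) : ℚ)
      = ModularCurve.genusFormula N :=
  h N

end Fermat.Agent.S24.helper1635
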