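import Fermat.Agent.S24.helper315_Twist
import Fermat.Prelude.Def_ModularCurve_X0

/-!
# S24 / MOD: behaviour of the expansion at the cusp under `τ ↦ rτ`, `τ ↦ τ + x` and change of
period

* `cuspExpFun_comp_smul`  : `f (r τ)` has period `h / r` and the same expansion;
* `cuspExpFun_comp_vadd`  : `f (τ + x)` has the expansion twisted by `exp (2πi x / h)`;
* `cuspExpFun_period_mul` : in the period `M h` the expansion is `qExpand M` of the old one.
-/

set_option autoImplicit false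

open Complex Filter Function Topology
open UpperHalfPlane hiding I
open scoped Real Manifold

noncomputable section

namespace Fermat.Agent.S24.helper315

local notation "𝕢" => Periodic.qParam

/-! ## Holomorphy of compositions -/

theorem mdiff_comp_of_coe {f : ℍ → ℂ} (hf : MDiff f) (φ : ℍ → ℍ) (Φ : ℂ → ℂ)
    (hΦ : DifferentiableOn ℂ Φ {z : ℂ | 0 < z.im}) (hφ : ∀ τ : ℍ, ((φ τ : ℍ) : ℂ) = Φ τ) :
    MDiff (fun τ : ℍ => f (φ τ)) := by
  rw [UpperHalfPlane.mdifferentiable_iff] at hf ⊢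
  have hmaps : Set.MapsTo Φ {z : ℂ | 0 < z.im} {z : ℂ | 0 < z.im} := by
    intro z hz
    have := hφ ⟨z, hz⟩
    show 0 < (Φ z).im
    rw [← this]
    exact (φ ⟨z, hz⟩).im_pos
  have h1 : DifferentiableOn ℂ ((f ∘ ofComplex) ∘ Φ) {z : ℂ | 0 < z.im} := hf.comp hΦ hmaps
  refine h1.congr (fun z hz => ?_)
  have hz' : 0 < (Φ z).im := hmaps hz
  simp only [comp_apply, ofComplex_apply_of_im_pos (show 0 < z.im from hz),
    ofComplex_apply_of_im_pos hz']
  congr 1
  ext
  exact hφ ⟨z, hz⟩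

/-! ## Scaling -/

theorem qH_pos_smul (h : ℝ) (r : {x : ℝ // 0 < x}) (τ : ℍ) :
    qH h (r • τ) = qH (h / r) τ := by
  simp only [qH_apply, Periodic.qParam, coe_pos_real_smul]
  congr 1
  have hr : ((r : ℝ) : ℂ) ≠ 0 := by exact_mod_cast r.2.ne'
  rw [real_smul]
  push_cast
  by_cases hh : (h : ℂ) = 0
  · simp [hh]
  · field_simp

/-- `τ ↦ f (r τ)` has period `h / r` and the same expansion at the cusp. -/
theorem cuspExpFun_comp_smul {h : ℝ} (hh : 0 < h) (r : {x : ℝ // 0 < x}) {f : ℍ → ℂ}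
    (hf : IsCuspMer h f) :
    IsCuspMer (h / r) (fun τ : ℍ => f (r • τ)) ∧
      cuspExpFun (h / r) (fun τ : ℍ => f (r • τ)) = cuspExpFun h f := by
  have hh' : 0 < h / r := div_pos hh r.2
  obtain ⟨m, hm⟩ := id hf
  have hs : ∀ τ : ℍ, HasSum
      (fun n : ℕ => (qExpansion h (qH h ^ m * f)).coeff n * qH (h / r) τ ^ n)
      (qH (h / r) τ ^ m * f (r • τ)) := by
    intro τ
    have h1 := hm.hasSum hh (r • τ)
    simpa only [Pi.mul_apply, Pi.pow_apply, qH_pos_smul] using h1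
  have hd : MDiff (fun τ : ℍ => f (r • τ)) :=
    mdiff_comp_of_coe hf.mdiff (fun τ => r • τ) (fun z => (r : ℝ) * z) (by fun_prop)
      (fun τ => by simp [coe_pos_real_smul])
  have hp : HPeriodic (h / r) (fun τ : ℍ => f (r • τ)) := by
    intro τ
    show f (r • ((h / r) +ᵥ τ)) = f (r • τ)
    have h1 := hf.periodic hh (r • τ)
    rw [← h1]
    congr 1
    ext
    simp only [coe_vadd, coe_pos_real_smul, real_smul]
    have hr : ((r : ℝ) : ℂ) ≠ 0 := by exact_mod_cast r.2.ne'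
    push_cast
    field_simp
  obtain ⟨h3, h4⟩ := cuspExpFun_eq_of_hasSum hh' hd hp hs
  refine ⟨⟨m, h3⟩, ?_⟩
  rw [h4, cuspExpFun_eq hh hm, cuspExpAux]
  congr 2
  ext n
  simp

/-! ## Translation -/

theorem qH_vadd (h x : ℝ) (τ : ℍ) :
    qH h (x +ᵥ τ) = Complex.exp (2 * π * Complex.I * x / h) * qH h τ := by
  simp only [qH_apply, coe_vadd, Periodic.qParam, ← Complex.exp_add]
  congr 1
  ring

/-- The unit `exp (2πi x / h)`. -/
def expUnit (x h : ℝ) : ℂˣ :=
  Units.mk0 (Complex.exp (2 * π * Complex.I * x / h)) (Complex.exp_ne_zero _)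

@[simp]
theorem coe_expUnit (x h : ℝ) : (expUnit x h : ℂ) = Complex.exp (2 * π * Complex.I * x / h) := rfl

/-- Translation `τ ↦ τ + x` twists the expansion at the cusp by `exp (2πi x / h)`. -/
theorem cuspExpFun_comp_vadd {h : ℝ} (hh : 0 < h) (x : ℝ) {f : ℍ → ℂ} (hf : IsCuspMer h f) :
    IsCuspMer h (fun τ : ℍ => f (x +ᵥ τ)) ∧
      cuspExpFun h (fun τ : ℍ => f (x +ᵥ τ)) = twist (expUnit x h) (cuspExpFun h f) := by
  obtain ⟨m, hm⟩ := id hf
  have hs : ∀ τ : ℍ, HasSum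
      (fun n : ℕ => (((expUnit x h ^ n : ℂˣ) : ℂ) * (((expUnit x h)⁻¹ ^ m : ℂˣ) : ℂ)
        * (qExpansion h (qH h ^ m * f)).coeff n) * qH h τ ^ n)
      (qH h τ ^ m * f (x +ᵥ τ)) := by
    intro τ
    have h1 := hm.hasSum hh (x +ᵥ τ)
    simp only [Pi.mul_apply, Pi.pow_apply, qH_vadd, ← coe_expUnit] at h1
    have h2 := h1.mul_left ((((expUnit x h)⁻¹ ^ m : ℂˣ) : ℂ))
    have e1 : (((expUnit x h)⁻¹ ^ m : ℂˣ) : ℂ)
          * ((((expUnit x h : ℂˣ) : ℂ) * qH h τ) ^ m * f (x +ᵥ τ))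
        = qH h τ ^ m * f (x +ᵥ τ) := by
      rw [mul_pow, ← mul_assoc, ← mul_assoc, ← Units.val_pow_eq_pow_val, ← Units.val_mul,
        ← mul_pow, inv_mul_cancel, one_pow, Units.val_one, one_mul]
    rw [e1] at h2
    have e2 : (fun n : ℕ => (((expUnit x h ^ n : ℂˣ) : ℂ) * (((expUnit x h)⁻¹ ^ m : ℂˣ) : ℂ)
          * (qExpansion h (qH h ^ m * f)).coeff n) * qH h τ ^ n)
        = fun n : ℕ => (((expUnit x h)⁻¹ ^ m : ℂˣ) : ℂ)
          * ((qExpansion h (qH h ^ m * f)).coeff n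
            * (((expUnit x h : ℂˣ) : ℂ) * qH h τ) ^ n) := by
      funext n
      rw [mul_pow, Units.val_pow_eq_pow_val]
      ring
    rw [e2]
    exact h2
  have hd : MDiff (fun τ : ℍ => f (x +ᵥ τ)) := mdiff_comp_vadd hf.mdiff x
  have hp : HPeriodic h (fun τ : ℍ => f (x +ᵥ τ)) := by
    intro τ
    show f (x +ᵥ (h +ᵥ τ)) = f (x +ᵥ τ)
    have h1 := hf.periodic hh (x +ᵥ τ)
    rw [← h1]
    congr 1
    ext
    simp only [coe_vadd]
    ring
  obtain ⟨h3, h4⟩ := cuspExpFun_eq_of_hasSum hh hd hp hs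
  refine ⟨⟨m, h3⟩, ?_⟩
  rw [h4, cuspExpFun_eq hh hm, cuspExpAux]
  ext k
  rw [twist_coeff, coeff_single_neg_mul_ofPowerSeries, coeff_single_neg_mul_ofPowerSeries]
  split_ifs with hk
  · rw [PowerSeries.coeff_mk]
    congr 1
    rw [← Units.val_mul]
    congr 1
    rw [← zpow_natCast, ← zpow_natCast, inv_zpow', ← zpow_add, Int.toNat_of_nonneg hk]
    congr 1
    ring
  · simp

/-! ## Change of period -/

theorem qH_pow_eq (h : ℝ) (M : ℕ) [NeZero M] (τ : ℍ) : qH ((M : ℝ) * h) τ ^ M = qH h τ := by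
  simp only [qH_apply, Periodic.qParam, ← Complex.exp_nat_mul]
  congr 1
  have hM : (M : ℂ) ≠ 0 := Nat.cast_ne_zero.mpr (NeZero.ne M)
  push_cast
  by_cases hh : (h : ℂ) = 0
  · simp [hh]
  · field_simp

theorem HPeriodic.nat_mul {h : ℝ} {f : ℍ → ℂ} (hf : HPeriodic h f) (M : ℕ) :
    HPeriodic ((M : ℝ) * h) f := by
  induction M with
  | zero =>
    intro τ
    congr 1
    ext
    simp
  | succ M ih =>
    intro τ
    have h1 := hf (((M : ℝ) * h) +ᵥ τ)
    rw [ih τ] at h1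
    rw [← h1]
    congr 1
    ext
    simp only [coe_vadd]
    push_cast
    ring

/-- Passing from the period `h` to the period `M h` applies `qExpand M` to the expansion. -/
theorem cuspExpFun_period_mul {h : ℝ} (hh : 0 < h) (M : ℕ) [NeZero M] {f : ℍ → ℂ}
    (hf : IsCuspMer h f) :
    IsCuspMer ((M : ℝ) * h) f ∧
      cuspExpFun ((M : ℝ) * h) f = ModularCurve.qExpand ℂ M (cuspExpFun h f) := by
  have hMpos : 0 < M := Nat.pos_of_ne_zero (NeZero.ne M)
  have hh' : 0 < (M : ℝ) * h := mul_pos (Nat.cast_pos.mpr hMpos) hh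
  obtain ⟨m, hm⟩ := id hf
  set P := qExpansion h (qH h ^ m * f) with hP
  have hs : ∀ τ : ℍ, HasSum
      (fun k : ℕ => (if M ∣ k then P.coeff (k / M) else 0) * qH ((M : ℝ) * h) τ ^ k)
      (qH ((M : ℝ) * h) τ ^ (M * m) * f τ) := by
    intro τ
    have h1 := hm.hasSum hh τ
    simp only [Pi.mul_apply, Pi.pow_apply] at h1
    rw [← qH_pow_eq h M τ, ← pow_mul] at h1
    have hinj : Function.Injective (fun n : ℕ => M * n) :=
      fun a b hab => Nat.eq_of_mul_eq_mul_left hMpos hab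
    refine (hinj.hasSum_iff ?_).mp ?_
    · intro k hk
      have : ¬ M ∣ k := by
        rintro ⟨n, rfl⟩
        exact hk ⟨n, rfl⟩
      simp [this]
    · convert h1 using 2 with n
      simp only [comp_apply, dvd_mul_right, if_true, Nat.mul_div_cancel_left _ hMpos]
      rw [pow_mul]
  obtain ⟨h3, h4⟩ := cuspExpFun_eq_of_hasSum hh' hf.mdiff (hf.periodic hh |>.nat_mul M) hs
  refine ⟨⟨M * m, h3⟩, ?_⟩
  rw [h4, cuspExpFun_eq hh hm, cuspExpAux, ← hP]
  ext k
  rw [coeff_single_neg_mul_ofPowerSeries]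
  by_cases hk : (M : ℤ) ∣ k
  · obtain ⟨k', rfl⟩ := hk
    rw [ModularCurve.qExpand_coeff_mul, coeff_single_neg_mul_ofPowerSeries]
    have e1 : (M : ℤ) * k' + ((M * m : ℕ) : ℤ) = (M : ℤ) * (k' + m) := by push_cast; ring
    have hMz : (0 : ℤ) < M := by exact_mod_cast hMpos
    by_cases hk' : 0 ≤ k' + (m : ℤ)
    · have h5 : 0 ≤ (M : ℤ) * k' + ((M * m : ℕ) : ℤ) := by rw [e1]; positivity
      rw [if_pos h5, if_pos hk', PowerSeries.coeff_mk]
      have e2 : ((M : ℤ) * k' + ((M * m : ℕ) : ℤ)).toNat = M * (k' + m).toNat := by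
        rw [e1]
        have : (M : ℤ) * (k' + m) = ((M * (k' + m).toNat : ℕ) : ℤ) := by
          push_cast
          rw [Int.toNat_of_nonneg hk']
        rw [this, Int.toNat_natCast]
      rw [e2, if_pos (dvd_mul_right _ _), Nat.mul_div_cancel_left _ hMpos]
    · have h5 : ¬ 0 ≤ (M : ℤ) * k' + ((M * m : ℕ) : ℤ) := by
        rw [e1]
        intro h6
        exact hk' (nonneg_of_mul_nonneg_right h6 hMz)
      rw [if_neg h5, if_neg hk']
  · rw [ModularCurve.qExpand_coeff_of_not_dvd M _ hk]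
    split_ifs with h5
    · rw [PowerSeries.coeff_mk, if_neg]
      intro h6
      apply hk
      have h7 : (M : ℤ) ∣ ((k + ((M * m : ℕ) : ℤ)).toNat : ℤ) := by exact_mod_cast h6
      rw [Int.toNat_of_nonneg h5] at h7
      have h8 : (M : ℤ) ∣ ((M * m : ℕ) : ℤ) := by push_cast; exact dvd_mul_right _ _
      exact (Int.dvd_add_left h8).mp h7
    · rfl

theorem order_qExpand (M : ℕ) [NeZero M] (x : LaurentSeries ℂ) :
    (ModularCurve.qExpand ℂ M x).order = (M : ℤ) * x.order := by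
  have hMpos : 0 < M := Nat.pos_of_ne_zero (NeZero.ne M)
  by_cases hx : x = 0
  · simp [hx]
  · have hx' : ModularCurve.qExpand ℂ M x ≠ 0 := by
      intro h0
      exact hx (ModularCurve.qExpand_injective M (by rw [h0, map_zero]))
    have h1 : (ModularCurve.qExpand ℂ M x).coeff ((M : ℤ) * x.order) ≠ 0 := by
      rw [ModularCurve.qExpand_coeff_mul]
      exact fun h0 => hx (HahnSeries.coeff_order_eq_zero.mp h0)
    refine le_antisymm (HahnSeries.order_le_of_coeff_ne_zero h1) ?_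
    have h2 : (ModularCurve.qExpand ℂ M x).coeff (ModularCurve.qExpand ℂ M x).order ≠ 0 :=
      fun h0 => hx' (HahnSeries.coeff_order_eq_zero.mp h0)
    by_cases hd : (M : ℤ) ∣ (ModularCurve.qExpand ℂ M x).order
    · obtain ⟨k, hk⟩ := hd
      rw [hk, ModularCurve.qExpand_coeff_mul] at h2
      rw [hk]
      have h3 : x.order ≤ k := HahnSeries.order_le_of_coeff_ne_zero h2
      have hMz : (0 : ℤ) ≤ M := Int.natCast_nonneg M
      exact mul_le_mul_of_nonneg_left h3 hMz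
    · exact absurd (ModularCurve.qExpand_coeff_of_not_dvd M x hd) h2

end Fermat.Agent.S24.helper315
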