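import Fermat.Agent.S24.helper24_Spec
import Fermat.Agent.S24.helper458_AnalyticJ
import Fermat.Agent.S24.helper288_Hermite
import Fermat.Agent.S24.helper315_CuspSubst

/-!
# S24 / MOD: the analytic `j` at the cusp

* `cuspExpFun_jFun` : `jFun` is meromorphic at the cusp (period 1) with expansion `jqC`,
  the Prelude series `jq` with complex coefficients (uses `helper458.hasSum_jNumQ`);
* `cuspExpFun_jFun_affinePt` : `τ ↦ jFun ((aτ+b)/e)` is meromorphic at the cusp in the period `N`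
  whenever `e ∣ N`;
* `cuspExpFun_jFun_mul` : the expansion of `τ ↦ jFun (dτ)` in the period `N` is
  `qExpand (d N) jqC`.
-/

set_option autoImplicit false

open Complex Filter Function Topology ModularCurve
open UpperHalfPlane hiding I
open scoped Real Manifold MatrixGroups

noncomputable section

namespace Fermat.Agent.S24.helper315

open Fermat.Agent.S24.helper24 (jFun)

local notation "𝕢" => Periodic.qParam

/-- The formal `j` with complex coefficients. -/
def jqC : LaurentSeries ℂ := coeffMap (algebraMap ℚ ℂ) jq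

theorem coeffMap_ofPowerSeries {R S : Type*} [CommRing R] [CommRing S] (f : R →+* S)
    (P : PowerSeries R) :
    coeffMap f (HahnSeries.ofPowerSeries ℤ R P) = HahnSeries.ofPowerSeries ℤ S (P.map f) := by
  ext k
  rw [coeffMap_coeff]
  by_cases hk : 0 ≤ k
  · obtain ⟨n, rfl⟩ := Int.eq_ofNat_of_zero_le hk
    rw [HahnSeries.ofPowerSeries_apply_coeff, HahnSeries.ofPowerSeries_apply_coeff,
      PowerSeries.coeff_map]
  · rw [ofPowerSeries_coeff_of_neg _ (not_le.mp hk), ofPowerSeries_coeff_of_neg _ (not_le.mp hk),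
      map_zero]

theorem jqC_eq :
    jqC = HahnSeries.single (-((1 : ℕ) : ℤ)) (1 : ℂ) * HahnSeries.ofPowerSeries ℤ ℂ
      (PowerSeries.mk fun n => ((PowerSeries.coeff n jNumQ : ℚ) : ℂ)) := by
  rw [jqC, jq, map_mul, coeffMap_single, coeffMap_ofPowerSeries, map_one]
  congr 2
  ext n
  simp

theorem jqC_coeff_neg_one : jqC.coeff (-1) = 1 := by
  rw [jqC, coeffMap_coeff, coeff_jq_neg_one, map_one]

theorem jqC_coeff_of_lt {k : ℤ} (hk : k < -1) : jqC.coeff k = 0 := by
  rw [jqC, coeffMap_coeff, coeff_jq_of_lt hk, map_zero]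

theorem jqC_ne_zero : jqC ≠ 0 := fun h => by
  have := jqC_coeff_neg_one
  rw [h] at this
  simp at this

theorem order_jqC : jqC.order = -1 := by
  refine le_antisymm (HahnSeries.order_le_of_coeff_ne_zero (by rw [jqC_coeff_neg_one]; exact one_ne_zero))
    ?_
  by_contra hlt
  exact (fun h0 => jqC_ne_zero (HahnSeries.coeff_order_eq_zero.mp h0))
    (jqC_coeff_of_lt (not_le.mp hlt))

theorem mdiff_jFun : MDiff jFun := helper458.mdifferentiable_jFun

theorem jFun_smul (γ : SL(2, ℤ)) (τ : ℍ) : jFun (γ • τ) = jFun τ := helper458.jFun_smul γ τ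

theorem hPeriodic_jFun : HPeriodic 1 jFun := by
  intro τ
  rw [← modular_T_smul, jFun_smul]

/-- The analytic `j` is meromorphic at the cusp, with expansion the formal `j`. -/
theorem cuspExpFun_jFun : IsCuspMer 1 jFun ∧ cuspExpFun 1 jFun = jqC := by
  have hs : ∀ τ : ℍ, HasSum
      (fun n : ℕ => ((PowerSeries.coeff n jNumQ : ℚ) : ℂ) * qH 1 τ ^ n)
      (qH 1 τ ^ 1 * jFun τ) := by
    intro τ
    rw [pow_one]
    exact helper458.hasSum_jNumQ τ
  obtain ⟨h1, h2⟩ := cuspExpFun_eq_of_hasSum one_pos mdiff_jFun hPeriodic_jFun hs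
  exact ⟨⟨1, h1⟩, by rw [h2, jqC_eq]⟩

/-! ## Affine substitutions -/

/-- Expansion at the cusp (period `N`) of `τ ↦ f (x + r τ)` for `f` of period `1`, when
`M = N r` is a positive integer. -/
theorem cuspExpFun_comp_affine {f : ℍ → ℂ} (hf : IsCuspMer 1 f) (N M : ℕ) [NeZero N] [NeZero M]
    (x : ℝ) (r : {x : ℝ // 0 < x}) (hM : (M : ℝ) = N * r) :
    IsCuspMer (N : ℝ) (fun τ : ℍ => f (x +ᵥ (r • τ))) ∧
      cuspExpFun (N : ℝ) (fun τ : ℍ => f (x +ᵥ (r • τ)))
        = qExpand ℂ M (twist (expUnit x 1) (cuspExpFun 1 f)) := by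
  obtain ⟨h1, h2⟩ := cuspExpFun_comp_vadd one_pos x hf
  obtain ⟨h3, h4⟩ := cuspExpFun_comp_smul one_pos r h1
  have hpos : (0 : ℝ) < 1 / r := div_pos one_pos r.2
  obtain ⟨h5, h6⟩ := cuspExpFun_period_mul hpos M h3
  have e : (M : ℝ) * (1 / (r : ℝ)) = N := by
    rw [hM]
    field_simp [r.2.ne']
  rw [e] at h5 h6
  exact ⟨h5, by rw [h6, h4, h2]⟩

theorem affinePt_eq (a b e : ℤ) (ha : 0 < a) (he : 0 < e) (τ : ℍ) :
    helper288.affinePt a b e ha he τ
      = ((b : ℝ) / e) +ᵥ ((⟨(a : ℝ) / e, div_pos (by exact_mod_cast ha) (by exact_mod_cast he)⟩ :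
          {x : ℝ // 0 < x}) • τ) := by
  ext
  rw [helper288.coe_affinePt, coe_vadd, coe_pos_real_smul]
  have he' : (e : ℂ) ≠ 0 := by exact_mod_cast he.ne'
  simp only [real_smul]
  push_cast
  field_simp
  ring

/-- `τ ↦ j ((aτ + b)/e)` is meromorphic at the cusp in the period `N` if `e ∣ N`. -/
theorem cuspExpFun_jFun_affinePt (N : ℕ) [NeZero N] (a b e : ℤ) (ha : 0 < a) (he : 0 < e)
    (k : ℕ) (hk : e * k = N) :
    IsCuspMer (N : ℝ) (fun τ : ℍ => jFun (helper288.affinePt a b e ha he τ)) ∧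
      ∀ (M : ℕ) [NeZero M], (M : ℤ) = a * k →
        cuspExpFun (N : ℝ) (fun τ : ℍ => jFun (helper288.affinePt a b e ha he τ))
          = qExpand ℂ M (twist (expUnit ((b : ℝ) / e) 1) jqC) := by
  have hNpos : 0 < N := Nat.pos_of_ne_zero (NeZero.ne N)
  have hkpos : 0 < k := by
    rcases Nat.eq_zero_or_pos k with h0 | h0
    · rw [h0] at hk
      simp at hk
      exact absurd hk.symm (by exact_mod_cast hNpos.ne')
    · exact h0
  have hM0 : ∀ (M : ℕ) [NeZero M], (M : ℤ) = a * k →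
      IsCuspMer (N : ℝ) (fun τ : ℍ => jFun (helper288.affinePt a b e ha he τ)) ∧
        cuspExpFun (N : ℝ) (fun τ : ℍ => jFun (helper288.affinePt a b e ha he τ))
          = qExpand ℂ M (twist (expUnit ((b : ℝ) / e) 1) jqC) := by
    intro M _ hM
    have hMr : (M : ℝ) = N * ((a : ℝ) / e) := by
      have h1 : ((M : ℤ) : ℝ) = ((a * k : ℤ) : ℝ) := by rw [hM]
      have h2 : ((e * k : ℤ) : ℝ) = ((N : ℤ) : ℝ) := by rw [hk]
      push_cast at h1 h2
      have he' : (e : ℝ) ≠ 0 := by exact_mod_cast he.ne'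
      rw [h1, ← h2]
      field_simp
    have h3 := cuspExpFun_comp_affine cuspExpFun_jFun.1 N M ((b : ℝ) / e)
      ⟨(a : ℝ) / e, div_pos (by exact_mod_cast ha) (by exact_mod_cast he)⟩ hMr
    rw [cuspExpFun_jFun.2] at h3
    have e1 : (fun τ : ℍ => jFun (helper288.affinePt a b e ha he τ))
        = fun τ : ℍ => jFun (((b : ℝ) / e) +ᵥ
          ((⟨(a : ℝ) / e, div_pos (by exact_mod_cast ha) (by exact_mod_cast he)⟩ :
            {x : ℝ // 0 < x}) • τ)) := by
      funext τ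
      rw [affinePt_eq]
    rw [e1]
    exact h3
  have hMpos : 0 < a.toNat * k := Nat.mul_pos (by omega) hkpos
  have : NeZero (a.toNat * k) := ⟨hMpos.ne'⟩
  refine ⟨(hM0 (a.toNat * k) (by push_cast; rw [Int.toNat_of_nonneg ha.le])).1, ?_⟩
  intro M _ hM
  exact (hM0 M hM).2

/-- The point `d τ`. -/
theorem ofComplex_mul_eq_affinePt (d : ℕ) (hd : 0 < d) (τ : ℍ) :
    ofComplex ((d : ℂ) * (τ : ℂ))
      = helper288.affinePt (d : ℤ) 0 1 (by exact_mod_cast hd) one_pos τ := by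
  rw [helper288.affinePt_zero_one]
  norm_cast

/-- The expansion of `τ ↦ j (d τ)` in the period `N` is `j (t ^ (d N))`. -/
theorem cuspExpFun_jFun_mul (N d : ℕ) [NeZero N] [NeZero d] :
    IsCuspMer (N : ℝ) (fun τ : ℍ => jFun (ofComplex ((d : ℂ) * (τ : ℂ)))) ∧
      cuspExpFun (N : ℝ) (fun τ : ℍ => jFun (ofComplex ((d : ℂ) * (τ : ℂ))))
        = qExpand ℂ (N * d) jqC := by
  have hd : 0 < d := Nat.pos_of_ne_zero (NeZero.ne d)
  have h1 := cuspExpFun_jFun_affinePt N (d : ℤ) 0 1 (by exact_mod_cast hd) one_pos N (by simp)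
  simp only [← ofComplex_mul_eq_affinePt d hd] at h1
  refine ⟨h1.1, ?_⟩
  have : NeZero (N * d) := ⟨Nat.mul_ne_zero (NeZero.ne N) (NeZero.ne d)⟩
  rw [h1.2 (N * d) (by push_cast; ring)]
  congr 1
  ext n
  simp [expUnit]

end Fermat.Agent.S24.helper315
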