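import Fermat.Agent.S24.helper3176_FieldAlg
import Fermat.Agent.S24.helper315_CuspJ

/-!
# S24 / MOD: the analytic evaluation `ev : A_N → (ℍ → ℂ)`

`A_N = helper3176.AN N = ℚ̄[j(q^d) : d ∣ N]` inside the function field `FN N`.

* `theta N : FN N →+* LaurentSeries ℂ` : the formal embedding `f ↦ (ι₀ f)(t^N)`;
* `ev N : AN N →+* (ℍ → ℂ)` : the unique function meromorphic at the cusp whose expansion in
  `t = exp (2πiτ/N)` is `theta N a`;  `ev (j(q^d)) = j(dτ)`;
* `exists_ev` : the `(Ev)` package used by the finite-point modules: holomorphy, constants,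
  `ev j = jFun`, injectivity, `Γ₀(N)`-invariance and separation.
-/

set_option autoImplicit false

open Complex Filter Function Topology ModularCurve CongruenceSubgroup
open UpperHalfPlane hiding I
open scoped Real Manifold MatrixGroups

noncomputable section

namespace Fermat.Agent.S24.helper315

open Fermat.Agent.S24.helper24 Fermat.Agent.S24.helper3176

/-- A fixed embedding of `ℚ̄` into `ℂ`. -/
def iota0 : Kbar →+* ℂ :=
  letI : Algebra.IsAlgebraic ℚ (AlgebraicClosure ℚ) := AlgebraicClosure.isAlgebraic ℚ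
  ((IsAlgClosed.lift (R := ℚ) (S := AlgebraicClosure ℚ) (M := ℂ) : AlgebraicClosure ℚ →ₐ[ℚ] ℂ) :
    AlgebraicClosure ℚ →+* ℂ)

theorem iota0_comp_algebraMap : iota0.comp (algebraMap ℚ Kbar) = algebraMap ℚ ℂ :=
  Subsingleton.elim _ _

theorem iota0_injective : Function.Injective iota0 := iota0.injective

variable (N : ℕ) [NeZero N]

/-- The formal embedding of the function field into Laurent series in `t = q^(1/N)` over `ℂ`. -/
def theta : FN N →+* LaurentSeries ℂ :=
  (qExpand ℂ N).comp ((coeffMap iota0).comp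
    ((modularFunctionFieldBar N).val : FN N →+* LaurentSeries Kbar))

theorem theta_apply (f : FN N) :
    theta N f = qExpand ℂ N (coeffMap iota0 (f : LaurentSeries Kbar)) := rfl

theorem theta_injective : Function.Injective (theta N) := (theta N).injective

theorem theta_jBarD (d : ℕ) [NeZero d] (hd : d ∣ N) :
    theta N (jBarD N d hd) = qExpand ℂ (N * d) jqC := by
  rw [theta_apply, coe_jBarD, jSeries, coeffEmb, coeffMap_coeffMap, iota0_comp_algebraMap,
    helper3176.coeffMap_qExpand, qExpand_qExpand]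
  rfl

theorem theta_algebraMap (c : Kbar) :
    theta N (algebraMap Kbar (FN N) c) = HahnSeries.C (iota0 c) := by
  rw [theta_apply]
  have h1 : ((algebraMap Kbar (FN N) c : FN N) : LaurentSeries Kbar)
      = algebraMap Kbar (LaurentSeries Kbar) c := rfl
  rw [h1, algebraMap_laurentSeries_eq_single, coeffMap_single, qExpand_single, mul_zero]
  rfl

/-! ## Elements of `cuspMer N` -/

/-- `τ ↦ j (d τ)` as an element of `cuspMer N`. -/
def jdElem (d : ℕ) [NeZero d] : cuspMer N :=
  ⟨fun τ : ℍ => jFun (ofComplex ((d : ℂ) * (τ : ℂ))), (cuspExpFun_jFun_mul N d).1⟩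

theorem cuspExp_jdElem (d : ℕ) [NeZero d] : cuspExp N (jdElem N d) = qExpand ℂ (N * d) jqC :=
  (cuspExpFun_jFun_mul N d).2

/-- Constant functions as elements of `cuspMer N`. -/
def constElem (c : ℂ) : cuspMer N := ⟨fun _ => c, (IsCuspHol.const _ c).isCuspMer⟩

theorem cuspExp_constElem (c : ℂ) : cuspExp N (constElem N c) = HahnSeries.C c :=
  cuspExpFun_const (natCast_pos' N) c

/-! ## Induction on `A_N` -/

omit [NeZero N] in
theorem AN_induction_aux {P : AN N → Prop}
    (hgen : ∀ (d : ℕ) [NeZero d] (hd : d ∣ N), P ⟨jBarD N d hd, jBarD_mem_AN N d hd⟩)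
    (hc : ∀ c : Kbar, P (algebraMap Kbar (AN N) c))
    (hadd : ∀ a b, P a → P b → P (a + b)) (hmul : ∀ a b, P a → P b → P (a * b))
    (x : FN N) (hx : x ∈ Algebra.adjoin Kbar (genSetF N)) : P ⟨x, hx⟩ := by
  induction hx using Algebra.adjoin_induction with
  | mem x hx =>
    obtain ⟨d, hd0, hd, rfl⟩ := hx
    exact hgen d hd
  | algebraMap c => exact hc c
  | add x y hx hy h1 h2 => exact hadd ⟨x, hx⟩ ⟨y, hy⟩ h1 h2
  | mul x y hx hy h1 h2 => exact hmul ⟨x, hx⟩ ⟨y, hy⟩ h1 h2

omit [NeZero N] in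
theorem AN_induction {P : AN N → Prop}
    (hgen : ∀ (d : ℕ) [NeZero d] (hd : d ∣ N), P ⟨jBarD N d hd, jBarD_mem_AN N d hd⟩)
    (hc : ∀ c : Kbar, P (algebraMap Kbar (AN N) c))
    (hadd : ∀ a b, P a → P b → P (a + b)) (hmul : ∀ a b, P a → P b → P (a * b)) :
    ∀ a, P a := fun a => AN_induction_aux N hgen hc hadd hmul a.1 a.2

theorem theta_mem_range (a : AN N) : theta N (a : FN N) ∈ (cuspExp N).range := by
  induction a using AN_induction N with
  | hgen d hd => exact ⟨jdElem N d, by rw [cuspExp_jdElem, theta_jBarD]⟩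
  | hc c => exact ⟨constElem N (iota0 c), by rw [cuspExp_constElem]; exact (theta_algebraMap N c).symm⟩
  | hadd a b ha hb =>
    rw [Subalgebra.coe_add, map_add]
    exact add_mem ha hb
  | hmul a b ha hb =>
    rw [Subalgebra.coe_mul, map_mul]
    exact mul_mem ha hb

/-! ## The evaluation map -/

/-- The function on `ℍ` attached to an element of `A_N`, as an element of `cuspMer N`. -/
def evFun (a : AN N) : cuspMer N := (theta_mem_range N a).choose

theorem cuspExp_evFun (a : AN N) : cuspExp N (evFun N a) = theta N (a : FN N) :=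
  (theta_mem_range N a).choose_spec

/-- `evFun` as a ring hom. -/
def evSub : AN N →+* cuspMer N where
  toFun := evFun N
  map_one' := cuspExp_injective N (by rw [cuspExp_evFun, map_one, Subalgebra.coe_one, map_one])
  map_mul' a b := cuspExp_injective N (by
    rw [cuspExp_evFun, map_mul (cuspExp N), cuspExp_evFun, cuspExp_evFun, Subalgebra.coe_mul,
      map_mul])
  map_zero' := cuspExp_injective N (by
    rw [cuspExp_evFun, map_zero, Subalgebra.coe_zero, map_zero])
  map_add' a b := cuspExp_injective N (by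
    rw [cuspExp_evFun, map_add (cuspExp N), cuspExp_evFun, cuspExp_evFun, Subalgebra.coe_add,
      map_add])

theorem cuspExp_evSub (a : AN N) : cuspExp N (evSub N a) = theta N (a : FN N) :=
  cuspExp_evFun N a

theorem evSub_injective : Function.Injective (evSub N) := by
  intro a b hab
  have h1 : theta N (a : FN N) = theta N (b : FN N) := by
    rw [← cuspExp_evSub, ← cuspExp_evSub, hab]
  exact Subtype.ext (theta_injective N h1)

/-- The analytic evaluation of `A_N` in functions on the upper half plane. -/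
def ev : AN N →+* (ℍ → ℂ) := (cuspMer N).subtype.comp (evSub N)

theorem ev_apply (a : AN N) : ev N a = (evSub N a : ℍ → ℂ) := rfl

theorem ev_injective : Function.Injective (ev N) :=
  (Subtype.val_injective).comp (evSub_injective N)

theorem isCuspMer_ev (a : AN N) : IsCuspMer (N : ℝ) (ev N a) := (evSub N a).2

theorem mdiff_ev (a : AN N) : MDiff (ev N a) := (isCuspMer_ev N a).mdiff

theorem cuspExpFun_ev (a : AN N) : cuspExpFun (N : ℝ) (ev N a) = theta N (a : FN N) :=
  cuspExp_evSub N a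

theorem evSub_jBarD (d : ℕ) [NeZero d] (hd : d ∣ N) :
    evSub N ⟨jBarD N d hd, jBarD_mem_AN N d hd⟩ = jdElem N d :=
  cuspExp_injective N (by rw [cuspExp_evSub, cuspExp_jdElem, theta_jBarD])

theorem ev_jBarD (d : ℕ) [NeZero d] (hd : d ∣ N) :
    ev N ⟨jBarD N d hd, jBarD_mem_AN N d hd⟩
      = fun τ : ℍ => jFun (ofComplex ((d : ℂ) * (τ : ℂ))) := by
  rw [ev_apply, evSub_jBarD]
  rfl

theorem evSub_algebraMap (c : Kbar) : evSub N (algebraMap Kbar (AN N) c) = constElem N (iota0 c) :=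
  cuspExp_injective N (by
    rw [cuspExp_evSub, cuspExp_constElem]
    exact theta_algebraMap N c)

theorem ev_algebraMap (c : Kbar) : ev N (algebraMap Kbar (AN N) c) = fun _ => iota0 c := by
  rw [ev_apply, evSub_algebraMap]
  rfl

theorem ev_jBar : ev N ⟨jBar N, jBar_mem_AN N⟩ = jFun := by
  have h := ev_jBarD N 1 (one_dvd N)
  have e : (⟨jBar N, jBar_mem_AN N⟩ : AN N) = ⟨jBarD N 1 (one_dvd N), jBarD_mem_AN N 1 (one_dvd N)⟩ :=
    rfl
  rw [e, h]
  funext τ
  simp

/-- `Γ₀(N)`-invariance of the analytic evaluation. -/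
theorem ev_smul_of_mem_Gamma0 {γ : SL(2, ℤ)} (hγ : γ ∈ Gamma0 N) (a : AN N) (τ : ℍ) :
    ev N a (γ • τ) = ev N a τ := by
  induction a using AN_induction N with
  | hgen d hd =>
    rw [ev_jBarD]
    exact helper288.jFn_mul_smul_of_mem_Gamma0 N d (Nat.pos_of_ne_zero (NeZero.ne d)) hd γ hγ τ
  | hc c => rw [ev_algebraMap]
  | hadd a b ha hb => rw [map_add, Pi.add_apply, Pi.add_apply, ha, hb]
  | hmul a b ha hb => rw [map_mul, Pi.mul_apply, Pi.mul_apply, ha, hb]

/-- Separation: an element of `SL(2, ℤ)` fixing all `ev a` lies in `Γ₀(N)`. -/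
theorem mem_Gamma0_of_ev_smul {g : SL(2, ℤ)} (h : ∀ (a : AN N) (τ : ℍ), ev N a (g • τ) = ev N a τ) :
    g ∈ Gamma0 N := by
  refine helper288.mem_Gamma0_of_jFn_eq N g (fun τ => ?_)
  have h1 := h ⟨jBarD N N dvd_rfl, jBarD_mem_AN N N dvd_rfl⟩ τ
  rw [ev_jBarD] at h1
  exact h1

/-- Two-coset form of the separation. -/
theorem mul_inv_mem_Gamma0_of_ev_smul {g g' : SL(2, ℤ)}
    (h : ∀ (a : AN N) (τ : ℍ), ev N a (g • τ) = ev N a (g' • τ)) : g * g'⁻¹ ∈ Gamma0 N := by
  refine mem_Gamma0_of_ev_smul N (fun a τ => ?_)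
  have := h a (g'⁻¹ • τ)
  rwa [← mul_smul, ← mul_smul, mul_inv_cancel, one_smul] at this

/-- **The `(Ev)` package**: an embedding `κ : ℚ̄ → ℂ` and an injective ring hom `ev` from
`A_N = ℚ̄[j(q^d) : d ∣ N]` to holomorphic functions on `ℍ`, sending constants to constants and
`j` to the analytic `j`, `Γ₀(N)`-invariant, and separating the cosets of `Γ₀(N)`. -/
theorem exists_ev : ∃ (κ : Kbar →+* ℂ) (e : AN N →+* (ℍ → ℂ)),
    (∀ a, MDiff (e a)) ∧ (∀ c : Kbar, e (algebraMap Kbar (AN N) c) = fun _ => κ c) ∧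
    e ⟨jBar N, jBar_mem_AN N⟩ = jFun ∧ Function.Injective e ∧
    (∀ γ ∈ Gamma0 N, ∀ (a : AN N) (τ : ℍ), e a (γ • τ) = e a τ) ∧
    (∀ g : SL(2, ℤ), (∀ (a : AN N) (τ : ℍ), e a (g • τ) = e a τ) → g ∈ Gamma0 N) :=
  ⟨iota0, ev N, mdiff_ev N, ev_algebraMap N, ev_jBar N, ev_injective N,
    fun _ hγ a τ => ev_smul_of_mem_Gamma0 N hγ a τ, fun _ h => mem_Gamma0_of_ev_smul N h⟩

end Fermat.Agent.S24.helper315
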