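import Fermat.Agent.S24.helper164_FinitePoints
import Fermat.Agent.S24.helper315_Embed
import Fermat.Agent.S24.helper454_JSurj
import Fermat.Agent.S24.helper2064_JOrder

/-!
# S24 (helper164): the three finite-point leaves of the Spec, hypothesis-free

`Stmt_LocalGeneric`, `Stmt_Local1728`, `Stmt_LocalZero` of `helper24_Spec`, obtained from
`helper164_FinitePoints` (local data from an analytic embedding package), the evaluation
`helper315.exists_ev` on `helper3176.AN N`, surjectivity / fixed points of `j`
(`helper454_JSurj`) and the local orders of `j` (`helper2064_JOrder`).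
-/

set_option autoImplicit false

open ModularCurve CongruenceSubgroup UpperHalfPlane
open Fermat.Agent.S24.helper24
open scoped MatrixGroups Manifold

namespace Fermat.Agent.S24.helper164

/-- The analytic embedding package holds at every level. -/
theorem embPackage (N : ℕ) [NeZero N] : EmbPackage N := by
  obtain ⟨κ, e, hmd, hc, hj, hinj, hΓ, hsep⟩ := helper315.exists_ev N
  refine ⟨κ, helper3176.AN N, e, helper3176.exists_div_AN N, hmd, ?_, hc,
    ⟨⟨jBar N, helper3176.jBar_mem_AN N⟩, rfl, hj⟩, fun r γ hγ τ => hΓ γ hγ r τ, hsep⟩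
  intro r hr
  exact hinj (by rw [hr, map_zero])

theorem jFun_smul (γ : SL(2, ℤ)) (τ : ℍ) : jFun (γ • τ) = jFun τ :=
  helper315.jFun_smul γ τ

/-- **Spec leaf M3**: local datum over a value `c ∉ {0, 1728}`. -/
theorem stmt_LocalGeneric : Stmt_LocalGeneric :=
  stmt_LocalGeneric_of (fun N _ => embPackage N) jFun_smul
    (fun c => helper454.exists_j_eq c)
    (fun τ₀ h0 h1 => (helper2064.analyticOrderAt_sub_of_eq jFun (fun _ => rfl) τ₀).2.2 h0 h1)

/-- **Spec leaf M4**: local datum over `j = 1728`. -/
theorem stmt_Local1728 : Stmt_Local1728 := by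
  refine stmt_Local1728_of (fun N _ => embPackage N) jFun_smul
    ⟨UpperHalfPlane.I, helper454.S_smul_I, ?_⟩
  have hI : jFun UpperHalfPlane.I = 1728 := helper454.j_I
  have h := (helper2064.analyticOrderAt_sub_of_eq jFun (fun _ => rfl) UpperHalfPlane.I).2.1 hI
  rw [hI] at h
  exact h

/-- **Spec leaf M5**: local datum over `j = 0`. -/
theorem stmt_LocalZero : Stmt_LocalZero := by
  refine stmt_LocalZero_of (fun N _ => embPackage N) jFun_smul
    ⟨helper454.rho, helper454.ST_smul_rho, ?_⟩
  have hρ : jFun helper454.rho = 0 := helper454.j_rho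
  have h := (helper2064.analyticOrderAt_sub_of_eq jFun (fun _ => rfl) helper454.rho).1 hρ
  rw [hρ] at h
  simpa using h

end Fermat.Agent.S24.helper164
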