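import Fermat.Agent.S24.helper24_Spec

/-!
# S24, module M3-FIN (helper164): local data at finite points

`EmbPackage N` (an analytic evaluation of the subalgebra generated by the `j(q^d)`) together
with three facts on the analytic `j`-function gives the statements
`Stmt_LocalGeneric`, `Stmt_Local1728`, `Stmt_LocalZero` of `helper24_Spec`.
-/

set_option autoImplicit false

open ModularCurve AlgebraicCurve IntermediateField CongruenceSubgroup UpperHalfPlane
open Fermat.Agent.S24.helper24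
open scoped MatrixGroups Manifold Topology

namespace Fermat.Agent.S24.helper164

noncomputable section

/-! ## The ring of holomorphic functions on the upper half plane -/

/-- The ring of holomorphic functions on the upper half plane. -/
def Hol : Subring (ℍ → ℂ) where
  carrier := {f | DifferentiableOn ℂ (f ∘ ofComplex) {z | 0 < z.im}}
  mul_mem' {f g} hf hg := by
    have : (f * g) ∘ ofComplex = (f ∘ ofComplex) * (g ∘ ofComplex) := rfl
    simpa [this] using DifferentiableOn.mul hf hg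
  one_mem' := by
    have : (1 : ℍ → ℂ) ∘ ofComplex = fun _ => (1 : ℂ) := rfl
    simp [this]
  add_mem' {f g} hf hg := by
    have : (f + g) ∘ ofComplex = (f ∘ ofComplex) + (g ∘ ofComplex) := rfl
    simpa [this] using DifferentiableOn.add hf hg
  zero_mem' := by
    have : (0 : ℍ → ℂ) ∘ ofComplex = fun _ => (0 : ℂ) := rfl
    simp [this]
  neg_mem' {f} hf := by
    have : (-f) ∘ ofComplex = -(f ∘ ofComplex) := rfl
    simpa [this] using DifferentiableOn.neg hf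

theorem mem_Hol_iff {f : ℍ → ℂ} : f ∈ Hol ↔ MDifferentiable 𝓘(ℂ) 𝓘(ℂ) f :=
  UpperHalfPlane.mdifferentiable_iff.symm

theorem hol_mdiff (f : Hol) : MDifferentiable 𝓘(ℂ) 𝓘(ℂ) (f : ℍ → ℂ) := mem_Hol_iff.mp f.2

instance instIsDomainHol : IsDomain Hol := by
  have h1 : Nontrivial Hol := ⟨⟨0, 1, fun h => by
    have := congrFun (congrArg Subtype.val h) UpperHalfPlane.I
    simp at this⟩⟩
  have h2 : NoZeroDivisors Hol := ⟨fun {a b} h => by
    have h' : (a : ℍ → ℂ) * (b : ℍ → ℂ) = 0 := congrArg Subtype.val h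
    rcases (UpperHalfPlane.mul_eq_zero_iff (hol_mdiff a) (hol_mdiff b)).mp h' with h1 | h1
    · exact Or.inl (Subtype.ext h1)
    · exact Or.inr (Subtype.ext h1)⟩
  exact NoZeroDivisors.to_isDomain Hol

/-- The function on `ℂ` attached to a function on `ℍ`. -/
def extC (f : ℍ → ℂ) : ℂ → ℂ := fun z => f (ofComplex z)

theorem extC_apply_coe (f : ℍ → ℂ) (τ : ℍ) : extC f τ = f τ := by
  simp [extC]

theorem extC_mul (f g : ℍ → ℂ) : extC (f * g) = extC f * extC g := rfl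

theorem extC_add (f g : ℍ → ℂ) : extC (f + g) = extC f + extC g := rfl

theorem hol_analyticAt (f : Hol) (τ : ℍ) : AnalyticAt ℂ (extC f) τ :=
  DifferentiableOn.analyticAt (s := {z | 0 < z.im}) f.2
    (isOpen_upperHalfPlaneSet.mem_nhds τ.im_pos)

theorem hol_meromorphicAt (f : Hol) (τ : ℍ) : MeromorphicAt (extC f) τ :=
  (hol_analyticAt f τ).meromorphicAt

/-- If `f ∈ Hol` vanishes on a punctured neighbourhood of a point, it is zero. -/
theorem hol_eq_zero_of_eventually (f : Hol) (τ : ℍ)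
    (h : ∀ᶠ z in 𝓝[≠] (τ : ℂ), extC f z = 0) : f = 0 := by
  have han : AnalyticOnNhd ℂ (extC f) {z | 0 < z.im} :=
    DifferentiableOn.analyticOnNhd f.2 isOpen_upperHalfPlaneSet
  have hpre : IsPreconnected {z : ℂ | 0 < z.im} :=
    (Complex.isConnected_of_upperHalfPlane subset_rfl (by grind)).isPreconnected
  have := han.eqOn_zero_of_preconnected_of_frequently_eq_zero hpre τ.im_pos h.frequently
  apply Subtype.ext
  funext w
  have h2 := this w.im_pos
  rw [extC_apply_coe] at h2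
  simpa using h2

/-! ## The order at a point -/

/-- The order of vanishing at `τ₀` as an additive valuation on `Hol`. -/
def ordH (τ₀ : ℍ) : AddValuation Hol (WithTop ℤ) :=
  AddValuation.of (fun f => meromorphicOrderAt (extC f) τ₀)
    (by
      rw [meromorphicOrderAt_eq_top_iff]
      exact Filter.Eventually.of_forall fun z => rfl)
    (by
      have : extC ((1 : Hol) : ℍ → ℂ) = fun _ => (1 : ℂ) := rfl
      rw [this]
      classical
      rw [meromorphicOrderAt_const]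
      simp)
    (fun f g => by
      have := meromorphicOrderAt_add (hol_meromorphicAt f τ₀) (hol_meromorphicAt g τ₀)
      exact this)
    (fun f g => by
      have := meromorphicOrderAt_mul (hol_meromorphicAt f τ₀) (hol_meromorphicAt g τ₀)
      exact this)

theorem ordH_apply (τ₀ : ℍ) (f : Hol) : ordH τ₀ f = meromorphicOrderAt (extC f) τ₀ := rfl

theorem ordH_ne_top (τ₀ : ℍ) {f : Hol} (hf : f ≠ 0) : ordH τ₀ f ≠ ⊤ := by
  intro h
  rw [ordH_apply, meromorphicOrderAt_eq_top_iff] at h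
  exact hf (hol_eq_zero_of_eventually f τ₀ h)

theorem ordH_nonneg (τ₀ : ℍ) (f : Hol) : 0 ≤ ordH τ₀ f :=
  (hol_analyticAt f τ₀).meromorphicOrderAt_nonneg

/-- The field of meromorphic functions on the upper half plane. -/
abbrev Mer : Type := FractionRing Hol

theorem nonZeroDivisors_le_supp (τ₀ : ℍ) :
    nonZeroDivisors Hol ≤ (AddValuation.toValuation (ordH τ₀)).supp.primeCompl := by
  intro s hs
  have hs0 : s ≠ 0 := nonZeroDivisors.ne_zero hs
  show s ∉ (AddValuation.toValuation (ordH τ₀)).supp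
  rw [Valuation.mem_supp_iff]
  intro h
  exact ordH_ne_top τ₀ hs0 h

/-- The order at `τ₀` as an additive valuation on `Mer`. -/
def ordM (τ₀ : ℍ) : AddValuation Mer (WithTop ℤ) :=
  AddValuation.ofValuation
    ((AddValuation.toValuation (ordH τ₀)).extendToLocalization (nonZeroDivisors_le_supp τ₀) Mer)

theorem ordM_algebraMap (τ₀ : ℍ) (f : Hol) : ordM τ₀ (algebraMap Hol Mer f) = ordH τ₀ f :=
  Valuation.extendToLocalization_apply_map_apply (AddValuation.toValuation (ordH τ₀))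
    (nonZeroDivisors_le_supp τ₀) Mer f

theorem ordM_ne_top (τ₀ : ℍ) {z : Mer} (hz : z ≠ 0) : ordM τ₀ z ≠ ⊤ :=
  (AddValuation.ne_top_iff (ordM τ₀)).mpr hz

theorem ordM_exists_int (τ₀ : ℍ) {z : Mer} (hz : z ≠ 0) : ∃ l : ℤ, ordM τ₀ z = (l : WithTop ℤ) := by
  obtain ⟨l, hl⟩ := WithTop.ne_top_iff_exists.mp (ordM_ne_top τ₀ hz)
  exact ⟨l, hl.symm⟩

/-! ## The Möbius action -/

theorem mdiff_smul (g : SL(2, ℤ)) : MDifferentiable 𝓘(ℂ) 𝓘(ℂ) (fun τ : ℍ => g • τ) :=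
  UpperHalfPlane.mdifferentiable_smul (g := (g : GL (Fin 2) ℝ)) (by simp)

theorem comp_smul_mem_Hol (g : SL(2, ℤ)) {f : ℍ → ℂ} (hf : f ∈ Hol) :
    (fun τ => f (g • τ)) ∈ Hol := by
  rw [mem_Hol_iff] at hf ⊢
  exact hf.comp (mdiff_smul g)

/-- Composition with `g`, as a ring automorphism of `Hol`. -/
def compHol (g : SL(2, ℤ)) : Hol ≃+* Hol where
  toFun f := ⟨fun τ => (f : ℍ → ℂ) (g • τ), comp_smul_mem_Hol g f.2⟩
  invFun f := ⟨fun τ => (f : ℍ → ℂ) (g⁻¹ • τ), comp_smul_mem_Hol g⁻¹ f.2⟩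
  left_inv f := by
    apply Subtype.ext
    funext τ
    show (f : ℍ → ℂ) (g • g⁻¹ • τ) = (f : ℍ → ℂ) τ
    rw [smul_inv_smul]
  right_inv f := by
    apply Subtype.ext
    funext τ
    show (f : ℍ → ℂ) (g⁻¹ • g • τ) = (f : ℍ → ℂ) τ
    rw [inv_smul_smul]
  map_mul' _ _ := rfl
  map_add' _ _ := rfl

theorem compHol_apply (g : SL(2, ℤ)) (f : Hol) (τ : ℍ) :
    (compHol g f : ℍ → ℂ) τ = (f : ℍ → ℂ) (g • τ) := rfl

/-- The Möbius transformation attached to `g`, as a function on `ℂ`. -/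
def moebC (g : SL(2, ℤ)) : ℂ → ℂ := fun z => ((g • ofComplex z : ℍ) : ℂ)

theorem moebC_coe (g : SL(2, ℤ)) (τ : ℍ) : moebC g τ = ((g • τ : ℍ) : ℂ) := by
  simp [moebC]

theorem extC_compHol (g : SL(2, ℤ)) (f : Hol) (z : ℂ) :
    extC (compHol g f) z = extC f (moebC g z) := by
  simp [extC, moebC, compHol_apply]

theorem det_pos (g : SL(2, ℤ)) : 0 < ((g : GL (Fin 2) ℝ)).val.det := by
  have h : (0 : ℝ) < ((g : GL (Fin 2) ℝ)).det.val := by simp
  exact h

theorem ordH_compHol (g : SL(2, ℤ)) (τ₀ : ℍ) (f : Hol) :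
    ordH τ₀ (compHol g f) = ordH (g • τ₀) f := by
  rw [ordH_apply, ordH_apply]
  exact UpperHalfPlane.meromorphicOrderAt_comp_smul (f := (f : ℍ → ℂ)) (τ := τ₀)
    (g := (g : GL (Fin 2) ℝ)) (det_pos g)

/-- The automorphism of `Mer` induced by `g`. -/
def sigmaM (g : SL(2, ℤ)) : Mer ≃+* Mer := IsFractionRing.ringEquivOfRingEquiv (compHol g)

theorem sigmaM_algebraMap (g : SL(2, ℤ)) (f : Hol) :
    sigmaM g (algebraMap Hol Mer f) = algebraMap Hol Mer (compHol g f) :=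
  IsFractionRing.ringEquivOfRingEquiv_algebraMap _ f

theorem exists_div_eq (z : Mer) :
    ∃ a b : Hol, b ≠ 0 ∧ z = algebraMap Hol Mer a / algebraMap Hol Mer b := by
  obtain ⟨a, b, hb, rfl⟩ := IsFractionRing.div_surjective Hol z
  exact ⟨a, b, nonZeroDivisors.ne_zero hb, rfl⟩

theorem algebraMap_ne_zero {b : Hol} (hb : b ≠ 0) : algebraMap Hol Mer b ≠ 0 :=
  fun h => hb ((IsFractionRing.injective Hol Mer) (by rw [h, map_zero]))

theorem ordM_div (τ₀ : ℍ) (a b : Hol) :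
    ordM τ₀ (algebraMap Hol Mer a / algebraMap Hol Mer b) = ordH τ₀ a - ordH τ₀ b := by
  rw [AddValuation.map_div, ordM_algebraMap, ordM_algebraMap]

theorem ordM_sigmaM (g : SL(2, ℤ)) (τ₀ : ℍ) (z : Mer) :
    ordM τ₀ (sigmaM g z) = ordM (g • τ₀) z := by
  obtain ⟨a, b, hb, rfl⟩ := exists_div_eq z
  rw [map_div₀, sigmaM_algebraMap, sigmaM_algebraMap, ordM_div, ordM_div, ordH_compHol,
    ordH_compHol]

theorem sigmaM_mul (g h : SL(2, ℤ)) (z : Mer) : sigmaM (g * h) z = sigmaM h (sigmaM g z) := by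
  obtain ⟨a, b, hb, rfl⟩ := exists_div_eq z
  have key : ∀ f : Hol, compHol (g * h) f = compHol h (compHol g f) := by
    intro f
    apply Subtype.ext
    funext τ
    show (f : ℍ → ℂ) ((g * h) • τ) = (f : ℍ → ℂ) (g • h • τ)
    rw [mul_smul]
  simp only [map_div₀, sigmaM_algebraMap, key]

theorem sigmaM_eq_self_of_smul (h : SL(2, ℤ)) (hh : ∀ τ : ℍ, h • τ = τ) (z : Mer) :
    sigmaM h z = z := by
  obtain ⟨a, b, hb, rfl⟩ := exists_div_eq z
  have key : ∀ f : Hol, compHol h f = f := by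
    intro f
    apply Subtype.ext
    funext τ
    show (f : ℍ → ℂ) (h • τ) = (f : ℍ → ℂ) τ
    rw [hh]
  simp only [map_div₀, sigmaM_algebraMap, key]

theorem sigmaM_iterate (g : SL(2, ℤ)) (k : ℕ) (z : Mer) :
    (sigmaM g)^[k] z = sigmaM (g ^ k) z := by
  induction k with
  | zero =>
    rw [Function.iterate_zero, id_eq, pow_zero]
    exact (sigmaM_eq_self_of_smul 1 (fun τ => one_smul _ τ) z).symm
  | succ k ih =>
    rw [Function.iterate_succ_apply', ih, pow_succ, sigmaM_mul]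

/-! ## The multiplier lemma -/

theorem hol_eventually_ne_zero (τ₀ : ℍ) {b : Hol} (hb : b ≠ 0) :
    ∀ᶠ w in 𝓝[≠] (τ₀ : ℂ), extC b w ≠ 0 :=
  (meromorphicOrderAt_ne_top_iff_eventually_ne_zero (hol_meromorphicAt b τ₀)).mp
    (ordH_ne_top τ₀ hb)

/-- If `g` fixes `τ₀` with derivative `μ ≠ 0` there, and `a / b` is invariant under `g`, then
`μ ^ (ord a - ord b) = 1`. -/
theorem multiplier_zpow_eq_one (g : SL(2, ℤ)) (τ₀ : ℍ) (hfix : g • τ₀ = τ₀) (μ : ℂ)
    (hμ : HasDerivAt (moebC g) μ τ₀) (hμ0 : μ ≠ 0)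
    (a b : Hol) (hb : b ≠ 0) (hrel : a * compHol g b = compHol g a * b)
    (p q : ℤ) (hp : ordH τ₀ a = p) (hq : ordH τ₀ b = q) : μ ^ (p - q) = 1 := by
  have hMτ : moebC g τ₀ = τ₀ := by rw [moebC_coe, hfix]
  have hZ : MeromorphicAt (fun w : ℂ => (w - (τ₀ : ℂ)) ^ (-(p - q))) (τ₀ : ℂ) := by fun_prop
  have hAB : MeromorphicAt (extC a * (extC b)⁻¹) (τ₀ : ℂ) :=
    (hol_meromorphicAt a τ₀).mul (hol_meromorphicAt b τ₀).inv
  -- the auxiliary function
  let Y : ℂ → ℂ := extC a * (extC b)⁻¹ * (fun w => (w - (τ₀ : ℂ)) ^ (-(p - q)))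
  have hYmer : MeromorphicAt Y τ₀ := hAB.mul hZ
  have hYord : meromorphicOrderAt Y τ₀ = 0 := by
    have h3 : meromorphicOrderAt (fun w : ℂ => (w - (τ₀ : ℂ)) ^ (-(p - q))) (τ₀ : ℂ)
        = ((-(p - q) : ℤ) : WithTop ℤ) := meromorphicOrderAt_zpow_id_sub_const
    show meromorphicOrderAt (extC a * (extC b)⁻¹ * (fun w => (w - (τ₀ : ℂ)) ^ (-(p - q)))) τ₀ = 0
    rw [meromorphicOrderAt_mul hAB hZ,
      meromorphicOrderAt_mul (hol_meromorphicAt a τ₀) (hol_meromorphicAt b τ₀).inv,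
      meromorphicOrderAt_inv, ← ordH_apply, ← ordH_apply, hp, hq, h3]
    norm_cast
    ring
  obtain ⟨c, hc0, hc⟩ := tendsto_ne_zero_of_meromorphicOrderAt_eq_zero hYmer hYord
  -- the slope of the Möbius map
  have hslope : Filter.Tendsto (slope (moebC g) (τ₀ : ℂ)) (𝓝[≠] (τ₀ : ℂ)) (𝓝 μ) :=
    hμ.tendsto_slope
  have hslope_ne : ∀ᶠ w in 𝓝[≠] (τ₀ : ℂ), slope (moebC g) (τ₀ : ℂ) w ≠ 0 :=
    hslope.eventually_ne hμ0
  have hM : Filter.Tendsto (moebC g) (𝓝[≠] (τ₀ : ℂ)) (𝓝[≠] (τ₀ : ℂ)) := by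
    rw [tendsto_nhdsWithin_iff]
    refine ⟨?_, ?_⟩
    · have := hμ.continuousAt.tendsto
      rw [hMτ] at this
      exact this.mono_left nhdsWithin_le_nhds
    · filter_upwards [hslope_ne] with w hw
      intro hw'
      apply hw
      have hw'' : moebC g w = (τ₀ : ℂ) := hw'
      rw [slope, hw'', hMτ]
      simp
  have hYM : Filter.Tendsto (fun w => Y (moebC g w)) (𝓝[≠] (τ₀ : ℂ)) (𝓝 c) := hc.comp hM
  have hrel' : ∀ w : ℂ, extC a w * extC (compHol g b) w = extC (compHol g a) w * extC b w := by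
    intro w
    have := congrArg (fun f : Hol => extC (f : ℍ → ℂ) w) hrel
    exact this
  have hev : ∀ᶠ w in 𝓝[≠] (τ₀ : ℂ),
      Y (moebC g w) = Y w * (slope (moebC g) (τ₀ : ℂ) w) ^ (-(p - q)) := by
    have hb' : compHol g b ≠ 0 := fun h => hb ((compHol g).injective (by rw [h, map_zero]))
    filter_upwards [self_mem_nhdsWithin, hol_eventually_ne_zero τ₀ hb,
      hol_eventually_ne_zero τ₀ hb'] with w hw hbw hbw'
    have hw0 : w - (τ₀ : ℂ) ≠ 0 := sub_ne_zero.mpr hw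
    have h1 : moebC g w - (τ₀ : ℂ) = (w - (τ₀ : ℂ)) * slope (moebC g) (τ₀ : ℂ) w := by
      rw [slope, hMτ, vsub_eq_sub, smul_eq_mul, mul_inv_cancel_left₀ hw0]
    have h2 : extC a (moebC g w) / extC b (moebC g w) = extC a w / extC b w := by
      rw [← extC_compHol, ← extC_compHol, div_eq_div_iff hbw' hbw]
      exact (hrel' w).symm
    show extC a (moebC g w) * (extC b (moebC g w))⁻¹ * (moebC g w - (τ₀ : ℂ)) ^ (-(p - q))
      = extC a w * (extC b w)⁻¹ * (w - (τ₀ : ℂ)) ^ (-(p - q))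
        * (slope (moebC g) (τ₀ : ℂ) w) ^ (-(p - q))
    rw [← div_eq_mul_inv, ← div_eq_mul_inv, h2, h1, mul_zpow, mul_assoc]
  have hlim : Filter.Tendsto (fun w => Y w * (slope (moebC g) (τ₀ : ℂ) w) ^ (-(p - q)))
      (𝓝[≠] (τ₀ : ℂ)) (𝓝 (c * μ ^ (-(p - q)))) :=
    hc.mul (hslope.zpow₀ _ (Or.inl hμ0))
  have hYM' : Filter.Tendsto (fun w => Y (moebC g w)) (𝓝[≠] (τ₀ : ℂ))
      (𝓝 (c * μ ^ (-(p - q)))) := hlim.congr' (hev.mono fun w hw => hw.symm)
  have hceq : c = c * μ ^ (-(p - q)) := tendsto_nhds_unique hYM hYM'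
  have h1 : μ ^ (-(p - q)) = 1 := by
    have := mul_left_cancel₀ hc0 (by rw [mul_one]; exact hceq : c * 1 = c * μ ^ (-(p - q)))
    exact this.symm
  rw [zpow_neg, inv_eq_one] at h1
  exact h1

theorem det_eq_one (g : SL(2, ℤ)) : ((g : GL (Fin 2) ℝ)).val.det = 1 := by
  have h : ((g : GL (Fin 2) ℝ)).det.val = 1 := by simp
  exact h

theorem moebC_hasDerivAt (g : SL(2, ℤ)) (τ₀ : ℍ) :
    HasDerivAt (moebC g) (1 / denom (g : GL (Fin 2) ℝ) τ₀ ^ 2) τ₀ := by
  have h := (UpperHalfPlane.hasStrictDerivAt_smul (g := (g : GL (Fin 2) ℝ)) (det_pos g)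
    τ₀).hasDerivAt
  rw [det_eq_one g] at h
  have h2 : HasDerivAt (moebC g) (((1 : ℝ) : ℂ) / denom (g : GL (Fin 2) ℝ) τ₀ ^ 2) τ₀ := h
  rw [Complex.ofReal_one] at h2
  exact h2

/-- Invariance under a stabiliser element forces divisibility of the order. -/
theorem ordM_dvd_of_invariant (g : SL(2, ℤ)) (τ₀ : ℍ) (hfix : g • τ₀ = τ₀) (μ : ℂ)
    (hμ : HasDerivAt (moebC g) μ τ₀) (hμ0 : μ ≠ 0) (m : ℕ)
    (hdvd : ∀ n : ℤ, μ ^ n = 1 → (m : ℤ) ∣ n)
    (z : Mer) (hz : z ≠ 0) (hinv : sigmaM g z = z) :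
    ∃ l : ℤ, ordM τ₀ z = (((m : ℤ) * l : ℤ) : WithTop ℤ) := by
  obtain ⟨a, b, hb, rfl⟩ := exists_div_eq z
  have ha : a ≠ 0 := by
    rintro rfl
    simp at hz
  obtain ⟨p, hp⟩ := WithTop.ne_top_iff_exists.mp (ordH_ne_top τ₀ ha)
  obtain ⟨q, hq⟩ := WithTop.ne_top_iff_exists.mp (ordH_ne_top τ₀ hb)
  have hb' : compHol g b ≠ 0 := fun h => hb ((compHol g).injective (by rw [h, map_zero]))
  have hrel : a * compHol g b = compHol g a * b := by
    rw [map_div₀, sigmaM_algebraMap, sigmaM_algebraMap,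
      div_eq_div_iff (algebraMap_ne_zero hb') (algebraMap_ne_zero hb)] at hinv
    apply IsFractionRing.injective Hol Mer
    rw [map_mul, map_mul]
    exact hinv.symm
  have h1 := multiplier_zpow_eq_one g τ₀ hfix μ hμ hμ0 a b hb hrel p q hp.symm hq.symm
  obtain ⟨l, hl⟩ := hdvd _ h1
  refine ⟨l, ?_⟩
  rw [ordM_div, ← hp, ← hq, ← hl]
  norm_cast

theorem dvd_of_zpow_eq_one (μ : ℂ) (m : ℕ) (hm : m.Prime) (hμm : μ ^ m = 1) (hμ1 : μ ≠ 1)
    (n : ℤ) (h : μ ^ n = 1) : (m : ℤ) ∣ n := by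
  have : Fact m.Prime := ⟨hm⟩
  have hord : orderOf μ = m := orderOf_eq_prime hμm hμ1
  have key : ∀ k : ℕ, μ ^ k = 1 → (m : ℤ) ∣ (k : ℤ) := fun k hk => by
    rw [← hord]
    exact Int.natCast_dvd_natCast.mpr (orderOf_dvd_of_pow_eq_one hk)
  rcases Int.eq_nat_or_neg n with ⟨k, rfl | rfl⟩
  · exact key k (by simpa using h)
  · rw [dvd_neg]
    apply key k
    rw [zpow_neg, zpow_natCast, inv_eq_one] at h
    exact h

/-- Abstract form of the divisibility hypothesis of `LocalDatum` for a prime ramification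
index. -/
theorem hdiv_of_prime {Ω : Type*} [Zero Ω] (s : Ω → Ω) (w : Ω → WithTop ℤ) (m : ℕ)
    (hm : m.Prime) (hsm : ∀ z, s^[m] z = z)
    (hfin : ∀ z, z ≠ 0 → ∃ l : ℤ, w z = (l : WithTop ℤ))
    (hinv : ∀ z, z ≠ 0 → s z = z → ∃ l : ℤ, w z = (((m : ℤ) * l : ℤ) : WithTop ℤ))
    (k : ℕ) (z : Ω) (hz : z ≠ 0) (hk : s^[k] z = z) :
    ∃ l : ℤ, w z = ((((m / Nat.gcd k m : ℕ) : ℤ) * l : ℤ) : WithTop ℤ) := by
  by_cases hd : m ∣ k
  · rw [Nat.gcd_eq_right hd, Nat.div_self hm.pos]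
    obtain ⟨l, hl⟩ := hfin z hz
    exact ⟨l, by rw [hl]; simp⟩
  · have hcop : Nat.Coprime k m := ((Nat.Prime.coprime_iff_not_dvd hm).mpr hd).symm
    rw [hcop.gcd_eq_one, Nat.div_one]
    apply hinv z hz
    obtain ⟨u, -, hu⟩ := Nat.exists_mul_mod_eq_one_of_coprime hcop hm.one_lt
    have h1 : s^[k * u] z = z := by
      rw [Function.iterate_mul]
      exact Function.iterate_fixed hk u
    have h2 : k * u = m * (k * u / m) + 1 := by
      have := Nat.div_add_mod (k * u) m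
      omega
    rw [h2, Function.iterate_succ_apply', Function.iterate_mul] at h1
    have h3 : (s^[m])^[k * u / m] z = z := Function.iterate_fixed (hsm z) _
    rw [h3] at h1
    exact h1

/-! ## The two elliptic points -/

theorem S_multiplier (τ₀ : ℍ) (hfix : ModularGroup.S • τ₀ = τ₀) :
    HasDerivAt (moebC ModularGroup.S) (-1) τ₀ := by
  have h := moebC_hasDerivAt ModularGroup.S τ₀
  have hd : denom (ModularGroup.S : GL (Fin 2) ℝ) τ₀ = τ₀ := ModularGroup.denom_S τ₀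
  have hsq : (τ₀ : ℂ) ^ 2 = -1 := by
    have h1 := congrArg (fun t : ℍ => (t : ℂ)) hfix
    rw [modular_S_smul] at h1
    have h2 : (-(τ₀ : ℂ))⁻¹ = τ₀ := h1
    have hne : (τ₀ : ℂ) ≠ 0 := ne_zero τ₀
    have h3 : (-(τ₀ : ℂ)) * (-(τ₀ : ℂ))⁻¹ = 1 := mul_inv_cancel₀ (neg_ne_zero.mpr hne)
    rw [h2] at h3
    linear_combination (-1 : ℂ) * h3
  rw [hd, hsq] at h
  simpa using h

theorem S_mul_S : ModularGroup.S * ModularGroup.S = (-1 : SL(2, ℤ)) := by
  ext i j
  fin_cases i <;> fin_cases j <;> rfl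

theorem ST_pow_three :
    (ModularGroup.S * ModularGroup.T) ^ 3 = (-1 : SL(2, ℤ)) := by
  ext i j
  fin_cases i <;> fin_cases j <;> rfl

theorem S_pow_two_smul (τ : ℍ) : (ModularGroup.S ^ 2) • τ = τ := by
  rw [pow_two, S_mul_S, ModularGroup.SL_neg_smul, one_smul]

theorem ST_pow_three_smul (τ : ℍ) : ((ModularGroup.S * ModularGroup.T) ^ 3) • τ = τ := by
  rw [ST_pow_three, ModularGroup.SL_neg_smul, one_smul]

theorem ST_multiplier (τ₀ : ℍ) (hfix : (ModularGroup.S * ModularGroup.T) • τ₀ = τ₀) :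
    ∃ μ : ℂ, HasDerivAt (moebC (ModularGroup.S * ModularGroup.T)) μ τ₀ ∧ μ ≠ 1 ∧ μ ^ 3 = 1 := by
  have h := moebC_hasDerivAt (ModularGroup.S * ModularGroup.T) τ₀
  have hd : denom ((ModularGroup.S * ModularGroup.T : SL(2, ℤ)) : GL (Fin 2) ℝ) τ₀
      = (τ₀ : ℂ) + 1 := by
    rw [ModularGroup.denom_apply]
    simp [ModularGroup.S, ModularGroup.T]
  have hne1 : (τ₀ : ℂ) + 1 ≠ 0 := by
    intro h0
    have := congrArg Complex.im h0
    simp at this
    exact absurd this (ne_of_gt τ₀.im_pos)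
  have hne : (τ₀ : ℂ) ≠ 0 := ne_zero τ₀
  have hquad : (τ₀ : ℂ) ^ 2 + τ₀ + 1 = 0 := by
    have h1 := congrArg (fun t : ℍ => (t : ℂ)) hfix
    simp only [coe_specialLinearGroup_apply] at h1
    have h2 : (-1 : ℂ) / ((τ₀ : ℂ) + 1) = τ₀ := by
      convert h1 using 2 <;> simp [ModularGroup.S, ModularGroup.T]
    rw [div_eq_iff hne1] at h2
    linear_combination -h2
  have hsq : ((τ₀ : ℂ) + 1) ^ 2 = τ₀ := by linear_combination hquad
  have hcube : (τ₀ : ℂ) ^ 3 = 1 := by linear_combination ((τ₀ : ℂ) - 1) * hquad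
  rw [hd, hsq] at h
  refine ⟨1 / (τ₀ : ℂ), h, ?_, ?_⟩
  · intro h1
    rw [div_eq_iff hne, one_mul] at h1
    have := congrArg Complex.im h1
    simp at this
    exact absurd this.symm (ne_of_gt τ₀.im_pos)
  · rw [div_pow, hcube]
    simp

/-! ## The analytic embedding package -/

/-- Analytic embedding package at level `N`: a subalgebra `R` of the function field with
fraction field `FN N`, and an injective evaluation `ev` of `R` into holomorphic functions on the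
upper half plane, `Γ₀(N)`-invariant, separating the cosets of `Γ₀(N)`, sending `j` to the
analytic `j`-function. -/
def EmbPackage (N : ℕ) : Prop :=
  ∃ (i0 : Kbar →+* ℂ) (R : Subalgebra Kbar (FN N)) (ev : R →+* (ℍ → ℂ)),
    (∀ f : FN N, ∃ a b : R, (b : FN N) ≠ 0 ∧ f = (a : FN N) / (b : FN N)) ∧
    (∀ r : R, MDifferentiable 𝓘(ℂ) 𝓘(ℂ) (ev r)) ∧
    (∀ r : R, ev r = 0 → r = 0) ∧
    (∀ a : Kbar, ev (algebraMap Kbar R a) = fun _ => i0 a) ∧
    (∃ jR : R, (jR : FN N) = jBar N ∧ ev jR = jFun) ∧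
    (∀ (r : R) (γ : SL(2, ℤ)), γ ∈ Gamma0 N → ∀ τ : ℍ, ev r (γ • τ) = ev r τ) ∧
    (∀ g : SL(2, ℤ), (∀ (r : R) (τ : ℍ), ev r (g • τ) = ev r τ) → g ∈ Gamma0 N)

/-- The data of `EmbPackage N`, as a structure. -/
structure EmbData (N : ℕ) where
  /-- the embedding of the constants -/
  i0 : Kbar →+* ℂ
  /-- the subalgebra of "holomorphic" elements -/
  R : Subalgebra Kbar (FN N)
  /-- the evaluation -/
  ev : R →+* (ℍ → ℂ)
  surj : ∀ f : FN N, ∃ a b : R, (b : FN N) ≠ 0 ∧ f = (a : FN N) / (b : FN N)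
  hol : ∀ r : R, MDifferentiable 𝓘(ℂ) 𝓘(ℂ) (ev r)
  inj : ∀ r : R, ev r = 0 → r = 0
  const : ∀ a : Kbar, ev (algebraMap Kbar R a) = fun _ => i0 a
  /-- the element `j` of `R` -/
  jR : R
  jR_coe : (jR : FN N) = jBar N
  ev_jR : ev jR = jFun
  inv : ∀ (r : R) (γ : SL(2, ℤ)), γ ∈ Gamma0 N → ∀ τ : ℍ, ev r (γ • τ) = ev r τ
  sep : ∀ g : SL(2, ℤ), (∀ (r : R) (τ : ℍ), ev r (g • τ) = ev r τ) → g ∈ Gamma0 N

theorem EmbPackage.nonempty {N : ℕ} (h : EmbPackage N) : Nonempty (EmbData N) := by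
  obtain ⟨i0, R, ev, h1, h2, h3, h4, ⟨jR, h5, h6⟩, h7, h8⟩ := h
  exact ⟨⟨i0, R, ev, h1, h2, h3, h4, jR, h5, h6, h7, h8⟩⟩

namespace EmbData

variable {N : ℕ} (E : EmbData N)

theorem isFractionRing : IsFractionRing E.R (FN N) := by
  rw [IsFractionRing, isLocalization_iff]
  refine ⟨?_, ?_, ?_⟩
  · intro y
    refine IsUnit.mk0 _ ?_
    intro h0
    have h1 : (y : E.R) = 0 := Subtype.ext h0
    exact nonZeroDivisors.ne_zero y.2 h1
  · intro z
    obtain ⟨a, b, hb, rfl⟩ := E.surj z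
    have hb' : b ≠ 0 := fun h => hb (by rw [h]; rfl)
    refine ⟨(a, ⟨b, mem_nonZeroDivisors_of_ne_zero hb'⟩), ?_⟩
    show (a : FN N) / (b : FN N) * (b : FN N) = (a : FN N)
    exact div_mul_cancel₀ _ hb
  · intro x y hxy
    refine ⟨1, ?_⟩
    have : x = y := Subtype.ext hxy
    rw [this]

/-- `r ↦ ev r ∘ h⁻¹`, as a ring homomorphism to `Hol`. -/
def evH (h : SL(2, ℤ)) : E.R →+* Hol where
  toFun r := ⟨fun τ => E.ev r (h⁻¹ • τ), comp_smul_mem_Hol h⁻¹ (mem_Hol_iff.mpr (E.hol r))⟩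
  map_one' := by
    apply Subtype.ext
    funext τ
    show E.ev 1 (h⁻¹ • τ) = 1
    rw [map_one]
    rfl
  map_mul' a b := by
    apply Subtype.ext
    funext τ
    show E.ev (a * b) (h⁻¹ • τ) = E.ev a (h⁻¹ • τ) * E.ev b (h⁻¹ • τ)
    rw [map_mul]
    rfl
  map_zero' := by
    apply Subtype.ext
    funext τ
    show E.ev 0 (h⁻¹ • τ) = 0
    rw [map_zero]
    rfl
  map_add' a b := by
    apply Subtype.ext
    funext τ
    show E.ev (a + b) (h⁻¹ • τ) = E.ev a (h⁻¹ • τ) + E.ev b (h⁻¹ • τ)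
    rw [map_add]
    rfl

theorem evH_apply (h : SL(2, ℤ)) (r : E.R) (τ : ℍ) :
    (E.evH h r : ℍ → ℂ) τ = E.ev r (h⁻¹ • τ) := rfl

theorem evH_injective (h : SL(2, ℤ)) : Function.Injective (E.evH h) := by
  rw [injective_iff_map_eq_zero]
  intro r hr
  apply E.inj
  funext τ
  have := congrFun (congrArg Subtype.val hr) (h • τ)
  rw [evH_apply, inv_smul_smul] at this
  exact this

/-- `r ↦ ev r ∘ h⁻¹`, as a ring homomorphism to `Mer`. -/
def toMer (h : SL(2, ℤ)) : E.R →+* Mer := (algebraMap Hol Mer).comp (E.evH h)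

theorem toMer_injective (h : SL(2, ℤ)) : Function.Injective (E.toMer h) :=
  (IsFractionRing.injective Hol Mer).comp (E.evH_injective h)

/-- The embedding of the function field attached to `h : SL(2, ℤ)`. -/
def iotaRep (h : SL(2, ℤ)) : FN N →+* Mer :=
  letI := E.isFractionRing
  IsFractionRing.lift (E.toMer_injective h)

theorem iotaRep_algebraMap (h : SL(2, ℤ)) (r : E.R) :
    E.iotaRep h (algebraMap E.R (FN N) r) = algebraMap Hol Mer (E.evH h r) := by
  have := E.isFractionRing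
  exact IsFractionRing.lift_algebraMap (E.toMer_injective h) r

theorem iotaRep_coe (h : SL(2, ℤ)) (r : E.R) :
    E.iotaRep h (r : FN N) = algebraMap Hol Mer (E.evH h r) :=
  E.iotaRep_algebraMap h r

/-- Two ring homomorphisms out of the function field agreeing on `R` are equal. -/
theorem ringHom_ext {L : Type*} [Field L] {f1 f2 : FN N →+* L}
    (h : ∀ r : E.R, f1 (r : FN N) = f2 (r : FN N)) : f1 = f2 := by
  have := E.isFractionRing
  exact IsFractionRing.ringHom_ext (A := E.R) h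

theorem iotaRep_mul_of_mem (h γ : SL(2, ℤ)) (hγ : γ ∈ Gamma0 N) :
    E.iotaRep (h * γ) = E.iotaRep h := by
  apply E.ringHom_ext
  intro r
  rw [iotaRep_coe, iotaRep_coe]
  congr 1
  apply Subtype.ext
  funext τ
  rw [evH_apply, evH_apply, mul_inv_rev, mul_smul]
  exact E.inv r γ⁻¹ (inv_mem hγ) _

theorem iotaRep_eq_iff (h h' : SL(2, ℤ)) :
    E.iotaRep h = E.iotaRep h' ↔ h⁻¹ * h' ∈ Gamma0 N := by
  constructor
  · intro heq
    apply E.sep
    intro r τ
    have h1 := congrArg (fun φ : FN N →+* Mer => φ (r : FN N)) heq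
    simp only [iotaRep_coe] at h1
    have h2 := IsFractionRing.injective Hol Mer h1
    have h3 := congrFun (congrArg Subtype.val h2) (h' • τ)
    rw [evH_apply, evH_apply, inv_smul_smul, ← mul_smul] at h3
    exact h3
  · intro hmem
    have := E.iotaRep_mul_of_mem h (h⁻¹ * h') hmem
    rw [mul_inv_cancel_left] at this
    exact this.symm

theorem sigmaM_iotaRep (g h : SL(2, ℤ)) (f : FN N) :
    sigmaM g (E.iotaRep h f) = E.iotaRep (g⁻¹ * h) f := by
  have key : ((sigmaM g : Mer ≃+* Mer) : Mer →+* Mer).comp (E.iotaRep h) = E.iotaRep (g⁻¹ * h) := by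
    apply E.ringHom_ext
    intro r
    rw [RingHom.comp_apply, iotaRep_coe, iotaRep_coe]
    show sigmaM g (algebraMap Hol Mer (E.evH h r)) = _
    rw [sigmaM_algebraMap]
    congr 1
    apply Subtype.ext
    funext τ
    rw [compHol_apply, evH_apply, evH_apply, mul_inv_rev, inv_inv, mul_smul]
  exact congrArg (fun φ : FN N →+* Mer => φ f) key

end EmbData

/-! ## Assembly of the local datum -/

/-- Constant functions, as a ring homomorphism to `Hol`. -/
def constHol : ℂ →+* Hol where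
  toFun c := ⟨fun _ => c, mem_Hol_iff.mpr mdifferentiable_const⟩
  map_one' := rfl
  map_mul' _ _ := rfl
  map_zero' := rfl
  map_add' _ _ := rfl

theorem ordH_constHol (τ₀ : ℍ) {c : ℂ} (hc : c ≠ 0) : ordH τ₀ (constHol c) = 0 := by
  rw [ordH_apply]
  have : extC ((constHol c : Hol) : ℍ → ℂ) = fun _ => c := rfl
  rw [this]
  classical
  rw [meromorphicOrderAt_const]
  simp [hc]

/-- The `Kbar`-algebra structure on `Mer` induced by an embedding `Kbar → ℂ`. -/
@[reducible] def algKM (i0 : Kbar →+* ℂ) : Algebra Kbar Mer :=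
  ((algebraMap Hol Mer).comp (constHol.comp i0)).toAlgebra

theorem EmbData.iotaRep_algebraMap_Kbar {N : ℕ} (E : EmbData N) (h : SL(2, ℤ)) (a : Kbar) :
    E.iotaRep h (algebraMap Kbar (FN N) a) = algebraMap Hol Mer (constHol (E.i0 a)) := by
  have h1 : algebraMap Kbar (FN N) a = ((algebraMap Kbar E.R a : E.R) : FN N) := rfl
  rw [h1, E.iotaRep_coe]
  congr 1
  apply Subtype.ext
  funext τ
  rw [EmbData.evH_apply, E.const]
  rfl

/-- The general local datum at a point `τ₀` fixed by `g`. -/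
theorem localDatum_of_embData {N : ℕ} (E : EmbData N)
    (hJinv : ∀ (γ : SL(2, ℤ)) (τ : ℍ), jFun (γ • τ) = jFun τ)
    (g : SL(2, ℤ)) (τ₀ : ℍ) (hfix : g • τ₀ = τ₀) (m : ℕ) (hm : 0 < m) (c : Kbar)
    (hord : meromorphicOrderAt (fun t : ℂ => jFun (ofComplex t) - E.i0 c) (τ₀ : ℂ)
      = ((m : ℤ) : WithTop ℤ))
    (hdiv : ∀ (k : ℕ) (z : Mer), z ≠ 0 → (sigmaM g)^[k] z = z →
      ∃ l : ℤ, ordM τ₀ z = ((((m / Nat.gcd k m : ℕ) : ℤ) * l : ℤ) : WithTop ℤ)) :
    LocalDatum N (jBar N - algebraMap Kbar (FN N) c) m g := by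
  let alg : Algebra Kbar Mer := algKM E.i0
  have halg : ∀ a : Kbar, algebraMap Kbar Mer a = algebraMap Hol Mer (constHol (E.i0 a)) :=
    fun a => rfl
  let ι : XN N → (FN N →ₐ[Kbar] Mer) := fun x =>
    { toRingHom := E.iotaRep x.out
      commutes' := fun a => by
        rw [halg]
        exact E.iotaRep_algebraMap_Kbar x.out a }
  have hι : ∀ (x : XN N) (f : FN N), ι x f = E.iotaRep x.out f := fun x f => rfl
  let σ : Mer ≃ₐ[Kbar] Mer := AlgEquiv.ofRingEquiv (f := sigmaM g) (fun a => by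
    rw [halg, sigmaM_algebraMap]
    rfl)
  have hσ : ∀ z : Mer, σ z = sigmaM g z := fun z => rfl
  have hJmem : jFun ∈ Hol := mem_Hol_iff.mpr (E.ev_jR ▸ E.hol E.jR)
  let JH : Hol := ⟨jFun, hJmem⟩
  refine ⟨Mer, inferInstance, alg, ordM τ₀, ι, σ,
    algebraMap Hol Mer (JH - constHol (E.i0 c)), ?_, ?_, ?_, hm, ?_, ?_, Or.inr ?_, ?_⟩
  · intro a ha
    rw [halg, ordM_algebraMap]
    exact ordH_constHol τ₀ ((map_ne_zero E.i0).mpr ha)
  · intro x x' hxx'
    have h1 : E.iotaRep x.out = E.iotaRep x'.out := by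
      apply RingHom.ext
      intro f
      rw [← hι, ← hι, hxx']
    have h2 := (E.iotaRep_eq_iff _ _).mp h1
    have h3 : ((x.out : SL(2, ℤ)) : XN N) = ((x'.out : SL(2, ℤ)) : XN N) :=
      QuotientGroup.eq.mpr h2
    rw [QuotientGroup.out_eq', QuotientGroup.out_eq'] at h3
    exact h3
  · intro x
    rw [map_sub, hι, hι, E.iotaRep_algebraMap_Kbar, ← E.jR_coe, E.iotaRep_coe, map_sub]
    congr 2
    apply Subtype.ext
    funext τ
    rw [EmbData.evH_apply, E.ev_jR]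
    exact hJinv _ _
  · rw [ordM_algebraMap, ordH_apply]
    exact hord
  · intro z
    rw [hσ, ordM_sigmaM, hfix]
  · intro x f
    rw [hσ, hι, hι, E.sigmaM_iotaRep]
    have h1 : E.iotaRep (g⁻¹ * x.out) = E.iotaRep (g⁻¹ • x).out := by
      rw [E.iotaRep_eq_iff]
      apply QuotientGroup.eq.mp
      rw [QuotientGroup.out_eq']
      have : ((g⁻¹ * x.out : SL(2, ℤ)) : XN N) = g⁻¹ • ((x.out : SL(2, ℤ)) : XN N) := rfl
      rw [this, QuotientGroup.out_eq']
    rw [h1]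
  · intro k z hz hk
    apply hdiv k z hz
    rw [AlgEquiv.coe_pow] at hk
    exact hk

/-! ## The three finite-point statements -/

theorem EmbData.jFun_mem {N : ℕ} (E : EmbData N) : jFun ∈ Hol :=
  mem_Hol_iff.mpr (E.ev_jR ▸ E.hol E.jR)

theorem EmbData.meromorphicOrderAt_jFun_sub {N : ℕ} (E : EmbData N) (τ₀ : ℍ) (c : ℂ) (m : ℕ)
    (h : analyticOrderAt (fun t : ℂ => jFun (ofComplex t) - c) (τ₀ : ℂ) = m) :
    meromorphicOrderAt (fun t : ℂ => jFun (ofComplex t) - c) (τ₀ : ℂ) = ((m : ℤ) : WithTop ℤ) := by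
  have han : AnalyticAt ℂ (fun t : ℂ => jFun (ofComplex t) - c) (τ₀ : ℂ) :=
    hol_analyticAt ((⟨jFun, E.jFun_mem⟩ : Hol) - constHol c) τ₀
  rw [han.meromorphicOrderAt_eq, h]
  rfl

/-- **M3 (generic points)**: local datum over a value `c ∉ {0, 1728}`. -/
theorem stmt_LocalGeneric_of
    (hE : ∀ (N : ℕ) [NeZero N], EmbPackage N)
    (hJinv : ∀ (γ : SL(2, ℤ)) (τ : ℍ), jFun (γ • τ) = jFun τ)
    (hsurj : ∀ c : ℂ, ∃ τ : ℍ, jFun τ = c)
    (hord : ∀ τ₀ : ℍ, jFun τ₀ ≠ 0 → jFun τ₀ ≠ 1728 →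
      analyticOrderAt (fun t : ℂ => jFun (ofComplex t) - jFun τ₀) (τ₀ : ℂ) = 1) :
    Stmt_LocalGeneric := by
  intro N _ c hc0 hc1728
  obtain ⟨E⟩ := (hE N).nonempty
  obtain ⟨τ₀, hτ₀⟩ := hsurj (E.i0 c)
  have h0 : jFun τ₀ ≠ 0 := by
    rw [hτ₀]
    exact (map_ne_zero E.i0).mpr hc0
  have h1728 : jFun τ₀ ≠ 1728 := by
    rw [hτ₀]
    intro h
    apply hc1728
    apply E.i0.injective
    rw [h, map_ofNat]
  have hordM : meromorphicOrderAt (fun t : ℂ => jFun (ofComplex t) - E.i0 c) (τ₀ : ℂ)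
      = (((1 : ℕ) : ℤ) : WithTop ℤ) := by
    apply E.meromorphicOrderAt_jFun_sub
    rw [← hτ₀, hord τ₀ h0 h1728]
    rfl
  refine localDatum_of_embData E hJinv 1 τ₀ (one_smul _ _) 1 one_pos c hordM ?_
  intro k z hz _
  obtain ⟨l, hl⟩ := ordM_exists_int τ₀ hz
  refine ⟨l, ?_⟩
  rw [hl, Nat.gcd_one_right, Nat.div_one]
  simp

/-- **M3 (the point `i`)**: local datum over `j = 1728`. -/
theorem stmt_Local1728_of
    (hE : ∀ (N : ℕ) [NeZero N], EmbPackage N)
    (hJinv : ∀ (γ : SL(2, ℤ)) (τ : ℍ), jFun (γ • τ) = jFun τ)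
    (h1728 : ∃ τ₀ : ℍ, ModularGroup.S • τ₀ = τ₀ ∧
      analyticOrderAt (fun t : ℂ => jFun (ofComplex t) - 1728) (τ₀ : ℂ) = 2) :
    Stmt_Local1728 := by
  intro N _
  obtain ⟨E⟩ := (hE N).nonempty
  obtain ⟨τ₀, hfix, hord⟩ := h1728
  have hi0 : E.i0 1728 = 1728 := map_ofNat E.i0 1728
  have hordM : meromorphicOrderAt (fun t : ℂ => jFun (ofComplex t) - E.i0 1728) (τ₀ : ℂ)
      = (((2 : ℕ) : ℤ) : WithTop ℤ) := by
    apply E.meromorphicOrderAt_jFun_sub
    rw [hi0, hord]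
    rfl
  refine localDatum_of_embData E hJinv ModularGroup.S τ₀ hfix 2 two_pos 1728 hordM ?_
  intro k z hz hk
  exact hdiv_of_prime (sigmaM ModularGroup.S) (fun z => ordM τ₀ z) 2 Nat.prime_two
    (fun z => by
      rw [sigmaM_iterate]
      exact sigmaM_eq_self_of_smul _ S_pow_two_smul z)
    (fun z hz => ordM_exists_int τ₀ hz)
    (fun z hz hinv => ordM_dvd_of_invariant ModularGroup.S τ₀ hfix (-1) (S_multiplier τ₀ hfix)
      (by norm_num) 2 (dvd_of_zpow_eq_one (-1) 2 Nat.prime_two (by norm_num) (by norm_num))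
      z hz hinv)
    k z hz hk

/-- **M3 (the point `ρ`)**: local datum over `j = 0`. -/
theorem stmt_LocalZero_of
    (hE : ∀ (N : ℕ) [NeZero N], EmbPackage N)
    (hJinv : ∀ (γ : SL(2, ℤ)) (τ : ℍ), jFun (γ • τ) = jFun τ)
    (h0 : ∃ τ₀ : ℍ, (ModularGroup.S * ModularGroup.T) • τ₀ = τ₀ ∧
      analyticOrderAt (fun t : ℂ => jFun (ofComplex t)) (τ₀ : ℂ) = 3) :
    Stmt_LocalZero := by
  intro N _
  obtain ⟨E⟩ := (hE N).nonempty
  obtain ⟨τ₀, hfix, hord⟩ := h0
  have hfun : (fun t : ℂ => jFun (ofComplex t) - E.i0 0) = fun t : ℂ => jFun (ofComplex t) - 0 := by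
    funext t
    rw [map_zero]
  have hordM : meromorphicOrderAt (fun t : ℂ => jFun (ofComplex t) - E.i0 0) (τ₀ : ℂ)
      = (((3 : ℕ) : ℤ) : WithTop ℤ) := by
    rw [hfun]
    apply E.meromorphicOrderAt_jFun_sub
    simp only [sub_zero]
    rw [hord]
    rfl
  obtain ⟨μ, hμ, hμ1, hμ3⟩ := ST_multiplier τ₀ hfix
  have hμ0 : μ ≠ 0 := by
    rintro rfl
    norm_num at hμ3
  have key := localDatum_of_embData E hJinv (ModularGroup.S * ModularGroup.T) τ₀ hfix 3
    (by norm_num) 0 hordM (by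
      intro k z hz hk
      exact hdiv_of_prime (sigmaM (ModularGroup.S * ModularGroup.T)) (fun z => ordM τ₀ z) 3
        Nat.prime_three
        (fun z => by
          rw [sigmaM_iterate]
          exact sigmaM_eq_self_of_smul _ ST_pow_three_smul z)
        (fun z hz => ordM_exists_int τ₀ hz)
        (fun z hz hinv => ordM_dvd_of_invariant (ModularGroup.S * ModularGroup.T) τ₀ hfix μ hμ
          hμ0 3 (dvd_of_zpow_eq_one μ 3 Nat.prime_three hμ3 hμ1) z hz hinv)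
        k z hz hk)
  rw [map_zero, sub_zero] at key
  exact key

end

end Fermat.Agent.S24.helper164
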