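import Mathlib
import Fermat.Agent.S24.helper864_Twist

/-!
# A dictionary between functions on `ℍ` and Laurent series (helper1704, S24 MOD chain)

`IsNice h f`: `f : ℍ → ℂ` is holomorphic, `h`-periodic and bounded at `i∞`.
`HasQ h f L`: `f` is meromorphic at `i∞` with Laurent expansion `L` in `𝕢 h τ = exp (2πiτ/h)`.
The relation is closed under the ring operations, and `f`, `L` determine each other.
-/

set_option autoImplicit false

open UpperHalfPlane Function Complex Filter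
open scoped Real Manifold Topology

namespace Fermat.Agent.S24.helper1704

local notation "𝕢" => Function.Periodic.qParam

noncomputable section

/-! ## Periodicity -/

theorem periodic_comp_ofComplex_iff {f : ℍ → ℂ} {h : ℝ} :
    Periodic (f ∘ ofComplex) h ↔ ∀ τ : ℍ, f (h +ᵥ τ) = f τ := by
  constructor
  · intro hf τ
    have h1 := hf (τ : ℂ)
    have him : 0 < ((τ : ℂ) + (h : ℂ)).im := by simpa using τ.im_pos
    simp only [comp_apply, ofComplex_apply] at h1
    rw [← h1, ofComplex_apply_of_im_pos him]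
    congr 1
    ext
    simp [add_comm]
  · intro hf w
    by_cases hw : 0 < im w
    · have him : 0 < im (w + h) := by simp [hw]
      simp only [comp_apply, ofComplex_apply_of_im_pos him, ofComplex_apply_of_im_pos hw]
      rw [← hf ⟨w, hw⟩]
      congr 1
      ext
      simp [add_comm]
    · have hw' : im w ≤ 0 := not_lt.mp hw
      have him : im (w + h) ≤ 0 := by simpa using hw'
      simp [ofComplex_apply_of_im_nonpos him, ofComplex_apply_of_im_nonpos hw']

/-- The function `τ ↦ exp (2πiτ/h)` on the upper half plane. -/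
def qf (h : ℝ) : ℍ → ℂ := fun τ => 𝕢 h (τ : ℂ)

theorem qf_apply (h : ℝ) (τ : ℍ) : qf h τ = 𝕢 h (τ : ℂ) := rfl

theorem qf_ne_zero (h : ℝ) (τ : ℍ) : qf h τ ≠ 0 := Function.Periodic.qParam_ne_zero _

theorem qf_vadd (h : ℝ) (s : ℝ) (τ : ℍ) :
    qf h (s +ᵥ τ) = Complex.exp (2 * π * Complex.I * s / h) * qf h τ := by
  simp only [qf, Function.Periodic.qParam, UpperHalfPlane.coe_vadd]
  rw [← Complex.exp_add]
  congr 1
  ring1

/-! ## Nice functions -/

/-- Holomorphic, `h`-periodic and bounded at `i∞`. -/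
structure IsNice (h : ℝ) (f : ℍ → ℂ) : Prop where
  per : Periodic (f ∘ ofComplex) h
  hol : MDiff f
  bdd : IsBoundedAtImInfty f

namespace IsNice

variable {h : ℝ} {f g : ℍ → ℂ}

theorem analytic (hh : 0 < h) (hf : IsNice h f) : AnalyticAt ℂ (cuspFunction h f) 0 :=
  analyticAt_cuspFunction_zero hh hf.per hf.hol hf.bdd

theorem add (hf : IsNice h f) (hg : IsNice h g) : IsNice h (f + g) :=
  ⟨hf.per.add hg.per, hf.hol.add hg.hol, hf.bdd.add hg.bdd⟩

theorem mul (hf : IsNice h f) (hg : IsNice h g) : IsNice h (f * g) :=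
  ⟨hf.per.mul hg.per, hf.hol.mul hg.hol, hf.bdd.mul hg.bdd⟩

theorem neg (hf : IsNice h f) : IsNice h (-f) :=
  ⟨fun x => congrArg Neg.neg (hf.per x), hf.hol.neg, hf.bdd.neg_left⟩

theorem sub (hf : IsNice h f) (hg : IsNice h g) : IsNice h (f - g) := by
  rw [sub_eq_add_neg]; exact hf.add hg.neg

theorem const (h : ℝ) (c : ℂ) : IsNice h (fun _ => c) :=
  ⟨fun _ => rfl, mdifferentiable_const, const_boundedAtFilter _ c⟩

theorem one (h : ℝ) : IsNice h 1 := const h 1

theorem pow (hf : IsNice h f) (n : ℕ) : IsNice h (f ^ n) := by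
  induction n with
  | zero => rw [pow_zero]; exact one h
  | succ n ih => rw [pow_succ]; exact ih.mul hf

theorem qf (hh : 0 < h) : IsNice h (qf h) := by
  refine ⟨?_, ?_, ?_⟩
  · rw [periodic_comp_ofComplex_iff]
    intro τ
    rw [qf_vadd h]
    have : (2 * π * Complex.I * h / h : ℂ) = 2 * π * Complex.I := by
      field_simp [hh.ne']
    rw [this, Complex.exp_two_pi_mul_I, one_mul]
  · rw [UpperHalfPlane.mdifferentiable_iff]
    have : DifferentiableOn ℂ (𝕢 h) {z : ℂ | 0 < z.im} :=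
      (Function.Periodic.differentiable_qParam).differentiableOn
    refine this.congr fun z hz => ?_
    simp only [comp_apply, helper1704.qf, ofComplex_apply_of_im_pos hz]
  · exact (qParam_tendsto_atImInfty hh).isBigO_one ℝ

end IsNice

/-- Uniqueness of `q`-expansion coefficients, for plain functions. -/
theorem qExpansion_coeff_unique' {h : ℝ} {f : ℍ → ℂ} {c : ℕ → ℂ} (hh : 0 < h)
    (hf : AnalyticAt ℂ (cuspFunction h f) 0)
    (hs : ∀ τ : ℍ, HasSum (fun m ↦ c m • 𝕢 h τ ^ m) (f τ)) (m : ℕ) :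
    c m = (qExpansion h f).coeff m :=
  @qExpansion_coeff_unique (ℍ → ℂ) ⟨fun f => f, fun _ _ h => h⟩ h f c hh hf hs m

/-- The `q`-expansion of `qf h` is `X`. -/
theorem qExpansion_qf {h : ℝ} (hh : 0 < h) : qExpansion h (qf h) = PowerSeries.X := by
  ext m
  have key := qExpansion_coeff_unique' (f := qf h) (c := fun m => if m = 1 then (1 : ℂ) else 0) hh
    ((IsNice.qf hh).analytic hh) (fun τ => by
      have := hasSum_ite_eq (1 : ℕ) (qf h τ)
      convert this using 2 with m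
      by_cases hm : m = 1
      · subst hm; simp [qf]
      · simp [hm]) m
  rw [← key, PowerSeries.coeff_X]

theorem qExpansion_qf_pow {h : ℝ} (hh : 0 < h) (k : ℕ) :
    qExpansion h (qf h ^ k) = PowerSeries.X ^ k := by
  induction k with
  | zero => rw [pow_zero, pow_zero]; exact qExpansion_one h
  | succ k ih =>
      rw [pow_succ, pow_succ, qExpansion_mul (((IsNice.qf hh).pow k).analytic hh)
        ((IsNice.qf hh).analytic hh), ih, qExpansion_qf hh]

theorem qExpansion_const {h : ℝ} (c : ℂ) :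
    qExpansion h (fun _ : ℍ => c) = PowerSeries.C c := by
  have e : (fun _ : ℍ => c) = c • (1 : ℍ → ℂ) := by
    funext τ; simp
  have h1 : AnalyticAt ℂ (cuspFunction h (1 : ℍ → ℂ)) 0 := by
    have h1' : cuspFunction h (1 : ℍ → ℂ) = 1 := by
      ext q
      rcases eq_or_ne q 0 with rfl | hq
      · simpa [cuspFunction, Periodic.cuspFunction] using! tendsto_const_nhds.limUnder_eq
      · simp [cuspFunction, Periodic.cuspFunction_eq_of_nonzero h _ hq]
    rw [h1']
    exact analyticAt_const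
  rw [e, qExpansion_smul h1, qExpansion_one, PowerSeries.smul_eq_C_mul, mul_one]

/-! ## The Laurent dictionary -/

open HahnSeries in
/-- `f` has Laurent expansion `L` at `i∞` in the parameter `qf h`. -/
def HasQ (h : ℝ) (f : ℍ → ℂ) (L : LaurentSeries ℂ) : Prop :=
  ∃ M : ℕ, IsNice h (qf h ^ M * f) ∧
    HahnSeries.ofPowerSeries ℤ ℂ (qExpansion h (qf h ^ M * f)) = HahnSeries.single (M : ℤ) 1 * L

namespace HasQ

open HahnSeries

variable {h : ℝ} {f g : ℍ → ℂ} {L L' : LaurentSeries ℂ}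

theorem shift (hh : 0 < h) {M : ℕ} (k : ℕ) (h1 : IsNice h (qf h ^ M * f))
    (h2 : ofPowerSeries ℤ ℂ (qExpansion h (qf h ^ M * f)) = single (M : ℤ) 1 * L) :
    IsNice h (qf h ^ (M + k) * f) ∧
      ofPowerSeries ℤ ℂ (qExpansion h (qf h ^ (M + k) * f)) = single ((M + k : ℕ) : ℤ) 1 * L := by
  have e : qf h ^ (M + k) * f = qf h ^ k * (qf h ^ M * f) := by
    rw [_root_.pow_add, mul_comm (qf h ^ M), mul_assoc]
  have hk : IsNice h (qf h ^ k) := (IsNice.qf hh).pow k
  refine ⟨e ▸ hk.mul h1, ?_⟩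
  rw [e, qExpansion_mul (hk.analytic hh) (h1.analytic hh), map_mul, h2, qExpansion_qf_pow hh,
    ofPowerSeries_X_pow, ← mul_assoc, single_mul_single, one_mul,
    show ((k : ℤ) + (M : ℤ)) = ((M + k : ℕ) : ℤ) by push_cast; ring]

theorem spec (hh : 0 < h) (hf : HasQ h f L) : ∃ M₀ : ℕ, ∀ M : ℕ, M₀ ≤ M →
    IsNice h (qf h ^ M * f) ∧
      ofPowerSeries ℤ ℂ (qExpansion h (qf h ^ M * f)) = single (M : ℤ) 1 * L := by
  obtain ⟨M₀, h1, h2⟩ := hf
  refine ⟨M₀, fun M hM => ?_⟩
  obtain ⟨k, rfl⟩ := Nat.exists_eq_add_of_le hM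
  exact shift hh k h1 h2

theorem add (hh : 0 < h) (hf : HasQ h f L) (hg : HasQ h g L') : HasQ h (f + g) (L + L') := by
  obtain ⟨M₁, h1⟩ := hf.spec hh
  obtain ⟨M₂, h2⟩ := hg.spec hh
  obtain ⟨n1, e1⟩ := h1 (max M₁ M₂) (le_max_left _ _)
  obtain ⟨n2, e2⟩ := h2 (max M₁ M₂) (le_max_right _ _)
  refine ⟨max M₁ M₂, ?_, ?_⟩
  · rw [mul_add]; exact n1.add n2
  · rw [mul_add, qExpansion_add (n1.analytic hh) (n2.analytic hh), map_add, e1, e2, mul_add]

theorem mul (hh : 0 < h) (hf : HasQ h f L) (hg : HasQ h g L') : HasQ h (f * g) (L * L') := by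
  obtain ⟨M₁, n1, e1⟩ := hf
  obtain ⟨M₂, n2, e2⟩ := hg
  have e : qf h ^ (M₁ + M₂) * (f * g) = (qf h ^ M₁ * f) * (qf h ^ M₂ * g) := by
    rw [_root_.pow_add, mul_mul_mul_comm]
  refine ⟨M₁ + M₂, e ▸ n1.mul n2, ?_⟩
  rw [e, qExpansion_mul (n1.analytic hh) (n2.analytic hh), map_mul, e1, e2, mul_mul_mul_comm,
    single_mul_single, one_mul, Nat.cast_add]

theorem const (h : ℝ) (c : ℂ) : HasQ h (fun _ => c) (HahnSeries.C c) := by
  have e : qf h ^ 0 * (fun _ : ℍ => c) = fun _ => c := by rw [pow_zero, one_mul]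
  refine ⟨0, by rw [e]; exact IsNice.const h c, ?_⟩
  rw [e, qExpansion_const, ofPowerSeries_C, Nat.cast_zero, single_zero_one, one_mul]

theorem one (h : ℝ) : HasQ h 1 1 := by
  have := const h 1
  rwa [map_one] at this

theorem zero (h : ℝ) : HasQ h 0 0 := by
  have := const h 0
  rwa [map_zero] at this

theorem neg (hh : 0 < h) (hf : HasQ h f L) : HasQ h (-f) (-L) := by
  have := (const h (-1)).mul hh hf
  convert this using 1
  · funext τ; simp
  · rw [map_neg, map_one]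
    exact (neg_one_mul L).symm

theorem sub (hh : 0 < h) (hf : HasQ h f L) (hg : HasQ h g L') : HasQ h (f - g) (L - L') := by
  rw [sub_eq_add_neg, sub_eq_add_neg]; exact hf.add hh (hg.neg hh)

theorem pow (hh : 0 < h) (hf : HasQ h f L) (n : ℕ) : HasQ h (f ^ n) (L ^ n) := by
  induction n with
  | zero => rw [pow_zero, pow_zero]; exact one h
  | succ n ih => rw [pow_succ, pow_succ]; exact ih.mul hh hf

theorem single_cancel {M : ℤ} {L L' : LaurentSeries ℂ}
    (e : (single M (1 : ℂ) : LaurentSeries ℂ) * L = single M 1 * L') : L = L' := by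
  have h1 : (single (-M) (1 : ℂ) : LaurentSeries ℂ) * single M 1 = 1 := by
    rw [single_mul_single, neg_add_cancel, one_mul, single_zero_one]
  have := congrArg (fun z => (single (-M) (1 : ℂ) : LaurentSeries ℂ) * z) e
  simpa only [← mul_assoc, h1, one_mul] using this

/-- The expansion is determined by the function. -/
theorem unique (hh : 0 < h) (hf : HasQ h f L) (hf' : HasQ h f L') : L = L' := by
  obtain ⟨M₁, h1⟩ := hf.spec hh
  obtain ⟨M₂, h2⟩ := hf'.spec hh
  obtain ⟨-, e1⟩ := h1 (max M₁ M₂) (le_max_left _ _)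
  obtain ⟨-, e2⟩ := h2 (max M₁ M₂) (le_max_right _ _)
  exact single_cancel (e1.symm.trans e2)

/-- The function is determined by its expansion. -/
theorem eq_of_eq (hh : 0 < h) (hf : HasQ h f L) (hg : HasQ h g L) : f = g := by
  obtain ⟨M₁, h1⟩ := hf.spec hh
  obtain ⟨M₂, h2⟩ := hg.spec hh
  obtain ⟨n1, e1⟩ := h1 (max M₁ M₂) (le_max_left _ _)
  obtain ⟨n2, e2⟩ := h2 (max M₁ M₂) (le_max_right _ _)
  have e3 := ofPowerSeries_injective (e1.trans e2.symm)
  have e4 : qExpansion h (qf h ^ max M₁ M₂ * f - qf h ^ max M₁ M₂ * g) = 0 := by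
    rw [qExpansion_sub (n1.analytic hh) (n2.analytic hh), e3, sub_self]
  have n3 := n1.sub n2
  rw [qExpansion_eq_zero_iff hh n3.per n3.hol n3.bdd] at e4
  funext τ
  have := congrFun e4 τ
  simp only [Pi.sub_apply, Pi.mul_apply, Pi.pow_apply, Pi.zero_apply, ← mul_sub, mul_eq_zero] at this
  rcases this with h0 | h0
  · exact absurd h0 (pow_ne_zero _ (qf_ne_zero h τ))
  · exact sub_eq_zero.mp h0

theorem eq_zero_of_zero (hh : 0 < h) (hf : HasQ h f 0) : f = 0 :=
  eq_of_eq hh hf (zero h)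

/-- Periodicity. -/
theorem periodic (hf : HasQ h f L) (hh : 0 < h) (τ : ℍ) : f (h +ᵥ τ) = f τ := by
  obtain ⟨M, n1, -⟩ := hf
  have h1 := periodic_comp_ofComplex_iff.mp n1.per τ
  have h2 := periodic_comp_ofComplex_iff.mp (IsNice.qf hh).per τ
  simp only [Pi.mul_apply, Pi.pow_apply, h2] at h1
  exact mul_left_cancel₀ (pow_ne_zero _ (qf_ne_zero h τ)) h1

/-- Holomorphy. -/
theorem mdiff (hf : HasQ h f L) (hh : 0 < h) : MDiff f := by
  obtain ⟨M, n1, -⟩ := hf
  rw [UpperHalfPlane.mdifferentiable_iff]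
  have h1 := UpperHalfPlane.mdifferentiable_iff.mp n1.hol
  have h2 := UpperHalfPlane.mdifferentiable_iff.mp ((IsNice.qf hh).pow M).hol
  have h3 : DifferentiableOn ℂ (fun z => ((qf h ^ M * f) ∘ ofComplex) z / ((qf h ^ M) ∘ ofComplex) z)
      {z : ℂ | 0 < z.im} :=
    h1.div h2 (fun z _ => pow_ne_zero _ (qf_ne_zero h _))
  refine h3.congr fun z _ => ?_
  simp only [comp_apply, Pi.mul_apply, Pi.pow_apply]
  rw [mul_div_cancel_left₀ _ (pow_ne_zero _ (qf_ne_zero h _))]

/-- A holomorphic periodic function with at most a pole at `i∞` has a Laurent expansion. -/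
theorem of_isNice {M : ℕ} (hf : IsNice h (qf h ^ M * f)) :
    HasQ h f (single (-(M : ℤ)) 1 * ofPowerSeries ℤ ℂ (qExpansion h (qf h ^ M * f))) := by
  refine ⟨M, hf, ?_⟩
  rw [← mul_assoc, single_mul_single, add_neg_cancel, one_mul, single_zero_one, one_mul]

end HasQ

/-! ## Expansions from convergent series -/

theorem ofPowerSeries_coeff_neg (P : PowerSeries ℂ) {k : ℤ} (hk : k < 0) :
    (HahnSeries.ofPowerSeries ℤ ℂ P).coeff k = 0 := by
  rw [HahnSeries.ofPowerSeries_apply]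
  refine HahnSeries.embDomain_of_notMem_range ?_
  rintro ⟨m, rfl⟩
  exact absurd hk (not_lt.mpr (Int.natCast_nonneg m))

/-- From a convergent expansion `𝕢^M f = ∑ c n 𝕢^(d n)` to the Laurent dictionary. -/
theorem hasQ_of_hasSum {h : ℝ} (hh : 0 < h) {f : ℍ → ℂ} (hol : MDiff f) {M : ℕ} {c : ℕ → ℂ}
    {d : ℕ} (hd : 0 < d)
    (hs : ∀ τ : ℍ, HasSum (fun n : ℕ => c n * qf h τ ^ (d * n)) (qf h τ ^ M * f τ)) :
    HasQ h f (HahnSeries.single (-(M : ℤ)) 1 *
      HahnSeries.ofPowerSeries ℤ ℂ (PowerSeries.mk fun m => if d ∣ m then c (m / d) else 0)) := by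
  set c' : ℕ → ℂ := fun m => if d ∣ m then c (m / d) else 0 with hc'
  have hs' : ∀ τ : ℍ, HasSum (fun m : ℕ => c' m • 𝕢 h τ ^ m) ((qf h ^ M * f) τ) := by
    intro τ
    have hinj : Function.Injective (fun n : ℕ => d * n) :=
      fun a b hab => Nat.eq_of_mul_eq_mul_left hd hab
    refine (hinj.hasSum_iff ?_).mp ?_
    · intro m hm
      have : ¬ d ∣ m := fun ⟨k, hk⟩ => hm ⟨k, hk.symm⟩
      simp [hc', this]
    · have e : ((fun m : ℕ => c' m • 𝕢 h (τ : ℂ) ^ m) ∘ fun n : ℕ => d * n)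
          = fun n : ℕ => c n * qf h τ ^ (d * n) := by
        funext n
        simp [hc', Nat.mul_div_cancel_left _ hd, qf]
      rw [e]
      exact hs τ
  have hnice : IsNice h (qf h ^ M * f) := by
    refine ⟨?_, ((IsNice.qf hh).pow M).hol.mul hol, isBoundedAtImInfty_of_hasSum_qExpansion hh hs'⟩
    rw [periodic_comp_ofComplex_iff]
    intro τ
    have h1 := hs' (h +ᵥ τ)
    have h2 : 𝕢 h ((h +ᵥ τ : ℍ) : ℂ) = 𝕢 h (τ : ℂ) :=
      periodic_comp_ofComplex_iff.mp (IsNice.qf hh).per τ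
    rw [h2] at h1
    exact h1.unique (hs' τ)
  have hq : qExpansion h (qf h ^ M * f) = PowerSeries.mk c' := by
    ext m
    rw [PowerSeries.coeff_mk]
    exact (qExpansion_coeff_unique' hh (hnice.analytic hh) hs' m).symm
  have := HasQ.of_isNice hnice
  rwa [hq] at this

/-! ## Translations -/

theorem IsNice.vadd {h : ℝ} {f : ℍ → ℂ} (hf : IsNice h f) (s : ℝ) :
    IsNice h (fun τ => f (s +ᵥ τ)) := by
  refine ⟨?_, ?_, ?_⟩
  · rw [periodic_comp_ofComplex_iff]
    intro τ
    rw [vadd_comm]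
    exact periodic_comp_ofComplex_iff.mp hf.per _
  · rw [UpperHalfPlane.mdifferentiable_iff]
    have h1 := UpperHalfPlane.mdifferentiable_iff.mp hf.hol
    have h2 : DifferentiableOn ℂ ((f ∘ ofComplex) ∘ fun z : ℂ => z + (s : ℂ))
        {z : ℂ | 0 < z.im} := by
      refine h1.comp (by fun_prop) ?_
      intro z hz
      simpa using hz
    refine h2.congr fun z hz => ?_
    have hz' : 0 < (z + (s : ℂ)).im := by simpa using hz
    simp only [comp_apply, ofComplex_apply_of_im_pos hz, ofComplex_apply_of_im_pos hz']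
    congr 1
    ext
    simp [add_comm]
  · have hb := hf.bdd
    rw [UpperHalfPlane.isBoundedAtImInfty_iff] at hb ⊢
    obtain ⟨B, A, hB⟩ := hb
    exact ⟨B, A, fun z hz => hB _ (by simpa using hz)⟩

theorem qExpansion_vadd {h : ℝ} (hh : 0 < h) {f : ℍ → ℂ} (hf : IsNice h f) (s : ℝ) (m : ℕ) :
    (qExpansion h (fun τ => f (s +ᵥ τ))).coeff m =
      Complex.exp (2 * π * Complex.I * s / h) ^ m * (qExpansion h f).coeff m := by
  symm
  refine qExpansion_coeff_unique' (c := fun m : ℕ =>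
    Complex.exp (2 * π * Complex.I * s / h) ^ m * (qExpansion h f).coeff m) hh
    ((hf.vadd s).analytic hh) (fun τ => ?_) m
  have h1 := hasSum_qExpansion hh hf.per hf.hol hf.bdd (s +ᵥ τ)
  have h2 : 𝕢 h ((s +ᵥ τ : ℍ) : ℂ) = Complex.exp (2 * π * Complex.I * s / h) * 𝕢 h (τ : ℂ) :=
    qf_vadd h s τ
  have e : (fun m : ℕ => (Complex.exp (2 * π * Complex.I * s / h) ^ m * (qExpansion h f).coeff m)
      • 𝕢 h (τ : ℂ) ^ m) = fun m : ℕ => (qExpansion h f).coeff m • 𝕢 h ((s +ᵥ τ : ℍ) : ℂ) ^ m := by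
    funext m
    rw [h2, mul_pow, smul_eq_mul, smul_eq_mul]
    ring
  rw [e]
  exact h1

open HahnSeries in
/-- Translating by `s` twists the expansion by `exp (2πis/h)`. -/
theorem HasQ.vadd {h : ℝ} (hh : 0 < h) {f : ℍ → ℂ} {L : LaurentSeries ℂ} (hf : HasQ h f L)
    (s : ℝ) (ζ : ℂˣ) (hζ : (ζ : ℂ) = Complex.exp (2 * π * Complex.I * s / h)) :
    HasQ h (fun τ => f (s +ᵥ τ)) (helper864.twist ζ L) := by
  obtain ⟨M, n1, e1⟩ := hf
  have hu : ((ζ⁻¹ ^ M : ℂˣ) : ℂ) * (ζ : ℂ) ^ M = 1 := by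
    rw [← Units.val_pow_eq_pow_val, ← Units.val_mul, ← mul_pow, inv_mul_cancel, one_pow,
      Units.val_one]
  have e : qf h ^ M * (fun τ => f (s +ᵥ τ))
      = (fun _ => ((ζ⁻¹ ^ M : ℂˣ) : ℂ)) * (fun τ => (qf h ^ M * f) (s +ᵥ τ)) := by
    funext τ
    simp only [Pi.mul_apply, Pi.pow_apply, qf_vadd, ← hζ, mul_pow]
    rw [← mul_assoc, ← mul_assoc, hu, one_mul]
  have n2 : IsNice h (qf h ^ M * fun τ => f (s +ᵥ τ)) := by
    rw [e]; exact (IsNice.const h _).mul (n1.vadd s)
  refine ⟨M, n2, ?_⟩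
  ext k
  have e1k := congrArg (fun z : LaurentSeries ℂ => z.coeff k) e1
  simp only [coeff_single_mul, one_mul] at e1k
  rw [coeff_single_mul, one_mul, helper864.twist_coeff, ← e1k]
  rcases lt_or_ge k 0 with hk | hk
  · rw [ofPowerSeries_coeff_neg _ hk, ofPowerSeries_coeff_neg _ hk, mul_zero]
  · obtain ⟨m, rfl⟩ := Int.eq_ofNat_of_zero_le hk
    rw [ofPowerSeries_apply_coeff, ofPowerSeries_apply_coeff, e,
      qExpansion_mul ((IsNice.const h _).analytic hh) ((n1.vadd s).analytic hh), qExpansion_const,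
      PowerSeries.coeff_C_mul, qExpansion_vadd hh n1, ← hζ, ← mul_assoc]
    congr 1
    simp only [zpow_sub, zpow_natCast, Units.val_mul, Units.val_pow_eq_pow_val,
      Units.val_inv_eq_inv_val, inv_pow]
    rw [mul_comm]

/-- The order of an expansion with nonzero leading coefficient. -/
theorem order_single_mul_ofPowerSeries {M : ℤ} {P : PowerSeries ℂ} (hP : P.coeff 0 ≠ 0) :
    (HahnSeries.single M (1 : ℂ) * HahnSeries.ofPowerSeries ℤ ℂ P : LaurentSeries ℂ).order = M := by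
  have h0 : (HahnSeries.ofPowerSeries ℤ ℂ P).coeff 0 ≠ 0 := by
    have := HahnSeries.ofPowerSeries_apply_coeff (Γ := ℤ) P 0
    rw [Nat.cast_zero] at this
    rw [this]; exact hP
  have hne : HahnSeries.ofPowerSeries ℤ ℂ P ≠ 0 := fun h => h0 (by rw [h]; rfl)
  have hs : (HahnSeries.single M (1 : ℂ) : LaurentSeries ℂ) ≠ 0 :=
    HahnSeries.single_ne_zero one_ne_zero
  rw [HahnSeries.order_mul hs hne, HahnSeries.order_single one_ne_zero]
  have h1 : (HahnSeries.ofPowerSeries ℤ ℂ P).order ≤ 0 := HahnSeries.order_le_of_coeff_ne_zero h0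
  have h2 : 0 ≤ (HahnSeries.ofPowerSeries ℤ ℂ P).order := by
    by_contra hlt
    exact (HahnSeries.coeff_order_eq_zero.not.2 hne) (ofPowerSeries_coeff_neg P (not_le.mp hlt))
  rw [le_antisymm h1 h2, add_zero]

end

end Fermat.Agent.S24.helper1704
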