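import Mathlib

/-!
# Holomorphic functions on the upper half plane, their fraction field and local orders

(helper182, S24 finite-point vertical.)
-/

set_option autoImplicit false

open UpperHalfPlane Filter Topology
open scoped Manifold MatrixGroups

namespace Fermat.Agent.S24.helper182

/-- The ring of holomorphic functions on the upper half plane. -/
def Hol : Subring (ℍ → ℂ) where
  carrier := {f | MDiff f}
  mul_mem' := fun hf hg => hf.mul hg
  one_mem' := mdifferentiable_const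
  add_mem' := fun hf hg => hf.add hg
  zero_mem' := mdifferentiable_const
  neg_mem' := fun hf => hf.neg

theorem mem_Hol {f : ℍ → ℂ} : f ∈ Hol ↔ MDiff f := Iff.rfl

/-- The open upper half plane as a subset of `ℂ`. -/
def uhpSet : Set ℂ := {z : ℂ | 0 < z.im}

theorem isOpen_uhpSet : IsOpen uhpSet := isOpen_upperHalfPlaneSet

theorem isPreconnected_uhpSet : IsPreconnected uhpSet :=
  (convex_halfSpace_im_gt 0).isPreconnected

theorem coe_mem_uhpSet (τ : ℍ) : (τ : ℂ) ∈ uhpSet := τ.im_pos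

theorem analyticOnNhd_comp_ofComplex {f : ℍ → ℂ} (hf : MDiff f) :
    AnalyticOnNhd ℂ (f ∘ ofComplex) uhpSet :=
  (UpperHalfPlane.mdifferentiable_iff.mp hf).analyticOnNhd isOpen_uhpSet

theorem analyticAt_comp_ofComplex {f : ℍ → ℂ} (hf : MDiff f) (τ : ℍ) :
    AnalyticAt ℂ (f ∘ ofComplex) (τ : ℂ) :=
  analyticOnNhd_comp_ofComplex hf τ (coe_mem_uhpSet τ)

/-- A holomorphic function on `ℍ` whose order at some point is infinite vanishes identically. -/
theorem eq_zero_of_analyticOrderAt_eq_top {f : ℍ → ℂ} (hf : MDiff f) (τ₀ : ℍ)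
    (h : analyticOrderAt (f ∘ ofComplex) (τ₀ : ℂ) = ⊤) : f = 0 := by
  have h0 : Set.EqOn (f ∘ ofComplex) 0 uhpSet :=
    (analyticOnNhd_comp_ofComplex hf).eqOn_zero_of_preconnected_of_eventuallyEq_zero
      isPreconnected_uhpSet (coe_mem_uhpSet τ₀) (analyticOrderAt_eq_top.mp h)
  funext τ
  have := h0 (coe_mem_uhpSet τ)
  simpa [ofComplex_apply] using this

theorem analyticOrderAt_ne_top_of_ne_zero {f : ℍ → ℂ} (hf : MDiff f) (h0 : f ≠ 0) (τ₀ : ℍ) :
    analyticOrderAt (f ∘ ofComplex) (τ₀ : ℂ) ≠ ⊤ :=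
  fun h => h0 (eq_zero_of_analyticOrderAt_eq_top hf τ₀ h)

theorem comp_ofComplex_mul (f g : ℍ → ℂ) :
    (f * g) ∘ ofComplex = (f ∘ ofComplex) * (g ∘ ofComplex) := rfl

theorem comp_ofComplex_add (f g : ℍ → ℂ) :
    (f + g) ∘ ofComplex = (f ∘ ofComplex) + (g ∘ ofComplex) := rfl

/-- The order of vanishing at `τ₀` of a function on `ℍ` (via `ofComplex`). -/
noncomputable def ordNat (τ₀ : ℍ) (f : ℍ → ℂ) : ℕ∞ := analyticOrderAt (f ∘ ofComplex) (τ₀ : ℂ)

theorem ordNat_mul {f g : ℍ → ℂ} (hf : MDiff f) (hg : MDiff g) (τ₀ : ℍ) :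
    ordNat τ₀ (f * g) = ordNat τ₀ f + ordNat τ₀ g :=
  analyticOrderAt_mul (analyticAt_comp_ofComplex hf τ₀) (analyticAt_comp_ofComplex hg τ₀)

theorem ordNat_add (f g : ℍ → ℂ) (τ₀ : ℍ) :
    min (ordNat τ₀ f) (ordNat τ₀ g) ≤ ordNat τ₀ (f + g) :=
  le_analyticOrderAt_add

theorem ordNat_eq_top_iff {f : ℍ → ℂ} (hf : MDiff f) (τ₀ : ℍ) : ordNat τ₀ f = ⊤ ↔ f = 0 := by
  refine ⟨eq_zero_of_analyticOrderAt_eq_top hf τ₀, ?_⟩
  rintro rfl
  exact analyticOrderAt_eq_top.mpr (Eventually.of_forall fun _ => rfl)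

theorem ordNat_const {c : ℂ} (hc : c ≠ 0) (τ₀ : ℍ) : ordNat τ₀ (fun _ => c) = 0 := by
  have : AnalyticAt ℂ ((fun _ : ℍ => c) ∘ ofComplex) (τ₀ : ℂ) := analyticAt_const
  exact this.analyticOrderAt_eq_zero.mpr hc

instance instNoZeroDivisorsHol : NoZeroDivisors Hol where
  eq_zero_or_eq_zero_of_mul_eq_zero := by
    rintro ⟨f, hf⟩ ⟨g, hg⟩ h
    have h' : f * g = 0 := congrArg Subtype.val h
    have hord : ordNat I (f * g) = ⊤ := by
      rw [h']; exact (ordNat_eq_top_iff mdifferentiable_const I).mpr rfl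
    rw [ordNat_mul hf hg] at hord
    rcases WithTop.add_eq_top.mp hord with h1 | h1
    · left; exact Subtype.ext ((ordNat_eq_top_iff hf I).mp h1)
    · right; exact Subtype.ext ((ordNat_eq_top_iff hg I).mp h1)

instance instIsDomainHol : IsDomain Hol := NoZeroDivisors.to_isDomain _

/-! ## The order valuation on `Hol` and on its fraction field -/

/-- The field of meromorphic functions on `ℍ`, as the fraction field of `Hol`. -/
abbrev Mer : Type := FractionRing Hol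

theorem ordNat_one (τ₀ : ℍ) : ordNat τ₀ (1 : ℍ → ℂ) = 0 := ordNat_const one_ne_zero τ₀

theorem ordNat_zero (τ₀ : ℍ) : ordNat τ₀ (0 : ℍ → ℂ) = ⊤ :=
  (ordNat_eq_top_iff mdifferentiable_const τ₀).mpr rfl

/-- The order at `τ₀` as an additive valuation on `Hol`. -/
noncomputable def ordHol (τ₀ : ℍ) : AddValuation Hol (WithTop ℤ) :=
  AddValuation.of (fun f => ENat.map (Nat.cast : ℕ → ℤ) (ordNat τ₀ f.1))
    (by
      show ENat.map (Nat.cast : ℕ → ℤ) (ordNat τ₀ (0 : ℍ → ℂ)) = ⊤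
      rw [ordNat_zero]; rfl)
    (by
      show ENat.map (Nat.cast : ℕ → ℤ) (ordNat τ₀ (1 : ℍ → ℂ)) = 0
      rw [ordNat_one]; rfl)
    (by
      intro f g
      have hmono : Monotone (ENat.map (Nat.cast : ℕ → ℤ)) :=
        ENat.monotone_map_iff.mpr Nat.mono_cast
      show min (ENat.map (Nat.cast : ℕ → ℤ) (ordNat τ₀ f.1))
          (ENat.map (Nat.cast : ℕ → ℤ) (ordNat τ₀ g.1))
        ≤ ENat.map (Nat.cast : ℕ → ℤ) (ordNat τ₀ (f.1 + g.1))
      rw [← hmono.map_min]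
      exact hmono (ordNat_add f.1 g.1 τ₀))
    (by
      intro f g
      show ENat.map (Nat.cast : ℕ → ℤ) (ordNat τ₀ (f.1 * g.1))
        = ENat.map (Nat.cast : ℕ → ℤ) (ordNat τ₀ f.1)
          + ENat.map (Nat.cast : ℕ → ℤ) (ordNat τ₀ g.1)
      rw [ordNat_mul f.2 g.2]
      exact ENat.map_add (Nat.castAddMonoidHom ℤ) _ _)

theorem ordHol_apply (τ₀ : ℍ) (f : Hol) :
    ordHol τ₀ f = ENat.map (Nat.cast : ℕ → ℤ) (ordNat τ₀ f.1) := rfl

theorem ordHol_eq_top_iff (τ₀ : ℍ) (f : Hol) : ordHol τ₀ f = ⊤ ↔ f = 0 := by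
  rw [ordHol_apply, ENat.map_eq_top_iff, ordNat_eq_top_iff f.2]
  exact ⟨fun h => Subtype.ext h, fun h => congrArg Subtype.val h⟩

/-- `ordHol` as a multiplicative valuation. -/
noncomputable def ordHolVal (τ₀ : ℍ) : Valuation Hol (Multiplicative (WithTop ℤ)ᵒᵈ) :=
  AddValuation.toValuation (ordHol τ₀)

theorem ordHol_supp_le (τ₀ : ℍ) :
    nonZeroDivisors Hol ≤ (ordHolVal τ₀).supp.primeCompl := by
  intro s hs hmem
  have h0 : ordHol τ₀ s = ⊤ := (AddValuation.mem_supp_iff (ordHol τ₀) s).mp hmem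
  exact nonZeroDivisors.ne_zero hs ((ordHol_eq_top_iff τ₀ s).mp h0)

/-- The order at `τ₀` as an additive valuation on the field `Mer`. -/
noncomputable def ordAt (τ₀ : ℍ) : AddValuation Mer (WithTop ℤ) :=
  AddValuation.ofValuation
    ((ordHolVal τ₀).extendToLocalization (ordHol_supp_le τ₀) Mer)

theorem ordAt_algebraMap (τ₀ : ℍ) (f : Hol) : ordAt τ₀ (algebraMap Hol Mer f) = ordHol τ₀ f :=
  Valuation.extendToLocalization_apply_map_apply (ordHolVal τ₀) (ordHol_supp_le τ₀) Mer f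

/-! ## Möbius maps on `ℂ` -/

/-- The denominator `c z + d` of the Möbius map of `g`. -/
noncomputable def mden (g : SL(2, ℤ)) (z : ℂ) : ℂ := (g 1 0 : ℂ) * z + (g 1 1 : ℂ)

/-- The Möbius map of `g ∈ SL(2, ℤ)` on `ℂ`. -/
noncomputable def mob (g : SL(2, ℤ)) (z : ℂ) : ℂ :=
  ((g 0 0 : ℂ) * z + (g 0 1 : ℂ)) / mden g z

theorem det_cast (g : SL(2, ℤ)) :
    (g 0 0 : ℂ) * (g 1 1 : ℂ) - (g 0 1 : ℂ) * (g 1 0 : ℂ) = 1 := by
  have h := g.det_coe
  rw [Matrix.det_fin_two] at h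
  exact_mod_cast h

theorem mden_ne_zero (g : SL(2, ℤ)) {z : ℂ} (hz : 0 < z.im) : mden g z ≠ 0 := by
  intro h
  have him : (mden g z).im = (g 1 0 : ℝ) * z.im := by simp [mden]
  rw [h, Complex.zero_im] at him
  have hc : (g 1 0 : ℝ) = 0 := by
    rcases mul_eq_zero.mp him.symm with h1 | h1
    · exact h1
    · exact absurd h1 hz.ne'
  have hc' : (g 1 0 : ℂ) = 0 := by exact_mod_cast hc
  have hd : (g 1 1 : ℂ) = 0 := by simpa [mden, hc'] using h
  have hdet := det_cast g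
  rw [hc', hd] at hdet
  simp at hdet

theorem coe_smul_eq_mob (g : SL(2, ℤ)) (τ : ℍ) : ((g • τ : ℍ) : ℂ) = mob g τ := by
  rw [UpperHalfPlane.coe_specialLinearGroup_apply]
  simp [mob, mden]

theorem ofComplex_mob (g : SL(2, ℤ)) {z : ℂ} (hz : 0 < z.im) :
    ofComplex (mob g z) = g • ofComplex z := by
  have h1 : ((ofComplex z : ℍ) : ℂ) = z := by
    rw [ofComplex_apply_of_im_pos hz]
  rw [← h1, ← coe_smul_eq_mob, ofComplex_apply, h1]

theorem mob_sub_mob (g : SL(2, ℤ)) {z w : ℂ} (hz : mden g z ≠ 0) (hw : mden g w ≠ 0) :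
    mob g z - mob g w = (z - w) / (mden g z * mden g w) := by
  have hdet := det_cast g
  unfold mob
  rw [div_sub_div _ _ hz hw, div_left_inj' (mul_ne_zero hz hw)]
  unfold mden
  linear_combination (z - w) * hdet

theorem analyticAt_mden (g : SL(2, ℤ)) (z : ℂ) : AnalyticAt ℂ (mden g) z :=
  (analyticAt_const.mul analyticAt_id).add analyticAt_const

theorem analyticAt_mob (g : SL(2, ℤ)) {z : ℂ} (hz : mden g z ≠ 0) : AnalyticAt ℂ (mob g) z :=
  ((analyticAt_const.mul analyticAt_id).add analyticAt_const).div (analyticAt_mden g z) hz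

theorem eventually_mden_ne_zero (g : SL(2, ℤ)) {z : ℂ} (hz : mden g z ≠ 0) :
    ∀ᶠ w in 𝓝 z, mden g w ≠ 0 :=
  (analyticAt_mden g z).continuousAt.eventually_ne hz

/-- The Möbius map has a simple zero of `mob g z - mob g z₀` at `z₀`. -/
theorem analyticOrderAt_mob_sub (g : SL(2, ℤ)) {z₀ : ℂ} (hz : mden g z₀ ≠ 0) :
    analyticOrderAt (fun z => mob g z - mob g z₀) z₀ = 1 := by
  have han : AnalyticAt ℂ (fun z => mob g z - mob g z₀) z₀ :=
    (analyticAt_mob g hz).sub analyticAt_const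
  have h1 : analyticOrderAt (fun z => mob g z - mob g z₀) z₀ = ((1 : ℕ) : ℕ∞) := by
    rw [han.analyticOrderAt_eq_natCast]
    refine ⟨fun z => (mden g z * mden g z₀)⁻¹, ?_, ?_, ?_⟩
    · exact (((analyticAt_mden g z₀).mul analyticAt_const).inv (mul_ne_zero hz hz))
    · exact inv_ne_zero (mul_ne_zero hz hz)
    · filter_upwards [eventually_mden_ne_zero g hz] with z hz'
      rw [mob_sub_mob g hz' hz, pow_one, smul_eq_mul, div_eq_mul_inv]
  simpa using h1

/-- Order of a pulled back function: `ord_{τ₀}(f ∘ g) = ord_{g τ₀}(f)`. -/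
theorem ordNat_comp_smul {f : ℍ → ℂ} (hf : MDiff f) (g : SL(2, ℤ)) (τ₀ : ℍ) :
    ordNat τ₀ (fun τ => f (g • τ)) = ordNat (g • τ₀) f := by
  unfold ordNat
  have hden : mden g (τ₀ : ℂ) ≠ 0 := mden_ne_zero g τ₀.im_pos
  have hcongr : ((fun τ => f (g • τ)) ∘ ofComplex) =ᶠ[𝓝 (τ₀ : ℂ)] (f ∘ ofComplex) ∘ mob g := by
    filter_upwards [isOpen_uhpSet.mem_nhds (coe_mem_uhpSet τ₀)] with z hz
    show f (g • ofComplex z) = f (ofComplex (mob g z))
    rw [ofComplex_mob g hz]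
  rw [analyticOrderAt_congr hcongr]
  have hmob : mob g (τ₀ : ℂ) = ((g • τ₀ : ℍ) : ℂ) := (coe_smul_eq_mob g τ₀).symm
  have hfa : AnalyticAt ℂ (f ∘ ofComplex) (mob g (τ₀ : ℂ)) := by
    rw [hmob]; exact analyticAt_comp_ofComplex hf _
  rw [hfa.analyticOrderAt_comp (analyticAt_mob g hden), analyticOrderAt_mob_sub g hden, mul_one,
    hmob]

/-! ## Pullback by elements of `SL(2, ℤ)` -/

theorem mdifferentiable_sl_smul (g : SL(2, ℤ)) : MDiff (fun τ : ℍ => g • τ) := by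
  have h : MDiff (fun τ : ℍ => (g : GL (Fin 2) ℝ) • τ) :=
    mdifferentiable_smul (by simp)
  exact h

theorem mdifferentiable_comp_smul {f : ℍ → ℂ} (hf : MDiff f) (g : SL(2, ℤ)) :
    MDiff (fun τ : ℍ => f (g • τ)) :=
  hf.comp (mdifferentiable_sl_smul g)

/-- Pullback of holomorphic functions by `g`: `(pullHol g f) τ = f (g • τ)`. -/
noncomputable def pullHol (g : SL(2, ℤ)) : Hol →+* Hol where
  toFun f := ⟨fun τ => f.1 (g • τ), mdifferentiable_comp_smul f.2 g⟩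
  map_one' := rfl
  map_mul' _ _ := rfl
  map_zero' := rfl
  map_add' _ _ := rfl

@[simp]
theorem pullHol_apply (g : SL(2, ℤ)) (f : Hol) (τ : ℍ) : (pullHol g f).1 τ = f.1 (g • τ) := rfl

theorem pullHol_pullHol (g h : SL(2, ℤ)) (f : Hol) :
    pullHol g (pullHol h f) = pullHol (h * g) f := by
  apply Subtype.ext
  funext τ
  show f.1 (h • g • τ) = f.1 ((h * g) • τ)
  rw [mul_smul]

theorem pullHol_one (f : Hol) : pullHol 1 f = f := by
  apply Subtype.ext
  funext τ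
  show f.1 ((1 : SL(2, ℤ)) • τ) = f.1 τ
  rw [one_smul]

/-- Pullback by `g` as a ring automorphism of `Hol`. -/
noncomputable def pullHolEquiv (g : SL(2, ℤ)) : Hol ≃+* Hol :=
  RingEquiv.ofRingHom (pullHol g) (pullHol g⁻¹)
    (RingHom.ext fun f => by
      show pullHol g (pullHol g⁻¹ f) = f
      rw [pullHol_pullHol, inv_mul_cancel, pullHol_one])
    (RingHom.ext fun f => by
      show pullHol g⁻¹ (pullHol g f) = f
      rw [pullHol_pullHol, mul_inv_cancel, pullHol_one])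

@[simp]
theorem pullHolEquiv_apply (g : SL(2, ℤ)) (f : Hol) : pullHolEquiv g f = pullHol g f := rfl

/-- Pullback by `g` as a field automorphism of `Mer`. -/
noncomputable def pullMer (g : SL(2, ℤ)) : Mer ≃+* Mer :=
  IsFractionRing.ringEquivOfRingEquiv (pullHolEquiv g)

theorem pullMer_algebraMap (g : SL(2, ℤ)) (f : Hol) :
    pullMer g (algebraMap Hol Mer f) = algebraMap Hol Mer (pullHol g f) :=
  IsFractionRing.ringEquivOfRingEquiv_algebraMap (pullHolEquiv g) f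

theorem exists_div_eq (z : Mer) :
    ∃ a b : Hol, b ≠ 0 ∧ z = algebraMap Hol Mer a / algebraMap Hol Mer b := by
  obtain ⟨a, b, hb, h⟩ := IsFractionRing.div_surjective (A := Hol) z
  exact ⟨a, b, nonZeroDivisors.ne_zero hb, h.symm⟩

theorem algebraMap_ne_zero {b : Hol} (hb : b ≠ 0) : algebraMap Hol Mer b ≠ 0 := by
  intro h
  exact hb ((IsFractionRing.injective Hol Mer) (h.trans (map_zero _).symm))

theorem pullMer_pullMer (g h : SL(2, ℤ)) (z : Mer) :
    pullMer g (pullMer h z) = pullMer (h * g) z := by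
  obtain ⟨a, b, hb, rfl⟩ := exists_div_eq z
  simp only [map_div₀, pullMer_algebraMap, pullHol_pullHol]

theorem pullMer_one (z : Mer) : pullMer 1 z = z := by
  obtain ⟨a, b, hb, rfl⟩ := exists_div_eq z
  simp only [map_div₀, pullMer_algebraMap, pullHol_one]

theorem ordHol_pullHol (g : SL(2, ℤ)) (τ₀ : ℍ) (f : Hol) :
    ordHol τ₀ (pullHol g f) = ordHol (g • τ₀) f := by
  rw [ordHol_apply, ordHol_apply]
  exact congrArg _ (ordNat_comp_smul f.2 g τ₀)

theorem ordAt_pullMer (g : SL(2, ℤ)) (τ₀ : ℍ) (z : Mer) :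
    ordAt τ₀ (pullMer g z) = ordAt (g • τ₀) z := by
  obtain ⟨a, b, hb, rfl⟩ := exists_div_eq z
  rw [map_div₀, AddValuation.map_div, AddValuation.map_div, pullMer_algebraMap,
    pullMer_algebraMap, ordAt_algebraMap, ordAt_algebraMap, ordAt_algebraMap, ordAt_algebraMap,
    ordHol_pullHol, ordHol_pullHol]

/-! ## The stabilizer lemma -/

/-- The multiplier (derivative) of the Möbius map of `g` at `τ₀`. -/
noncomputable def mult (g : SL(2, ℤ)) (τ₀ : ℍ) : ℂ := (mden g (τ₀ : ℂ) * mden g (τ₀ : ℂ))⁻¹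

theorem exists_factorization {a : ℍ → ℂ} (ha : MDiff a) (ha0 : a ≠ 0) (τ₀ : ℍ) :
    ∃ G : ℂ → ℂ, AnalyticAt ℂ G (τ₀ : ℂ) ∧ G (τ₀ : ℂ) ≠ 0 ∧
      ∀ᶠ z in 𝓝 (τ₀ : ℂ), (a ∘ ofComplex) z = (z - (τ₀ : ℂ)) ^ (ordNat τ₀ a).toNat * G z := by
  have hA : AnalyticAt ℂ (a ∘ ofComplex) (τ₀ : ℂ) := analyticAt_comp_ofComplex ha τ₀
  have hne : ordNat τ₀ a ≠ ⊤ := analyticOrderAt_ne_top_of_ne_zero ha ha0 τ₀
  have hn : analyticOrderAt (a ∘ ofComplex) (τ₀ : ℂ) = ((ordNat τ₀ a).toNat : ℕ∞) :=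
    (ENat.natCast_toNat hne).symm
  obtain ⟨G, hG, hG0, hev⟩ := hA.analyticOrderAt_eq_natCast.mp hn
  exact ⟨G, hG, hG0, by simpa [smul_eq_mul] using hev⟩

/-- **Stabilizer lemma.** If `g` fixes `τ₀` and the quotient `a / b` of two nonzero holomorphic
functions is invariant under `g`, then the multiplier `μ` of `g` at `τ₀` satisfies
`μ ^ ord a = μ ^ ord b`. -/
theorem stab_mult_pow_eq {a b : ℍ → ℂ} (ha : MDiff a) (hb : MDiff b) (ha0 : a ≠ 0) (hb0 : b ≠ 0)
    (g : SL(2, ℤ)) (τ₀ : ℍ) (hfix : g • τ₀ = τ₀)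
    (hinv : ∀ τ, a (g • τ) * b τ = a τ * b (g • τ)) :
    mult g τ₀ ^ (ordNat τ₀ a).toNat = mult g τ₀ ^ (ordNat τ₀ b).toNat := by
  set z₀ : ℂ := (τ₀ : ℂ) with hz₀
  set n := (ordNat τ₀ a).toNat with hn
  set m := (ordNat τ₀ b).toNat with hm
  obtain ⟨Ga, hGa, hGa0, hevA⟩ := exists_factorization ha ha0 τ₀
  obtain ⟨Gb, hGb, hGb0, hevB⟩ := exists_factorization hb hb0 τ₀
  have hden : mden g z₀ ≠ 0 := mden_ne_zero g τ₀.im_pos
  have hmob : mob g z₀ = z₀ := by rw [hz₀, ← coe_smul_eq_mob, hfix]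
  have hmobc : ContinuousAt (mob g) z₀ := (analyticAt_mob g hden).continuousAt
  have hmobt : Tendsto (mob g) (𝓝 z₀) (𝓝 z₀) := by
    have := hmobc.tendsto
    rwa [hmob] at this
  -- the function `φ` with `mob g z - z₀ = (z - z₀) * φ z`
  obtain ⟨φ, hφ⟩ : ∃ φ : ℂ → ℂ, φ = fun z => (mden g z * mden g z₀)⁻¹ := ⟨_, rfl⟩
  have hφc : ContinuousAt φ z₀ := by
    rw [hφ]
    exact (((analyticAt_mden g z₀).mul analyticAt_const).inv (mul_ne_zero hden hden)).continuousAt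
  have hφev : ∀ᶠ z in 𝓝 z₀, mob g z - z₀ = (z - z₀) * φ z := by
    filter_upwards [eventually_mden_ne_zero g hden] with z hz
    have := mob_sub_mob g hz hden
    rw [hmob] at this
    rw [this, hφ, div_eq_mul_inv]
  have hφ0 : φ z₀ = mult g τ₀ := by rw [hφ]; rfl
  have hGamob : ContinuousAt (fun z => Ga (mob g z)) z₀ := by
    have h1 : ContinuousAt Ga (mob g z₀) := by rw [hmob]; exact hGa.continuousAt
    exact h1.comp hmobc
  have hGbmob : ContinuousAt (fun z => Gb (mob g z)) z₀ := by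
    have h1 : ContinuousAt Gb (mob g z₀) := by rw [hmob]; exact hGb.continuousAt
    exact h1.comp hmobc
  have hLc : ContinuousAt (fun z => φ z ^ n * Ga (mob g z) * Gb z) z₀ :=
    ((hφc.pow n).mul hGamob).mul hGb.continuousAt
  have hRc : ContinuousAt (fun z => φ z ^ m * Ga z * Gb (mob g z)) z₀ :=
    ((hφc.pow m).mul hGa.continuousAt).mul hGbmob
  have hLR : (fun z => φ z ^ n * Ga (mob g z) * Gb z)
      =ᶠ[𝓝[≠] z₀] (fun z => φ z ^ m * Ga z * Gb (mob g z)) := by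
    refine eventually_nhdsWithin_iff.mpr ?_
    filter_upwards [hevA, hevB, hmobt.eventually hevA, hmobt.eventually hevB, hφev,
      isOpen_uhpSet.mem_nhds (coe_mem_uhpSet τ₀)] with z hA hB hA' hB' hφz hzU hzne
    have hzne' : z ≠ z₀ := hzne
    have hkey := hinv (ofComplex z)
    rw [← ofComplex_mob g hzU] at hkey
    have hkey' : (a ∘ ofComplex) (mob g z) * (b ∘ ofComplex) z
        = (a ∘ ofComplex) z * (b ∘ ofComplex) (mob g z) := hkey
    rw [hA, hB, hA', hB'] at hkey'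
    have hφz' : mob g z - (τ₀ : ℂ) = (z - z₀) * φ z := hφz
    rw [hφz', mul_pow, mul_pow] at hkey'
    have hne : (z - z₀) ^ n * (z - z₀) ^ m ≠ 0 :=
      mul_ne_zero (pow_ne_zero _ (sub_ne_zero.mpr hzne')) (pow_ne_zero _ (sub_ne_zero.mpr hzne'))
    apply mul_left_cancel₀ hne
    show (z - z₀) ^ n * (z - z₀) ^ m * (φ z ^ n * Ga (mob g z) * Gb z)
      = (z - z₀) ^ n * (z - z₀) ^ m * (φ z ^ m * Ga z * Gb (mob g z))
    linear_combination hkey'
  have hLR0 := ((hLc.eventuallyEq_nhds_iff_eventuallyEq_nhdsNE hRc).mp hLR).eq_of_nhds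
  simp only [hmob] at hLR0
  rw [hφ0] at hLR0
  have hGG : Ga z₀ * Gb z₀ ≠ 0 := mul_ne_zero hGa0 hGb0
  apply mul_right_cancel₀ hGG
  linear_combination hLR0

/-! ## Divisibility of orders of invariant meromorphic functions -/

theorem ordHol_of_ne_zero (τ₀ : ℍ) {a : Hol} (ha : a ≠ 0) :
    ordHol τ₀ a = (((ordNat τ₀ a.1).toNat : ℤ) : WithTop ℤ) := by
  have hne : ordNat τ₀ a.1 ≠ ⊤ := fun h => ha (Subtype.ext ((ordNat_eq_top_iff a.2 τ₀).mp h))
  rw [ordHol_apply]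
  conv_lhs => rw [← ENat.natCast_toNat hne]
  rfl

theorem ordAt_div (τ₀ : ℍ) {a b : Hol} (ha : a ≠ 0) (hb : b ≠ 0) :
    ordAt τ₀ (algebraMap Hol Mer a / algebraMap Hol Mer b)
      = ((((ordNat τ₀ a.1).toNat : ℤ) - ((ordNat τ₀ b.1).toNat : ℤ) : ℤ) : WithTop ℤ) := by
  rw [AddValuation.map_div, ordAt_algebraMap, ordAt_algebraMap, ordHol_of_ne_zero τ₀ ha,
    ordHol_of_ne_zero τ₀ hb]
  rfl

theorem dvd_sub_of_pow_eq_pow {μ : ℂ} {m : ℕ} (hm : m.Prime) (h1 : μ ^ m = 1) (hne : μ ≠ 1)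
    {p q : ℕ} (h : μ ^ p = μ ^ q) : (m : ℤ) ∣ (p : ℤ) - q := by
  have hμ0 : μ ≠ 0 := by
    rintro rfl
    rw [zero_pow hm.ne_zero] at h1
    exact zero_ne_one h1
  set u : ℂˣ := Units.mk0 μ hμ0 with hu
  have hu1 : u ^ m = 1 := Units.ext (by simpa [hu] using h1)
  have hune : u ≠ 1 := fun h' => hne (by simpa [hu] using congrArg Units.val h')
  have : Fact m.Prime := ⟨hm⟩
  have hord : orderOf u = m := orderOf_eq_prime hu1 hune
  have hpq : u ^ ((p : ℤ) - q) = 1 := by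
    have h' : u ^ p = u ^ q := Units.ext (by simpa [hu] using h)
    rw [zpow_sub, zpow_natCast, zpow_natCast, h', mul_inv_cancel]
  have := orderOf_dvd_iff_zpow_eq_one.mpr hpq
  rwa [hord] at this

/-- An invariant meromorphic function has order divisible by `m` at a fixed point whose
multiplier is a primitive `m`-th root of unity (`m` prime). -/
theorem exists_ordAt_eq_mul {g : SL(2, ℤ)} {τ₀ : ℍ} (hfix : g • τ₀ = τ₀) {m : ℕ} (hm : m.Prime)
    (hμ1 : mult g τ₀ ^ m = 1) (hμne : mult g τ₀ ≠ 1) {z : Mer} (hz : z ≠ 0)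
    (hinv : pullMer g z = z) : ∃ l : ℤ, ordAt τ₀ z = (((m : ℤ) * l : ℤ) : WithTop ℤ) := by
  obtain ⟨a, b, hb, rfl⟩ := exists_div_eq z
  have ha : a ≠ 0 := by
    rintro rfl
    simp at hz
  have hbM : algebraMap Hol Mer b ≠ 0 := algebraMap_ne_zero hb
  have hpb : pullHol g b ≠ 0 := by
    intro h
    have : pullHolEquiv g b = 0 := h
    exact hb ((map_eq_zero_iff _ (pullHolEquiv g).injective).mp this)
  have hpbM : algebraMap Hol Mer (pullHol g b) ≠ 0 := algebraMap_ne_zero hpb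
  rw [map_div₀, pullMer_algebraMap, pullMer_algebraMap, div_eq_div_iff hpbM hbM] at hinv
  have hinv' : pullHol g a * b = a * pullHol g b := by
    apply IsFractionRing.injective Hol Mer
    rw [map_mul, map_mul]
    exact hinv
  have hpt : ∀ τ, a.1 (g • τ) * b.1 τ = a.1 τ * b.1 (g • τ) := fun τ =>
    congrFun (congrArg Subtype.val hinv') τ
  have ha' : a.1 ≠ 0 := fun h => ha (Subtype.ext h)
  have hb' : b.1 ≠ 0 := fun h => hb (Subtype.ext h)
  have hpow := stab_mult_pow_eq a.2 b.2 ha' hb' g τ₀ hfix hpt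
  obtain ⟨l, hl⟩ := dvd_sub_of_pow_eq_pow hm hμ1 hμne hpow
  exact ⟨l, by rw [ordAt_div τ₀ ha hb, hl]⟩

theorem ordAt_ne_top (τ₀ : ℍ) {z : Mer} (hz : z ≠ 0) : ordAt τ₀ z ≠ ⊤ :=
  (AddValuation.ne_top_iff (ordAt τ₀)).mpr hz

theorem exists_ordAt_eq_coe (τ₀ : ℍ) {z : Mer} (hz : z ≠ 0) :
    ∃ l : ℤ, ordAt τ₀ z = ((l : ℤ) : WithTop ℤ) := by
  obtain ⟨l, hl⟩ := WithTop.ne_top_iff_exists.mp (ordAt_ne_top τ₀ hz)
  exact ⟨l, hl.symm⟩

theorem pullMer_iterate (g : SL(2, ℤ)) (k : ℕ) (z : Mer) :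
    (pullMer g)^[k] z = pullMer (g ^ k) z := by
  induction k generalizing z with
  | zero => simp [pullMer_one]
  | succ k ih =>
    rw [Function.iterate_succ_apply, ih, pullMer_pullMer, pow_succ']

/-- The subgroup of `SL(2, ℤ)` fixing a given meromorphic function. -/
noncomputable def fixer (z : Mer) : Subgroup SL(2, ℤ) where
  carrier := {h | pullMer h z = z}
  mul_mem' := by
    intro h₁ h₂ (e₁ : pullMer h₁ z = z) (e₂ : pullMer h₂ z = z)
    show pullMer (h₁ * h₂) z = z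
    rw [← pullMer_pullMer, e₁, e₂]
  one_mem' := pullMer_one z
  inv_mem' := by
    intro h (e : pullMer h z = z)
    show pullMer h⁻¹ z = z
    conv_lhs => rw [← e]
    rw [pullMer_pullMer, mul_inv_cancel, pullMer_one]

theorem mem_fixer {z : Mer} {h : SL(2, ℤ)} : h ∈ fixer z ↔ pullMer h z = z := Iff.rfl

theorem pullMer_eq_of_smul_eq {h : SL(2, ℤ)} (hh : ∀ τ : ℍ, h • τ = τ) (z : Mer) :
    pullMer h z = z := by
  obtain ⟨a, b, hb, rfl⟩ := exists_div_eq z
  have key : ∀ f : Hol, pullHol h f = f := fun f => by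
    apply Subtype.ext
    funext τ
    show f.1 (h • τ) = f.1 τ
    rw [hh]
  rw [map_div₀, pullMer_algebraMap, pullMer_algebraMap, key, key]

/-- The divisibility hypothesis `hdiv` of the orbit counting lemma at a fixed point. -/
theorem hdiv_of_stab {g : SL(2, ℤ)} {τ₀ : ℍ} (hfix : g • τ₀ = τ₀) {m : ℕ} (hm : m.Prime)
    (hgm : ∀ τ : ℍ, (g ^ m) • τ = τ) (hμ1 : mult g τ₀ ^ m = 1) (hμne : mult g τ₀ ≠ 1)
    (k : ℕ) (z : Mer) (hz : z ≠ 0) (hk : (pullMer g)^[k] z = z) :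
    ∃ l : ℤ, ordAt τ₀ z = (((m / Nat.gcd k m : ℕ) * l : ℤ) : WithTop ℤ) := by
  by_cases hdvd : m ∣ k
  · have hgcd : Nat.gcd k m = m := Nat.gcd_eq_right hdvd
    rw [hgcd, Nat.div_self hm.pos]
    obtain ⟨l, hl⟩ := exists_ordAt_eq_coe τ₀ hz
    exact ⟨l, by rw [hl]; simp⟩
  · have hcop : Nat.Coprime k m := ((Nat.Prime.coprime_iff_not_dvd hm).mpr hdvd).symm
    have hgcd : Nat.gcd k m = 1 := hcop
    rw [hgcd, Nat.div_one]
    have hk' : g ^ k ∈ fixer z := by rw [mem_fixer, ← pullMer_iterate]; exact hk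
    have hm' : g ^ m ∈ fixer z := pullMer_eq_of_smul_eq hgm z
    have hg : g ∈ fixer z := by
      have hbez := Int.gcd_eq_gcd_ab k m
      have hgcd' : Int.gcd (k : ℤ) (m : ℤ) = 1 := by
        rw [Int.gcd_natCast_natCast]; exact hgcd
      rw [hgcd'] at hbez
      have : g = (g ^ k) ^ (Int.gcdA k m) * (g ^ m) ^ (Int.gcdB k m) := by
        rw [← zpow_natCast g k, ← zpow_natCast g m, ← zpow_mul, ← zpow_mul, ← zpow_add,
          ← hbez]
        simp
      rw [this]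
      exact (fixer z).mul_mem ((fixer z).zpow_mem hk' _) ((fixer z).zpow_mem hm' _)
    exact exists_ordAt_eq_mul hfix hm hμ1 hμne hz hg

/-! ## The two elliptic points -/

theorem S_smul_I : ModularGroup.S • I = I := by
  ext
  rw [coe_smul_eq_mob]
  simp [mob, mden, ModularGroup.S]

theorem mult_S_I : mult ModularGroup.S I = -1 := by
  simp [mult, mden, ModularGroup.S]

open Matrix.SpecialLinearGroup in
theorem S_sq_smul (τ : ℍ) : (ModularGroup.S ^ 2) • τ = τ := by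
  have h : ModularGroup.S ^ 2 = -1 := by
    apply Subtype.ext
    rw [pow_two, coe_mul, ModularGroup.coe_S, Matrix.mul_fin_two]
    ext i j
    fin_cases i <;> fin_cases j <;> simp
  rw [h, ModularGroup.SL_neg_smul, one_smul]

open Matrix.SpecialLinearGroup in
theorem ST_cube_smul (τ : ℍ) : ((ModularGroup.S * ModularGroup.T) ^ 3) • τ = τ := by
  have h : (ModularGroup.S * ModularGroup.T) ^ 3 = -1 := by
    apply Subtype.ext
    rw [pow_succ, pow_two, coe_mul, coe_mul, coe_mul, ModularGroup.coe_S, ModularGroup.coe_T,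
      Matrix.mul_fin_two, Matrix.mul_fin_two, Matrix.mul_fin_two]
    ext i j
    fin_cases i <;> fin_cases j <;> simp
  rw [h, ModularGroup.SL_neg_smul, one_smul]

open Matrix.SpecialLinearGroup in
theorem coe_ST : ((ModularGroup.S * ModularGroup.T : SL(2, ℤ)) : Matrix (Fin 2) (Fin 2) ℤ)
    = !![0, -1; 1, 1] := by
  rw [coe_mul, ModularGroup.coe_S, ModularGroup.coe_T, Matrix.mul_fin_two]
  ext i j
  fin_cases i <;> fin_cases j <;> simp

theorem mden_ST (z : ℂ) : mden (ModularGroup.S * ModularGroup.T) z = z + 1 := by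
  have h := coe_ST
  have h10 : (ModularGroup.S * ModularGroup.T : SL(2, ℤ)) 1 0 = 1 := by
    show ((ModularGroup.S * ModularGroup.T : SL(2, ℤ)) : Matrix (Fin 2) (Fin 2) ℤ) 1 0 = 1
    rw [h]; rfl
  have h11 : (ModularGroup.S * ModularGroup.T : SL(2, ℤ)) 1 1 = 1 := by
    show ((ModularGroup.S * ModularGroup.T : SL(2, ℤ)) : Matrix (Fin 2) (Fin 2) ℤ) 1 1 = 1
    rw [h]; rfl
  simp [mden, h10, h11]

theorem mob_ST (z : ℂ) : mob (ModularGroup.S * ModularGroup.T) z = -1 / (z + 1) := by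
  have h := coe_ST
  have h00 : (ModularGroup.S * ModularGroup.T : SL(2, ℤ)) 0 0 = 0 := by
    show ((ModularGroup.S * ModularGroup.T : SL(2, ℤ)) : Matrix (Fin 2) (Fin 2) ℤ) 0 0 = 0
    rw [h]; rfl
  have h01 : (ModularGroup.S * ModularGroup.T : SL(2, ℤ)) 0 1 = -1 := by
    show ((ModularGroup.S * ModularGroup.T : SL(2, ℤ)) : Matrix (Fin 2) (Fin 2) ℤ) 0 1 = -1
    rw [h]; rfl
  unfold mob
  rw [mden_ST]
  simp [h00, h01]

/-- A fixed point of `S * T` satisfies `ρ² + ρ + 1 = 0`. -/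
theorem sq_add_of_ST_fixed {ρ : ℍ} (h : (ModularGroup.S * ModularGroup.T) • ρ = ρ) :
    (ρ : ℂ) ^ 2 + (ρ : ℂ) + 1 = 0 := by
  have h1 : mob (ModularGroup.S * ModularGroup.T) (ρ : ℂ) = (ρ : ℂ) := by
    rw [← coe_smul_eq_mob, h]
  rw [mob_ST] at h1
  have hne : (ρ : ℂ) + 1 ≠ 0 := by
    have := mden_ne_zero (ModularGroup.S * ModularGroup.T) ρ.im_pos
    rwa [mden_ST] at this
  rw [div_eq_iff hne] at h1
  linear_combination -h1

theorem mult_ST {ρ : ℍ} (h : (ModularGroup.S * ModularGroup.T) • ρ = ρ) :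
    mult (ModularGroup.S * ModularGroup.T) ρ = (ρ : ℂ)⁻¹ := by
  have h2 := sq_add_of_ST_fixed h
  unfold mult
  rw [mden_ST]
  congr 1
  linear_combination h2

theorem mult_ST_pow {ρ : ℍ} (h : (ModularGroup.S * ModularGroup.T) • ρ = ρ) :
    mult (ModularGroup.S * ModularGroup.T) ρ ^ 3 = 1 := by
  have h2 := sq_add_of_ST_fixed h
  have h3 : (ρ : ℂ) ^ 3 = 1 := by linear_combination ((ρ : ℂ) - 1) * h2
  rw [mult_ST h, inv_pow, h3, inv_one]

theorem mult_ST_ne_one {ρ : ℍ} (h : (ModularGroup.S * ModularGroup.T) • ρ = ρ) :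
    mult (ModularGroup.S * ModularGroup.T) ρ ≠ 1 := by
  rw [mult_ST h]
  intro h1
  have h2 : (ρ : ℂ) = 1 := by
    rw [inv_eq_one] at h1; exact h1
  have h3 := ρ.im_pos
  have h4 : (ρ : ℂ).im = 0 := by rw [h2]; simp
  have h5 : ρ.im = 0 := h4
  linarith

/-- `hdiv` at the elliptic point `i` (stabilizer generated by `S`, ramification index 2). -/
theorem hdiv_S (k : ℕ) (z : Mer) (hz : z ≠ 0) (hk : (pullMer ModularGroup.S)^[k] z = z) :
    ∃ l : ℤ, ordAt I z = (((2 / Nat.gcd k 2 : ℕ) * l : ℤ) : WithTop ℤ) :=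
  hdiv_of_stab S_smul_I Nat.prime_two S_sq_smul (by rw [mult_S_I]; norm_num)
    (by rw [mult_S_I]; norm_num) k z hz hk

/-- `hdiv` at a fixed point `ρ` of `S * T` (ramification index 3). -/
theorem hdiv_ST {ρ : ℍ} (h : (ModularGroup.S * ModularGroup.T) • ρ = ρ) (k : ℕ) (z : Mer)
    (hz : z ≠ 0) (hk : (pullMer (ModularGroup.S * ModularGroup.T))^[k] z = z) :
    ∃ l : ℤ, ordAt ρ z = (((3 / Nat.gcd k 3 : ℕ) * l : ℤ) : WithTop ℤ) :=
  hdiv_of_stab h Nat.prime_three ST_cube_smul (mult_ST_pow h) (mult_ST_ne_one h) k z hz hk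

/-- The point `ρ = e^{2πi/3}` of the upper half plane. -/
noncomputable def rho : ℍ :=
  ⟨⟨-1 / 2, Real.sqrt 3 / 2⟩, by
    show (0 : ℝ) < Real.sqrt 3 / 2
    positivity⟩

theorem coe_rho : (rho : ℂ) = ⟨-1 / 2, Real.sqrt 3 / 2⟩ := rfl

theorem ST_smul_rho : (ModularGroup.S * ModularGroup.T) • rho = rho := by
  ext
  rw [coe_smul_eq_mob, mob_ST]
  have hne : (rho : ℂ) + 1 ≠ 0 := by
    have := mden_ne_zero (ModularGroup.S * ModularGroup.T) rho.im_pos
    rwa [mden_ST] at this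
  rw [div_eq_iff hne]
  have h3 : Real.sqrt 3 * Real.sqrt 3 = 3 := Real.mul_self_sqrt (by norm_num)
  apply Complex.ext
  · simp [coe_rho]
    nlinarith [h3]
  · simp [coe_rho]
    ring

end Fermat.Agent.S24.helper182
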