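import Fermat.Agent.S24.helper481_LocalFinite
import Fermat.Agent.S24.helper1944_Ev
import Fermat.Agent.S24.helper182_HolMer

/-!
# The finite-point package `helper481.Stmt_MerPackage` (helper182)

`M = Mer = FractionRing Hol`, `ord = ordAt`, `act g = pullMer g⁻¹`, and `ev` the extension to
the fraction field of the analytic evaluation `helper1944.evHom` on `A_N`.
-/

set_option autoImplicit false

open UpperHalfPlane Filter Topology CongruenceSubgroup ModularCurve
open scoped Manifold MatrixGroups

namespace Fermat.Agent.S24.helper182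

open Fermat.Agent.S24.helper24

/-- Constant functions as a ring homomorphism `ℂ →+* Hol`. -/
def constHol : ℂ →+* Hol where
  toFun c := ⟨fun _ => c, mdifferentiable_const⟩
  map_one' := rfl
  map_mul' _ _ := rfl
  map_zero' := rfl
  map_add' _ _ := rfl

@[simp]
theorem constHol_apply (c : ℂ) (τ : ℍ) : (constHol c).1 τ = c := rfl

theorem pullHol_constHol (g : SL(2, ℤ)) (c : ℂ) : pullHol g (constHol c) = constHol c := rfl

/-- The `ℚ̄`-algebra structure on `Mer` given by the embedding `helper1944.kappa : ℚ̄ → ℂ`. -/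
@[reducible]
noncomputable def merAlgebra : Algebra Kbar Mer :=
  ((algebraMap Hol Mer).comp (constHol.comp helper1944.kappa)).toAlgebra

attribute [local instance] merAlgebra

theorem algebraMap_Kbar_Mer (a : Kbar) :
    algebraMap Kbar Mer a = algebraMap Hol Mer (constHol (helper1944.kappa a)) := rfl

/-- The action of `SL(2, ℤ)` on `Mer` by `ℚ̄`-algebra automorphisms: `act g z = z ∘ g⁻¹`. -/
noncomputable def act (g : SL(2, ℤ)) : Mer ≃ₐ[Kbar] Mer :=
  AlgEquiv.ofRingEquiv (f := pullMer g⁻¹) fun a => by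
    rw [algebraMap_Kbar_Mer, pullMer_algebraMap, pullHol_constHol]

@[simp]
theorem act_apply (g : SL(2, ℤ)) (z : Mer) : act g z = pullMer g⁻¹ z := rfl

theorem act_mul (g h : SL(2, ℤ)) (z : Mer) : act (g * h) z = act g (act h z) := by
  rw [act_apply, act_apply, act_apply, pullMer_pullMer, mul_inv_rev]

theorem act_pow_apply (g : SL(2, ℤ)) (k : ℕ) (z : Mer) :
    (act g ^ k) z = (pullMer g⁻¹)^[k] z := by
  rw [AlgEquiv.coe_pow]
  rfl

theorem ordAt_const (τ : ℍ) {a : Kbar} (ha : a ≠ 0) : ordAt τ (algebraMap Kbar Mer a) = 0 := by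
  rw [algebraMap_Kbar_Mer, ordAt_algebraMap, ordHol_apply]
  have h : ordNat τ (constHol (helper1944.kappa a)).1 = 0 :=
    ordNat_const ((map_ne_zero helper1944.kappa).mpr ha) τ
  rw [h]
  rfl

theorem ordAt_act {g : SL(2, ℤ)} {τ : ℍ} (h : g • τ = τ) (z : Mer) :
    ordAt τ (act g z) = ordAt τ z := by
  rw [act_apply, ordAt_pullMer]
  have : g⁻¹ • τ = τ := by rw [inv_smul_eq_iff, h]
  rw [this]

/-- If `z` is fixed by the `k`-th iterate of `pullMer g⁻¹`, it is fixed by that of `pullMer g`. -/
theorem iterate_pullMer_of_inv {g : SL(2, ℤ)} {k : ℕ} {z : Mer}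
    (h : (pullMer g⁻¹)^[k] z = z) : (pullMer g)^[k] z = z := by
  rw [pullMer_iterate] at h ⊢
  have h1 : (g⁻¹) ^ k ∈ fixer z := h
  have h2 := (fixer z).inv_mem h1
  rw [inv_pow, inv_inv] at h2
  exact h2

theorem mult_S_of_fixed {τ : ℍ} (h : ModularGroup.S • τ = τ) : mult ModularGroup.S τ = -1 := by
  have h1 : mob ModularGroup.S (τ : ℂ) = (τ : ℂ) := by rw [← coe_smul_eq_mob, h]
  have hden : mden ModularGroup.S (τ : ℂ) = (τ : ℂ) := by simp [mden, ModularGroup.S]
  have hτ : (τ : ℂ) ≠ 0 := by
    have := mden_ne_zero ModularGroup.S τ.im_pos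
    rwa [hden] at this
  have h2 : mob ModularGroup.S (τ : ℂ) = -1 / (τ : ℂ) := by
    unfold mob
    rw [hden]
    simp [ModularGroup.S]
  rw [h2, div_eq_iff hτ] at h1
  unfold mult
  rw [hden, ← h1]
  norm_num

/-- `hdiv` at any fixed point of `S`. -/
theorem hdiv_S_of_fixed {τ : ℍ} (h : ModularGroup.S • τ = τ) (k : ℕ) (z : Mer) (hz : z ≠ 0)
    (hk : (pullMer ModularGroup.S)^[k] z = z) :
    ∃ l : ℤ, ordAt τ z = (((2 / Nat.gcd k 2 : ℕ) * l : ℤ) : WithTop ℤ) :=
  hdiv_of_stab h Nat.prime_two S_sq_smul (by rw [mult_S_of_fixed h]; norm_num)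
    (by rw [mult_S_of_fixed h]; norm_num) k z hz hk

/-! ## The embedding `ev : F_N → Mer` -/

/-- The analytic evaluation `A_N → Hol` (from `helper1944.evHom`). -/
noncomputable def evHol (N : ℕ) : helper3176.AN N →+* Hol :=
  (helper1944.evHom N).codRestrict Hol
    (fun a => (helper1944.evGood_of_mem_AN N a a.2).mdiff)

theorem evHol_apply (N : ℕ) (a : helper3176.AN N) :
    (evHol N a).1 = helper1944.evFun N (a : FN N) := rfl

theorem evHol_injective (N : ℕ) : Function.Injective (evHol N) := by
  intro a b h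
  apply helper1944.evHom_injective N
  exact congrArg Subtype.val h

theorem evHol_algebraMap (N : ℕ) (c : Kbar) :
    evHol N (algebraMap Kbar (helper3176.AN N) c) = constHol (helper1944.kappa c) :=
  Subtype.ext (helper1944.evFun_algebraMap N c)

/-- The analytic evaluation as a `ℚ̄`-algebra homomorphism `A_N → Mer`. -/
noncomputable def evAlg (N : ℕ) : helper3176.AN N →ₐ[Kbar] Mer where
  __ := (algebraMap Hol Mer).comp (evHol N)
  commutes' c := by
    show algebraMap Hol Mer (evHol N (algebraMap Kbar (helper3176.AN N) c))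
      = algebraMap Kbar Mer c
    rw [evHol_algebraMap, algebraMap_Kbar_Mer]

theorem evAlg_apply (N : ℕ) (a : helper3176.AN N) :
    evAlg N a = algebraMap Hol Mer (evHol N a) := rfl

theorem evAlg_injective (N : ℕ) : Function.Injective (evAlg N) := fun _ _ h =>
  evHol_injective N (IsFractionRing.injective Hol Mer h)

/-- **The finite-point package** in the shape of `helper481.Stmt_MerPackage`. -/
theorem stmt_MerPackage : helper481.Stmt_MerPackage := by
  intro N _
  obtain ⟨ev, hev⟩ := helper3176.exists_algHom_extension N (evAlg N) (evAlg_injective N)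
  have hevj : ev (jBar N) = algebraMap Hol Mer (evHol N ⟨jBar N, helper3176.jBar_mem_AN N⟩) :=
    hev ⟨jBar N, helper3176.jBar_mem_AN N⟩
  have hjval : (evHol N ⟨jBar N, helper3176.jBar_mem_AN N⟩).1 = jFun := helper1944.evFun_jBar N
  refine ⟨Mer, inferInstance, merAlgebra, helper1944.kappa, ordAt, act, ev, act_mul,
    fun τ a ha => ordAt_const τ ha, fun g τ z h => ordAt_act h z, ?_, ?_, ?_, ?_, ?_, ?_⟩
  · -- invariance under `Γ₀(N)`
    intro γ hγ f
    have key : ((act γ : Mer ≃ₐ[Kbar] Mer) : Mer →+* Mer).comp (ev : FN N →+* Mer)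
        = (ev : FN N →+* Mer) := by
      apply helper3176.ringHom_ext_of_AN N
      intro a
      show act γ (ev (a : FN N)) = ev (a : FN N)
      rw [hev a, evAlg_apply, act_apply, pullMer_algebraMap]
      congr 1
      apply Subtype.ext
      funext τ
      exact (helper1944.evGood_of_mem_AN N a a.2).inv γ⁻¹ (inv_mem hγ) τ
    exact congrArg (fun φ : FN N →+* Mer => φ f) key
  · -- separation
    intro g hg
    have h1 := hg (jBarD N N dvd_rfl)
    have h2 := hev ⟨jBarD N N dvd_rfl, helper3176.jBarD_mem_AN N N dvd_rfl⟩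
    rw [show ev (jBarD N N dvd_rfl)
        = evAlg N ⟨jBarD N N dvd_rfl, helper3176.jBarD_mem_AN N N dvd_rfl⟩ from h2,
      evAlg_apply, act_apply, pullMer_algebraMap] at h1
    have h3 := IsFractionRing.injective Hol Mer h1
    have h4 : g⁻¹ ∈ Gamma0 N := by
      apply helper1944.mem_Gamma0_of_evFun_jBarD N g⁻¹
      intro τ
      exact congrFun (congrArg Subtype.val h3) τ
    exact inv_mem_iff.mp h4
  · -- `j` is invariant
    intro g
    rw [hevj, act_apply, pullMer_algebraMap]
    congr 1
    apply Subtype.ext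
    funext τ
    show (evHol N ⟨jBar N, helper3176.jBar_mem_AN N⟩).1 (g⁻¹ • τ)
      = (evHol N ⟨jBar N, helper3176.jBar_mem_AN N⟩).1 τ
    rw [hjval]
    exact helper1944.jFun_smul g⁻¹ τ
  · -- the order of `j - c`
    intro τ c hτ
    rw [hevj, algebraMap_Kbar_Mer, ← map_sub, ordAt_algebraMap, ordHol_apply]
    congr 1
    unfold ordNat
    congr 1
    funext z
    show (evHol N ⟨jBar N, helper3176.jBar_mem_AN N⟩).1 (ofComplex z) - helper1944.kappa c
      = jFun (ofComplex z) - jFun τ
    rw [hjval, hτ]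
  · -- `hdiv` at fixed points of `S`
    intro τ h k z hz hk
    rw [act_pow_apply] at hk
    exact hdiv_S_of_fixed h k z hz (iterate_pullMer_of_inv hk)
  · -- `hdiv` at fixed points of `S * T`
    intro τ h k z hz hk
    rw [act_pow_apply] at hk
    exact hdiv_ST h k z hz (iterate_pullMer_of_inv hk)

end Fermat.Agent.S24.helper182
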