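import Mathlib
import Fermat.Agent.S24.helper1644_AnalyticJ

/-!
# S24, MOD core (helper1944): evaluation of convergent Laurent series

`lsEval E z = ∑' n : ℤ, E.coeff n * z ^ n` for `E : LaurentSeries ℂ`.  On the series that
converge at `z ≠ 0` this is additive and multiplicative (Cauchy product), it is compatible
with the substitution `q ↦ q ^ d` (`HahnSeries.embDomain` by multiplication by `d`), and a
series converging to `0` on the punctured unit disc is `0` (identity theorem).
-/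

set_option autoImplicit false

open Filter Topology

namespace Fermat.Agent.S24.helper1944

noncomputable section

/-- The terms of the evaluation of a Laurent series at `z`. -/
def lsTerm (E : LaurentSeries ℂ) (z : ℂ) (n : ℤ) : ℂ := E.coeff n * z ^ n

/-- Evaluation of a Laurent series at a complex number (junk value if not summable). -/
def lsEval (E : LaurentSeries ℂ) (z : ℂ) : ℂ := ∑' n : ℤ, lsTerm E z n

/-- `E` converges at `z`. -/
def LsSummable (E : LaurentSeries ℂ) (z : ℂ) : Prop := Summable (lsTerm E z)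

theorem LsSummable.hasSum {E : LaurentSeries ℂ} {z : ℂ} (h : LsSummable E z) :
    HasSum (lsTerm E z) (lsEval E z) := Summable.hasSum h

theorem lsEval_eq_of_hasSum {E : LaurentSeries ℂ} {z s : ℂ} (h : HasSum (lsTerm E z) s) :
    lsEval E z = s := h.tsum_eq

theorem ofPowerSeries_coeff_neg (P : PowerSeries ℂ) {k : ℤ} (hk : k < 0) :
    (HahnSeries.ofPowerSeries ℤ ℂ P).coeff k = 0 := by
  rw [HahnSeries.ofPowerSeries_apply]
  refine HahnSeries.embDomain_of_notMem_range ?_
  rintro ⟨m, rfl⟩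
  exact absurd hk (not_lt.mpr (Int.natCast_nonneg m))

/-- Shift: a Laurent series `t^k * P(t)` converges at `z ≠ 0` iff the power series `P` does. -/
theorem hasSum_single_mul_ofPowerSeries (k : ℤ) (P : PowerSeries ℂ) {z : ℂ} (hz : z ≠ 0)
    (s : ℂ) :
    HasSum (lsTerm (HahnSeries.single k (1 : ℂ) * HahnSeries.ofPowerSeries ℤ ℂ P) z) (z ^ k * s) ↔
      HasSum (fun n : ℕ => PowerSeries.coeff n P * z ^ n) s := by
  have hg : Function.Injective (fun n : ℕ => (n : ℤ) + k) := fun a b h => by simpa using h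
  rw [← hg.hasSum_iff]
  · have hfun : (lsTerm (HahnSeries.single k (1 : ℂ) * HahnSeries.ofPowerSeries ℤ ℂ P) z ∘
        fun n : ℕ => (n : ℤ) + k) = fun n : ℕ => z ^ k * (PowerSeries.coeff n P * z ^ n) := by
      funext n
      simp only [Function.comp_apply, lsTerm]
      rw [HahnSeries.coeff_single_mul, add_sub_cancel_right, one_mul,
        HahnSeries.ofPowerSeries_apply_coeff, zpow_add₀ hz, zpow_natCast]
      ring
    rw [hfun]
    exact hasSum_mul_left_iff (zpow_ne_zero k hz)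
  · intro n hn
    have hlt : n - k < 0 := by
      by_contra h
      rw [not_lt] at h
      exact hn ⟨(n - k).toNat, by simp [Int.toNat_of_nonneg h]⟩
    simp only [lsTerm]
    rw [HahnSeries.coeff_single_mul, one_mul, ofPowerSeries_coeff_neg _ hlt, zero_mul]

/-- Cauchy product of two power series at a point of convergence. -/
theorem hasSum_powerSeries_mul {P Q : PowerSeries ℂ} {z s t : ℂ}
    (hP : HasSum (fun n : ℕ => PowerSeries.coeff n P * z ^ n) s)
    (hQ : HasSum (fun n : ℕ => PowerSeries.coeff n Q * z ^ n) t) :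
    HasSum (fun n : ℕ => PowerSeries.coeff n (P * Q) * z ^ n) (s * t) := by
  have hP' : Summable (fun n => ‖PowerSeries.coeff n P * z ^ n‖) := hP.summable.norm
  have hQ' : Summable (fun n => ‖PowerSeries.coeff n Q * z ^ n‖) := hQ.summable.norm
  have h1 := summable_norm_sum_mul_antidiagonal_of_summable_norm hP' hQ'
  have h2 := tsum_mul_tsum_eq_tsum_sum_antidiagonal_of_summable_norm hP' hQ'
  have key : ∀ n : ℕ, ∑ kl ∈ Finset.HasAntidiagonal.antidiagonal n,
      (PowerSeries.coeff kl.1 P * z ^ kl.1) * (PowerSeries.coeff kl.2 Q * z ^ kl.2)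
        = PowerSeries.coeff n (P * Q) * z ^ n := by
    intro n
    rw [PowerSeries.coeff_mul, Finset.sum_mul]
    refine Finset.sum_congr rfl fun kl hkl => ?_
    rw [← Finset.HasAntidiagonal.mem_antidiagonal.mp hkl, pow_add]
    ring
  have h3 : Summable (fun n => PowerSeries.coeff n (P * Q) * z ^ n) := by
    have := h1.of_norm
    simpa only [key] using this
  rw [← hP.tsum_eq, ← hQ.tsum_eq, h2]
  simp only [key]
  exact h3.hasSum

/-- Every Laurent series is `t^k * P(t)`. -/
theorem exists_single_mul_ofPowerSeries (E : LaurentSeries ℂ) :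
    ∃ (k : ℤ) (P : PowerSeries ℂ),
      E = HahnSeries.single k (1 : ℂ) * HahnSeries.ofPowerSeries ℤ ℂ P :=
  ⟨E.order, E.powerSeriesPart, (LaurentSeries.single_order_mul_powerSeriesPart E).symm⟩

/-- Multiplicativity of evaluation at a point of convergence. -/
theorem hasSum_lsTerm_mul {E₁ E₂ : LaurentSeries ℂ} {z s₁ s₂ : ℂ} (hz : z ≠ 0)
    (h₁ : HasSum (lsTerm E₁ z) s₁) (h₂ : HasSum (lsTerm E₂ z) s₂) :
    HasSum (lsTerm (E₁ * E₂) z) (s₁ * s₂) := by
  obtain ⟨k₁, P₁, rfl⟩ := exists_single_mul_ofPowerSeries E₁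
  obtain ⟨k₂, P₂, rfl⟩ := exists_single_mul_ofPowerSeries E₂
  have e₁ : s₁ = z ^ k₁ * (z ^ (-k₁) * s₁) := by
    rw [← mul_assoc, ← zpow_add₀ hz, add_neg_cancel, zpow_zero, one_mul]
  have e₂ : s₂ = z ^ k₂ * (z ^ (-k₂) * s₂) := by
    rw [← mul_assoc, ← zpow_add₀ hz, add_neg_cancel, zpow_zero, one_mul]
  rw [e₁, hasSum_single_mul_ofPowerSeries k₁ P₁ hz] at h₁
  rw [e₂, hasSum_single_mul_ofPowerSeries k₂ P₂ hz] at h₂
  have h := hasSum_powerSeries_mul h₁ h₂
  have hE : HahnSeries.single k₁ (1 : ℂ) * HahnSeries.ofPowerSeries ℤ ℂ P₁ *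
      (HahnSeries.single k₂ (1 : ℂ) * HahnSeries.ofPowerSeries ℤ ℂ P₂)
        = HahnSeries.single (k₁ + k₂) (1 : ℂ) * HahnSeries.ofPowerSeries ℤ ℂ (P₁ * P₂) := by
    rw [map_mul, mul_mul_mul_comm, HahnSeries.single_mul_single, one_mul]
  have hs : s₁ * s₂ = z ^ (k₁ + k₂) * (z ^ (-k₁) * s₁ * (z ^ (-k₂) * s₂)) := by
    rw [zpow_add₀ hz]
    conv_lhs => rw [e₁, e₂]
    ring
  rw [hE, hs, hasSum_single_mul_ofPowerSeries (k₁ + k₂) (P₁ * P₂) hz]
  exact h

theorem hasSum_lsTerm_add {E₁ E₂ : LaurentSeries ℂ} {z s₁ s₂ : ℂ}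
    (h₁ : HasSum (lsTerm E₁ z) s₁) (h₂ : HasSum (lsTerm E₂ z) s₂) :
    HasSum (lsTerm (E₁ + E₂) z) (s₁ + s₂) := by
  have h := h₁.add h₂
  have hfun : lsTerm (E₁ + E₂) z = fun n => lsTerm E₁ z n + lsTerm E₂ z n := by
    funext n
    simp only [lsTerm, HahnSeries.coeff_add, add_mul]
  rw [hfun]
  exact h

theorem hasSum_lsTerm_C (c : ℂ) (z : ℂ) : HasSum (lsTerm (HahnSeries.C c) z) c := by
  have h := hasSum_ite_eq (0 : ℤ) c
  have hfun : lsTerm (HahnSeries.C c) z = fun n : ℤ => if n = 0 then c else 0 := by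
    funext n
    simp only [lsTerm, HahnSeries.C_apply, HahnSeries.coeff_single]
    split_ifs with hn
    · subst hn
      simp
    · simp
  rw [hfun]
  exact h

theorem hasSum_lsTerm_neg {E : LaurentSeries ℂ} {z s : ℂ} (h : HasSum (lsTerm E z) s) :
    HasSum (lsTerm (-E) z) (-s) := by
  have h' := h.neg
  have hfun : lsTerm (-E) z = fun n => -lsTerm E z n := by
    funext n
    simp only [lsTerm, HahnSeries.coeff_neg, neg_mul]
  rw [hfun]
  exact h'

/-- Substitution `q ↦ q^d` (`d > 0`). -/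
theorem hasSum_lsTerm_embDomain (d : ℕ) (hd : 0 < d) (E E' : LaurentSeries ℂ)
    (hmul : ∀ k : ℤ, E'.coeff ((d : ℤ) * k) = E.coeff k)
    (hnot : ∀ k : ℤ, ¬ (d : ℤ) ∣ k → E'.coeff k = 0) (z s : ℂ) :
    HasSum (lsTerm E' z) s ↔ HasSum (lsTerm E (z ^ d)) s := by
  have hd' : (d : ℤ) ≠ 0 := by exact_mod_cast hd.ne'
  have hg : Function.Injective (fun k : ℤ => (d : ℤ) * k) := mul_right_injective₀ hd'
  rw [← hg.hasSum_iff]
  · have hfun : (lsTerm E' z ∘ fun k : ℤ => (d : ℤ) * k) = lsTerm E (z ^ d) := by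
      funext k
      simp only [Function.comp_apply, lsTerm]
      rw [hmul, zpow_mul, zpow_natCast]
    rw [hfun]
  · intro n hn
    have : ¬ (d : ℤ) ∣ n := fun ⟨m, hm⟩ => hn ⟨m, hm.symm⟩
    simp only [lsTerm]
    rw [hnot n this, zero_mul]

/-! ### Identity theorem -/

/-- A power series that converges to `0` on the punctured unit disc is `0`. -/
theorem powerSeries_eq_zero_of_hasSum_zero (P : PowerSeries ℂ)
    (h : ∀ z : ℂ, z ≠ 0 → ‖z‖ < 1 → HasSum (fun n : ℕ => PowerSeries.coeff n P * z ^ n) 0) :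
    P = 0 := by
  classical
  set f : ℂ → ℂ := fun z => if z = 0 then PowerSeries.coeff 0 P else 0 with hf
  have hsum : ∀ z : ℂ, ‖z‖ < 1 → HasSum (fun n : ℕ => PowerSeries.coeff n P * z ^ n) (f z) := by
    intro z hz
    by_cases hz0 : z = 0
    · subst hz0
      have h0 := hasSum_single (f := fun n : ℕ => PowerSeries.coeff n P * (0 : ℂ) ^ n) 0
        (fun n hn => by simp [hn])
      simpa [hf] using h0
    · simpa [hf, hz0] using h z hz0 hz
  have hfp := helper1644.hasFPowerSeriesOnBall_of_hasSum (r := 1) one_pos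
    (by simpa using hsum)
  have hcont : ContinuousAt f 0 := hfp.analyticAt.continuousAt
  have hf0 : f 0 = 0 := by
    have h1 : Tendsto f (𝓝[≠] (0 : ℂ)) (𝓝 (f 0)) := hcont.tendsto.mono_left nhdsWithin_le_nhds
    have h2 : Tendsto f (𝓝[≠] (0 : ℂ)) (𝓝 0) := by
      refine Tendsto.congr' ?_ tendsto_const_nhds
      filter_upwards [self_mem_nhdsWithin] with z hz
      simp [hf, Set.mem_compl_singleton_iff.mp hz]
    exact tendsto_nhds_unique h1 h2
  have hfz : f = 0 := by
    funext z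
    by_cases hz0 : z = 0
    · rw [hz0, hf0]; rfl
    · simp [hf, hz0]
  have e1 := helper1644.taylorPS_eq_of_hasSum (r := 1) one_pos hsum
  have e2 := helper1644.taylorPS_eq_of_hasSum (f := f) (c := fun _ => 0) (r := 1) one_pos
    (fun z _ => by rw [hfz]; simp)
  ext n
  have := congrArg (PowerSeries.coeff n) (e1.symm.trans e2)
  simpa using this

/-- **Identity theorem.** A Laurent series converging to `0` on the punctured unit disc
vanishes. -/
theorem eq_zero_of_hasSum_lsTerm_zero (E : LaurentSeries ℂ)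
    (h : ∀ z : ℂ, z ≠ 0 → ‖z‖ < 1 → HasSum (lsTerm E z) 0) : E = 0 := by
  obtain ⟨k, P, rfl⟩ := exists_single_mul_ofPowerSeries E
  have hP : P = 0 := by
    refine powerSeries_eq_zero_of_hasSum_zero P fun z hz hz1 => ?_
    have := h z hz hz1
    rwa [show (0 : ℂ) = z ^ k * 0 by simp, hasSum_single_mul_ofPowerSeries k P hz] at this
  rw [hP, map_zero, mul_zero]

end

end Fermat.Agent.S24.helper1944
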