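import Fermat.Agent.S24.helper24_Spec2

/-!
# S24, module G4: principal divisors have degree zero (helper1968)

`principal_of : Stmt_FundId → Stmt_Exchange → Stmt_ResidueK → Stmt_PrincipalDegZero`
(board row 157), in the shapes of `helper24_Spec` / `helper24_Spec2`.
Also `ordTranscendental : Stmt_OrdTranscendental` (G11, unconditional).

The core lemma `degree_eq_zero_core` is stated for a fixed pair `K F` with the needed inputs
as plain hypotheses, so it can be reused with any variant of the exchange statement.
-/

set_option autoImplicit false

open AlgebraicCurve IntermediateField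

namespace Fermat.Agent.S24.helper1968

open Fermat.Agent.S24.helper24

section generic

variable {K F : Type} [Field K] [Field F] [Algebra K F]

/-- Nonzero constants have order zero at every place. -/
theorem ord_algebraMap (v : Place K F) {a : K} (ha : a ≠ 0) :
    v.ord (algebraMap K F a) = 0 := by
  have hu : IsUnit (algebraMap K v.toValuationSubring a) :=
    (IsUnit.mk0 a ha).map (algebraMap K v.toValuationSubring)
  have h := v.ord_coe_unit hu.unit
  rwa [IsUnit.unit_spec, v.coe_algebraMap] at h

/-- A place whose residue field is `K` has degree one. -/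
theorem deg_eq_one_of_surjective (v : Place K F)
    (h : Function.Surjective (algebraMap K v.ResidueField)) : v.deg = 1 := by
  have hb : Function.Bijective (Algebra.linearMap K v.ResidueField) :=
    ⟨(algebraMap K v.ResidueField).injective, h⟩
  have h1 := (LinearEquiv.ofBijective (Algebra.linearMap K v.ResidueField) hb).finrank_eq
  rw [Module.finrank_self] at h1
  exact h1.symm

/-- If all places have degree one, the degree of a divisor is the sum of its coefficients. -/
theorem degree_eq_sum (D : Divisor K F) (hdeg : ∀ v : Place K F, v.deg = 1) :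
    Divisor.degree D = ∑ v ∈ D.support, D v := by
  simp [Divisor.degree, Finsupp.sum, hdeg]

theorem adjoin_inv_eq (f : F) : K⟮f⁻¹⟯ = K⟮f⟯ := by
  apply le_antisymm
  · rw [adjoin_simple_le_iff]
    exact inv_mem (mem_adjoin_simple_self K f)
  · rw [adjoin_simple_le_iff]
    have h := inv_mem (mem_adjoin_simple_self K f⁻¹)
    rwa [inv_inv] at h

/-- An element algebraic over an algebraically closed field is a constant. -/
theorem exists_algebraMap_eq_of_isAlgebraic [IsAlgClosed K] {f : F} (h : IsAlgebraic K f) :
    ∃ a : K, algebraMap K F a = f := by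
  have hint : IsIntegral K f := h.isIntegral
  have hdeg : (minpoly K f).degree = 1 :=
    IsAlgClosed.degree_eq_one_of_irreducible K (minpoly.irreducible hint)
  exact minpoly.mem_range_of_degree_eq_one K f hdeg

/-- Core of G4: the degree of a principal divisor is zero, given the fundamental identity,
degree one places and finiteness over `K(y)` for all transcendental `y`. -/
theorem degree_eq_zero_core [IsAlgClosed K] [CharZero K] (h1 : Stmt_FundId)
    (hdeg : ∀ v : Place K F, v.deg = 1)
    (hfin : ∀ y : F, Transcendental K y → FiniteDimensional K⟮y⟯ F)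
    {f : F} (hf : f ≠ 0) (D : Divisor K F) (hD : ∀ v : Place K F, D v = v.ord f) :
    Divisor.degree D = 0 := by
  classical
  rw [degree_eq_sum D hdeg]
  by_cases halg : IsAlgebraic K f
  · obtain ⟨a, rfl⟩ := exists_algebraMap_eq_of_isAlgebraic halg
    have ha : a ≠ 0 := by
      rintro rfl
      exact hf (map_zero _)
    apply Finset.sum_eq_zero
    intro v _
    rw [hD v, ord_algebraMap v ha]
  · have htr : Transcendental K f := halg
    have htr' : Transcendental K f⁻¹ := fun h => halg (by simpa using h.inv)
    have := hfin f htr
    have := hfin f⁻¹ htr'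
    obtain ⟨s0, hs0, hsum0⟩ := h1 K F f htr
    obtain ⟨s1, hs1, hsum1⟩ := h1 K F f⁻¹ htr'
    have hfr : Module.finrank K⟮f⁻¹⟯ F = Module.finrank K⟮f⟯ F := by
      rw [adjoin_inv_eq]
    have hsupp : D.support = s0 ∪ s1 := by
      ext v
      simp only [Finsupp.mem_support_iff, Finset.mem_union, hs0, hs1, hD, Place.ord_inv]
      omega
    have hdisj : Disjoint s0 s1 := by
      rw [Finset.disjoint_left]
      intro v h0 h1'
      rw [hs0] at h0
      rw [hs1, Place.ord_inv] at h1'
      omega
    rw [hsupp, Finset.sum_union hdisj]
    have e1 : ∑ v ∈ s0, D v = ∑ v ∈ s0, v.ord f :=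
      Finset.sum_congr rfl (fun v _ => hD v)
    have e2 : ∑ v ∈ s1, D v = - ∑ v ∈ s1, v.ord f⁻¹ := by
      rw [← Finset.sum_neg_distrib]
      exact Finset.sum_congr rfl (fun v _ => by rw [hD v, Place.ord_inv, neg_neg])
    rw [e1, e2, hsum0, hsum1, hfr]
    ring

end generic

/-- G11: elements of nonzero order are transcendental over the constant field. -/
theorem ordTranscendental : Stmt_OrdTranscendental := by
  intro K F _ _ _ _ v f hf halg
  obtain ⟨a, rfl⟩ := exists_algebraMap_eq_of_isAlgebraic halg
  rcases eq_or_ne a 0 with rfl | ha
  · simp at hf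
  · exact hf (ord_algebraMap v ha)

/-- Variant of G4 taking `Stmt_DegOne` instead of `Stmt_ResidueK`. -/
theorem principal_of' (h1 : Stmt_FundId) (hE : Stmt_Exchange) (h2 : Stmt_DegOne) :
    Stmt_PrincipalDegZero := by
  intro K F _ _ _ _ _ x hx _ f hf D hD
  exact degree_eq_zero_core h1 (fun v => h2 K F x hx v)
    (fun y hy => hE K F x hx y hy) hf D hD

/-- G4 in the captain's shape: fundamental identity + exchange + residue field `K`
imply that principal divisors have degree zero. -/
theorem principal_of (h1 : Stmt_FundId) (hE : Stmt_Exchange) (h2 : Stmt_ResidueK) :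
    Stmt_PrincipalDegZero := by
  intro K F _ _ _ _ _ x hx _ f hf D hD
  exact degree_eq_zero_core h1
    (fun v => deg_eq_one_of_surjective v (h2 K F x hx v))
    (fun y hy => hE K F x hx y hy) hf D hD

end Fermat.Agent.S24.helper1968
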