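/-
S24, G7 (helper19): `Stmt_RH` of the captain's spec from the generic function-field statements
`Stmt_FundId`, `Stmt_ResidueK`, `Stmt_Center`, `Stmt_PrincipalDegZero`, `Stmt_KaehlerSpan`,
`Stmt_LocalDiff`.  Pure composition on top of `helper19_RHBookkeeping`.
-/
import Fermat.Agent.S24.helper24_Spec
import Fermat.Agent.S24.helper19_RHBookkeeping

set_option autoImplicit false

open KaehlerDifferential AlgebraicCurve IntermediateField

namespace Fermat.Agent.S24.helper19

open Fermat.Agent.S24.helper24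

variable {K F : Type*} [Field K] [Field F] [Algebra K F]

/-! ### Small generic lemmas -/

/-- Nonzero constants have valuation `1` at every place. -/
theorem adicValuation_algebraMap_eq_one (v : Place K F) {a : K} (ha : a ≠ 0) :
    v.adicValuation (algebraMap K F a) = 1 := by
  have h1 := adicValuation_algebraMap_le_one v a
  have h2 := adicValuation_algebraMap_le_one v a⁻¹
  have h3 : v.adicValuation (algebraMap K F a) * v.adicValuation (algebraMap K F a⁻¹) = 1 := by
    rw [← map_mul, ← map_mul, mul_inv_cancel₀ ha, map_one, map_one]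
  refine le_antisymm h1 ?_
  calc (1 : WithZero (Multiplicative ℤ))
      = v.adicValuation (algebraMap K F a) * v.adicValuation (algebraMap K F a⁻¹) := h3.symm
    _ ≤ v.adicValuation (algebraMap K F a) * 1 := by gcongr
    _ = v.adicValuation (algebraMap K F a) := mul_one _

/-- Nonzero constants have order `0` at every place. -/
theorem ord_algebraMap (v : Place K F) {a : K} (ha : a ≠ 0) : v.ord (algebraMap K F a) = 0 := by
  simp [Place.ord, adicValuation_algebraMap_eq_one v ha]

/-- A place is a zero of `x - c` for at most one constant `c`. -/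
theorem center_unique (v : Place K F) (x : F) {c c' : K}
    (hc : 0 < v.ord (x - algebraMap K F c)) (hc' : 0 < v.ord (x - algebraMap K F c')) :
    c = c' := by
  by_contra hne
  have h0 : ∀ d : K, 0 < v.ord (x - algebraMap K F d) → x - algebraMap K F d ≠ 0 := by
    intro d hd h
    rw [h] at hd
    simp at hd
  have h1 := (ord_pos_iff v (h0 c hc)).mp hc
  have h2 := (ord_pos_iff v (h0 c' hc')).mp hc'
  have h3 : algebraMap K F (c - c') = (x - algebraMap K F c') - (x - algebraMap K F c) := by
    rw [map_sub]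
    ring
  have h4 : v.adicValuation (algebraMap K F (c - c')) = 1 :=
    adicValuation_algebraMap_eq_one v (sub_ne_zero.mpr hne)
  have h5 : v.adicValuation (algebraMap K F (c - c')) < 1 := by
    rw [h3]
    exact lt_of_le_of_lt (v.adicValuation.map_sub _ _) (max_lt h2 h1)
  exact absurd h4 h5.ne

theorem adjoin_sub_algebraMap (x : F) (c : K) : K⟮x - algebraMap K F c⟯ = K⟮x⟯ := by
  apply le_antisymm
  · rw [adjoin_simple_le_iff]
    exact sub_mem (mem_adjoin_simple_self K x) (IntermediateField.algebraMap_mem _ c)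
  · rw [adjoin_simple_le_iff]
    have h := add_mem (mem_adjoin_simple_self K (x - algebraMap K F c))
      (IntermediateField.algebraMap_mem K⟮x - algebraMap K F c⟯ c)
    rwa [sub_add_cancel] at h

theorem adjoin_inv_eq (x : F) : K⟮x⁻¹⟯ = K⟮x⟯ := by
  apply le_antisymm
  · rw [adjoin_simple_le_iff]
    exact inv_mem (mem_adjoin_simple_self K x)
  · rw [adjoin_simple_le_iff]
    have h := inv_mem (mem_adjoin_simple_self K x⁻¹)
    rwa [inv_inv] at h

theorem transcendental_sub_algebraMap {x : F} (hx : Transcendental K x) (c : K) :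
    Transcendental K (x - algebraMap K F c) := by
  intro h
  apply hx
  have h2 := h.add (isAlgebraic_algebraMap (R := K) (A := F) c)
  rwa [sub_add_cancel] at h2

theorem transcendental_inv {x : F} (hx : Transcendental K x) : Transcendental K x⁻¹ := by
  intro h
  apply hx
  have h2 := h.inv
  rwa [inv_inv] at h2

theorem finiteDimensional_of_adjoin_eq {x y : F} (h : K⟮y⟯ = K⟮x⟯) [FiniteDimensional K⟮x⟯ F] :
    FiniteDimensional K⟮y⟯ F ∧ Module.finrank K⟮y⟯ F = Module.finrank K⟮x⟯ F := by
  rw [h]
  exact ⟨inferInstance, rfl⟩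

theorem deg_eq_one_of_surjective (v : Place K F)
    (h : Function.Surjective (algebraMap K v.ResidueField)) : v.deg = 1 := by
  unfold Place.deg
  rw [finrank_eq_one_iff_of_nonzero' (1 : v.ResidueField) one_ne_zero]
  intro w
  obtain ⟨c, rfl⟩ := h w
  exact ⟨c, by rw [Algebra.smul_def, mul_one]⟩

/-! ### Bookkeeping with the weak form of "principal divisors have degree zero" -/

/-- `degree_eq_of_ramification` with `HasPrincipalDivisors` replaced by the weaker statement
that every divisor of a function has degree zero (no existence needed). -/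
theorem degree_eq_of_ramification_weak (x : F) (n : ℕ)
    (hdeg : ∀ v : Place K F, v.deg = 1)
    (hcenter : ∀ v : Place K F, v.ord x < 0 ∨ ∃ c : K, 0 < v.ord (x - algebraMap K F c))
    (hzeros : ∀ c : K, ∃ s : Finset (Place K F),
        (∀ v, v ∈ s ↔ 0 < v.ord (x - algebraMap K F c)) ∧
        ∑ v ∈ s, v.ord (x - algebraMap K F c) = n)
    (hpoles : ∃ s : Finset (Place K F), (∀ v, v ∈ s ↔ v.ord x < 0) ∧ ∑ v ∈ s, -v.ord x = n)
    (hprinc : ∀ f : F, f ≠ 0 → ∀ Df : Divisor K F, (∀ v : Place K F, Df v = v.ord f) →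
        Divisor.degree Df = 0)
    (hD : ∀ (v : Place K F) (y : F), v.ord y ≠ 0 →
        v.ordDifferential (D K F y) = v.ord y - 1)
    (hsmul : ∀ (v : Place K F) (f : F) (ω : Ω[F⁄K]), f ≠ 0 → ω ≠ 0 →
        v.ordDifferential (f • ω) = v.ord f + v.ordDifferential ω)
    (hspan : ∀ ω : Ω[F⁄K], ∃ f : F, ω = f • D K F x)
    (hdx : D K F x ≠ 0)
    (S : Finset K)
    (hunr : ∀ c : K, c ∉ S → ∀ v : Place K F, 0 < v.ord (x - algebraMap K F c) →
        v.ord (x - algebraMap K F c) = 1)
    (ω : Ω[F⁄K]) (hω : ω ≠ 0) (Dv : Divisor K F) (hDv : ∀ v, Dv v = v.ordDifferential ω) :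
    Divisor.degree Dv =
      ∑ c ∈ S, ((n : ℤ) - Nat.card {v : Place K F // 0 < v.ord (x - algebraMap K F c)})
        - n - Nat.card {v : Place K F // v.ord x < 0} := by
  classical
  obtain ⟨f, rfl⟩ := hspan ω
  have hf : f ≠ 0 := by
    rintro rfl
    simp at hω
  obtain ⟨sP, hsP, hsPsum⟩ := hpoles
  choose Z hZ hZsum using hzeros
  have hDsub : ∀ c : K, D K F (x - algebraMap K F c) = D K F x := by
    intro c
    rw [map_sub, Derivation.map_algebraMap, sub_zero]
  have hsupp0 : ∀ v, v ∉ sP ∪ S.biUnion Z → v.ordDifferential (D K F x) = 0 := by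
    intro v hvT
    rw [Finset.mem_union, not_or] at hvT
    obtain ⟨hvP, hvZ⟩ := hvT
    rcases hcenter v with hpole | ⟨c, hc⟩
    · exact absurd ((hsP v).mpr hpole) hvP
    · have hcS : c ∉ S := fun hcS =>
        hvZ (Finset.mem_biUnion.mpr ⟨c, hcS, (hZ c v).mpr hc⟩)
      rw [← hDsub c, hD v _ hc.ne', hunr c hcS v hc]
      simp
  let E : Divisor K F := Finsupp.onFinset (sP ∪ S.biUnion Z)
    (fun v => v.ordDifferential (D K F x)) (fun v hv => by
      by_contra h
      exact hv (hsupp0 v h))
  have hE : ∀ v, E v = v.ordDifferential (D K F x) := fun v => Finsupp.onFinset_apply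
  have hDf : ∀ v, (Dv - E) v = v.ord f := by
    intro v
    rw [Finsupp.sub_apply, hDv v, hE v, hsmul v f _ hf hdx]
    ring
  have hdegE : Divisor.degree Dv = Divisor.degree E := by
    have h0 := hprinc f hf (Dv - E) hDf
    rw [map_sub] at h0
    exact sub_eq_zero.mp h0
  rw [hdegE, degree_eq_sum_of_support_subset hdeg E _ (fun v hv => by rw [hE v]; exact hsupp0 v hv)]
  have hval_pole : ∀ v ∈ sP, E v = v.ord x - 1 := by
    intro v hv
    rw [hE v]
    exact hD v x ((hsP v).mp hv).ne
  have hval_zero : ∀ c, ∀ v ∈ Z c, E v = v.ord (x - algebraMap K F c) - 1 := by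
    intro c v hv
    rw [hE v, ← hDsub c]
    exact hD v _ ((hZ c v).mp hv).ne'
  have hdisjPZ : Disjoint sP (S.biUnion Z) := by
    rw [Finset.disjoint_left]
    intro v hvP hvZ
    obtain ⟨c, -, hvc⟩ := Finset.mem_biUnion.mp hvZ
    exact not_pos_ord_sub_of_ord_neg v ((hsP v).mp hvP) c ((hZ c v).mp hvc)
  have hdisjZ : (S : Set K).PairwiseDisjoint Z := by
    intro c _ c' _ hcc'
    rw [Function.onFun, Finset.disjoint_left]
    intro v hvc hvc'
    exact hcc' (center_unique v x ((hZ c v).mp hvc) ((hZ c' v).mp hvc'))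
  rw [Finset.sum_union hdisjPZ, Finset.sum_biUnion hdisjZ]
  have hP : ∑ v ∈ sP, E v = -(n : ℤ) - Nat.card {v : Place K F // v.ord x < 0} := by
    rw [Finset.sum_congr rfl hval_pole, Finset.sum_sub_distrib, Nat.subtype_card sP hsP]
    rw [Finset.sum_neg_distrib] at hsPsum
    simp only [Finset.sum_const, nsmul_eq_mul, mul_one]
    omega
  have hZc : ∀ c, ∑ v ∈ Z c, E v =
      (n : ℤ) - Nat.card {v : Place K F // 0 < v.ord (x - algebraMap K F c)} := by
    intro c
    rw [Finset.sum_congr rfl (hval_zero c), Finset.sum_sub_distrib, Nat.subtype_card (Z c) (hZ c),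
      hZsum c]
    simp
  rw [hP, Finset.sum_congr rfl (fun c _ => hZc c)]
  ring

/-! ### `Stmt_RH` -/

/-- **G7.** Riemann–Hurwitz bookkeeping in the captain's spec shape. -/
theorem rh_of (h1 : Stmt_FundId) (h2 : Stmt_ResidueK) (h3 : Stmt_Center)
    (h4 : Stmt_PrincipalDegZero) (h5 : Stmt_KaehlerSpan) (h6 : Stmt_LocalDiff) : Stmt_RH := by
  intro K F _ _ _ _ _ x hx _ S hunr ω hω Dv hDv
  have hspan := (h5 K F x hx).1
  have hdx := (h5 K F x hx).2
  have : Nontrivial Ω[F⁄K] := ⟨⟨D K F x, 0, hdx⟩⟩
  refine degree_eq_of_ramification_weak x (Module.finrank K⟮x⟯ F)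
    (fun v => deg_eq_one_of_surjective v (h2 K F x hx v)) (h3 K F x hx) ?_ ?_
    (h4 K F x hx) (fun v => (h6 K F x hx v).2) ?_ ?_ hdx S hunr ω hω Dv hDv
  · -- zeros of `x - c`
    intro c
    obtain ⟨hfin, hrank⟩ :=
      finiteDimensional_of_adjoin_eq (adjoin_sub_algebraMap (K := K) x c)
    obtain ⟨s, hs, hsum⟩ := h1 K F (x - algebraMap K F c) (transcendental_sub_algebraMap hx c)
    exact ⟨s, hs, by rw [hsum, hrank]⟩
  · -- poles of `x`
    obtain ⟨hfin, hrank⟩ := finiteDimensional_of_adjoin_eq (adjoin_inv_eq (K := K) x)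
    obtain ⟨s, hs, hsum⟩ := h1 K F x⁻¹ (transcendental_inv hx)
    refine ⟨s, fun v => ?_, ?_⟩
    · rw [hs v, Place.ord_inv]
      exact neg_pos
    · rw [← hrank, ← hsum]
      exact Finset.sum_congr rfl fun v _ => (Place.ord_inv v x).symm
  · -- `ordDifferential` of a multiple
    intro v f ω' hf hω'
    have := (h6 K F x hx v).1
    refine Place.ordDifferential_smul v hf ?_
    intro h0
    apply hω'
    rw [← v.differentialCoeff_smul_dCoord ω', h0, zero_smul]
  · -- every differential is a multiple of `dx`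
    intro ω'
    have hmem : ω' ∈ Submodule.span F {D K F x} := by
      rw [hspan]
      exact Submodule.mem_top
    obtain ⟨f, hf⟩ := Submodule.mem_span_singleton.mp hmem
    exact ⟨f, hf.symm⟩

end Fermat.Agent.S24.helper19
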