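import Mathlib
import Fermat.Prelude.Def_ModularCurve_X0
import Fermat.Prelude.Def_ModularCurve_LaurentCoeff

set_option autoImplicit false

noncomputable section

namespace Fermat.Agent.S24.helper219

open HahnSeries

section Twist

variable {R : Type*} [CommRing R]

/-- Coefficientwise twist of a Laurent series: the coefficient of `t^n` is multiplied by `u^n`
(formal substitution `t ↦ u t`). -/
def twistFun (u : Rˣ) (x : LaurentSeries R) : LaurentSeries R where
  coeff n := ((u ^ n : Rˣ) : R) * x.coeff n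
  isPWO_support' := x.isPWO_support.mono (by
    intro n hn
    simp only [Function.mem_support, ne_eq] at hn
    simp only [HahnSeries.mem_support, ne_eq]
    intro h
    exact hn (by rw [h, mul_zero]))

@[simp]
theorem twistFun_coeff (u : Rˣ) (x : LaurentSeries R) (n : ℤ) :
    (twistFun u x).coeff n = ((u ^ n : Rˣ) : R) * x.coeff n := rfl

theorem twistFun_support (u : Rˣ) (x : LaurentSeries R) :
    (twistFun u x).support = x.support := by
  ext n
  simp only [HahnSeries.mem_support, twistFun_coeff, ne_eq]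
  rw [Units.mul_right_eq_zero]

theorem twistFun_mul (u : Rˣ) (x y : LaurentSeries R) :
    twistFun u (x * y) = twistFun u x * twistFun u y := by
  ext n
  rw [twistFun_coeff, HahnSeries.coeff_mul, HahnSeries.coeff_mul, Finset.mul_sum]
  refine Finset.sum_congr ?_ fun ij hij => ?_
  · ext ij
    simp only [Finset.mem_antidiagonal, twistFun_support]
  · have hn : ij.1 + ij.2 = n := (Finset.mem_antidiagonal.mp hij).2.2
    rw [twistFun_coeff, twistFun_coeff, ← hn, zpow_add, Units.val_mul]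
    ring

/-- The twist `t ↦ u t` as a ring automorphism of Laurent series. -/
def twist (u : Rˣ) : LaurentSeries R ≃+* LaurentSeries R where
  toFun := twistFun u
  invFun := twistFun u⁻¹
  left_inv x := by
    ext n
    simp only [twistFun_coeff, inv_zpow', zpow_neg]
    rw [← mul_assoc, ← Units.val_mul, inv_mul_cancel, Units.val_one, one_mul]
  right_inv x := by
    ext n
    simp only [twistFun_coeff, inv_zpow', zpow_neg]
    rw [← mul_assoc, ← Units.val_mul, mul_inv_cancel, Units.val_one, one_mul]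
  map_mul' := twistFun_mul u
  map_add' x y := by
    ext n
    simp only [twistFun_coeff, HahnSeries.coeff_add, mul_add]

@[simp]
theorem twist_coeff (u : Rˣ) (x : LaurentSeries R) (n : ℤ) :
    (twist u x).coeff n = ((u ^ n : Rˣ) : R) * x.coeff n := rfl

theorem twist_support (u : Rˣ) (x : LaurentSeries R) :
    (twist u x).support = x.support := twistFun_support u x

theorem twist_single (u : Rˣ) (n : ℤ) (r : R) :
    twist u (HahnSeries.single n r) = HahnSeries.single n (((u ^ n : Rˣ) : R) * r) := by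
  ext m
  rw [twist_coeff]
  rcases eq_or_ne m n with rfl | h
  · rw [HahnSeries.coeff_single_same, HahnSeries.coeff_single_same]
  · rw [HahnSeries.coeff_single_of_ne h, HahnSeries.coeff_single_of_ne h, mul_zero]

@[simp]
theorem twist_C (u : Rˣ) (r : R) : twist u (HahnSeries.C r) = HahnSeries.C r := by
  have h : (HahnSeries.C r : LaurentSeries R) = HahnSeries.single 0 r := rfl
  rw [h, twist_single, zpow_zero, Units.val_one, one_mul]

theorem twist_pow_apply (u : Rˣ) (k : ℕ) (x : LaurentSeries R) :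
    (twist u ^ k) x = twist (u ^ k) x := by
  induction k generalizing x with
  | zero =>
    ext n
    simp
  | succ k ih =>
    ext n
    rw [pow_succ, RingAut.mul_apply, ih, twist_coeff, twist_coeff, twist_coeff, ← mul_assoc,
      ← Units.val_mul, pow_succ, mul_zpow]

theorem twist_orderTop (u : Rˣ) (x : LaurentSeries R) :
    (twist u x).orderTop = x.orderTop := by
  by_cases hx : x = 0
  · subst hx
    simp
  · have hx' : twist u x ≠ 0 := (map_ne_zero_iff _ (twist u).injective).mpr hx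
    rw [HahnSeries.orderTop_of_ne_zero hx, HahnSeries.orderTop_of_ne_zero hx']
    congr 1
    simp only [twist_support]


theorem div_gcd_dvd_of_dvd_mul (N k : ℕ) (hN : 0 < N) (n : ℤ) (h : (N : ℤ) ∣ (k : ℤ) * n) :
    ((N / Nat.gcd k N : ℕ) : ℤ) ∣ n := by
  have hg : 0 < Nat.gcd k N := Nat.gcd_pos_of_pos_right k hN
  obtain ⟨g, hgdef⟩ : ∃ g, g = Nat.gcd k N := ⟨_, rfl⟩
  rw [← hgdef] at hg ⊢
  obtain ⟨N', hN'⟩ : g ∣ N := hgdef ▸ Nat.gcd_dvd_right k N
  obtain ⟨k', hk'⟩ : g ∣ k := hgdef ▸ Nat.gcd_dvd_left k N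
  have hdiv : N / g = N' := by
    rw [hN']
    exact Nat.mul_div_cancel_left _ hg
  have hdivk : k / g = k' := by
    rw [hk']
    exact Nat.mul_div_cancel_left _ hg
  have hcop : Nat.Coprime k' N' := by
    have := Nat.coprime_div_gcd_div_gcd (hgdef ▸ hg : 0 < Nat.gcd k N)
    rwa [← hgdef, hdiv, hdivk] at this
  rw [hdiv]
  have h2 : ((g : ℤ) * N') ∣ (g : ℤ) * (k' * n) := by
    have e1 : (N : ℤ) = (g : ℤ) * N' := by exact_mod_cast hN'
    have e2 : (k : ℤ) = (g : ℤ) * k' := by exact_mod_cast hk'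
    rw [← e1, ← mul_assoc, ← e2]
    exact h
  have h3 : (N' : ℤ) ∣ k' * n :=
    (mul_dvd_mul_iff_left (by exact_mod_cast hg.ne')).mp h2
  have hcop' : IsCoprime (N' : ℤ) (k' : ℤ) := by
    rw [Int.isCoprime_iff_gcd_eq_one, Int.gcd_natCast_natCast]
    exact hcop.symm
  exact hcop'.dvd_of_dvd_mul_left h3

/-- A nonzero Laurent series fixed by the `k`-th power of the twist by a primitive `N`-th root of
unity has order divisible by `N / gcd(k, N)`. -/
theorem twist_fixed_dvd [IsDomain R] (ζ : Rˣ) (N : ℕ) (hN : 0 < N) (hζ : IsPrimitiveRoot ζ N)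
    (k : ℕ) (z : LaurentSeries R) (hz : z ≠ 0) (h : twist (ζ ^ k) z = z) :
    ((N / Nat.gcd k N : ℕ) : ℤ) ∣ z.order := by
  have hcoef : z.coeff z.order ≠ 0 := fun h0 => hz (HahnSeries.coeff_order_eq_zero.mp h0)
  have h1 := congrArg (fun x : LaurentSeries R => x.coeff z.order) h
  simp only [twist_coeff] at h1
  have h2 : ((((ζ ^ k) ^ z.order : Rˣ) : R)) = 1 := by
    have h3 : ((((ζ ^ k) ^ z.order : Rˣ) : R)) * z.coeff z.order = 1 * z.coeff z.order := by
      rw [one_mul]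
      exact h1
    exact mul_right_cancel₀ hcoef h3
  have h4 : ζ ^ ((k : ℤ) * z.order) = 1 := by
    rw [zpow_mul, zpow_natCast]
    exact Units.ext h2
  exact div_gcd_dvd_of_dvd_mul N k hN _ ((hζ.zpow_eq_one_iff_dvd _).mp h4)

end Twist

section Conv

/-- A complex Laurent series converges absolutely on the punctured unit disc. -/
def Conv (E : LaurentSeries ℂ) : Prop :=
  ∀ t : ℂ, t ≠ 0 → ‖t‖ < 1 → Summable (fun n : ℤ => ‖E.coeff n * t ^ n‖)

/-- The value of a Laurent series at a point. -/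
def ev (E : LaurentSeries ℂ) (t : ℂ) : ℂ := ∑' n : ℤ, E.coeff n * t ^ n

theorem Conv.summable {E : LaurentSeries ℂ} (hE : Conv E) {t : ℂ} (ht0 : t ≠ 0) (ht1 : ‖t‖ < 1) :
    Summable (fun n : ℤ => E.coeff n * t ^ n) :=
  (hE t ht0 ht1).of_norm

theorem conv_single (n : ℤ) (c : ℂ) : Conv (HahnSeries.single n c) := by
  intro t _ _
  refine summable_of_ne_finset_zero (s := {n}) fun m hm => ?_
  rw [Finset.mem_singleton] at hm
  rw [HahnSeries.coeff_single_of_ne hm, zero_mul, norm_zero]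

theorem ev_single (n : ℤ) (c : ℂ) (t : ℂ) : ev (HahnSeries.single n c) t = c * t ^ n := by
  unfold ev
  rw [tsum_eq_single n]
  · rw [HahnSeries.coeff_single_same]
  · intro m hm
    rw [HahnSeries.coeff_single_of_ne hm, zero_mul]

theorem conv_zero : Conv 0 := by
  intro t _ _
  simp only [HahnSeries.coeff_zero, zero_mul, norm_zero]
  exact summable_zero

theorem ev_zero (t : ℂ) : ev 0 t = 0 := by
  unfold ev
  simp only [HahnSeries.coeff_zero, zero_mul]
  exact tsum_zero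

theorem conv_C (c : ℂ) : Conv (HahnSeries.C c) := conv_single 0 c

theorem ev_C (c : ℂ) (t : ℂ) : ev (HahnSeries.C c) t = c := by
  have h : (HahnSeries.C c : LaurentSeries ℂ) = HahnSeries.single 0 c := rfl
  rw [h, ev_single, zpow_zero, mul_one]

theorem conv_one : Conv 1 := conv_single 0 1

theorem ev_one (t : ℂ) : ev 1 t = 1 := by
  have h : (1 : LaurentSeries ℂ) = HahnSeries.single 0 1 := rfl
  rw [h, ev_single, zpow_zero, mul_one]

theorem conv_add {E₁ E₂ : LaurentSeries ℂ} (h₁ : Conv E₁) (h₂ : Conv E₂) : Conv (E₁ + E₂) := by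
  intro t ht0 ht1
  refine Summable.of_nonneg_of_le (fun _ => norm_nonneg _) (fun n => ?_)
    ((h₁ t ht0 ht1).add (h₂ t ht0 ht1))
  rw [HahnSeries.coeff_add, add_mul]
  exact norm_add_le _ _

theorem ev_add {E₁ E₂ : LaurentSeries ℂ} (h₁ : Conv E₁) (h₂ : Conv E₂) {t : ℂ} (ht0 : t ≠ 0)
    (ht1 : ‖t‖ < 1) : ev (E₁ + E₂) t = ev E₁ t + ev E₂ t := by
  unfold ev
  rw [← (h₁.summable ht0 ht1).tsum_add (h₂.summable ht0 ht1)]
  refine tsum_congr fun n => ?_
  rw [HahnSeries.coeff_add, add_mul]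

theorem conv_neg {E : LaurentSeries ℂ} (h : Conv E) : Conv (-E) := by
  intro t ht0 ht1
  simpa only [HahnSeries.coeff_neg, neg_mul, norm_neg] using h t ht0 ht1

theorem ev_neg (E : LaurentSeries ℂ) (t : ℂ) : ev (-E) t = -ev E t := by
  unfold ev
  rw [← tsum_neg]
  refine tsum_congr fun n => ?_
  rw [HahnSeries.coeff_neg, neg_mul]


/-- The shear `(n, i) ↦ (i, n - i)` of `ℤ × ℤ`. -/
def shear : ℤ × ℤ ≃ ℤ × ℤ where
  toFun p := (p.2, p.1 - p.2)
  invFun p := (p.1 + p.2, p.1)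
  left_inv p := by ext <;> simp
  right_inv p := by ext <;> simp

theorem coeff_mul_eq_tsum (E₁ E₂ : LaurentSeries ℂ) (n : ℤ) :
    (E₁ * E₂).coeff n = ∑' i : ℤ, E₁.coeff i * E₂.coeff (n - i) := by
  rw [HahnSeries.coeff_mul]
  rw [tsum_eq_sum (s := (Finset.antidiagonal E₁.isPWO_support E₂.isPWO_support n).image Prod.fst)]
  · rw [Finset.sum_image]
    · refine Finset.sum_congr rfl fun ij hij => ?_
      have hn : ij.1 + ij.2 = n := (Finset.mem_antidiagonal.mp hij).2.2
      rw [← hn, add_sub_cancel_left]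
    · intro p hp q hq hpq
      have h1 : p.1 + p.2 = n := (Finset.mem_antidiagonal.mp hp).2.2
      have h2 : q.1 + q.2 = n := (Finset.mem_antidiagonal.mp hq).2.2
      ext
      · exact hpq
      · have : p.1 = q.1 := hpq
        omega
  · intro i hi
    by_contra hne
    apply hi
    rw [Finset.mem_image]
    refine ⟨(i, n - i), ?_, rfl⟩
    rw [Finset.mem_antidiagonal]
    refine ⟨?_, ?_, by simp⟩
    · rw [HahnSeries.mem_support]
      intro h0
      exact hne (by rw [h0, zero_mul])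
    · rw [HahnSeries.mem_support]
      intro h0
      exact hne (by rw [h0, mul_zero])

theorem conv_mul_aux {E₁ E₂ : LaurentSeries ℂ} (h₁ : Conv E₁) (h₂ : Conv E₂) {t : ℂ} (ht0 : t ≠ 0)
    (ht1 : ‖t‖ < 1) :
    Summable (fun n : ℤ => ‖(E₁ * E₂).coeff n * t ^ n‖) ∧
      ev (E₁ * E₂) t = ev E₁ t * ev E₂ t := by
  set f : ℤ → ℂ := fun i => E₁.coeff i * t ^ i with hf
  set g : ℤ → ℂ := fun j => E₂.coeff j * t ^ j with hg
  have hfs : Summable (fun i => ‖f i‖) := h₁ t ht0 ht1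
  have hgs : Summable (fun j => ‖g j‖) := h₂ t ht0 ht1
  have hF : Summable (fun p : ℤ × ℤ => ‖f p.1 * g p.2‖) := hfs.mul_norm hgs
  have hG : Summable (fun p : ℤ × ℤ => ‖f (shear p).1 * g (shear p).2‖) :=
    (shear.summable_iff (f := fun p : ℤ × ℤ => ‖f p.1 * g p.2‖)).mpr hF
  have hG' : Summable (fun p : ℤ × ℤ => f (shear p).1 * g (shear p).2) := hG.of_norm
  have hterm : ∀ n : ℤ, (E₁ * E₂).coeff n * t ^ n
      = ∑' i : ℤ, f (shear (n, i)).1 * g (shear (n, i)).2 := by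
    intro n
    rw [coeff_mul_eq_tsum, ← tsum_mul_right]
    refine tsum_congr fun i => ?_
    simp only [shear, Equiv.coe_fn_mk, hf, hg]
    have : t ^ n = t ^ i * t ^ (n - i) := by
      rw [← zpow_add₀ ht0]
      congr 1
      ring
    rw [this]
    ring
  constructor
  · refine Summable.of_nonneg_of_le (fun _ => norm_nonneg _) (fun n => ?_) hG.prod
    rw [hterm n]
    exact norm_tsum_le_tsum_norm (hG.prod_factor n)
  · unfold ev
    rw [tsum_mul_tsum_of_summable_norm hfs hgs]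
    rw [← shear.tsum_eq (fun p : ℤ × ℤ => f p.1 * g p.2)]
    rw [hG'.tsum_prod]
    exact tsum_congr hterm

theorem conv_mul {E₁ E₂ : LaurentSeries ℂ} (h₁ : Conv E₁) (h₂ : Conv E₂) : Conv (E₁ * E₂) :=
  fun _ ht0 ht1 => (conv_mul_aux h₁ h₂ ht0 ht1).1

theorem ev_mul {E₁ E₂ : LaurentSeries ℂ} (h₁ : Conv E₁) (h₂ : Conv E₂) {t : ℂ} (ht0 : t ≠ 0)
    (ht1 : ‖t‖ < 1) : ev (E₁ * E₂) t = ev E₁ t * ev E₂ t :=
  (conv_mul_aux h₁ h₂ ht0 ht1).2

/-- The subring of convergent Laurent series. -/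
def convSubring : Subring (LaurentSeries ℂ) where
  carrier := {E | Conv E}
  mul_mem' := conv_mul
  one_mem' := conv_one
  add_mem' := conv_add
  zero_mem' := conv_zero
  neg_mem' := conv_neg

theorem mem_convSubring {E : LaurentSeries ℂ} : E ∈ convSubring ↔ Conv E := Iff.rfl

/-- Evaluation at a point of the punctured unit disc, as a ring homomorphism. -/
def evHom (t : ℂ) (ht0 : t ≠ 0) (ht1 : ‖t‖ < 1) : convSubring →+* ℂ where
  toFun E := ev E.1 t
  map_one' := ev_one t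
  map_mul' E₁ E₂ := ev_mul E₁.2 E₂.2 ht0 ht1
  map_zero' := ev_zero t
  map_add' E₁ E₂ := ev_add E₁.2 E₂.2 ht0 ht1

@[simp]
theorem evHom_apply (t : ℂ) (ht0 : t ≠ 0) (ht1 : ‖t‖ < 1) (E : convSubring) :
    evHom t ht0 ht1 E = ev E.1 t := rfl


theorem conv_sub {E₁ E₂ : LaurentSeries ℂ} (h₁ : Conv E₁) (h₂ : Conv E₂) : Conv (E₁ - E₂) := by
  rw [sub_eq_add_neg]
  exact conv_add h₁ (conv_neg h₂)

theorem ev_sub {E₁ E₂ : LaurentSeries ℂ} (h₁ : Conv E₁) (h₂ : Conv E₂) {t : ℂ} (ht0 : t ≠ 0)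
    (ht1 : ‖t‖ < 1) : ev (E₁ - E₂) t = ev E₁ t - ev E₂ t := by
  rw [sub_eq_add_neg, ev_add h₁ (conv_neg h₂) ht0 ht1, ev_neg, sub_eq_add_neg]

/-- Identity principle: a convergent Laurent series vanishing on the punctured unit disc is `0`. -/
theorem eq_zero_of_ev_eq_zero {E : LaurentSeries ℂ} (hE : Conv E)
    (h : ∀ t : ℂ, t ≠ 0 → ‖t‖ < 1 → ev E t = 0) : E = 0 := by
  by_contra hne
  set m : ℤ := E.order with hm
  have ham : E.coeff m ≠ 0 := fun h0 => hne (HahnSeries.coeff_order_eq_zero.mp h0)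
  have hlt : ∀ n : ℤ, n < m → E.coeff n = 0 := fun n hn => HahnSeries.coeff_eq_zero_of_lt_order hn
  have hhalf0 : ((1 / 2 : ℝ) : ℂ) ≠ 0 := by norm_num
  have hhalf1 : ‖((1 / 2 : ℝ) : ℂ)‖ < 1 := by
    rw [Complex.norm_real]; norm_num
  have hS := hE _ hhalf0 hhalf1
  set S : ℝ := ∑' n : ℤ, ‖E.coeff n * ((1 / 2 : ℝ) : ℂ) ^ n‖ with hSdef
  have hS0 : 0 ≤ S := tsum_nonneg fun _ => norm_nonneg _
  -- key estimate
  have key : ∀ ε : ℝ, 0 < ε → ε ≤ 1 / 2 → ‖E.coeff m‖ ≤ ε * ((2 : ℝ) ^ (m + 1) * S) := by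
    intro ε hε hε2
    have ht0 : (ε : ℂ) ≠ 0 := by exact_mod_cast hε.ne'
    have ht1 : ‖(ε : ℂ)‖ < 1 := by
      rw [Complex.norm_real, Real.norm_of_nonneg hε.le]; linarith
    have hsum := hE.summable ht0 ht1
    have h0 := h _ ht0 ht1
    unfold ev at h0
    rw [hsum.tsum_eq_add_tsum_ite m] at h0
    have hbound : ∀ n : ℤ, ‖(if n = m then 0 else E.coeff n * (ε : ℂ) ^ n)‖
        ≤ (2 * ε) ^ (m + 1) * ‖E.coeff n * ((1 / 2 : ℝ) : ℂ) ^ n‖ := by
      intro n
      have h2ε : 0 < 2 * ε := by linarith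
      split_ifs with hnm
      · rw [norm_zero]
        exact mul_nonneg (zpow_nonneg h2ε.le _) (norm_nonneg _)
      · rcases lt_or_gt_of_ne hnm with hn | hn
        · rw [hlt n hn, zero_mul, zero_mul, norm_zero, mul_zero]
        · rw [norm_mul, norm_mul, norm_zpow, norm_zpow, Complex.norm_real, Complex.norm_real,
            Real.norm_of_nonneg hε.le, Real.norm_of_nonneg (by norm_num : (0 : ℝ) ≤ 1 / 2)]
          have hεn : ε ^ n = (2 * ε) ^ n * (1 / 2 : ℝ) ^ n := by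
            rw [← mul_zpow]
            congr 1
            ring
          have hle : (2 * ε) ^ n ≤ (2 * ε) ^ (m + 1) :=
            zpow_le_zpow_right_of_le_one₀ h2ε (by linarith) (by omega)
          rw [hεn]
          have h3 : 0 ≤ ‖E.coeff n‖ * (1 / 2 : ℝ) ^ n :=
            mul_nonneg (norm_nonneg _) (zpow_nonneg (by norm_num) _)
          calc ‖E.coeff n‖ * ((2 * ε) ^ n * (1 / 2 : ℝ) ^ n)
              = (2 * ε) ^ n * (‖E.coeff n‖ * (1 / 2 : ℝ) ^ n) := by ring
            _ ≤ (2 * ε) ^ (m + 1) * (‖E.coeff n‖ * (1 / 2 : ℝ) ^ n) :=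
              mul_le_mul_of_nonneg_right hle h3
    have hsumB : Summable (fun n : ℤ => (2 * ε) ^ (m + 1) * ‖E.coeff n * ((1 / 2 : ℝ) : ℂ) ^ n‖) :=
      hS.mul_left _
    have hsumN : Summable (fun n : ℤ => ‖(if n = m then 0 else E.coeff n * (ε : ℂ) ^ n)‖) :=
      Summable.of_nonneg_of_le (fun _ => norm_nonneg _) hbound hsumB
    have h1 : ‖E.coeff m * (ε : ℂ) ^ m‖ ≤ (2 * ε) ^ (m + 1) * S := by
      have h2 : E.coeff m * (ε : ℂ) ^ m = -∑' n : ℤ, (if n = m then 0 else E.coeff n * (ε : ℂ) ^ n) :=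
        eq_neg_of_add_eq_zero_left h0
      rw [h2, norm_neg]
      calc ‖∑' n : ℤ, (if n = m then 0 else E.coeff n * (ε : ℂ) ^ n)‖
          ≤ ∑' n : ℤ, ‖(if n = m then 0 else E.coeff n * (ε : ℂ) ^ n)‖ :=
            norm_tsum_le_tsum_norm hsumN
        _ ≤ ∑' n : ℤ, (2 * ε) ^ (m + 1) * ‖E.coeff n * ((1 / 2 : ℝ) : ℂ) ^ n‖ :=
            hsumN.tsum_le_tsum hbound hsumB
        _ = (2 * ε) ^ (m + 1) * S := tsum_mul_left
    rw [norm_mul, norm_zpow, Complex.norm_real, Real.norm_of_nonneg hε.le] at h1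
    have hεm : 0 < ε ^ m := zpow_pos hε m
    have h4 : (2 * ε) ^ (m + 1) = ε ^ m * (ε * (2 : ℝ) ^ (m + 1)) := by
      rw [mul_zpow, zpow_add₀ hε.ne', zpow_one]
      ring
    rw [h4, mul_comm ‖E.coeff m‖, mul_assoc] at h1
    have h5 := le_of_mul_le_mul_left h1 hεm
    linarith [h5]
  -- conclude
  set C : ℝ := (2 : ℝ) ^ (m + 1) * S with hC
  have hC0 : 0 ≤ C := mul_nonneg (zpow_nonneg (by norm_num) _) hS0
  have hpos : 0 < ‖E.coeff m‖ := norm_pos_iff.mpr ham
  set ε : ℝ := min (1 / 2) (‖E.coeff m‖ / (2 * (C + 1))) with hεdef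
  have hε : 0 < ε := lt_min (by norm_num) (div_pos hpos (by linarith))
  have hε2 : ε ≤ 1 / 2 := min_le_left _ _
  have hε3 : ε ≤ ‖E.coeff m‖ / (2 * (C + 1)) := min_le_right _ _
  have h6 := key ε hε hε2
  have h7 : ε * C ≤ ‖E.coeff m‖ / (2 * (C + 1)) * C := mul_le_mul_of_nonneg_right hε3 hC0
  have h8 : ‖E.coeff m‖ / (2 * (C + 1)) * C < ‖E.coeff m‖ := by
    rw [div_mul_eq_mul_div, div_lt_iff₀ (by linarith)]
    nlinarith
  linarith

/-- Two convergent Laurent series with the same values on the punctured unit disc are equal. -/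
theorem eq_of_ev_eq {E₁ E₂ : LaurentSeries ℂ} (h₁ : Conv E₁) (h₂ : Conv E₂)
    (h : ∀ t : ℂ, t ≠ 0 → ‖t‖ < 1 → ev E₁ t = ev E₂ t) : E₁ = E₂ := by
  have := eq_zero_of_ev_eq_zero (conv_sub h₁ h₂) fun t ht0 ht1 => by
    rw [ev_sub h₁ h₂ ht0 ht1, h t ht0 ht1, sub_self]
  exact sub_eq_zero.mp this


end Conv

section Compat

open ModularCurve

theorem conv_qExpand (k : ℕ) [NeZero k] {E : LaurentSeries ℂ} (hE : Conv E) :
    Conv (qExpand ℂ k E) := by
  intro t ht0 ht1
  have hinj : Function.Injective (fun n : ℤ => (k : ℤ) * n) :=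
    mul_right_injective₀ (by exact_mod_cast NeZero.ne k)
  rw [← hinj.summable_iff]
  · have hcomp : ((fun m : ℤ => ‖(qExpand ℂ k E).coeff m * t ^ m‖) ∘ fun n : ℤ => (k : ℤ) * n)
        = fun n : ℤ => ‖E.coeff n * (t ^ k) ^ n‖ := by
      funext n
      simp only [Function.comp, qExpand_coeff_mul]
      rw [zpow_mul, zpow_natCast]
    rw [hcomp]
    refine hE (t ^ k) (pow_ne_zero k ht0) ?_
    rw [norm_pow]
    exact pow_lt_one₀ (norm_nonneg _) ht1 (NeZero.ne k)
  · intro m hm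
    have hnd : ¬ (k : ℤ) ∣ m := fun ⟨c, hc⟩ => hm ⟨c, hc.symm⟩
    rw [qExpand_coeff_of_not_dvd k E hnd, zero_mul, norm_zero]

theorem ev_qExpand (k : ℕ) [NeZero k] (E : LaurentSeries ℂ) (t : ℂ) :
    ev (qExpand ℂ k E) t = ev E (t ^ k) := by
  unfold ev
  have hinj : Function.Injective (fun n : ℤ => (k : ℤ) * n) :=
    mul_right_injective₀ (by exact_mod_cast NeZero.ne k)
  rw [← hinj.tsum_eq (f := fun m : ℤ => (qExpand ℂ k E).coeff m * t ^ m)]
  · refine tsum_congr fun n => ?_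
    rw [qExpand_coeff_mul, zpow_mul, zpow_natCast]
  · intro m hm
    by_contra hnot
    have hnd : ¬ (k : ℤ) ∣ m := fun ⟨c, hc⟩ => hnot ⟨c, hc.symm⟩
    exact hm (by
      show (qExpand ℂ k E).coeff m * t ^ m = 0
      rw [qExpand_coeff_of_not_dvd k E hnd, zero_mul])

theorem norm_units_zpow_eq_one (u : ℂˣ) (hu : ‖(u : ℂ)‖ = 1) (n : ℤ) :
    ‖((u ^ n : ℂˣ) : ℂ)‖ = 1 := by
  rw [Units.val_zpow_eq_zpow_val, norm_zpow, hu, one_zpow]

theorem conv_twist (u : ℂˣ) (hu : ‖(u : ℂ)‖ = 1) {E : LaurentSeries ℂ} (hE : Conv E) :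
    Conv (twist u E) := by
  intro t ht0 ht1
  have := hE t ht0 ht1
  refine this.congr fun n => ?_
  rw [twist_coeff, norm_mul, norm_mul, norm_mul, norm_units_zpow_eq_one u hu, one_mul]

theorem ev_twist (u : ℂˣ) (E : LaurentSeries ℂ) (t : ℂ) :
    ev (twist u E) t = ev E ((u : ℂ) * t) := by
  unfold ev
  refine tsum_congr fun n => ?_
  rw [twist_coeff, mul_zpow, Units.val_zpow_eq_zpow_val]
  ring

/-- The formal `j`-series with complex coefficients. -/
def jC : LaurentSeries ℂ := coeffMap (algebraMap ℚ ℂ) jq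

theorem jC_coeff (n : ℤ) : jC.coeff n = ((jq.coeff n : ℚ) : ℂ) := rfl

theorem jq_coeff_natCast_sub_one (k : ℕ) :
    jq.coeff ((k : ℤ) - 1) = PowerSeries.coeff k jNumQ := by
  rw [jq, HahnSeries.coeff_single_mul, one_mul, sub_neg_eq_add, sub_add_cancel,
    HahnSeries.ofPowerSeries_apply_coeff]

theorem jC_coeff_of_lt {n : ℤ} (hn : n < -1) : jC.coeff n = 0 := by
  rw [jC_coeff, coeff_jq_of_lt hn, Rat.cast_zero]

theorem jC_coeff_neg_one : jC.coeff (-1) = 1 := by
  rw [jC_coeff, coeff_jq_neg_one, Rat.cast_one]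

/-- Hypothesis shape C1a: the formal series `jNumQ` converges to `q * J`. -/
def HasJExp (J : UpperHalfPlane → ℂ) : Prop :=
  ∀ τ : UpperHalfPlane,
    HasSum (fun n : ℕ => ((PowerSeries.coeff n jNumQ : ℚ) : ℂ) *
      (Function.Periodic.qParam 1 (τ : ℂ)) ^ n) (Function.Periodic.qParam 1 (τ : ℂ) * J τ)

/-- Hypothesis shape C1b: absolute convergence of `jNumQ` on the open unit disc. -/
def JSummable : Prop :=
  ∀ r : ℝ, 0 ≤ r → r < 1 →
    Summable (fun n : ℕ => ‖((PowerSeries.coeff n jNumQ : ℚ) : ℂ)‖ * r ^ n)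

theorem natCast_sub_one_injective : Function.Injective (fun k : ℕ => (k : ℤ) - 1) := by
  intro a b hab
  simp only at hab
  omega

theorem jC_coeff_eq_zero_of_notMem_range {n : ℤ} (hn : n ∉ Set.range (fun k : ℕ => (k : ℤ) - 1)) :
    jC.coeff n = 0 := by
  apply jC_coeff_of_lt
  by_contra hlt
  exact hn ⟨(n + 1).toNat, by simp only; omega⟩

theorem conv_jC (h : JSummable) : Conv jC := by
  intro t ht0 ht1
  rw [← natCast_sub_one_injective.summable_iff]
  · have hcomp : ((fun n : ℤ => ‖jC.coeff n * t ^ n‖) ∘ fun k : ℕ => (k : ℤ) - 1)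
        = fun k : ℕ => ‖((PowerSeries.coeff k jNumQ : ℚ) : ℂ)‖ * ‖t‖ ^ k * ‖t‖⁻¹ := by
      funext k
      simp only [Function.comp]
      rw [jC_coeff, jq_coeff_natCast_sub_one, norm_mul, zpow_sub₀ ht0, zpow_natCast, zpow_one,
        norm_div, norm_pow]
      ring
    rw [hcomp]
    exact (h ‖t‖ (norm_nonneg _) ht1).mul_right _
  · intro n hn
    rw [jC_coeff_eq_zero_of_notMem_range hn, zero_mul, norm_zero]

theorem ev_jC {J : UpperHalfPlane → ℂ} (hJ : HasJExp J) (τ : UpperHalfPlane) :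
    ev jC (Function.Periodic.qParam 1 (τ : ℂ)) = J τ := by
  have hJτ := hJ τ
  obtain ⟨q, hq⟩ : ∃ q : ℂ, q = Function.Periodic.qParam 1 (τ : ℂ) := ⟨_, rfl⟩
  rw [← hq] at hJτ ⊢
  have hq0 : q ≠ 0 := by
    rw [hq, Function.Periodic.qParam]
    exact Complex.exp_ne_zero _
  unfold ev
  rw [← natCast_sub_one_injective.tsum_eq (f := fun n : ℤ => jC.coeff n * q ^ n)]
  · have hterm : ∀ k : ℕ, jC.coeff ((k : ℤ) - 1) * q ^ ((k : ℤ) - 1)
        = ((PowerSeries.coeff k jNumQ : ℚ) : ℂ) * q ^ k * q⁻¹ := by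
      intro k
      rw [jC_coeff, jq_coeff_natCast_sub_one, zpow_sub₀ hq0, zpow_natCast, zpow_one]
      ring
    rw [tsum_congr hterm, tsum_mul_right, hJτ.tsum_eq, mul_comm q, mul_assoc,
      mul_inv_cancel₀ hq0, mul_one]
  · intro n hn
    by_contra hnot
    exact hn (by
      show jC.coeff n * q ^ n = 0
      rw [jC_coeff_eq_zero_of_notMem_range hnot, zero_mul])

end Compat

end Fermat.Agent.S24.helper219
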