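import Mathlib
import Fermat.Agent.S24.helper219_CuspSeries

set_option autoImplicit false

noncomputable section

namespace Fermat.Agent.S24.helper219

open scoped MatrixGroups

/-- Hermite form: for `g ∈ SL(2, ℤ)` and `d > 0`,
`diag(d, 1) * g = γ * [[A, B], [0, D]]` with `γ ∈ SL(2, ℤ)`, `A D = d`. -/
theorem exists_hermite (g : SL(2, ℤ)) (d : ℕ) (hd : 0 < d) :
    ∃ (γ : SL(2, ℤ)) (A D : ℕ) (B : ℤ), 0 < A ∧ 0 < D ∧ A * D = d ∧
      (d : ℤ) * g 0 0 = γ 0 0 * A ∧ (d : ℤ) * g 0 1 = γ 0 0 * B + γ 0 1 * D ∧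
      g 1 0 = γ 1 0 * A ∧ g 1 1 = γ 1 0 * B + γ 1 1 * D := by
  obtain ⟨a, ha⟩ : ∃ a, a = g 0 0 := ⟨_, rfl⟩
  obtain ⟨b, hb⟩ : ∃ b, b = g 0 1 := ⟨_, rfl⟩
  obtain ⟨c, hc⟩ : ∃ c, c = g 1 0 := ⟨_, rfl⟩
  obtain ⟨e, he⟩ : ∃ e, e = g 1 1 := ⟨_, rfl⟩
  have hdet : a * e - b * c = 1 := by
    have h := g.det_coe
    rw [Matrix.det_fin_two] at h
    rw [ha, hb, hc, he]
    exact h
  rw [← ha, ← hb, ← hc, ← he]
  have hd' : (0 : ℤ) < d := by exact_mod_cast hd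
  set x : ℤ := (d : ℤ) * a with hx
  obtain ⟨A, hAdef⟩ : ∃ A : ℕ, A = Int.gcd x c := ⟨_, rfl⟩
  have hApos : 0 < A := by
    rw [hAdef, Int.gcd_pos_iff]
    by_contra hcon
    simp only [not_or, not_not] at hcon
    obtain ⟨hx0, hc0⟩ := hcon
    have ha0 : a = 0 := by
      rcases mul_eq_zero.mp hx0 with h | h
      · exact absurd h hd'.ne'
      · exact h
    rw [ha0, hc0] at hdet
    simp at hdet
  have hApos' : (0 : ℤ) < A := by exact_mod_cast hApos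
  obtain ⟨x', hx'⟩ : (A : ℤ) ∣ x := hAdef ▸ Int.gcd_dvd_left x c
  obtain ⟨c', hc'⟩ : (A : ℤ) ∣ c := hAdef ▸ Int.gcd_dvd_right x c
  have hbez : (A : ℤ) = x * Int.gcdA x c + c * Int.gcdB x c := hAdef ▸ Int.gcd_eq_gcd_ab x c
  set u := Int.gcdA x c with hu
  set v := Int.gcdB x c with hv
  have hbez' : x' * u + c' * v = 1 := by
    have h1 : (A : ℤ) * (x' * u + c' * v) = (A : ℤ) * 1 := by
      rw [mul_one]
      calc (A : ℤ) * (x' * u + c' * v) = (A * x') * u + (A * c') * v := by ring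
        _ = x * u + c * v := by rw [← hx', ← hc']
        _ = A := hbez.symm
    exact mul_left_cancel₀ hApos'.ne' h1
  set Dz : ℤ := x' * e - c' * (d * b) with hDz
  have hAD : (A : ℤ) * Dz = d := by
    calc (A : ℤ) * Dz = (A * x') * e - (A * c') * (d * b) := by rw [hDz]; ring
      _ = x * e - c * (d * b) := by rw [← hx', ← hc']
      _ = d * (a * e - b * c) := by rw [hx]; ring
      _ = d := by rw [hdet, mul_one]
  have hDzpos : 0 < Dz := by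
    by_contra hcon
    have : (A : ℤ) * Dz ≤ 0 := mul_nonpos_of_nonneg_of_nonpos hApos'.le (not_lt.mp hcon)
    omega
  have hDnat : ((Dz.toNat : ℕ) : ℤ) = Dz := Int.toNat_of_nonneg hDzpos.le
  set B : ℤ := u * (d * b) + v * e with hB
  refine ⟨⟨!![x', -v; c', u], ?_⟩, A, Dz.toNat, B, hApos, ?_, ?_, ?_, ?_, ?_, ?_⟩
  · rw [Matrix.det_fin_two_of]
    linarith
  · omega
  · have : ((A * Dz.toNat : ℕ) : ℤ) = d := by
      push_cast
      rw [hDnat, hAD]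
    exact_mod_cast this
  · show (d : ℤ) * a = x' * A
    rw [← hx, hx', mul_comm]
  · show (d : ℤ) * b = x' * B + (-v) * (Dz.toNat : ℤ)
    rw [hDnat, hB, hDz]
    linear_combination (-((d : ℤ) * b)) * hbez'
  · show c = c' * A
    rw [hc', mul_comm]
  · show e = c' * B + u * (Dz.toNat : ℤ)
    rw [hDnat, hB, hDz]
    linear_combination (-e) * hbez'


open UpperHalfPlane

theorem int_linear_ne_zero (c e : ℤ) (h : ¬(c = 0 ∧ e = 0)) (z : ℂ) (hz : 0 < z.im) :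
    (c : ℂ) * z + e ≠ 0 := by
  intro h0
  have him : ((c : ℂ) * z + e).im = c * z.im := by simp
  have hc : c = 0 := by
    rw [h0, Complex.zero_im] at him
    have : (c : ℝ) = 0 := by
      rcases mul_eq_zero.mp him.symm with h1 | h1
      · exact h1
      · exact absurd h1 hz.ne'
    exact_mod_cast this
  rw [hc, Int.cast_zero, zero_mul, zero_add] at h0
  exact h ⟨hc, by exact_mod_cast h0⟩

theorem sl2_bottom_row_ne_zero (g : SL(2, ℤ)) : ¬(g 1 0 = 0 ∧ g 1 1 = 0) := by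
  rintro ⟨h1, h2⟩
  have h := g.det_coe
  rw [Matrix.det_fin_two, h1, h2] at h
  simp at h

theorem coe_sl2_smul (g : SL(2, ℤ)) (τ : ℍ) :
    ((g • τ : ℍ) : ℂ) = ((g 0 0 : ℂ) * τ + g 0 1) / ((g 1 0 : ℂ) * τ + g 1 1) := by
  rw [UpperHalfPlane.coe_specialLinearGroup_apply]
  simp

theorem im_affine_pos (A D : ℕ) (hA : 0 < A) (hD : 0 < D) (B : ℤ) (τ : ℍ) :
    0 < (((A : ℂ) * τ + B) / D).im := by
  have h : (((A : ℂ) * τ + B) / D).im = A * τ.im / D := by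
    rw [Complex.div_natCast_im]
    simp
  rw [h]
  have hA' : (0 : ℝ) < A := by exact_mod_cast hA
  have hD' : (0 : ℝ) < D := by exact_mod_cast hD
  exact div_pos (mul_pos hA' τ.im_pos) hD'

theorem im_scale_pos (d : ℕ) (hd : 0 < d) (τ : ℍ) : 0 < ((d : ℂ) * τ).im := by
  have h : ((d : ℂ) * τ).im = d * τ.im := by simp
  rw [h]
  have hd' : (0 : ℝ) < d := by exact_mod_cast hd
  exact mul_pos hd' τ.im_pos

/-- Möbius form of the Hermite decomposition: `d * (g τ) = γ ((A τ + B) / D)`. -/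
theorem scale_smul_eq (g γ : SL(2, ℤ)) (d A D : ℕ) (B : ℤ) (hd : 0 < d) (hA : 0 < A)
    (hD : 0 < D) (h00 : (d : ℤ) * g 0 0 = γ 0 0 * A)
    (h01 : (d : ℤ) * g 0 1 = γ 0 0 * B + γ 0 1 * D) (h10 : g 1 0 = γ 1 0 * A)
    (h11 : g 1 1 = γ 1 0 * B + γ 1 1 * D) (τ : ℍ) :
    ofComplex ((d : ℂ) * ((g • τ : ℍ) : ℂ)) = γ • ofComplex (((A : ℂ) * τ + B) / D) := by
  have hσpos := im_affine_pos A D hA hD B τ
  have hdpos := im_scale_pos d hd (g • τ)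
  rw [ofComplex_apply_of_im_pos hσpos, ofComplex_apply_of_im_pos hdpos]
  apply UpperHalfPlane.ext
  rw [coe_sl2_smul γ]
  show (d : ℂ) * ((g • τ : ℍ) : ℂ)
    = ((γ 0 0 : ℂ) * (((A : ℂ) * τ + B) / D) + γ 0 1)
      / ((γ 1 0 : ℂ) * (((A : ℂ) * τ + B) / D) + γ 1 1)
  rw [coe_sl2_smul g]
  have H00 : (d : ℂ) * (g 0 0 : ℂ) = (γ 0 0 : ℂ) * A := by exact_mod_cast congrArg (Int.cast : ℤ → ℂ) h00
  have H01 : (d : ℂ) * (g 0 1 : ℂ) = (γ 0 0 : ℂ) * B + (γ 0 1 : ℂ) * D := by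
    exact_mod_cast congrArg (Int.cast : ℤ → ℂ) h01
  have H10 : (g 1 0 : ℂ) = (γ 1 0 : ℂ) * A := by exact_mod_cast congrArg (Int.cast : ℤ → ℂ) h10
  have H11 : (g 1 1 : ℂ) = (γ 1 0 : ℂ) * B + (γ 1 1 : ℂ) * D := by
    exact_mod_cast congrArg (Int.cast : ℤ → ℂ) h11
  have hDne : (D : ℂ) ≠ 0 := by exact_mod_cast hD.ne'
  have hden : (g 1 0 : ℂ) * τ + g 1 1 ≠ 0 :=
    int_linear_ne_zero _ _ (sl2_bottom_row_ne_zero g) _ τ.im_pos
  have key1 : (γ 0 0 : ℂ) * (((A : ℂ) * τ + B) / D) + γ 0 1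
      = ((d : ℂ) * ((g 0 0 : ℂ) * τ + g 0 1)) / D := by
    field_simp
    linear_combination (-(τ : ℂ)) * H00 - H01
  have key2 : (γ 1 0 : ℂ) * (((A : ℂ) * τ + B) / D) + γ 1 1
      = ((g 1 0 : ℂ) * τ + g 1 1) / D := by
    field_simp
    linear_combination (-(τ : ℂ)) * H10 - H11
  rw [key1, key2, div_div_div_cancel_right₀ hDne, mul_div_assoc]


/-- Conjugating an element of `Γ₀(N)` by `diag(d, 1)` for `d ∣ N`. -/
theorem exists_gamma0_conj (N d : ℕ) (hd0 : 0 < d) (hd : d ∣ N) (γ : SL(2, ℤ))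
    (hγ : γ ∈ CongruenceSubgroup.Gamma0 N) :
    ∃ γ' : SL(2, ℤ), ∀ τ : ℍ,
      ofComplex ((d : ℂ) * ((γ • τ : ℍ) : ℂ)) = γ' • ofComplex ((d : ℂ) * (τ : ℂ)) := by
  rw [CongruenceSubgroup.Gamma0_mem, ZMod.intCast_zmod_eq_zero_iff_dvd] at hγ
  obtain ⟨c', hc'⟩ : (d : ℤ) ∣ γ 1 0 := (Int.natCast_dvd_natCast.mpr hd).trans hγ
  have hdet := γ.det_coe
  rw [Matrix.det_fin_two] at hdet
  refine ⟨⟨!![γ 0 0, d * γ 0 1; c', γ 1 1], ?_⟩, fun τ => ?_⟩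
  · rw [Matrix.det_fin_two_of]
    rw [hc'] at hdet
    linear_combination hdet
  · have h := scale_smul_eq γ ⟨!![γ 0 0, d * γ 0 1; c', γ 1 1], by
        rw [Matrix.det_fin_two_of]
        rw [hc'] at hdet
        linear_combination hdet⟩ d d 1 0 hd0 hd0 Nat.one_pos
      (by show (d : ℤ) * γ 0 0 = γ 0 0 * d; ring)
      (by show (d : ℤ) * γ 0 1 = γ 0 0 * 0 + (d * γ 0 1) * ((1 : ℕ) : ℤ); simp)
      (by show γ 1 0 = c' * d; rw [hc']; ring)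
      (by show γ 1 1 = c' * 0 + γ 1 1 * ((1 : ℕ) : ℤ); simp) τ
    rw [h]
    congr 2
    simp

open ModularCurve Function.Periodic

/-- The unit `exp(2πi B / D)` of `ℂ`. -/
def rootUnit (B : ℤ) (D : ℕ) : ℂˣ :=
  Units.mk0 (Complex.exp (2 * Real.pi * Complex.I * B / D)) (Complex.exp_ne_zero _)

theorem norm_rootUnit (B : ℤ) (D : ℕ) : ‖(rootUnit B D : ℂ)‖ = 1 := by
  rw [rootUnit, Units.val_mk0]
  have h : 2 * (Real.pi : ℂ) * Complex.I * B / D = ((2 * Real.pi * B / D : ℝ) : ℂ) * Complex.I := by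
    push_cast
    ring
  rw [h, Complex.norm_exp_ofReal_mul_I]

theorem qParam_ne_zero' (h : ℝ) (z : ℂ) : qParam h z ≠ 0 := by
  rw [qParam]
  exact Complex.exp_ne_zero _

theorem norm_qParam_lt_one' (N : ℕ) (hN : 0 < N) (τ : ℍ) : ‖qParam N (τ : ℂ)‖ < 1 := by
  rw [norm_qParam]
  have hN' : (0 : ℝ) < N := by exact_mod_cast hN
  have h1 : 0 < 2 * Real.pi * (τ : ℂ).im / N := div_pos (mul_pos Real.two_pi_pos τ.im_pos) hN'
  have h2 : -2 * Real.pi * (τ : ℂ).im / N = -(2 * Real.pi * (τ : ℂ).im / N) := by ring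
  rw [h2]
  exact Real.exp_lt_one_iff.mpr (by linarith)

theorem exists_qParam_eq (N : ℕ) (hN : 0 < N) (t : ℂ) (ht0 : t ≠ 0) (ht1 : ‖t‖ < 1) :
    ∃ τ : ℍ, qParam N (τ : ℂ) = t := by
  have hN' : (0 : ℝ) < N := by exact_mod_cast hN
  exact ⟨⟨invQParam N t, im_invQParam_pos_of_norm_lt_one hN' ht1 ht0⟩,
    qParam_right_inv hN'.ne' ht0⟩

/-- Two convergent Laurent series agreeing at all `t = exp(2πiτ/N)`, `τ ∈ ℍ`, are equal. -/
theorem eq_of_ev_qParam_eq (N : ℕ) (hN : 0 < N) {E₁ E₂ : LaurentSeries ℂ} (h₁ : Conv E₁)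
    (h₂ : Conv E₂) (h : ∀ τ : ℍ, ev E₁ (qParam N (τ : ℂ)) = ev E₂ (qParam N (τ : ℂ))) :
    E₁ = E₂ := by
  refine eq_of_ev_eq h₁ h₂ fun t ht0 ht1 => ?_
  obtain ⟨τ, rfl⟩ := exists_qParam_eq N hN t ht0 ht1
  exact h τ

theorem qParam_affine (N A D : ℕ) (B : ℤ) (hN : 0 < N) (hD : 0 < D) (hDN : D ∣ N) (τ : ℂ) :
    qParam 1 (((A : ℂ) * τ + B) / D) = (rootUnit B D : ℂ) * (qParam N τ) ^ (N / D * A) := by
  unfold qParam
  rw [rootUnit, Units.val_mk0, ← Complex.exp_nat_mul, ← Complex.exp_add]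
  congr 1
  obtain ⟨N', rfl⟩ := hDN
  rw [Nat.mul_div_cancel_left _ hD]
  have hD' : (D : ℂ) ≠ 0 := by exact_mod_cast hD.ne'
  have hN' : (N' : ℂ) ≠ 0 := by
    rcases Nat.eq_zero_or_pos N' with h | h
    · rw [h, mul_zero] at hN
      exact absurd hN (lt_irrefl 0)
    · exact_mod_cast h.ne'
  push_cast
  field_simp
  ring

theorem qParam_scale (N d : ℕ) (hN : 0 < N) (τ : ℂ) :
    qParam 1 ((d : ℂ) * τ) = (qParam N τ) ^ (N * d) := by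
  unfold qParam
  rw [← Complex.exp_nat_mul]
  congr 1
  have hN' : (N : ℂ) ≠ 0 := by exact_mod_cast hN.ne'
  push_cast
  field_simp


theorem qExpand_coeff_neg (m : ℕ) [NeZero m] (X : LaurentSeries ℂ) :
    (qExpand ℂ m X).coeff (-(m : ℤ)) = X.coeff (-1) := by
  have h : (-(m : ℤ)) = (m : ℤ) * (-1) := by ring
  rw [h, qExpand_coeff_mul]

theorem qExpand_coeff_of_lt (m : ℕ) [NeZero m] (X : LaurentSeries ℂ)
    (hX : ∀ k : ℤ, k < -1 → X.coeff k = 0) (k : ℤ) (hk : k < -(m : ℤ)) :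
    (qExpand ℂ m X).coeff k = 0 := by
  by_cases hdvd : (m : ℤ) ∣ k
  · obtain ⟨k', rfl⟩ := hdvd
    rw [qExpand_coeff_mul]
    apply hX
    have hm : (0 : ℤ) < m := by exact_mod_cast Nat.pos_of_ne_zero (NeZero.ne m)
    by_contra hcon
    have h1 : -1 ≤ k' := not_lt.mp hcon
    have h2 : (m : ℤ) * (-1) ≤ (m : ℤ) * k' := mul_le_mul_of_nonneg_left h1 hm.le
    linarith
  · exact qExpand_coeff_of_not_dvd m X hdvd

/-- Expansion of `J(d τ)` in `t = exp(2πiτ/N)`. -/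
theorem ev_qExpand_scale {J : ℍ → ℂ} (hexp : HasJExp J) (N d : ℕ) (hN : 0 < N) (hd : 0 < d)
    [NeZero (N * d)] (τ : ℍ) :
    ev (qExpand ℂ (N * d) jC) (qParam N (τ : ℂ)) = J (ofComplex ((d : ℂ) * τ)) := by
  rw [ev_qExpand, ← qParam_scale N d hN]
  have hpos := im_scale_pos d hd τ
  rw [ofComplex_apply_of_im_pos hpos]
  exact ev_jC hexp ⟨(d : ℂ) * τ, hpos⟩

/-- Expansion of `J(d (g τ))` in `t = exp(2πiτ/N)`, for `d ∣ N` and `g ∈ SL(2, ℤ)`: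
a convergent Laurent series whose lowest term has exponent `-(N / D * A)`, where
`A D = d` and `A ∣ g₁₀`. -/
theorem exists_expansion {J : ℍ → ℂ} (hinv : ∀ (γ : SL(2, ℤ)) (τ : ℍ), J (γ • τ) = J τ)
    (hexp : HasJExp J) (hsum : JSummable) (N : ℕ) (hN : 0 < N) (d : ℕ) (hd : d ∣ N)
    (g : SL(2, ℤ)) :
    ∃ (E : LaurentSeries ℂ) (A D : ℕ), Conv E ∧
      (∀ τ : ℍ, ev E (qParam N (τ : ℂ)) = J (ofComplex ((d : ℂ) * ((g • τ : ℍ) : ℂ)))) ∧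
      0 < A ∧ A * D = d ∧ (A : ℤ) ∣ g 1 0 ∧
      E.coeff (-((N / D * A : ℕ) : ℤ)) ≠ 0 ∧
      ∀ k : ℤ, k < -((N / D * A : ℕ) : ℤ) → E.coeff k = 0 := by
  have hd0 : 0 < d := Nat.pos_of_dvd_of_pos hd hN
  obtain ⟨γ, A, D, B, hA, hD, hAD, h00, h01, h10, h11⟩ := exists_hermite g d hd0
  have hDN : D ∣ N := (Dvd.intro_left A hAD).trans hd
  have hm : N / D * A ≠ 0 :=
    Nat.mul_ne_zero (Nat.div_pos (Nat.le_of_dvd hN hDN) hD).ne' hA.ne'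
  have : NeZero (N / D * A) := ⟨hm⟩
  have hconv : Conv (twist (rootUnit B D) jC) :=
    conv_twist _ (norm_rootUnit B D) (conv_jC hsum)
  refine ⟨qExpand ℂ (N / D * A) (twist (rootUnit B D) jC), A, D, conv_qExpand _ hconv,
    fun τ => ?_, hA, hAD, ⟨γ 1 0, by rw [h10, mul_comm]⟩, ?_, ?_⟩
  · rw [ev_qExpand, ev_twist, ← qParam_affine N A D B hN hD hDN,
      scale_smul_eq g γ d A D B hd0 hA hD h00 h01 h10 h11 τ, hinv]
    have hpos := im_affine_pos A D hA hD B τ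
    rw [ofComplex_apply_of_im_pos hpos]
    exact ev_jC hexp ⟨((A : ℂ) * τ + B) / D, hpos⟩
  · rw [qExpand_coeff_neg, twist_coeff, jC_coeff_neg_one, mul_one]
    exact Units.ne_zero _
  · intro k hk
    refine qExpand_coeff_of_lt _ _ (fun k' hk' => ?_) k hk
    rw [twist_coeff, jC_coeff_of_lt hk', mul_zero]

/-- **Coset separation (E5).** If `J(N (g τ)) = J(N τ)` for all `τ`, then `g ∈ Γ₀(N)`. -/
theorem mem_Gamma0_of_forall_eq {J : ℍ → ℂ} (hinv : ∀ (γ : SL(2, ℤ)) (τ : ℍ), J (γ • τ) = J τ)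
    (hexp : HasJExp J) (hsum : JSummable) (N : ℕ) (hN : 0 < N) (g : SL(2, ℤ))
    (h : ∀ τ : ℍ, J (ofComplex ((N : ℂ) * ((g • τ : ℍ) : ℂ))) = J (ofComplex ((N : ℂ) * τ))) :
    g ∈ CongruenceSubgroup.Gamma0 N := by
  obtain ⟨E, A, D, hE, hev, hA, hAD, hdvd, hcoef, hlow⟩ :=
    exists_expansion hinv hexp hsum N hN N dvd_rfl g
  have : NeZero (N * N) := ⟨Nat.mul_ne_zero hN.ne' hN.ne'⟩
  have hD : 0 < D := by
    rcases Nat.eq_zero_or_pos D with h0 | h0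
    · rw [h0, mul_zero] at hAD
      exact absurd hAD.symm hN.ne'
    · exact h0
  have hND : N / D = A := Nat.div_eq_of_eq_mul_left hD hAD.symm
  rw [hND] at hcoef hlow
  have hEE : E = qExpand ℂ (N * N) jC := by
    refine eq_of_ev_qParam_eq N hN hE (conv_qExpand _ (conv_jC hsum)) fun τ => ?_
    rw [hev, h, ev_qExpand_scale hexp N N hN hN]
  have h1 : (qExpand ℂ (N * N) jC).coeff (-((N * N : ℕ) : ℤ)) ≠ 0 := by
    rw [qExpand_coeff_neg, jC_coeff_neg_one]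
    exact one_ne_zero
  have h2 : ∀ k : ℤ, k < -((N * N : ℕ) : ℤ) → (qExpand ℂ (N * N) jC).coeff k = 0 :=
    qExpand_coeff_of_lt _ _ (fun k hk => jC_coeff_of_lt hk)
  rw [← hEE] at h1 h2
  have h3 : ¬ (-((A * A : ℕ) : ℤ) < -((N * N : ℕ) : ℤ)) := fun hlt => hcoef (h2 _ hlt)
  have h4 : ¬ (-((N * N : ℕ) : ℤ) < -((A * A : ℕ) : ℤ)) := fun hlt => h1 (hlow _ hlt)
  have h5 : A * A = N * N := by omega
  have h6 : A = N := Nat.mul_self_inj.mp h5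
  rw [CongruenceSubgroup.Gamma0_mem, ZMod.intCast_zmod_eq_zero_iff_dvd, ← h6]
  exact hdvd

/-- `Γ₀(N)`-invariance of `τ ↦ J(d τ)` for `d ∣ N`. -/
theorem scale_gamma0_invariant {J : ℍ → ℂ} (hinv : ∀ (γ : SL(2, ℤ)) (τ : ℍ), J (γ • τ) = J τ)
    (N d : ℕ) (hd0 : 0 < d) (hd : d ∣ N) (γ : SL(2, ℤ)) (hγ : γ ∈ CongruenceSubgroup.Gamma0 N)
    (τ : ℍ) :
    J (ofComplex ((d : ℂ) * ((γ • τ : ℍ) : ℂ))) = J (ofComplex ((d : ℂ) * (τ : ℂ))) := by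
  obtain ⟨γ', hγ'⟩ := exists_gamma0_conj N d hd0 hd γ hγ
  rw [hγ' τ, hinv]

end Fermat.Agent.S24.helper219
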