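import Mathlib
import Fermat.Agent.S24.helper24_Spec
import Fermat.Agent.S24.helper219_CuspHermite

set_option autoImplicit false

noncomputable section

namespace Fermat.Agent.S24.helper219

open scoped MatrixGroups
open ModularCurve UpperHalfPlane Function.Periodic
open Fermat.Agent.S24.helper24

/-- A ring hom out of a field of fractions, constructed from two ring homs with the same kernel
out of a ring surjecting onto a generating subring. -/
theorem exists_ringHom_lift {R F Ω : Type*} [CommRing R] [Field F] [Field Ω]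
    (φ0 : R →+* F) (φh : R →+* Ω) (hker : ∀ P, φ0 P = 0 ↔ φh P = 0)
    (hgen : ∀ x : F, ∃ P Q, x = φ0 P / φ0 Q) :
    ∃ Φ : F →+* Ω, ∀ P, Φ (φ0 P) = φh P := by
  let I : Ideal R := RingHom.ker φ0
  let ψ0 : R ⧸ I →+* F := RingHom.kerLift φ0
  have inj0 : Function.Injective ψ0 := RingHom.kerLift_injective φ0
  let ψh : R ⧸ I →+* Ω :=
    Ideal.Quotient.lift I φh (fun a ha => (hker a).mp (RingHom.mem_ker.mp ha))
  have injh : Function.Injective ψh := by
    rw [injective_iff_map_eq_zero]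
    intro x hx
    obtain ⟨P, rfl⟩ := Ideal.Quotient.mk_surjective x
    rw [Ideal.Quotient.lift_mk] at hx
    exact Ideal.Quotient.eq_zero_iff_mem.mpr (RingHom.mem_ker.mpr ((hker P).mpr hx))
  let _ : Algebra (R ⧸ I) F := ψ0.toAlgebra
  have : FaithfulSMul (R ⧸ I) F := (faithfulSMul_iff_algebraMap_injective (R ⧸ I) F).mpr inj0
  have : IsFractionRing (R ⧸ I) F := IsFractionRing.of_field (R ⧸ I) F (fun z => by
    obtain ⟨P, Q, h⟩ := hgen z
    exact ⟨Ideal.Quotient.mk I P, Ideal.Quotient.mk I Q, h⟩)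
  refine ⟨IsFractionRing.lift injh, fun P => ?_⟩
  have h1 : φ0 P = algebraMap (R ⧸ I) F (Ideal.Quotient.mk I P) := rfl
  rw [h1, IsFractionRing.lift_algebraMap]
  rfl


section Unwrap

variable (N : ℕ) [NeZero N]

/-- Index type of the generators `j(q^d)`, `d ∣ N`. -/
abbrev DivIdx (N : ℕ) : Type := {d : ℕ // d ∣ N}

theorem DivIdx.ne_zero {N : ℕ} [NeZero N] (d : DivIdx N) : d.1 ≠ 0 :=
  ne_zero_of_dvd_ne_zero (NeZero.ne N) d.2

theorem DivIdx.pos {N : ℕ} [NeZero N] (d : DivIdx N) : 0 < d.1 :=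
  Nat.pos_of_ne_zero d.ne_zero

/-- The generators `j(q^d)` of the function field. -/
def gen (d : DivIdx N) : FN N :=
  haveI : NeZero d.1 := ⟨d.ne_zero⟩
  jBarD N d.1 d.2

/-- Evaluation of polynomials at the generators. -/
def phi0 : MvPolynomial (DivIdx N) Kbar →+* FN N := (MvPolynomial.aeval (gen N)).toRingHom

theorem phi0_C (a : Kbar) : phi0 N (MvPolynomial.C a) = algebraMap Kbar (FN N) a := by
  show MvPolynomial.aeval (gen N) (MvPolynomial.C a) = _
  rw [MvPolynomial.aeval_C]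

theorem phi0_X (d : DivIdx N) : phi0 N (MvPolynomial.X d) = gen N d := by
  show MvPolynomial.aeval (gen N) (MvPolynomial.X d) = _
  rw [MvPolynomial.aeval_X]

theorem coeffEmb_mem_adjoin_gens {y : LaurentSeries ℚ} (hy : y ∈ modularFunctionFieldFull N) :
    coeffEmb Kbar y ∈ IntermediateField.adjoin Kbar
      (Set.range fun d : DivIdx N => ((gen N d : FN N) : LaurentSeries Kbar)) := by
  have hy' : y ∈ Subfield.closure
      (Set.range (algebraMap ℚ (LaurentSeries ℚ)) ∪ divisorExpansions N) := hy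
  clear hy
  induction hy' using Subfield.closure_induction with
  | mem z hz =>
      rcases hz with ⟨c, rfl⟩ | ⟨d, hne, hdvd, rfl⟩
      · rw [algebraMap_apply_eq_single]
        show coeffMap (algebraMap ℚ Kbar) (HahnSeries.single 0 c) ∈ _
        rw [coeffMap_single, ← algebraMap_laurentSeries_eq_single]
        exact IntermediateField.algebraMap_mem _ _
      · exact IntermediateField.subset_adjoin Kbar _ ⟨⟨d, hdvd⟩, rfl⟩
  | one => simp
  | add x y _ _ hx hy => simpa using add_mem hx hy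
  | neg x _ hx => simpa using neg_mem hx
  | inv x _ hx => simpa using inv_mem hx
  | mul x y _ _ hx hy => simpa using mul_mem hx hy

theorem bar_le_adjoin_gens : modularFunctionFieldBar N ≤ IntermediateField.adjoin Kbar
    (Set.range fun d : DivIdx N => ((gen N d : FN N) : LaurentSeries Kbar)) := by
  unfold modularFunctionFieldBar laurentBaseChange
  rw [IntermediateField.adjoin_le_iff]
  rintro _ ⟨y, hy, rfl⟩
  exact coeffEmb_mem_adjoin_gens N hy

theorem coe_phi0 (P : MvPolynomial (DivIdx N) Kbar) :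
    ((phi0 N P : FN N) : LaurentSeries Kbar)
      = MvPolynomial.aeval (fun d : DivIdx N => ((gen N d : FN N) : LaurentSeries Kbar)) P := by
  have h := MvPolynomial.comp_aeval (R := Kbar) (gen N) (modularFunctionFieldBar N).val
  exact congrArg (fun f => f P) h

/-- Every element of the function field is a quotient of polynomials in the `j(q^d)`. -/
theorem exists_phi0_div (x : FN N) : ∃ P Q, x = phi0 N P / phi0 N Q := by
  have hx := bar_le_adjoin_gens N x.2
  rw [IntermediateField.mem_adjoin_iff_div] at hx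
  obtain ⟨r, hr, s, hs, hxrs⟩ := hx
  rw [Algebra.adjoin_range_eq_range_aeval] at hr hs
  obtain ⟨P, rfl⟩ := hr
  obtain ⟨Q, rfl⟩ := hs
  refine ⟨P, Q, Subtype.ext ?_⟩
  rw [IntermediateField.coe_div, coe_phi0, coe_phi0]
  exact hxrs

end Unwrap


section Poly

variable (N : ℕ) (i0 : Kbar →+* ℂ)

/-- Constants, as convergent Laurent series. -/
def constHom : Kbar →+* convSubring :=
  ((HahnSeries.C : ℂ →+* LaurentSeries ℂ).comp i0).codRestrict convSubring
    (fun a => conv_C (i0 a))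

theorem constHom_coe (a : Kbar) :
    ((constHom i0 a : convSubring) : LaurentSeries ℂ) = HahnSeries.C (i0 a) := rfl

/-- Polynomials in the generators, expanded. -/
def polyExp (G : DivIdx N → convSubring) : MvPolynomial (DivIdx N) Kbar →+* convSubring :=
  MvPolynomial.eval₂Hom (constHom i0) G

/-- Polynomials in the generators, evaluated. -/
def polyVal (v : DivIdx N → ℂ) : MvPolynomial (DivIdx N) Kbar →+* ℂ :=
  MvPolynomial.eval₂Hom i0 v

theorem polyExp_C (G : DivIdx N → convSubring) (a : Kbar) :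
    polyExp N i0 G (MvPolynomial.C a) = constHom i0 a :=
  MvPolynomial.eval₂Hom_C _ _ _

theorem polyExp_X (G : DivIdx N → convSubring) (d : DivIdx N) :
    polyExp N i0 G (MvPolynomial.X d) = G d :=
  MvPolynomial.eval₂Hom_X' _ _ _

theorem ev_polyExp (G : DivIdx N → convSubring) (v : DivIdx N → ℂ) (t : ℂ) (ht0 : t ≠ 0)
    (ht1 : ‖t‖ < 1) (hG : ∀ d, ev (G d).1 t = v d) (P : MvPolynomial (DivIdx N) Kbar) :
    ev (polyExp N i0 G P).1 t = polyVal N i0 v P := by
  have h : (evHom t ht0 ht1).comp (polyExp N i0 G) = polyVal N i0 v := by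
    apply MvPolynomial.ringHom_ext
    · intro a
      rw [RingHom.comp_apply, polyExp_C, evHom_apply, constHom_coe, ev_C]
      exact (MvPolynomial.eval₂Hom_C _ _ _).symm
    · intro d
      rw [RingHom.comp_apply, polyExp_X, evHom_apply, hG d]
      exact (MvPolynomial.eval₂Hom_X' _ _ _).symm
  exact congrArg (fun f => f P) h


variable [NeZero N] (J : ℍ → ℂ)

/-- The analytic input on `J`: invariance, the `q`-expansion (C1a) and its absolute
convergence (C1b). -/
def JData (J : ℍ → ℂ) : Prop :=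
  (∀ (γ : SL(2, ℤ)) (τ : ℍ), J (γ • τ) = J τ) ∧ HasJExp J ∧ JSummable

/-- The value of the `d`-th conjugate generator at `τ`, namely `J(d (h τ))`. -/
def valAt (h : SL(2, ℤ)) (τ : ℍ) (d : DivIdx N) : ℂ :=
  J (ofComplex ((d.1 : ℂ) * ((h • τ : ℍ) : ℂ)))

omit [NeZero N] in
theorem valAt_eq_one (h : SL(2, ℤ)) (τ : ℍ) : valAt N J h τ = valAt N J 1 (h • τ) := by
  funext d
  simp only [valAt, one_smul]

omit [NeZero N] in
theorem valAt_mul (h g : SL(2, ℤ)) (τ : ℍ) : valAt N J (h * g) τ = valAt N J h (g • τ) := by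
  funext d
  simp only [valAt, mul_smul]

theorem npos : 0 < N := Nat.pos_of_ne_zero (NeZero.ne N)

theorem exists_genExp (hJ : JData J) (h : SL(2, ℤ)) (d : DivIdx N) :
    ∃ E : convSubring, ∀ τ : ℍ, ev E.1 (qParam N (τ : ℂ)) = valAt N J h τ d := by
  obtain ⟨E, A, D, hE, hev, -⟩ :=
    exists_expansion hJ.1 hJ.2.1 hJ.2.2 N (npos N) d.1 d.2 h
  exact ⟨⟨E, hE⟩, hev⟩

/-- The expansion of the `d`-th conjugate generator `J(d (h τ))` in `t = exp(2πiτ/N)`. -/
def genExp (hJ : JData J) (h : SL(2, ℤ)) (d : DivIdx N) : convSubring :=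
  Classical.choose (exists_genExp N J hJ h d)

theorem ev_genExp (hJ : JData J) (h : SL(2, ℤ)) (d : DivIdx N) (τ : ℍ) :
    ev (genExp N J hJ h d).1 (qParam N (τ : ℂ)) = valAt N J h τ d :=
  Classical.choose_spec (exists_genExp N J hJ h d) τ

/-- Expansion at the cusp of the conjugate by `h` of a polynomial in the generators. -/
def expHom (hJ : JData J) (h : SL(2, ℤ)) : MvPolynomial (DivIdx N) Kbar →+* convSubring :=
  polyExp N i0 (genExp N J hJ h)

theorem ev_expHom (hJ : JData J) (h : SL(2, ℤ)) (τ : ℍ) (P : MvPolynomial (DivIdx N) Kbar) :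
    ev (expHom N i0 J hJ h P).1 (qParam N (τ : ℂ)) = polyVal N i0 (valAt N J h τ) P :=
  ev_polyExp N i0 _ _ _ (qParam_ne_zero' _ _) (norm_qParam_lt_one' N (npos N) τ)
    (fun d => ev_genExp N J hJ h d τ) P

theorem coeffMap_qExpand_eq {R S : Type*} [CommRing R] [CommRing S] (f : R →+* S) (n : ℕ)
    [NeZero n] (x : LaurentSeries R) :
    coeffMap f (qExpand R n x) = qExpand S n (coeffMap f x) := by
  ext k
  by_cases hk : (n : ℤ) ∣ k
  · obtain ⟨m, rfl⟩ := hk
    rw [coeffMap_coeff, qExpand_coeff_mul, qExpand_coeff_mul, coeffMap_coeff]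
  · rw [coeffMap_coeff, qExpand_coeff_of_not_dvd n _ hk, qExpand_coeff_of_not_dvd n _ hk,
      map_zero]

omit [NeZero N] in
theorem coeffMap_jSeries (d : ℕ) [NeZero d] :
    coeffMap i0 (jSeries d) = qExpand ℂ d jC := by
  unfold jSeries coeffEmb jC
  rw [coeffMap_coeffMap, coeffMap_qExpand_eq]
  congr 1
  exact coeffMap_congr (Subsingleton.elim _ _) jq

theorem coeffMap_gen (d : DivIdx N) :
    coeffMap i0 ((gen N d : FN N) : LaurentSeries Kbar)
      = @qExpand ℂ _ d.1 ⟨d.ne_zero⟩ jC :=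
  @coeffMap_jSeries i0 d.1 ⟨d.ne_zero⟩

omit [NeZero N] in
theorem coeffMap_injective : Function.Injective (coeffMap i0 : LaurentSeries Kbar → _) := by
  intro x y hxy
  ext k
  have h := congrArg (fun z : LaurentSeries ℂ => z.coeff k) hxy
  simp only [coeffMap_coeff] at h
  exact i0.injective h

/-- The expansion at the cusp `∞` itself (in `t = q^(1/N)`) of an element of the function
field. -/
def baseExp (x : FN N) : LaurentSeries ℂ := qExpand ℂ N (coeffMap i0 (x : LaurentSeries Kbar))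

/-- The generators of the base expansion. -/
def baseGen (hJ : JData J) (d : DivIdx N) : convSubring :=
  ⟨baseExp N i0 (gen N d), by
    unfold baseExp
    rw [coeffMap_gen]
    exact conv_qExpand _ (@conv_qExpand d.1 ⟨d.ne_zero⟩ _ (conv_jC hJ.2.2))⟩

theorem ev_baseGen (hJ : JData J) (d : DivIdx N) (τ : ℍ) :
    ev (baseGen N i0 J hJ d).1 (qParam N (τ : ℂ)) = valAt N J 1 τ d := by
  have : NeZero d.1 := ⟨d.ne_zero⟩
  have : NeZero (N * d.1) := ⟨Nat.mul_ne_zero (NeZero.ne N) d.ne_zero⟩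
  show ev (baseExp N i0 (gen N d)) _ = _
  unfold baseExp valAt
  rw [coeffMap_gen, qExpand_qExpand, ev_qExpand_scale hJ.2.1 N d.1 (npos N) d.pos, one_smul]

theorem baseExp_phi0 (hJ : JData J) (P : MvPolynomial (DivIdx N) Kbar) :
    baseExp N i0 (phi0 N P) = (polyExp N i0 (baseGen N i0 J hJ) P).1 := by
  have h : ((qExpand ℂ N).comp ((coeffMap i0).comp
        ((modularFunctionFieldBar N).val.toRingHom.comp (phi0 N))))
      = convSubring.subtype.comp (polyExp N i0 (baseGen N i0 J hJ)) := by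
    apply MvPolynomial.ringHom_ext
    · intro a
      simp only [RingHom.comp_apply]
      rw [phi0_C, polyExp_C]
      show qExpand ℂ N (coeffMap i0 (algebraMap Kbar (LaurentSeries Kbar) a)) = HahnSeries.C (i0 a)
      rw [algebraMap_laurentSeries_eq_single, coeffMap_single, qExpand_single, mul_zero]
      rfl
    · intro d
      simp only [RingHom.comp_apply]
      rw [phi0_X, polyExp_X]
      rfl
  exact congrArg (fun f => f P) h

theorem conv_baseExp_phi0 (hJ : JData J) (P : MvPolynomial (DivIdx N) Kbar) :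
    Conv (baseExp N i0 (phi0 N P)) := by
  rw [baseExp_phi0 N i0 J hJ]
  exact (polyExp N i0 (baseGen N i0 J hJ) P).2

theorem ev_baseExp_phi0 (hJ : JData J) (P : MvPolynomial (DivIdx N) Kbar) (τ : ℍ) :
    ev (baseExp N i0 (phi0 N P)) (qParam N (τ : ℂ)) = polyVal N i0 (valAt N J 1 τ) P := by
  rw [baseExp_phi0 N i0 J hJ]
  exact ev_polyExp N i0 _ _ _ (qParam_ne_zero' _ _) (norm_qParam_lt_one' N (npos N) τ)
    (fun d => ev_baseGen N i0 J hJ d τ) P

/-- **Kernel comparison.** A polynomial relation among the `j(q^d)` holds formally iff it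
holds for the expansions at the cusp of the conjugates by `h`. -/
theorem expHom_eq_zero_iff (hJ : JData J) (h : SL(2, ℤ)) (P : MvPolynomial (DivIdx N) Kbar) :
    phi0 N P = 0 ↔ expHom N i0 J hJ h P = 0 := by
  constructor
  · intro h0
    apply Subtype.ext
    refine eq_of_ev_qParam_eq N (npos N) (expHom N i0 J hJ h P).2 conv_zero fun τ => ?_
    rw [ev_expHom, valAt_eq_one, ← ev_baseExp_phi0 N i0 J hJ, h0]
    show ev (qExpand ℂ N (coeffMap i0 ((0 : FN N) : LaurentSeries Kbar))) _ = ev 0 _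
    rw [ZeroMemClass.coe_zero, map_zero, map_zero, ev_zero, ev_zero]
  · intro h0
    have h1 : baseExp N i0 (phi0 N P) = 0 := by
      refine eq_of_ev_qParam_eq N (npos N) (conv_baseExp_phi0 N i0 J hJ P) conv_zero fun τ => ?_
      have h2 := ev_expHom N i0 J hJ h (h⁻¹ • τ) P
      rw [valAt_eq_one, smul_inv_smul, h0] at h2
      rw [ev_baseExp_phi0 N i0 J hJ, ← h2]
      show ev 0 _ = ev 0 _
      rw [ev_zero, ev_zero]
    unfold baseExp at h1
    have h3 : coeffMap i0 ((phi0 N P : FN N) : LaurentSeries Kbar) = 0 :=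
      qExpand_injective N (by rw [h1, map_zero])
    have h4 : ((phi0 N P : FN N) : LaurentSeries Kbar) = 0 :=
      coeffMap_injective i0 (by rw [h3, map_zero])
    exact Subtype.ext h4


theorem exists_cuspHom (hJ : JData J) (h : SL(2, ℤ)) :
    ∃ Φ : FN N →+* LaurentSeries ℂ, ∀ P, Φ (phi0 N P) = (expHom N i0 J hJ h P).1 :=
  exists_ringHom_lift (phi0 N) (convSubring.subtype.comp (expHom N i0 J hJ h))
    (fun P => by
      rw [expHom_eq_zero_iff N i0 J hJ h P, RingHom.comp_apply]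
      constructor
      · intro h0
        rw [h0, map_zero]
      · intro h0
        exact Subtype.ext h0)
    (exists_phi0_div N)

/-- The embedding of the function field into `ℂ((t))`, `t = q^(1/N)`, given by expanding at
the cusp the conjugate by `h ∈ SL(2, ℤ)`. -/
def cuspHom (hJ : JData J) (h : SL(2, ℤ)) : FN N →+* LaurentSeries ℂ :=
  Classical.choose (exists_cuspHom N i0 J hJ h)

theorem cuspHom_phi0 (hJ : JData J) (h : SL(2, ℤ)) (P : MvPolynomial (DivIdx N) Kbar) :
    cuspHom N i0 J hJ h (phi0 N P) = (expHom N i0 J hJ h P).1 :=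
  Classical.choose_spec (exists_cuspHom N i0 J hJ h) P

theorem cuspHom_algebraMap (hJ : JData J) (h : SL(2, ℤ)) (a : Kbar) :
    cuspHom N i0 J hJ h (algebraMap Kbar (FN N) a) = HahnSeries.C (i0 a) := by
  rw [← phi0_C, cuspHom_phi0]
  show ((polyExp N i0 (genExp N J hJ h) (MvPolynomial.C a) : convSubring) : LaurentSeries ℂ) = _
  rw [polyExp_C, constHom_coe]

theorem cuspHom_gen (hJ : JData J) (h : SL(2, ℤ)) (d : DivIdx N) :
    cuspHom N i0 J hJ h (gen N d) = (genExp N J hJ h d).1 := by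
  rw [← phi0_X, cuspHom_phi0]
  show ((polyExp N i0 (genExp N J hJ h) (MvPolynomial.X d) : convSubring) : LaurentSeries ℂ) = _
  rw [polyExp_X]

/-- Two conjugates with the same values have the same expansions. -/
theorem cuspHom_eq_of_valAt_eq (hJ : JData J) (h h' : SL(2, ℤ))
    (hv : ∀ τ : ℍ, valAt N J h τ = valAt N J h' τ) :
    cuspHom N i0 J hJ h = cuspHom N i0 J hJ h' := by
  have key : ∀ P : MvPolynomial (DivIdx N) Kbar,
      (expHom N i0 J hJ h P).1 = (expHom N i0 J hJ h' P).1 := fun P =>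
    eq_of_ev_qParam_eq N (npos N) (expHom N i0 J hJ h P).2 (expHom N i0 J hJ h' P).2
      fun τ => by rw [ev_expHom, ev_expHom, hv τ]
  refine RingHom.ext fun x => ?_
  obtain ⟨P, Q, rfl⟩ := exists_phi0_div N x
  rw [map_div₀, map_div₀, cuspHom_phi0, cuspHom_phi0, cuspHom_phi0, cuspHom_phi0, key P, key Q]

/-- Invariance under left multiplication by `Γ₀(N)`. -/
theorem cuspHom_gamma0_mul (hJ : JData J) (h γ : SL(2, ℤ))
    (hγ : γ ∈ CongruenceSubgroup.Gamma0 N) :
    cuspHom N i0 J hJ (γ * h) = cuspHom N i0 J hJ h := by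
  refine cuspHom_eq_of_valAt_eq N i0 J hJ _ _ fun τ => ?_
  funext d
  unfold valAt
  rw [mul_smul]
  exact scale_gamma0_invariant hJ.1 N d.1 d.pos d.2 γ hγ (h • τ)

/-- Coset separation: equal expansions force equal `Γ₀(N)`-cosets. -/
theorem mul_inv_mem_Gamma0_of_cuspHom_eq (hJ : JData J) (h h' : SL(2, ℤ))
    (heq : cuspHom N i0 J hJ h = cuspHom N i0 J hJ h') :
    h * h'⁻¹ ∈ CongruenceSubgroup.Gamma0 N := by
  have h1 : (genExp N J hJ h ⟨N, dvd_rfl⟩).1 = (genExp N J hJ h' ⟨N, dvd_rfl⟩).1 := by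
    rw [← cuspHom_gen N i0, ← cuspHom_gen N i0, heq]
  have h2 : ∀ τ : ℍ, valAt N J h τ ⟨N, dvd_rfl⟩ = valAt N J h' τ ⟨N, dvd_rfl⟩ := fun τ => by
    rw [← ev_genExp N J hJ h, ← ev_genExp N J hJ h', h1]
  refine mem_Gamma0_of_forall_eq hJ.1 hJ.2.1 hJ.2.2 N (npos N) _ fun τ => ?_
  have h3 := h2 (h'⁻¹ • τ)
  unfold valAt at h3
  rw [smul_inv_smul] at h3
  rw [mul_smul]
  exact h3

omit [NeZero N] in
theorem qParam_T_smul (τ : ℍ) :
    qParam N ((ModularGroup.T • τ : ℍ) : ℂ) = (rootUnit 1 N : ℂ) * qParam N (τ : ℂ) := by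
  rw [UpperHalfPlane.modular_T_smul, UpperHalfPlane.coe_vadd]
  unfold qParam rootUnit
  rw [Units.val_mk0, ← Complex.exp_add]
  congr 1
  push_cast
  ring

/-- Right multiplication by `T` twists the expansion by `ζ_N = exp(2πi/N)`. -/
theorem cuspHom_mul_T (hJ : JData J) (h : SL(2, ℤ)) (x : FN N) :
    cuspHom N i0 J hJ (h * ModularGroup.T) x = twist (rootUnit 1 N) (cuspHom N i0 J hJ h x) := by
  have key : ∀ P : MvPolynomial (DivIdx N) Kbar,
      (expHom N i0 J hJ (h * ModularGroup.T) P).1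
        = twist (rootUnit 1 N) (expHom N i0 J hJ h P).1 := fun P =>
    eq_of_ev_qParam_eq N (npos N) (expHom N i0 J hJ (h * ModularGroup.T) P).2
      (conv_twist _ (norm_rootUnit 1 N) (expHom N i0 J hJ h P).2) fun τ => by
        rw [ev_twist, ← qParam_T_smul, ev_expHom, ev_expHom, valAt_mul]
  obtain ⟨P, Q, rfl⟩ := exists_phi0_div N x
  rw [map_div₀, map_div₀, map_div₀, cuspHom_phi0, cuspHom_phi0, cuspHom_phi0, cuspHom_phi0,
    key P, key Q]

/-- All the conjugates send `j` to the same series `j(t^N)`. -/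
theorem cuspHom_jBar (hJ : JData J) (h : SL(2, ℤ)) :
    cuspHom N i0 J hJ h (jBar N) = qExpand ℂ N jC := by
  have h1 : jBar N = gen N ⟨1, one_dvd N⟩ := rfl
  rw [h1, cuspHom_gen]
  have hN1 : NeZero (N * 1) := ⟨Nat.mul_ne_zero (NeZero.ne N) one_ne_zero⟩
  refine eq_of_ev_qParam_eq N (npos N) (genExp N J hJ h ⟨1, one_dvd N⟩).2
    (conv_qExpand _ (conv_jC hJ.2.2)) fun τ => ?_
  rw [ev_genExp]
  have h2 := ev_qExpand_scale hJ.2.1 N 1 (npos N) Nat.one_pos τ
  rw [qExpand_congr (mul_one N) jC] at h2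
  rw [h2]
  unfold valAt
  simp only [Nat.cast_one, one_mul, UpperHalfPlane.ofComplex_apply]
  exact hJ.1 h τ

end Poly


section Datum

variable (N : ℕ) [NeZero N] (J : ℍ → ℂ)

theorem exists_kbar_embedding : Nonempty (Kbar →+* ℂ) := by
  let _ : Algebra ℚ (AlgebraicClosure ℚ) := AlgebraicClosure.instAlgebra ℚ
  have : Algebra.IsAlgebraic ℚ (AlgebraicClosure ℚ) := AlgebraicClosure.isAlgebraic ℚ
  exact ⟨(IsAlgClosed.lift (R := ℚ) (S := AlgebraicClosure ℚ) (M := ℂ)).toRingHom⟩

theorem isPrimitiveRoot_rootUnit : IsPrimitiveRoot (rootUnit 1 N) N := by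
  rw [← IsPrimitiveRoot.coe_units_iff]
  have h : ((rootUnit 1 N : ℂˣ) : ℂ) = Complex.exp (2 * Real.pi * Complex.I / N) := by
    rw [rootUnit, Units.val_mk0]
    congr 1
    push_cast
    ring
  rw [h]
  exact Complex.isPrimitiveRoot_exp N (NeZero.ne N)

theorem orderTop_qExpand_jC : (qExpand ℂ N jC).orderTop = ((-(N : ℤ) : ℤ) : WithTop ℤ) := by
  refine HahnSeries.orderTop_eq_of_le ?_ ?_
  · rw [HahnSeries.mem_support, qExpand_coeff_neg, jC_coeff_neg_one]
    exact one_ne_zero
  · intro k hk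
    by_contra hlt
    rw [HahnSeries.mem_support] at hk
    exact hk (qExpand_coeff_of_lt N jC (fun k' hk' => jC_coeff_of_lt hk') k (not_le.mp hlt))

theorem qExpand_jC_ne_zero : qExpand ℂ N jC ≠ 0 := by
  intro h
  have h1 := orderTop_qExpand_jC N
  rw [h, HahnSeries.orderTop_zero] at h1
  exact WithTop.top_ne_coe h1

theorem addVal_inv_qExpand_jC :
    HahnSeries.addVal ℤ ℂ (qExpand ℂ N jC)⁻¹ = (((N : ℕ) : ℤ) : WithTop ℤ) := by
  have hX := qExpand_jC_ne_zero N
  have hξ : (qExpand ℂ N jC)⁻¹ ≠ 0 := inv_ne_zero hX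
  have h1 : HahnSeries.addVal ℤ ℂ ((qExpand ℂ N jC)⁻¹ * qExpand ℂ N jC) = 0 := by
    rw [inv_mul_cancel₀ hX, AddValuation.map_one]
  rw [AddValuation.map_mul, HahnSeries.addVal_apply_of_ne hξ, HahnSeries.addVal_apply, orderTop_qExpand_jC,
    ← WithTop.coe_add, WithTop.coe_eq_zero] at h1
  rw [HahnSeries.addVal_apply_of_ne hξ, WithTop.coe_inj]
  omega

/-- **The local datum at the cusp** (`Stmt_LocalInf` of the specification, for one level), from
the analytic input `JData`. -/
theorem localDatum_inf (i0 : Kbar →+* ℂ) (hJ : JData J) :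
    LocalDatum N (jBar N)⁻¹ N ModularGroup.T := by
  let alg : Algebra Kbar (LaurentSeries ℂ) :=
    ((HahnSeries.C : ℂ →+* LaurentSeries ℂ).comp i0).toAlgebra
  let Φ : SL(2, ℤ) → (FN N →ₐ[Kbar] LaurentSeries ℂ) := fun h =>
    { toRingHom := cuspHom N i0 J hJ h
      commutes' := fun a => cuspHom_algebraMap N i0 J hJ h a }
  have hΦ : ∀ h x, Φ h x = cuspHom N i0 J hJ h x := fun _ _ => rfl
  let ι : XN N → (FN N →ₐ[Kbar] LaurentSeries ℂ) := fun x => Φ (x.out)⁻¹
  have hι : ∀ x f, ι x f = cuspHom N i0 J hJ (x.out)⁻¹ f := fun _ _ => rfl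
  let σ : LaurentSeries ℂ ≃ₐ[Kbar] LaurentSeries ℂ :=
    { (twist (rootUnit 1 N)) with commutes' := fun a => twist_C (rootUnit 1 N) (i0 a) }
  have hσ : ∀ z, σ z = twist (rootUnit 1 N) z := fun _ => rfl
  have hpow : ∀ (k : ℕ) (z : LaurentSeries ℂ), (σ ^ k) z = twist (rootUnit 1 N ^ k) z := by
    intro k
    induction k with
    | zero =>
      intro z
      ext n
      simp [twist_coeff]
    | succ k ih =>
      intro z
      rw [pow_succ, AlgEquiv.mul_apply, ih, hσ]
      ext n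
      rw [twist_coeff, twist_coeff, twist_coeff, ← mul_assoc, ← Units.val_mul, ← mul_zpow,
        ← pow_succ]
  refine ⟨LaurentSeries ℂ, inferInstance, alg, HahnSeries.addVal ℤ ℂ, ι, σ, (qExpand ℂ N jC)⁻¹,
    ?_, ?_, ?_, npos N, addVal_inv_qExpand_jC N, ?_, Or.inr ?_, ?_⟩
  · intro a ha
    show HahnSeries.addVal ℤ ℂ (HahnSeries.C (i0 a)) = 0
    rw [HahnSeries.addVal_apply]
    exact HahnSeries.orderTop_single ((map_ne_zero i0).mpr ha)
  · intro x y hxy
    have h1 : cuspHom N i0 J hJ (x.out)⁻¹ = cuspHom N i0 J hJ (y.out)⁻¹ :=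
      RingHom.ext fun f => by rw [← hι, ← hι, hxy]
    have h2 := mul_inv_mem_Gamma0_of_cuspHom_eq N i0 J hJ _ _ h1
    rw [inv_inv] at h2
    rw [← QuotientGroup.out_eq' x, ← QuotientGroup.out_eq' y]
    exact QuotientGroup.eq.mpr h2
  · intro i
    rw [map_inv₀, hι, cuspHom_jBar]
  · intro z
    rw [hσ, HahnSeries.addVal_apply, HahnSeries.addVal_apply, twist_orderTop]
  · intro i f
    rw [hσ, hι, hι, ← cuspHom_mul_T]
    have h1 : (QuotientGroup.mk (ModularGroup.T⁻¹ * i.out) : XN N)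
        = QuotientGroup.mk ((ModularGroup.T⁻¹ • i).out) := by
      rw [QuotientGroup.out_eq']
      conv_rhs => rw [← QuotientGroup.out_eq' i]
      rfl
    have h2 := QuotientGroup.eq.mp h1
    have h3 : ((ModularGroup.T⁻¹ • i).out)⁻¹
        = ((ModularGroup.T⁻¹ * i.out)⁻¹ * (ModularGroup.T⁻¹ • i).out)⁻¹
          * ((i.out)⁻¹ * ModularGroup.T) := by
      group
    rw [h3, cuspHom_gamma0_mul N i0 J hJ _ _ (inv_mem h2)]
  · intro k z hz hfix
    rw [hpow] at hfix
    obtain ⟨l, hl⟩ := twist_fixed_dvd (rootUnit 1 N) N (npos N) (isPrimitiveRoot_rootUnit N) k z hz hfix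
    exact ⟨l, by rw [HahnSeries.addVal_apply_of_ne hz, hl]⟩

/-- **`Stmt_LocalInf`** of `helper24_Spec`, from the three C1 statements about
`jFun = E₄³/Δ` (its `q`-expansion is the formal `jq`, absolute convergence, and
`SL(2, ℤ)`-invariance). -/
theorem stmt_LocalInf_of_C1 (hC1a : HasJExp jFun) (hC1b : JSummable)
    (hC1c : ∀ (γ : SL(2, ℤ)) (τ : ℍ), jFun (γ • τ) = jFun τ) : Stmt_LocalInf := by
  intro N _
  obtain ⟨i0⟩ := exists_kbar_embedding
  exact localDatum_inf N jFun i0 ⟨hC1c, hC1a, hC1b⟩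

end Datum

end Fermat.Agent.S24.helper219
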