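import Fermat.Agent.S24.helper219_CuspDatum
import Fermat.Agent.S24.helper1644_AnalyticJ

/-!
# `Stmt_LocalInf` (helper219)

The local datum at the cusp of `helper24_Spec`, with no hypotheses: `stmt_LocalInf_of_C1`
(helper219_CuspDatum) applied to the three C1 statements of helper1644_AnalyticJ.
-/

set_option autoImplicit false

namespace Fermat.Agent.S24.helper219

/-- **`Stmt_LocalInf`**: the local datum at the cusp (`y = 1/j`, width `N`, stabiliser
generated by `T`). -/
theorem stmt_LocalInf : Fermat.Agent.S24.helper24.Stmt_LocalInf :=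
  stmt_LocalInf_of_C1 (fun τ => Fermat.Agent.S24.helper1644.hasSum_jNumQ τ)
    (fun _ hr0 hr => Fermat.Agent.S24.helper1644.summable_norm_jNumQ hr0 hr)
    (fun γ τ => Fermat.Agent.S24.helper1644.jFun_smul γ τ)

end Fermat.Agent.S24.helper219
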