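/-
helper222 — S24 MODULE G (backup): Ree/Scott inequality and sign parity for two generators of a
transitive finite permutation action.

Main result (`exists_genus_of_two_generators`): if a group `G = ⟨a, b⟩` acts transitively on a
finite nonempty set `X`, then there is a natural number `g` with
`card X + 2 = 2 g + #orbits⟨a⟩ + #orbits⟨b⟩ + #orbits⟨a b⟩`.
-/
import Mathlib

set_option autoImplicit false

namespace Fermat.Agent.S24.helper222

open MulAction

/-! ### Part P: parity via the sign of a permutation -/

section Parity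

variable {X : Type*} [Fintype X] [DecidableEq X]

/-- Classifying map for the cycles of a permutation: a fixed point goes to itself, a moved point
goes to the cycle containing it. -/
noncomputable def cycleClass (σ : Equiv.Perm X) (x : X) : Equiv.Perm X ⊕ X :=
  if σ x = x then Sum.inr x else Sum.inl (σ.cycleOf x)

theorem cycleClass_eq_iff (σ : Equiv.Perm X) (x y : X) :
    cycleClass σ x = cycleClass σ y ↔ σ.SameCycle x y := by
  unfold cycleClass
  constructor
  · intro h
    by_cases hx : σ x = x <;> by_cases hy : σ y = y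
    · rw [if_pos hx, if_pos hy] at h
      have h' := Sum.inr.inj h
      subst h'
      exact Equiv.Perm.SameCycle.refl _ _
    · rw [if_pos hx, if_neg hy] at h
      exact absurd h (by simp)
    · rw [if_neg hx, if_pos hy] at h
      exact absurd h (by simp)
    · rw [if_neg hx, if_neg hy] at h
      have h' := Sum.inl.inj h
      have hxs : x ∈ (σ.cycleOf x).support := by
        rw [Equiv.Perm.mem_support_cycleOf_iff]
        exact ⟨Equiv.Perm.SameCycle.refl _ _, Equiv.Perm.mem_support.mpr hx⟩
      rw [h', Equiv.Perm.mem_support_cycleOf_iff] at hxs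
      exact hxs.1.symm
  · intro h
    by_cases hx : σ x = x
    · have hyx : y = x := by
        obtain ⟨i, hi⟩ := h
        rw [← hi]
        exact Equiv.Perm.zpow_apply_eq_self_of_apply_eq_self hx i
      subst hyx
      rfl
    · have hy : σ y ≠ y := by
        intro hy
        apply hx
        obtain ⟨i, hi⟩ := h.symm
        have hxy : x = y := by
          rw [← hi]
          exact Equiv.Perm.zpow_apply_eq_self_of_apply_eq_self hy i
        rw [hxy]
        exact hy
      rw [if_neg hx, if_neg hy, h.cycleOf_eq]

theorem image_cycleClass (σ : Equiv.Perm X) :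
    Finset.univ.image (cycleClass σ)
      = σ.cycleFactorsFinset.disjSum (Finset.univ.filter fun x => σ x = x) := by
  ext y
  rcases y with c | z
  · simp only [Finset.mem_image, Finset.mem_univ, true_and, Finset.inl_mem_disjSum]
    constructor
    · rintro ⟨x, hx⟩
      unfold cycleClass at hx
      by_cases hfx : σ x = x
      · rw [if_pos hfx] at hx
        exact absurd hx (by simp)
      · rw [if_neg hfx] at hx
        have h' := Sum.inl.inj hx
        rw [← h', Equiv.Perm.cycleOf_mem_cycleFactorsFinset_iff]
        exact Equiv.Perm.mem_support.mpr hfx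
    · intro hc
      have hcyc := (Equiv.Perm.mem_cycleFactorsFinset_iff.mp hc).1
      obtain ⟨x, hx, -⟩ := hcyc
      have hxc : x ∈ c.support := Equiv.Perm.mem_support.mpr hx
      have hxσ : x ∈ σ.support := Equiv.Perm.mem_cycleFactorsFinset_support_le hc hxc
      refine ⟨x, ?_⟩
      unfold cycleClass
      rw [if_neg (Equiv.Perm.mem_support.mp hxσ), ← Equiv.Perm.cycle_is_cycleOf hxc hc]
  · simp only [Finset.mem_image, Finset.mem_univ, true_and, Finset.inr_mem_disjSum,
      Finset.mem_filter]
    constructor
    · rintro ⟨x, hx⟩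
      unfold cycleClass at hx
      by_cases hfx : σ x = x
      · rw [if_pos hfx] at hx
        have h' := Sum.inr.inj hx
        subst h'
        exact hfx
      · rw [if_neg hfx] at hx
        exact absurd hx (by simp)
    · intro hz
      exact ⟨z, by unfold cycleClass; rw [if_pos hz]⟩

/-- Number of orbits of the cyclic group generated by `g` in terms of the cycle type of the
permutation induced by `g`. -/
theorem card_orbits_zpowers {G : Type*} [Group G] [MulAction G X] (g : G) :
    Nat.card (orbitRel.Quotient (Subgroup.zpowers g) X)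
      = Multiset.card (toPerm g : Equiv.Perm X).cycleType
        + (Fintype.card X - (toPerm g : Equiv.Perm X).support.card) := by
  set σ : Equiv.Perm X := toPerm g with hσ
  have hpow : ∀ (k : ℤ) (z : X), (σ ^ k) z = g ^ k • z := by
    intro k z
    have h := map_zpow (MulAction.toPermHom G X) g k
    rw [MulAction.toPermHom_apply, MulAction.toPermHom_apply] at h
    rw [hσ, ← h]
    rfl
  have hker : orbitRel (Subgroup.zpowers g) X = Setoid.ker (cycleClass σ) := by
    ext x y
    rw [Setoid.ker_def, cycleClass_eq_iff, orbitRel_apply, mem_orbit_iff]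
    constructor
    · rintro ⟨⟨h, hh⟩, hxy⟩
      obtain ⟨k, rfl⟩ := Subgroup.mem_zpowers_iff.mp hh
      refine Equiv.Perm.SameCycle.symm ⟨k, ?_⟩
      rw [hpow]
      exact hxy
    · rintro h
      obtain ⟨k, hk⟩ := h.symm
      refine ⟨⟨g ^ k, Subgroup.zpow_mem_zpowers g k⟩, ?_⟩
      rw [hpow] at hk
      exact hk
  have h1 : Nat.card (orbitRel.Quotient (Subgroup.zpowers g) X)
      = Nat.card (Set.range (cycleClass σ)) := by
    unfold orbitRel.Quotient
    rw [hker]
    exact Nat.card_congr (Setoid.quotientKerEquivRange _)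
  have h2 : Set.range (cycleClass σ) = ↑(Finset.univ.image (cycleClass σ)) := by
    rw [Finset.coe_image, Finset.coe_univ, Set.image_univ]
  have h3 : (Finset.univ.filter fun x => σ x = x) = σ.supportᶜ := by
    ext x
    simp [Equiv.Perm.mem_support]
  rw [h1, h2, Nat.card_coe_set_eq, Set.ncard_coe_finset, image_cycleClass, Finset.card_disjSum,
    h3, Finset.card_compl, Equiv.Perm.cycleType_def, Multiset.card_map]
  rfl

theorem sign_toPerm_eq {G : Type*} [Group G] [MulAction G X] (g : G) :
    Equiv.Perm.sign (toPerm g : Equiv.Perm X)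
      = (-1 : ℤˣ) ^ (Fintype.card X + Nat.card (orbitRel.Quotient (Subgroup.zpowers g) X)) := by
  rw [card_orbits_zpowers, Equiv.Perm.sign_of_cycleType]
  set σ : Equiv.Perm X := toPerm g
  have hs := Equiv.Perm.sum_cycleType σ
  have hle : σ.support.card ≤ Fintype.card X := Finset.card_le_univ _
  have hexp : Fintype.card X + (Multiset.card σ.cycleType + (Fintype.card X - σ.support.card))
      = (σ.cycleType.sum + Multiset.card σ.cycleType) + 2 * (Fintype.card X - σ.support.card) := by
    rw [hs]
    omega
  rw [hexp, pow_add (-1 : ℤˣ) (σ.cycleType.sum + Multiset.card σ.cycleType), pow_mul]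
  simp

/-- Parity: `card X + r(a) + r(b) + r(ab)` is even (`r` = number of orbits of the cyclic group). -/
theorem even_card_add_orbits {G : Type*} [Group G] [MulAction G X] (a b : G) :
    Even (Fintype.card X + Nat.card (orbitRel.Quotient (Subgroup.zpowers a) X)
      + Nat.card (orbitRel.Quotient (Subgroup.zpowers b) X)
      + Nat.card (orbitRel.Quotient (Subgroup.zpowers (a * b)) X)) := by
  have hmul : (toPerm (a * b) : Equiv.Perm X) = toPerm a * toPerm b := by
    ext x
    simp [mul_smul]
  have h := congrArg Equiv.Perm.sign hmul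
  rw [map_mul, sign_toPerm_eq, sign_toPerm_eq, sign_toPerm_eq] at h
  set n := Fintype.card X
  set ra := Nat.card (orbitRel.Quotient (Subgroup.zpowers a) X)
  set rb := Nat.card (orbitRel.Quotient (Subgroup.zpowers b) X)
  set rab := Nat.card (orbitRel.Quotient (Subgroup.zpowers (a * b)) X)
  have h1 : (-1 : ℤˣ) ^ ((n + rab) + ((n + ra) + (n + rb))) = 1 := by
    rw [pow_add, h, ← pow_add, ← mul_pow]
    simp
  have h2 : Even ((n + rab) + ((n + ra) + (n + rb))) := by
    rwa [neg_one_pow_eq_one_iff_even (by decide)] at h1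
  obtain ⟨m, hm⟩ := h2
  exact ⟨m - n, by omega⟩

end Parity

/-! ### Part S: Scott's lemma on the permutation module `X → ℚ` -/

section Scott

variable {G X : Type*} [Group G] [MulAction G X]

/-- Pull-back of functions along the action of `g`: `(pull g v) x = v (g • x)`. -/
noncomputable def pull (g : G) : (X → ℚ) →ₗ[ℚ] (X → ℚ) :=
  LinearMap.funLeft ℚ ℚ (fun x => g • x)

theorem pull_apply (g : G) (v : X → ℚ) (x : X) : pull g v x = v (g • x) := rfl

theorem pull_mul_apply (g h : G) (v : X → ℚ) : pull (g * h) v = pull h (pull g v) := by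
  ext x
  simp only [pull_apply, mul_smul]

/-- The subgroup of elements fixing a function. -/
def stabFun (v : X → ℚ) : Subgroup G where
  carrier := {h | ∀ x, v (h • x) = v x}
  mul_mem' := fun {h k} hh hk x => by rw [mul_smul, hh, hk]
  one_mem' := fun x => by rw [one_smul]
  inv_mem' := fun {h} hh x => by
    have := hh (h⁻¹ • x)
    rw [smul_inv_smul] at this
    exact this.symm

theorem mem_stabFun {v : X → ℚ} {h : G} : h ∈ stabFun v ↔ ∀ x, v (h • x) = v x := Iff.rfl

/-- The space of functions fixed by `g`. -/
def fixedSpace (g : G) : Submodule ℚ (X → ℚ) where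
  carrier := {v | ∀ x, v (g • x) = v x}
  add_mem' := fun {v w} hv hw x => by simp only [Pi.add_apply, hv x, hw x]
  zero_mem' := fun x => rfl
  smul_mem' := fun c v hv x => by simp only [Pi.smul_apply, hv x]

theorem mem_fixedSpace {g : G} {v : X → ℚ} : v ∈ fixedSpace g ↔ ∀ x, v (g • x) = v x := Iff.rfl

theorem finrank_fixedSpace [Finite X] (g : G) :
    Module.finrank ℚ (fixedSpace (X := X) g)
      = Nat.card (orbitRel.Quotient (Subgroup.zpowers g) X) := by
  classical
  have : Fintype X := Fintype.ofFinite X
  have : Fintype (orbitRel.Quotient (Subgroup.zpowers g) X) := Fintype.ofFinite _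
  let Φ : (orbitRel.Quotient (Subgroup.zpowers g) X → ℚ) →ₗ[ℚ] (X → ℚ) :=
    LinearMap.funLeft ℚ ℚ (Quotient.mk (orbitRel (Subgroup.zpowers g) X))
  have hinj : Function.Injective Φ :=
    LinearMap.funLeft_injective_of_surjective ℚ ℚ _ Quotient.mk_surjective
  have hrange : LinearMap.range Φ = fixedSpace g := by
    ext v
    constructor
    · rintro ⟨φ, rfl⟩
      rw [mem_fixedSpace]
      intro x
      show φ (Quotient.mk _ (g • x)) = φ (Quotient.mk _ x)
      congr 1
      apply Quotient.sound
      show g • x ∈ orbit (Subgroup.zpowers g) x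
      exact ⟨⟨g, Subgroup.mem_zpowers g⟩, rfl⟩
    · intro hv
      have hstab : Subgroup.zpowers g ≤ stabFun v := by
        rw [Subgroup.zpowers_le]
        exact hv
      refine ⟨Quotient.lift v ?_, ?_⟩
      · intro x y hxy
        obtain ⟨⟨h, hh⟩, rfl⟩ := hxy
        exact hstab hh y
      · ext x
        rfl
  rw [← hrange, LinearMap.finrank_range_of_inj hinj, Module.finrank_fintype_fun_eq_card,
    Nat.card_eq_fintype_card]

/-- A function fixed by two generators of a transitive group is constant. -/
theorem const_of_mem_fixedSpace [IsPretransitive G X] (a b : G)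
    (hgen : Subgroup.closure {a, b} = ⊤) (v : X → ℚ)
    (ha : v ∈ fixedSpace a) (hb : v ∈ fixedSpace b) (x y : X) : v x = v y := by
  have hle : Subgroup.closure {a, b} ≤ stabFun v := by
    rw [Subgroup.closure_le]
    rintro g (rfl | rfl)
    · exact ha
    · exact hb
  rw [hgen] at hle
  obtain ⟨h, rfl⟩ := exists_smul_eq G y x
  exact hle (Subgroup.mem_top h) y

/-- If `U` contains the ranges of `1 - pull a` and `1 - pull b`, it contains the range of
`1 - pull g` for every `g` in the group generated by `a` and `b`. -/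
theorem sub_pull_mem (U : Submodule ℚ (X → ℚ)) (a b : G)
    (hgen : Subgroup.closure {a, b} = ⊤)
    (ha : ∀ v, v - pull a v ∈ U) (hb : ∀ v, v - pull b v ∈ U) (g : G) (v : X → ℚ) :
    v - pull g v ∈ U := by
  let H : Subgroup G :=
    { carrier := {g | ∀ v, v - pull g v ∈ U}
      mul_mem' := fun {g h} hg hh v => by
        have h1 : v - pull (g * h) v = (v - pull g v) + (pull g v - pull h (pull g v)) := by
          rw [pull_mul_apply]
          abel
        rw [h1]
        exact U.add_mem (hg v) (hh _)
      one_mem' := fun v => by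
        have h1 : v - pull (1 : G) v = 0 := by
          ext x
          simp [pull_apply]
        rw [h1]
        exact U.zero_mem
      inv_mem' := fun {g} hg v => by
        have h1 : v - pull g⁻¹ v = -(pull g⁻¹ v - pull g (pull g⁻¹ v)) := by
          rw [← pull_mul_apply, inv_mul_cancel]
          ext x
          simp [pull_apply]
        rw [h1]
        exact U.neg_mem (hg _) }
  have hle : Subgroup.closure {a, b} ≤ H := by
    rw [Subgroup.closure_le]
    rintro g (rfl | rfl)
    · exact ha
    · exact hb
  rw [hgen] at hle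
  exact hle (Subgroup.mem_top g) v

/-- The sum functional. -/
noncomputable def sumFun [Fintype X] : (X → ℚ) →ₗ[ℚ] ℚ where
  toFun v := ∑ x, v x
  map_add' v w := by simp [Finset.sum_add_distrib]
  map_smul' c v := by simp [Finset.mul_sum]

theorem sumFun_apply [Fintype X] (v : X → ℚ) : sumFun v = ∑ x, v x := rfl

theorem ker_sumFun_le [Fintype X] [DecidableEq X] [IsPretransitive G X]
    (U : Submodule ℚ (X → ℚ)) (hU : ∀ (g : G) (v : X → ℚ), v - pull g v ∈ U) :
    LinearMap.ker (sumFun (X := X)) ≤ U := by
  intro v hv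
  rw [LinearMap.mem_ker, sumFun_apply] at hv
  rcases isEmpty_or_nonempty X with hX | ⟨⟨x0⟩⟩
  · have : v = 0 := by
      ext x
      exact (hX.false x).elim
    rw [this]
    exact U.zero_mem
  have hv' : v = ∑ x, v x • (Pi.single x (1 : ℚ) - Pi.single x0 (1 : ℚ)) := by
    ext y
    simp only [Finset.sum_apply, Pi.smul_apply, Pi.sub_apply, smul_eq_mul, Pi.single_apply,
      mul_sub, Finset.sum_sub_distrib, mul_ite, mul_one, mul_zero]
    rw [Finset.sum_ite_eq Finset.univ y v, if_pos (Finset.mem_univ y)]
    by_cases hy : y = x0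
    · simp [hy, hv]
    · simp [hy]
  rw [hv']
  refine U.sum_mem fun x _ => U.smul_mem _ ?_
  obtain ⟨g, hg⟩ := exists_smul_eq G x0 x
  have hpull : pull g (Pi.single x (1 : ℚ)) = Pi.single x0 (1 : ℚ) := by
    ext y
    simp only [pull_apply, Pi.single_apply]
    have hiff : g • y = x ↔ y = x0 := by
      constructor
      · intro h
        exact smul_left_cancel g (h.trans hg.symm)
      · rintro rfl
        exact hg
    simp only [hiff]
  rw [← hpull]
  exact hU g _

theorem card_le_finrank_add_one [Fintype X] [DecidableEq X] [IsPretransitive G X]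
    (U : Submodule ℚ (X → ℚ)) (hU : ∀ (g : G) (v : X → ℚ), v - pull g v ∈ U) :
    Fintype.card X ≤ Module.finrank ℚ U + 1 := by
  have h1 := LinearMap.finrank_range_add_finrank_ker (sumFun (X := X))
  rw [Module.finrank_fintype_fun_eq_card] at h1
  have h2 : Module.finrank ℚ (LinearMap.range (sumFun (X := X))) ≤ 1 := by
    have := Submodule.finrank_le (LinearMap.range (sumFun (X := X)))
    rwa [Module.finrank_self] at this
  have h3 : Module.finrank ℚ (LinearMap.ker (sumFun (X := X))) ≤ Module.finrank ℚ U :=
    Submodule.finrank_mono (ker_sumFun_le U hU)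
  omega

/-- Scott's map `(v₁, v₂, v₃) ↦ (1 - B) v₁ + B (1 - A) v₂ + (B A - 1) v₃`, `A = pull a`,
`B = pull b`, `B A = pull (a b)`. -/
noncomputable def scottMap (a b : G) : (X → ℚ) × (X → ℚ) × (X → ℚ) →ₗ[ℚ] (X → ℚ) :=
  (1 - pull b).coprod (((pull b).comp (1 - pull a)).coprod (pull (a * b) - 1))

theorem scottMap_apply (a b : G) (p : (X → ℚ) × (X → ℚ) × (X → ℚ)) :
    scottMap a b p = (p.1 - pull b p.1) + ((pull b p.2.1 - pull b (pull a p.2.1))
      + (pull (a * b) p.2.2 - p.2.2)) := by
  simp [scottMap, LinearMap.coprod_apply, map_sub]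

/-- The map `(u₁, u₂, u₃, v) ↦ (u₁ + v, u₂ + v, u₃ + v)` from fixed vectors and the diagonal. -/
noncomputable def scottKer (a b : G) :
    (fixedSpace (X := X) b × fixedSpace (X := X) a × fixedSpace (X := X) (a * b) × (X → ℚ))
      →ₗ[ℚ] (X → ℚ) × (X → ℚ) × (X → ℚ) where
  toFun p := ((p.1 : X → ℚ) + p.2.2.2, (p.2.1 : X → ℚ) + p.2.2.2, (p.2.2.1 : X → ℚ) + p.2.2.2)
  map_add' p q := by
    refine Prod.ext ?_ (Prod.ext ?_ ?_) <;>
    · ext x
      simp only [Prod.fst_add, Prod.snd_add, Submodule.coe_add, Pi.add_apply]
      ring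
  map_smul' c p := by
    refine Prod.ext ?_ (Prod.ext ?_ ?_) <;>
    · ext x
      simp only [Prod.smul_fst, Prod.smul_snd, Submodule.coe_smul, Pi.add_apply, Pi.smul_apply,
        smul_eq_mul, RingHom.id_apply]
      ring

theorem scottMap_scottKer (a b : G)
    (p : fixedSpace (X := X) b × fixedSpace (X := X) a × fixedSpace (X := X) (a * b) × (X → ℚ)) :
    scottMap a b (scottKer a b p) = 0 := by
  obtain ⟨⟨u1, h1⟩, ⟨u2, h2⟩, ⟨u3, h3⟩, v⟩ := p
  rw [scottMap_apply]
  ext x
  have e1 := h1 x
  have e2 := h2 (b • x)
  have e3 := h3 x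
  simp only [scottKer, LinearMap.coe_mk, AddHom.coe_mk, Pi.add_apply, Pi.sub_apply, pull_apply,
    Pi.zero_apply, mul_smul] at e3 ⊢
  rw [e1, e2, e3]
  ring

theorem finrank_ker_scottKer_le [IsPretransitive G X] (a b : G)
    (hgen : Subgroup.closure {a, b} = ⊤) :
    Module.finrank ℚ (LinearMap.ker (scottKer (X := X) a b)) ≤ 1 := by
  have hone : ∀ g : G, (fun _ => (1 : ℚ)) ∈ fixedSpace (X := X) g := fun g x => rfl
  have hmem : ((⟨fun _ => -1, fun x => rfl⟩, ⟨fun _ => -1, fun x => rfl⟩,
      ⟨fun _ => -1, fun x => rfl⟩, fun _ => 1) :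
      fixedSpace (X := X) b × fixedSpace (X := X) a × fixedSpace (X := X) (a * b) × (X → ℚ))
      ∈ LinearMap.ker (scottKer (X := X) a b) := by
    rw [LinearMap.mem_ker]
    refine Prod.ext ?_ (Prod.ext ?_ ?_) <;>
    · ext x
      simp [scottKer]
  refine finrank_le_one (⟨_, hmem⟩ : LinearMap.ker (scottKer (X := X) a b)) ?_
  rintro ⟨⟨⟨u1, h1⟩, ⟨u2, h2⟩, ⟨u3, h3⟩, v⟩, hp⟩
  rw [LinearMap.mem_ker] at hp
  have hp1 : u1 + v = 0 := congrArg Prod.fst hp
  have hp2 : u2 + v = 0 := congrArg (fun q => q.2.1) hp
  have hp3 : u3 + v = 0 := congrArg (fun q => q.2.2) hp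
  have hu1 : u1 = -v := eq_neg_of_add_eq_zero_left hp1
  have hu2 : u2 = -v := eq_neg_of_add_eq_zero_left hp2
  have hu3 : u3 = -v := eq_neg_of_add_eq_zero_left hp3
  have hva : v ∈ fixedSpace (X := X) a := by
    have : -u2 = v := by rw [hu2, neg_neg]
    rw [← this]
    exact (fixedSpace a).neg_mem h2
  have hvb : v ∈ fixedSpace (X := X) b := by
    have : -u1 = v := by rw [hu1, neg_neg]
    rw [← this]
    exact (fixedSpace b).neg_mem h1
  have hconst := const_of_mem_fixedSpace a b hgen v hva hvb
  rcases isEmpty_or_nonempty X with hX | ⟨⟨x0⟩⟩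
  · refine ⟨0, ?_⟩
    apply Subtype.ext
    refine Prod.ext ?_ (Prod.ext ?_ (Prod.ext ?_ ?_)) <;>
    · first
        | (apply Subtype.ext; ext x; exact (hX.false x).elim)
        | (ext x; exact (hX.false x).elim)
  refine ⟨v x0, ?_⟩
  apply Subtype.ext
  subst hu1 hu2 hu3
  refine Prod.ext ?_ (Prod.ext ?_ (Prod.ext ?_ ?_))
  · apply Subtype.ext
    ext x
    simp [hconst x x0]
  · apply Subtype.ext
    ext x
    simp [hconst x x0]
  · apply Subtype.ext
    ext x
    simp [hconst x x0]
  · ext x
    simp [hconst x x0]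

/-- Ree/Scott inequality: for a transitive action of `G = ⟨a, b⟩` on a finite set `X`,
`r(a) + r(b) + r(ab) ≤ card X + 2`. -/
theorem orbits_add_le [Finite X] [IsPretransitive G X] (a b : G)
    (hgen : Subgroup.closure {a, b} = ⊤) :
    Nat.card (orbitRel.Quotient (Subgroup.zpowers a) X)
      + Nat.card (orbitRel.Quotient (Subgroup.zpowers b) X)
      + Nat.card (orbitRel.Quotient (Subgroup.zpowers (a * b)) X) ≤ Nat.card X + 2 := by
  classical
  have : Fintype X := Fintype.ofFinite X
  rw [Nat.card_eq_fintype_card (α := X)]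
  -- the range of Scott's map is large
  have hrange : Fintype.card X ≤ Module.finrank ℚ (LinearMap.range (scottMap (X := X) a b)) + 1 := by
    apply card_le_finrank_add_one (G := G)
    have hb : ∀ v : X → ℚ, v - pull b v ∈ LinearMap.range (scottMap (X := X) a b) := by
      intro v
      refine ⟨(v, 0, 0), ?_⟩
      rw [scottMap_apply]
      simp
    have ha : ∀ v : X → ℚ, v - pull a v ∈ LinearMap.range (scottMap (X := X) a b) := by
      intro v
      have h1 : v - pull a v = (pull b (v - pull a v))
          + ((v - pull a v) - pull b (v - pull a v)) := by abel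
      rw [h1]
      refine Submodule.add_mem _ ⟨(0, v, 0), ?_⟩ (hb _)
      rw [scottMap_apply]
      simp [map_sub]
    exact sub_pull_mem _ a b hgen ha hb
  -- rank-nullity for Scott's map
  have hT := LinearMap.finrank_range_add_finrank_ker (scottMap (X := X) a b)
  rw [Module.finrank_prod, Module.finrank_prod, Module.finrank_fintype_fun_eq_card] at hT
  -- rank-nullity for the kernel map
  have hι := LinearMap.finrank_range_add_finrank_ker (scottKer (X := X) a b)
  rw [Module.finrank_prod, Module.finrank_prod, Module.finrank_prod,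
    Module.finrank_fintype_fun_eq_card, finrank_fixedSpace, finrank_fixedSpace,
    finrank_fixedSpace] at hι
  have hker := finrank_ker_scottKer_le (X := X) a b hgen
  have hle : Module.finrank ℚ (LinearMap.range (scottKer (X := X) a b))
      ≤ Module.finrank ℚ (LinearMap.ker (scottMap (X := X) a b)) := by
    apply Submodule.finrank_mono
    rintro _ ⟨p, rfl⟩
    rw [LinearMap.mem_ker]
    exact scottMap_scottKer a b p
  omega

end Scott

/-! ### Main theorem (shape of board row 17, G1) -/

theorem exists_genus_of_two_generators {G X : Type*} [Group G] [MulAction G X] [Finite X]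
    [Nonempty X] [MulAction.IsPretransitive G X] (a b : G)
    (hgen : Subgroup.closure {a, b} = ⊤) :
    ∃ g : ℕ, (Nat.card X : ℤ) + 2 = 2 * g
      + Nat.card (MulAction.orbitRel.Quotient (Subgroup.zpowers a) X)
      + Nat.card (MulAction.orbitRel.Quotient (Subgroup.zpowers b) X)
      + Nat.card (MulAction.orbitRel.Quotient (Subgroup.zpowers (a * b)) X) := by
  classical
  have : Fintype X := Fintype.ofFinite X
  have hle := orbits_add_le (X := X) a b hgen
  have hev := even_card_add_orbits (X := X) a b
  rw [← Nat.card_eq_fintype_card] at hev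
  obtain ⟨m, hm⟩ := hev
  refine ⟨Nat.card X + 1 - m, ?_⟩
  omega

end Fermat.Agent.S24.helper222
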