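/-
helper222 — S24 MODULE G (backup), parts G2 + G3: the genus formula is a natural number.

* `exists_genus_SL2Z` (G2): Ree/Scott + parity for `SL(2, ℤ) = ⟨S, T⟩` acting transitively on a
  finite set.
* `exists_nat_eq_genusFormula` (G3): numeric glue to `ModularCurve.genusFormula`.
* `exists_nat_eq_genusFormula_of_counts`: `Stmt_INT`-type statement from the Module F counts
  (index, orbit counts of `S`, `S * T`, `T` on `SL(2, ℤ) ⧸ Gamma0 N`), taken as hypotheses.
-/
import Mathlib
import Fermat.Prelude.Def_ModularCurve_GenusNumerics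
import Fermat.Agent.S24.helper222_ReeScott

set_option autoImplicit false

namespace Fermat.Agent.S24.helper222

open MulAction ModularCurve
open scoped MatrixGroups

/-- (G2) Ree/Scott + parity for `SL(2, ℤ) = ⟨S, T⟩` acting transitively on a finite set. -/
theorem exists_genus_SL2Z {X : Type*} [MulAction SL(2, ℤ) X] [Finite X] [Nonempty X]
    [MulAction.IsPretransitive SL(2, ℤ) X] :
    ∃ g : ℕ, (Nat.card X : ℤ) + 2 = 2 * g
      + Nat.card (orbitRel.Quotient (Subgroup.zpowers ModularGroup.S) X)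
      + Nat.card (orbitRel.Quotient (Subgroup.zpowers ModularGroup.T) X)
      + Nat.card (orbitRel.Quotient (Subgroup.zpowers (ModularGroup.S * ModularGroup.T)) X) :=
  exists_genus_of_two_generators ModularGroup.S ModularGroup.T
    SpecialLinearGroup.SL2Z_generators

/-- (G3) numeric glue: the orbit counts and the Ree/Scott identity give
`genusFormula N = g`. -/
theorem exists_nat_eq_genusFormula (N rS rST rT g : ℕ)
    (hS : 2 * rS = dedekindPsi N + nuTwo N) (hST : 3 * rST = dedekindPsi N + 2 * nuThree N)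
    (hT : rT = cuspCount N) (hg : (dedekindPsi N : ℤ) + 2 = 2 * g + rS + rT + rST) :
    genusFormula N = (g : ℚ) := by
  unfold genusFormula
  have hS' : (2 : ℚ) * rS = dedekindPsi N + nuTwo N := by exact_mod_cast hS
  have hST' : (3 : ℚ) * rST = dedekindPsi N + 2 * nuThree N := by exact_mod_cast hST
  have hT' : (rT : ℚ) = cuspCount N := by exact_mod_cast hT
  have hg' : (dedekindPsi N : ℚ) + 2 = 2 * g + rS + rT + rST := by exact_mod_cast hg
  linarith

/-- `Stmt_INT` from the Module F counts on `X = SL(2, ℤ) ⧸ Gamma0 N` (taken as hypotheses, in the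
shapes F1, F2, F5, F6 of board row 4): there is a natural number `g` with
`genusFormula N = g` and `ψ(N) + 2 = 2 g + r_S + r_T + r_ST`. -/
theorem exists_nat_eq_genusFormula_of_counts (N : ℕ) [NeZero N]
    (hF1 : (CongruenceSubgroup.Gamma0 N).index = dedekindPsi N)
    (hF2 : Nat.card (orbitRel.Quotient (Subgroup.zpowers ModularGroup.T)
      (SL(2, ℤ) ⧸ CongruenceSubgroup.Gamma0 N)) = cuspCount N)
    (hF5 : 2 * Nat.card (orbitRel.Quotient (Subgroup.zpowers ModularGroup.S)
      (SL(2, ℤ) ⧸ CongruenceSubgroup.Gamma0 N)) = dedekindPsi N + nuTwo N)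
    (hF6 : 3 * Nat.card (orbitRel.Quotient (Subgroup.zpowers (ModularGroup.S * ModularGroup.T))
      (SL(2, ℤ) ⧸ CongruenceSubgroup.Gamma0 N)) = dedekindPsi N + 2 * nuThree N) :
    ∃ g : ℕ, genusFormula N = (g : ℚ) ∧
      (dedekindPsi N : ℤ) + 2 = 2 * g
        + Nat.card (orbitRel.Quotient (Subgroup.zpowers ModularGroup.S)
            (SL(2, ℤ) ⧸ CongruenceSubgroup.Gamma0 N))
        + Nat.card (orbitRel.Quotient (Subgroup.zpowers ModularGroup.T)
            (SL(2, ℤ) ⧸ CongruenceSubgroup.Gamma0 N))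
        + Nat.card (orbitRel.Quotient (Subgroup.zpowers (ModularGroup.S * ModularGroup.T))
            (SL(2, ℤ) ⧸ CongruenceSubgroup.Gamma0 N)) := by
  obtain ⟨g, hg⟩ := exists_genus_SL2Z (X := SL(2, ℤ) ⧸ CongruenceSubgroup.Gamma0 N)
  have hcard : Nat.card (SL(2, ℤ) ⧸ CongruenceSubgroup.Gamma0 N) = dedekindPsi N := hF1
  rw [hcard] at hg
  exact ⟨g, exists_nat_eq_genusFormula N _ _ _ g hF5 hF6 hF2 hg, hg⟩

/-- Corollary in the `Stmt_INT` shape: `∃ g : ℕ, (g : ℚ) = genusFormula N`. -/
theorem exists_nat_cast_eq_genusFormula_of_counts (N : ℕ) [NeZero N]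
    (hF1 : (CongruenceSubgroup.Gamma0 N).index = dedekindPsi N)
    (hF2 : Nat.card (orbitRel.Quotient (Subgroup.zpowers ModularGroup.T)
      (SL(2, ℤ) ⧸ CongruenceSubgroup.Gamma0 N)) = cuspCount N)
    (hF5 : 2 * Nat.card (orbitRel.Quotient (Subgroup.zpowers ModularGroup.S)
      (SL(2, ℤ) ⧸ CongruenceSubgroup.Gamma0 N)) = dedekindPsi N + nuTwo N)
    (hF6 : 3 * Nat.card (orbitRel.Quotient (Subgroup.zpowers (ModularGroup.S * ModularGroup.T))
      (SL(2, ℤ) ⧸ CongruenceSubgroup.Gamma0 N)) = dedekindPsi N + 2 * nuThree N) :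
    ∃ g : ℕ, (g : ℚ) = genusFormula N := by
  obtain ⟨g, hg, -⟩ := exists_nat_eq_genusFormula_of_counts N hF1 hF2 hF5 hF6
  exact ⟨g, hg.symm⟩

end Fermat.Agent.S24.helper222
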