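/-
S24, MODULE M2-ALG (helper224): the pure algebra behind `[F : K(j)] = #X`. Mathlib only.

(a) `finrank_eq_card_of_conjugates`: a field `F ⊇ K(x)` (x transcendental, char 0) having `#X`
    pairwise distinct embeddings into a field `Ω` that agree on `K(x)`, and which is the fraction
    field of a subalgebra `A ∋ x` all of whose elements `f` satisfy a nontrivial bivariate relation
    `Q(x, f) = 0` over `K` of `Y`-degree at most `#X`, is finite over `K(x)` of degree exactly `#X`.
(b) `exists_rel_of_rel`: formal descent. Laurent series `j, f` over `K` which satisfy a nontrivial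
    bivariate relation over a bigger field `C` after extension of coefficients, satisfy one over
    `K` of no larger `Y`-degree (`K((q))` and `C` are linearly disjoint over `K`).
(c) `finrank_eq_card_of_conjugates_laurent`: (a) and (b) combined, for `F ⊆ K((q))`.

Caveat recorded for users: on `LaurentSeries K` the module structure coming from the algebra
structure (`HahnSeries.powerSeriesAlgebra`) is only propositionally equal to the coefficientwise
one (`HahnSeries.instModule`); statements here use the algebra one, as the Prelude does.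
-/
import Mathlib

set_option autoImplicit false

namespace Fermat.Agent.S24.helper224

open Polynomial IntermediateField

section Bounded

variable {L F : Type*} [Field L] [Field F] [Algebra L F]

/-- An extension (in characteristic zero) in which every element is a root of a nonzero
polynomial of degree at most `n` is finite of degree at most `n`. -/
theorem finite_and_finrank_le_of_forall_exists_poly [CharZero L] (n : ℕ)
    (h : ∀ f : F, ∃ q : L[X], q ≠ 0 ∧ q.natDegree ≤ n ∧ aeval f q = 0) :
    FiniteDimensional L F ∧ Module.finrank L F ≤ n := by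
  have halg : Algebra.IsAlgebraic L F := ⟨fun f => by
    obtain ⟨q, hq0, -, hq⟩ := h f
    exact ⟨q, hq0, hq⟩⟩
  have hdeg : ∀ f : F, (minpoly L f).natDegree ≤ n := by
    intro f
    obtain ⟨q, hq0, hqn, hq⟩ := h f
    exact (natDegree_le_of_dvd (minpoly.dvd L f hq) hq0).trans hqn
  have hfd : FiniteDimensional L F := by
    by_contra hnfd
    obtain ⟨E, hE, hn⟩ := exists_lt_finrank_of_infinite_dimensional hnfd n
    obtain ⟨α, hα⟩ := Field.exists_primitive_element L E
    have h1 := (Field.primitive_element_iff_minpoly_natDegree_eq L α).mp hα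
    have h2 : minpoly L α = minpoly L (α : F) := IntermediateField.minpoly_eq α
    have h3 := hdeg (α : F)
    rw [← h2] at h3
    omega
  refine ⟨hfd, ?_⟩
  obtain ⟨α, hα⟩ := Field.exists_primitive_element L F
  have h1 := (Field.primitive_element_iff_minpoly_natDegree_eq L α).mp hα
  have h3 := hdeg α
  omega

end Bounded

section Bivariate

variable {K F : Type*} [Field K] [Field F] [Algebra K F]

/-- `Q(x, y) = ∑ Q_k(x) y^k`, as an evaluation of the mapped polynomial. -/
theorem aevalAeval_eq_eval_map (x y : F) (Q : K[X][X]) :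
    aevalAeval x y Q = (Q.map (aeval x : K[X] →ₐ[K] F).toRingHom).eval y := by
  induction Q using Polynomial.induction_on' with
  | add p q hp hq => simp only [map_add, hp, hq, Polynomial.map_add, eval_add]
  | monomial n a =>
    rw [← C_mul_X_pow_eq_monomial]
    simp

theorem aevalAeval_mem (A : Subalgebra K F) {x y : F} (hx : x ∈ A) (hy : y ∈ A) (Q : K[X][X]) :
    aevalAeval x y Q ∈ A := by
  induction Q using Polynomial.induction_on' with
  | add p q hp hq => rw [map_add]; exact add_mem hp hq
  | monomial n a =>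
    rw [← C_mul_X_pow_eq_monomial]
    simp only [map_mul, map_pow, aevalAeval_C, aevalAeval_Y]
    refine mul_mem ?_ (pow_mem hy n)
    have : aeval x a = A.val (aeval (⟨x, hx⟩ : A) a) := by
      rw [← aeval_algHom_apply]; rfl
    rw [this]
    exact (aeval (⟨x, hx⟩ : A) a).2

/-- A nonzero element `b` of a subalgebra `A ∋ x` which satisfies a nontrivial bivariate
relation `Q(x, b) = 0` divides, inside `A`, a nonzero polynomial in `x`. -/
theorem exists_mul_eq_aeval (A : Subalgebra K F) {x b : F} (hx : x ∈ A) (hb : b ∈ A)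
    (hb0 : b ≠ 0) (Q : K[X][X]) (hQ : Q ≠ 0) (hQb : aevalAeval x b Q = 0) :
    ∃ c ∈ A, ∃ p : K[X], p ≠ 0 ∧ b * c = aeval x p := by
  induction' hn : Q.natDegree using Nat.strong_induction_on with n ih generalizing Q
  have hdec : Q = divX Q * X + C (Q.coeff 0) := (divX_mul_X_add Q).symm
  have hval : aevalAeval x b (divX Q) * b + aeval x (Q.coeff 0) = 0 := by
    have := hQb
    rw [hdec] at this
    simpa using this
  by_cases h0 : Q.coeff 0 = 0
  · have hdiv0 : divX Q ≠ 0 := by
      intro h
      apply hQ
      rw [hdec, h, h0]; simp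
    have hval' : aevalAeval x b (divX Q) = 0 := by
      rw [h0, map_zero, add_zero] at hval
      exact (mul_eq_zero.mp hval).resolve_right hb0
    have hlt : (divX Q).natDegree < n := by
      rw [← hn, natDegree_divX_eq_natDegree_tsub_one]
      have : Q.natDegree ≠ 0 := by
        intro h
        rw [eq_C_of_natDegree_eq_zero h] at hdiv0
        simp at hdiv0
      omega
    exact ih _ hlt (divX Q) hdiv0 hval' rfl
  · refine ⟨-aevalAeval x b (divX Q), neg_mem (aevalAeval_mem A hx hb _), Q.coeff 0, h0, ?_⟩
    linear_combination (-1 : F) * hval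

/-- A nontrivial bivariate relation `Q(x, f) = 0` over `K`, with `x` transcendental, makes `f`
a root of a nonzero polynomial over `K(x)` of degree at most `deg_Y Q`. -/
theorem exists_poly_of_rel {x : F} (hx : Transcendental K x) (f : F) (Q : K[X][X]) (hQ : Q ≠ 0)
    (hQf : aevalAeval x f Q = 0) :
    ∃ q : K⟮x⟯[X], q ≠ 0 ∧ q.natDegree ≤ Q.natDegree ∧ aeval f q = 0 := by
  set φ : K[X] →+* K⟮x⟯ := (aeval (AdjoinSimple.gen K x) : K[X] →ₐ[K] K⟮x⟯).toRingHom with hφdef
  have hcomp : (algebraMap K⟮x⟯ F).comp φ = (aeval x : K[X] →ₐ[K] F).toRingHom := by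
    ext p
    · simp [hφdef]
    · simp [hφdef]
  have hφ : Function.Injective φ := by
    intro p p' h
    apply transcendental_iff_injective.mp hx
    have h2 := congrArg (algebraMap K⟮x⟯ F) h
    have h3 := fun r => congrArg (fun ψ : K[X] →+* F => ψ r) hcomp
    simp only [RingHom.comp_apply] at h3
    rw [h3, h3] at h2
    exact h2
  refine ⟨Q.map φ, (Polynomial.map_ne_zero_iff hφ).mpr hQ, natDegree_map_le, ?_⟩
  rw [aeval_def, eval₂_map, hcomp, ← eval_map, ← aevalAeval_eq_eval_map, hQf]

end Bivariate

section Conjugates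

variable {K F Ω : Type*} [Field K] [Field F] [Algebra K F] [CharZero K] [Field Ω]

/-- **Degree from conjugates** (algebraic core of `[F : K(j)] = ψ(N)`).
`ι g`, `g ∈ X`, are pairwise distinct embeddings of `F` into a field `Ω` which agree on `K` and
on the transcendental element `x`; `A` is a `K`-subalgebra containing `x` with fraction field `F`,
each of whose elements satisfies a nontrivial relation `Q(x, f) = 0` with `deg_Y Q ≤ #X`.
Then `F` is finite over `K(x)` of degree exactly `#X`. -/
theorem finrank_eq_card_of_conjugates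
    (x : F) (hx : Transcendental K x)
    {X : Type*} [Fintype X] (ι : X → F →+* Ω) (hι : Function.Injective ι)
    (hK : ∀ g g' (a : K), ι g (algebraMap K F a) = ι g' (algebraMap K F a))
    (hιx : ∀ g g', ι g x = ι g' x)
    (A : Subalgebra K F) (hxA : x ∈ A)
    (hA : ∀ f : F, ∃ a ∈ A, ∃ b ∈ A, b ≠ 0 ∧ f = a / b)
    (halg : ∀ f ∈ A, ∃ Q : K[X][X], Q ≠ 0 ∧ Q.natDegree ≤ Fintype.card X ∧
      aevalAeval x f Q = 0) :
    FiniteDimensional K⟮x⟯ F ∧ Module.finrank K⟮x⟯ F = Fintype.card X := by
  classical
  have : CharZero K⟮x⟯ := charZero_of_injective_algebraMap (algebraMap K K⟮x⟯).injective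
  have hdegA : ∀ f ∈ A, ∃ q : K⟮x⟯[X], q ≠ 0 ∧ q.natDegree ≤ Fintype.card X ∧ aeval f q = 0 := by
    intro f hf
    obtain ⟨Q, hQ, hQn, hQf⟩ := halg f hf
    obtain ⟨q, hq, hqn, hqf⟩ := exists_poly_of_rel hx f Q hQ hQf
    exact ⟨q, hq, hqn.trans hQn, hqf⟩
  have hdeg : ∀ f : F, ∃ q : K⟮x⟯[X], q ≠ 0 ∧ q.natDegree ≤ Fintype.card X ∧ aeval f q = 0 := by
    intro f
    obtain ⟨a, ha, b, hb, hb0, rfl⟩ := hA f
    obtain ⟨Q, hQ, -, hQb⟩ := halg b hb
    obtain ⟨c, hc, p, hp, hbc⟩ := exists_mul_eq_aeval A hxA hb hb0 Q hQ hQb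
    obtain ⟨q, hq, hqn, hqf⟩ := hdegA (a * c) (mul_mem ha hc)
    have hpx : aeval x p ≠ 0 := fun h => hp (transcendental_iff_injective.mp hx (by simpa using h))
    set l : K⟮x⟯ := (aeval (AdjoinSimple.gen K x) p)⁻¹ with hl
    have hlF : algebraMap K⟮x⟯ F l = (aeval x p)⁻¹ := by
      rw [hl, map_inv₀, ← aeval_algebraMap_apply, AdjoinSimple.algebraMap_gen]
    have hc0 : c ≠ 0 := by
      rintro rfl
      rw [mul_zero] at hbc
      exact hpx hbc.symm
    have hfe : a / b = algebraMap K⟮x⟯ F l * (a * c) := by
      rw [hlF, ← hbc]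
      field_simp
    refine ⟨q.scaleRoots l, scaleRoots_ne_zero hq l, by rw [natDegree_scaleRoots]; exact hqn, ?_⟩
    rw [hfe]
    exact scaleRoots_aeval_eq_zero hqf
  obtain ⟨hfd, hle⟩ := finite_and_finrank_le_of_forall_exists_poly (Fintype.card X) hdeg
  refine ⟨hfd, le_antisymm hle ?_⟩
  rcases isEmpty_or_nonempty X with hX | ⟨⟨g0⟩⟩
  · simp
  · -- all `ι g` agree on `K(x)`
    have hagree : ∀ g g' (l : K⟮x⟯), ι g (algebraMap K⟮x⟯ F l) = ι g' (algebraMap K⟮x⟯ F l) := by
      intro g g' l
      have hmem : (l : F) ∈ Subfield.closure (Set.range (algebraMap K F) ∪ {x}) := by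
        have := l.2
        rw [← IntermediateField.mem_toSubfield, adjoin_toSubfield] at this
        exact this
      have hEq : Set.EqOn (ι g) (ι g') (Set.range (algebraMap K F) ∪ {x}) := by
        rintro y (⟨a, rfl⟩ | rfl)
        · exact hK g g' a
        · exact hιx g g'
      exact RingHom.eqOn_field_closure hEq hmem
    let _ : Algebra K⟮x⟯ Ω := ((ι g0).comp (algebraMap K⟮x⟯ F)).toAlgebra
    let ψ : X → (F →ₐ[K⟮x⟯] Ω) := fun g =>
      { ι g with commutes' := fun l => hagree g g0 l }
    have hψ : Function.Injective ψ := by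
      intro g g' h
      apply hι
      ext f
      exact congrArg (fun φ : F →ₐ[K⟮x⟯] Ω => φ f) h
    calc Fintype.card X = Nat.card X := (Nat.card_eq_fintype_card).symm
      _ ≤ Nat.card (F →ₐ[K⟮x⟯] Ω) := Nat.card_le_card_of_injective ψ hψ
      _ ≤ Module.finrank K⟮x⟯ F := card_algHom_le_finrank K⟮x⟯ F Ω

end Conjugates

section BivarFinsupp

variable {R : Type*} [CommRing R]

/-- The bivariate polynomial `∑ l(i,k) X^i Y^k` attached to a finitely supported `l`. -/
noncomputable def bivar (l : ℕ × ℕ →₀ R) : R[X][X] :=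
  l.sum fun p c => monomial p.2 (monomial p.1 c)

theorem bivar_coeff (l : ℕ × ℕ →₀ R) (i k : ℕ) : ((bivar l).coeff k).coeff i = l (i, k) := by
  classical
  unfold bivar Finsupp.sum
  rw [finsetSum_coeff, finsetSum_coeff]
  rw [Finset.sum_eq_single (i, k)]
  · simp
  · rintro ⟨i', k'⟩ - hne
    by_cases hk : k' = k
    · subst hk
      have hi : i' ≠ i := fun h => hne (by rw [h])
      simp [coeff_monomial, hi]
    · simp [coeff_monomial, hk]
  · intro h
    simp only [Finsupp.mem_support_iff, not_not] at h
    simp [h]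

theorem natDegree_bivar_le (l : ℕ × ℕ →₀ R) (d : ℕ) (h : ∀ p ∈ l.support, p.2 ≤ d) :
    (bivar l).natDegree ≤ d := by
  unfold bivar Finsupp.sum
  exact natDegree_sum_le_of_forall_le _ _ fun p hp => (natDegree_monomial_le _).trans (h p hp)

theorem aevalAeval_bivar {A : Type*} [CommRing A] [Algebra R A] (x y : A) (l : ℕ × ℕ →₀ R) :
    aevalAeval x y (bivar l) = Finsupp.linearCombination R (fun p : ℕ × ℕ => x ^ p.1 * y ^ p.2) l := by
  unfold bivar
  rw [Finsupp.linearCombination_apply, Finsupp.sum, Finsupp.sum, map_sum]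
  refine Finset.sum_congr rfl fun p _ => ?_
  rw [← C_mul_X_pow_eq_monomial, ← C_mul_X_pow_eq_monomial]
  simp [Algebra.smul_def, mul_assoc]

theorem exists_bivar_eq (P : R[X][X]) :
    ∃ l : ℕ × ℕ →₀ R, bivar l = P ∧ ∀ p ∈ l.support, p.2 ≤ P.natDegree := by
  classical
  let s : Finset (ℕ × ℕ) := P.support.biUnion fun k => (P.coeff k).support.image fun i => (i, k)
  have hs : ∀ p : ℕ × ℕ, (P.coeff p.2).coeff p.1 ≠ 0 → p ∈ s := by
    rintro ⟨i, k⟩ h
    simp only [s, Finset.mem_biUnion, Finset.mem_image, Polynomial.mem_support_iff]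
    exact ⟨k, fun h0 => h (by simp [h0]), i, h, rfl⟩
  refine ⟨Finsupp.onFinset s (fun p => (P.coeff p.2).coeff p.1) hs, ?_, ?_⟩
  · ext k i
    rw [bivar_coeff]
    simp
  · intro p hp
    simp only [Finsupp.mem_support_iff, Finsupp.onFinset_apply] at hp
    exact le_natDegree_of_ne_zero fun h0 => hp (by simp [h0])

theorem aevalAeval_algHom {A B : Type*} [CommRing A] [Algebra R A] [CommRing B] [Algebra R B]
    (φ : A →ₐ[R] B) (x y : A) (Q : R[X][X]) :
    aevalAeval (φ x) (φ y) Q = φ (aevalAeval x y Q) := by
  induction Q using Polynomial.induction_on' with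
  | add p q hp hq => simp only [map_add, hp, hq]
  | monomial n a =>
    rw [← C_mul_X_pow_eq_monomial]
    simp [aeval_algHom_apply]

end BivarFinsupp

section Descent

variable {K C : Type*} [Field K] [Field C]

/-- `K`-linearly independent families of `K`-valued functions stay `C`-linearly independent
after applying a field embedding `i0 : K →+* C` pointwise. -/
theorem linearIndependent_ringHom_comp (i0 : K →+* C) {I ι : Type*} (v : ι → I → K)
    (hv : LinearIndependent K v) : LinearIndependent C (fun a i => i0 (v a i)) := by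
  classical
  let _ : Algebra K C := i0.toAlgebra
  let b := Module.Free.chooseBasis K C
  rw [linearIndependent_iff'] at hv ⊢
  intro s c hc a ha
  have hpt : ∀ i, ∑ a ∈ s, c a * i0 (v a i) = 0 := by
    intro i
    have := congrFun hc i
    simpa using this
  have hk : ∀ k, ∀ a ∈ s, b.repr (c a) k = 0 := by
    intro k
    apply hv s (fun a => b.repr (c a) k)
    funext i
    have h1 : b.repr (∑ a ∈ s, c a * i0 (v a i)) k = 0 := by rw [hpt i]; simp
    have h2 : ∀ a, c a * i0 (v a i) = (v a i) • c a := by
      intro a; rw [Algebra.smul_def, mul_comm]; rfl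
    simp only [h2, map_sum, map_smul] at h1
    simpa [Finset.sum_apply, mul_comm] using h1
  have : b.repr (c a) = 0 := by ext k; exact hk k a ha
  simpa using this

/-- Coordinate criterion: if `M`, `M'` have injective/compatible "coordinate functions" into
`I → K`, `I → C`, then `E : M → M'` preserves linear independence. Stated for arbitrary module
instances (the instance arguments are named so that they can be given explicitly). -/
theorem linearIndependent_of_coords (i0 : K →+* C) {M M' : Type*} [AddCommGroup M]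
    [instMK : Module K M] [AddCommGroup M'] [instMC : Module C M'] {I : Type*}
    (cK : M → I → K) (cC : M' → I → C)
    (hK_add : ∀ x y i, cK (x + y) i = cK x i + cK y i)
    (hK_smul : ∀ (r : K) x i, cK (r • x) i = r * cK x i)
    (hK_inj : ∀ x, (∀ i, cK x i = 0) → x = 0)
    (hC_add : ∀ x y i, cC (x + y) i = cC x i + cC y i)
    (hC_smul : ∀ (r : C) x i, cC (r • x) i = r * cC x i)
    (E : M → M') (hE : ∀ x i, cC (E x) i = i0 (cK x i))
    {ι : Type*} (v : ι → M) (hv : LinearIndependent K v) :
    LinearIndependent C (fun a => E (v a)) := by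
  let cKl : M →ₗ[K] (I → K) :=
    { toFun := cK
      map_add' := fun x y => funext fun i => hK_add x y i
      map_smul' := fun r x => funext fun i => by simpa using hK_smul r x i }
  let cCl : M' →ₗ[C] (I → C) :=
    { toFun := cC
      map_add' := fun x y => funext fun i => hC_add x y i
      map_smul' := fun r x => funext fun i => by simpa using hC_smul r x i }
  have h1 : LinearIndependent K (cKl ∘ v) := hv.map' cKl (by
    rw [LinearMap.ker_eq_bot]
    intro x y h
    have hsub : ∀ i, cK (x - y) i = 0 := by
      intro i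
      have h2 : cKl (x - y) = 0 := by rw [map_sub, h, sub_self]
      exact congrFun h2 i
    exact sub_eq_zero.mp (hK_inj _ hsub))
  have h2 := linearIndependent_ringHom_comp i0 (cKl ∘ v) h1
  apply LinearIndependent.of_comp cCl
  convert h2 using 1
  funext a n
  exact hE (v a) n

theorem laurent_algebraMap_mul_coeff {R : Type*} [Field R] (r : R) (x : LaurentSeries R) (n : ℤ) :
    (algebraMap R (LaurentSeries R) r * x).coeff n = r * x.coeff n := by
  have h1 : algebraMap R (PowerSeries R) r = PowerSeries.C r := by simp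
  rw [HahnSeries.algebraMap_apply', h1, HahnSeries.ofPowerSeries_C, HahnSeries.C_mul_eq_smul,
    HahnSeries.coeff_smul, smul_eq_mul]

/-- Abstract descent of bivariate relations along a ring hom `E : M → M'` (from a `K`-algebra to
a `C`-algebra) which preserves linear independence. -/
theorem exists_rel_of_rel_aux {M M' : Type*} [CommRing M] [Algebra K M]
    [CommRing M'] [Algebra C M'] (E : M →+* M')
    (hE : ∀ (s : Set (ℕ × ℕ)) (v : ℕ × ℕ → M), LinearIndepOn K v s →
      LinearIndepOn C (fun p => E (v p)) s)
    (j f : M) (P : C[X][X]) (hP : P ≠ 0) (hPf : aevalAeval (E j) (E f) P = 0) :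
    ∃ Q : K[X][X], Q ≠ 0 ∧ Q.natDegree ≤ P.natDegree ∧ aevalAeval j f Q = 0 := by
  by_contra hno
  push Not at hno
  let s : Set (ℕ × ℕ) := {p | p.2 ≤ P.natDegree}
  have hli : LinearIndepOn K (fun p : ℕ × ℕ => j ^ p.1 * f ^ p.2) s := by
    rw [linearIndepOn_iff]
    intro l hl h0
    have hsupp : ∀ p ∈ l.support, p.2 ≤ P.natDegree := fun p hp =>
      (Finsupp.mem_supported K l).mp hl hp
    have hz : bivar l = 0 := by
      by_contra hne
      exact hno (bivar l) hne (natDegree_bivar_le l _ hsupp) (by rw [aevalAeval_bivar]; exact h0)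
    ext ⟨i, k⟩
    rw [← bivar_coeff, hz]
    simp
  have hli' := hE s _ hli
  rw [linearIndepOn_iff] at hli'
  obtain ⟨l, hl, hlsupp⟩ := exists_bivar_eq P
  have hl0 : l = 0 := by
    apply hli' l
    · exact (Finsupp.mem_supported C l).mpr fun p hp => hlsupp p hp
    · have h1 := aevalAeval_bivar (E j) (E f) l
      rw [hl, hPf] at h1
      have hfun : (fun p : ℕ × ℕ => E (j ^ p.1 * f ^ p.2)) = fun p => E j ^ p.1 * E f ^ p.2 := by
        funext p
        simp
      rw [hfun]
      exact h1.symm
  apply hP
  rw [← hl, hl0]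
  simp [bivar]

/-- **Formal descent from `C` to `K`.** If Laurent series `j, f` over `K` satisfy, after
extending coefficients along `i0 : K →+* C`, a nontrivial bivariate relation over `C`, then they
satisfy a nontrivial bivariate relation over `K` of no larger `Y`-degree. -/
theorem exists_rel_of_rel (i0 : K →+* C)
    (E : LaurentSeries K →+* LaurentSeries C) (hE : ∀ v n, (E v).coeff n = i0 (v.coeff n))
    (j f : LaurentSeries K) (P : C[X][X]) (hP : P ≠ 0) (hPf : aevalAeval (E j) (E f) P = 0) :
    ∃ Q : K[X][X], Q ≠ 0 ∧ Q.natDegree ≤ P.natDegree ∧ aevalAeval j f Q = 0 := by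
  refine exists_rel_of_rel_aux E ?_ j f P hP hPf
  intro s v hv
  exact @linearIndependent_of_coords K C _ _ i0 (LaurentSeries K) (LaurentSeries C) _
    Algebra.toModule _ Algebra.toModule ℤ
    (fun x n => x.coeff n) (fun x n => x.coeff n) (fun x y n => by simp)
    (fun r x n => by rw [Algebra.smul_def]; exact laurent_algebraMap_mul_coeff r x n)
    (fun x h => HahnSeries.ext (funext h)) (fun x y n => by simp)
    (fun r x n => by rw [Algebra.smul_def]; exact laurent_algebraMap_mul_coeff r x n)
    E hE s (fun a : s => v a) hv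

end Descent

section Combined

variable {K C Ω : Type*} [Field K] [CharZero K] [Field C] [Field Ω]

/-- **Degree from conjugates, formal version.** `F` is a subfield of `K((q))` containing `K`;
`E` is extension of coefficients along `i0 : K →+* C`. If `F` has `#X` pairwise distinct
embeddings into a field `Ω` agreeing on `K` and on the transcendental `x`, and `F = Frac A` with
every `f ∈ A` satisfying a nontrivial relation `P(E x, E f) = 0` over `C` with `deg_Y P ≤ #X`,
then `[F : K(x)] = #X`. -/
theorem finrank_eq_card_of_conjugates_laurent (i0 : K →+* C)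
    (E : LaurentSeries K →+* LaurentSeries C) (hE : ∀ v n, (E v).coeff n = i0 (v.coeff n))
    (F : IntermediateField K (LaurentSeries K))
    (x : F) (hx : Transcendental K x)
    {X : Type*} [Fintype X] (ι : X → F →+* Ω) (hι : Function.Injective ι)
    (hK : ∀ g g' (a : K), ι g (algebraMap K F a) = ι g' (algebraMap K F a))
    (hιx : ∀ g g', ι g x = ι g' x)
    (A : Subalgebra K F) (hxA : x ∈ A)
    (hA : ∀ f : F, ∃ a ∈ A, ∃ b ∈ A, b ≠ 0 ∧ f = a / b)
    (halg : ∀ f ∈ A, ∃ P : C[X][X], P ≠ 0 ∧ P.natDegree ≤ Fintype.card X ∧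
      aevalAeval (E (x : LaurentSeries K)) (E (f : LaurentSeries K)) P = 0) :
    FiniteDimensional K⟮x⟯ F ∧ Module.finrank K⟮x⟯ F = Fintype.card X := by
  refine finrank_eq_card_of_conjugates x hx ι hι hK hιx A hxA hA ?_
  intro f hf
  obtain ⟨P, hP, hPn, hPf⟩ := halg f hf
  obtain ⟨Q, hQ, hQn, hQf⟩ := exists_rel_of_rel i0 E hE _ _ P hP hPf
  refine ⟨Q, hQ, hQn.trans hPn, ?_⟩
  have h : aevalAeval (x : LaurentSeries K) (f : LaurentSeries K) Q
      = ((aevalAeval x f Q : F) : LaurentSeries K) := aevalAeval_algHom F.val x f Q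
  rw [hQf] at h
  exact (ZeroMemClass.coe_eq_zero).mp h.symm

end Combined

end Fermat.Agent.S24.helper224
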