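import Fermat.Agent.S24.helper24_Spec

/-!
# S24, Stmt_LOC (orbit counting), "Lagrange/leading-term" proof

`theorem stmt_LOC (hFund : Stmt_FundId) (hRes : Stmt_ResidueK) : Stmt_LOC`
-/

set_option autoImplicit false

noncomputable section

namespace Fermat.Agent.S24.helper2304

open AlgebraicCurve Polynomial

/-! ### Section 0: `WithTop ℤ` helpers -/

section WT

theorem wt_one_le_of_pos {x : WithTop ℤ} (h : 0 < x) : 1 ≤ x := by
  induction x using WithTop.recTopCoe with
  | top => exact le_top
  | coe a =>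
    have h' : (0 : ℤ) < a := by exact_mod_cast h
    exact_mod_cast h'

theorem wt_nsmul_one (k : ℕ) : k • (1 : WithTop ℤ) = ((k : ℤ) : WithTop ℤ) := by
  induction k with
  | zero => simp
  | succ n ih => rw [succ_nsmul, ih]; push_cast; rfl

theorem wt_natCast_le_nsmul {x : WithTop ℤ} (h : 0 < x) (k : ℕ) :
    ((k : ℤ) : WithTop ℤ) ≤ k • x := by
  have h1 : k • (1 : WithTop ℤ) ≤ k • x := nsmul_le_nsmul_right (wt_one_le_of_pos h) k
  rwa [wt_nsmul_one] at h1

theorem wt_eq_top_of_forall_nat_le {x : WithTop ℤ} (h : ∀ k : ℕ, ((k : ℤ) : WithTop ℤ) ≤ x) :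
    x = ⊤ := by
  induction x using WithTop.recTopCoe with
  | top => rfl
  | coe a =>
    exfalso
    have h1 := h (a.toNat + 1)
    have h2 : ((a.toNat + 1 : ℕ) : ℤ) ≤ a := by exact_mod_cast h1
    have h3 := Int.self_le_toNat a
    push_cast at h2
    omega

/-- `a < b + a` with `a` finite forces `0 < b`. -/
theorem wt_pos_of_lt_add {a b : WithTop ℤ} (h : a < b + a) : 0 < b := by
  by_contra hb
  rw [not_lt] at hb
  have : b + a ≤ 0 + a := add_le_add_left hb a
  rw [zero_add] at this
  exact absurd h (not_lt.mpr this)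

/-- `a + b ≤ a` with `0 < b` forces `a = ⊤`. -/
theorem wt_eq_top_of_add_le {a b : WithTop ℤ} (hb : 0 < b) (h : a + b ≤ a) : a = ⊤ := by
  induction a using WithTop.recTopCoe with
  | top => rfl
  | coe a =>
    exfalso
    induction b using WithTop.recTopCoe with
    | top => simp at h
    | coe b =>
      have hb' : (0 : ℤ) < b := by exact_mod_cast hb
      have h' : a + b ≤ a := by exact_mod_cast h
      omega

end WT

/-! ### Section 1: lemmas on a field with a `ℤ`-valued additive valuation -/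

section ValLemmas

variable {E : Type*} [Field E] (w : AddValuation E (WithTop ℤ))

/-- If `z ≡ 1` and the integer `e` is a unit for `w`, then `w (z ^ e - 1) = w (z - 1)`. -/
theorem val_pow_sub_one {z : E} (hz : 0 < w (z - 1)) {e : ℕ} (he : w (e : E) = 0) :
    w (z ^ e - 1) = w (z - 1) := by
  have hz0 : w z = 0 := by
    have h1 : z = 1 + (z - 1) := by ring
    rw [h1, w.map_add_eq_of_lt_left (by rw [w.map_one]; exact hz), w.map_one]
  have hpow : ∀ i : ℕ, 0 < w (z ^ i - 1) := by
    intro i
    induction i with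
    | zero => simp
    | succ i ih =>
      have h1 : z ^ (i + 1) - 1 = z ^ i * (z - 1) + (z ^ i - 1) := by ring
      rw [h1]
      apply w.map_lt_add
      · rw [w.map_mul, w.map_pow, hz0, smul_zero, zero_add]; exact hz
      · exact ih
  have hsum : w (∑ i ∈ Finset.range e, z ^ i) = 0 := by
    have h1 : ∑ i ∈ Finset.range e, z ^ i = (e : E) + ∑ i ∈ Finset.range e, (z ^ i - 1) := by
      rw [Finset.sum_sub_distrib]; simp
    have h2 : w (e : E) < w (∑ i ∈ Finset.range e, (z ^ i - 1)) := by
      rw [he]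
      exact w.map_lt_sum' (WithTop.coe_lt_top 0) (fun i _ => hpow i)
    rw [h1, w.map_add_eq_of_lt_left h2, he]
  rw [← geom_sum_mul, w.map_mul, hsum, zero_add]

/-- A monic polynomial of degree `d` cannot have `d + 1` approximate roots that are pairwise
incongruent. -/
theorem no_many_approx_roots [DecidableEq E] :
    ∀ (d : ℕ) (P : E[X]), P.Monic → P.natDegree = d → ∀ (s : Finset E), d < s.card →
      (∀ a ∈ s, ∀ b ∈ s, a ≠ b → w (a - b) ≤ 0) → (∀ a ∈ s, 0 < w (P.eval a)) → False := by
  intro d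
  induction d with
  | zero =>
    intro P hP hd s hs _ hroot
    have hP1 : P = 1 := hP.natDegree_eq_zero.mp hd
    obtain ⟨a, ha⟩ := Finset.card_pos.mp hs
    have h := hroot a ha
    rw [hP1, eval_one, w.map_one] at h
    exact lt_irrefl _ h
  | succ d ih =>
    intro P hP hd s hs hdist hroot
    obtain ⟨a₀, ha₀⟩ : s.Nonempty := Finset.card_pos.mp (by omega)
    have hXa : (X - C a₀ : E[X]).Monic := monic_X_sub_C a₀
    have hdecomp : P = C (P.eval a₀) + (X - C a₀) * (P /ₘ (X - C a₀)) := by
      have h := modByMonic_add_div P (X - C a₀)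
      rw [modByMonic_X_sub_C_eq_C_eval] at h
      exact h.symm
    have hdegle : (X - C a₀ : E[X]).degree ≤ P.degree := by
      rw [degree_X_sub_C, degree_eq_natDegree hP.ne_zero, hd]
      exact_mod_cast Nat.succ_le_succ (Nat.zero_le d)
    have hQmonic : (P /ₘ (X - C a₀)).Monic := by
      have h := leadingCoeff_divByMonic_of_monic hXa hdegle
      rw [Monic, h]; exact hP
    have hQdeg : (P /ₘ (X - C a₀)).natDegree = d := by
      rw [natDegree_divByMonic P hXa, hd, natDegree_X_sub_C]; rfl
    apply ih (P /ₘ (X - C a₀)) hQmonic hQdeg (s.erase a₀)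
    · rw [Finset.card_erase_of_mem ha₀]; omega
    · intro a ha b hb hab
      exact hdist a (Finset.mem_of_mem_erase ha) b (Finset.mem_of_mem_erase hb) hab
    · intro a ha
      have ha' := Finset.mem_of_mem_erase ha
      have hne : a ≠ a₀ := Finset.ne_of_mem_erase ha
      have h1 : P.eval a - P.eval a₀ = (a - a₀) * (P /ₘ (X - C a₀)).eval a := by
        conv_lhs => rw [hdecomp]
        simp
      have h2 : 0 < w (P.eval a - P.eval a₀) := by
        rw [sub_eq_add_neg]
        exact w.map_lt_add (hroot a ha') (by rw [w.map_neg]; exact hroot a₀ ha₀)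
      rw [h1, w.map_mul] at h2
      by_contra hQ0
      rw [not_lt] at hQ0
      have h3 := add_nonpos (hdist a ha' a₀ ha₀ hne) hQ0
      exact absurd h2 (not_lt.mpr h3)

/-- Polynomial values at two integral points differ by a multiple of the difference. -/
theorem val_eval₂_sub_eval₂ {K : Type*} [Field K] (κ : K →+* E) (hκ : ∀ a, 0 ≤ w (κ a))
    {r r' : E} (hr : 0 ≤ w r) (hr' : 0 ≤ w r') (p : K[X]) :
    w (r' - r) ≤ w (p.eval₂ κ r' - p.eval₂ κ r) := by
  induction p using Polynomial.induction_on' with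
  | add p q hp hq =>
    rw [eval₂_add, eval₂_add]
    have h1 : p.eval₂ κ r' + q.eval₂ κ r' - (p.eval₂ κ r + q.eval₂ κ r)
        = (p.eval₂ κ r' - p.eval₂ κ r) + (q.eval₂ κ r' - q.eval₂ κ r) := by ring
    rw [h1]
    exact w.map_le_add hp hq
  | monomial n a =>
    rw [eval₂_monomial, eval₂_monomial, ← mul_sub, w.map_mul]
    have hpow : w (r' - r) ≤ w (r' ^ n - r ^ n) := by
      induction n with
      | zero => simp
      | succ n ih =>
        have h1 : r' ^ (n + 1) - r ^ (n + 1) = r' ^ n * (r' - r) + (r' ^ n - r ^ n) * r := by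
          ring
        rw [h1]
        apply w.map_le_add
        · rw [w.map_mul, w.map_pow]
          exact le_add_of_nonneg_left (nsmul_nonneg hr' n)
        · rw [w.map_mul]
          exact le_add_of_le_of_nonneg ih hr
    exact le_add_of_nonneg_of_le (hκ a) hpow

end ValLemmas

/-! ### Section 2: ring homs from a ring with a "uniformizer" into a valued field -/

section Abstract

variable {K : Type*} [Field K] {R : Type*} [CommRing R] [Algebra K R]
variable {E : Type*} [Field E] (w : AddValuation E (WithTop ℤ))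

/-- Approximation property: every element is a polynomial in `t` with coefficients in `K`
modulo any power of `t`. -/
def Approx (K : Type*) [Field K] {R : Type*} [CommRing R] [Algebra K R] (t : R) : Prop :=
  ∀ (k : ℕ) (u : R), ∃ p : K[X], ∃ r : R, u = aeval t p + t ^ k * r

theorem val_unit (g : R →+* E) (hg : ∀ x, 0 ≤ w (g x)) {u : R} (hu : IsUnit u) :
    w (g u) = 0 := by
  obtain ⟨u', hu'⟩ := hu.exists_right_inv
  have h1 : w (g u) + w (g u') = 0 := by
    rw [← w.map_mul, ← map_mul, hu', map_one, w.map_one]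
  refine le_antisymm ?_ (hg u)
  by_contra h
  rw [not_le] at h
  have h2 := add_pos_of_pos_of_nonneg h (hg u')
  rw [h1] at h2
  exact lt_irrefl _ h2

theorem lemmaA {t : R} (happ : Approx K t) (g g' : R →+* E)
    (hg : ∀ x, 0 ≤ w (g x)) (hg' : ∀ x, 0 ≤ w (g' x))
    (hK : ∀ a : K, g (algebraMap K R a) = g' (algebraMap K R a))
    (ht : 0 < w (g t)) (ht' : 0 < w (g' t)) (u : R) :
    w (g' t - g t) ≤ w (g' u - g u) := by
  have key : ∀ k : ℕ, min (w (g' t - g t)) ((k : ℤ) : WithTop ℤ) ≤ w (g' u - g u) := by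
    intro k
    obtain ⟨p, r, hu⟩ := happ k u
    have hcomp : g'.comp (algebraMap K R) = g.comp (algebraMap K R) :=
      RingHom.ext fun a => (hK a).symm
    have e1 : g u = p.eval₂ (g.comp (algebraMap K R)) (g t) + g t ^ k * g r := by
      rw [hu, map_add, map_mul, map_pow, aeval_def, hom_eval₂]
    have e2 : g' u = p.eval₂ (g.comp (algebraMap K R)) (g' t) + g' t ^ k * g' r := by
      rw [hu, map_add, map_mul, map_pow, aeval_def, hom_eval₂, hcomp]
    have e3 : g' u - g u = (p.eval₂ (g.comp (algebraMap K R)) (g' t)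
        - p.eval₂ (g.comp (algebraMap K R)) (g t)) + (g' t ^ k * g' r - g t ^ k * g r) := by
      rw [e1, e2]; ring
    rw [e3]
    refine le_trans ?_ (w.map_add _ _)
    apply min_le_min
    · exact val_eval₂_sub_eval₂ w _ (fun a => hg _) (hg t) (hg' t) p
    · apply w.map_le_sub
      · rw [w.map_mul, w.map_pow]
        exact le_add_of_le_of_nonneg (wt_natCast_le_nsmul ht' k) (hg' r)
      · rw [w.map_mul, w.map_pow]
        exact le_add_of_le_of_nonneg (wt_natCast_le_nsmul ht k) (hg r)
  by_cases htop : w (g' t - g t) = ⊤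
  · have h1 : w (g' u - g u) = ⊤ := by
      apply wt_eq_top_of_forall_nat_le
      intro k
      have h2 := key k
      rwa [htop, min_eq_right le_top] at h2
    rw [h1]; exact le_top
  · obtain ⟨d, hd⟩ := WithTop.ne_top_iff_exists.mp htop
    have h2 := key d.toNat
    rw [← hd] at h2 ⊢
    rwa [min_eq_left] at h2
    exact_mod_cast Int.self_le_toNat d

theorem lemmaC {t : R} (happ : Approx K t) (g g' : R →+* E)
    (hg : ∀ x, 0 ≤ w (g x)) (hg' : ∀ x, 0 ≤ w (g' x))
    (hK : ∀ a : K, g (algebraMap K R a) = g' (algebraMap K R a))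
    (ht : 0 < w (g t)) (ht' : 0 < w (g' t)) (heq : g' t = g t) : g' = g := by
  ext u
  have h := lemmaA w happ g g' hg hg' hK ht ht' u
  rw [heq, sub_self, w.map_zero, top_le_iff] at h
  exact sub_eq_zero.mp (w.top_iff.mp h)

theorem lemmaB {t : R} (happ : Approx K t) (g g' : R →+* E)
    (hg : ∀ x, 0 ≤ w (g x)) (hg' : ∀ x, 0 ≤ w (g' x))
    (hK : ∀ a : K, g (algebraMap K R a) = g' (algebraMap K R a))
    (ht : 0 < w (g t)) (ht' : 0 < w (g' t))
    {y u : R} {e : ℕ} (hy : y = u * t ^ e) (hu : IsUnit u) (hgy : g y = g' y)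
    (he : w (e : E) = 0)
    (hlt : w (g t) < w (g' t - g t)) : g' t = g t := by
  have hr0 : g t ≠ 0 := by
    intro h0
    rw [h0, w.map_zero] at hlt
    exact not_top_lt hlt
  have hz1 : g' t - g t = (g' t / g t - 1) * g t := by field_simp
  have hzpos : 0 < w (g' t / g t - 1) := by
    rw [hz1, w.map_mul] at hlt
    exact wt_pos_of_lt_add hlt
  have hgu' : w (g' u) = 0 := val_unit w g' hg' hu
  have hrel : g u * g t ^ e = g' u * g' t ^ e := by
    rw [← map_pow, ← map_mul, ← hy, hgy, hy, map_mul, map_pow]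
  have hzpow : ((g' t / g t) ^ e - 1) * g' u = g u - g' u := by
    have h1 : g' t ^ e = (g' t / g t) ^ e * g t ^ e := by
      rw [div_pow]; field_simp
    have h2 : g u = g' u * (g' t / g t) ^ e := by
      rw [h1] at hrel
      exact mul_right_cancel₀ (pow_ne_zero e hr0) (by linear_combination hrel)
    rw [h2]; ring
  have hA : w (g' t - g t) ≤ w (g u - g' u) := by
    rw [w.map_sub_swap (g u) (g' u)]
    exact lemmaA w happ g g' hg hg' hK ht ht' u
  have hV1 := val_pow_sub_one w hzpos he
  have h3 : w (g' t / g t - 1) + w (g t) ≤ w (g' t / g t - 1) := by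
    calc w (g' t / g t - 1) + w (g t) = w (g' t - g t) := by
          conv_rhs => rw [hz1, w.map_mul]
      _ ≤ w (g u - g' u) := hA
      _ = w (((g' t / g t) ^ e - 1) * g' u) := by rw [hzpow]
      _ = w ((g' t / g t) ^ e - 1) := by rw [w.map_mul, hgu', add_zero]
      _ = w (g' t / g t - 1) := hV1
  have h4 : w (g' t / g t - 1) = ⊤ := wt_eq_top_of_add_le ht h3
  have h5 : g' t / g t - 1 = 0 := w.top_iff.mp h4
  have h6 : g' t - g t = 0 := by rw [hz1, h5, zero_mul]
  exact sub_eq_zero.mp h6

/-- Fibre bound: at most `e` ring homs `R → E` agree on `K` and on `y = u * t ^ e`. -/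
theorem lemmaD {t : R} (happ : Approx K t) {I : Type*} [Fintype I] (g : I → R →+* E)
    (hinj : Function.Injective g)
    (hg : ∀ i x, 0 ≤ w (g i x))
    (hK : ∀ i j (a : K), g i (algebraMap K R a) = g j (algebraMap K R a))
    {y u : R} {e : ℕ} (he1 : 0 < e) (hy : y = u * t ^ e) (hu : IsUnit u)
    (hgy : ∀ i j, g i y = g j y)
    (m : ℤ) (hm : 0 < m) (hwy : ∀ i, w (g i y) = (m : WithTop ℤ))
    (he : w (e : E) = 0) :
    Fintype.card I ≤ e := by
  classical
  by_contra hcard
  rw [not_le] at hcard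
  obtain ⟨i₀⟩ : Nonempty I := Fintype.card_pos_iff.mp (by omega)
  -- the values `w (g i t)`
  have hval : ∀ i, ∃ a : ℤ, w (g i t) = (a : WithTop ℤ) ∧ (e : ℤ) * a = m := by
    intro i
    have h1 : w (g i y) = e • w (g i t) := by
      rw [hy, map_mul, map_pow, w.map_mul, w.map_pow, val_unit w (g i) (hg i) hu, zero_add]
    rw [hwy i] at h1
    have hne : w (g i t) ≠ ⊤ := by
      intro htop
      rw [htop] at h1
      have : e • (⊤ : WithTop ℤ) = ⊤ := by
        obtain ⟨e', rfl⟩ := Nat.exists_eq_succ_of_ne_zero he1.ne'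
        rw [succ_nsmul]; simp
      rw [this] at h1
      exact WithTop.coe_ne_top h1
    obtain ⟨a, ha⟩ := WithTop.ne_top_iff_exists.mp hne
    refine ⟨a, ha.symm, ?_⟩
    rw [← ha] at h1
    have h2 : e • (a : WithTop ℤ) = (((e : ℤ) * a : ℤ) : WithTop ℤ) := by
      rw [← WithTop.coe_nsmul, nsmul_eq_mul]
    rw [h2] at h1
    exact_mod_cast h1.symm
  have hpos : ∀ i, 0 < w (g i t) := by
    intro i
    obtain ⟨a, ha, hea⟩ := hval i
    rw [ha]
    have : (0 : ℤ) < a := by
      by_contra hneg
      rw [not_lt] at hneg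
      have h1 : (e : ℤ) * a ≤ 0 := mul_nonpos_of_nonneg_of_nonpos (by positivity) hneg
      omega
    exact_mod_cast this
  have hsame : ∀ i j, w (g i t) = w (g j t) := by
    intro i j
    obtain ⟨a, ha, hea⟩ := hval i
    obtain ⟨b, hb, heb⟩ := hval j
    rw [ha, hb]
    have : a = b := by
      have h1 : (e : ℤ) * a = (e : ℤ) * b := by rw [hea, heb]
      exact mul_left_cancel₀ (by exact_mod_cast he1.ne') h1
    rw [this]
  have hne0 : ∀ i, g i t ≠ 0 := by
    intro i h0
    have h1 := hpos i
    obtain ⟨a, ha, -⟩ := hval i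
    rw [h0, w.map_zero] at ha
    exact WithTop.top_ne_coe ha
  have hi₀ : g i₀ t ≠ 0 := hne0 i₀
  -- the nodes
  let z : I → E := fun i => g i t / g i₀ t
  have hzinj : Function.Injective z := by
    intro i j hij
    have h1 : g i t = g j t := by
      have h2 : g i t / g i₀ t = g j t / g i₀ t := hij
      rwa [div_left_inj' hi₀] at h2
    have h3 : g i = g j :=
      lemmaC w happ (g j) (g i) (hg j) (hg i) (hK j i) (hpos j) (hpos i) h1
    exact hinj h3
  have hmonic : (X ^ e - 1 : E[X]).Monic := by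
    have := monic_X_pow_sub_C (1 : E) he1.ne'
    simpa using this
  have hdeg : (X ^ e - 1 : E[X]).natDegree = e := by
    have := natDegree_X_pow_sub_C (R := E) (n := e) (r := 1)
    simpa using this
  apply no_many_approx_roots w e (X ^ e - 1) hmonic hdeg (Finset.univ.image z)
  · rw [Finset.card_image_of_injective _ hzinj, Finset.card_univ]; exact hcard
  · intro a ha b hb hab
    obtain ⟨i, -, rfl⟩ := Finset.mem_image.mp ha
    obtain ⟨j, -, rfl⟩ := Finset.mem_image.mp hb
    by_contra hcon
    rw [not_le] at hcon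
    apply hab
    have h1 : g i t - g j t = (z i - z j) * g i₀ t := by
      simp only [z]; field_simp
    have h2 : w (g j t) < w (g i t - g j t) := by
      rw [h1, w.map_mul, hsame j i₀]
      obtain ⟨a, ha, -⟩ := hval i₀
      rw [ha]
      by_contra hle
      rw [not_lt] at hle
      -- w (z i - z j) + a ≤ a with 0 < w (z i - z j): impossible
      have h3 : (0 : WithTop ℤ) + (a : WithTop ℤ) < w (z i - z j) + (a : WithTop ℤ) :=
        WithTop.add_lt_add_right WithTop.coe_ne_top hcon
      rw [zero_add] at h3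
      exact absurd hle (not_le.mpr h3)
    have h4 : g i t = g j t :=
      lemmaB w happ (g j) (g i) (hg j) (hg i) (hK j i) (hpos j) (hpos i) hy hu (hgy j i) he h2
    simp only [z, h4]
  · intro a ha
    obtain ⟨i, -, rfl⟩ := Finset.mem_image.mp ha
    have hrel : g i u * g i t ^ e = g i₀ u * g i₀ t ^ e := by
      rw [← map_pow, ← map_mul, ← hy, hgy i i₀, hy, map_mul, map_pow]
    have hzpow : ((z i) ^ e - 1) * g i u = g i₀ u - g i u := by
      have h1 : g i t ^ e = (z i) ^ e * g i₀ t ^ e := by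
        simp only [z]; rw [div_pow]; field_simp
      have h2 : g i₀ u = g i u * (z i) ^ e := by
        rw [h1] at hrel
        exact mul_right_cancel₀ (pow_ne_zero e (hne0 i₀)) (by linear_combination -hrel)
      rw [h2]; ring
    have hA : w (g i₀ t - g i t) ≤ w (g i₀ u - g i u) :=
      lemmaA w happ (g i) (g i₀) (hg i) (hg i₀) (hK i i₀) (hpos i) (hpos i₀) u
    have hB : 0 < w (g i₀ t - g i t) := by
      rw [sub_eq_add_neg]
      exact w.map_lt_add (hpos i₀) (by rw [w.map_neg]; exact hpos i)
    have hC : w (((z i) ^ e - 1) * g i u) = w ((z i) ^ e - 1) := by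
      rw [w.map_mul, val_unit w (g i) (hg i) hu, add_zero]
    simp only [eval_sub, eval_pow, eval_X, eval_one]
    rw [← hC, hzpow]
    exact lt_of_lt_of_le hB hA

end Abstract

/-! ### Section 3: places induced by embeddings into a valued field -/

section PlacePart

variable {K F : Type*} [Field K] [Field F] [Algebra K F]
variable {E : Type*} [Field E] (w : AddValuation E (WithTop ℤ))

/-- The valuation subring of `F` induced by a ring hom into a valued field. -/
def valSubring (φ : F →+* E) : ValuationSubring F where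
  carrier := {f | 0 ≤ w (φ f)}
  mul_mem' := fun {a b} ha hb => by
    show 0 ≤ w (φ (a * b))
    rw [map_mul, w.map_mul]; exact add_nonneg ha hb
  one_mem' := by
    show 0 ≤ w (φ 1)
    rw [map_one, w.map_one]
  add_mem' := fun {a b} ha hb => by
    show 0 ≤ w (φ (a + b))
    rw [map_add]; exact w.map_le_add ha hb
  zero_mem' := by
    show 0 ≤ w (φ 0)
    rw [map_zero, w.map_zero]; exact le_top
  neg_mem' := fun {a} ha => by
    show 0 ≤ w (φ (-a))
    rw [map_neg, w.map_neg]; exact ha
  mem_or_inv_mem' := fun x => by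
    show 0 ≤ w (φ x) ∨ 0 ≤ w (φ x⁻¹)
    rcases eq_or_ne x 0 with rfl | hx
    · left; rw [map_zero, w.map_zero]; exact le_top
    · by_contra h
      rcases not_or.mp h with ⟨ha, hb⟩
      rw [not_le] at ha hb
      have h1 : w (φ x) + w (φ x⁻¹) = 0 := by
        rw [← w.map_mul, ← map_mul, mul_inv_cancel₀ hx, map_one, w.map_one]
      have h2 : w (φ x) + w (φ x⁻¹) ≤ w (φ x) + 0 := add_le_add le_rfl hb.le
      rw [h1, add_zero] at h2
      exact absurd ha (not_lt.mpr h2)

theorem mem_valSubring {φ : F →+* E} {f : F} : f ∈ valSubring w φ ↔ 0 ≤ w (φ f) := Iff.rfl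

theorem valSubring_isPrincipalIdealRing (φ : F →+* E) :
    IsPrincipalIdealRing (valSubring w φ) := by
  classical
  constructor
  intro I
  by_cases hI : I = ⊥
  · rw [hI]; exact bot_isPrincipal
  have hfin : ∀ x : valSubring w φ, x ≠ 0 → ∃ n : ℕ, w (φ (x : F)) = ((n : ℤ) : WithTop ℤ) := by
    intro x hx
    have hx' : (x : F) ≠ 0 := by simpa using hx
    have h1 : w (φ (x : F)) ≠ ⊤ := by
      intro h
      exact hx' ((map_eq_zero φ).mp (w.top_iff.mp h))
    obtain ⟨a, ha⟩ := WithTop.ne_top_iff_exists.mp h1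
    have h2 : 0 ≤ w (φ (x : F)) := x.2
    rw [← ha] at h2
    have h3 : (0 : ℤ) ≤ a := by exact_mod_cast h2
    refine ⟨a.toNat, ?_⟩
    rw [← ha, Int.toNat_of_nonneg h3]
  obtain ⟨x0, hx0I, hx0⟩ := Submodule.exists_mem_ne_zero_of_ne_bot hI
  have hex : ∃ n : ℕ, ∃ x ∈ I, x ≠ 0 ∧ w (φ (x : F)) = ((n : ℤ) : WithTop ℤ) := by
    obtain ⟨n, hn⟩ := hfin x0 hx0
    exact ⟨n, x0, hx0I, hx0, hn⟩
  obtain ⟨x, hxI, hx, hwx⟩ := Nat.find_spec hex
  have hmin : ∀ y ∈ I, y ≠ 0 → w (φ (x : F)) ≤ w (φ (y : F)) := by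
    intro y hyI hy
    obtain ⟨k, hk⟩ := hfin y hy
    have h1 : Nat.find hex ≤ k := Nat.find_min' hex ⟨y, hyI, hy, hk⟩
    rw [hwx, hk]
    exact_mod_cast h1
  have hx' : (x : F) ≠ 0 := by simpa using hx
  refine ⟨⟨x, ?_⟩⟩
  apply le_antisymm
  · intro y hyI
    rw [Submodule.mem_span_singleton]
    rcases eq_or_ne y 0 with rfl | hy
    · exact ⟨0, by simp⟩
    have hq : (y : F) / (x : F) ∈ valSubring w φ := by
      show 0 ≤ w (φ ((y : F) / (x : F)))
      have h1 : w (φ (y : F)) = w (φ ((y : F) / (x : F))) + w (φ (x : F)) := by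
        rw [← w.map_mul, ← map_mul, div_mul_cancel₀ _ hx']
      have h2 := hmin y hyI hy
      rw [h1] at h2
      by_contra hneg
      rw [not_le] at hneg
      obtain ⟨n, hn⟩ := hfin x hx
      rw [hn] at h2
      have h3 : w (φ ((y : F) / (x : F))) + ((n : ℤ) : WithTop ℤ) < 0 + ((n : ℤ) : WithTop ℤ) :=
        WithTop.add_lt_add_right WithTop.coe_ne_top hneg
      rw [zero_add] at h3
      exact absurd h2 (not_le.mpr h3)
    refine ⟨⟨_, hq⟩, ?_⟩
    apply Subtype.ext
    show (y : F) / (x : F) * (x : F) = (y : F)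
    exact div_mul_cancel₀ _ hx'
  · rw [Submodule.span_singleton_le_iff_mem]; exact hxI

/-- The place of `F` induced by a ring hom into a valued field. -/
def placeOf (φ : F →+* E) (hK : ∀ a : K, 0 ≤ w (φ (algebraMap K F a)))
    (hnt : ∃ f : F, ¬ 0 ≤ w (φ f)) : Place K F where
  toValuationSubring := valSubring w φ
  algebraMap_mem' := hK
  ne_top' := by
    intro h
    obtain ⟨f, hf⟩ := hnt
    apply hf
    have h1 : f ∈ valSubring w φ := h ▸ ValuationSubring.mem_top f
    exact h1
  isPrincipalIdealRing' := valSubring_isPrincipalIdealRing w φ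

variable (v : Place K F)

theorem approx_of_residue (hres : Function.Surjective (algebraMap K v.ResidueField))
    {π : v.toValuationSubring} (hπ : Irreducible π) : Approx K π := by
  intro k
  induction k with
  | zero => intro u; exact ⟨0, u, by simp⟩
  | succ k ih =>
    intro u
    obtain ⟨p, r, hu⟩ := ih u
    obtain ⟨c, hc⟩ := hres (IsLocalRing.residue v.toValuationSubring r)
    have hmem : r - algebraMap K v.toValuationSubring c ∈
        IsLocalRing.maximalIdeal v.toValuationSubring := by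
      rw [← Ideal.Quotient.eq]
      exact hc.symm
    rw [hπ.maximalIdeal_eq, Ideal.mem_span_singleton'] at hmem
    obtain ⟨r', hr'⟩ := hmem
    refine ⟨p + C c * X ^ k, r', ?_⟩
    have h1 : aeval π (p + C c * X ^ k) = aeval π p + algebraMap K v.toValuationSubring c * π ^ k := by
      simp [aeval_def, eval₂_add, eval₂_mul]
    rw [h1, hu]
    have h2 : r = algebraMap K v.toValuationSubring c + r' * π := by rw [hr']; ring
    rw [h2]; ring

theorem exists_unit_mul_pow_of_ord_pos {y : F} (hy : 0 < v.ord y) {π : v.toValuationSubring}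
    (hπ : Irreducible π) :
    ∃ (y' : v.toValuationSubring) (u : v.toValuationSubring), (y' : F) = y ∧ IsUnit u ∧
      y' = u * π ^ (v.ord y).toNat := by
  have hy0 : y ≠ 0 := by
    rintro rfl
    simp at hy
  obtain ⟨u, hu⟩ := v.exists_unit_mul_zpow hy0 hπ
  refine ⟨(u : v.toValuationSubring) * π ^ (v.ord y).toNat, u, ?_, u.isUnit, rfl⟩
  have h1 : ((v.ord y).toNat : ℤ) = v.ord y := Int.toNat_of_nonneg hy.le
  conv_rhs => rw [hu, ← h1, zpow_natCast]
  push_cast
  rfl

theorem ord_pos_of_mem_of_inv_not_mem {y : F} (hy : y ∈ v.toValuationSubring)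
    (hy' : y⁻¹ ∉ v.toValuationSubring) : 0 < v.ord y := by
  have hy0 : y ≠ 0 := by
    rintro rfl
    apply hy'
    rw [inv_zero]
    exact v.toValuationSubring.zero_mem
  obtain ⟨π, hπ⟩ := IsDiscreteValuationRing.exists_irreducible v.toValuationSubring
  obtain ⟨u, hu⟩ := v.exists_unit_mul_zpow hy0 hπ
  by_contra hle
  rw [not_lt] at hle
  apply hy'
  have hπF : (π : F) ≠ 0 := by
    simpa [ne_eq, ZeroMemClass.coe_eq_zero] using hπ.ne_zero
  have h2 : ((-(v.ord y)).toNat : ℤ) = -(v.ord y) := Int.toNat_of_nonneg (by omega)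
  have huu : (((u⁻¹ : (v.toValuationSubring)ˣ) : v.toValuationSubring) : F)
      * ((u : v.toValuationSubring) : F) = 1 := by
    have h := congrArg Subtype.val (Units.inv_mul u)
    exact h
  have h1 : ((((u⁻¹ : (v.toValuationSubring)ˣ) : v.toValuationSubring)
      * π ^ (-(v.ord y)).toNat : v.toValuationSubring) : F) * y = 1 := by
    push_cast
    rw [← zpow_natCast (π : F), h2]
    calc (((u⁻¹ : (v.toValuationSubring)ˣ) : v.toValuationSubring) : F) * (π : F) ^ (-(v.ord y))
          * y
        = (((u⁻¹ : (v.toValuationSubring)ˣ) : v.toValuationSubring) : F)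
          * (π : F) ^ (-(v.ord y))
          * (((u : v.toValuationSubring) : F) * (π : F) ^ (v.ord y)) := by rw [← hu]
      _ = ((((u⁻¹ : (v.toValuationSubring)ˣ) : v.toValuationSubring) : F)
            * ((u : v.toValuationSubring) : F))
          * ((π : F) ^ (-(v.ord y)) * (π : F) ^ (v.ord y)) := by ring
      _ = 1 := by rw [huu, one_mul, ← zpow_add₀ hπF, neg_add_cancel, zpow_zero]
  rw [← eq_inv_of_mul_eq_one_left h1]
  exact (((u⁻¹ : (v.toValuationSubring)ˣ) : v.toValuationSubring)
      * π ^ (-(v.ord y)).toNat : v.toValuationSubring).2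

end PlacePart

/-! ### Section 4: the orbit counting theorem -/

section Main

theorem exists_pow_eq_zpow {G : Type*} [Group G] [Finite G] (g : G) (n : ℤ) :
    ∃ k : ℕ, g ^ n = g ^ k := by
  have hpos : 0 < orderOf g := orderOf_pos g
  refine ⟨(n % (orderOf g : ℤ)).toNat, ?_⟩
  rw [← zpow_natCast, Int.toNat_of_nonneg (Int.emod_nonneg _ (by exact_mod_cast hpos.ne')),
    zpow_mod_orderOf]

variable {K F : Type*} [Field K] [Field F] [Algebra K F]
variable {E : Type*} [Field E] (w : AddValuation E (WithTop ℤ))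

/-- **Orbit counting (LOC), core form.** -/
theorem loc_core [CharZero K] [Algebra K E] (y : F)
    (s : Finset (Place K F)) (hs : ∀ v : Place K F, v ∈ s ↔ 0 < v.ord y)
    (hres : ∀ v : Place K F, Function.Surjective (algebraMap K v.ResidueField))
    (hwK : ∀ a : K, a ≠ 0 → w (algebraMap K E a) = 0)
    {X : Type*} [Fintype X]
    (hsum : ∑ v ∈ s, v.ord y = (Fintype.card X : ℤ))
    (ι : X → (F →ₐ[K] E)) (hι : Function.Injective ι)
    (ξ : E) (hξ : ∀ i, ι i y = ξ) (m : ℕ) (hm : 0 < m) (hwξ : w ξ = ((m : ℤ) : WithTop ℤ))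
    (σ : E ≃ₐ[K] E) (hσ : ∀ z, w (σ z) = w z)
    (ρ : Equiv.Perm X) (hρ : ∀ i f, σ (ι i f) = ι (ρ i) f)
    (hdiv : ∀ (k : ℕ) (z : E), z ≠ 0 → (σ ^ k) z = z →
      ∃ l : ℤ, w z = (((m / Nat.gcd k m : ℕ) * l : ℤ) : WithTop ℤ)) :
    s.card = Nat.card (MulAction.orbitRel.Quotient (Subgroup.zpowers ρ) X) := by
  classical
  have hmpos : (0 : WithTop ℤ) < ((m : ℤ) : WithTop ℤ) := by exact_mod_cast hm
  have hK0 : ∀ (i : X) (a : K), 0 ≤ w ((ι i : F →+* E) (algebraMap K F a)) := by
    intro i a
    show 0 ≤ w (ι i (algebraMap K F a))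
    rw [AlgHom.commutes]
    rcases eq_or_ne a 0 with rfl | ha
    · rw [map_zero, w.map_zero]; exact le_top
    · rw [hwK a ha]
  have hξ0 : ξ ≠ 0 := by
    intro h
    rw [h, w.map_zero] at hwξ
    exact WithTop.top_ne_coe hwξ
  have hyinv : ∀ i : X, ¬ 0 ≤ w (ι i y⁻¹) := by
    intro i h
    have hy0 : y ≠ 0 := by
      rintro rfl
      exact hξ0 (by rw [← hξ i, map_zero])
    have h1 : w (ι i y) + w (ι i y⁻¹) = 0 := by
      rw [← w.map_mul, ← map_mul, mul_inv_cancel₀ hy0, map_one, w.map_one]
    rw [hξ i, hwξ] at h1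
    have h2 := add_pos_of_pos_of_nonneg hmpos h
    rw [h1] at h2
    exact lt_irrefl _ h2
  let P : X → Place K F := fun i => placeOf w (ι i : F →+* E) (hK0 i) ⟨y⁻¹, hyinv i⟩
  have hPs : ∀ i, P i ∈ s := by
    intro i
    rw [hs]
    apply ord_pos_of_mem_of_inv_not_mem
    · show 0 ≤ w (ι i y)
      rw [hξ i, hwξ]; exact hmpos.le
    · exact hyinv i
  -- the fibre bound
  have hfib : ∀ v ∈ s, (Finset.univ.filter (fun i => P i = v)).card ≤ (v.ord y).toNat := by
    intro v hv
    have hvy : 0 < v.ord y := (hs v).mp hv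
    obtain ⟨π, hπ⟩ := IsDiscreteValuationRing.exists_irreducible v.toValuationSubring
    obtain ⟨y', u, hy'y, hu, hy'⟩ := exists_unit_mul_pow_of_ord_pos v hvy hπ
    have happ := approx_of_residue v (hres v) hπ
    let g : {i : X // P i = v} → v.toValuationSubring →+* E :=
      fun i => (ι i.1 : F →+* E).comp v.toValuationSubring.subtype
    have hgapp : ∀ (i : {i : X // P i = v}) (x : v.toValuationSubring), g i x = ι i.1 (x : F) :=
      fun i x => rfl
    have hginj : Function.Injective g := by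
      intro i j hij
      apply Subtype.ext
      apply hι
      apply AlgHom.ext
      intro f
      rcases v.toValuationSubring.mem_or_inv_mem f with hf | hf
      · have h1 := congrArg (fun φ => φ ⟨f, hf⟩) hij
        exact h1
      · have h1 : ι i.1 f⁻¹ = ι j.1 f⁻¹ := congrArg (fun φ => φ ⟨f⁻¹, hf⟩) hij
        rw [map_inv₀, map_inv₀] at h1
        exact inv_injective h1
    have hg0 : ∀ (i : {i : X // P i = v}) (x : v.toValuationSubring), 0 ≤ w (g i x) := by
      intro i x
      have h1 : (x : F) ∈ (P i.1).toValuationSubring := by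
        rw [i.2]; exact x.2
      exact h1
    have hgK : ∀ (i j : {i : X // P i = v}) (a : K),
        g i (algebraMap K v.toValuationSubring a) = g j (algebraMap K v.toValuationSubring a) := by
      intro i j a
      rw [hgapp, hgapp, v.coe_algebraMap, AlgHom.commutes, AlgHom.commutes]
    have hgy : ∀ i j : {i : X // P i = v}, g i y' = g j y' := by
      intro i j
      rw [hgapp, hgapp, hy'y, hξ, hξ]
    have hwy : ∀ i : {i : X // P i = v}, w (g i y') = ((m : ℤ) : WithTop ℤ) := by
      intro i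
      rw [hgapp, hy'y, hξ, hwξ]
    have he : w (((v.ord y).toNat : ℕ) : E) = 0 := by
      rw [← map_natCast (algebraMap K E)]
      apply hwK
      have : (v.ord y).toNat ≠ 0 := by omega
      exact_mod_cast this
    have hcard := lemmaD w happ g hginj hg0 hgK (e := (v.ord y).toNat) (by omega) hy' hu hgy
      (m : ℤ) (by exact_mod_cast hm) hwy he
    rw [Fintype.card_subtype] at hcard
    exact hcard
  have hcount : Fintype.card X = ∑ v ∈ s, (Finset.univ.filter (fun i => P i = v)).card := by
    rw [← Finset.card_univ]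
    exact Finset.card_eq_sum_card_fiberwise (fun i _ => hPs i)
  have hfibeq : ∀ v ∈ s, (Finset.univ.filter (fun i => P i = v)).card = (v.ord y).toNat := by
    have hsum' : ∑ v ∈ s, (Finset.univ.filter (fun i => P i = v)).card
        = ∑ v ∈ s, (v.ord y).toNat := by
      rw [← hcount]
      have h1 : ((∑ v ∈ s, (v.ord y).toNat : ℕ) : ℤ) = (Fintype.card X : ℤ) := by
        rw [← hsum]; push_cast
        refine Finset.sum_congr rfl fun v hv => ?_
        exact Int.toNat_of_nonneg ((hs v).mp hv).le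
      exact_mod_cast h1.symm
    exact (Finset.sum_eq_sum_iff_of_le hfib).mp hsum'
  -- invariance of the induced place under `ρ`
  have hPρ : ∀ i, P (ρ i) = P i := by
    intro i
    apply Place.ext
    ext f
    show 0 ≤ w (ι (ρ i) f) ↔ 0 ≤ w (ι i f)
    rw [← hρ i f, hσ]
  have hPpow : ∀ (k : ℕ) (i : X), P ((ρ ^ k) i) = P i := by
    intro k
    induction k with
    | zero => intro i; simp
    | succ k ih => intro i; rw [pow_succ', Equiv.Perm.mul_apply, hPρ, ih]
  have hσpow : ∀ (k : ℕ) (i : X) (f : F), (σ ^ k) (ι i f) = ι ((ρ ^ k) i) f := by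
    intro k
    induction k with
    | zero => intro i f; simp
    | succ k ih =>
      intro i f
      rw [pow_succ', AlgEquiv.mul_apply, ih, hρ, pow_succ', Equiv.Perm.mul_apply]
  -- stabiliser divisibility
  have hstab : ∀ (i : X) (k : ℕ), (ρ ^ k) i = i → ((P i).ord y).toNat ∣ k := by
    intro i k hk
    have hvy : 0 < (P i).ord y := (hs (P i)).mp (hPs i)
    obtain ⟨π, hπ⟩ := IsDiscreteValuationRing.exists_irreducible (P i).toValuationSubring
    obtain ⟨y', u, hy'y, hu, hy'⟩ := exists_unit_mul_pow_of_ord_pos (P i) hvy hπ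
    let g : (P i).toValuationSubring →+* E :=
      (ι i : F →+* E).comp (P i).toValuationSubring.subtype
    have hg : ∀ x, 0 ≤ w (g x) := fun x => x.2
    have h1 : w (g y') = ((P i).ord y).toNat • w (g π) := by
      rw [hy', map_mul, map_pow, w.map_mul, w.map_pow, val_unit w g hg hu, zero_add]
    have h2 : w (g y') = ((m : ℤ) : WithTop ℤ) := by
      show w (ι i (y' : F)) = _
      rw [hy'y, hξ i, hwξ]
    have hπ0 : (π : F) ≠ 0 := by
      simpa [ne_eq, ZeroMemClass.coe_eq_zero] using hπ.ne_zero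
    have hz0 : ι i (π : F) ≠ 0 := (map_ne_zero (ι i)).mpr hπ0
    have hfix : (σ ^ k) (ι i (π : F)) = ι i (π : F) := by rw [hσpow, hk]
    obtain ⟨l, hl⟩ := hdiv k _ hz0 hfix
    have h3 : ((P i).ord y).toNat • w (ι i (π : F)) = ((m : ℤ) : WithTop ℤ) := by
      rw [← h2, h1]; rfl
    rw [hl, ← WithTop.coe_nsmul, nsmul_eq_mul] at h3
    have h4 : (((P i).ord y).toNat : ℤ) * (((m / Nat.gcd k m : ℕ) : ℤ) * l) = m := by
      exact_mod_cast h3
    have hgpos : 0 < Nat.gcd k m := Nat.gcd_pos_of_pos_right k hm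
    have hm' : (m / Nat.gcd k m) * Nat.gcd k m = m := Nat.div_mul_cancel (Nat.gcd_dvd_right k m)
    have hm'pos : 0 < m / Nat.gcd k m :=
      Nat.div_pos (Nat.le_of_dvd hm (Nat.gcd_dvd_right k m)) hgpos
    have h5 : (((P i).ord y).toNat : ℤ) * l = (Nat.gcd k m : ℤ) := by
      have h6 : ((m / Nat.gcd k m : ℕ) : ℤ) * ((((P i).ord y).toNat : ℤ) * l)
          = ((m / Nat.gcd k m : ℕ) : ℤ) * (Nat.gcd k m : ℤ) := by
        have h7 : ((m / Nat.gcd k m : ℕ) : ℤ) * (Nat.gcd k m : ℤ) = m := by exact_mod_cast hm'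
        rw [h7, ← h4]; ring
      exact mul_left_cancel₀ (by exact_mod_cast hm'pos.ne') h6
    have h8 : (((P i).ord y).toNat : ℤ) ∣ (Nat.gcd k m : ℤ) := ⟨l, h5.symm⟩
    exact (Int.natCast_dvd_natCast.mp h8).trans (Nat.gcd_dvd_left k m)
  -- orbits are contained in fibres
  have hinv : ∀ a b : X, MulAction.orbitRel (Subgroup.zpowers ρ) X a b → P a = P b := by
    intro a b hab
    rw [MulAction.orbitRel_apply] at hab
    obtain ⟨⟨g, hg⟩, rfl⟩ := hab
    obtain ⟨n, rfl⟩ := Subgroup.mem_zpowers_iff.mp hg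
    obtain ⟨k, hk⟩ := exists_pow_eq_zpow ρ n
    show P ((ρ ^ n) b) = P b
    rw [hk, hPpow]
  -- fibres are orbits
  have horb : ∀ i j : X, P i = P j → MulAction.orbitRel (Subgroup.zpowers ρ) X i j := by
    intro i j hij
    rw [MulAction.orbitRel_apply]
    have hmem : P j ∈ s := hPs j
    have hinj : Set.InjOn (fun k : ℕ => (ρ ^ k) j) (Finset.range ((P j).ord y).toNat) := by
      intro a ha b hb hab
      rw [Finset.coe_range, Set.mem_Iio] at ha hb
      have key : ∀ a b : ℕ, a ≤ b → b < ((P j).ord y).toNat → (ρ ^ a) j = (ρ ^ b) j → a = b := by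
        intro a b hle hb hab
        have h1 : (ρ ^ (b - a)) j = j := by
          have h2 : ρ ^ b = ρ ^ a * ρ ^ (b - a) := by rw [← pow_add]; congr 1; omega
          rw [h2, Equiv.Perm.mul_apply] at hab
          exact ((ρ ^ a).injective hab).symm
        have h3 := hstab j (b - a) h1
        have h4 : b - a = 0 := Nat.eq_zero_of_dvd_of_lt h3 (by omega)
        omega
      rcases le_total a b with h | h
      · exact key a b h hb hab
      · exact (key b a h ha hab.symm).symm
    have hsub : (Finset.range ((P j).ord y).toNat).image (fun k : ℕ => (ρ ^ k) j)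
        ⊆ Finset.univ.filter (fun i => P i = P j) := by
      intro x hx
      obtain ⟨k, -, rfl⟩ := Finset.mem_image.mp hx
      exact Finset.mem_filter.mpr ⟨Finset.mem_univ _, hPpow k j⟩
    have hcardle : (Finset.univ.filter (fun i => P i = P j)).card
        ≤ ((Finset.range ((P j).ord y).toNat).image (fun k : ℕ => (ρ ^ k) j)).card := by
      rw [Finset.card_image_of_injOn hinj, Finset.card_range, hfibeq (P j) hmem]
    have heq := Finset.eq_of_subset_of_card_le hsub hcardle
    have hi : i ∈ Finset.univ.filter (fun i => P i = P j) :=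
      Finset.mem_filter.mpr ⟨Finset.mem_univ _, hij⟩
    rw [← heq] at hi
    obtain ⟨k, -, hk⟩ := Finset.mem_image.mp hi
    exact ⟨⟨ρ ^ k, pow_mem (Subgroup.mem_zpowers ρ) k⟩, hk⟩
  -- the bijection between orbits and zeros
  let f : MulAction.orbitRel.Quotient (Subgroup.zpowers ρ) X → {v // v ∈ s} :=
    Quotient.lift (fun i => (⟨P i, hPs i⟩ : {v // v ∈ s}))
      (fun a b hab => Subtype.ext (hinv a b hab))
  have hf : Function.Bijective f := by
    constructor
    · intro q1 q2
      induction q1 using Quotient.inductionOn with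
      | _ i =>
        induction q2 using Quotient.inductionOn with
        | _ j =>
          intro hij
          have hPij : P i = P j := congrArg Subtype.val hij
          exact Quotient.sound (horb i j hPij)
    · rintro ⟨v, hv⟩
      have h1 := hfibeq v hv
      have h2 : 0 < (Finset.univ.filter (fun i => P i = v)).card := by
        rw [h1]
        have := (hs v).mp hv
        omega
      obtain ⟨i, hi⟩ := Finset.card_pos.mp h2
      exact ⟨Quotient.mk _ i, Subtype.ext (Finset.mem_filter.mp hi).2⟩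
  rw [Nat.card_congr (Equiv.ofBijective f hf)]
  simp

end Main

/-! ### Section 5: `Stmt_LOC` of the S24 spec -/

open Fermat.Agent.S24.helper24 in
/-- **`Stmt_LOC`** (orbit counting) from the fundamental identity and "residue field = `K`". -/
theorem stmt_LOC (hFund : Stmt_FundId) (hRes : Stmt_ResidueK) : Stmt_LOC := by
  intro K F _ _ _ _ _ E _ _ y hy _ w hwK X _ hcard ι hι ξ hξ m hm hwξ σ hσ ρ hρ hdiv
  obtain ⟨s, hs, hsum⟩ := hFund K F y hy
  have h1 : Nat.card {v : Place K F // 0 < v.ord y} = s.card := by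
    rw [Nat.card_congr (Equiv.subtypeEquivRight (fun v => (hs v).symm))]
    simp
  rw [h1]
  refine loc_core w y s hs (fun v => hRes K F y hy v) hwK ?_ ι hι ξ hξ m hm hwξ σ hσ ρ hρ hdiv
  rw [hsum, hcard]

end Fermat.Agent.S24.helper2304
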