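import Fermat.Agent.S24.helper24_Spec
import Fermat.Agent.S24.helper84_ReeGenus

/-!
# S24: `Stmt_Hurwitz` (proved) and `Stmt_INT` (from the orbit counts of Module F)

Hypothesis-passing against the captain's spec file `helper24_Spec`.
-/

set_option autoImplicit false

namespace Fermat.Agent.S24.helper84

open Fermat.Agent.S24.helper24

/-- C5 of the spec: the Hurwitz genus of the permutation triple `(S, T, ST)` on
`SL(2, ℤ) ⧸ Γ₀(N)` is a natural number (parity by signs, nonnegativity by Scott's lemma). -/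
theorem stmt_Hurwitz : Stmt_Hurwitz := by
  intro N _
  have : Finite (XN N) := Subgroup.finite_quotient_of_finiteIndex
  exact exists_genus_SL2Z (X := XN N)

/-- `Stmt_INT` from the four counting statements of Module F. -/
theorem stmt_INT (h1 : Stmt_Index) (h2 : Stmt_OrbitsT) (h3 : Stmt_OrbitsS)
    (h4 : Stmt_OrbitsST) : Stmt_INT := by
  intro N _
  obtain ⟨g, hg⟩ := stmt_Hurwitz N
  refine ⟨g, (exists_nat_eq_genusFormula N _ _ _ g (h3 N) (h4 N) (h2 N) ?_).symm⟩
  rw [← h1 N]
  exact hg

/-- Variant keeping the Hurwitz relation: the natural number `g` with `g = genusFormula N`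
also satisfies `ψ(N) + 2 = 2g + r_S + r_T + r_ST`. -/
theorem stmt_INT' (h1 : Stmt_Index) (h2 : Stmt_OrbitsT) (h3 : Stmt_OrbitsS)
    (h4 : Stmt_OrbitsST) (N : ℕ) [NeZero N] :
    ∃ g : ℕ, (g : ℚ) = ModularCurve.genusFormula N ∧
      (Nat.card (XN N) : ℤ) + 2 = 2 * g
        + Nat.card (MulAction.orbitRel.Quotient (Subgroup.zpowers ModularGroup.S) (XN N))
        + Nat.card (MulAction.orbitRel.Quotient (Subgroup.zpowers ModularGroup.T) (XN N))
        + Nat.card (MulAction.orbitRel.Quotient
            (Subgroup.zpowers (ModularGroup.S * ModularGroup.T)) (XN N)) := by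
  obtain ⟨g, hg⟩ := stmt_Hurwitz N
  refine ⟨g, (exists_nat_eq_genusFormula N _ _ _ g (h3 N) (h4 N) (h2 N) ?_).symm, hg⟩
  rw [← h1 N]
  exact hg

end Fermat.Agent.S24.helper84
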