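import Fermat.Agent.S24.helper24_Spec2
import Fermat.Agent.S24.helper19_RHBookkeeping
import Fermat.Agent.S24.helper84_StmtINT
import Fermat.Agent.S24.helper564_LocalDiff

/-!
# S24 top-level assembly (captain helper24)

`s24_of`: the frozen statement from the `Stmt_*` interfaces, via
`helper19.genus_eq_genusFormula_of_counts`.
-/

set_option autoImplicit false

open ModularCurve AlgebraicCurve KaehlerDifferential IntermediateField CongruenceSubgroup
open scoped MatrixGroups

namespace Fermat.Agent.S24.helper24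

/-- G12. Principal divisors exist and have degree zero. -/
def Stmt_HasPrincipal : Prop :=
  ∀ (K F : Type) [Field K] [Field F] [Algebra K F] [IsAlgClosed K] [CharZero K] (x : F),
    Transcendental K x → ∀ [FiniteDimensional K⟮x⟯ F], HasPrincipalDivisors K F

/-- The numbers of places over `j = c`, `j = 1728`, `j = 0`, `j = ∞` as orbit counts. -/
def Stmt_PlaceCounts : Prop :=
  ∀ (N : ℕ) [NeZero N],
    (∀ c : Kbar, c ≠ 0 → c ≠ 1728 →
      Nat.card {v : Place Kbar (FN N) // 0 < v.ord (jBar N - algebraMap Kbar (FN N) c)}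
        = Nat.card (XN N)) ∧
    Nat.card {v : Place Kbar (FN N) // 0 < v.ord (jBar N - algebraMap Kbar (FN N) 1728)}
      = Nat.card (MulAction.orbitRel.Quotient (Subgroup.zpowers ModularGroup.S) (XN N)) ∧
    Nat.card {v : Place Kbar (FN N) // 0 < v.ord (jBar N - algebraMap Kbar (FN N) 0)}
      = Nat.card (MulAction.orbitRel.Quotient
          (Subgroup.zpowers (ModularGroup.S * ModularGroup.T)) (XN N)) ∧
    Nat.card {v : Place Kbar (FN N) // v.ord (jBar N) < 0}
      = Nat.card (MulAction.orbitRel.Quotient (Subgroup.zpowers ModularGroup.T) (XN N))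

section Generic

variable {K F : Type} [Field K] [Field F] [Algebra K F]

theorem adjoin_simple_sub_algebraMap (x : F) (c : K) :
    K⟮x - algebraMap K F c⟯ = K⟮x⟯ := by
  apply le_antisymm
  · rw [adjoin_simple_le_iff]
    exact sub_mem (mem_adjoin_simple_self K x) (IntermediateField.algebraMap_mem _ c)
  · rw [adjoin_simple_le_iff]
    have h : x - algebraMap K F c + algebraMap K F c ∈ K⟮x - algebraMap K F c⟯ :=
      add_mem (mem_adjoin_simple_self K _) (IntermediateField.algebraMap_mem _ c)
    simpa using h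

theorem adjoin_simple_inv (x : F) : K⟮x⁻¹⟯ = K⟮x⟯ := by
  apply le_antisymm
  · rw [adjoin_simple_le_iff]
    exact inv_mem (mem_adjoin_simple_self K x)
  · rw [adjoin_simple_le_iff]
    have h : (x⁻¹)⁻¹ ∈ K⟮x⁻¹⟯ := inv_mem (mem_adjoin_simple_self K x⁻¹)
    simpa using h

theorem transcendental_sub_algebraMap {x : F} (hx : Transcendental K x) (c : K) :
    Transcendental K (x - algebraMap K F c) := by
  intro h
  apply hx
  have h2 : IsAlgebraic K (algebraMap K F c) := isAlgebraic_algebraMap c
  have h3 := h.add h2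
  simpa using h3

theorem transcendental_inv {x : F} (hx : Transcendental K x) : Transcendental K x⁻¹ := by
  intro h
  apply hx
  have := h.inv
  simpa using this

end Generic

section Generic2

variable {K F : Type} [Field K] [Field F] [Algebra K F]

theorem adicValuation_algebraMap_eq_one (v : Place K F) {a : K} (ha : a ≠ 0) :
    v.adicValuation (algebraMap K F a) = 1 := by
  have h1 := helper19.adicValuation_algebraMap_le_one v a
  have h2 := helper19.adicValuation_algebraMap_le_one v a⁻¹
  rw [map_inv₀, map_inv₀] at h2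
  have h0 : v.adicValuation (algebraMap K F a) ≠ 0 :=
    v.adicValuation_ne_zero (by simpa using ha)
  have h3 : 1 ≤ v.adicValuation (algebraMap K F a) := by
    rwa [inv_le_one₀ (zero_lt_iff.mpr h0)] at h2
  exact le_antisymm h1 h3

theorem center_unique (v : Place K F) (x : F) {c c' : K}
    (h : 0 < v.ord (x - algebraMap K F c)) (h' : 0 < v.ord (x - algebraMap K F c')) :
    c = c' := by
  by_contra hne
  have hxc : x - algebraMap K F c ≠ 0 := by
    intro h0
    rw [h0] at h
    simp at h
  have hxc' : x - algebraMap K F c' ≠ 0 := by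
    intro h0
    rw [h0] at h'
    simp at h'
  have h1 := (helper19.ord_pos_iff v hxc).mp h
  have h2 := (helper19.ord_pos_iff v hxc').mp h'
  have h3 : v.adicValuation (algebraMap K F (c' - c)) = 1 :=
    adicValuation_algebraMap_eq_one v (sub_ne_zero.mpr (Ne.symm hne))
  have h4 : algebraMap K F (c' - c) = (x - algebraMap K F c) - (x - algebraMap K F c') := by
    rw [map_sub]; ring
  rw [h4] at h3
  have h5 := v.adicValuation.map_sub (x - algebraMap K F c) (x - algebraMap K F c')
  rw [h3] at h5
  exact absurd h5 (not_le.mpr (max_lt h1 h2))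

end Generic2

/-- **Top-level assembly**: the frozen statement S24 from the interface statements. -/
theorem s24_of (hFund : Stmt_FundId) (hDeg : Stmt_DegOne) (hCenter : Stmt_Center)
    (hPrinc : Stmt_HasPrincipal) (hKS : Stmt_KaehlerSpan) (hLD : Stmt_LocalDiff)
    (hT : Stmt_JTranscendental) (hF : Stmt_JFinrank) (hI : Stmt_Index)
    (hPC : Stmt_PlaceCounts) (hOT : Stmt_OrbitsT) (hOS : Stmt_OrbitsS) (hOST : Stmt_OrbitsST) :
    Stmt_S24 := by
  intro N _ _
  have hx : Transcendental Kbar (jBar N) := hT N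
  obtain ⟨hfin, hrank⟩ := hF N
  have : FiniteDimensional Kbar⟮jBar N⟯ (FN N) := hfin
  have hn : Module.finrank Kbar⟮jBar N⟯ (FN N) = dedekindPsi N := by rw [hrank, hI N]
  obtain ⟨hspan, hdx⟩ := hKS Kbar (FN N) (jBar N) hx
  obtain ⟨hgen, h1728, h0, hinf⟩ := hPC N
  obtain ⟨g, hg⟩ := helper84.stmt_Hurwitz N
  have hDCG : ∀ v : Place Kbar (FN N), v.DCoordGenerates :=
    fun v => (hLD Kbar (FN N) (jBar N) hx v).1
  have : Nontrivial Ω[FN N⁄Kbar] := ⟨⟨D Kbar (FN N) (jBar N), 0, hdx⟩⟩
  refine helper19.genus_eq_genusFormula_of_counts (K := Kbar) (F := FN N) N (jBar N)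
    (fun v => hDeg Kbar (FN N) (jBar N) hx v) ?_ ?_ ?_ (hPrinc Kbar (FN N) (jBar N) hx)
    (fun v y hy => (hLD Kbar (FN N) (jBar N) hx v).2 y hy) ?_ ?_ hdx
    (0 : Kbar) (1728 : Kbar) (by norm_num) ?_
    (Nat.card (MulAction.orbitRel.Quotient (Subgroup.zpowers ModularGroup.S) (XN N)))
    (Nat.card (MulAction.orbitRel.Quotient
      (Subgroup.zpowers (ModularGroup.S * ModularGroup.T)) (XN N)))
    (Nat.card (MulAction.orbitRel.Quotient (Subgroup.zpowers ModularGroup.T) (XN N)))
    h0 h1728 hinf (hOS N) (hOST N) (hOT N) ⟨g, ?_⟩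
  · -- center
    intro v
    rcases hCenter Kbar (FN N) (jBar N) hx v with h | ⟨c, hc⟩
    · exact Or.inl h
    · exact Or.inr ⟨c, hc, fun c' hc' => center_unique v (jBar N) hc' hc⟩
  · -- zeros
    intro c
    have hE := adjoin_simple_sub_algebraMap (K := Kbar) (jBar N) c
    have : FiniteDimensional Kbar⟮jBar N - algebraMap Kbar (FN N) c⟯ (FN N) := by
      rw [hE]; exact hfin
    obtain ⟨s, hs, hsum⟩ := hFund Kbar (FN N) (jBar N - algebraMap Kbar (FN N) c)
      (transcendental_sub_algebraMap hx c)
    refine ⟨s, hs, ?_⟩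
    rw [hsum, ← hn, hE]
  · -- poles
    have hE := adjoin_simple_inv (K := Kbar) (jBar N)
    have : FiniteDimensional Kbar⟮(jBar N)⁻¹⟯ (FN N) := by
      rw [hE]; exact hfin
    obtain ⟨s, hs, hsum⟩ := hFund Kbar (FN N) (jBar N)⁻¹ (transcendental_inv hx)
    refine ⟨s, fun v => ?_, ?_⟩
    · rw [hs v, Place.ord_inv]; omega
    · rw [← hn, ← hE, ← hsum]
      exact Finset.sum_congr rfl fun v _ => (Place.ord_inv v _).symm
  · -- smul
    intro v f ω hf hω
    have := hDCG v
    exact helper564.ordDifferential_smul_of_ne_zero v hf hω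
  · -- span
    intro ω
    have hmem : ω ∈ Submodule.span (FN N) {D Kbar (FN N) (jBar N)} := hspan ▸ Submodule.mem_top
    obtain ⟨f, hf⟩ := Submodule.mem_span_singleton.mp hmem
    exact ⟨f, hf.symm⟩
  · -- unramified counts
    intro c hc0 hc1
    rw [hgen c hc0 hc1, hI N]
  · -- Hurwitz
    rw [← hI N]
    linarith

end Fermat.Agent.S24.helper24
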