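import Fermat.Agent.S24.helper264_LocAdapter
import Fermat.Agent.S24.helper384_Count

/-!
# S24, module LOC-N (helper264): `Stmt_FundId → Stmt_LOC`

Composition of helper384's orbit counting lemma B′ (`helper384.card_zeros_eq_card_orbits`) with
the adapter `helper264.stmt_LOC_of_BPrime`.
-/

set_option autoImplicit false

open AlgebraicCurve IntermediateField

namespace Fermat.Agent.S24.helper264

/-- helper384's lemma B′ in `Prop` form. -/
theorem stmt_BPrime : Stmt_BPrime := by
  intro K F _ _ _ _ _ x hx _ hfund X O _ _ hcard w h1 h2 h3 e₀ he₀ h4 h5 orb h6 h7 h8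
  have hx0 : x ≠ 0 := fun h => hx (h ▸ isAlgebraic_zero)
  exact helper384.card_zeros_eq_card_orbits x hx0 hfund hcard w h1 h2 h3 e₀ he₀ h4 h5 orb h6 h7 h8

open helper24 in
/-- **LOC** (the captain's abstract orbit counting statement, exact Spec shape) from the
fundamental identity. -/
theorem stmt_LOC_of_fundId (hF : Stmt_FundId) : Stmt_LOC :=
  stmt_LOC_of_BPrime stmt_BPrime hF

end Fermat.Agent.S24.helper264
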