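import Fermat.Agent.S24.helper24_Spec

/-!
# Kähler differentials of a function field of one variable (helper664)

Let `K ⊆ F` be fields of characteristic zero, `x : F` transcendental over `K` and `F` algebraic
over `K(x)`.  Then `Ω[F⁄K]` is spanned by `dx` and `dx ≠ 0`.

Route: `K[x] ⊆ K(x)` is a localization and `K(x) ⊆ F` is separable algebraic, so `F` is formally
étale over the polynomial subalgebra `K[x]`; hence `F ⊗ Ω[K[x]⁄K] ≃ Ω[F⁄K]`.  The left-hand side
is spanned by `1 ⊗ dx`, and the derivation `d/dx : K[x] → F` shows that `1 ⊗ dx ≠ 0`.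

Main results (namespace `Fermat.Agent.S24.helper664`):
* `span_D_eq_top`, `D_ne_zero`, `exists_smul_D_eq` for `[Algebra.IsAlgebraic K⟮x⟯ F]`;
* `stmt_KaehlerSpan : helper24.Stmt_KaehlerSpan` (the interface statement G5, no hypotheses).
-/

set_option autoImplicit false

open KaehlerDifferential IntermediateField Polynomial TensorProduct
open scoped IntermediateField.algebraAdjoinAdjoin

namespace Fermat.Agent.S24.helper664

section Generic

variable {K F : Type*} [Field K] [Field F] [Algebra K F]

/-- The underlying element of `algEquivOfTranscendental K x hx P` is `P(x)`. -/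
theorem coe_algEquivOfTranscendental (x : F) (hx : Transcendental K x) (P : K[X]) :
    ((algEquivOfTranscendental K x hx P : Algebra.adjoin K {x}) : F) = aeval x P := by
  rw [algEquivOfTranscendental_apply, aeval_subalgebra_coe]

/-- Every element of `K[x]` is the value at `x` of its preimage polynomial. -/
theorem aeval_symm_algEquivOfTranscendental (x : F) (hx : Transcendental K x)
    (a : Algebra.adjoin K {x}) :
    aeval x ((algEquivOfTranscendental K x hx).symm a) = (a : F) := by
  rw [← coe_algEquivOfTranscendental x hx, AlgEquiv.apply_symm_apply]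

/-- The derivation `d/dx : K[x] → F` for a transcendental `x`. -/
noncomputable def polyDeriv (x : F) (hx : Transcendental K x) :
    Derivation K (Algebra.adjoin K {x}) F :=
  Derivation.mk'
    { toFun := fun a => aeval x (derivative ((algEquivOfTranscendental K x hx).symm a))
      map_add' := fun a b => by simp
      map_smul' := fun c a => by simp }
    (fun a b => by
      show aeval x (derivative ((algEquivOfTranscendental K x hx).symm (a * b))) =
        a • aeval x (derivative ((algEquivOfTranscendental K x hx).symm b)) +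
          b • aeval x (derivative ((algEquivOfTranscendental K x hx).symm a))
      rw [map_mul, derivative_mul, map_add, map_mul, map_mul,
        aeval_symm_algEquivOfTranscendental, aeval_symm_algEquivOfTranscendental,
        Subalgebra.smul_def, Subalgebra.smul_def, smul_eq_mul, smul_eq_mul]
      ring)

theorem polyDeriv_gen (x : F) (hx : Transcendental K x) :
    polyDeriv x hx ⟨x, Algebra.self_mem_adjoin_singleton K x⟩ = 1 := by
  have h : (algEquivOfTranscendental K x hx).symm ⟨x, Algebra.self_mem_adjoin_singleton K x⟩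
      = X := by
    rw [AlgEquiv.symm_apply_eq, algEquivOfTranscendental_apply_X]
  show aeval x (derivative ((algEquivOfTranscendental K x hx).symm
    ⟨x, Algebra.self_mem_adjoin_singleton K x⟩)) = 1
  rw [h, derivative_X, map_one]

/-- `Ω[K[x]⁄K]` is spanned by `dx`. -/
theorem span_D_gen_eq_top (x : F) :
    Submodule.span (Algebra.adjoin K {x})
      {D K (Algebra.adjoin K {x}) ⟨x, Algebra.self_mem_adjoin_singleton K x⟩} = ⊤ := by
  rw [eq_top_iff, ← KaehlerDifferential.span_range_derivation K (Algebra.adjoin K {x}),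
    Submodule.span_le]
  rintro _ ⟨⟨a, ha⟩, rfl⟩
  induction ha using Algebra.adjoin_induction with
  | mem y hy =>
    have hy' : y = x := hy
    subst hy'
    exact Submodule.subset_span rfl
  | algebraMap r =>
    have : (⟨algebraMap K F r, Subalgebra.algebraMap_mem _ r⟩ : Algebra.adjoin K {x})
        = algebraMap K (Algebra.adjoin K {x}) r := rfl
    rw [this, Derivation.map_algebraMap]
    exact Submodule.zero_mem _
  | add y z hy hz ihy ihz =>
    have : (⟨y + z, Subalgebra.add_mem _ hy hz⟩ : Algebra.adjoin K {x})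
        = ⟨y, hy⟩ + ⟨z, hz⟩ := rfl
    rw [this, map_add]
    exact Submodule.add_mem _ ihy ihz
  | mul y z hy hz ihy ihz =>
    have : (⟨y * z, Subalgebra.mul_mem _ hy hz⟩ : Algebra.adjoin K {x})
        = ⟨y, hy⟩ * ⟨z, hz⟩ := rfl
    rw [this, Derivation.leibniz]
    exact Submodule.add_mem _ (Submodule.smul_mem _ _ ihz) (Submodule.smul_mem _ _ ihy)

/-- `F` is formally étale over the polynomial subalgebra `K[x]`. -/
theorem formallyEtale_adjoin [CharZero K] (x : F) [Algebra.IsAlgebraic K⟮x⟯ F] :
    Algebra.FormallyEtale (Algebra.adjoin K {x}) F := by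
  have : Algebra.FormallyEtale (Algebra.adjoin K {x}) K⟮x⟯ :=
    Algebra.FormallyEtale.of_isLocalization (nonZeroDivisors (Algebra.adjoin K {x}))
  have : CharZero K⟮x⟯ := charZero_of_injective_algebraMap (algebraMap K K⟮x⟯).injective
  have : Algebra.FormallyEtale K⟮x⟯ F := Algebra.FormallyEtale.of_isSeparable K⟮x⟯ F
  exact Algebra.FormallyEtale.comp (Algebra.adjoin K {x}) K⟮x⟯ F

/-- `Ω[F⁄K]` is spanned by `dx`. -/
theorem span_D_eq_top [CharZero K] (x : F) [Algebra.IsAlgebraic K⟮x⟯ F] :
    Submodule.span F {D K F x} = ⊤ := by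
  have := formallyEtale_adjoin (K := K) x
  rw [eq_top_iff]
  rintro ω -
  obtain ⟨t, rfl⟩ :=
    (tensorKaehlerEquivOfFormallyEtale K (Algebra.adjoin K {x}) F).surjective ω
  induction t using TensorProduct.induction_on with
  | zero => simp
  | add s t hs ht => rw [map_add]; exact Submodule.add_mem _ hs ht
  | tmul f ω₀ =>
    rw [tensorKaehlerEquivOfFormallyEtale_apply, mapBaseChange_tmul]
    refine Submodule.smul_mem _ _ ?_
    have hω₀ : ω₀ ∈ Submodule.span (Algebra.adjoin K {x})
        {D K (Algebra.adjoin K {x}) ⟨x, Algebra.self_mem_adjoin_singleton K x⟩} := by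
      rw [span_D_gen_eq_top]; trivial
    obtain ⟨a, rfl⟩ := Submodule.mem_span_singleton.mp hω₀
    rw [map_smul, KaehlerDifferential.map_D]
    have : (a • D K F ((algebraMap (Algebra.adjoin K {x}) F)
        ⟨x, Algebra.self_mem_adjoin_singleton K x⟩) : Ω[F⁄K]) = (a : F) • D K F x := rfl
    rw [this]
    exact Submodule.smul_mem _ _ (Submodule.subset_span rfl)

/-- `dx ≠ 0` in `Ω[F⁄K]`. -/
theorem D_ne_zero [CharZero K] (x : F) (hx : Transcendental K x) [Algebra.IsAlgebraic K⟮x⟯ F] :
    D K F x ≠ 0 := by
  have := formallyEtale_adjoin (K := K) x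
  intro h0
  set e := tensorKaehlerEquivOfFormallyEtale K (Algebra.adjoin K {x}) F with he
  set x' : Algebra.adjoin K {x} := ⟨x, Algebra.self_mem_adjoin_singleton K x⟩ with hx'
  have h1 : e ((1 : F) ⊗ₜ[Algebra.adjoin K {x}] D K (Algebra.adjoin K {x}) x') = 0 := by
    rw [he, tensorKaehlerEquivOfFormallyEtale_apply, mapBaseChange_tmul, one_smul,
      KaehlerDifferential.map_D]
    exact h0
  have h2 : (1 : F) ⊗ₜ[Algebra.adjoin K {x}] D K (Algebra.adjoin K {x}) x' = 0 := by
    rw [← map_zero e] at h1
    exact e.injective h1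
  have h3 := congrArg ((polyDeriv x hx).liftKaehlerDifferential.liftBaseChange F) h2
  rw [LinearMap.liftBaseChange_tmul, Derivation.liftKaehlerDifferential_comp_D, map_zero,
    one_smul, hx', polyDeriv_gen] at h3
  exact one_ne_zero h3

/-- Every differential is a multiple of `dx`. -/
theorem exists_smul_D_eq [CharZero K] (x : F) [Algebra.IsAlgebraic K⟮x⟯ F] (ω : Ω[F⁄K]) :
    ∃ f : F, ω = f • D K F x := by
  have h : ω ∈ Submodule.span F {D K F x} := by rw [span_D_eq_top]; trivial
  obtain ⟨f, hf⟩ := Submodule.mem_span_singleton.mp h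
  exact ⟨f, hf.symm⟩

/-- `Ω[F⁄K]` is nontrivial. -/
theorem nontrivial_kaehler [CharZero K] (x : F) (hx : Transcendental K x)
    [Algebra.IsAlgebraic K⟮x⟯ F] : Nontrivial Ω[F⁄K] :=
  ⟨⟨D K F x, 0, D_ne_zero x hx⟩⟩

end Generic

/-- Interface statement G5 of `helper24_Spec`: `Ω[F⁄K] = F·dx` and `dx ≠ 0`. -/
theorem stmt_KaehlerSpan : helper24.Stmt_KaehlerSpan := by
  intro K F _ _ _ _ x hx _
  exact ⟨span_D_eq_top x, D_ne_zero x hx⟩

end Fermat.Agent.S24.helper664
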