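import Fermat.Agent.S24.helper24_Spec2
import Fermat.Agent.S24.helper2549_Exchange
import Fermat.Agent.S24.helper489_Residue
import Fermat.Agent.S24.helper664_KaehlerSpan
import Fermat.Agent.S24.helper1602_LocalDiffGlue
import Fermat.Agent.S24.helper1968_PrincipalDeg
import Fermat.Agent.S24.helper1148_RH
import Fermat.Agent.S24.helper264_LocN
import Fermat.Agent.S24.helper3176_FieldAlg
import Fermat.Agent.S24.helper84_StmtINT
import Fermat.Agent.S24.helper227_CuspCount
import Fermat.Agent.S24.helper1635_Assembly
import Fermat.Agent.Lib.helper804_Gamma0Cosets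
import Fermat.Agent.S24.helper24_FundId

/-!
# S24 master chain (helper24, captain)

`leaf_*` : the leaves of the S24 plan that are closed, each in the exact `Stmt_*` shape of
`helper24_Spec` / `helper24_Spec2`, with a single chosen proof per leaf.

`s24_of_open` : `Stmt_S24` from the leaves that are still being proved.
-/

set_option autoImplicit false

open ModularCurve AlgebraicCurve KaehlerDifferential IntermediateField CongruenceSubgroup
open scoped MatrixGroups

namespace Fermat.Agent.S24.helper24

/-! ## Closed leaves -/

theorem leaf_Exchange : Stmt_Exchange := helper2549.stmt_exchange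

theorem leaf_ResidueK : Stmt_ResidueK := helper489.stmt_ResidueK

theorem leaf_Center : Stmt_Center := helper489.stmt_Center

theorem leaf_KaehlerSpan : Stmt_KaehlerSpan := helper664.stmt_KaehlerSpan

theorem leaf_LocalDiff : Stmt_LocalDiff := helper1602.stmt_LocalDiff_of_residueK leaf_ResidueK

theorem leaf_JTranscendental : Stmt_JTranscendental := helper3176.stmt_JTranscendental

theorem leaf_Hurwitz : Stmt_Hurwitz := helper84.stmt_Hurwitz

theorem leaf_Index : Stmt_Index := fun N _ => Lib.helper804.card_quotient_Gamma0 N

theorem leaf_OrbitsT : Stmt_OrbitsT := fun N _ => helper227.card_orbits_T N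

theorem leaf_OrbitsS : Stmt_OrbitsS := fun N _ => Lib.helper804.card_orbits_S N

theorem leaf_OrbitsST : Stmt_OrbitsST := fun N _ => Lib.helper804.card_orbits_ST N

theorem leaf_INT : Stmt_INT :=
  helper1635.stmt_INT_of leaf_Hurwitz leaf_Index leaf_OrbitsT leaf_OrbitsS leaf_OrbitsST

/-! ## Conditional part of the chain -/

theorem principal_of_fundId (hF : Stmt_FundId) : Stmt_PrincipalDegZero :=
  helper1968.principal_of hF leaf_Exchange leaf_ResidueK

theorem rh_of_fundId (hF : Stmt_FundId) : Stmt_RH :=
  helper1148.rh_of hF leaf_ResidueK leaf_Center (principal_of_fundId hF) leaf_KaehlerSpan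
    leaf_LocalDiff

theorem loc_of_fundId (hF : Stmt_FundId) : Stmt_LOC := helper264.stmt_LOC_of_fundId hF

/-- `Stmt_S24` from the six leaves that are not yet closed. -/
theorem s24_of_open (hF : Stmt_FundId) (hJF : Stmt_JFinrank) (hG : Stmt_LocalGeneric)
    (h1728 : Stmt_Local1728) (h0 : Stmt_LocalZero) (hInf : Stmt_LocalInf) : Stmt_S24 :=
  helper1635.stmt_S24_of leaf_INT
    (helper1635.stmt_DEG_of (rh_of_fundId hF)
      (helper1635.stmt_Places_of (loc_of_fundId hF) hF leaf_JTranscendental hJF hG h1728 h0 hInf
        leaf_OrbitsT leaf_OrbitsS leaf_OrbitsST)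
      leaf_JTranscendental hJF leaf_Index)
    leaf_KaehlerSpan leaf_JTranscendental hJF

theorem leaf_FundId : Stmt_FundId := stmt_FundId

theorem leaf_PrincipalDegZero : Stmt_PrincipalDegZero := principal_of_fundId leaf_FundId

theorem leaf_RH : Stmt_RH := rh_of_fundId leaf_FundId

theorem leaf_LOC : Stmt_LOC := loc_of_fundId leaf_FundId

/-- `Stmt_S24` from the five modular leaves (everything generic and combinatorial is closed). -/
theorem s24_of_mod (hJF : Stmt_JFinrank) (hG : Stmt_LocalGeneric)
    (h1728 : Stmt_Local1728) (h0 : Stmt_LocalZero) (hInf : Stmt_LocalInf) : Stmt_S24 :=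
  s24_of_open leaf_FundId hJF hG h1728 h0 hInf

end Fermat.Agent.S24.helper24
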