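import Fermat.Agent.S24.helper24_Spec

/-!
# S24 specification file, part 2 (captain helper24)

Additional `Stmt_*` interfaces discovered after `helper24_Spec` landed
(that file is frozen; additions go here).
-/

set_option autoImplicit false

open ModularCurve AlgebraicCurve KaehlerDifferential IntermediateField CongruenceSubgroup
open scoped MatrixGroups

namespace Fermat.Agent.S24.helper24

/-- G9. Exchange: a function field of one variable is finite over `K(y)` for every
transcendental `y`. -/
def Stmt_Exchange : Prop :=
  ∀ (K F : Type) [Field K] [Field F] [Algebra K F] [IsAlgClosed K] [CharZero K] (x : F),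
    Transcendental K x → ∀ [FiniteDimensional K⟮x⟯ F] (y : F), Transcendental K y →
    FiniteDimensional K⟮y⟯ F

/-- G10. Every place has degree one (consequence of `Stmt_ResidueK`). -/
def Stmt_DegOne : Prop :=
  ∀ (K F : Type) [Field K] [Field F] [Algebra K F] [IsAlgClosed K] [CharZero K] (x : F),
    Transcendental K x → ∀ [FiniteDimensional K⟮x⟯ F] (v : Place K F), v.deg = 1

/-- G11. Elements of nonzero order are transcendental over the constant field. -/
def Stmt_OrdTranscendental : Prop :=
  ∀ (K F : Type) [Field K] [Field F] [Algebra K F] [IsAlgClosed K] (v : Place K F) (f : F),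
    v.ord f ≠ 0 → Transcendental K f

theorem degOne_of (h : Stmt_ResidueK) : Stmt_DegOne := by
  intro K F _ _ _ _ _ x hx _ v
  have hs := h K F x hx v
  have hinj : Function.Injective (algebraMap K v.ResidueField) :=
    (algebraMap K v.ResidueField).injective
  have e : K ≃ₗ[K] v.ResidueField :=
    LinearEquiv.ofBijective (Algebra.linearMap K v.ResidueField) ⟨hinj, hs⟩
  show Module.finrank K v.ResidueField = 1
  rw [← e.finrank_eq, Module.finrank_self]

end Fermat.Agent.S24.helper24
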