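import Fermat.Agent.S24.helper24_Spec
import Fermat.Agent.S24.helper564_LocalDiff

/-!
# S24, glue G6 (board row 155)

`Stmt_ResidueK + Stmt_KaehlerSpan + Stmt_Exchange → Stmt_LocalDiff`, on top of the
local differential calculus of `helper564_LocalDiff`.
-/

set_option autoImplicit false

open AlgebraicCurve KaehlerDifferential IntermediateField

namespace Fermat.Agent.S24.helper2550

open Fermat.Agent.S24.helper24

/-- Exchange statement: if `F` is finite over `K(x)` for one transcendental `x`, it is finite over
`K(y)` for every transcendental `y`. (Same shape as announced for the captain's `Spec2`.) -/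
def Stmt_Exchange : Prop :=
  ∀ (K F : Type) [Field K] [Field F] [Algebra K F] [IsAlgClosed K] [CharZero K] (x : F),
    Transcendental K x → ∀ [FiniteDimensional K⟮x⟯ F] (y : F), Transcendental K y →
    FiniteDimensional K⟮y⟯ F

section Generic

variable {K F : Type*} [Field K] [Field F] [Algebra K F]

/-- Nonzero constants have order `0` at every place. -/
theorem ord_algebraMap (v : Place K F) (c : K) : v.ord (algebraMap K F c) = 0 := by
  rcases eq_or_ne c 0 with rfl | hc
  · simp
  · have hu : IsUnit (algebraMap K v.toValuationSubring c) :=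
      (isUnit_iff_ne_zero.mpr hc).map _
    have := v.ord_coe_unit hu.unit
    rwa [IsUnit.unit_spec, Place.coe_algebraMap] at this

/-- Over an algebraically closed field, an element of nonzero order at some place is
transcendental. -/
theorem transcendental_of_ord_ne_zero [IsAlgClosed K] (v : Place K F) {y : F}
    (hy : v.ord y ≠ 0) : Transcendental K y := by
  intro halg
  have hint : IsIntegral K y := halg.isIntegral
  have hdeg : (minpoly K y).degree = 1 :=
    IsAlgClosed.degree_eq_one_of_irreducible K (minpoly.irreducible hint)
  obtain ⟨c, hc⟩ := minpoly.mem_range_of_degree_eq_one K y hdeg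
  exact hy (hc ▸ ord_algebraMap v c)

/-- The uniformizer behind `Place.dCoord` is transcendental. -/
theorem exists_transcendental_dCoord [IsAlgClosed K] (v : Place K F) :
    ∃ π : F, Transcendental K π ∧ v.dCoord = D K F π := by
  obtain ⟨π, hπ, hdc⟩ := Fermat.Agent.S24.helper564.exists_irreducible_dCoord v
  refine ⟨(π : F), transcendental_of_ord_ne_zero v ?_, hdc⟩
  rw [v.ord_coe_irreducible hπ]
  exact one_ne_zero

end Generic

/-- **G6 glue.** Residue fields equal to `K`, `Ω = F·dy` for transcendental `y` with `F` finite
over `K(y)`, and the exchange property give the local differential lemma. -/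
theorem localDiff_of_explicit (h2 : Stmt_ResidueK) (h5 : Stmt_KaehlerSpan)
    (hE : ∀ (K F : Type) [Field K] [Field F] [Algebra K F] [IsAlgClosed K] [CharZero K] (x : F),
      Transcendental K x → ∀ [FiniteDimensional K⟮x⟯ F] (y : F), Transcendental K y →
      FiniteDimensional K⟮y⟯ F) :
    Stmt_LocalDiff := by
  intro K F _ _ _ _ _ x hx _ v
  have hres : Fermat.Agent.S24.helper564.ResidueIsBase K v.toValuationSubring :=
    Fermat.Agent.S24.helper564.residueIsBase_of_surjective v (h2 K F x hx v)
  obtain ⟨π, hπ, hdc⟩ := exists_transcendental_dCoord v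
  have : FiniteDimensional K⟮π⟯ F := hE K F x hx π hπ
  have hspan : Submodule.span F {D K F π} = ⊤ := (h5 K F π hπ).1
  have : v.DCoordGenerates := ⟨by rw [hdc]; exact hspan⟩
  exact ⟨inferInstance, fun u hu => Fermat.Agent.S24.helper564.ordDifferential_D v hres hu⟩

/-- **G6 glue**, with the local name `Stmt_Exchange`. -/
theorem localDiff_of (h2 : Stmt_ResidueK) (h5 : Stmt_KaehlerSpan) (hE : Stmt_Exchange) :
    Stmt_LocalDiff :=
  localDiff_of_explicit h2 h5 hE

end Fermat.Agent.S24.helper2550
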