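import Fermat.Agent.S24.helper315_CuspExp
import Fermat.Agent.S24.helper315_Twist
import Fermat.Agent.S24.helper1644_AnalyticJ
import Fermat.Agent.S24.helper3176_FieldAlg
import Fermat.Agent.Lib.helper319_HermiteForm

/-!
# S24 / MOD: the evaluation homomorphism `ev` (helper264)

`ev N : AN N →+* (ℍ → ℂ)` sends an element `a` of the `ℚ̄`-algebra generated by the `j(q^d)`,
`d ∣ N`, to the holomorphic function on the upper half plane with `q`-expansion `a` (coefficients
mapped to `ℂ` by a fixed embedding `i0`).  It is constructed as the inverse of the injective ring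
homomorphism `helper315.cuspExp 1` on its range.
-/

set_option autoImplicit false

open ModularCurve CongruenceSubgroup UpperHalfPlane Function
open scoped MatrixGroups Manifold ModularForm

noncomputable section

namespace Fermat.Agent.S24.helper264

open Fermat.Agent.S24.helper24 Fermat.Agent.S24.helper315
open Fermat.Agent.S24.helper3176 (AN)

local notation "𝕢" => Periodic.qParam

/-! ## The embedding of the constants -/

/-- A fixed embedding `ℚ̄ → ℂ`. -/
def i0 : Kbar →+* ℂ :=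
  letI : Algebra ℚ (AlgebraicClosure ℚ) := AlgebraicClosure.instAlgebra ℚ
  haveI : Algebra.IsAlgebraic ℚ (AlgebraicClosure ℚ) := AlgebraicClosure.isAlgebraic ℚ
  ((IsAlgClosed.lift (R := ℚ) (S := AlgebraicClosure ℚ) (M := ℂ) :
    AlgebraicClosure ℚ →ₐ[ℚ] ℂ) : AlgebraicClosure ℚ →+* ℂ)

theorem i0_injective : Function.Injective i0 := i0.injective

theorem i0_comp_algebraMap : i0.comp (algebraMap ℚ Kbar) = algebraMap ℚ ℂ :=
  Subsingleton.elim _ _

/-! ## The functions `τ ↦ j(dτ)` -/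

/-- The point `d τ`. -/
def scaleH (d : ℕ) [NeZero d] (τ : ℍ) : ℍ :=
  ⟨(d : ℂ) * τ, by
    have hd : (0 : ℝ) < d := Nat.cast_pos.mpr (Nat.pos_of_ne_zero (NeZero.ne d))
    have : ((d : ℂ) * (τ : ℂ)).im = d * τ.im := by simp
    rw [this]
    exact mul_pos hd τ.im_pos⟩

theorem coe_scaleH (d : ℕ) [NeZero d] (τ : ℍ) : ((scaleH d τ : ℍ) : ℂ) = (d : ℂ) * τ := rfl

theorem scaleH_one (τ : ℍ) : scaleH 1 τ = τ := by
  apply UpperHalfPlane.ext
  rw [coe_scaleH]; simp

/-- The function `τ ↦ j(dτ)`. -/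
def jD (d : ℕ) [NeZero d] : ℍ → ℂ := fun τ => helper1644.jFun (scaleH d τ)

theorem jD_apply (d : ℕ) [NeZero d] (τ : ℍ) : jD d τ = helper1644.jFun (scaleH d τ) := rfl

theorem jD_eq_of_coe (d : ℕ) [NeZero d] (τ σ : ℍ) (h : (σ : ℂ) = (d : ℂ) * τ) :
    jD d τ = helper1644.jFun σ := by
  rw [jD_apply]
  congr 1
  exact UpperHalfPlane.ext (by rw [coe_scaleH, h])

theorem jD_one : jD 1 = helper1644.jFun := by
  funext τ
  rw [jD_apply, scaleH_one]

theorem mdiff_jD (d : ℕ) [NeZero d] : MDiff (jD d) := by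
  rw [UpperHalfPlane.mdifferentiable_iff]
  have h1 := helper1644.differentiableOn_jFun_comp_ofComplex
  have hd : (0 : ℝ) < d := Nat.cast_pos.mpr (Nat.pos_of_ne_zero (NeZero.ne d))
  have hmaps : Set.MapsTo (fun z : ℂ => (d : ℂ) * z) upperHalfPlaneSet upperHalfPlaneSet := by
    intro z hz
    show 0 < ((d : ℂ) * z).im
    have : ((d : ℂ) * z).im = d * z.im := by simp
    rw [this]
    exact mul_pos hd hz
  have h2 : DifferentiableOn ℂ ((helper1644.jFun ∘ ofComplex) ∘ fun z : ℂ => (d : ℂ) * z)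
      upperHalfPlaneSet :=
    h1.comp (by fun_prop) hmaps
  refine h2.congr ?_
  intro z hz
  have hz' : 0 < z.im := hz
  simp only [comp_apply, jD_apply]
  rw [ofComplex_apply_of_im_pos hz', ofComplex_apply_of_im_pos (hmaps hz)]
  rfl

/-! ## The expansion of `τ ↦ j(dτ)` at the cusp -/

theorem ofPowerSeries_coeff_neg' {R : Type*} [Semiring R] (P : PowerSeries R) {k : ℤ}
    (hk : k < 0) : (HahnSeries.ofPowerSeries ℤ R P).coeff k = 0 := by
  rw [HahnSeries.ofPowerSeries_apply]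
  refine HahnSeries.embDomain_of_notMem_range ?_
  rintro ⟨m, rfl⟩
  exact absurd hk (not_lt.mpr (Int.natCast_nonneg m))

theorem qParam_one_scaleH (d : ℕ) [NeZero d] (τ : ℍ) :
    𝕢 1 ((scaleH d τ : ℍ) : ℂ) = 𝕢 1 (τ : ℂ) ^ d := by
  rw [coe_scaleH]
  simp only [Periodic.qParam]
  rw [← Complex.exp_nat_mul]
  congr 1
  push_cast
  ring

theorem qH_one_eq (τ : ℍ) : qH ((1 : ℕ) : ℝ) τ = 𝕢 1 (τ : ℂ) := by
  rw [qH_apply, Nat.cast_one]

/-- Coefficients of `q^d j(q^d)` as a power series in `q`. -/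
def cD (d : ℕ) (n : ℕ) : ℂ :=
  if d ∣ n then ((PowerSeries.coeff (n / d) jNumQ : ℚ) : ℂ) else 0

theorem hasSum_jD (d : ℕ) [NeZero d] (τ : ℍ) :
    HasSum (fun n : ℕ => cD d n * qH ((1 : ℕ) : ℝ) τ ^ n)
      (qH ((1 : ℕ) : ℝ) τ ^ d * jD d τ) := by
  have hd : 0 < d := Nat.pos_of_ne_zero (NeZero.ne d)
  have h := helper1644.hasSum_jNumQ (scaleH d τ)
  rw [qParam_one_scaleH] at h
  rw [qH_one_eq, jD_apply]
  have hg : Function.Injective (fun k : ℕ => d * k) := fun a b hab =>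
    Nat.eq_of_mul_eq_mul_left hd hab
  rw [← hg.hasSum_iff]
  · convert h using 2 with k
    simp only [comp_apply, cD, dvd_mul_right, if_true, Nat.mul_div_cancel_left k hd, pow_mul]
  · intro n hn
    have hnd : ¬ d ∣ n := fun ⟨k, hk⟩ => hn ⟨k, hk.symm⟩
    simp [cD, hnd]

theorem hPeriodic_jD (d : ℕ) [NeZero d] : HPeriodic ((1 : ℕ) : ℝ) (jD d) := by
  intro τ
  rw [jD_apply, jD_apply]
  have h1 : scaleH d ((((1 : ℕ) : ℝ)) +ᵥ τ) = ModularGroup.T ^ (d : ℤ) • scaleH d τ := by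
    apply UpperHalfPlane.ext
    rw [UpperHalfPlane.modular_T_zpow_smul, coe_scaleH, UpperHalfPlane.coe_vadd,
      UpperHalfPlane.coe_vadd, coe_scaleH]
    push_cast
    ring
  rw [h1, helper1644.jFun_smul]

theorem isCuspHol_jD (d : ℕ) [NeZero d] :
    IsCuspHol ((1 : ℕ) : ℝ) (qH ((1 : ℕ) : ℝ) ^ d * jD d) :=
  (cuspExpFun_eq_of_hasSum (natCast_pos' 1) (mdiff_jD d) (hPeriodic_jD d) (hasSum_jD d)).1

theorem isCuspMer_jD (d : ℕ) [NeZero d] : IsCuspMer ((1 : ℕ) : ℝ) (jD d) := ⟨d, isCuspHol_jD d⟩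

theorem cuspExpFun_jD (d : ℕ) [NeZero d] :
    cuspExpFun ((1 : ℕ) : ℝ) (jD d) = HahnSeries.single (-(d : ℤ)) (1 : ℂ) *
      HahnSeries.ofPowerSeries ℤ ℂ (PowerSeries.mk (cD d)) :=
  (cuspExpFun_eq_of_hasSum (natCast_pos' 1) (mdiff_jD d) (hPeriodic_jD d) (hasSum_jD d)).2

/-- The expansion of `τ ↦ j(dτ)` is the formal series `j(q^d)`, with coefficients in `ℂ`. -/
theorem cuspExpFun_jD_eq (d : ℕ) [NeZero d] :
    cuspExpFun ((1 : ℕ) : ℝ) (jD d) = coeffMap i0 (jSeries d) := by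
  have hd : 0 < d := Nat.pos_of_ne_zero (NeZero.ne d)
  rw [cuspExpFun_jD, jSeries, coeffEmb, coeffMap_coeffMap, i0_comp_algebraMap]
  ext k
  rw [coeff_single_neg_mul_ofPowerSeries, coeffMap_coeff, PowerSeries.coeff_mk]
  by_cases hk : (d : ℤ) ∣ k
  · obtain ⟨m, rfl⟩ := hk
    rw [qExpand_coeff_mul, helper1644.coeff_jq]
    have e : (d : ℤ) * m + d = d * (m + 1) := by ring
    rw [e]
    by_cases hm : 0 ≤ m + 1
    · have h0 : 0 ≤ (d : ℤ) * (m + 1) := mul_nonneg (Int.natCast_nonneg d) hm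
      rw [if_pos h0]
      obtain ⟨n, hn⟩ := Int.eq_ofNat_of_zero_le hm
      rw [hn]
      have e2 : ((d : ℤ) * (n : ℤ)).toNat = d * n := by
        rw [← Nat.cast_mul, Int.toNat_natCast]
      rw [e2, HahnSeries.ofPowerSeries_apply_coeff]
      simp [cD, Nat.mul_div_cancel_left n hd]
    · have hm' : m + 1 < 0 := not_le.mp hm
      have h0 : ¬ 0 ≤ (d : ℤ) * (m + 1) := by
        rw [not_le]
        exact mul_neg_of_pos_of_neg (by exact_mod_cast hd) hm'
      rw [if_neg h0, ofPowerSeries_coeff_neg' _ hm', map_zero]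
  · rw [qExpand_coeff_of_not_dvd d _ hk, map_zero]
    split_ifs with h0
    · have hnd : ¬ d ∣ (k + d).toNat := by
        intro hdv
        apply hk
        have h1 : ((d : ℤ)) ∣ ((k + d).toNat : ℤ) := Int.natCast_dvd_natCast.mpr hdv
        rw [Int.toNat_of_nonneg h0] at h1
        exact (Int.dvd_add_left (dvd_refl _)).mp h1
      simp [cD, hnd]
    · rfl

/-! ## The homomorphism `ev` -/

theorem coeffMap_injective {R S : Type*} [CommRing R] [CommRing S] (f : R →+* S)
    (hf : Function.Injective f) : Function.Injective (coeffMap f) := by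
  intro x y h
  ext k
  apply hf
  have := congrArg (fun z => HahnSeries.coeff z k) h
  simpa using this

section Ev

variable (N : ℕ)

/-- The formal expansion with complex coefficients of an element of `AN N`. -/
def cmap : AN N →+* LaurentSeries ℂ :=
  (coeffMap i0).comp (((modularFunctionFieldBar N).val.toRingHom).comp (AN N).val.toRingHom)

theorem cmap_apply (a : AN N) :
    cmap N a = coeffMap i0 (((a : FN N) : LaurentSeries Kbar)) := rfl

theorem cmap_injective : Function.Injective (cmap N) := by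
  intro a b h
  have h1 := coeffMap_injective i0 i0_injective h
  exact Subtype.ext (Subtype.ext h1)

theorem exists_cuspMer_aux (x : FN N) (hx : x ∈ AN N) :
    ∃ f : cuspMer 1, cuspExp 1 f = coeffMap i0 ((x : FN N) : LaurentSeries Kbar) := by
  unfold helper3176.AN at hx
  induction hx using Algebra.adjoin_induction with
  | mem x hx =>
    obtain ⟨d, hd0, hd, rfl⟩ := hx
    exact ⟨⟨jD d, isCuspMer_jD d⟩, cuspExpFun_jD_eq d⟩
  | algebraMap c =>
    refine ⟨⟨fun _ => i0 c, (IsCuspHol.const _ _).isCuspMer⟩, ?_⟩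
    rw [cuspExp_apply]
    show cuspExpFun ((1 : ℕ) : ℝ) (fun _ => i0 c) = _
    rw [cuspExpFun_const (natCast_pos' 1)]
    have h1 : ((algebraMap Kbar (FN N) c : FN N) : LaurentSeries Kbar)
        = algebraMap Kbar (LaurentSeries Kbar) c := rfl
    rw [h1, algebraMap_laurentSeries_eq_single, coeffMap_single]
    rfl
  | add x y _ _ ihx ihy =>
    obtain ⟨f, hf⟩ := ihx
    obtain ⟨g, hg⟩ := ihy
    refine ⟨f + g, ?_⟩
    rw [map_add, hf, hg]
    show _ = coeffMap i0 (((x : FN N) : LaurentSeries Kbar) + ((y : FN N) : LaurentSeries Kbar))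
    rw [map_add]
  | mul x y _ _ ihx ihy =>
    obtain ⟨f, hf⟩ := ihx
    obtain ⟨g, hg⟩ := ihy
    refine ⟨f * g, ?_⟩
    rw [map_mul, hf, hg]
    show _ = coeffMap i0 (((x : FN N) : LaurentSeries Kbar) * ((y : FN N) : LaurentSeries Kbar))
    rw [map_mul]

theorem exists_cuspMer (a : AN N) : ∃ f : cuspMer 1, cuspExp 1 f = cmap N a :=
  exists_cuspMer_aux N a.1 a.2

/-- `ev` with values in the ring of functions meromorphic at the cusp. -/
def evR : AN N →+* cuspMer 1 where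
  toFun a := (exists_cuspMer N a).choose
  map_one' := cuspExp_injective 1 (by rw [(exists_cuspMer N 1).choose_spec, map_one, map_one])
  map_mul' a b := cuspExp_injective 1 (by
    rw [(exists_cuspMer N (a * b)).choose_spec, map_mul, map_mul,
      (exists_cuspMer N a).choose_spec, (exists_cuspMer N b).choose_spec])
  map_zero' := cuspExp_injective 1 (by rw [(exists_cuspMer N 0).choose_spec, map_zero, map_zero])
  map_add' a b := cuspExp_injective 1 (by
    rw [(exists_cuspMer N (a + b)).choose_spec, map_add, map_add,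
      (exists_cuspMer N a).choose_spec, (exists_cuspMer N b).choose_spec])

theorem cuspExp_evR (a : AN N) : cuspExp 1 (evR N a) = cmap N a :=
  (exists_cuspMer N a).choose_spec

theorem evR_injective : Function.Injective (evR N) := by
  intro a b h
  apply cmap_injective N
  rw [← cuspExp_evR, ← cuspExp_evR, h]

/-- The evaluation homomorphism: `ev N a` is the holomorphic function on `ℍ` whose `q`-expansion
is `a` (with coefficients mapped to `ℂ` by `i0`). -/
def ev : AN N →+* (ℍ → ℂ) := (cuspMer 1).subtype.comp (evR N)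

theorem ev_apply (a : AN N) : ev N a = ((evR N a : cuspMer 1) : ℍ → ℂ) := rfl

theorem isCuspMer_ev (a : AN N) : IsCuspMer ((1 : ℕ) : ℝ) (ev N a) := (evR N a).2

theorem cuspExpFun_ev (a : AN N) :
    cuspExpFun ((1 : ℕ) : ℝ) (ev N a) = coeffMap i0 (((a : FN N) : LaurentSeries Kbar)) :=
  cuspExp_evR N a

theorem mdiff_ev (a : AN N) : MDiff (ev N a) := (isCuspMer_ev N a).mdiff

theorem ev_injective : Function.Injective (ev N) := by
  intro a b h
  apply evR_injective N
  exact Subtype.ext h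

/-- Uniqueness: a function meromorphic at the cusp with the right expansion is `ev N a`. -/
theorem ev_eq_of_cuspExpFun (a : AN N) (f : ℍ → ℂ) (hf : IsCuspMer ((1 : ℕ) : ℝ) f)
    (h : cuspExpFun ((1 : ℕ) : ℝ) f = coeffMap i0 (((a : FN N) : LaurentSeries Kbar))) :
    ev N a = f := by
  have h1 : cuspExp 1 (evR N a) = cuspExp 1 (⟨f, hf⟩ : cuspMer 1) := by
    rw [cuspExp_evR]; exact h.symm
  exact congrArg Subtype.val (cuspExp_injective 1 h1)

theorem ev_algebraMap (c : Kbar) : ev N (algebraMap Kbar (AN N) c) = fun _ => i0 c := by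
  apply ev_eq_of_cuspExpFun N _ _ (IsCuspHol.const _ _).isCuspMer
  rw [cuspExpFun_const (natCast_pos' 1)]
  have h1 : (((algebraMap Kbar (AN N) c : AN N) : FN N) : LaurentSeries Kbar)
      = algebraMap Kbar (LaurentSeries Kbar) c := rfl
  rw [h1, algebraMap_laurentSeries_eq_single, coeffMap_single]
  rfl

theorem ev_jBarD (d : ℕ) [NeZero d] (hd : d ∣ N) :
    ev N ⟨jBarD N d hd, helper3176.jBarD_mem_AN N d hd⟩ = jD d :=
  ev_eq_of_cuspExpFun N _ _ (isCuspMer_jD d) (cuspExpFun_jD_eq d)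

theorem ev_jBar : ev N ⟨jBar N, helper3176.jBar_mem_AN N⟩ = helper1644.jFun := by
  have h := ev_jBarD N 1 (one_dvd N)
  rw [jD_one] at h
  exact h

/-! ### Invariance under `Γ₀(N)` and separation of cosets -/

theorem mem_Gamma0_of_dvd {d : ℕ} (hd : d ∣ N) {γ : SL(2, ℤ)} (hγ : γ ∈ Gamma0 N) :
    γ ∈ Gamma0 d := by
  rw [Gamma0_mem] at hγ ⊢
  rw [ZMod.intCast_zmod_eq_zero_iff_dvd] at hγ ⊢
  exact (Int.natCast_dvd_natCast.mpr hd).trans hγ

theorem jD_smul_of_mem_Gamma0 (d : ℕ) [NeZero d] (hd : d ∣ N) (γ : SL(2, ℤ))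
    (hγ : γ ∈ Gamma0 N) (τ : ℍ) : jD d (γ • τ) = jD d τ :=
  Lib.helper319.eq_of_mem_Gamma0 helper1644.jFun helper1644.jFun_smul d
    (Nat.pos_of_ne_zero (NeZero.ne d)) γ (mem_Gamma0_of_dvd N hd hγ) τ
    (scaleH d (γ • τ)) (scaleH d τ) rfl rfl

theorem ev_smul_of_mem_Gamma0_aux (γ : SL(2, ℤ)) (hγ : γ ∈ Gamma0 N) (τ : ℍ) (x : FN N)
    (hx : x ∈ AN N) : ev N ⟨x, hx⟩ (γ • τ) = ev N ⟨x, hx⟩ τ := by
  have key : ∀ (x : FN N) (hx : x ∈ Algebra.adjoin Kbar (helper3176.genSetF N)),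
      ev N ⟨x, hx⟩ (γ • τ) = ev N ⟨x, hx⟩ τ := by
    intro x hx
    induction hx using Algebra.adjoin_induction with
    | mem x hx =>
      obtain ⟨d, hd0, hd, rfl⟩ := hx
      have h := ev_jBarD N d hd
      have h' : ev N ⟨jBarD N d hd, Algebra.subset_adjoin ⟨d, hd0, hd, rfl⟩⟩ = jD d := h
      rw [h']
      exact jD_smul_of_mem_Gamma0 N d hd γ hγ τ
    | algebraMap c =>
      have h := ev_algebraMap N c
      have h' : ev N ⟨algebraMap Kbar (FN N) c, Subalgebra.algebraMap_mem _ c⟩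
          = fun _ => i0 c := h
      rw [h']
    | add x y hx hy ihx ihy =>
      have e : (⟨x + y, add_mem hx hy⟩ : AN N) = ⟨x, hx⟩ + ⟨y, hy⟩ := rfl
      rw [e, map_add, Pi.add_apply, Pi.add_apply, ihx, ihy]
    | mul x y hx hy ihx ihy =>
      have e : (⟨x * y, mul_mem hx hy⟩ : AN N) = ⟨x, hx⟩ * ⟨y, hy⟩ := rfl
      rw [e, map_mul, Pi.mul_apply, Pi.mul_apply, ihx, ihy]
  exact key x hx

/-- `ev N a` is invariant under `Γ₀(N)`. -/
theorem ev_smul_of_mem_Gamma0 (a : AN N) (γ : SL(2, ℤ)) (hγ : γ ∈ Gamma0 N) (τ : ℍ) :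
    ev N a (γ • τ) = ev N a τ :=
  ev_smul_of_mem_Gamma0_aux N γ hγ τ a.1 a.2

theorem jnFun_zero : helper1644.jnFun 0 = 1 := by
  have h := helper1644.hasSum_jNumQ_disc (z := 0) (by simp)
  have h2 : HasSum (fun n : ℕ => ((PowerSeries.coeff n ModularCurve.jNumQ : ℚ) : ℂ) * 0 ^ n)
      (((PowerSeries.coeff 0 ModularCurve.jNumQ : ℚ) : ℂ) * 0 ^ 0) := by
    apply hasSum_single 0
    intro n hn
    simp [hn]
  have h3 := h.unique h2
  rw [h3, PowerSeries.coeff_zero_eq_constantCoeff_apply, constantCoeff_jNumQ]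
  simp

theorem tendsto_jFun_mul_exp :
    Filter.Tendsto (fun τ : ℍ => helper1644.jFun τ * Complex.exp (2 * Real.pi * Complex.I * τ))
      UpperHalfPlane.atImInfty (nhds 1) := by
  have hc : ContinuousAt helper1644.jnFun 0 :=
    (helper1644.differentiableOn_jnFun.analyticAt helper1644.ball_mem_nhds_zero).continuousAt
  have h1 : Filter.Tendsto (fun τ : ℍ => helper1644.jnFun (𝕢 1 (τ : ℂ))) atImInfty
      (nhds (helper1644.jnFun 0)) :=
    hc.tendsto.comp (UpperHalfPlane.qParam_tendsto_atImInfty one_pos)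
  rw [jnFun_zero] at h1
  refine h1.congr fun τ => ?_
  rw [helper1644.jnFun_qParam, mul_comm]
  congr 1
  simp [Periodic.qParam]

theorem hasJGrowth_jFun : Lib.helper319.HasJGrowth helper1644.jFun :=
  Lib.helper319.hasJGrowth_of_tendsto _ tendsto_jFun_mul_exp

/-- Separation: an element of `SL(2, ℤ)` fixing all `ev N a` lies in `Γ₀(N)`. -/
theorem mem_Gamma0_of_ev_invariant [NeZero N] (g : SL(2, ℤ))
    (h : ∀ (a : AN N) (τ : ℍ), ev N a (g • τ) = ev N a τ) : g ∈ Gamma0 N := by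
  refine Lib.helper319.mem_Gamma0_of_forall_eq helper1644.jFun helper1644.jFun_smul
    hasJGrowth_jFun N (Nat.pos_of_ne_zero (NeZero.ne N)) g (fun τ σ₁ σ₂ h1 h2 => ?_)
  have e1 := jD_eq_of_coe N (g • τ) σ₁ h1
  have e2 := jD_eq_of_coe N τ σ₂ h2
  rw [← e1, ← e2, ← ev_jBarD N N dvd_rfl]
  exact h _ τ

end Ev

end Fermat.Agent.S24.helper264
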