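import Mathlib
import Fermat.Agent.S24.helper24_Spec

/-!
# S24, module LOC-N adapter (helper264, board row 118)

* `prod_algHom_eq_norm`, `prod_algHom_eq_norm_adjoin`: the norm identity for a full family of
  embeddings (`n = [F : K(y)]` distinct `K`-embeddings into a field `Ω` which agree at `y`).
* `Stmt_BPrime`: the statement of helper384's orbit counting lemma B′ (board row 67), as a
  `Prop`.
* `stmt_LOC_of_BPrime : Stmt_BPrime → Stmt_FundId → Stmt_LOC` (the captain's abstract
  orbit-counting statement, exact Spec shape).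
-/

set_option autoImplicit false

open AlgebraicCurve IntermediateField

namespace Fermat.Agent.S24.helper264

section NormProd

variable {k F Ω : Type*} [Field k] [Field F] [Field Ω] [Algebra k F]
  [FiniteDimensional k F] [Algebra.IsSeparable k F] [Algebra k Ω]

/-- If `n = [F : k]` distinct `k`-embeddings of `F` into a field `Ω` are given, then their
product at `f` is the norm of `f`. -/
theorem prod_algHom_eq_norm {X : Type*} [Fintype X] (ι : X → (F →ₐ[k] Ω))
    (hinj : Function.Injective ι) (hcard : Fintype.card X = Module.finrank k F) (f : F) :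
    ∏ g, ι g f = algebraMap k Ω (Algebra.norm k f) := by
  classical
  let E := AlgebraicClosure Ω
  let φ : X → (F →ₐ[k] E) := fun g => (IsScalarTower.toAlgHom k Ω E).comp (ι g)
  have hφinj : Function.Injective φ := by
    intro g g' h
    apply hinj
    ext a
    have := DFunLike.congr_fun h a
    simp only [φ, AlgHom.comp_apply, IsScalarTower.coe_toAlgHom'] at this
    exact (algebraMap Ω E).injective this
  have hcardE : Fintype.card (F →ₐ[k] E) = Fintype.card X := by
    rw [hcard]; exact AlgHom.card k F E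
  have hφbij : Function.Bijective φ :=
    (Fintype.bijective_iff_injective_and_card φ).2 ⟨hφinj, hcardE.symm⟩
  have h1 : algebraMap k E (Algebra.norm k f) = ∏ σ : F →ₐ[k] E, σ f :=
    Algebra.norm_eq_prod_embeddings k E f
  have h2 : ∏ σ : F →ₐ[k] E, σ f = ∏ g, φ g f :=
    (Fintype.prod_bijective φ hφbij (fun g => φ g f) (fun σ => σ f) (fun _ => rfl)).symm
  have h3 : ∏ g, φ g f = algebraMap Ω E (∏ g, ι g f) := by
    rw [map_prod]
    rfl
  apply (algebraMap Ω E).injective
  rw [← h3, ← h2, ← h1, ← IsScalarTower.algebraMap_apply]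

end NormProd

section NormProdAdjoin

variable {K F Ω : Type*} [Field K] [Field F] [Field Ω] [Algebra K F] [Algebra K Ω]

/-- Two `K`-algebra homomorphisms agreeing at `y` agree on `K⟮y⟯`. -/
theorem algHom_eq_on_adjoin_simple (φ ψ : F →ₐ[K] Ω) (y : F) (h : φ y = ψ y)
    (r : K⟮y⟯) : φ (r : F) = ψ (r : F) := by
  obtain ⟨r, hr⟩ := r
  induction hr using IntermediateField.adjoin_induction with
  | mem x hx =>
    rw [Set.mem_singleton_iff] at hx
    subst hx
    exact h
  | algebraMap x => simp
  | add x z hx hz ihx ihz => simp only [map_add] at *; rw [ihx, ihz]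
  | inv x hx ihx => simp only [map_inv₀] at *; rw [ihx]
  | mul x z hx hz ihx ihz => simp only [map_mul] at *; rw [ihx, ihz]

/-- Norm identity for a full family of embeddings over `K⟮y⟯`: if `n = [F : K(y)]` distinct
`K`-embeddings `ι g : F → Ω` all send `y` to the same element, then the product of the
`ι g f` is the image under any of them of the norm of `f` to `K(y)`. -/
theorem prod_algHom_eq_norm_adjoin [CharZero K] (y : F) [FiniteDimensional K⟮y⟯ F]
    {X : Type*} [Fintype X] (ι : X → (F →ₐ[K] Ω))
    (hinj : Function.Injective ι) (hcard : Fintype.card X = Module.finrank K⟮y⟯ F)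
    (hy : ∀ g g', ι g y = ι g' y) (g₀ : X) (f : F) :
    ∏ g, ι g f = ι g₀ (algebraMap K⟮y⟯ F (Algebra.norm K⟮y⟯ f)) := by
  have : CharZero F := charZero_of_injective_algebraMap (algebraMap K F).injective
  have : CharZero K⟮y⟯ := charZero_of_injective_algebraMap (algebraMap K K⟮y⟯).injective
  let alg : Algebra K⟮y⟯ Ω := ((ι g₀ : F →+* Ω).comp (algebraMap K⟮y⟯ F)).toAlgebra
  let ι' : X → (F →ₐ[K⟮y⟯] Ω) := fun g =>
    { (ι g : F →+* Ω) with
      commutes' := fun r => algHom_eq_on_adjoin_simple (ι g) (ι g₀) y (hy g g₀) r }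
  have hinj' : Function.Injective ι' := by
    intro g g' h
    apply hinj
    ext a
    exact DFunLike.congr_fun h a
  exact prod_algHom_eq_norm ι' hinj' hcard f

end NormProdAdjoin

section Valuation

variable {Ω : Type*} [Field Ω] (w : AddValuation Ω (WithTop ℤ))

/-- The integer value of a `ℤ ∪ {∞}`-valued valuation (`0` at `0`). -/
noncomputable def valInt (z : Ω) : ℤ := (w z).untopD 0

theorem coe_valInt {z : Ω} (hz : z ≠ 0) : ((valInt w z : ℤ) : WithTop ℤ) = w z := by
  have h : w z ≠ ⊤ := fun h => hz ((AddValuation.top_iff w).1 h)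
  obtain ⟨n, hn⟩ := WithTop.ne_top_iff_exists.1 h
  unfold valInt
  rw [← hn]
  rfl

theorem valInt_eq_of_eq {z z' : Ω} (h : w z = w z') : valInt w z = valInt w z' := by
  unfold valInt; rw [h]

theorem valInt_zero : valInt w 0 = 0 := by
  unfold valInt; rw [AddValuation.map_zero]; rfl

theorem valInt_mul {a b : Ω} (ha : a ≠ 0) (hb : b ≠ 0) :
    valInt w (a * b) = valInt w a + valInt w b := by
  have h := AddValuation.map_mul w a b
  rw [← coe_valInt w ha, ← coe_valInt w hb, ← coe_valInt w (mul_ne_zero ha hb)] at h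
  exact_mod_cast h

theorem valInt_add {a b : Ω} (ha : a ≠ 0) (hb : b ≠ 0) (hab : a + b ≠ 0) :
    min (valInt w a) (valInt w b) ≤ valInt w (a + b) := by
  have h := AddValuation.map_add w a b
  rw [← coe_valInt w ha, ← coe_valInt w hb, ← coe_valInt w hab] at h
  exact_mod_cast h

theorem valInt_prod {X : Type*} (s : Finset X) (a : X → Ω) (ha : ∀ g ∈ s, a g ≠ 0) :
    valInt w (∏ g ∈ s, a g) = ∑ g ∈ s, valInt w (a g) := by
  classical
  induction s using Finset.induction_on with
  | empty =>
    simp only [Finset.prod_empty, Finset.sum_empty]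
    unfold valInt
    rw [AddValuation.map_one]; rfl
  | insert g s hg ih =>
    rw [Finset.prod_insert hg, Finset.sum_insert hg,
      valInt_mul w (ha g (Finset.mem_insert_self g s))
        (Finset.prod_ne_zero_iff.2 fun i hi => ha i (Finset.mem_insert_of_mem hi)),
      ih fun i hi => ha i (Finset.mem_insert_of_mem hi)]

end Valuation

/-- helper384's orbit counting lemma B′ (board row 67), as a `Prop`: the number of zeros of `x`
among the places equals the number of classes, given `n = [F : K(x)]` "conjugate" integer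
valued valuations `w g` on `F` satisfying the norm identity. -/
def Stmt_BPrime : Prop :=
  ∀ (K F : Type) [Field K] [Field F] [Algebra K F] [IsAlgClosed K] [CharZero K] (x : F),
    Transcendental K x → ∀ [FiniteDimensional K⟮x⟯ F],
    (∃ s : Finset (Place K F), (∀ v : Place K F, v ∈ s ↔ 0 < v.ord x) ∧
      ∑ v ∈ s, v.ord x = (Module.finrank K⟮x⟯ F : ℤ)) →
    ∀ (X O : Type) [Fintype X] [Finite O], Fintype.card X = Module.finrank K⟮x⟯ F →
    ∀ (w : X → F → ℤ),
    (∀ g (a b : F), a ≠ 0 → b ≠ 0 → w g (a * b) = w g a + w g b) →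
    (∀ g (a b : F), a ≠ 0 → b ≠ 0 → a + b ≠ 0 → min (w g a) (w g b) ≤ w g (a + b)) →
    (∀ g (c : K), w g (algebraMap K F c) = 0) →
    ∀ (e₀ : ℤ), 0 < e₀ → (∀ g, w g x = e₀) →
    (∀ (f : F), f ≠ 0 → ∀ g₀ : X,
      ∑ g, w g f = w g₀ (algebraMap K⟮x⟯ F (Algebra.norm K⟮x⟯ f))) →
    ∀ (orb : X → O), Function.Surjective orb →
    (∀ g g', orb g = orb g' → ∀ f, w g f = w g' f) →
    (∀ g (f : F), f ≠ 0 → e₀ ∣ (Nat.card {g' // orb g' = orb g} : ℤ) * w g f) →
    Nat.card {v : Place K F // 0 < v.ord x} = Nat.card O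

section Orbits

variable {X : Type*} [Fintype X] (ρ : Equiv.Perm X)

/-- The size `p` of the `⟨ρ⟩`-orbit of `g` satisfies `ρ ^ p g = g`. -/
theorem pow_card_orbitClass_apply (g : X) :
    (ρ ^ Nat.card {g' : X // (Quotient.mk'' g' : MulAction.orbitRel.Quotient
        (Subgroup.zpowers ρ) X) = Quotient.mk'' g}) g = g := by
  classical
  have hcard : Nat.card {g' : X // (Quotient.mk'' g' : MulAction.orbitRel.Quotient
        (Subgroup.zpowers ρ) X) = Quotient.mk'' g}
      = Function.minimalPeriod (ρ • ·) g := by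
    rw [MulAction.minimalPeriod_eq_card, ← Nat.card_eq_fintype_card]
    apply Nat.card_congr
    refine Equiv.subtypeEquivRight fun g' => ?_
    rw [Quotient.eq'']
    exact MulAction.orbitRel_apply
  rw [hcard]
  have h := Function.isPeriodicPt_minimalPeriod (ρ • ·) g
  have h2 : ∀ n : ℕ, (ρ • · : X → X)^[n] g = (ρ ^ n) g := by
    intro n
    induction n with
    | zero => rfl
    | succ n ih => rw [Function.iterate_succ_apply', ih, pow_succ']; rfl
  rw [← h2]
  exact h

end Orbits

open helper24 in
/-- The captain's abstract orbit counting statement `Stmt_LOC` follows from helper384's lemma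
B′ and the fundamental identity. -/
theorem stmt_LOC_of_BPrime (hB : Stmt_BPrime) (hF : Stmt_FundId) : Stmt_LOC := by
  intro K F _ _ _ _ _ Ω _ _ y hy _ w hwK X _ hcard ι hinj ξ hξ m hm hwξ σ hσ ρ hρ hdiv
  classical
  have hne : ∀ (g : X) (f : F), f ≠ 0 → ι g f ≠ 0 := fun g f hf =>
    (map_ne_zero_iff (ι g) (ι g).toRingHom.injective).2 hf
  -- invariance of the valuations under `ρ`
  have hρw : ∀ (τ : Equiv.Perm X), τ ∈ Subgroup.zpowers ρ → ∀ i f, w (ι (τ i) f) = w (ι i f) := by
    let H : Subgroup (Equiv.Perm X) :=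
      { carrier := {τ | ∀ i f, w (ι (τ i) f) = w (ι i f)}
        mul_mem' := by
          intro a b ha hb i f
          show w (ι (a (b i)) f) = w (ι i f)
          rw [ha, hb]
        one_mem' := fun i f => rfl
        inv_mem' := by
          intro a ha i f
          have := ha (a⁻¹ i) f
          rw [show a (a⁻¹ i) = i from Equiv.apply_symm_apply a i] at this
          exact this.symm }
    have hρH : ρ ∈ H := fun i f => by rw [← hρ, hσ]
    intro τ hτ
    exact (Subgroup.zpowers_le.2 hρH) hτ
  have hσpow : ∀ (k : ℕ) (i : X) (f : F), (σ ^ k) (ι i f) = ι ((ρ ^ k) i) f := by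
    intro k
    induction k with
    | zero => intro i f; rfl
    | succ k ih =>
      intro i f
      rw [pow_succ', pow_succ']
      show σ ((σ ^ k) (ι i f)) = ι (ρ ((ρ ^ k) i)) f
      rw [ih, hρ]
  refine hB K F y hy (hF K F y hy) X (MulAction.orbitRel.Quotient (Subgroup.zpowers ρ) X) hcard
    (fun g f => valInt w (ι g f)) ?_ ?_ ?_ (m : ℤ) (by exact_mod_cast hm) ?_ ?_
    (fun g => Quotient.mk'' g) Quotient.mk''_surjective ?_ ?_
  · intro g a b ha hb
    show valInt w (ι g (a * b)) = _
    rw [map_mul]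
    exact valInt_mul w (hne g a ha) (hne g b hb)
  · intro g a b ha hb hab
    show _ ≤ valInt w (ι g (a + b))
    rw [map_add]
    refine valInt_add w (hne g a ha) (hne g b hb) ?_
    rw [← map_add]
    exact hne g _ hab
  · intro g c
    show valInt w (ι g (algebraMap K F c)) = 0
    rw [AlgHom.commutes]
    by_cases hc : c = 0
    · rw [hc, map_zero]; exact valInt_zero w
    · unfold valInt
      rw [hwK c hc]; rfl
  · intro g
    show valInt w (ι g y) = m
    unfold valInt
    rw [hξ g, hwξ]; rfl
  · intro f hf g₀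
    show ∑ g, valInt w (ι g f) = valInt w (ι g₀ _)
    rw [← prod_algHom_eq_norm_adjoin y ι hinj hcard (fun g g' => by rw [hξ g, hξ g']) g₀ f,
      valInt_prod w Finset.univ (fun g => ι g f) (fun g _ => hne g f hf)]
  · intro g g' h f
    show valInt w (ι g f) = valInt w (ι g' f)
    rw [Quotient.eq''] at h
    have h' : g ∈ MulAction.orbit (Subgroup.zpowers ρ) g' := MulAction.orbitRel_apply.1 h
    obtain ⟨⟨τ, hτ⟩, rfl⟩ := h'
    exact valInt_eq_of_eq w (hρw τ hτ g' f)
  · intro g f hf
    show (m : ℤ) ∣ _ * valInt w (ι g f)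
    set p := Nat.card {g' : X // (Quotient.mk'' g' : MulAction.orbitRel.Quotient
        (Subgroup.zpowers ρ) X) = Quotient.mk'' g} with hp
    have hfix : (σ ^ p) (ι g f) = ι g f := by
      rw [hσpow, hp, pow_card_orbitClass_apply]
    obtain ⟨l, hl⟩ := hdiv p (ι g f) (hne g f hf) hfix
    rw [← coe_valInt w (hne g f hf)] at hl
    have hl' : valInt w (ι g f) = ((m / Nat.gcd p m : ℕ) : ℤ) * l := by exact_mod_cast hl
    rw [hl']
    obtain ⟨a, ha⟩ := Nat.gcd_dvd_left p m
    obtain ⟨b, hb⟩ := Nat.gcd_dvd_right p m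
    have hgpos : 0 < Nat.gcd p m := Nat.gcd_pos_of_pos_right p hm
    have hmdiv : m / Nat.gcd p m = b :=
      Nat.div_eq_of_eq_mul_right hgpos hb
    rw [hmdiv]
    refine ⟨(a : ℤ) * l, ?_⟩
    have : (p : ℤ) * ((b : ℤ) * l) = ((p * b : ℕ) : ℤ) * l := by push_cast; ring
    rw [this]
    have h3 : p * b = m * a := by
      conv_lhs => rw [ha]
      conv_rhs => rw [hb]
      ring
    rw [h3]
    push_cast; ring

end Fermat.Agent.S24.helper264
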