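import Mathlib

/-!
# The ring of holomorphic functions on the upper half plane, its fraction field,
order valuations at points, and the `SL(2, ℤ)`-action (S24, MOD-H)
-/

set_option autoImplicit false

open UpperHalfPlane Filter Topology
open scoped Manifold MatrixGroups

namespace Fermat.Agent.S24.helper552

noncomputable section

/-- Holomorphic functions on the upper half plane, as a subring of all functions. -/
def Hol : Subring (ℍ → ℂ) where
  carrier := {f | MDifferentiable 𝓘(ℂ) 𝓘(ℂ) f}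
  mul_mem' := fun hf hg => hf.mul hg
  one_mem' := mdifferentiable_const
  add_mem' := fun hf hg => hf.add hg
  zero_mem' := mdifferentiable_const
  neg_mem' := fun hf => hf.neg

theorem mem_Hol {f : ℍ → ℂ} : f ∈ Hol ↔ MDifferentiable 𝓘(ℂ) 𝓘(ℂ) f := Iff.rfl

instance instIsDomainHol : IsDomain Hol := by
  have : NoZeroDivisors Hol := by
    refine ⟨fun {a b} hab => ?_⟩
    have h := (UpperHalfPlane.mul_eq_zero_iff a.2 b.2).mp (congrArg Subtype.val hab)
    exact h.imp (fun h => Subtype.ext h) (fun h => Subtype.ext h)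
  exact NoZeroDivisors.to_isDomain _

/-- The function on `ℂ` attached to `f : Hol`. -/
def holC (f : Hol) : ℂ → ℂ := fun z => f.1 (ofComplex z)

theorem holC_coe (f : Hol) (τ : ℍ) : holC f τ = f.1 τ := by
  simp [holC]

theorem holC_analyticAt (f : Hol) (τ : ℍ) : AnalyticAt ℂ (holC f) τ := by
  have h := UpperHalfPlane.mdifferentiable_iff.mp f.2
  exact h.analyticAt (isOpen_upperHalfPlaneSet.mem_nhds τ.im_pos)

theorem holC_zero : holC 0 = 0 := rfl

theorem holC_one : holC 1 = 1 := rfl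

theorem holC_add (f g : Hol) : holC (f + g) = holC f + holC g := rfl

theorem holC_mul (f g : Hol) : holC (f * g) = holC f * holC g := rfl

/-- If `f` vanishes near a point then it is zero. -/
theorem eq_zero_of_order_top (f : Hol) (τ : ℍ)
    (h : meromorphicOrderAt (holC f) τ = ⊤) : f = 0 := by
  rw [meromorphicOrderAt_eq_top_iff] at h
  have hf := (UpperHalfPlane.mdifferentiable_iff.mp f.2).analyticOnNhd isOpen_upperHalfPlaneSet
  have key := hf.eqOn_zero_of_preconnected_of_frequently_eq_zero (z₀ := (τ : ℂ))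
    (Complex.isConnected_of_upperHalfPlane subset_rfl (by grind)).isPreconnected τ.2
    h.frequently
  apply Subtype.ext
  funext w
  have := key w.im_pos
  simpa using this

/-- The order of vanishing at `τ`, as an additive valuation on `Hol`. -/
def ordHol (τ : ℍ) : AddValuation Hol (WithTop ℤ) :=
  AddValuation.of (fun f => meromorphicOrderAt (holC f) τ)
    (by rw [holC_zero, meromorphicOrderAt_eq_top_iff]; simp)
    (by
      rw [holC_one]
      have h : meromorphicOrderAt (fun _ : ℂ => (1 : ℂ)) (τ : ℂ) = 0 := by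
        rw [meromorphicOrderAt_const]
        simp
      exact h)
    (fun f g => by
      rw [holC_add]
      exact meromorphicOrderAt_add (holC_analyticAt f τ).meromorphicAt
        (holC_analyticAt g τ).meromorphicAt)
    (fun f g => by
      rw [holC_mul]
      exact meromorphicOrderAt_mul (holC_analyticAt f τ).meromorphicAt
        (holC_analyticAt g τ).meromorphicAt)

theorem ordHol_apply (τ : ℍ) (f : Hol) : ordHol τ f = meromorphicOrderAt (holC f) τ := rfl

theorem ordHol_eq_top_iff (τ : ℍ) (f : Hol) : ordHol τ f = ⊤ ↔ f = 0 := by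
  constructor
  · exact eq_zero_of_order_top f τ
  · rintro rfl
    exact (ordHol τ).map_zero

/-! ## The field of meromorphic functions and the order valuations -/

/-- The field of meromorphic functions on the upper half plane (fractions of holomorphic
functions). -/
abbrev Mer : Type := FractionRing Hol

theorem ordHol_supp (τ : ℍ) :
    nonZeroDivisors Hol ≤ (AddValuation.toValuation (ordHol τ)).supp.primeCompl := by
  intro f hf hmem
  have h1 : ordHol τ f = ⊤ :=
    (Valuation.mem_supp_iff (AddValuation.toValuation (ordHol τ)) f).mp hmem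
  have h2 : f = 0 := (ordHol_eq_top_iff τ f).mp h1
  exact (nonZeroDivisors.ne_zero hf) h2

/-- The order at `τ`, as an additive valuation on `Mer`. -/
def ordAt (τ : ℍ) : AddValuation Mer (WithTop ℤ) :=
  AddValuation.ofValuation
    ((AddValuation.toValuation (ordHol τ)).extendToLocalization (ordHol_supp τ) Mer)

theorem ordAt_algebraMap (τ : ℍ) (f : Hol) :
    ordAt τ (algebraMap Hol Mer f) = meromorphicOrderAt (holC f) τ :=
  Valuation.extendToLocalization_apply_map_apply _ (ordHol_supp τ) Mer f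

theorem ordAt_ne_top (τ : ℍ) {z : Mer} (hz : z ≠ 0) : ordAt τ z ≠ ⊤ :=
  (AddValuation.ne_top_iff (ordAt τ)).mpr hz

theorem ordAt_div (τ : ℍ) (a b : Hol) :
    ordAt τ (algebraMap Hol Mer a / algebraMap Hol Mer b)
      = meromorphicOrderAt (holC a) τ - meromorphicOrderAt (holC b) τ := by
  rw [AddValuation.map_div, ordAt_algebraMap, ordAt_algebraMap]

/-- Every meromorphic function is a quotient of holomorphic functions. -/
theorem exists_div (z : Mer) : ∃ a b : Hol, b ≠ 0 ∧ z = algebraMap Hol Mer a / algebraMap Hol Mer b := by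
  obtain ⟨a, b, hb, h⟩ := IsFractionRing.div_surjective (A := Hol) z
  exact ⟨a, b, nonZeroDivisors.ne_zero hb, h.symm⟩

theorem algebraMap_injective : Function.Injective (algebraMap Hol Mer) :=
  IsFractionRing.injective Hol Mer

/-! ## Constants -/

/-- Constant functions. -/
def constHol : ℂ →+* Hol where
  toFun c := ⟨fun _ => c, mdifferentiable_const⟩
  map_one' := rfl
  map_mul' _ _ := rfl
  map_zero' := rfl
  map_add' _ _ := rfl

theorem constHol_apply (c : ℂ) (τ : ℍ) : (constHol c).1 τ = c := rfl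

/-- Constant functions, as meromorphic functions. -/
def constMer : ℂ →+* Mer := (algebraMap Hol Mer).comp constHol

theorem ordAt_constMer (τ : ℍ) {c : ℂ} (hc : c ≠ 0) : ordAt τ (constMer c) = 0 := by
  show ordAt τ (algebraMap Hol Mer (constHol c)) = 0
  rw [ordAt_algebraMap]
  have h : holC (constHol c) = fun _ : ℂ => c := rfl
  rw [h, meromorphicOrderAt_const]
  simp [hc]

/-! ## The action of `SL(2, ℤ)` -/

theorem det_coe_pos (g : SL(2, ℤ)) : (0 : ℝ) < ((g : GL (Fin 2) ℝ)).val.det := by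
  have : ((g : GL (Fin 2) ℝ)).val.det = 1 := by
    have := Matrix.SpecialLinearGroup.det_coe (g.map (Int.castRingHom ℝ))
    simpa using this
  rw [this]; exact one_pos

theorem mdifferentiable_sl_smul (g : SL(2, ℤ)) :
    MDifferentiable 𝓘(ℂ) 𝓘(ℂ) (fun τ : ℍ => g • τ) :=
  UpperHalfPlane.mdifferentiable_smul (det_coe_pos g)

/-- Pullback of holomorphic functions along `τ ↦ g⁻¹ • τ`. -/
def pullHol (g : SL(2, ℤ)) : Hol ≃+* Hol where
  toFun f := ⟨fun τ => f.1 (g⁻¹ • τ), f.2.comp (mdifferentiable_sl_smul g⁻¹)⟩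
  invFun f := ⟨fun τ => f.1 (g • τ), f.2.comp (mdifferentiable_sl_smul g)⟩
  left_inv f := by
    apply Subtype.ext
    funext τ
    simp
  right_inv f := by
    apply Subtype.ext
    funext τ
    simp
  map_mul' _ _ := rfl
  map_add' _ _ := rfl

theorem pullHol_apply (g : SL(2, ℤ)) (f : Hol) (τ : ℍ) : (pullHol g f).1 τ = f.1 (g⁻¹ • τ) := rfl

theorem pullHol_mul (g h : SL(2, ℤ)) (f : Hol) : pullHol (g * h) f = pullHol g (pullHol h f) := by
  apply Subtype.ext
  funext τ
  simp [pullHol_apply, mul_inv_rev, mul_smul]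

theorem pullHol_one (f : Hol) : pullHol 1 f = f := by
  apply Subtype.ext
  funext τ
  simp [pullHol_apply]

theorem pullHol_constHol (g : SL(2, ℤ)) (c : ℂ) : pullHol g (constHol c) = constHol c := rfl

/-- Pullback of meromorphic functions along `τ ↦ g⁻¹ • τ`. -/
def pull (g : SL(2, ℤ)) : Mer ≃+* Mer := IsFractionRing.ringEquivOfRingEquiv (pullHol g)

theorem pull_algebraMap (g : SL(2, ℤ)) (f : Hol) :
    pull g (algebraMap Hol Mer f) = algebraMap Hol Mer (pullHol g f) :=
  IsFractionRing.ringEquivOfRingEquiv_algebraMap (pullHol g) f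

theorem pull_constMer (g : SL(2, ℤ)) (c : ℂ) : pull g (constMer c) = constMer c := by
  show pull g (algebraMap Hol Mer (constHol c)) = algebraMap Hol Mer (constHol c)
  rw [pull_algebraMap, pullHol_constHol]

theorem pull_mul (g h : SL(2, ℤ)) (z : Mer) : pull (g * h) z = pull g (pull h z) := by
  obtain ⟨a, b, -, rfl⟩ := exists_div z
  simp only [map_div₀, pull_algebraMap, pullHol_mul]

theorem pull_one (z : Mer) : pull 1 z = z := by
  obtain ⟨a, b, -, rfl⟩ := exists_div z
  simp only [map_div₀, pull_algebraMap, pullHol_one]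

theorem pull_pow (g : SL(2, ℤ)) (k : ℕ) (z : Mer) : pull (g ^ k) z = (pull g)^[k] z := by
  induction k generalizing z with
  | zero => simp [pull_one]
  | succ k ih => rw [pow_succ, pull_mul, Function.iterate_succ_apply, ih]

theorem pull_neg (g : SL(2, ℤ)) (z : Mer) : pull (-g) z = pull g z := by
  obtain ⟨a, b, -, rfl⟩ := exists_div z
  have h : ∀ f : Hol, pullHol (-g) f = pullHol g f := by
    intro f
    apply Subtype.ext
    funext τ
    simp only [pullHol_apply]
    rw [show (-g)⁻¹ = -g⁻¹ by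
      rw [inv_eq_iff_eq_inv, eq_comm, inv_eq_iff_eq_inv]; simp, ModularGroup.SL_neg_smul]
  simp only [map_div₀, pull_algebraMap, h]

/-! ## Behaviour of the order under the action -/

/-- The Möbius map of `g` on `ℂ` (junk outside the upper half plane). -/
def moebC (g : SL(2, ℤ)) : ℂ → ℂ := fun z => ((g • ofComplex z : ℍ) : ℂ)

theorem holC_pullHol (g : SL(2, ℤ)) (f : Hol) : holC (pullHol g f) = holC f ∘ moebC g⁻¹ := by
  funext z
  simp [holC, moebC, pullHol_apply]

theorem moebC_analyticAt (g : SL(2, ℤ)) (τ : ℍ) : AnalyticAt ℂ (moebC g) τ :=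
  UpperHalfPlane.analyticAt_smul (det_coe_pos g) τ

theorem moebC_coe (g : SL(2, ℤ)) (τ : ℍ) : moebC g τ = ((g • τ : ℍ) : ℂ) := by
  simp [moebC]

theorem deriv_moebC (g : SL(2, ℤ)) (τ : ℍ) :
    deriv (moebC g) τ = 1 / denom (g : GL (Fin 2) ℝ) τ ^ 2 := by
  have h := UpperHalfPlane.deriv_smul (det_coe_pos g) τ
  have hdet : ((g : GL (Fin 2) ℝ)).val.det = 1 := by
    have := Matrix.SpecialLinearGroup.det_coe (g.map (Int.castRingHom ℝ))
    simpa using this
  rw [hdet] at h
  have h2 : deriv (moebC g) τ = ((1 : ℝ) : ℂ) / denom (g : GL (Fin 2) ℝ) τ ^ 2 := h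
  rw [h2, Complex.ofReal_one]

theorem meromorphicOrderAt_pullHol (g : SL(2, ℤ)) (τ : ℍ) (f : Hol) :
    meromorphicOrderAt (holC (pullHol g f)) τ = meromorphicOrderAt (holC f) ↑(g⁻¹ • τ) :=
  UpperHalfPlane.meromorphicOrderAt_comp_smul (f := f.1) (τ := τ)
    (g := ((g⁻¹ : SL(2, ℤ)) : GL (Fin 2) ℝ)) (det_coe_pos g⁻¹)

theorem ordAt_pull (g : SL(2, ℤ)) (τ : ℍ) (z : Mer) :
    ordAt τ (pull g z) = ordAt (g⁻¹ • τ) z := by
  obtain ⟨a, b, -, rfl⟩ := exists_div z
  rw [map_div₀, pull_algebraMap, pull_algebraMap, ordAt_div, ordAt_div,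
    meromorphicOrderAt_pullHol, meromorphicOrderAt_pullHol]

theorem ordAt_pull_of_fixed (g : SL(2, ℤ)) (τ : ℍ) (hg : g • τ = τ) (z : Mer) :
    ordAt τ (pull g z) = ordAt τ z := by
  rw [ordAt_pull]
  have h : g⁻¹ • τ = τ := by rw [inv_smul_eq_iff, hg]
  rw [h]

/-- Local lemma: if `A ∘ φ * B = A * B ∘ φ` near a fixed point `z₀` of `φ` with multiplier
`μ = φ'(z₀) ≠ 0`, then `μ ^ ord A = μ ^ ord B`. -/
theorem local_multiplier {A B φ : ℂ → ℂ} {z0 : ℂ} {n m : ℤ}
    (hA : MeromorphicAt A z0) (hnA : meromorphicOrderAt A z0 = n)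
    (hB : MeromorphicAt B z0) (hmB : meromorphicOrderAt B z0 = m)
    (hφ : AnalyticAt ℂ φ z0) (hφ0 : φ z0 = z0) (hμ : deriv φ z0 ≠ 0)
    (hinv : ∀ z, A (φ z) * B z = A z * B (φ z)) :
    deriv φ z0 ^ n = deriv φ z0 ^ m := by
  obtain ⟨gA, hgA, hgA0, hAeq⟩ := (meromorphicOrderAt_eq_int_iff hA).mp hnA
  obtain ⟨gB, hgB, hgB0, hBeq⟩ := (meromorphicOrderAt_eq_int_iff hB).mp hmB
  set h : ℂ → ℂ := dslope φ z0 with hh
  have hh_cont : ContinuousAt h z0 := continuousAt_dslope_same.mpr hφ.differentiableAt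
  have hh0 : h z0 = deriv φ z0 := dslope_same φ z0
  have hφsub : ∀ z, φ z - z0 = (z - z0) * h z := by
    intro z
    have := sub_smul_dslope φ z0 z
    rw [hφ0, smul_eq_mul] at this
    exact this.symm
  have hnc : ¬ EventuallyConst φ (𝓝 z0) := by
    rw [eventuallyConst_iff_analyticOrderAt_sub_eq_top,
      hφ.analyticOrderAt_sub_eq_one_of_deriv_ne_zero hμ]
    simp
  have htend : Tendsto φ (𝓝[≠] z0) (𝓝[≠] z0) := by
    have := hφ.map_nhdsNE hnc
    rwa [hφ0] at this
  have hAφ : ∀ᶠ z in 𝓝[≠] z0, A (φ z) = (φ z - z0) ^ n • gA (φ z) := htend.eventually hAeq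
  have hBφ : ∀ᶠ z in 𝓝[≠] z0, B (φ z) = (φ z - z0) ^ m • gB (φ z) := htend.eventually hBeq
  have hφc : ContinuousAt φ z0 := hφ.continuousAt
  have hgAφ : ContinuousAt (fun z => gA (φ z)) z0 := by
    have : ContinuousAt gA (φ z0) := by rw [hφ0]; exact hgA.continuousAt
    exact ContinuousAt.comp (g := gA) this hφc
  have hgBφ : ContinuousAt (fun z => gB (φ z)) z0 := by
    have : ContinuousAt gB (φ z0) := by rw [hφ0]; exact hgB.continuousAt
    exact ContinuousAt.comp (g := gB) this hφc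
  have hh0' : h z0 ≠ 0 := by rw [hh0]; exact hμ
  have hF1 : ContinuousAt (fun z => h z ^ n * gA (φ z) * gB z) z0 :=
    ((hh_cont.zpow₀ n (Or.inl hh0')).mul hgAφ).mul hgB.continuousAt
  have hF2 : ContinuousAt (fun z => gA z * (h z ^ m * gB (φ z))) z0 :=
    hgA.continuousAt.mul ((hh_cont.zpow₀ m (Or.inl hh0')).mul hgBφ)
  have hev : (fun z => h z ^ n * gA (φ z) * gB z) =ᶠ[𝓝[≠] z0]
      (fun z => gA z * (h z ^ m * gB (φ z))) := by
    filter_upwards [hAeq, hBeq, hAφ, hBφ, self_mem_nhdsWithin] with z h1 h2 h3 h4 hz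
    have hz' : z - z0 ≠ 0 := sub_ne_zero.mpr hz
    have key := hinv z
    rw [h3, h2, h1, h4, hφsub, mul_zpow, mul_zpow] at key
    simp only [smul_eq_mul] at key
    have hc : (z - z0) ^ n * (z - z0) ^ m ≠ 0 :=
      mul_ne_zero (zpow_ne_zero _ hz') (zpow_ne_zero _ hz')
    apply mul_left_cancel₀ hc
    linear_combination key
  have hlim := tendsto_nhds_unique_of_eventuallyEq
    (hF1.tendsto.mono_left nhdsWithin_le_nhds) (hF2.tendsto.mono_left nhdsWithin_le_nhds) hev
  simp only [hφ0, hh0] at hlim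
  have hc : gA z0 * gB z0 ≠ 0 := mul_ne_zero hgA0 hgB0
  apply mul_right_cancel₀ hc
  linear_combination hlim

/-- Invariant meromorphic functions at a fixed point: the multiplier to the power of the order
is one. -/
theorem pow_ordAt_eq_one_of_pull_eq (g : SL(2, ℤ)) (τ : ℍ) (hg : g • τ = τ) (z : Mer)
    (hz : z ≠ 0) (hinv : pull g z = z) :
    ∃ n : ℤ, ordAt τ z = (n : WithTop ℤ) ∧ (denom (g : GL (Fin 2) ℝ) τ ^ 2) ^ n = 1 := by
  obtain ⟨a, b, hb, rfl⟩ := exists_div z
  have ha : a ≠ 0 := by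
    rintro rfl
    simp at hz
  have hbM : algebraMap Hol Mer b ≠ 0 := fun h => hb (algebraMap_injective (by simpa using h))
  obtain ⟨na, hna⟩ := WithTop.ne_top_iff_exists.mp
    (fun h => ha ((ordHol_eq_top_iff τ a).mp h))
  obtain ⟨nb, hnb⟩ := WithTop.ne_top_iff_exists.mp
    (fun h => hb ((ordHol_eq_top_iff τ b).mp h))
  rw [ordHol_apply] at hna hnb
  refine ⟨na - nb, ?_, ?_⟩
  · rw [ordAt_div, ← hna, ← hnb]; rfl
  · -- invariance under `g⁻¹`
    have hinv' : pull g⁻¹ (algebraMap Hol Mer a / algebraMap Hol Mer b)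
        = algebraMap Hol Mer a / algebraMap Hol Mer b := by
      conv_lhs => rw [← hinv]
      rw [← pull_mul, inv_mul_cancel, pull_one]
    rw [map_div₀, pull_algebraMap, pull_algebraMap] at hinv'
    have hbM' : algebraMap Hol Mer (pullHol g⁻¹ b) ≠ 0 := by
      intro h
      have : pullHol g⁻¹ b = 0 := algebraMap_injective (by simpa using h)
      exact hb ((pullHol g⁻¹).map_eq_zero_iff.mp this)
    rw [div_eq_div_iff hbM' hbM, ← map_mul, ← map_mul] at hinv'
    have hH : pullHol g⁻¹ a * b = a * pullHol g⁻¹ b := algebraMap_injective hinv'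
    have hfun : ∀ w, holC a (moebC g w) * holC b w = holC a w * holC b (moebC g w) := by
      intro w
      have := congrArg (fun f => holC f w) hH
      simpa [holC_mul, holC_pullHol] using this
    have hφ0 : moebC g τ = τ := by rw [moebC_coe, hg]
    have hderiv : deriv (moebC g) τ ≠ 0 := by
      rw [deriv_moebC]
      exact one_div_ne_zero (pow_ne_zero _ (denom_ne_zero _ τ))
    have key := local_multiplier (holC_analyticAt a τ).meromorphicAt hna.symm
      (holC_analyticAt b τ).meromorphicAt hnb.symm (moebC_analyticAt g τ) hφ0 hderiv hfun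
    rw [deriv_moebC] at key
    have hd : denom (g : GL (Fin 2) ℝ) τ ^ 2 ≠ 0 := pow_ne_zero _ (denom_ne_zero _ τ)
    rw [one_div, inv_zpow, inv_zpow, inv_inj] at key
    rw [zpow_sub₀ hd, key, div_self (zpow_ne_zero _ hd)]

/-! ## The divisibility property at elliptic points -/

/-- The divisibility property `hdiv` of the orbit counting lemma at a fixed point `τ` of an
element `s` whose multiplier at `τ` is a primitive `m`-th root of unity, `m` prime. -/
theorem hdiv_of_prime (s : SL(2, ℤ)) (m : ℕ) (hm : m.Prime) (τ : ℍ) (hfix : s • τ = τ)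
    (hprim : IsPrimitiveRoot (denom (s : GL (Fin 2) ℝ) τ ^ 2) m)
    (hord : ∀ z : Mer, (pull s)^[m] z = z)
    (k : ℕ) (z : Mer) (hz : z ≠ 0) (hk : (pull s)^[k] z = z) :
    ∃ l : ℤ, ordAt τ z = (((m / Nat.gcd k m : ℕ) * l : ℤ) : WithTop ℤ) := by
  obtain ⟨n, hn⟩ := WithTop.ne_top_iff_exists.mp (ordAt_ne_top τ hz)
  have hper : Function.IsPeriodicPt (pull s) (Nat.gcd k m) z :=
    Function.IsPeriodicPt.gcd hk (hord z)
  rcases (Nat.dvd_prime hm).mp (Nat.gcd_dvd_right k m) with h1 | h1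
  · rw [h1] at hper
    have hinv : pull s z = z := by
      simpa [Function.IsPeriodicPt, Function.IsFixedPt] using hper
    obtain ⟨n', hn', hpow⟩ := pow_ordAt_eq_one_of_pull_eq s τ hfix z hz hinv
    obtain ⟨l, hl⟩ := (hprim.zpow_eq_one_iff_dvd n').mp hpow
    refine ⟨l, ?_⟩
    rw [hn', h1, Nat.div_one, hl]
  · rw [h1, Nat.div_self hm.pos]
    exact ⟨n, by rw [← hn]; simp⟩

theorem S_mul_S : ModularGroup.S * ModularGroup.S = -1 := by decide

theorem ST_pow_three : (ModularGroup.S * ModularGroup.T) ^ 3 = -1 := by decide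

theorem pull_S_iterate_two (z : Mer) : (pull ModularGroup.S)^[2] z = z := by
  rw [← pull_pow, pow_two, S_mul_S, pull_neg, pull_one]

theorem pull_ST_iterate_three (z : Mer) :
    (pull (ModularGroup.S * ModularGroup.T))^[3] z = z := by
  rw [← pull_pow, ST_pow_three, pull_neg, pull_one]

/-- A fixed point of `S` satisfies `τ ^ 2 = -1`. -/
theorem sq_of_S_fixed (τ : ℍ) (hfix : ModularGroup.S • τ = τ) : (τ : ℂ) ^ 2 = -1 := by
  have h := congrArg (fun x : ℍ => (x : ℂ)) hfix
  simp only [UpperHalfPlane.modular_S_smul] at h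
  have h2 : ((-(τ : ℂ))⁻¹ : ℂ) = τ := h
  have hne : (τ : ℂ) ≠ 0 := τ.ne_zero
  have hne' : -(τ : ℂ) ≠ 0 := neg_ne_zero.mpr hne
  have h3 : (τ : ℂ) * (-(τ : ℂ)) = 1 := by
    calc (τ : ℂ) * (-(τ : ℂ)) = (-(τ : ℂ))⁻¹ * (-(τ : ℂ)) := by rw [h2]
      _ = 1 := inv_mul_cancel₀ hne'
  linear_combination -h3

theorem hdiv_S (τ : ℍ) (hfix : ModularGroup.S • τ = τ) (k : ℕ) (z : Mer) (hz : z ≠ 0)
    (hk : (pull ModularGroup.S)^[k] z = z) :
    ∃ l : ℤ, ordAt τ z = (((2 / Nat.gcd k 2 : ℕ) * l : ℤ) : WithTop ℤ) := by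
  refine hdiv_of_prime ModularGroup.S 2 Nat.prime_two τ hfix ?_ pull_S_iterate_two k z hz hk
  have hd : denom (ModularGroup.S : GL (Fin 2) ℝ) τ = τ := ModularGroup.denom_S τ
  rw [hd, sq_of_S_fixed τ hfix]
  exact IsPrimitiveRoot.neg_one 0 (by norm_num)

/-- A fixed point of `S * T` satisfies `τ ^ 2 + τ + 1 = 0`. -/
theorem eq_of_ST_fixed (τ : ℍ) (hfix : (ModularGroup.S * ModularGroup.T) • τ = τ) :
    (τ : ℂ) ^ 2 + τ + 1 = 0 := by
  have h := congrArg (fun x : ℍ => (x : ℂ)) hfix
  simp only [UpperHalfPlane.coe_specialLinearGroup_apply] at h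
  have e00 : (ModularGroup.S * ModularGroup.T) 0 0 = 0 := by decide
  have e01 : (ModularGroup.S * ModularGroup.T) 0 1 = -1 := by decide
  have e10 : (ModularGroup.S * ModularGroup.T) 1 0 = 1 := by decide
  have e11 : (ModularGroup.S * ModularGroup.T) 1 1 = 1 := by decide
  rw [e00, e01, e10, e11] at h
  have hden : (τ : ℂ) + 1 ≠ 0 := by
    intro h0
    have := congrArg Complex.im h0
    simp at this
    exact τ.im_pos.ne' this
  simp only [algebraMap_int_eq, eq_intCast, Int.cast_zero, Int.cast_one, Int.cast_neg,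
    Complex.ofReal_zero, Complex.ofReal_one, Complex.ofReal_neg, zero_mul, zero_add, one_mul] at h
  rw [div_eq_iff hden] at h
  linear_combination -h

theorem hdiv_ST (τ : ℍ) (hfix : (ModularGroup.S * ModularGroup.T) • τ = τ) (k : ℕ) (z : Mer)
    (hz : z ≠ 0) (hk : (pull (ModularGroup.S * ModularGroup.T))^[k] z = z) :
    ∃ l : ℤ, ordAt τ z = (((3 / Nat.gcd k 3 : ℕ) * l : ℤ) : WithTop ℤ) := by
  refine hdiv_of_prime (ModularGroup.S * ModularGroup.T) 3 Nat.prime_three τ hfix ?_
    pull_ST_iterate_three k z hz hk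
  have heq := eq_of_ST_fixed τ hfix
  have e10 : (ModularGroup.S * ModularGroup.T) 1 0 = 1 := by decide
  have e11 : (ModularGroup.S * ModularGroup.T) 1 1 = 1 := by decide
  have hd : denom ((ModularGroup.S * ModularGroup.T : SL(2, ℤ)) : GL (Fin 2) ℝ) τ = τ + 1 := by
    rw [ModularGroup.denom_apply, e10, e11]
    simp
  have hsq : denom ((ModularGroup.S * ModularGroup.T : SL(2, ℤ)) : GL (Fin 2) ℝ) τ ^ 2
      = (τ : ℂ) := by
    rw [hd]
    linear_combination heq
  rw [hsq]
  have him : (0 : ℝ) < (τ : ℂ).im := τ.im_pos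
  refine IsPrimitiveRoot.mk_of_lt _ (by norm_num) ?_ ?_
  · linear_combination ((τ : ℂ) - 1) * heq
  · intro l hl0 hl3 hl
    interval_cases l
    · rw [pow_one] at hl
      rw [hl] at him
      simp at him
    · have h2 : (τ : ℂ) = -2 := by linear_combination heq - hl
      rw [h2] at him
      simp at him

/-! ## Convenience lemmas -/

theorem ordAt_algebraMap_eq_analyticOrderAt (τ : ℍ) (f : Hol) :
    ordAt τ (algebraMap Hol Mer f) = (analyticOrderAt (holC f) τ).map (↑) := by
  rw [ordAt_algebraMap, (holC_analyticAt f τ).meromorphicOrderAt_eq]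

theorem ordAt_algebraMap_of_analyticOrderAt (τ : ℍ) (f : Hol) (n : ℕ)
    (h : analyticOrderAt (holC f) τ = n) :
    ordAt τ (algebraMap Hol Mer f) = ((n : ℤ) : WithTop ℤ) := by
  rw [ordAt_algebraMap_eq_analyticOrderAt, h]
  rfl

/-- The trivial divisibility property (for `m = 1`). -/
theorem hdiv_one (τ : ℍ) (k : ℕ) (z : Mer) (hz : z ≠ 0) :
    ∃ l : ℤ, ordAt τ z = (((1 / Nat.gcd k 1 : ℕ) * l : ℤ) : WithTop ℤ) := by
  obtain ⟨n, hn⟩ := WithTop.ne_top_iff_exists.mp (ordAt_ne_top τ hz)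
  exact ⟨n, by rw [← hn]; simp⟩

end

end Fermat.Agent.S24.helper552
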