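import Fermat.Agent.S24.helper264_Ev
import Fermat.Agent.S24.helper552_HolRing
import Fermat.Agent.S24.helper481_LocalFinite
import Fermat.Agent.S24.helper2064_JLeaves

/-!
# S24 / MOD: the finite-point package `helper481.Stmt_MerPackage` (helper264)

`M = helper552.Mer` (fractions of holomorphic functions on `ℍ`), `ord = helper552.ordAt`,
`act = helper552.pull`, and `ev` the extension to the function field of `helper264.ev`.
Consequently `Stmt_LocalGeneric`, `Stmt_Local1728`, `Stmt_LocalZero` hold.
-/

set_option autoImplicit false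

open ModularCurve CongruenceSubgroup UpperHalfPlane Function
open scoped MatrixGroups Manifold ModularForm

noncomputable section

namespace Fermat.Agent.S24.helper264

open Fermat.Agent.S24.helper24
open Fermat.Agent.S24.helper3176 (AN)
open Fermat.Agent.S24.helper552 (Hol Mer)

/-- The `ℚ̄`-algebra structure on `Mer` induced by `i0`. -/
@[reducible] def merAlgebra : Algebra Kbar Mer := (helper552.constMer.comp i0).toAlgebra

attribute [local instance] merAlgebra

theorem algebraMap_mer (c : Kbar) : algebraMap Kbar Mer c = helper552.constMer (i0 c) := rfl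

/-- The action of `SL(2, ℤ)` on `Mer` by `ℚ̄`-algebra automorphisms. -/
def act (g : SL(2, ℤ)) : Mer ≃ₐ[Kbar] Mer :=
  { helper552.pull g with commutes' := fun c => helper552.pull_constMer g (i0 c) }

theorem act_apply (g : SL(2, ℤ)) (z : Mer) : act g z = helper552.pull g z := rfl

theorem act_pow_apply (g : SL(2, ℤ)) (k : ℕ) (z : Mer) :
    (act g ^ k) z = (helper552.pull g)^[k] z := by
  induction k generalizing z with
  | zero => rfl
  | succ k ih =>
    rw [pow_succ, AlgEquiv.mul_apply, Function.iterate_succ_apply, ih]
    rfl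

section

variable (N : ℕ)

/-- `ev` with values in the ring of holomorphic functions. -/
def evHol : AN N →+* Hol where
  toFun a := ⟨ev N a, mdiff_ev N a⟩
  map_one' := Subtype.ext (map_one (ev N))
  map_mul' a b := Subtype.ext (map_mul (ev N) a b)
  map_zero' := Subtype.ext (map_zero (ev N))
  map_add' a b := Subtype.ext (map_add (ev N) a b)

theorem evHol_apply (a : AN N) (τ : ℍ) : (evHol N a).1 τ = ev N a τ := rfl

theorem evHol_injective : Function.Injective (evHol N) := by
  intro a b h
  apply ev_injective N
  exact congrArg (fun f : Hol => (f : ℍ → ℂ)) h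

/-- `ev` on `AN N` with values in `Mer`, as an algebra homomorphism. -/
def evMerA : AN N →ₐ[Kbar] Mer :=
  { (algebraMap Hol Mer).comp (evHol N) with
    commutes' := fun c => by
      show algebraMap Hol Mer (evHol N (algebraMap Kbar (AN N) c))
        = algebraMap Hol Mer (helper552.constHol (i0 c))
      congr 1
      exact Subtype.ext (ev_algebraMap N c) }

theorem evMerA_apply (a : AN N) : evMerA N a = algebraMap Hol Mer (evHol N a) := rfl

theorem evMerA_injective : Function.Injective (evMerA N) :=
  helper552.algebraMap_injective.comp (evHol_injective N)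

/-- The embedding of the function field into `Mer`. -/
def evMer : FN N →ₐ[Kbar] Mer :=
  (helper3176.exists_algHom_extension N (evMerA N) (evMerA_injective N)).choose

theorem evMer_coe (a : AN N) : evMer N (a : FN N) = algebraMap Hol Mer (evHol N a) :=
  (helper3176.exists_algHom_extension N (evMerA N) (evMerA_injective N)).choose_spec a

theorem act_evMer_coe (g : SL(2, ℤ)) (a : AN N) :
    act g (evMer N (a : FN N)) = algebraMap Hol Mer (helper552.pullHol g (evHol N a)) := by
  rw [evMer_coe, act_apply, helper552.pull_algebraMap]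

theorem act_evMer_of_mem_Gamma0 (γ : SL(2, ℤ)) (hγ : γ ∈ Gamma0 N) (f : FN N) :
    act γ (evMer N f) = evMer N f := by
  obtain ⟨a, b, -, rfl⟩ := helper3176.exists_div_AN N f
  have key : ∀ a : AN N, act γ (evMer N (a : FN N)) = evMer N (a : FN N) := by
    intro a
    rw [act_evMer_coe, evMer_coe]
    congr 1
    apply Subtype.ext
    funext τ
    rw [helper552.pullHol_apply, evHol_apply, evHol_apply]
    exact ev_smul_of_mem_Gamma0 N a γ⁻¹ (inv_mem hγ) τ
  rw [map_div₀, map_div₀, key a, key b]

theorem mem_Gamma0_of_act_evMer [NeZero N] (g : SL(2, ℤ))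
    (h : ∀ f : FN N, act g (evMer N f) = evMer N f) : g ∈ Gamma0 N := by
  have h1 : g⁻¹ ∈ Gamma0 N := by
    apply mem_Gamma0_of_ev_invariant N
    intro a τ
    have h2 := h (a : FN N)
    rw [act_evMer_coe, evMer_coe] at h2
    have h3 := helper552.algebraMap_injective h2
    have h4 := congrFun (congrArg Subtype.val h3) τ
    rw [helper552.pullHol_apply, evHol_apply, evHol_apply] at h4
    exact h4
  have h2 := inv_mem h1
  rwa [inv_inv] at h2

theorem evMer_jBar : evMer N (jBar N)
    = algebraMap Hol Mer (evHol N ⟨jBar N, helper3176.jBar_mem_AN N⟩) :=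
  evMer_coe N ⟨jBar N, helper3176.jBar_mem_AN N⟩

theorem evHol_jBar_apply (τ : ℍ) :
    (evHol N ⟨jBar N, helper3176.jBar_mem_AN N⟩).1 τ = jFun τ := by
  rw [evHol_apply, ev_jBar]
  rfl

theorem act_evMer_jBar (g : SL(2, ℤ)) : act g (evMer N (jBar N)) = evMer N (jBar N) := by
  rw [evMer_jBar, act_apply, helper552.pull_algebraMap]
  congr 1
  apply Subtype.ext
  funext τ
  rw [helper552.pullHol_apply, evHol_jBar_apply, evHol_jBar_apply]
  exact helper1644.jFun_smul g⁻¹ τ

theorem ordAt_evMer_jBar_sub (τ : ℍ) (c : Kbar) (hc : jFun τ = i0 c) :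
    helper552.ordAt τ (evMer N (jBar N) - algebraMap Kbar Mer c)
      = (analyticOrderAt (fun z : ℂ => jFun (ofComplex z) - jFun τ) (τ : ℂ)).map (↑) := by
  have e : evMer N (jBar N) - algebraMap Kbar Mer c
      = algebraMap Hol Mer (evHol N ⟨jBar N, helper3176.jBar_mem_AN N⟩
          - helper552.constHol (i0 c)) := by
    rw [map_sub, evMer_jBar]
    rfl
  rw [e, helper552.ordAt_algebraMap_eq_analyticOrderAt]
  have e2 : helper552.holC (evHol N ⟨jBar N, helper3176.jBar_mem_AN N⟩
      - helper552.constHol (i0 c)) = fun z : ℂ => jFun (ofComplex z) - jFun τ := by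
    funext z
    show (evHol N ⟨jBar N, helper3176.jBar_mem_AN N⟩).1 (ofComplex z) - i0 c = _
    rw [evHol_jBar_apply, hc]
  rw [e2]

end

/-- The finite-point package of `helper481`, unconditionally. -/
theorem stmt_MerPackage : helper481.Stmt_MerPackage := by
  intro N _
  refine ⟨Mer, inferInstance, merAlgebra, i0, helper552.ordAt, act, evMer N,
    ?_, ?_, ?_, ?_, ?_, ?_, ?_, ?_, ?_⟩
  · intro g h z
    exact helper552.pull_mul g h z
  · intro τ a ha
    exact helper552.ordAt_constMer τ ((map_ne_zero_iff i0 i0_injective).mpr ha)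
  · intro g τ z hfix
    exact helper552.ordAt_pull_of_fixed g τ hfix z
  · intro γ hγ f
    exact act_evMer_of_mem_Gamma0 N γ hγ f
  · intro g h
    exact mem_Gamma0_of_act_evMer N g h
  · intro g
    exact act_evMer_jBar N g
  · intro τ c hc
    exact ordAt_evMer_jBar_sub N τ c hc
  · intro τ hfix k z hz hk
    rw [act_pow_apply] at hk
    exact helper552.hdiv_S τ hfix k z hz hk
  · intro τ hfix k z hz hk
    rw [act_pow_apply] at hk
    exact helper552.hdiv_ST τ hfix k z hz hk

/-- The three finite-point local data of the specification. -/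
theorem stmt_LocalFinite : Stmt_LocalGeneric ∧ Stmt_Local1728 ∧ Stmt_LocalZero :=
  helper2064.local_of_merPackage stmt_MerPackage

theorem stmt_LocalGeneric : Stmt_LocalGeneric := stmt_LocalFinite.1

theorem stmt_Local1728 : Stmt_Local1728 := stmt_LocalFinite.2.1

theorem stmt_LocalZero : Stmt_LocalZero := stmt_LocalFinite.2.2

end Fermat.Agent.S24.helper264
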