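import Mathlib

/-!
# Taylor power series at `0` of functions `ℂ → ℂ` (helper2768)

`tps F : PowerSeries ℂ` is the formal Taylor series of `F` at `0`.  On functions analytic at `0`
it is additive and multiplicative, it turns the substitution `w ↦ ζ * w` into
`PowerSeries.rescale ζ`, it is injective on functions holomorphic on the unit disc, and the
order of the associated Laurent series is the analytic order of `F` at `0`.
-/

set_option autoImplicit false

namespace Fermat.Agent.S24.helper2768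

open scoped Nat Topology
open Filter

noncomputable section

/-- The Taylor power series at `0` of a function `ℂ → ℂ`. -/
def tps (F : ℂ → ℂ) : PowerSeries ℂ :=
  PowerSeries.mk fun m => ((m ! : ℕ) : ℂ)⁻¹ * iteratedDeriv m F 0

theorem coeff_tps (F : ℂ → ℂ) (m : ℕ) :
    PowerSeries.coeff m (tps F) = ((m ! : ℕ) : ℂ)⁻¹ * iteratedDeriv m F 0 := by
  rw [tps, PowerSeries.coeff_mk]

theorem tps_congr {F G : ℂ → ℂ} (h : F =ᶠ[𝓝 0] G) : tps F = tps G := by
  ext m
  rw [coeff_tps, coeff_tps, h.iteratedDeriv_eq m]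

theorem tps_const (c : ℂ) : tps (fun _ => c) = PowerSeries.C c := by
  ext m
  rw [coeff_tps, PowerSeries.coeff_C, iteratedDeriv_const]
  split_ifs with h1
  · subst h1; simp
  · simp

theorem tps_add {F G : ℂ → ℂ} (hF : AnalyticAt ℂ F 0) (hG : AnalyticAt ℂ G 0) :
    tps (F + G) = tps F + tps G := by
  ext m
  simp [coeff_tps, iteratedDeriv_add hF.contDiffAt hG.contDiffAt, mul_add]

theorem tps_mul {F G : ℂ → ℂ} (hF : AnalyticAt ℂ F 0) (hG : AnalyticAt ℂ G 0) :
    tps (F * G) = tps F * tps G := by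
  ext m
  simp only [coeff_tps, iteratedDeriv_mul hF.contDiffAt hG.contDiffAt, Finset.mul_sum,
    PowerSeries.coeff_mul, Finset.Nat.sum_antidiagonal_eq_sum_range_succ_mk, Nat.succ_eq_add_one]
  refine Finset.sum_congr rfl fun i hi ↦ ?_
  rw [Nat.cast_choose _ (by grind)]
  field_simp [Nat.factorial_ne_zero]

/-- Iterated derivatives at `0` of `w ↦ F (ζ * w)` for `F` analytic at `0`. -/
theorem iteratedDeriv_comp_const_mul_zero (ζ : ℂ) (n : ℕ) :
    ∀ {F : ℂ → ℂ}, AnalyticAt ℂ F 0 →
      iteratedDeriv n (fun w => F (ζ * w)) 0 = ζ ^ n * iteratedDeriv n F 0 := by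
  induction n with
  | zero => intro F _; simp
  | succ n ih =>
    intro F hF
    rw [iteratedDeriv_succ', iteratedDeriv_succ']
    have h1 : deriv (fun w => F (ζ * w)) =ᶠ[𝓝 0] fun w => ζ * deriv F (ζ * w) := by
      have hev : ∀ᶠ z in 𝓝 (0 : ℂ), AnalyticAt ℂ F z := hF.eventually_analyticAt
      have htend : Tendsto (fun w : ℂ => ζ * w) (𝓝 0) (𝓝 0) := by
        have hc : Continuous (fun w : ℂ => ζ * w) := continuous_const.mul continuous_id
        simpa using hc.tendsto 0
      filter_upwards [htend.eventually hev] with w hw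
      have hd : HasDerivAt F (deriv F (ζ * w)) (ζ * w) := hw.differentiableAt.hasDerivAt
      have hlin : HasDerivAt (fun w : ℂ => ζ * w) ζ w := by
        simpa using (hasDerivAt_id w).const_mul ζ
      have hcomp := HasDerivAt.comp w hd hlin
      rw [mul_comm]
      exact hcomp.deriv
    rw [h1.iteratedDeriv_eq n, iteratedDeriv_const_mul_field, ih hF.deriv, pow_succ]
    ring

theorem tps_comp_const_mul {F : ℂ → ℂ} (hF : AnalyticAt ℂ F 0) (ζ : ℂ) :
    tps (fun w => F (ζ * w)) = PowerSeries.rescale ζ (tps F) := by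
  ext m
  rw [PowerSeries.coeff_rescale, coeff_tps, coeff_tps, iteratedDeriv_comp_const_mul_zero ζ m hF]
  ring

theorem iteratedDeriv_eq_zero_of_tps_eq_zero {F : ℂ → ℂ} (h : tps F = 0) (m : ℕ) :
    iteratedDeriv m F 0 = 0 := by
  have h1 := congrArg (PowerSeries.coeff m) h
  rw [coeff_tps, map_zero] at h1
  rcases mul_eq_zero.mp h1 with h0 | h0
  · exact absurd h0 (inv_ne_zero (Nat.cast_ne_zero.mpr (Nat.factorial_ne_zero m)))
  · exact h0

/-- A function holomorphic on the unit disc with vanishing Taylor series vanishes on the disc. -/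
theorem eq_zero_of_tps_eq_zero {F : ℂ → ℂ} (hF : DifferentiableOn ℂ F (Metric.ball 0 1))
    (h : tps F = 0) : ∀ w ∈ Metric.ball (0 : ℂ) 1, F w = 0 := by
  intro w hw
  have h1 := Complex.taylorSeries_eq_on_ball' hw hF
  rw [← h1]
  simp [iteratedDeriv_eq_zero_of_tps_eq_zero h]

/-- Coefficients of the Taylor series below the analytic order vanish, and the coefficient at
the analytic order does not. -/
theorem coeff_tps_of_analyticOrderAt {F : ℂ → ℂ} (hF : AnalyticAt ℂ F 0) {n : ℕ}
    (h : analyticOrderAt F 0 = n) :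
    (∀ k < n, PowerSeries.coeff k (tps F) = 0) ∧ PowerSeries.coeff n (tps F) ≠ 0 := by
  have h1 : ∀ i < n, iteratedDeriv i F 0 = 0 :=
    (natCast_le_analyticOrderAt_iff_iteratedDeriv_eq_zero hF).mp h.ge
  have h2 : ¬ (∀ i < n + 1, iteratedDeriv i F 0 = 0) := by
    intro hall
    have := (natCast_le_analyticOrderAt_iff_iteratedDeriv_eq_zero (n := n + 1) hF).mpr hall
    rw [h] at this
    exact absurd (by exact_mod_cast this : n + 1 ≤ n) (by omega)
  refine ⟨fun k hk => by rw [coeff_tps, h1 k hk, mul_zero], ?_⟩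
  rw [coeff_tps]
  refine mul_ne_zero (inv_ne_zero (Nat.cast_ne_zero.mpr (Nat.factorial_ne_zero n))) ?_
  intro h0
  apply h2
  intro i hi
  rcases Nat.lt_succ_iff_lt_or_eq.mp hi with hlt | rfl
  · exact h1 i hlt
  · exact h0

/-- A power series whose first nonzero coefficient is at `n` gives a nonzero Laurent series of
order `n`. -/
theorem order_ofPowerSeries_of_coeff {p : PowerSeries ℂ} {n : ℕ}
    (h0 : ∀ k < n, PowerSeries.coeff k p = 0) (hn : PowerSeries.coeff n p ≠ 0) :
    HahnSeries.ofPowerSeries ℤ ℂ p ≠ 0 ∧ (HahnSeries.ofPowerSeries ℤ ℂ p).order = (n : ℤ) := by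
  have hc : (HahnSeries.ofPowerSeries ℤ ℂ p).coeff (n : ℤ) ≠ 0 := by
    rw [HahnSeries.ofPowerSeries_apply_coeff]; exact hn
  have hne : HahnSeries.ofPowerSeries ℤ ℂ p ≠ 0 := by
    intro hz
    rw [hz] at hc
    exact hc rfl
  refine ⟨hne, le_antisymm (HahnSeries.order_le_of_coeff_ne_zero hc) ?_⟩
  by_contra hlt
  rw [not_le] at hlt
  have hcoef : (HahnSeries.ofPowerSeries ℤ ℂ p).coeff (HahnSeries.ofPowerSeries ℤ ℂ p).order ≠ 0 :=
    fun hz => hne (HahnSeries.coeff_order_eq_zero.mp hz)
  rw [PowerSeries.coeff_coe] at hcoef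
  split_ifs at hcoef with hneg
  · exact hcoef rfl
  · apply hcoef
    apply h0
    omega

/-- The order of the Laurent series of the Taylor series is the analytic order. -/
theorem order_ofPowerSeries_tps {F : ℂ → ℂ} (hF : AnalyticAt ℂ F 0) {n : ℕ}
    (h : analyticOrderAt F 0 = n) :
    HahnSeries.ofPowerSeries ℤ ℂ (tps F) ≠ 0 ∧
      (HahnSeries.ofPowerSeries ℤ ℂ (tps F)).order = (n : ℤ) :=
  order_ofPowerSeries_of_coeff (coeff_tps_of_analyticOrderAt hF h).1
    (coeff_tps_of_analyticOrderAt hF h).2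

end

end Fermat.Agent.S24.helper2768
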