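import Mathlib
import Fermat.Agent.S24.helper2768_Taylor

/-!
# Taylor expansion of holomorphic functions on `ℍ` in the Cayley coordinate (helper2768)

For `τ0 : ℍ` the map `cay τ0 w = (τ0 - conj τ0 * w) / (1 - w)` sends the unit disc onto `ℍ` and
`0` to `τ0`.  For `f : ℍ → ℂ`, `expand τ0 f : PowerSeries ℂ` is the Taylor series at `0` of
`w ↦ f (cay τ0 w)`.  On holomorphic functions it is additive, multiplicative and injective; an
element `g : SL(2, ℤ)` fixing `τ0` acts on the Cayley coordinate by the rotation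
`w ↦ (conj u / u) * w`, `u = denom g τ0`, hence on expansions by `PowerSeries.rescale`; and the
order of `expand τ0 f` is the analytic order of `f` at `τ0`.
-/

set_option autoImplicit false

namespace Fermat.Agent.S24.helper2768

open UpperHalfPlane
open scoped MatrixGroups ComplexConjugate Manifold Topology

noncomputable section

/-- The Cayley coordinate centred at `τ0`. -/
def cay (τ0 : ℍ) (w : ℂ) : ℂ := ((τ0 : ℂ) - conj (τ0 : ℂ) * w) / (1 - w)

theorem cay_zero (τ0 : ℍ) : cay τ0 0 = τ0 := by simp [cay]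

theorem one_sub_ne_zero_of_norm_lt {w : ℂ} (hw : ‖w‖ < 1) : (1 - w) ≠ 0 := by
  intro h
  have h1 : w = 1 := by linear_combination -h
  rw [h1] at hw
  simp at hw

theorem normSq_lt_one_of_norm_lt {w : ℂ} (hw : ‖w‖ < 1) : Complex.normSq w < 1 := by
  rw [Complex.normSq_eq_norm_sq]
  nlinarith [norm_nonneg w]

theorem im_cay (τ0 : ℍ) {w : ℂ} (hw : ‖w‖ < 1) :
    (cay τ0 w).im = τ0.im * (1 - Complex.normSq w) / Complex.normSq (1 - w) := by
  have hD : (1 - w) ≠ 0 := one_sub_ne_zero_of_norm_lt hw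
  have hn : Complex.normSq (1 - w) ≠ 0 := (Complex.normSq_pos.mpr hD).ne'
  unfold cay
  rw [Complex.div_im, ← sub_div]
  congr 1
  simp only [Complex.sub_re, Complex.sub_im, Complex.mul_re, Complex.mul_im, Complex.conj_re,
    Complex.conj_im, Complex.one_re, Complex.one_im, UpperHalfPlane.coe_re, UpperHalfPlane.coe_im,
    Complex.normSq_apply]
  ring

theorem im_cay_pos (τ0 : ℍ) {w : ℂ} (hw : ‖w‖ < 1) : 0 < (cay τ0 w).im := by
  rw [im_cay τ0 hw]
  have hD : (1 - w) ≠ 0 := one_sub_ne_zero_of_norm_lt hw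
  have h1 := normSq_lt_one_of_norm_lt hw
  exact div_pos (mul_pos τ0.im_pos (by linarith)) (Complex.normSq_pos.mpr hD)

theorem differentiableAt_cay (τ0 : ℍ) {w : ℂ} (hw : ‖w‖ < 1) : DifferentiableAt ℂ (cay τ0) w := by
  have hD : (1 - w) ≠ 0 := one_sub_ne_zero_of_norm_lt hw
  unfold cay
  exact DifferentiableAt.div (by fun_prop) (by fun_prop) hD

theorem hasDerivAt_cay_zero (τ0 : ℍ) :
    HasDerivAt (cay τ0) ((τ0 : ℂ) - conj (τ0 : ℂ)) 0 := by
  have hN : HasDerivAt (fun w : ℂ => (τ0 : ℂ) - conj (τ0 : ℂ) * w) (-conj (τ0 : ℂ)) 0 := by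
    simpa using ((hasDerivAt_id (0 : ℂ)).const_mul (conj (τ0 : ℂ))).const_sub (τ0 : ℂ)
  have hD : HasDerivAt (fun w : ℂ => 1 - w) (-1) 0 := by
    simpa using (hasDerivAt_id (0 : ℂ)).const_sub 1
  have h := hN.div hD (by simp)
  have e : ((-conj (τ0 : ℂ)) * (1 - 0) - ((τ0 : ℂ) - conj (τ0 : ℂ) * 0) * -1) / (1 - 0) ^ 2
      = (τ0 : ℂ) - conj (τ0 : ℂ) := by ring
  rw [e] at h
  exact h

theorem coe_sub_conj_ne_zero (τ0 : ℍ) : (τ0 : ℂ) - conj (τ0 : ℂ) ≠ 0 := by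
  intro h
  have h1 := congrArg Complex.im h
  simp only [Complex.sub_im, Complex.conj_im, UpperHalfPlane.coe_im, Complex.zero_im] at h1
  have := τ0.im_pos
  linarith

theorem analyticAt_cay_zero (τ0 : ℍ) : AnalyticAt ℂ (cay τ0) 0 := by
  have hd : DifferentiableOn ℂ (cay τ0) (Metric.ball 0 1) := fun w hw =>
    (differentiableAt_cay τ0 (by simpa using hw)).differentiableWithinAt
  exact hd.analyticAt (Metric.ball_mem_nhds 0 one_pos)

theorem deriv_cay_zero_ne_zero (τ0 : ℍ) : deriv (cay τ0) 0 ≠ 0 := by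
  rw [(hasDerivAt_cay_zero τ0).deriv]
  exact coe_sub_conj_ne_zero τ0

/-- Every point of `ℍ` is a value of the Cayley coordinate on the unit disc. -/
theorem exists_cay_eq (τ0 τ : ℍ) : ∃ w : ℂ, ‖w‖ < 1 ∧ cay τ0 w = τ := by
  have hD0 : (τ : ℂ) - conj (τ0 : ℂ) ≠ 0 := by
    intro h
    have h1 := congrArg Complex.im h
    simp only [Complex.sub_im, Complex.conj_im, UpperHalfPlane.coe_im, Complex.zero_im] at h1
    have := τ0.im_pos
    have := τ.im_pos
    linarith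
  have hc := coe_sub_conj_ne_zero τ0
  refine ⟨((τ : ℂ) - τ0) / ((τ : ℂ) - conj (τ0 : ℂ)), ?_, ?_⟩
  · rw [norm_div, div_lt_one (norm_pos_iff.mpr hD0)]
    have hsq : ‖(τ : ℂ) - τ0‖ ^ 2 < ‖(τ : ℂ) - conj (τ0 : ℂ)‖ ^ 2 := by
      rw [← Complex.normSq_eq_norm_sq, ← Complex.normSq_eq_norm_sq, Complex.normSq_apply,
        Complex.normSq_apply]
      simp only [Complex.sub_re, Complex.sub_im, Complex.conj_re, Complex.conj_im,
        UpperHalfPlane.coe_re, UpperHalfPlane.coe_im]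
      nlinarith [mul_pos τ.im_pos τ0.im_pos]
    exact lt_of_pow_lt_pow_left₀ 2 (norm_nonneg _) hsq
  · unfold cay
    have h1 : (1 : ℂ) - ((τ : ℂ) - τ0) / ((τ : ℂ) - conj (τ0 : ℂ))
        = ((τ0 : ℂ) - conj (τ0 : ℂ)) / ((τ : ℂ) - conj (τ0 : ℂ)) := by
      field_simp
      ring
    have h2 : (τ0 : ℂ) - conj (τ0 : ℂ) * (((τ : ℂ) - τ0) / ((τ : ℂ) - conj (τ0 : ℂ)))
        = (τ : ℂ) * (((τ0 : ℂ) - conj (τ0 : ℂ)) / ((τ : ℂ) - conj (τ0 : ℂ))) := by
      field_simp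
      ring
    rw [h1, h2]
    exact mul_div_cancel_right₀ _ (div_ne_zero hc hD0)

/-- Pull a function on `ℍ` back to the Cayley coordinate. -/
def pull (τ0 : ℍ) (f : ℍ → ℂ) : ℂ → ℂ := fun w => f (ofComplex (cay τ0 w))

theorem pull_apply (τ0 : ℍ) (f : ℍ → ℂ) (w : ℂ) : pull τ0 f w = f (ofComplex (cay τ0 w)) := rfl

theorem pull_eq_comp (τ0 : ℍ) (f : ℍ → ℂ) : pull τ0 f = (f ∘ ofComplex) ∘ cay τ0 := rfl

theorem differentiableOn_pull (τ0 : ℍ) {f : ℍ → ℂ} (hf : MDiff f) :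
    DifferentiableOn ℂ (pull τ0 f) (Metric.ball 0 1) := by
  intro w hw
  have hw' : ‖w‖ < 1 := by simpa using hw
  have h1 : DifferentiableAt ℂ (f ∘ ofComplex) (cay τ0 w) :=
    (UpperHalfPlane.mdifferentiable_iff.mp hf).differentiableAt
      (isOpen_upperHalfPlaneSet.mem_nhds (im_cay_pos τ0 hw'))
  exact (h1.comp w (differentiableAt_cay τ0 hw')).differentiableWithinAt

theorem analyticAt_pull (τ0 : ℍ) {f : ℍ → ℂ} (hf : MDiff f) : AnalyticAt ℂ (pull τ0 f) 0 :=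
  (differentiableOn_pull τ0 hf).analyticAt (Metric.ball_mem_nhds 0 one_pos)

/-- The Taylor expansion of `f : ℍ → ℂ` at `τ0` in the Cayley coordinate. -/
def expand (τ0 : ℍ) (f : ℍ → ℂ) : PowerSeries ℂ := tps (pull τ0 f)

theorem expand_const (τ0 : ℍ) (c : ℂ) : expand τ0 (fun _ => c) = PowerSeries.C c :=
  tps_const c

theorem expand_one (τ0 : ℍ) : expand τ0 (1 : ℍ → ℂ) = 1 := by
  have h := expand_const τ0 1
  rw [map_one] at h
  exact h

theorem expand_zero (τ0 : ℍ) : expand τ0 (0 : ℍ → ℂ) = 0 := by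
  have h := expand_const τ0 0
  rw [map_zero] at h
  exact h

theorem expand_add (τ0 : ℍ) {f g : ℍ → ℂ} (hf : MDiff f) (hg : MDiff g) :
    expand τ0 (f + g) = expand τ0 f + expand τ0 g :=
  tps_add (analyticAt_pull τ0 hf) (analyticAt_pull τ0 hg)

theorem expand_mul (τ0 : ℍ) {f g : ℍ → ℂ} (hf : MDiff f) (hg : MDiff g) :
    expand τ0 (f * g) = expand τ0 f * expand τ0 g :=
  tps_mul (analyticAt_pull τ0 hf) (analyticAt_pull τ0 hg)

/-- The expansion is injective on holomorphic functions. -/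
theorem eq_zero_of_expand_eq_zero (τ0 : ℍ) {f : ℍ → ℂ} (hf : MDiff f) (h : expand τ0 f = 0) :
    f = 0 := by
  funext τ
  obtain ⟨w, hw, hτ⟩ := exists_cay_eq τ0 τ
  have h1 := eq_zero_of_tps_eq_zero (differentiableOn_pull τ0 hf) h w (by simpa using hw)
  rw [pull_apply, hτ, ofComplex_apply] at h1
  exact h1

/-- The rotation factor of an element of `SL(2, ℤ)` at a point. -/
def rot (g : SL(2, ℤ)) (τ0 : ℍ) : ℂ := conj (denom g τ0) / denom g τ0

theorem norm_rot (g : SL(2, ℤ)) (τ0 : ℍ) : ‖rot g τ0‖ = 1 := by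
  unfold rot
  rw [norm_div, RCLike.norm_conj]
  exact div_self (norm_ne_zero_iff.mpr (denom_ne_zero g τ0))

/-- An element of `SL(2, ℤ)` fixing `τ0` acts on the Cayley coordinate by a rotation. -/
theorem coe_smul_ofComplex_cay (τ0 : ℍ) (g : SL(2, ℤ)) (hg : g • τ0 = τ0) {w : ℂ}
    (hw : ‖w‖ < 1) :
    ((g • ofComplex (cay τ0 w) : ℍ) : ℂ) = cay τ0 (rot g τ0 * w) := by
  have hD : (1 - w) ≠ 0 := one_sub_ne_zero_of_norm_lt hw
  have hu : denom g τ0 ≠ 0 := denom_ne_zero g τ0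
  have hrw : ‖rot g τ0 * w‖ < 1 := by rw [norm_mul, norm_rot, one_mul]; exact hw
  have hD' : (1 - rot g τ0 * w) ≠ 0 := one_sub_ne_zero_of_norm_lt hrw
  have hz : ((ofComplex (cay τ0 w) : ℍ) : ℂ) = cay τ0 w := by
    rw [ofComplex_apply_of_im_pos (im_cay_pos τ0 hw)]
  have hden : denom g (ofComplex (cay τ0 w)) ≠ 0 := denom_ne_zero g _
  have hu_eq : denom g τ0 = (g 1 0 : ℂ) * (τ0 : ℂ) + (g 1 1 : ℂ) := ModularGroup.denom_apply g τ0
  have hden_eq : denom g (ofComplex (cay τ0 w)) = (g 1 0 : ℂ) * cay τ0 w + (g 1 1 : ℂ) := by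
    rw [ModularGroup.denom_apply, hz]
  have hcu : conj (denom g τ0) = (g 1 0 : ℂ) * conj (τ0 : ℂ) + (g 1 1 : ℂ) := by
    rw [hu_eq, map_add, map_mul, map_intCast, map_intCast]
  -- the fixed point equation
  have hfix : (g 0 0 : ℂ) * (τ0 : ℂ) + (g 0 1 : ℂ) = (τ0 : ℂ) * denom g τ0 := by
    have h1 := congrArg (fun z : ℍ => (z : ℂ)) hg
    simp only [coe_specialLinearGroup_apply] at h1
    have h2 : ((algebraMap ℤ ℝ (g 1 0) : ℝ) : ℂ) * (τ0 : ℂ) + ((algebraMap ℤ ℝ (g 1 1) : ℝ) : ℂ)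
        = denom g τ0 := by
      rw [hu_eq]; simp
    rw [h2, div_eq_iff hu] at h1
    rw [← h1]; simp
  have hfix' : (g 0 0 : ℂ) * conj (τ0 : ℂ) + (g 0 1 : ℂ) = conj (τ0 : ℂ) * conj (denom g τ0) := by
    have h1 := congrArg (starRingEnd ℂ) hfix
    rw [map_add, map_mul, map_mul, map_intCast, map_intCast] at h1
    exact h1
  have hden2 : (g 1 0 : ℂ) * cay τ0 w + (g 1 1 : ℂ) ≠ 0 := by rw [← hden_eq]; exact hden
  rw [coe_specialLinearGroup_apply, hz]
  have e1 : ((algebraMap ℤ ℝ (g 0 0) : ℝ) : ℂ) = (g 0 0 : ℂ) := by simp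
  have e2 : ((algebraMap ℤ ℝ (g 0 1) : ℝ) : ℂ) = (g 0 1 : ℂ) := by simp
  have e3 : ((algebraMap ℤ ℝ (g 1 0) : ℝ) : ℂ) = (g 1 0 : ℂ) := by simp
  have e4 : ((algebraMap ℤ ℝ (g 1 1) : ℝ) : ℂ) = (g 1 1 : ℂ) := by simp
  rw [e1, e2, e3, e4]
  -- numerator and denominator in the Cayley coordinate
  have hnum : (g 0 0 : ℂ) * cay τ0 w + (g 0 1 : ℂ)
      = ((τ0 : ℂ) * denom g τ0 - conj (τ0 : ℂ) * conj (denom g τ0) * w) / (1 - w) := by
    unfold cay
    field_simp
    linear_combination hfix - w * hfix'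
  have hdenom : (g 1 0 : ℂ) * cay τ0 w + (g 1 1 : ℂ)
      = (denom g τ0 - conj (denom g τ0) * w) / (1 - w) := by
    unfold cay
    rw [hcu, hu_eq]
    field_simp
    ring
  have hne : denom g τ0 - conj (denom g τ0) * w ≠ 0 := by
    intro h
    apply hden2
    rw [hdenom, h, zero_div]
  rw [hnum, hdenom, div_div_div_cancel_right₀ hD]
  have hrhs : cay τ0 (rot g τ0 * w)
      = ((τ0 : ℂ) * denom g τ0 - conj (τ0 : ℂ) * conj (denom g τ0) * w)
        / (denom g τ0 - conj (denom g τ0) * w) := by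
    unfold cay rot
    have h3 : (1 : ℂ) - conj (denom g τ0) / denom g τ0 * w
        = (denom g τ0 - conj (denom g τ0) * w) / denom g τ0 := by
      field_simp
    have h4 : (τ0 : ℂ) - conj (τ0 : ℂ) * (conj (denom g τ0) / denom g τ0 * w)
        = ((τ0 : ℂ) * denom g τ0 - conj (τ0 : ℂ) * conj (denom g τ0) * w) / denom g τ0 := by
      field_simp
    rw [h3, h4, div_div_div_cancel_right₀ hu]
  rw [hrhs]

theorem smul_ofComplex_cay (τ0 : ℍ) (g : SL(2, ℤ)) (hg : g • τ0 = τ0) {w : ℂ} (hw : ‖w‖ < 1) :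
    g • ofComplex (cay τ0 w) = ofComplex (cay τ0 (rot g τ0 * w)) := by
  have hrw : ‖rot g τ0 * w‖ < 1 := by rw [norm_mul, norm_rot, one_mul]; exact hw
  apply UpperHalfPlane.ext
  rw [coe_smul_ofComplex_cay τ0 g hg hw, ofComplex_apply_of_im_pos (im_cay_pos τ0 hrw)]

/-- Precomposition with an element of the stabilizer of `τ0` rescales the expansion. -/
theorem expand_comp_smul (τ0 : ℍ) {f : ℍ → ℂ} (hf : MDiff f) (g : SL(2, ℤ)) (hg : g • τ0 = τ0) :
    expand τ0 (fun τ => f (g • τ)) = PowerSeries.rescale (rot g τ0) (expand τ0 f) := by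
  unfold expand
  rw [← tps_comp_const_mul (analyticAt_pull τ0 hf)]
  apply tps_congr
  filter_upwards [Metric.ball_mem_nhds (0 : ℂ) one_pos] with w hw
  have hw' : ‖w‖ < 1 := by simpa using hw
  rw [pull_apply, pull_apply, smul_ofComplex_cay τ0 g hg hw']

/-- The analytic order of the pulled back function at `0` is the order of `f` at `τ0`. -/
theorem analyticOrderAt_pull (τ0 : ℍ) (f : ℍ → ℂ) :
    analyticOrderAt (pull τ0 f) 0 = analyticOrderAt (fun z : ℂ => f (ofComplex z)) (τ0 : ℂ) := by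
  have h := analyticOrderAt_comp_of_deriv_ne_zero (f := fun z : ℂ => f (ofComplex z))
    (analyticAt_cay_zero τ0) (deriv_cay_zero_ne_zero τ0)
  rw [cay_zero] at h
  exact h

/-- The Laurent series of the expansion has order the analytic order of `f` at `τ0`. -/
theorem order_expand (τ0 : ℍ) {f : ℍ → ℂ} (hf : MDiff f) {n : ℕ}
    (h : analyticOrderAt (fun z : ℂ => f (ofComplex z)) (τ0 : ℂ) = n) :
    HahnSeries.ofPowerSeries ℤ ℂ (expand τ0 f) ≠ 0 ∧
      (HahnSeries.ofPowerSeries ℤ ℂ (expand τ0 f)).order = (n : ℤ) :=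
  order_ofPowerSeries_tps (analyticAt_pull τ0 hf) ((analyticOrderAt_pull τ0 f).trans h)

end

end Fermat.Agent.S24.helper2768
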