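import Fermat.Agent.S24.helper24_Spec
import Fermat.Agent.S24.helper3176_FieldAlg
import Fermat.Agent.S24.helper864_LocalDatum
import Fermat.Agent.S24.helper2768_Cayley
import Fermat.Agent.S24.helper454_JSurj
import Fermat.Agent.S24.helper458_AnalyticJ
import Fermat.Agent.S24.helper2064_JOrder

/-!
# Finite-point local data from an analytic model of `ℚ̄[j(q^d) : d ∣ N]` (helper2768)

`EvData N` is an analytic model of the algebra `AN N = ℚ̄[j(q^d) : d ∣ N]` (of
`helper3176_FieldAlg`): an embedding `κ : ℚ̄ → ℂ` and an injective ring hom `ev` from `AN N` to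
holomorphic functions on `ℍ`, `κ`-semilinear on constants, sending `j` to `jFun`,
`Γ₀(N)`-invariant and separating the cosets of `Γ₀(N)`.

From such a model we construct, at every point `τ0 : ℍ` and for every stabilizer element `h`,
the `LocalDatum` of the specification: the embeddings are the Taylor expansions in the Cayley
coordinate at `τ0` of the translates `ev a ∘ g⁻¹`, and `σ` is the coefficient twist.
Consequently `Stmt_EvData → Stmt_LocalGeneric ∧ Stmt_Local1728 ∧ Stmt_LocalZero`.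
-/

set_option autoImplicit false

open ModularCurve CongruenceSubgroup UpperHalfPlane
open scoped MatrixGroups Manifold ComplexConjugate

namespace Fermat.Agent.S24.helper2768

open Fermat.Agent.S24.helper24 Fermat.Agent.S24.helper3176

noncomputable section

/-- An analytic model of the algebra `AN N = ℚ̄[j(q^d) : d ∣ N]`. -/
structure EvData (N : ℕ) where
  /-- the embedding of the constants -/
  κ : Kbar →+* ℂ
  /-- the evaluation: elements of `AN N` as functions on the upper half plane -/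
  ev : AN N →+* (ℍ → ℂ)
  ev_const : ∀ (c : Kbar) (τ : ℍ), ev (algebraMap Kbar (AN N) c) τ = κ c
  ev_j : ∀ τ : ℍ, ev ⟨jBar N, jBar_mem_AN N⟩ τ = jFun τ
  mdiff : ∀ a : AN N, MDiff (ev a)
  inj : Function.Injective ev
  inv : ∀ γ : SL(2, ℤ), γ ∈ Gamma0 N → ∀ (a : AN N) (τ : ℍ), ev a (γ • τ) = ev a τ
  sep : ∀ g : SL(2, ℤ), (∀ (a : AN N) (τ : ℍ), ev a (g • τ) = ev a τ) → g ∈ Gamma0 N

/-- Existence of an analytic model at every level. -/
def Stmt_EvData : Prop := ∀ (N : ℕ) [NeZero N], Nonempty (EvData N)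

theorem mdifferentiable_SL_smul (g : SL(2, ℤ)) : MDiff (fun τ : ℍ => g • τ) :=
  UpperHalfPlane.mdifferentiable_smul (g := (g : GL (Fin 2) ℝ)) (by simp)

theorem mdifferentiable_comp_smul {f : ℍ → ℂ} (hf : MDiff f) (g : SL(2, ℤ)) :
    MDiff (fun τ : ℍ => f (g • τ)) :=
  hf.comp (mdifferentiable_SL_smul g)

/-- Twisting the Laurent series of a power series is rescaling the power series. -/
theorem twist_ofPowerSeries (ζ : ℂˣ) (p : PowerSeries ℂ) :
    helper864.twist ζ (HahnSeries.ofPowerSeries ℤ ℂ p)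
      = HahnSeries.ofPowerSeries ℤ ℂ (PowerSeries.rescale (ζ : ℂ) p) := by
  ext k
  rw [helper864.twist_coeff, PowerSeries.coeff_coe, PowerSeries.coeff_coe]
  split_ifs with hk
  · simp
  · obtain ⟨n, rfl⟩ := Int.eq_ofNat_of_zero_le (not_lt.mp hk)
    rw [PowerSeries.coeff_rescale]
    simp

namespace EvData

variable {N : ℕ} (E : EvData N) (τ0 : ℍ)

/-- The translate of `ev a` by `g`. -/
def trans (g : SL(2, ℤ)) (a : AN N) : ℍ → ℂ := fun τ => E.ev a (g⁻¹ • τ)

theorem trans_apply (g : SL(2, ℤ)) (a : AN N) (τ : ℍ) : E.trans g a τ = E.ev a (g⁻¹ • τ) := rfl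

theorem mdiff_trans (g : SL(2, ℤ)) (a : AN N) : MDiff (E.trans g a) :=
  mdifferentiable_comp_smul (E.mdiff a) g⁻¹

theorem trans_one (g : SL(2, ℤ)) : E.trans g 1 = fun _ => (1 : ℂ) := by
  funext τ
  rw [trans_apply, map_one]
  rfl

theorem trans_zero (g : SL(2, ℤ)) : E.trans g 0 = fun _ => (0 : ℂ) := by
  funext τ
  rw [trans_apply, map_zero]
  rfl

theorem trans_mul (g : SL(2, ℤ)) (a b : AN N) : E.trans g (a * b) = E.trans g a * E.trans g b := by
  funext τ
  rw [trans_apply, map_mul]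
  rfl

theorem trans_add (g : SL(2, ℤ)) (a b : AN N) : E.trans g (a + b) = E.trans g a + E.trans g b := by
  funext τ
  rw [trans_apply, map_add]
  rfl

/-- The Cayley–Taylor expansion at `τ0` of the `g`-translate, on `AN N`. -/
def chart (g : SL(2, ℤ)) : AN N →+* LaurentSeries ℂ where
  toFun a := HahnSeries.ofPowerSeries ℤ ℂ (expand τ0 (E.trans g a))
  map_one' := by rw [trans_one, expand_const, map_one, map_one]
  map_mul' a b := by
    rw [trans_mul, expand_mul τ0 (E.mdiff_trans g a) (E.mdiff_trans g b), map_mul]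
  map_zero' := by rw [trans_zero, expand_const, map_zero, map_zero]
  map_add' a b := by
    rw [trans_add, expand_add τ0 (E.mdiff_trans g a) (E.mdiff_trans g b), map_add]

theorem chart_apply (g : SL(2, ℤ)) (a : AN N) :
    E.chart τ0 g a = HahnSeries.ofPowerSeries ℤ ℂ (expand τ0 (E.trans g a)) := rfl

theorem chart_injective (g : SL(2, ℤ)) : Function.Injective (E.chart τ0 g) := by
  rw [injective_iff_map_eq_zero]
  intro a ha
  rw [chart_apply, map_eq_zero_iff _ HahnSeries.ofPowerSeries_injective] at ha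
  have h0 := eq_zero_of_expand_eq_zero τ0 (E.mdiff_trans g a) ha
  apply E.inj
  rw [map_zero]
  funext τ
  have h1 := congrFun h0 (g • τ)
  rw [trans_apply, inv_smul_smul] at h1
  exact h1

/-- The expansion at `τ0` of the `g`-translate, on the function field. -/
def chartF (g : SL(2, ℤ)) : FN N →+* LaurentSeries ℂ :=
  IsFractionRing.lift (E.chart_injective τ0 g)

theorem chartF_coe (g : SL(2, ℤ)) (a : AN N) : E.chartF τ0 g (a : FN N) = E.chart τ0 g a :=
  IsFractionRing.lift_algebraMap (E.chart_injective τ0 g) a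

/-- Translates by elements in the same left coset of `Γ₀(N)` coincide. -/
theorem trans_eq_of_mem {g g' : SL(2, ℤ)} (h : g⁻¹ * g' ∈ Gamma0 N) (a : AN N) :
    E.trans g a = E.trans g' a := by
  funext τ
  rw [trans_apply, trans_apply]
  have h1 : g⁻¹ • τ = (g⁻¹ * g') • (g'⁻¹ • τ) := by
    rw [← mul_smul, mul_assoc, mul_inv_cancel, mul_one]
  rw [h1, E.inv _ h]

theorem chartF_eq_of_mem {g g' : SL(2, ℤ)} (h : g⁻¹ * g' ∈ Gamma0 N) :
    E.chartF τ0 g = E.chartF τ0 g' := by
  apply ringHom_ext_of_AN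
  intro a
  rw [chartF_coe, chartF_coe, chart_apply, chart_apply, E.trans_eq_of_mem h]

/-- Expansions of translates by different cosets are different. -/
theorem mem_of_chartF_eq {g g' : SL(2, ℤ)} (h : E.chartF τ0 g = E.chartF τ0 g') :
    g⁻¹ * g' ∈ Gamma0 N := by
  have key : ∀ a : AN N, E.trans g a = E.trans g' a := by
    intro a
    have h1 : E.chart τ0 g a = E.chart τ0 g' a := by
      rw [← chartF_coe, ← chartF_coe, h]
    rw [chart_apply, chart_apply] at h1
    have h2 := HahnSeries.ofPowerSeries_injective h1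
    have hd : MDiff (E.trans g a - E.trans g' a) := (E.mdiff_trans g a).sub (E.mdiff_trans g' a)
    have h3 : expand τ0 (E.trans g a - E.trans g' a) = 0 := by
      have h4 := expand_add τ0 hd (E.mdiff_trans g' a)
      rw [sub_add_cancel, h2] at h4
      exact (add_eq_right.mp h4.symm)
    have h5 := eq_zero_of_expand_eq_zero τ0 hd h3
    exact sub_eq_zero.mp h5
  have h6 : (g⁻¹ * g')⁻¹ ∈ Gamma0 N := by
    apply E.sep
    intro a τ
    have h7 := congrFun (key a) (g • τ)
    rw [trans_apply, trans_apply, inv_smul_smul] at h7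
    rw [h7, mul_inv_rev, inv_inv, mul_smul]
  exact (Subgroup.inv_mem_iff _).mp h6

/-- The rotation rule: twisting by the rotation factor of a stabilizer element `h` of `τ0`
replaces `g` by `h⁻¹ * g`. -/
theorem twist_chartF (h : SL(2, ℤ)) (hh : h • τ0 = τ0) (ζ : ℂˣ) (hζ : (ζ : ℂ) = rot h τ0)
    (g : SL(2, ℤ)) (f : FN N) :
    helper864.twist ζ (E.chartF τ0 g f) = E.chartF τ0 (h⁻¹ * g) f := by
  have key : (RingEquiv.toRingHom (helper864.twist ζ)).comp (E.chartF τ0 g)
      = E.chartF τ0 (h⁻¹ * g) := by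
    apply ringHom_ext_of_AN
    intro a
    have e : (fun τ => E.trans g a (h • τ)) = E.trans (h⁻¹ * g) a := by
      funext τ
      rw [trans_apply, trans_apply, mul_inv_rev, inv_inv, mul_smul]
    rw [RingHom.comp_apply, chartF_coe, chartF_coe, chart_apply, chart_apply,
      RingEquiv.toRingHom_eq_coe, RingEquiv.coe_toRingHom, twist_ofPowerSeries, hζ,
      ← expand_comp_smul τ0 (E.mdiff_trans g a) h hh, e]
  have h2 : (RingEquiv.toRingHom (helper864.twist ζ)).comp (E.chartF τ0 g) f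
      = E.chartF τ0 (h⁻¹ * g) f := by rw [key]
  exact h2

theorem chartF_algebraMap (g : SL(2, ℤ)) (c : Kbar) :
    E.chartF τ0 g (algebraMap Kbar (FN N) c) = HahnSeries.C (E.κ c) := by
  have h1 : algebraMap Kbar (FN N) c = ((algebraMap Kbar (AN N) c : AN N) : FN N) := rfl
  rw [h1, chartF_coe, chart_apply]
  have h2 : E.trans g (algebraMap Kbar (AN N) c) = fun _ => E.κ c := by
    funext τ
    rw [trans_apply, E.ev_const]
  rw [h2, expand_const, HahnSeries.ofPowerSeries_C]

/-- The common expansion of `j - c`. -/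
def xi (c : Kbar) : LaurentSeries ℂ :=
  HahnSeries.ofPowerSeries ℤ ℂ (expand τ0 (fun τ => jFun τ - E.κ c))

theorem chartF_j_sub (g : SL(2, ℤ)) (c : Kbar) :
    E.chartF τ0 g (jBar N - algebraMap Kbar (FN N) c) = E.xi τ0 c := by
  have h1 : jBar N - algebraMap Kbar (FN N) c
      = (((⟨jBar N, jBar_mem_AN N⟩ - algebraMap Kbar (AN N) c : AN N)) : FN N) := rfl
  rw [h1, chartF_coe, chart_apply, xi]
  congr 2
  funext τ
  rw [trans_apply, map_sub, Pi.sub_apply, E.ev_j, E.ev_const]
  congr 1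
  exact helper454.jInvariant g⁻¹ τ

theorem mdiff_j_sub (c : ℂ) : MDiff (fun τ : ℍ => jFun τ - c) := by
  have h1 : MDiff (jFun : ℍ → ℂ) := helper458.mdifferentiable_jFun
  exact h1.sub mdifferentiable_const

end EvData

/-- **Local datum at a point of `ℍ`** from an analytic model: `τ0` lies over `c`, the order of
`j - c` at `τ0` is `m`, `h` fixes `τ0` and its rotation factor is a primitive `m`-th root of
unity. -/
theorem localDatum_of_fixed {N : ℕ} (E : EvData N) (c : Kbar) (τ0 : ℍ)
    (hτ0 : jFun τ0 = E.κ c) (m : ℕ) (hm : 0 < m)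
    (hord : analyticOrderAt (fun z : ℂ => jFun (ofComplex z) - jFun τ0) (τ0 : ℂ) = m)
    (h : SL(2, ℤ)) (hh : h • τ0 = τ0) (ζ : ℂˣ) (hζ : (ζ : ℂ) = rot h τ0)
    (hprim : IsPrimitiveRoot ζ m) :
    LocalDatum N (jBar N - algebraMap Kbar (FN N) c) m h := by
  have hord' : analyticOrderAt (fun z : ℂ => (fun τ : ℍ => jFun τ - E.κ c) (ofComplex z)) (τ0 : ℂ)
      = m := by
    rw [← hτ0]; exact hord
  have hxi := order_expand τ0 (EvData.mdiff_j_sub (E.κ c)) hord'
  have hout : ∀ (g : SL(2, ℤ)) (x : XN N), E.chartF τ0 (Quotient.out (g • x))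
      = E.chartF τ0 (g * Quotient.out x) := by
    intro g x
    apply E.chartF_eq_of_mem
    have h1 : ((Quotient.out (g • x) : SL(2, ℤ)) : XN N) = ((g * Quotient.out x : SL(2, ℤ)) : XN N) := by
      rw [QuotientGroup.out_eq']
      conv_lhs => rw [← QuotientGroup.out_eq' x]
      rfl
    exact QuotientGroup.eq.mp h1
  refine helper864.localDatum_of_twist N _ m hm h E.κ ζ hprim
    (fun x => E.chartF τ0 (Quotient.out x)) ?_ ?_ (E.xi τ0 c) ?_ hxi.1 hxi.2 (Or.inr ?_)
  · intro x a
    exact E.chartF_algebraMap τ0 _ a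
  · intro x x' hxx
    have h1 := E.mem_of_chartF_eq τ0 hxx
    have h2 : ((Quotient.out x : SL(2, ℤ)) : XN N) = ((Quotient.out x' : SL(2, ℤ)) : XN N) :=
      QuotientGroup.eq.mpr h1
    rwa [QuotientGroup.out_eq', QuotientGroup.out_eq'] at h2
  · intro x
    exact E.chartF_j_sub τ0 _ c
  · intro x f
    rw [hout, E.twist_chartF τ0 h hh ζ hζ]

end

end Fermat.Agent.S24.helper2768

namespace Fermat.Agent.S24.helper2768

open Fermat.Agent.S24.helper24 Fermat.Agent.S24.helper3176

noncomputable section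

/-- The rotation factor as a unit. -/
def rotUnit (g : SL(2, ℤ)) (τ0 : ℍ) : ℂˣ :=
  Units.mk0 (rot g τ0) (by
    intro h
    have h1 := norm_rot g τ0
    rw [h, norm_zero] at h1
    exact zero_ne_one h1)

theorem coe_rotUnit (g : SL(2, ℤ)) (τ0 : ℍ) : ((rotUnit g τ0 : ℂˣ) : ℂ) = rot g τ0 := rfl

theorem rot_one (τ0 : ℍ) : rot 1 τ0 = 1 := by
  have h1 : denom (1 : SL(2, ℤ)) τ0 = 1 := by
    rw [ModularGroup.denom_apply]
    simp
  rw [rot, h1, map_one, div_one]

theorem rot_S_I : rot ModularGroup.S UpperHalfPlane.I = -1 := by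
  rw [rot, ModularGroup.denom_S, UpperHalfPlane.coe_I, Complex.conj_I]
  field_simp

theorem denom_ST (z : ℍ) :
    denom ((ModularGroup.S * ModularGroup.T : SL(2, ℤ)) : GL (Fin 2) ℝ) z = (z : ℂ) + 1 := by
  rw [ModularGroup.denom_apply]
  have h10 : ((ModularGroup.S * ModularGroup.T : SL(2, ℤ)) : Matrix (Fin 2) (Fin 2) ℤ) 1 0 = 1 := by
    rw [Matrix.SpecialLinearGroup.coe_mul]
    simp [ModularGroup.S, ModularGroup.T, Matrix.mul_apply, Fin.sum_univ_two]
  have h11 : ((ModularGroup.S * ModularGroup.T : SL(2, ℤ)) : Matrix (Fin 2) (Fin 2) ℤ) 1 1 = 1 := by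
    rw [Matrix.SpecialLinearGroup.coe_mul]
    simp [ModularGroup.S, ModularGroup.T, Matrix.mul_apply, Fin.sum_univ_two]
  rw [h10, h11]
  simp

/-- The value `-1/2 - (√3/2) i` of the rotation factor of `S * T` at `ρ`. -/
def omegaBar : ℂ := -1 / 2 - ((Real.sqrt 3 / 2 : ℝ) : ℂ) * Complex.I

theorem rot_ST_rho :
    rot (ModularGroup.S * ModularGroup.T : SL(2, ℤ)) helper454.rho = omegaBar := by
  have h3 : ((Real.sqrt 3 : ℝ) : ℂ) ^ 2 = 3 := by
    norm_cast
    exact Real.sq_sqrt (by norm_num)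
  have hu : denom ((ModularGroup.S * ModularGroup.T : SL(2, ℤ)) : GL (Fin 2) ℝ) helper454.rho
      = 1 / 2 + ((Real.sqrt 3 / 2 : ℝ) : ℂ) * Complex.I := by
    rw [denom_ST, helper454.coe_rho]
    ring
  have hcu : conj (denom ((ModularGroup.S * ModularGroup.T : SL(2, ℤ)) : GL (Fin 2) ℝ)
      helper454.rho) = 1 / 2 - ((Real.sqrt 3 / 2 : ℝ) : ℂ) * Complex.I := by
    rw [hu, map_add, map_mul, Complex.conj_I, Complex.conj_ofReal, map_div₀, map_one, map_ofNat]
    ring
  have hI : Complex.I ^ 2 = -1 := Complex.I_sq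
  have hne : (1 : ℂ) / 2 + ((Real.sqrt 3 / 2 : ℝ) : ℂ) * Complex.I ≠ 0 := by
    rw [← hu]
    exact denom_ne_zero _ _
  rw [rot, hcu, hu, div_eq_iff hne, omegaBar]
  push_cast
  linear_combination (Complex.I ^ 2 / 4) * h3 + (3 / 4 : ℂ) * hI

theorem isPrimitiveRoot_omegaBar : IsPrimitiveRoot omegaBar 3 := by
  have h3 : ((Real.sqrt 3 : ℝ) : ℂ) ^ 2 = 3 := by
    norm_cast
    exact Real.sq_sqrt (by norm_num)
  have hI : Complex.I ^ 2 = -1 := Complex.I_sq
  have hcube : omegaBar ^ 3 = 1 := by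
    rw [omegaBar]
    push_cast
    linear_combination (-(3 : ℂ) / 8 * Complex.I ^ 2
      - (Real.sqrt 3 : ℂ) * Complex.I ^ 3 / 8) * h3
      + (-(9 : ℂ) / 8 - 3 * (Real.sqrt 3 : ℂ) * Complex.I / 8) * hI
  have hne1 : omegaBar ≠ 1 := by
    intro h
    have h1 := congrArg Complex.re h
    rw [omegaBar] at h1
    simp at h1
    norm_num at h1
  have ho : orderOf omegaBar = 3 := orderOf_eq_prime hcube hne1
  have := IsPrimitiveRoot.orderOf omegaBar
  rwa [ho] at this

/-- `Stmt_LocalGeneric` from an analytic model. -/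
theorem stmt_LocalGeneric_of_ev (hE : Stmt_EvData) : Stmt_LocalGeneric := by
  intro N _ c hc0 hc1728
  obtain ⟨E⟩ := hE N
  obtain ⟨τ0, hτ⟩ := helper454.jSurjective (E.κ c)
  have hτ0 : jFun τ0 = E.κ c := hτ
  have hne0 : jFun τ0 ≠ 0 := by
    rw [hτ0]
    exact (map_ne_zero E.κ).mpr hc0
  have hne1 : jFun τ0 ≠ 1728 := by
    rw [hτ0]
    intro h
    apply hc1728
    apply E.κ.injective
    rw [h, map_ofNat]
  have hord := (helper2064.analyticOrderAt_sub_of_eq jFun (fun _ => rfl) τ0).2.2 hne0 hne1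
  exact localDatum_of_fixed E c τ0 hτ0 1 one_pos (by rw [hord]; rfl) 1 (one_smul _ _) 1
    (by rw [rot_one]; rfl) IsPrimitiveRoot.one

/-- `Stmt_Local1728` from an analytic model. -/
theorem stmt_Local1728_of_ev (hE : Stmt_EvData) : Stmt_Local1728 := by
  intro N _
  obtain ⟨E⟩ := hE N
  have hI : jFun UpperHalfPlane.I = 1728 := helper454.j_I
  have hτ0 : jFun UpperHalfPlane.I = E.κ 1728 := by rw [hI, map_ofNat]
  have hord := (helper2064.analyticOrderAt_sub_of_eq jFun (fun _ => rfl) UpperHalfPlane.I).2.1 hI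
  have hprim : IsPrimitiveRoot (rotUnit ModularGroup.S UpperHalfPlane.I) 2 := by
    apply IsPrimitiveRoot.coe_units_iff.mp
    rw [coe_rotUnit, rot_S_I]
    exact IsPrimitiveRoot.neg_one 0 (by norm_num)
  exact localDatum_of_fixed E 1728 UpperHalfPlane.I hτ0 2 two_pos (by rw [hord]; rfl)
    ModularGroup.S helper454.S_smul_I (rotUnit ModularGroup.S UpperHalfPlane.I) rfl hprim

/-- `Stmt_LocalZero` from an analytic model. -/
theorem stmt_LocalZero_of_ev (hE : Stmt_EvData) : Stmt_LocalZero := by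
  intro N _
  obtain ⟨E⟩ := hE N
  have hρ : jFun helper454.rho = 0 := helper454.j_rho
  have hτ0 : jFun helper454.rho = E.κ 0 := by rw [hρ, map_zero]
  have hord := (helper2064.analyticOrderAt_sub_of_eq jFun (fun _ => rfl) helper454.rho).1 hρ
  have hprim : IsPrimitiveRoot (rotUnit (ModularGroup.S * ModularGroup.T) helper454.rho) 3 := by
    apply IsPrimitiveRoot.coe_units_iff.mp
    rw [coe_rotUnit, rot_ST_rho]
    exact isPrimitiveRoot_omegaBar
  have h := localDatum_of_fixed E 0 helper454.rho hτ0 3 (by norm_num) (by rw [hord]; rfl)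
    (ModularGroup.S * ModularGroup.T) helper454.ST_smul_rho
    (rotUnit (ModularGroup.S * ModularGroup.T) helper454.rho) rfl hprim
  rwa [map_zero, sub_zero] at h

/-- The three finite-point local data of the specification from an analytic model. -/
theorem stmt_LocalFinite_of_ev (hE : Stmt_EvData) :
    Stmt_LocalGeneric ∧ Stmt_Local1728 ∧ Stmt_LocalZero :=
  ⟨stmt_LocalGeneric_of_ev hE, stmt_Local1728_of_ev hE, stmt_LocalZero_of_ev hE⟩

end

end Fermat.Agent.S24.helper2768
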