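import Mathlib
import Fermat.Prelude.Def_ModularCurve_ArithmeticGalois

set_option autoImplicit false

noncomputable section

namespace Fermat.Agent.S24.helper276

open HahnSeries

/-- Pointwise (unconditionally) convergent evaluation of a Laurent series at `z`. -/
def LSum (z : ℂ) (E : LaurentSeries ℂ) (s : ℂ) : Prop :=
  HasSum (fun n : ℤ => E.coeff n * z ^ n) s

theorem LSum.zero (z : ℂ) : LSum z 0 0 := by
  simp [LSum, hasSum_zero]

theorem LSum.single (z : ℂ) (k : ℤ) (a : ℂ) :
    LSum z (HahnSeries.single k a) (a * z ^ k) := by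
  unfold LSum
  have h := hasSum_ite_eq k (a * z ^ k)
  convert h using 2 with n
  by_cases hn : n = k
  · subst hn; simp
  · simp [hn, HahnSeries.coeff_single_of_ne hn]

theorem LSum.C (z : ℂ) (a : ℂ) : LSum z (HahnSeries.C a) a := by
  have h := LSum.single z 0 a
  simpa using h

theorem LSum.add {z : ℂ} {E E' : LaurentSeries ℂ} {s s' : ℂ} (h : LSum z E s)
    (h' : LSum z E' s') : LSum z (E + E') (s + s') := by
  unfold LSum at *
  have := h.add h'
  convert this using 2 with n
  simp [add_mul]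

theorem LSum.neg {z : ℂ} {E : LaurentSeries ℂ} {s : ℂ} (h : LSum z E s) : LSum z (-E) (-s) := by
  unfold LSum at *
  have e : (fun n : ℤ => (-E).coeff n * z ^ n) = fun n => -(E.coeff n * z ^ n) := by
    funext n
    simp
  rw [e]
  exact h.neg

theorem LSum.sub {z : ℂ} {E E' : LaurentSeries ℂ} {s s' : ℂ} (h : LSum z E s)
    (h' : LSum z E' s') : LSum z (E - E') (s - s') := by
  have := h.add h'.neg
  simpa [sub_eq_add_neg] using this

theorem LSum.unique_val {z : ℂ} {E : LaurentSeries ℂ} {s s' : ℂ} (h : LSum z E s)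
    (h' : LSum z E s') : s = s' := HasSum.unique h h'

theorem LSum.mul {z : ℂ} (hz : z ≠ 0) {E E' : LaurentSeries ℂ} {s s' : ℂ} (h : LSum z E s)
    (h' : LSum z E' s') : LSum z (E * E') (s * s') := by
  unfold LSum at *
  have hs : Summable (fun x : ℤ × ℤ => (E.coeff x.1 * z ^ x.1) * (E'.coeff x.2 * z ^ x.2)) :=
    summable_mul_of_summable_norm (f := fun n : ℤ => E.coeff n * z ^ n)
      (g := fun n : ℤ => E'.coeff n * z ^ n) h.summable.norm h'.summable.norm
  have hprod := h.mul h' hs
  -- reindex by `(n, i) ↦ (i, n - i)`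
  let e : ℤ × ℤ ≃ ℤ × ℤ :=
    { toFun := fun p => (p.2, p.1 - p.2)
      invFun := fun p => (p.1 + p.2, p.1)
      left_inv := fun p => by ext <;> simp
      right_inv := fun p => by ext <;> simp }
  have hprod' := (e.hasSum_iff).mpr hprod
  refine HasSum.prod_fiberwise hprod' (fun n => ?_)
  have hfin : ∀ i ∉ (Finset.antidiagonal E.isPWO_support E'.isPWO_support n).image Prod.fst,
      ((fun p : ℤ × ℤ => (E.coeff p.1 * z ^ p.1) * (E'.coeff p.2 * z ^ p.2)) ∘ e) (n, i) = 0 := by
    intro i hi
    simp only [Function.comp_apply, e, Equiv.coe_fn_mk]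
    by_contra hne
    apply hi
    have h1 : E.coeff i ≠ 0 := by
      intro h0; apply hne; simp [h0]
    have h2 : E'.coeff (n - i) ≠ 0 := by
      intro h0; apply hne; simp [h0]
    refine Finset.mem_image.mpr ⟨(i, n - i), ?_, rfl⟩
    simp [Finset.mem_antidiagonal, h1, h2]
  have hsum := hasSum_sum_of_ne_finset_zero (L := SummationFilter.unconditional ℤ) hfin
  convert hsum using 1
  rw [HahnSeries.coeff_mul, Finset.sum_mul, Finset.sum_image]
  · refine Finset.sum_congr rfl (fun p hp => ?_)
    have hp' : p.1 + p.2 = n := (Finset.mem_antidiagonal.mp hp).2.2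
    have hp2 : n - p.1 = p.2 := by omega
    simp only [Function.comp_apply, e, Equiv.coe_fn_mk, hp2]
    rw [← hp', zpow_add₀ hz]
    ring
  · intro p hp q hq hpq
    have hp' : p.1 + p.2 = n := (Finset.mem_antidiagonal.mp hp).2.2
    have hq' : q.1 + q.2 = n := (Finset.mem_antidiagonal.mp hq).2.2
    ext
    · exact hpq
    · have : p.1 = q.1 := hpq
      omega


/-- If a power series sums to zero at every point of a punctured disc, its constant
coefficient vanishes. -/
theorem coeff_zero_of_hasSum_zero (a : ℕ → ℂ) (r : ℝ) (hr : 0 < r)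
    (h : ∀ z : ℂ, z ≠ 0 → ‖z‖ < r → HasSum (fun k : ℕ => a k * z ^ k) 0) : a 0 = 0 := by
  set z0 : ℝ := r / 2 with hz0
  have hz0pos : 0 < z0 := by positivity
  have hz0r : z0 < r := by simp only [hz0]; linarith
  have hS : Summable (fun k : ℕ => ‖a k‖ * z0 ^ k) := by
    have h0 := (h (z0 : ℂ) (by exact_mod_cast hz0pos.ne')
      (by simpa [abs_of_pos hz0pos] using hz0r)).summable.norm
    simpa [norm_mul, norm_pow, abs_of_pos hz0pos] using h0
  have hS' : Summable (fun k : ℕ => ‖a (k + 1)‖ * z0 ^ (k + 1)) :=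
    (summable_nat_add_iff 1).mpr hS
  set S := ∑' k : ℕ, ‖a (k + 1)‖ * z0 ^ (k + 1) with hSdef
  have hSnn : 0 ≤ S := tsum_nonneg (fun k => by positivity)
  have key : ∀ ε : ℝ, 0 < ε → ε ≤ z0 → ‖a 0‖ ≤ ε / z0 * S := by
    intro ε hε hεz
    have h1 := h (ε : ℂ) (by exact_mod_cast hε.ne')
      (by simpa [abs_of_pos hε] using lt_of_le_of_lt hεz hz0r)
    have h2 := (hasSum_nat_add_iff' 1).mpr h1
    simp only [Finset.range_one, Finset.sum_singleton, pow_zero, mul_one, zero_sub] at h2
    have h3 : HasSum (fun k : ℕ => ε / z0 * (‖a (k + 1)‖ * z0 ^ (k + 1))) (ε / z0 * S) :=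
      hS'.hasSum.mul_left _
    have h4 := h2.norm_le_of_bounded h3 (fun k => by
      rw [norm_mul, norm_pow, Complex.norm_real, Real.norm_of_nonneg hε.le]
      have hpow : ε ^ k ≤ z0 ^ k := pow_le_pow_left₀ hε.le hεz k
      have e1 : ε / z0 * (‖a (k + 1)‖ * z0 ^ (k + 1)) = ‖a (k + 1)‖ * (ε * z0 ^ k) := by
        field_simp
        ring
      rw [e1, pow_succ']
      gcongr)
    simpa using h4
  by_contra hne
  have hpos : 0 < ‖a 0‖ := norm_pos_iff.mpr hne
  set Cc := S / z0 with hCc
  have hCnn : 0 ≤ Cc := div_nonneg hSnn hz0pos.le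
  set ε := min z0 (‖a 0‖ / (2 * (Cc + 1))) with hεdef
  have hεpos : 0 < ε := lt_min hz0pos (by positivity)
  have hle := key ε hεpos (min_le_left _ _)
  have hε2 : ε ≤ ‖a 0‖ / (2 * (Cc + 1)) := min_le_right _ _
  have e2 : ε / z0 * S = ε * Cc := by rw [hCc]; field_simp
  rw [e2] at hle
  have h5 : ε * Cc ≤ ‖a 0‖ / (2 * (Cc + 1)) * Cc := by gcongr
  have h6 : ‖a 0‖ / (2 * (Cc + 1)) * Cc < ‖a 0‖ := by
    rw [div_mul_eq_mul_div, div_lt_iff₀ (by positivity)]
    nlinarith
  linarith

/-- Uniqueness of Laurent expansions: a Laurent series summing to zero on a punctured disc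
is zero. -/
theorem LSum.eq_zero_of_forall {E : LaurentSeries ℂ} (r : ℝ) (hr : 0 < r)
    (h : ∀ z : ℂ, z ≠ 0 → ‖z‖ < r → LSum z E 0) : E = 0 := by
  by_contra hE
  have hm : E.coeff E.order ≠ 0 := by
    rw [← HahnSeries.leadingCoeff_eq]; exact HahnSeries.leadingCoeff_ne_zero.mpr hE
  apply hm
  have h0 := coeff_zero_of_hasSum_zero (fun k : ℕ => E.coeff (E.order + k)) r hr
    (fun z hz hzr => ?_)
  · simpa using h0
  have h1 := h z hz hzr
  unfold LSum at h1
  have hinj : Function.Injective (fun k : ℕ => E.order + (k : ℤ)) := by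
    intro a b hab
    simpa using hab
  have h2 : HasSum (fun k : ℕ => E.coeff (E.order + k) * z ^ (E.order + (k : ℤ))) 0 := by
    refine (Function.Injective.hasSum_iff (f := fun n : ℤ => E.coeff n * z ^ n) hinj ?_).mpr h1
    intro n hn
    have hlt : n < E.order := by
      by_contra hlt
      push Not at hlt
      exact hn ⟨(n - E.order).toNat, by simp only; omega⟩
    simp [HahnSeries.coeff_eq_zero_of_lt_order hlt]
  have h3 := h2.mul_left (z ^ (-E.order))
  simp only [mul_zero] at h3
  have h4 : (fun k : ℕ => E.coeff (E.order + k) * z ^ k) =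
      fun i : ℕ => z ^ (-E.order) * (E.coeff (E.order + ↑i) * z ^ (E.order + (i : ℤ))) := by
    funext k
    rw [zpow_add₀ hz, zpow_neg, zpow_natCast]
    field_simp
  rw [h4]
  exact h3

/-- Two Laurent series with the same sums on a punctured disc are equal. -/
theorem LSum.ext_of_forall {E E' : LaurentSeries ℂ} (r : ℝ) (hr : 0 < r)
    (h : ∀ z : ℂ, z ≠ 0 → ‖z‖ < r → ∃ s, LSum z E s ∧ LSum z E' s) : E = E' := by
  have hneg : ∀ (z : ℂ) (F : LaurentSeries ℂ) (s : ℂ), LSum z F s → LSum z (-F) (-s) := by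
    intro z F s hF
    unfold LSum at *
    have e : (fun n : ℤ => (-F).coeff n * z ^ n) = fun n => -(F.coeff n * z ^ n) := by
      funext n
      simp
    rw [e]
    exact hF.neg
  have h0 : E - E' = 0 := by
    refine LSum.eq_zero_of_forall r hr (fun z hz hzr => ?_)
    obtain ⟨s, h1, h2⟩ := h z hz hzr
    have := h1.add (hneg z E' s h2)
    simpa [sub_eq_add_neg] using this
  exact sub_eq_zero.mp h0


section Twist

variable {R : Type*} [Field R]

/-- The substitution `t ↦ u t` on Laurent series over a field (`u ≠ 0`). -/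
def twist (u : R) (hu : u ≠ 0) : LaurentSeries R →+* LaurentSeries R where
  toFun E := ⟨fun n => u ^ n * E.coeff n, E.isPWO_support.mono (fun n hn => by
      simp only [Function.mem_support, ne_eq] at hn ⊢
      intro h0
      exact hn (by simp [h0]))⟩
  map_zero' := by ext n; simp
  map_one' := by
    ext n
    by_cases hn : n = 0
    · subst hn; simp
    · simp [HahnSeries.coeff_one, hn]
  map_add' x y := by ext n; simp [mul_add]
  map_mul' x y := by
    ext n
    simp only [HahnSeries.coeff_mul, Finset.mul_sum]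
    have hsupp : ∀ E : LaurentSeries R,
        (⟨fun n => u ^ n * E.coeff n, E.isPWO_support.mono (fun n hn => by
          simp only [Function.mem_support, ne_eq] at hn ⊢
          intro h0
          exact hn (by simp [h0]))⟩ : LaurentSeries R).support = E.support := by
      intro E
      ext k
      simp [zpow_ne_zero k hu]
    refine Finset.sum_congr_of_eq_on_inter ?_ ?_ ?_
    · intro p hp hp'
      exfalso
      apply hp'
      rw [Finset.mem_antidiagonal] at hp ⊢
      refine ⟨?_, ?_, hp.2.2⟩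
      · rw [hsupp]; exact hp.1
      · rw [hsupp]; exact hp.2.1
    · intro p hp hp'
      exfalso
      apply hp'
      rw [Finset.mem_antidiagonal] at hp ⊢
      refine ⟨?_, ?_, hp.2.2⟩
      · rw [← hsupp x]; exact hp.1
      · rw [← hsupp y]; exact hp.2.1
    · intro p hp _
      have hp' : p.1 + p.2 = n := (Finset.mem_antidiagonal.mp hp).2.2
      rw [← hp', zpow_add₀ hu]
      ring

@[simp]
theorem twist_coeff (u : R) (hu : u ≠ 0) (E : LaurentSeries R) (n : ℤ) :
    (twist u hu E).coeff n = u ^ n * E.coeff n := rfl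

theorem twist_C (u : R) (hu : u ≠ 0) (a : R) : twist u hu (HahnSeries.C a) = HahnSeries.C a := by
  ext n
  rw [HahnSeries.C_apply]
  by_cases hn : n = 0
  · subst hn; simp
  · simp [HahnSeries.coeff_single_of_ne hn]

end Twist

theorem LSum.twist_iff {u z : ℂ} (hu : u ≠ 0) {E : LaurentSeries ℂ} {s : ℂ} :
    LSum z (twist u hu E) s ↔ LSum (u * z) E s := by
  unfold LSum
  have e : (fun n : ℤ => (twist u hu E).coeff n * z ^ n) = fun n : ℤ => E.coeff n * (u * z) ^ n := by
    funext n
    rw [twist_coeff, mul_zpow]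
    ring
  rw [e]

theorem LSum.qExpand_iff {z : ℂ} (e : ℕ) [NeZero e] {E : LaurentSeries ℂ} {s : ℂ} :
    LSum z (ModularCurve.qExpand ℂ e E) s ↔ LSum (z ^ e) E s := by
  unfold LSum
  have hinj : Function.Injective (fun n : ℤ => (e : ℤ) * n) :=
    mul_right_injective₀ (by exact_mod_cast NeZero.ne e)
  have h := Function.Injective.hasSum_iff (a := s)
    (f := fun k : ℤ => (ModularCurve.qExpand ℂ e E).coeff k * z ^ k) hinj (by
      intro k hk
      have : ¬ (e : ℤ) ∣ k := fun ⟨m, hm⟩ => hk ⟨m, hm.symm⟩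
      simp [ModularCurve.qExpand_coeff_of_not_dvd e E this])
  rw [← h]
  have e2 : ((fun k : ℤ => (ModularCurve.qExpand ℂ e E).coeff k * z ^ k) ∘ fun n : ℤ => (e : ℤ) * n)
      = fun n : ℤ => E.coeff n * (z ^ e) ^ n := by
    funext n
    simp only [Function.comp_apply, ModularCurve.qExpand_coeff_mul]
    rw [zpow_mul, zpow_natCast]
  rw [e2]

section CoeffMapCompat

variable {R S : Type*} [Field R] [Field S]

theorem coeffMap_twist (f : R →+* S) (u : R) (hu : u ≠ 0) (E : LaurentSeries R) :
    ModularCurve.coeffMap f (twist u hu E) =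
      twist (f u) ((map_ne_zero f).mpr hu) (ModularCurve.coeffMap f E) := by
  ext n
  simp [map_zpow₀]

theorem coeffMap_qExpand (f : R →+* S) (e : ℕ) [NeZero e] (E : LaurentSeries R) :
    ModularCurve.coeffMap f (ModularCurve.qExpand R e E) =
      ModularCurve.qExpand S e (ModularCurve.coeffMap f E) := by
  ext k
  by_cases hk : (e : ℤ) ∣ k
  · obtain ⟨m, rfl⟩ := hk
    simp
  · simp [ModularCurve.qExpand_coeff_of_not_dvd e _ hk]

end CoeffMapCompat

end Fermat.Agent.S24.helper276
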