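import Mathlib
import Fermat.Prelude.Def_ModularCurve_ArithmeticGalois
import Fermat.Agent.S24.helper276_LSum

set_option autoImplicit false

noncomputable section

namespace Fermat.Agent.S24.helper276

open UpperHalfPlane Matrix MatrixGroups HahnSeries

/-- The matrix `[[a, b], [0, d]]` as an element of `GL(2, ℝ)` (`a, d ≠ 0`). -/
def triGL (a b d : ℝ) (ha : a ≠ 0) (hd : d ≠ 0) : GL (Fin 2) ℝ :=
  Matrix.GeneralLinearGroup.mkOfDetNeZero !![a, b; 0, d] (by simp [Matrix.det_fin_two, ha, hd])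

theorem coe_triGL_smul (a b d : ℝ) (ha : 0 < a) (hd : 0 < d) (τ : ℍ) :
    ((triGL a b d ha.ne' hd.ne' • τ : ℍ) : ℂ) = ((a : ℂ) * τ + b) / d := by
  rw [UpperHalfPlane.coe_smul_of_det_pos]
  · simp [triGL, UpperHalfPlane.num, UpperHalfPlane.denom, Matrix.GeneralLinearGroup.mkOfDetNeZero]
  · simp [triGL, Matrix.GeneralLinearGroup.mkOfDetNeZero, Matrix.det_fin_two]
    positivity

theorem triGL_rel (g γ : SL(2, ℤ)) (d a d' b : ℝ) (hd : d ≠ 0) (ha : a ≠ 0) (hd' : d' ≠ 0)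
    (h00 : (γ 0 0 : ℝ) * a = d * g 0 0) (h01 : (γ 0 0 : ℝ) * b + γ 0 1 * d' = d * g 0 1)
    (h10 : (γ 1 0 : ℝ) * a = g 1 0) (h11 : (γ 1 0 : ℝ) * b + γ 1 1 * d' = g 1 1) (τ : ℍ) :
    triGL d 0 1 hd one_ne_zero • (g • τ) = γ • (triGL a b d' ha hd' • τ) := by
  rw [ModularGroup.sl_moeb, ModularGroup.sl_moeb, ← mul_smul, ← mul_smul]
  congr 1
  ext i j
  fin_cases i <;> fin_cases j <;>
    simp [triGL, Matrix.GeneralLinearGroup.mkOfDetNeZero, Matrix.mul_apply, Fin.sum_univ_two] <;>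
    linarith

/-- Multiplication by a positive integer on the upper half plane. -/
def dPt (d : ℕ) (hd : 0 < d) (τ : ℍ) : ℍ :=
  triGL d 0 1 (by exact_mod_cast hd.ne') one_ne_zero • τ

theorem coe_dPt (d : ℕ) (hd : 0 < d) (τ : ℍ) : ((dPt d hd τ : ℍ) : ℂ) = (d : ℂ) * τ := by
  have h := coe_triGL_smul (d : ℝ) 0 1 (by exact_mod_cast hd) one_pos τ
  simpa [dPt] using h

/-- The point `(a τ + b) / d'`. -/
def triPt (a d' : ℕ) (b : ℤ) (ha : 0 < a) (hd' : 0 < d') (τ : ℍ) : ℍ :=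
  triGL a b d' (by exact_mod_cast ha.ne') (by exact_mod_cast hd'.ne') • τ

theorem coe_triPt (a d' : ℕ) (b : ℤ) (ha : 0 < a) (hd' : 0 < d') (τ : ℍ) :
    ((triPt a d' b ha hd' τ : ℍ) : ℂ) = ((a : ℂ) * τ + b) / d' := by
  have h := coe_triGL_smul (a : ℝ) b d' (by exact_mod_cast ha) (by exact_mod_cast hd') τ
  simpa [triPt] using h

/-- Hermite normal form data for `[[d,0],[0,1]] * g`. -/
structure HermiteData (g : SL(2, ℤ)) (d : ℕ) (hd : 0 < d) where
  a : ℕ
  d' : ℕ
  b : ℤ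
  γ : SL(2, ℤ)
  ha : 0 < a
  hd' : 0 < d'
  mul_eq : a * d' = d
  a_eq : a = Int.gcd d (g 1 0)
  rel : ∀ τ : ℍ, dPt d hd (g • τ) = γ • triPt a d' b ha hd' τ

theorem nonempty_hermiteData (g : SL(2, ℤ)) (d : ℕ) (hd : 0 < d) :
    Nonempty (HermiteData g d hd) := by
  have hdet : g 0 0 * g 1 1 - g 0 1 * g 1 0 = 1 := by
    have := g.det_coe
    rwa [Matrix.det_fin_two] at this
  set p := g 0 0 with hp
  set q := g 0 1 with hq
  set r := g 1 0 with hr
  set s := g 1 1 with hs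
  set a : ℕ := Int.gcd d r with ha_def
  have hapos : 0 < a := Int.gcd_pos_of_ne_zero_left _ (by exact_mod_cast hd.ne')
  have had : (a : ℤ) ∣ (d : ℤ) := Int.gcd_dvd_left _ _
  have har : (a : ℤ) ∣ r := Int.gcd_dvd_right _ _
  have had' : a ∣ d := Int.natCast_dvd_natCast.mp had
  set d' : ℕ := d / a with hd'_def
  have hmul : a * d' = d := Nat.mul_div_cancel' had'
  have hd'pos : 0 < d' := Nat.pos_of_ne_zero (by
    intro h0; rw [h0, mul_zero] at hmul; omega)
  set z : ℤ := r / a with hz_def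
  have haz : (a : ℤ) * z = r := Int.mul_ediv_cancel' har
  have hcop : IsCoprime z (d' : ℤ) := by
    rw [Int.isCoprime_iff_gcd_eq_one]
    have h1 := Int.gcd_div_gcd_div_gcd (i := (d : ℤ)) (j := r) (by exact_mod_cast hapos)
    rw [Int.gcd_comm]
    have h2 : (d : ℤ) / (Int.gcd (d : ℤ) r : ℤ) = (d' : ℤ) := by
      rw [hd'_def]; push_cast; rfl
    rw [h2] at h1
    exact h1
  obtain ⟨u, v, huv⟩ := hcop
  -- u * z + v * d' = 1
  set b : ℤ := s * u with hb
  set w : ℤ := s * v with hw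
  have hzb : z * b + w * d' = s := by
    have : s * (u * z + v * d') = s := by rw [huv, mul_one]
    linarith
  have hmulZ : (a : ℤ) * (d' : ℤ) = (d : ℤ) := by exact_mod_cast hmul
  let γ : SL(2, ℤ) := ⟨!![(d' : ℤ) * p, a * q - p * b; z, w], by
    rw [Matrix.det_fin_two]
    simp only [Matrix.of_apply, Matrix.cons_val', Matrix.cons_val_zero, Matrix.cons_val_one,
      Matrix.cons_val_fin_one]
    have e1 : (d' : ℤ) * p * w - (a * q - p * b) * z = p * (z * b + w * d') - q * (a * z) := by ring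
    rw [e1, hzb, haz]
    linarith⟩
  refine ⟨⟨a, d', b, γ, hapos, hd'pos, hmul, rfl, fun τ => ?_⟩⟩
  unfold dPt triPt
  refine triGL_rel g γ d a d' b _ _ _ ?_ ?_ ?_ ?_ τ
  · have : (d' : ℤ) * p * a = d * p := by rw [← hmulZ]; ring
    show (((d' : ℤ) * p : ℤ) : ℝ) * a = d * (p : ℝ)
    exact_mod_cast this
  · have : (d' : ℤ) * p * b + (a * q - p * b) * d' = d * q := by rw [← hmulZ]; ring
    show (((d' : ℤ) * p : ℤ) : ℝ) * b + ((a * q - p * b : ℤ) : ℝ) * d' = d * (q : ℝ)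
    exact_mod_cast this
  · have : z * a = r := by rw [mul_comm]; exact haz
    show ((z : ℤ) : ℝ) * a = (r : ℝ)
    exact_mod_cast this
  · show ((z : ℤ) : ℝ) * b + (w : ℝ) * d' = (s : ℝ)
    exact_mod_cast hzb

/-- A choice of Hermite data. -/
def hermiteData (g : SL(2, ℤ)) (d : ℕ) (hd : 0 < d) : HermiteData g d hd :=
  Classical.choice (nonempty_hermiteData g d hd)


/-! ### The analytic `j`-function: hypotheses and expansions at the cusp -/

/-- The `q`-expansion of `j` with complex coefficients. -/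
def jqC : LaurentSeries ℂ := ModularCurve.coeffEmb ℂ ModularCurve.jq

/-- The local parameter `exp(2πiτ/N)` at the cusp. -/
def qN (N : ℕ) (τ : ℍ) : ℂ := Function.Periodic.qParam (N : ℝ) (τ : ℂ)

theorem qN_ne_zero (N : ℕ) (τ : ℍ) : qN N τ ≠ 0 := Function.Periodic.qParam_ne_zero _

/-- Hypotheses on the analytic `j`-function `J : ℍ → ℂ`: invariance under `SL(2, ℤ)` and the
`q`-expansion with the coefficients of the formal series `ModularCurve.jq`, valid on all
of `ℍ`. -/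
structure JHyp (J : ℍ → ℂ) : Prop where
  inv : ∀ (γ : SL(2, ℤ)) (τ : ℍ), J (γ • τ) = J τ
  qexp : ∀ τ : ℍ, LSum (Complex.exp (2 * Real.pi * Complex.I * τ)) jqC (J τ)

theorem lsum_base {J : ℍ → ℂ} (hJ : JHyp J) (N : ℕ) [NeZero N] (d : ℕ) (hd : 0 < d) (τ : ℍ) :
    haveI : NeZero (N * d) := ⟨Nat.mul_ne_zero (NeZero.ne N) hd.ne'⟩
    LSum (qN N τ) (ModularCurve.qExpand ℂ (N * d) jqC) (J (dPt d hd τ)) := by
  haveI : NeZero (N * d) := ⟨Nat.mul_ne_zero (NeZero.ne N) hd.ne'⟩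
  rw [LSum.qExpand_iff]
  have h := hJ.qexp (dPt d hd τ)
  have e : Complex.exp (2 * Real.pi * Complex.I * (dPt d hd τ : ℍ)) = qN N τ ^ (N * d) := by
    rw [coe_dPt, qN, Function.Periodic.qParam, ← Complex.exp_nat_mul]
    congr 1
    have hN : (N : ℂ) ≠ 0 := by exact_mod_cast NeZero.ne N
    push_cast
    field_simp
  rw [e] at h
  exact h

theorem lsum_tri {J : ℍ → ℂ} (hJ : JHyp J) (N : ℕ) [NeZero N] (a d' : ℕ) (b : ℤ) (ha : 0 < a)
    (hd' : 0 < d') (hdN : d' ∣ N) (τ : ℍ) :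
    haveI : NeZero (N / d' * a) :=
      ⟨Nat.mul_ne_zero (Nat.div_pos (Nat.le_of_dvd (Nat.pos_of_ne_zero (NeZero.ne N)) hdN) hd').ne'
        ha.ne'⟩
    LSum (qN N τ) (ModularCurve.qExpand ℂ (N / d' * a)
      (twist (Complex.exp (2 * Real.pi * Complex.I * b / d')) (Complex.exp_ne_zero _) jqC))
      (J (triPt a d' b ha hd' τ)) := by
  haveI : NeZero (N / d' * a) :=
      ⟨Nat.mul_ne_zero (Nat.div_pos (Nat.le_of_dvd (Nat.pos_of_ne_zero (NeZero.ne N)) hdN) hd').ne'
        ha.ne'⟩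
  rw [LSum.qExpand_iff, LSum.twist_iff]
  have h := hJ.qexp (triPt a d' b ha hd' τ)
  have e : Complex.exp (2 * Real.pi * Complex.I * (triPt a d' b ha hd' τ : ℍ)) =
      Complex.exp (2 * Real.pi * Complex.I * b / d') * qN N τ ^ (N / d' * a) := by
    rw [coe_triPt, qN, Function.Periodic.qParam, ← Complex.exp_nat_mul, ← Complex.exp_add]
    congr 1
    have hN : (N : ℂ) ≠ 0 := by exact_mod_cast NeZero.ne N
    have hd'0 : (d' : ℂ) ≠ 0 := by exact_mod_cast hd'.ne'
    rw [Nat.cast_mul, Nat.cast_div hdN hd'0]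
    push_cast
    field_simp
    ring
  rw [e] at h
  exact h


/-! ### Charts and expansions -/

/-- A chart: points `pt y` of `ℍ` with a nonvanishing coordinate `z y`, such that Laurent
expansions in the coordinate are unique and `pt` misses at most one point of `ℍ`. -/
structure Chart where
  Y : Type
  pt : Y → ℍ
  z : Y → ℂ
  z_ne : ∀ y, z y ≠ 0
  uniq : ∀ E : LaurentSeries ℂ, (∀ y, LSum (z y) E 0) → E = 0
  cov : ∀ τ τ' : ℍ, τ ≠ τ' → τ ∈ Set.range pt ∨ τ' ∈ Set.range pt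

/-- `f` has the Laurent expansion `E` in the chart `c`. -/
def HasExp (c : Chart) (f : ℍ → ℂ) (E : LaurentSeries ℂ) : Prop :=
  ∀ y : c.Y, LSum (c.z y) E (f (c.pt y))

theorem HasExp.unique {c : Chart} {f : ℍ → ℂ} {E E' : LaurentSeries ℂ} (h : HasExp c f E)
    (h' : HasExp c f E') : E = E' := by
  have h0 : E - E' = 0 := c.uniq _ (fun y => by simpa using (h y).sub (h' y))
  exact sub_eq_zero.mp h0

theorem HasExp.eq_zero {c : Chart} {f : ℍ → ℂ} (h : HasExp c f 0) (y : c.Y) : f (c.pt y) = 0 :=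
  (h y).unique_val (LSum.zero _)

/-- The chart at the cusp: all of `ℍ`, with coordinate `exp(2πiτ/N)`. -/
def cuspChart (N : ℕ) [NeZero N] : Chart where
  Y := ℍ
  pt := id
  z := qN N
  z_ne := qN_ne_zero N
  uniq := by
    intro E h
    refine LSum.eq_zero_of_forall 1 one_pos (fun z hz hz1 => ?_)
    have hN : (0 : ℝ) < N := by exact_mod_cast Nat.pos_of_ne_zero (NeZero.ne N)
    have him : 0 < (Function.Periodic.invQParam (N : ℝ) z).im := by
      rw [Function.Periodic.im_invQParam]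
      have hlog : Real.log ‖z‖ < 0 := Real.log_neg (norm_pos_iff.mpr hz) hz1
      have : -(N : ℝ) / (2 * Real.pi) < 0 := by
        have := Real.pi_pos
        exact div_neg_of_neg_of_pos (by linarith) (by positivity)
      exact mul_pos_of_neg_of_neg this hlog
    have h1 := h ⟨Function.Periodic.invQParam (N : ℝ) z, him⟩
    have e : qN N ⟨Function.Periodic.invQParam (N : ℝ) z, him⟩ = z :=
      Function.Periodic.qParam_right_inv hN.ne' hz
    rw [e] at h1
    exact h1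
  cov := fun τ _ _ => Or.inl ⟨τ, rfl⟩

/-! ### Polynomial expressions in the `j(dτ)` -/

/-- The field of constants. -/
abbrev Kbar : Type := AlgebraicClosure ℚ

/-- The divisors of `N` as an index type. -/
abbrev Dv (N : ℕ) : Type := {d : ℕ // d ∣ N}

theorem Dv.pos {N : ℕ} [NeZero N] (d : Dv N) : 0 < (d : ℕ) :=
  Nat.pos_of_dvd_of_pos d.2 (Nat.pos_of_ne_zero (NeZero.ne N))

instance dvNeZero {N : ℕ} [NeZero N] (d : Dv N) : NeZero (d : ℕ) := ⟨d.pos.ne'⟩

section Poly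

variable (N : ℕ) [NeZero N]

/-- The formal generators `j(q^d)`, `d ∣ N`, of the function field. -/
def jK (d : Dv N) : LaurentSeries Kbar :=
  ModularCurve.coeffEmb Kbar (ModularCurve.qExpand ℚ (d : ℕ) ModularCurve.jq)

/-- The functions `τ ↦ J(d · gτ)`. -/
def genFun (J : ℍ → ℂ) (g : SL(2, ℤ)) (d : Dv N) (τ : ℍ) : ℂ := J (dPt d d.pos (g • τ))

/-- Evaluation of a polynomial in the generators on the functions `τ ↦ J(d · gτ)`. -/
def evFun (J : ℍ → ℂ) (κ : Kbar →+* ℂ) (g : SL(2, ℤ)) (P : MvPolynomial (Dv N) Kbar) (τ : ℍ) : ℂ :=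
  MvPolynomial.eval₂ κ (fun d => genFun N J g d τ) P

/-- Evaluation of a polynomial in the generators on a family of Laurent series. -/
def evSer (κ : Kbar →+* ℂ) (gen : Dv N → LaurentSeries ℂ) :
    MvPolynomial (Dv N) Kbar →+* LaurentSeries ℂ :=
  MvPolynomial.eval₂Hom ((HahnSeries.C : ℂ →+* LaurentSeries ℂ).comp κ) gen

variable {N}

theorem evFun_smul (J : ℍ → ℂ) (κ : Kbar →+* ℂ) (g : SL(2, ℤ)) (P : MvPolynomial (Dv N) Kbar)
    (τ : ℍ) : evFun N J κ g P τ = evFun N J κ 1 P (g • τ) := by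
  simp [evFun, genFun]

theorem hasExp_evFun {J : ℍ → ℂ} (κ : Kbar →+* ℂ) (c : Chart) (g : SL(2, ℤ))
    (gen : Dv N → LaurentSeries ℂ) (hgen : ∀ d, HasExp c (genFun N J g d) (gen d))
    (P : MvPolynomial (Dv N) Kbar) : HasExp c (evFun N J κ g P) (evSer N κ gen P) := by
  intro y
  induction P using MvPolynomial.induction_on with
  | C a =>
    have h := LSum.C (c.z y) (κ a)
    simpa [evFun, evSer] using h
  | add p q hp hq =>
    have h := hp.add hq
    simpa [evFun, evSer] using h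
  | mul_X p d hp =>
    have h := hp.mul (c.z_ne y) (hgen d y)
    simpa [evFun, evSer] using h

theorem dPt_gamma0 (d : Dv N) (γ : SL(2, ℤ)) (hγ : γ ∈ CongruenceSubgroup.Gamma0 N) :
    ∃ γ' : SL(2, ℤ), ∀ τ : ℍ, dPt d d.pos (γ • τ) = γ' • dPt d d.pos τ := by
  rw [CongruenceSubgroup.Gamma0_mem] at hγ
  have hN : (N : ℤ) ∣ γ 1 0 := (ZMod.intCast_zmod_eq_zero_iff_dvd _ _).mp hγ
  have hd : ((d : ℕ) : ℤ) ∣ γ 1 0 := (Int.natCast_dvd_natCast.mpr d.2).trans hN
  obtain ⟨c', hc'⟩ := hd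
  have hdet : γ 0 0 * γ 1 1 - γ 0 1 * γ 1 0 = 1 := by
    have := γ.det_coe
    rwa [Matrix.det_fin_two] at this
  let γ' : SL(2, ℤ) := ⟨!![γ 0 0, (d : ℕ) * γ 0 1; c', γ 1 1], by
    rw [Matrix.det_fin_two]
    simp only [Matrix.of_apply, Matrix.cons_val', Matrix.cons_val_zero, Matrix.cons_val_one,
      Matrix.cons_val_fin_one]
    rw [hc'] at hdet
    linarith⟩
  refine ⟨γ', fun τ => ?_⟩
  unfold dPt
  refine triGL_rel γ γ' (d : ℕ) (d : ℕ) 1 0 _ _ _ ?_ ?_ ?_ ?_ τ
  · show ((γ 0 0 : ℤ) : ℝ) * ((d : ℕ) : ℝ) = ((d : ℕ) : ℝ) * (γ 0 0 : ℝ)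
    ring
  · show ((γ 0 0 : ℤ) : ℝ) * 0 + ((((d : ℕ) : ℤ) * γ 0 1 : ℤ) : ℝ) * 1 = ((d : ℕ) : ℝ) * (γ 0 1 : ℝ)
    push_cast
    ring
  · show ((c' : ℤ) : ℝ) * ((d : ℕ) : ℝ) = (γ 1 0 : ℝ)
    rw [hc']
    push_cast
    ring
  · show ((c' : ℤ) : ℝ) * 0 + ((γ 1 1 : ℤ) : ℝ) * 1 = (γ 1 1 : ℝ)
    ring

theorem genFun_gamma0 {J : ℍ → ℂ} (hJ : JHyp J) (d : Dv N) (γ : SL(2, ℤ))
    (hγ : γ ∈ CongruenceSubgroup.Gamma0 N) (g : SL(2, ℤ)) (τ : ℍ) :
    genFun N J (γ * g) d τ = genFun N J g d τ := by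
  obtain ⟨γ', hγ'⟩ := dPt_gamma0 d γ hγ
  unfold genFun
  rw [mul_smul, hγ', hJ.inv]

theorem evFun_gamma0 {J : ℍ → ℂ} (hJ : JHyp J) (κ : Kbar →+* ℂ) (γ : SL(2, ℤ))
    (hγ : γ ∈ CongruenceSubgroup.Gamma0 N) (g : SL(2, ℤ)) (P : MvPolynomial (Dv N) Kbar) (τ : ℍ) :
    evFun N J κ (γ * g) P τ = evFun N J κ g P τ := by
  unfold evFun
  congr 1
  funext d
  exact genFun_gamma0 hJ d γ hγ g τ

omit [NeZero N] in
theorem T_mem_gamma0 : ModularGroup.T ∈ CongruenceSubgroup.Gamma0 N := by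
  rw [CongruenceSubgroup.Gamma0_mem]
  simp [ModularGroup.T]

theorem T_smul_ne (τ : ℍ) : ModularGroup.T • τ ≠ τ := by
  intro h
  have h1 := congrArg UpperHalfPlane.re h
  rw [UpperHalfPlane.modular_T_smul, UpperHalfPlane.vadd_re] at h1
  linarith

/-- Key transport statement: a polynomial relation holds for the expansions in a chart
(for the conjugate by `g`) iff it holds for the functions `J(dτ)` on all of `ℍ`. -/
theorem evSer_eq_zero_iff {J : ℍ → ℂ} (hJ : JHyp J) (κ : Kbar →+* ℂ) (c : Chart) (g : SL(2, ℤ))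
    (gen : Dv N → LaurentSeries ℂ) (hgen : ∀ d, HasExp c (genFun N J g d) (gen d))
    (P : MvPolynomial (Dv N) Kbar) :
    evSer N κ gen P = 0 ↔ ∀ τ, evFun N J κ 1 P τ = 0 := by
  have hexp := hasExp_evFun κ c g gen hgen P
  constructor
  · intro h0 τ1
    rw [h0] at hexp
    have hT : evFun N J κ 1 P (ModularGroup.T • τ1) = evFun N J κ 1 P τ1 := by
      have := evFun_gamma0 hJ κ ModularGroup.T T_mem_gamma0 1 P τ1
      rw [evFun_smul, mul_one] at this
      exact this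
    have hne : g⁻¹ • τ1 ≠ g⁻¹ • (ModularGroup.T • τ1) := by
      intro h
      have := congrArg (fun x => g • x) h
      simp only [smul_inv_smul] at this
      exact T_smul_ne τ1 this.symm
    rcases c.cov _ _ hne with ⟨y, hy⟩ | ⟨y, hy⟩
    · have := hexp.eq_zero y
      rw [evFun_smul, hy, smul_inv_smul] at this
      exact this
    · have := hexp.eq_zero y
      rw [evFun_smul, hy, smul_inv_smul] at this
      rw [← hT]
      exact this
  · intro h0
    refine HasExp.unique hexp (fun y => ?_)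
    rw [evFun_smul, h0]
    exact LSum.zero _

end Poly


/-! ### The base expansions at the cusp and the kernel of `aeval jK` -/

section Base

variable (N : ℕ) [NeZero N]

/-- The expansion of `τ ↦ J(dτ)` in the parameter `exp(2πiτ/N)`. -/
def baseGen (d : Dv N) : LaurentSeries ℂ := ModularCurve.qExpand ℂ (N * (d : ℕ)) jqC

variable {N}

theorem hasExp_baseGen {J : ℍ → ℂ} (hJ : JHyp J) (d : Dv N) :
    HasExp (cuspChart N) (genFun N J 1 d) (baseGen N d) := by
  intro (τ : ℍ)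
  have h := lsum_base hJ N d d.pos τ
  show LSum (qN N τ) (baseGen N d) (J (dPt d d.pos ((1 : SL(2, ℤ)) • τ)))
  rw [one_smul]
  exact h

theorem coeffMap_injective {R S : Type*} [Field R] [Field S] (f : R →+* S) :
    Function.Injective (ModularCurve.coeffMap f) := by
  intro x y h
  ext k
  have := congrArg (fun E => HahnSeries.coeff E k) h
  exact f.injective (by simpa using this)

theorem evSer_baseGen (κ : Kbar →+* ℂ) (P : MvPolynomial (Dv N) Kbar) :
    evSer N κ (baseGen N) P =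
      ModularCurve.qExpand ℂ N (ModularCurve.coeffMap κ (MvPolynomial.aeval (jK N) P)) := by
  induction P using MvPolynomial.induction_on with
  | C a =>
    simp only [evSer, MvPolynomial.coe_eval₂Hom, MvPolynomial.eval₂_C, RingHom.comp_apply,
      MvPolynomial.aeval_C]
    rw [ModularCurve.algebraMap_laurentSeries_eq_single, ModularCurve.coeffMap_single,
      ModularCurve.qExpand_single, mul_zero]
    rfl
  | add p q hp hq =>
    rw [map_add, map_add, map_add, map_add, hp, hq]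
  | mul_X p d hp =>
    rw [map_mul, map_mul, map_mul, map_mul, hp]
    congr 1
    simp only [evSer, MvPolynomial.coe_eval₂Hom, MvPolynomial.eval₂_X, MvPolynomial.aeval_X]
    unfold baseGen jK jqC ModularCurve.coeffEmb
    rw [ModularCurve.coeffMap_coeffMap,
      show κ.comp (algebraMap ℚ Kbar) = algebraMap ℚ ℂ from Subsingleton.elim _ _,
      coeffMap_qExpand, ModularCurve.qExpand_qExpand]

theorem aeval_jK_eq_zero_iff {J : ℍ → ℂ} (hJ : JHyp J) (κ : Kbar →+* ℂ)
    (P : MvPolynomial (Dv N) Kbar) :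
    MvPolynomial.aeval (jK N) P = 0 ↔ ∀ τ, evFun N J κ 1 P τ = 0 := by
  rw [← evSer_eq_zero_iff hJ κ (cuspChart N) 1 (baseGen N) (hasExp_baseGen hJ) P, evSer_baseGen]
  constructor
  · intro h
    rw [h, map_zero, map_zero]
  · intro h
    have h1 := ModularCurve.qExpand_injective (R := ℂ) N (h.trans (map_zero _).symm)
    exact coeffMap_injective κ (h1.trans (map_zero _).symm)

end Base

/-! ### Generic lifting to a field generated by a family -/

section Lift

open scoped IntermediateField.algebraAdjoinAdjoin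

variable {K E L : Type*} [Field K] [Field E] [Algebra K E] [Field L] {σ : Type*}

theorem exists_lift_adjoin (v : σ → E) (κ' : K →+* L) (gen : σ → L)
    (hker : ∀ P : MvPolynomial σ K,
      MvPolynomial.aeval v P = 0 ↔ MvPolynomial.eval₂ κ' gen P = 0) :
    ∃ φ : ↥(IntermediateField.adjoin K (Set.range v)) →+* L,
      ∀ (P : MvPolynomial σ K)
        (hP : MvPolynomial.aeval v P ∈ IntermediateField.adjoin K (Set.range v)),
        φ ⟨MvPolynomial.aeval v P, hP⟩ = MvPolynomial.eval₂ κ' gen P := by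
  have hrange : ∀ P : MvPolynomial σ K,
      MvPolynomial.aeval v P ∈ Algebra.adjoin K (Set.range v) := by
    intro P
    rw [Algebra.adjoin_range_eq_range_aeval]
    exact ⟨P, rfl⟩
  let f : MvPolynomial σ K →+* ↥(Algebra.adjoin K (Set.range v)) :=
    ((MvPolynomial.aeval v).codRestrict _ hrange).toRingHom
  have hf : Function.Surjective f := by
    rintro ⟨x, hx⟩
    have hx' := hx
    rw [Algebra.adjoin_range_eq_range_aeval] at hx'
    obtain ⟨P, rfl⟩ := hx'
    exact ⟨P, rfl⟩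
  let g : MvPolynomial σ K →+* L := MvPolynomial.eval₂Hom κ' gen
  have hfg : RingHom.ker f ≤ RingHom.ker g := by
    intro P hP
    rw [RingHom.mem_ker] at hP ⊢
    have h0 : MvPolynomial.aeval v P = 0 := congrArg Subtype.val hP
    exact (hker P).mp h0
  let ψ : ↥(Algebra.adjoin K (Set.range v)) →+* L := f.liftOfSurjective hf ⟨g, hfg⟩
  have hψ : ∀ P, ψ (f P) = g P := fun P => f.liftOfRightInverse_comp_apply _ _ ⟨g, hfg⟩ P
  have hψinj : Function.Injective ψ := by
    rw [injective_iff_map_eq_zero]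
    intro x hx
    obtain ⟨P, rfl⟩ := hf x
    rw [hψ] at hx
    have h0 := (hker P).mpr hx
    exact Subtype.ext h0
  refine ⟨IsFractionRing.lift hψinj, fun P hP => ?_⟩
  have e : (⟨MvPolynomial.aeval v P, hP⟩ : ↥(IntermediateField.adjoin K (Set.range v))) =
      algebraMap ↥(Algebra.adjoin K (Set.range v)) _ (f P) := rfl
  rw [e, IsFractionRing.lift_algebraMap, hψ]
  rfl

theorem ringHom_ext_adjoin (v : σ → E)
    (f1 f2 : ↥(IntermediateField.adjoin K (Set.range v)) →+* L)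
    (hc : ∀ a : K, f1 (algebraMap K _ a) = f2 (algebraMap K _ a))
    (hv : ∀ i, f1 ⟨v i, IntermediateField.subset_adjoin K _ ⟨i, rfl⟩⟩ =
      f2 ⟨v i, IntermediateField.subset_adjoin K _ ⟨i, rfl⟩⟩) : f1 = f2 := by
  ext ⟨x, hx⟩
  induction hx using IntermediateField.adjoin_induction with
  | mem y hy =>
    obtain ⟨i, rfl⟩ := hy
    exact hv i
  | algebraMap a => exact hc a
  | add x y hx hy ihx ihy =>
    have e : (⟨x + y, add_mem hx hy⟩ : ↥(IntermediateField.adjoin K (Set.range v))) =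
        ⟨x, hx⟩ + ⟨y, hy⟩ := rfl
    rw [e, map_add, map_add, ihx, ihy]
  | inv x hx ih =>
    have e : (⟨x⁻¹, inv_mem hx⟩ : ↥(IntermediateField.adjoin K (Set.range v))) =
        (⟨x, hx⟩ : ↥(IntermediateField.adjoin K (Set.range v)))⁻¹ := rfl
    rw [e, map_inv₀, map_inv₀, ih]
  | mul x y hx hy ihx ihy =>
    have e : (⟨x * y, mul_mem hx hy⟩ : ↥(IntermediateField.adjoin K (Set.range v))) =
        ⟨x, hx⟩ * ⟨y, hy⟩ := rfl
    rw [e, map_mul, map_mul, ihx, ihy]

theorem exists_lift_of_eq_adjoin (F : IntermediateField K E) (v : σ → E)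
    (hF : F = IntermediateField.adjoin K (Set.range v)) (κ' : K →+* L) (gen : σ → L)
    (hker : ∀ P : MvPolynomial σ K,
      MvPolynomial.aeval v P = 0 ↔ MvPolynomial.eval₂ κ' gen P = 0) :
    ∃ φ : ↥F →+* L, ∀ (P : MvPolynomial σ K) (hP : MvPolynomial.aeval v P ∈ F),
        φ ⟨MvPolynomial.aeval v P, hP⟩ = MvPolynomial.eval₂ κ' gen P := by
  subst hF
  exact exists_lift_adjoin v κ' gen hker

theorem ringHom_ext_of_eq_adjoin (F : IntermediateField K E) (v : σ → E)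
    (hF : F = IntermediateField.adjoin K (Set.range v)) (f1 f2 : ↥F →+* L)
    (hc : ∀ a : K, f1 (algebraMap K _ a) = f2 (algebraMap K _ a))
    (hv : ∀ (i : σ) (hi : v i ∈ F), f1 ⟨v i, hi⟩ = f2 ⟨v i, hi⟩) : f1 = f2 := by
  subst hF
  exact ringHom_ext_adjoin v f1 f2 hc (fun i => hv i _)

end Lift

/-! ### The function field is generated by the `jK d` -/

section Field

variable (N : ℕ) [NeZero N]

theorem jK_mem (d : Dv N) : jK N d ∈ ModularCurve.modularFunctionFieldBar N :=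
  ModularCurve.coeffEmb_mem_laurentBaseChange Kbar (ModularCurve.jqd_mem_full N d.2)

theorem bar_eq_adjoin :
    ModularCurve.modularFunctionFieldBar N = IntermediateField.adjoin Kbar (Set.range (jK N)) := by
  apply le_antisymm
  · show ModularCurve.laurentBaseChange Kbar (ModularCurve.modularFunctionFieldFull N) ≤ _
    unfold ModularCurve.laurentBaseChange
    rw [IntermediateField.adjoin_le_iff]
    have key : ∀ x ∈ IntermediateField.adjoin ℚ (ModularCurve.divisorExpansions N),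
        ModularCurve.coeffEmb Kbar x ∈ IntermediateField.adjoin Kbar (Set.range (jK N)) := by
      intro x hx
      induction hx using IntermediateField.adjoin_induction with
      | mem y hy =>
        obtain ⟨d, hne, hdN, rfl⟩ := hy
        exact IntermediateField.subset_adjoin Kbar _ ⟨⟨d, hdN⟩, rfl⟩
      | algebraMap r =>
        have e : ModularCurve.coeffEmb Kbar (algebraMap ℚ (LaurentSeries ℚ) r) =
            algebraMap Kbar (LaurentSeries Kbar) (algebraMap ℚ Kbar r) := by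
          rw [ModularCurve.algebraMap_laurentSeries_eq_single,
            ModularCurve.algebraMap_laurentSeries_eq_single]
          exact ModularCurve.coeffMap_single _ _ _
        rw [e]
        exact IntermediateField.algebraMap_mem _ _
      | add x y hx hy ihx ihy =>
        rw [map_add]
        exact add_mem ihx ihy
      | inv x hx ih =>
        rw [map_inv₀]
        exact inv_mem ih
      | mul x y hx hy ihx ihy =>
        rw [map_mul]
        exact mul_mem ihx ihy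
    rintro _ ⟨x, hx, rfl⟩
    exact key x hx
  · rw [IntermediateField.adjoin_le_iff]
    rintro _ ⟨d, rfl⟩
    exact jK_mem N d

end Field

/-! ### Embeddings attached to a chart -/

section Emb

variable {N : ℕ} [NeZero N]

theorem exists_emb {J : ℍ → ℂ} (hJ : JHyp J) (κ : Kbar →+* ℂ) (c : Chart) (g : SL(2, ℤ))
    (gen : Dv N → LaurentSeries ℂ) (hgen : ∀ d, HasExp c (genFun N J g d) (gen d)) :
    ∃ φ : ↥(ModularCurve.modularFunctionFieldBar N) →+* LaurentSeries ℂ,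
      ∀ (P : MvPolynomial (Dv N) Kbar)
        (hP : MvPolynomial.aeval (jK N) P ∈ ModularCurve.modularFunctionFieldBar N),
        φ ⟨MvPolynomial.aeval (jK N) P, hP⟩ = evSer N κ gen P := by
  refine exists_lift_of_eq_adjoin _ (jK N) (bar_eq_adjoin N)
    ((HahnSeries.C : ℂ →+* LaurentSeries ℂ).comp κ) gen (fun P => ?_)
  rw [aeval_jK_eq_zero_iff hJ κ P]
  exact (evSer_eq_zero_iff hJ κ c g gen hgen P).symm

/-- All the functions `τ ↦ J(d · gτ)` have Laurent expansions in the chart `c`. -/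
def Expandable (N : ℕ) [NeZero N] (J : ℍ → ℂ) (c : Chart) : Prop :=
  ∀ (g : SL(2, ℤ)) (d : Dv N), ∃ E, HasExp c (genFun N J g d) E

/-- The expansion of `τ ↦ J(d · gτ)` in the chart. -/
def genOf {J : ℍ → ℂ} {c : Chart} (hE : Expandable N J c) (g : SL(2, ℤ)) (d : Dv N) :
    LaurentSeries ℂ := (hE g d).choose

theorem hasExp_genOf {J : ℍ → ℂ} {c : Chart} (hE : Expandable N J c) (g : SL(2, ℤ)) (d : Dv N) :
    HasExp c (genFun N J g d) (genOf hE g d) := (hE g d).choose_spec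

/-- The embedding of the function field into Laurent series attached to `g` and a chart. -/
def embOf {J : ℍ → ℂ} (hJ : JHyp J) (κ : Kbar →+* ℂ) {c : Chart} (hE : Expandable N J c)
    (g : SL(2, ℤ)) : ↥(ModularCurve.modularFunctionFieldBar N) →+* LaurentSeries ℂ :=
  (exists_emb hJ κ c g (genOf hE g) (hasExp_genOf hE g)).choose

theorem embOf_aeval {J : ℍ → ℂ} (hJ : JHyp J) (κ : Kbar →+* ℂ) {c : Chart}
    (hE : Expandable N J c) (g : SL(2, ℤ)) (P : MvPolynomial (Dv N) Kbar)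
    (hP : MvPolynomial.aeval (jK N) P ∈ ModularCurve.modularFunctionFieldBar N) :
    embOf hJ κ hE g ⟨MvPolynomial.aeval (jK N) P, hP⟩ = evSer N κ (genOf hE g) P :=
  (exists_emb hJ κ c g (genOf hE g) (hasExp_genOf hE g)).choose_spec P hP

theorem embOf_algebraMap {J : ℍ → ℂ} (hJ : JHyp J) (κ : Kbar →+* ℂ) {c : Chart}
    (hE : Expandable N J c) (g : SL(2, ℤ)) (a : Kbar) :
    embOf hJ κ hE g (algebraMap Kbar ↥(ModularCurve.modularFunctionFieldBar N) a) =
      HahnSeries.C (κ a) := by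
  have hmem : MvPolynomial.aeval (jK N) (MvPolynomial.C a : MvPolynomial (Dv N) Kbar) ∈
      ModularCurve.modularFunctionFieldBar N := by
    rw [MvPolynomial.aeval_C]
    exact IntermediateField.algebraMap_mem _ a
  have e : algebraMap Kbar ↥(ModularCurve.modularFunctionFieldBar N) a =
      ⟨MvPolynomial.aeval (jK N) (MvPolynomial.C a : MvPolynomial (Dv N) Kbar), hmem⟩ :=
    Subtype.ext (MvPolynomial.aeval_C (jK N) a).symm
  rw [e, embOf_aeval]
  simp [evSer]

theorem embOf_jK {J : ℍ → ℂ} (hJ : JHyp J) (κ : Kbar →+* ℂ) {c : Chart}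
    (hE : Expandable N J c) (g : SL(2, ℤ)) (d : Dv N)
    (hd : jK N d ∈ ModularCurve.modularFunctionFieldBar N) :
    embOf hJ κ hE g ⟨jK N d, hd⟩ = genOf hE g d := by
  have hmem : MvPolynomial.aeval (jK N) (MvPolynomial.X d : MvPolynomial (Dv N) Kbar) ∈
      ModularCurve.modularFunctionFieldBar N := by
    rw [MvPolynomial.aeval_X]
    exact hd
  have e : (⟨jK N d, hd⟩ : ↥(ModularCurve.modularFunctionFieldBar N)) =
      ⟨MvPolynomial.aeval (jK N) (MvPolynomial.X d : MvPolynomial (Dv N) Kbar), hmem⟩ :=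
    Subtype.ext (MvPolynomial.aeval_X (jK N) d).symm
  rw [e, embOf_aeval]
  simp [evSer]

/-- Two ring homomorphisms out of the function field agreeing on constants and on the
generators `jK d` are equal. -/
theorem ringHom_ext_bar {L : Type*} [Field L]
    (f1 f2 : ↥(ModularCurve.modularFunctionFieldBar N) →+* L)
    (hc : ∀ a : Kbar, f1 (algebraMap Kbar _ a) = f2 (algebraMap Kbar _ a))
    (hv : ∀ d : Dv N, f1 ⟨jK N d, jK_mem N d⟩ = f2 ⟨jK N d, jK_mem N d⟩) : f1 = f2 :=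
  ringHom_ext_of_eq_adjoin _ (jK N) (bar_eq_adjoin N) f1 f2 hc (fun d _ => hv d)

theorem embOf_gamma0 {J : ℍ → ℂ} (hJ : JHyp J) (κ : Kbar →+* ℂ) {c : Chart}
    (hE : Expandable N J c) (γ : SL(2, ℤ)) (hγ : γ ∈ CongruenceSubgroup.Gamma0 N)
    (g : SL(2, ℤ)) : embOf hJ κ hE (γ * g) = embOf hJ κ hE g := by
  refine ringHom_ext_bar _ _ (fun a => ?_) (fun d => ?_)
  · rw [embOf_algebraMap, embOf_algebraMap]
  · rw [embOf_jK, embOf_jK]
    refine HasExp.unique (hasExp_genOf hE (γ * g) d) ?_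
    have e : genFun N J (γ * g) d = genFun N J g d := funext (genFun_gamma0 hJ d γ hγ g)
    rw [e]
    exact hasExp_genOf hE g d

/-- Rotation rule: if the chart has a symmetry `r` covering `s ∈ SL(2, ℤ)` that multiplies the
coordinate by `ζ`, then the embedding for `g * s` is the `ζ`-twist of the embedding for `g`. -/
theorem embOf_rot {J : ℍ → ℂ} (hJ : JHyp J) (κ : Kbar →+* ℂ) {c : Chart}
    (hE : Expandable N J c) (s : SL(2, ℤ)) (ζ : ℂ) (hζ : ζ ≠ 0) (r : c.Y → c.Y)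
    (hpt : ∀ y, c.pt (r y) = s • c.pt y) (hz : ∀ y, c.z (r y) = ζ * c.z y) (g : SL(2, ℤ)) :
    embOf hJ κ hE (g * s) = (twist ζ hζ).comp (embOf hJ κ hE g) := by
  refine ringHom_ext_bar _ _ (fun a => ?_) (fun d => ?_)
  · rw [RingHom.comp_apply, embOf_algebraMap, embOf_algebraMap, twist_C]
  · rw [RingHom.comp_apply, embOf_jK, embOf_jK]
    refine HasExp.unique (hasExp_genOf hE (g * s) d) (fun y => ?_)
    rw [LSum.twist_iff]
    have h := hasExp_genOf hE g d (r y)
    rw [hz, hpt] at h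
    have e : genFun N J (g * s) d (c.pt y) = genFun N J g d (s • c.pt y) := by
      unfold genFun
      rw [mul_smul]
    rw [e]
    exact h

theorem dPt_one (τ : ℍ) : dPt 1 one_pos τ = τ := by
  apply UpperHalfPlane.ext
  rw [coe_dPt]
  simp

/-- The expansion of `j` itself does not depend on `g`. -/
theorem embOf_j {J : ℍ → ℂ} (hJ : JHyp J) (κ : Kbar →+* ℂ) {c : Chart}
    (hE : Expandable N J c) (g : SL(2, ℤ))
    (hd : jK N ⟨1, one_dvd N⟩ ∈ ModularCurve.modularFunctionFieldBar N) :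
    embOf hJ κ hE g ⟨jK N ⟨1, one_dvd N⟩, hd⟩ = genOf hE 1 ⟨1, one_dvd N⟩ := by
  rw [embOf_jK]
  refine HasExp.unique (hasExp_genOf hE g _) ?_
  have e : genFun N J g ⟨1, one_dvd N⟩ = genFun N J 1 ⟨1, one_dvd N⟩ := by
    funext τ
    unfold genFun
    rw [dPt_one, dPt_one, hJ.inv, hJ.inv]
  rw [e]
  exact hasExp_genOf hE 1 _

end Emb

/-! ### Expansions at the cusp, and injectivity on cosets -/

section Cusp

variable (N : ℕ) [NeZero N]

theorem hermite_d'_dvd (g : SL(2, ℤ)) (d : Dv N) : (hermiteData g d d.pos).d' ∣ N :=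
  (Dvd.intro_left _ (hermiteData g d d.pos).mul_eq).trans d.2

theorem hermite_exp_ne (g : SL(2, ℤ)) (d : Dv N) :
    N / (hermiteData g d d.pos).d' * (hermiteData g d d.pos).a ≠ 0 :=
  Nat.mul_ne_zero (Nat.div_pos (Nat.le_of_dvd (Nat.pos_of_ne_zero (NeZero.ne N))
    (hermite_d'_dvd N g d)) (hermiteData g d d.pos).hd').ne' (hermiteData g d d.pos).ha.ne'

/-- The expansion at the cusp of `τ ↦ J(d · gτ)`, namely `jq(ζ^b t^(N a / d'))` for the
Hermite form `[[a, b], [0, d']]` of `[[d, 0], [0, 1]] g`. -/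
def cuspGen (g : SL(2, ℤ)) (d : Dv N) : LaurentSeries ℂ :=
  haveI : NeZero (N / (hermiteData g d d.pos).d' * (hermiteData g d d.pos).a) :=
    ⟨hermite_exp_ne N g d⟩
  ModularCurve.qExpand ℂ (N / (hermiteData g d d.pos).d' * (hermiteData g d d.pos).a)
    (twist (Complex.exp (2 * Real.pi * Complex.I * (hermiteData g d d.pos).b /
      (hermiteData g d d.pos).d')) (Complex.exp_ne_zero _) jqC)

variable {N}

theorem hasExp_cuspGen {J : ℍ → ℂ} (hJ : JHyp J) (g : SL(2, ℤ)) (d : Dv N) :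
    HasExp (cuspChart N) (genFun N J g d) (cuspGen N g d) := by
  intro (τ : ℍ)
  show LSum (qN N τ) (cuspGen N g d) (J (dPt d d.pos (g • τ)))
  rw [(hermiteData g d d.pos).rel τ, hJ.inv]
  exact lsum_tri hJ N _ _ _ _ _ (hermite_d'_dvd N g d) τ

theorem expandable_cusp {J : ℍ → ℂ} (hJ : JHyp J) : Expandable N J (cuspChart N) :=
  fun g d => ⟨cuspGen N g d, hasExp_cuspGen hJ g d⟩

theorem jqC_coeff_neg_one : jqC.coeff (-1) = 1 := by
  simp [jqC]

theorem jqC_coeff_of_lt {k : ℤ} (hk : k < -1) : jqC.coeff k = 0 := by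
  simp [jqC, ModularCurve.coeff_jq_of_lt hk]

theorem cuspGen_coeff_ne (g : SL(2, ℤ)) (d : Dv N) :
    (cuspGen N g d).coeff
      (-((N / (hermiteData g d d.pos).d' * (hermiteData g d d.pos).a : ℕ) : ℤ)) ≠ 0 := by
  haveI : NeZero (N / (hermiteData g d d.pos).d' * (hermiteData g d d.pos).a) :=
    ⟨hermite_exp_ne N g d⟩
  have e : -((N / (hermiteData g d d.pos).d' * (hermiteData g d d.pos).a : ℕ) : ℤ) =
      ((N / (hermiteData g d d.pos).d' * (hermiteData g d d.pos).a : ℕ) : ℤ) * (-1) := by ring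
  unfold cuspGen
  rw [e, ModularCurve.qExpand_coeff_mul, twist_coeff, jqC_coeff_neg_one, mul_one]
  exact zpow_ne_zero _ (Complex.exp_ne_zero _)

theorem baseGen_coeff_ne (d : Dv N) {k : ℤ} (hk : (baseGen N d).coeff k ≠ 0) :
    ((N * (d : ℕ) : ℕ) : ℤ) ∣ k ∧ -((N * (d : ℕ) : ℕ) : ℤ) ≤ k := by
  unfold baseGen at hk
  by_cases hdiv : ((N * (d : ℕ) : ℕ) : ℤ) ∣ k
  · refine ⟨hdiv, ?_⟩
    obtain ⟨m, rfl⟩ := hdiv
    rw [ModularCurve.qExpand_coeff_mul] at hk
    have hm : -1 ≤ m := by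
      by_contra hlt
      push Not at hlt
      exact hk (jqC_coeff_of_lt hlt)
    have hpos : (0 : ℤ) ≤ ((N * (d : ℕ) : ℕ) : ℤ) := Int.natCast_nonneg _
    nlinarith
  · exact absurd (ModularCurve.qExpand_coeff_of_not_dvd _ _ hdiv) hk

/-- (E5) If `J(N · hτ) = J(Nτ)` for all `τ` of large imaginary part, then `h ∈ Γ₀(N)`. -/
theorem gamma0_of_genFun_eq {J : ℍ → ℂ} (hJ : JHyp J) (h : SL(2, ℤ)) (c0 : ℝ)
    (heq : ∀ τ : ℍ, c0 < τ.im → genFun N J h ⟨N, dvd_rfl⟩ τ = genFun N J 1 ⟨N, dvd_rfl⟩ τ) :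
    h ∈ CongruenceSubgroup.Gamma0 N := by
  set dN : Dv N := ⟨N, dvd_rfl⟩ with hdN
  have hE1 := hasExp_cuspGen hJ h dN
  have hE2 := hasExp_baseGen hJ dN
  have hNpos : (0 : ℝ) < N := by exact_mod_cast Nat.pos_of_ne_zero (NeZero.ne N)
  have hpi := Real.pi_pos
  have hEq : cuspGen N h dN = baseGen N dN := by
    refine LSum.ext_of_forall (min 1 (Real.exp (-2 * Real.pi * c0 / N))) (by positivity)
      (fun z hz hzr => ?_)
    have hz1 : ‖z‖ < 1 := lt_of_lt_of_le hzr (min_le_left _ _)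
    have hz2 : ‖z‖ < Real.exp (-2 * Real.pi * c0 / N) := lt_of_lt_of_le hzr (min_le_right _ _)
    have hlog1 : Real.log ‖z‖ < 0 := Real.log_neg (norm_pos_iff.mpr hz) hz1
    have hlog2 : Real.log ‖z‖ < -2 * Real.pi * c0 / N := by
      have := Real.log_lt_log (norm_pos_iff.mpr hz) hz2
      rwa [Real.log_exp] at this
    have hneg : -(N : ℝ) / (2 * Real.pi) < 0 := div_neg_of_neg_of_pos (by linarith) (by positivity)
    have him : 0 < (Function.Periodic.invQParam (N : ℝ) z).im := by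
      rw [Function.Periodic.im_invQParam]
      exact mul_pos_of_neg_of_neg hneg hlog1
    have hc0 : c0 < (Function.Periodic.invQParam (N : ℝ) z).im := by
      rw [Function.Periodic.im_invQParam]
      have h4 : -(N : ℝ) / (2 * Real.pi) * (-2 * Real.pi * c0 / N) = c0 := by
        field_simp
      rw [← h4]
      exact mul_lt_mul_of_neg_left hlog2 hneg
    set τ : ℍ := ⟨Function.Periodic.invQParam (N : ℝ) z, him⟩ with hτ
    have e : qN N τ = z := Function.Periodic.qParam_right_inv hNpos.ne' hz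
    refine ⟨genFun N J h dN τ, ?_, ?_⟩
    · have h1 : LSum (qN N τ) (cuspGen N h dN) (genFun N J h dN τ) := hE1 τ
      rwa [e] at h1
    · have h1 : LSum (qN N τ) (baseGen N dN) (genFun N J 1 dN τ) := hE2 τ
      rw [e, ← heq τ hc0] at h1
      exact h1
  have hne := cuspGen_coeff_ne h dN
  rw [hEq] at hne
  obtain ⟨hdvd, -⟩ := baseGen_coeff_ne dN hne
  rw [dvd_neg, Int.natCast_dvd_natCast] at hdvd
  set H := hermiteData h dN dN.pos with hH
  have hmul : H.a * H.d' = N := H.mul_eq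
  have hdiv : N / H.d' = H.a := Nat.div_eq_of_eq_mul_left H.hd' hmul.symm
  have hdvd' : N * N ∣ H.a * H.a := by
    have : N * (dN : ℕ) ∣ N / H.d' * H.a := hdvd
    rwa [hdiv] at this
  have hNa : N ∣ H.a := by
    rw [← pow_two, ← pow_two] at hdvd'
    exact (Nat.pow_dvd_pow_iff two_ne_zero).mp hdvd'
  have haN : H.a = N := Nat.dvd_antisymm (Dvd.intro _ hmul) hNa
  have hgcd : (N : ℤ) ∣ h 1 0 := by
    have h1 : ((Int.gcd ((dN : ℕ) : ℤ) (h 1 0) : ℕ) : ℤ) ∣ h 1 0 := Int.gcd_dvd_right _ _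
    rw [← H.a_eq, haN] at h1
    exact h1
  rw [CongruenceSubgroup.Gamma0_mem]
  exact (ZMod.intCast_zmod_eq_zero_iff_dvd _ _).mpr hgcd

/-- Injectivity on cosets: embeddings attached to `g` and `g'` coincide only if
`g * g'⁻¹ ∈ Γ₀(N)`. -/
theorem embOf_inj {J : ℍ → ℂ} (hJ : JHyp J) (κ : Kbar →+* ℂ) {c : Chart}
    (hE : Expandable N J c) (g g' : SL(2, ℤ))
    (h : embOf hJ κ hE g = embOf hJ κ hE g') : g * g'⁻¹ ∈ CongruenceSubgroup.Gamma0 N := by
  set dN : Dv N := ⟨N, dvd_rfl⟩ with hdN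
  have hgen : genOf hE g dN = genOf hE g' dN := by
    have h1 := congrArg (fun φ => φ ⟨jK N dN, jK_mem N dN⟩) h
    simp only [embOf_jK] at h1
    exact h1
  have hval : ∀ y, genFun N J g dN (c.pt y) = genFun N J g' dN (c.pt y) := fun y =>
    (hasExp_genOf hE g dN y).unique_val (hgen ▸ hasExp_genOf hE g' dN y)
  obtain ⟨c0, hc0⟩ : ∃ c0 : ℝ, ∀ τ : ℍ, c0 < τ.im → g'⁻¹ • τ ∈ Set.range c.pt := by
    by_cases hall : ∀ τ : ℍ, τ ∈ Set.range c.pt
    · exact ⟨0, fun τ _ => hall _⟩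
    · push Not at hall
      obtain ⟨τ0, hτ0⟩ := hall
      refine ⟨(g' • τ0).im, fun τ hτ => ?_⟩
      have hne : g'⁻¹ • τ ≠ τ0 := by
        intro h1
        rw [← h1, smul_inv_smul] at hτ
        exact lt_irrefl _ hτ
      rcases c.cov _ _ hne with h2 | h2
      · exact h2
      · exact absurd h2 hτ0
  refine gamma0_of_genFun_eq hJ (g * g'⁻¹) c0 (fun τ hτ => ?_)
  obtain ⟨y, hy⟩ := hc0 τ hτ
  have e1 : genFun N J (g * g'⁻¹) dN τ = genFun N J g dN (g'⁻¹ • τ) := by
    unfold genFun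
    rw [mul_smul]
  have e2 : genFun N J 1 dN τ = genFun N J g' dN (g'⁻¹ • τ) := by
    unfold genFun
    rw [one_smul, smul_inv_smul]
  rw [e1, e2, ← hy, hval]

end Cusp

/-! ### The family indexed by cosets -/

section Coset

variable {N : ℕ} [NeZero N]

/-- The embedding attached to a coset `x = h Γ₀(N)`: expansions of `f ∘ h⁻¹`. -/
def cosetEmb {J : ℍ → ℂ} (hJ : JHyp J) (κ : Kbar →+* ℂ) {c : Chart} (hE : Expandable N J c)
    (x : SL(2, ℤ) ⧸ CongruenceSubgroup.Gamma0 N) :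
    ↥(ModularCurve.modularFunctionFieldBar N) →+* LaurentSeries ℂ :=
  embOf hJ κ hE (x.out)⁻¹

theorem cosetEmb_injective {J : ℍ → ℂ} (hJ : JHyp J) (κ : Kbar →+* ℂ) {c : Chart}
    (hE : Expandable N J c) : Function.Injective (cosetEmb hJ κ hE) := by
  intro x x' h
  have h1 := embOf_inj hJ κ hE (x.out)⁻¹ (x'.out)⁻¹ h
  rw [inv_inv] at h1
  have h2 : ((x.out : SL(2, ℤ)) : SL(2, ℤ) ⧸ CongruenceSubgroup.Gamma0 N) = x'.out :=
    QuotientGroup.eq.mpr h1
  rwa [QuotientGroup.out_eq', QuotientGroup.out_eq'] at h2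

theorem cosetEmb_algebraMap {J : ℍ → ℂ} (hJ : JHyp J) (κ : Kbar →+* ℂ) {c : Chart}
    (hE : Expandable N J c) (x : SL(2, ℤ) ⧸ CongruenceSubgroup.Gamma0 N) (a : Kbar) :
    cosetEmb hJ κ hE x (algebraMap Kbar ↥(ModularCurve.modularFunctionFieldBar N) a) =
      HahnSeries.C (κ a) :=
  embOf_algebraMap hJ κ hE _ a

theorem cosetEmb_rot {J : ℍ → ℂ} (hJ : JHyp J) (κ : Kbar →+* ℂ) {c : Chart}
    (hE : Expandable N J c) (s : SL(2, ℤ)) (ζ : ℂ) (hζ : ζ ≠ 0) (r : c.Y → c.Y)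
    (hpt : ∀ y, c.pt (r y) = s • c.pt y) (hz : ∀ y, c.z (r y) = ζ * c.z y)
    (x : SL(2, ℤ) ⧸ CongruenceSubgroup.Gamma0 N) :
    cosetEmb hJ κ hE (s⁻¹ • x) = (twist ζ hζ).comp (cosetEmb hJ κ hE x) := by
  unfold cosetEmb
  have h1 : (((s⁻¹ • x).out : SL(2, ℤ)) : SL(2, ℤ) ⧸ CongruenceSubgroup.Gamma0 N) =
      ((s⁻¹ * x.out : SL(2, ℤ)) : SL(2, ℤ) ⧸ CongruenceSubgroup.Gamma0 N) := by
    rw [QuotientGroup.out_eq']
    conv_lhs => rw [← QuotientGroup.out_eq' x]
    rfl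
  have h2 := QuotientGroup.eq.mp h1
  have e : ((s⁻¹ • x).out)⁻¹ = (((s⁻¹ • x).out)⁻¹ * (s⁻¹ * x.out)) * (x.out⁻¹ * s) := by group
  rw [e, embOf_gamma0 hJ κ hE _ h2, embOf_rot hJ κ hE s ζ hζ r hpt hz]

theorem cosetEmb_j {J : ℍ → ℂ} (hJ : JHyp J) (κ : Kbar →+* ℂ) {c : Chart}
    (hE : Expandable N J c) (x : SL(2, ℤ) ⧸ CongruenceSubgroup.Gamma0 N)
    (hj : ModularCurve.coeffEmb Kbar ModularCurve.jq ∈ ModularCurve.modularFunctionFieldBar N) :
    cosetEmb hJ κ hE x ⟨ModularCurve.coeffEmb Kbar ModularCurve.jq, hj⟩ =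
      genOf hE 1 ⟨1, one_dvd N⟩ := by
  have e : (⟨ModularCurve.coeffEmb Kbar ModularCurve.jq, hj⟩ :
      ↥(ModularCurve.modularFunctionFieldBar N)) =
      ⟨jK N ⟨1, one_dvd N⟩, jK_mem N ⟨1, one_dvd N⟩⟩ :=
    Subtype.ext (by
      show ModularCurve.coeffEmb Kbar ModularCurve.jq =
        ModularCurve.coeffEmb Kbar (ModularCurve.qExpand ℚ 1 ModularCurve.jq)
      rw [ModularCurve.qExpand_one_apply])
  rw [e]
  exact embOf_j hJ κ hE _ _

/-- Function-level description: the image of a polynomial `P(j_d)` under the embedding of the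
coset of `h` is the expansion in the chart of the function `P(J(d · h⁻¹τ))`. -/
theorem cosetEmb_hasExp {J : ℍ → ℂ} (hJ : JHyp J) (κ : Kbar →+* ℂ) {c : Chart}
    (hE : Expandable N J c) (x : SL(2, ℤ) ⧸ CongruenceSubgroup.Gamma0 N)
    (P : MvPolynomial (Dv N) Kbar)
    (hP : MvPolynomial.aeval (jK N) P ∈ ModularCurve.modularFunctionFieldBar N) :
    HasExp c (evFun N J κ (x.out)⁻¹ P)
      (cosetEmb hJ κ hE x ⟨MvPolynomial.aeval (jK N) P, hP⟩) := by
  unfold cosetEmb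
  rw [embOf_aeval]
  exact hasExp_evFun κ c _ _ (hasExp_genOf hE _) P

end Coset

/-! ### Main statement at the cusp (in the shape of the orbit-counting lemma) -/

section CuspMain

variable (N : ℕ) [NeZero N]

omit [NeZero N] in
theorem qN_T_smul (τ : ℍ) :
    qN N (ModularGroup.T • τ) = Complex.exp (2 * Real.pi * Complex.I / N) * qN N τ := by
  rw [UpperHalfPlane.modular_T_smul]
  unfold qN Function.Periodic.qParam
  rw [UpperHalfPlane.coe_vadd, ← Complex.exp_add]
  congr 1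
  push_cast
  ring

/-- **Embeddings at the cusp.** Given the analytic `j`-function `J` (invariance and
`q`-expansion), there is a family of embeddings of the function field of `X₀(N)` into
`ℂ((w))`, `w = q^(1/N)`, indexed by `SL(2, ℤ) ⧸ Γ₀(N)`, which is injective, restricts to `κ`
on constants, sends `j` to `jq(w^N)` for every index, and on which `T⁻¹` acts through the
rotation `w ↦ exp(2πi/N) w`. -/
theorem cusp_embeddings {J : ℍ → ℂ} (hJ : JHyp J) (κ : Kbar →+* ℂ) :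
    ∃ Φ : (SL(2, ℤ) ⧸ CongruenceSubgroup.Gamma0 N) →
        (↥(ModularCurve.modularFunctionFieldBar N) →+* LaurentSeries ℂ),
      Function.Injective Φ ∧
      (∀ x (a : Kbar), Φ x (algebraMap Kbar ↥(ModularCurve.modularFunctionFieldBar N) a) =
        HahnSeries.C (κ a)) ∧
      (∀ x (hj : ModularCurve.coeffEmb Kbar ModularCurve.jq ∈
          ModularCurve.modularFunctionFieldBar N),
        Φ x ⟨ModularCurve.coeffEmb Kbar ModularCurve.jq, hj⟩ = ModularCurve.qExpand ℂ N jqC) ∧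
      (∀ x (f : ↥(ModularCurve.modularFunctionFieldBar N)) (k : ℤ),
        (Φ (ModularGroup.T⁻¹ • x) f).coeff k =
          Complex.exp (2 * Real.pi * Complex.I / N) ^ k * (Φ x f).coeff k) ∧
      (∀ x (P : MvPolynomial (Dv N) Kbar)
        (hP : MvPolynomial.aeval (jK N) P ∈ ModularCurve.modularFunctionFieldBar N) (τ : ℍ),
        LSum (qN N τ) (Φ x ⟨MvPolynomial.aeval (jK N) P, hP⟩) (evFun N J κ (x.out)⁻¹ P τ)) := by
  refine ⟨cosetEmb hJ κ (expandable_cusp hJ), cosetEmb_injective hJ κ _,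
    cosetEmb_algebraMap hJ κ _, fun x hj => ?_, fun x f k => ?_, fun x P hP τ => ?_⟩
  · rw [cosetEmb_j]
    have h1 : genOf (expandable_cusp hJ) 1 ⟨1, one_dvd N⟩ = baseGen N ⟨1, one_dvd N⟩ :=
      HasExp.unique (hasExp_genOf _ _ _) (hasExp_baseGen hJ _)
    rw [h1]
    exact ModularCurve.qExpand_congr (mul_one N) jqC
  · have h := cosetEmb_rot hJ κ (expandable_cusp hJ) ModularGroup.T
      (Complex.exp (2 * Real.pi * Complex.I / N)) (Complex.exp_ne_zero _)
      (fun τ : ℍ => ModularGroup.T • τ) (fun _ => rfl) (fun τ => qN_T_smul N τ) x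
    rw [h]
    rfl
  · exact cosetEmb_hasExp hJ κ (expandable_cusp hJ) x P hP τ

end CuspMain

open scoped Manifold

/-! ### The Cayley chart at a point of the upper half plane -/

/-- The inverse Cayley transform centred at `τ0`: maps the unit disc onto `ℍ`, `0 ↦ τ0`. -/
def cay (τ0 : ℍ) (w : ℂ) : ℂ := ((τ0 : ℂ) - (starRingEnd ℂ) (τ0 : ℂ) * w) / (1 - w)

theorem one_sub_ne_zero_of_norm_lt {w : ℂ} (hw : ‖w‖ < 1) : 1 - w ≠ 0 := by
  intro h
  have : w = 1 := by linear_combination -h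
  rw [this] at hw
  simp at hw

theorem cay_im_pos (τ0 : ℍ) {w : ℂ} (hw : ‖w‖ < 1) : 0 < (cay τ0 w).im := by
  have hb : 0 < Complex.normSq (1 - w) := Complex.normSq_pos.mpr (one_sub_ne_zero_of_norm_lt hw)
  have hv : 0 < (τ0 : ℂ).im := τ0.im_pos
  have hw2 : Complex.normSq w < 1 := by
    rw [Complex.normSq_eq_norm_sq]
    nlinarith [norm_nonneg w]
  rw [cay, Complex.div_im, ← sub_div]
  apply div_pos _ hb
  have e : ((τ0 : ℂ) - (starRingEnd ℂ) (τ0 : ℂ) * w).im * (1 - w).re -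
      ((τ0 : ℂ) - (starRingEnd ℂ) (τ0 : ℂ) * w).re * (1 - w).im =
      (τ0 : ℂ).im * (1 - Complex.normSq w) := by
    simp [Complex.normSq_apply]
    ring
  rw [e]
  exact mul_pos hv (by linarith)

theorem exists_cay_eq (τ0 τ : ℍ) (h : τ ≠ τ0) :
    ∃ w : ℂ, w ≠ 0 ∧ ‖w‖ < 1 ∧ cay τ0 w = τ := by
  have hden : (τ : ℂ) - (starRingEnd ℂ) (τ0 : ℂ) ≠ 0 := by
    intro h0
    have := congrArg Complex.im h0
    simp at this
    have h1 := τ.im_pos
    have h2 := τ0.im_pos
    change (τ : ℂ).im + (τ0 : ℂ).im = 0 at this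
    linarith [τ.coe_im, τ0.coe_im]
  have hnum : (τ : ℂ) - (τ0 : ℂ) ≠ 0 := by
    intro h0
    exact h (UpperHalfPlane.ext (sub_eq_zero.mp h0))
  refine ⟨((τ : ℂ) - τ0) / ((τ : ℂ) - (starRingEnd ℂ) (τ0 : ℂ)), div_ne_zero hnum hden, ?_, ?_⟩
  · rw [norm_div, div_lt_one (norm_pos_iff.mpr hden)]
    have h1 : Complex.normSq ((τ : ℂ) - τ0) < Complex.normSq ((τ : ℂ) - (starRingEnd ℂ) (τ0 : ℂ)) := by
      have e : Complex.normSq ((τ : ℂ) - (starRingEnd ℂ) (τ0 : ℂ)) - Complex.normSq ((τ : ℂ) - τ0)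
          = 4 * (τ : ℂ).im * (τ0 : ℂ).im := by
        simp [Complex.normSq_apply]
        ring
      have hpos : 0 < 4 * (τ : ℂ).im * (τ0 : ℂ).im := by
        have h1 := τ.im_pos
        have h2 := τ0.im_pos
        have h1' : 0 < (τ : ℂ).im := h1
        have h2' : 0 < (τ0 : ℂ).im := h2
        positivity
      linarith
    rw [Complex.normSq_eq_norm_sq, Complex.normSq_eq_norm_sq] at h1
    exact lt_of_pow_lt_pow_left₀ 2 (norm_nonneg _) h1
  · unfold cay
    have h1 : (1 : ℂ) - ((τ : ℂ) - τ0) / ((τ : ℂ) - (starRingEnd ℂ) (τ0 : ℂ)) =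
        ((τ0 : ℂ) - (starRingEnd ℂ) (τ0 : ℂ)) / ((τ : ℂ) - (starRingEnd ℂ) (τ0 : ℂ)) := by
      field_simp
      ring
    have h2 : (τ0 : ℂ) - (starRingEnd ℂ) (τ0 : ℂ) ≠ 0 := by
      intro h0
      have := congrArg Complex.im h0
      simp at this
      exact τ0.im_pos.ne' this
    rw [h1]
    field_simp
    ring

/-- The Cayley chart at `τ0`: the punctured unit disc, mapped to `ℍ ∖ {τ0}`. -/
def finChart (τ0 : ℍ) : Chart where
  Y := {w : ℂ // w ≠ 0 ∧ ‖w‖ < 1}
  pt := fun w => ⟨cay τ0 w, cay_im_pos τ0 w.2.2⟩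
  z := fun w => w
  z_ne := fun w => w.2.1
  uniq := fun E h => LSum.eq_zero_of_forall 1 one_pos (fun z hz hz1 => h ⟨z, hz, hz1⟩)
  cov := by
    intro τ τ' hne
    by_cases h : τ = τ0
    · right
      have h' : τ' ≠ τ0 := fun h' => hne (h.trans h'.symm)
      obtain ⟨w, hw0, hw1, hw⟩ := exists_cay_eq τ0 τ' h'
      exact ⟨⟨w, hw0, hw1⟩, UpperHalfPlane.ext hw⟩
    · left
      obtain ⟨w, hw0, hw1, hw⟩ := exists_cay_eq τ0 τ h
      exact ⟨⟨w, hw0, hw1⟩, UpperHalfPlane.ext hw⟩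


theorem cay_differentiableOn (τ0 : ℍ) : DifferentiableOn ℂ (cay τ0) (Metric.ball 0 1) := by
  intro w hw
  have hw1 : ‖w‖ < 1 := by simpa using hw
  have h : DifferentiableAt ℂ (cay τ0) w := by
    unfold cay
    exact ((differentiableAt_const _).sub ((differentiableAt_const _).mul differentiableAt_id)).div
      ((differentiableAt_const _).sub differentiableAt_id) (one_sub_ne_zero_of_norm_lt hw1)
  exact h.differentiableWithinAt

/-- A holomorphic function on `ℍ` has a (Taylor) expansion in the Cayley chart. -/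
theorem exists_hasExp_finChart (τ0 : ℍ) (f : ℍ → ℂ) (hf : MDiff f) :
    ∃ E, HasExp (finChart τ0) f E := by
  have hf' := UpperHalfPlane.mdifferentiable_iff.mp hf
  set F : ℂ → ℂ := (f ∘ ofComplex) ∘ cay τ0 with hF
  have hFd : DifferentiableOn ℂ F (Metric.ball 0 1) :=
    hf'.comp (cay_differentiableOn τ0) (fun w hw => cay_im_pos τ0 (by simpa using hw))
  refine ⟨HahnSeries.ofPowerSeries ℤ ℂ
    (PowerSeries.mk fun n => (n.factorial : ℂ)⁻¹ * iteratedDeriv n F 0), fun y => ?_⟩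
  obtain ⟨w, hw0, hw1⟩ := y
  have hT := Complex.hasSum_taylorSeries_on_ball hFd (z := w) (by simpa using hw1)
  have hFw : F w = f ⟨cay τ0 w, cay_im_pos τ0 hw1⟩ := by
    simp only [hF, Function.comp_apply]
    rw [UpperHalfPlane.ofComplex_apply_of_im_pos (cay_im_pos τ0 hw1)]
  show LSum w _ (f ⟨cay τ0 w, cay_im_pos τ0 hw1⟩)
  rw [← hFw]
  unfold LSum
  have hinj : Function.Injective (fun n : ℕ => (n : ℤ)) := Nat.cast_injective
  refine (Function.Injective.hasSum_iff (f := fun k : ℤ => (HahnSeries.ofPowerSeries ℤ ℂ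
    (PowerSeries.mk fun n => (n.factorial : ℂ)⁻¹ * iteratedDeriv n F 0)).coeff k * w ^ k)
    hinj ?_).mp ?_
  · intro k hk
    have hneg : k < 0 := by
      by_contra h
      push Not at h
      exact hk ⟨k.toNat, by simp [h]⟩
    rw [ModularCurve.ofPowerSeries_coeff_of_neg _ hneg, zero_mul]
  · have e : ((fun k : ℤ => (HahnSeries.ofPowerSeries ℤ ℂ
        (PowerSeries.mk fun n => (n.factorial : ℂ)⁻¹ * iteratedDeriv n F 0)).coeff k * w ^ k) ∘
        fun n : ℕ => (n : ℤ)) =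
        fun n : ℕ => ((n.factorial : ℂ))⁻¹ • (w - 0) ^ n • iteratedDeriv n F 0 := by
      funext n
      simp only [Function.comp_apply, HahnSeries.ofPowerSeries_apply_coeff, PowerSeries.coeff_mk,
        zpow_natCast, sub_zero, smul_eq_mul]
      ring
    rw [e]
    exact hT

theorem mdiff_genFun {N : ℕ} [NeZero N] {J : ℍ → ℂ} (hol : MDiff J) (g : SL(2, ℤ)) (d : Dv N) :
    MDiff (genFun N J g d) := by
  have h1 : MDiff (fun τ : ℍ => g • τ) := by
    have := UpperHalfPlane.mdifferentiable_smul (g := (g : GL (Fin 2) ℝ)) (by simp)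
    exact this
  have h2 : MDiff (fun τ : ℍ => dPt d d.pos τ) := by
    unfold dPt
    apply UpperHalfPlane.mdifferentiable_smul
    simp [triGL, Matrix.GeneralLinearGroup.mkOfDetNeZero, Matrix.det_fin_two]
    exact d.pos
  exact hol.comp (h2.comp h1)

theorem expandable_fin {N : ℕ} [NeZero N] {J : ℍ → ℂ} (hol : MDiff J) (τ0 : ℍ) :
    Expandable N J (finChart τ0) :=
  fun g d => exists_hasExp_finChart τ0 _ (mdiff_genFun hol g d)


/-- The rotation factor of a stabiliser element `s` of `τ0` in the Cayley coordinate. -/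
def rotFactor (τ0 : ℍ) (s : SL(2, ℤ)) : ℂ :=
  ((s 1 0 : ℂ) * (starRingEnd ℂ) (τ0 : ℂ) + (s 1 1 : ℂ)) / ((s 1 0 : ℂ) * (τ0 : ℂ) + (s 1 1 : ℂ))

theorem sl_denom_ne_zero (s : SL(2, ℤ)) (τ : ℍ) : (s 1 0 : ℂ) * (τ : ℂ) + (s 1 1 : ℂ) ≠ 0 := by
  have h := UpperHalfPlane.denom_ne_zero (s : GL (Fin 2) ℝ) τ
  have e : UpperHalfPlane.denom (s : GL (Fin 2) ℝ) τ = (s 1 0 : ℂ) * (τ : ℂ) + (s 1 1 : ℂ) := by
    simp [UpperHalfPlane.denom]
  rwa [e] at h

theorem norm_rotFactor (τ0 : ℍ) (s : SL(2, ℤ)) : ‖rotFactor τ0 s‖ = 1 := by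
  have hne := sl_denom_ne_zero s τ0
  have e : (s 1 0 : ℂ) * (starRingEnd ℂ) (τ0 : ℂ) + (s 1 1 : ℂ) =
      (starRingEnd ℂ) ((s 1 0 : ℂ) * (τ0 : ℂ) + (s 1 1 : ℂ)) := by
    simp
  rw [rotFactor, norm_div, e, RCLike.norm_conj]
  exact div_self (norm_ne_zero_iff.mpr hne)

theorem rotFactor_ne_zero (τ0 : ℍ) (s : SL(2, ℤ)) : rotFactor τ0 s ≠ 0 := by
  intro h
  have := norm_rotFactor τ0 s
  rw [h, norm_zero] at this
  exact zero_ne_one this

theorem cay_rot_aux (t tb w D Db : ℂ) (hD : D ≠ 0) (hX : D - Db * w ≠ 0) :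
    (t * D - tb * Db * w) / (D - Db * w) = (t - tb * (Db / D * w)) / (1 - Db / D * w) := by
  have h4 : 1 - Db / D * w ≠ 0 := by
    intro h
    apply hX
    field_simp at h
    linear_combination h
  rw [div_eq_div_iff hX h4]
  field_simp

theorem cay_rot (τ0 : ℍ) (s : SL(2, ℤ)) (hs : s • τ0 = τ0) (w : ℂ) (hw : ‖w‖ < 1) :
    ((s • (⟨cay τ0 w, cay_im_pos τ0 hw⟩ : ℍ) : ℍ) : ℂ) = cay τ0 (rotFactor τ0 s * w) := by
  set a : ℂ := (s 0 0 : ℂ) with ha
  set b : ℂ := (s 0 1 : ℂ) with hb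
  set c : ℂ := (s 1 0 : ℂ) with hc
  set d : ℂ := (s 1 1 : ℂ) with hd
  set t : ℂ := (τ0 : ℂ) with ht
  set tb : ℂ := (starRingEnd ℂ) (τ0 : ℂ) with htb
  have hD : c * t + d ≠ 0 := sl_denom_ne_zero s τ0
  have hw1 : 1 - w ≠ 0 := one_sub_ne_zero_of_norm_lt hw
  -- fixed point equation and its conjugate
  have h1 : a * t + b = t * (c * t + d) := by
    have h := congrArg (fun τ : ℍ => (τ : ℂ)) hs
    simp only [UpperHalfPlane.coe_specialLinearGroup_apply] at h
    have ea : ((algebraMap ℤ ℝ (s 0 0) : ℝ) : ℂ) = a := by simp [ha]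
    have eb : ((algebraMap ℤ ℝ (s 0 1) : ℝ) : ℂ) = b := by simp [hb]
    have ec : ((algebraMap ℤ ℝ (s 1 0) : ℝ) : ℂ) = c := by simp [hc]
    have ed : ((algebraMap ℤ ℝ (s 1 1) : ℝ) : ℂ) = d := by simp [hd]
    rw [ea, eb, ec, ed] at h
    exact (div_eq_iff hD).mp h
  have h2 : a * tb + b = tb * (c * tb + d) := by
    have h := congrArg (starRingEnd ℂ) h1
    simpa [ha, hb, hc, hd, ht, htb] using h
  have hu : (cay τ0 w) = (t - tb * w) / (1 - w) := rfl
  have hden : c * (cay τ0 w) + d = ((c * t + d) - (c * tb + d) * w) / (1 - w) := by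
    rw [hu]
    field_simp
    ring
  have hnum : a * (cay τ0 w) + b = ((a * t + b) - (a * tb + b) * w) / (1 - w) := by
    rw [hu]
    field_simp
    ring
  have hζ : rotFactor τ0 s = (c * tb + d) / (c * t + d) := rfl
  have hζw : ‖rotFactor τ0 s * w‖ < 1 := by
    rw [norm_mul, norm_rotFactor, one_mul]
    exact hw
  have hX : (c * t + d) - (c * tb + d) * w ≠ 0 := by
    have h3 := one_sub_ne_zero_of_norm_lt hζw
    rw [hζ] at h3
    intro h0
    apply h3
    field_simp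
    linear_combination h0
  rw [UpperHalfPlane.coe_specialLinearGroup_apply]
  have e1 : ((algebraMap ℤ ℝ (s 0 0) : ℂ) * ((⟨cay τ0 w, cay_im_pos τ0 hw⟩ : ℍ) : ℂ) +
      (algebraMap ℤ ℝ (s 0 1) : ℂ)) = a * (cay τ0 w) + b := by
    simp [ha, hb]
  have e2 : ((algebraMap ℤ ℝ (s 1 0) : ℂ) * ((⟨cay τ0 w, cay_im_pos τ0 hw⟩ : ℍ) : ℂ) +
      (algebraMap ℤ ℝ (s 1 1) : ℂ)) = c * (cay τ0 w) + d := by
    simp [hc, hd]
  rw [e1, e2, hnum, hden, h1, h2]
  show _ = (t - tb * (rotFactor τ0 s * w)) / (1 - rotFactor τ0 s * w)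
  rw [hζ]
  rw [div_div_div_cancel_right₀ hw1]
  exact cay_rot_aux t tb w (c * t + d) (c * tb + d) hD hX


/-! ### Orders of expansions in the Cayley chart -/

theorem order_eq_of_coeff {x : LaurentSeries ℂ} {n : ℤ} (h1 : x.coeff n ≠ 0)
    (h2 : ∀ k < n, x.coeff k = 0) : x.order = n := by
  have hx : x ≠ 0 := HahnSeries.ne_zero_of_coeff_ne_zero h1
  apply le_antisymm (HahnSeries.order_le_of_coeff_ne_zero h1)
  by_contra hlt
  push Not at hlt
  have h3 : x.coeff x.order ≠ 0 := by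
    rw [← HahnSeries.leadingCoeff_eq]
    exact HahnSeries.leadingCoeff_ne_zero.mpr hx
  exact h3 (h2 _ hlt)

theorem lsum_ofPowerSeries {a : ℕ → ℂ} {w s : ℂ} (h : HasSum (fun k : ℕ => a k * w ^ k) s) :
    LSum w (HahnSeries.ofPowerSeries ℤ ℂ (PowerSeries.mk a)) s := by
  unfold LSum
  have hinj : Function.Injective (fun n : ℕ => (n : ℤ)) := Nat.cast_injective
  refine (Function.Injective.hasSum_iff (f := fun k : ℤ => (HahnSeries.ofPowerSeries ℤ ℂ
    (PowerSeries.mk a)).coeff k * w ^ k) hinj ?_).mp ?_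
  · intro k hk
    have hneg : k < 0 := by
      by_contra h
      push Not at h
      exact hk ⟨k.toNat, by simp [h]⟩
    rw [ModularCurve.ofPowerSeries_coeff_of_neg _ hneg, zero_mul]
  · have e : ((fun k : ℤ => (HahnSeries.ofPowerSeries ℤ ℂ (PowerSeries.mk a)).coeff k * w ^ k) ∘
        fun n : ℕ => (n : ℤ)) = fun k : ℕ => a k * w ^ k := by
      funext n
      simp only [Function.comp_apply, HahnSeries.ofPowerSeries_apply_coeff, PowerSeries.coeff_mk,
        zpow_natCast]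
    rw [e]
    exact h

theorem cay_zero (τ0 : ℍ) : cay τ0 0 = τ0 := by
  simp [cay]

theorem deriv_cay_zero_ne (τ0 : ℍ) : deriv (cay τ0) 0 ≠ 0 := by
  have h : HasDerivAt (cay τ0)
      (((0 - (starRingEnd ℂ) (τ0 : ℂ) * 1) * (1 - 0) -
        ((τ0 : ℂ) - (starRingEnd ℂ) (τ0 : ℂ) * 0) * (0 - 1)) / (1 - 0) ^ 2) 0 := by
    unfold cay
    exact ((hasDerivAt_const _ _).sub ((hasDerivAt_id _).const_mul _)).div
      ((hasDerivAt_const _ _).sub (hasDerivAt_id _)) (by simp)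
  rw [h.deriv]
  intro h0
  have h1 := congrArg Complex.im h0
  simp at h1
  have h2 := τ0.im_pos
  have h3 : (τ0 : ℂ).im = τ0.im := rfl
  linarith

/-- If `f` is holomorphic on `ℍ` and vanishes to order exactly `n` at `τ0`, then its expansion
in the Cayley chart at `τ0` has order `n`. -/
theorem order_eq_of_analyticOrderAt (τ0 : ℍ) (f : ℍ → ℂ) (hf : MDiff f) (E : LaurentSeries ℂ)
    (hE : HasExp (finChart τ0) f E) (n : ℕ)
    (hn : analyticOrderAt (f ∘ ofComplex) (τ0 : ℂ) = n) : E.order = n := by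
  have hcayA : AnalyticAt ℂ (cay τ0) 0 :=
    (cay_differentiableOn τ0).analyticAt (Metric.ball_mem_nhds 0 one_pos)
  set F : ℂ → ℂ := (f ∘ ofComplex) ∘ cay τ0 with hF
  have hFd : DifferentiableOn ℂ F (Metric.ball 0 1) :=
    (UpperHalfPlane.mdifferentiable_iff.mp hf).comp (cay_differentiableOn τ0)
      (fun w hw => cay_im_pos τ0 (by simpa using hw))
  have hFA : AnalyticAt ℂ F 0 := hFd.analyticAt (Metric.ball_mem_nhds 0 one_pos)
  have hFn : analyticOrderAt F 0 = n := by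
    rw [hF, analyticOrderAt_comp_of_deriv_ne_zero hcayA (deriv_cay_zero_ne τ0), cay_zero, hn]
  obtain ⟨g, hg, hg0, hFg⟩ := (hFA.analyticOrderAt_eq_natCast).mp hFn
  obtain ⟨ε1, hε1, hε1'⟩ := Metric.eventually_nhds_iff.mp hFg
  obtain ⟨ε2, hε2, hε2'⟩ := Metric.eventually_nhds_iff.mp hg.eventually_analyticAt
  have hgd : DifferentiableOn ℂ g (Metric.ball 0 ε2) := fun z hz =>
    (hε2' (by simpa using hz)).differentiableAt.differentiableWithinAt
  set E' : LaurentSeries ℂ := HahnSeries.single (n : ℤ) (1 : ℂ) * HahnSeries.ofPowerSeries ℤ ℂ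
    (PowerSeries.mk fun k => (k.factorial : ℂ)⁻¹ * iteratedDeriv k g 0) with hE'
  have hEE' : E = E' := by
    refine LSum.ext_of_forall (min 1 (min ε1 ε2)) (by positivity) (fun w hw0 hw => ?_)
    have hw1 : ‖w‖ < 1 := lt_of_lt_of_le hw (min_le_left _ _)
    have hwε1 : ‖w‖ < ε1 := lt_of_lt_of_le hw ((min_le_right _ _).trans (min_le_left _ _))
    have hwε2 : ‖w‖ < ε2 := lt_of_lt_of_le hw ((min_le_right _ _).trans (min_le_right _ _))
    have hFw : F w = f ⟨cay τ0 w, cay_im_pos τ0 hw1⟩ := by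
      simp only [hF, Function.comp_apply]
      rw [UpperHalfPlane.ofComplex_apply_of_im_pos (cay_im_pos τ0 hw1)]
    refine ⟨F w, ?_, ?_⟩
    · rw [hFw]
      exact hE ⟨w, hw0, hw1⟩
    · have h1 : F w = w ^ n * g w := by
        have := hε1' (show dist w 0 < ε1 by simpa using hwε1)
        simpa using this
      rw [h1]
      have hT := Complex.hasSum_taylorSeries_on_ball hgd (z := w) (by simpa using hwε2)
      have hT' : HasSum (fun k : ℕ => ((k.factorial : ℂ)⁻¹ * iteratedDeriv k g 0) * w ^ k) (g w) := by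
        have e : (fun k : ℕ => ((k.factorial : ℂ)⁻¹ * iteratedDeriv k g 0) * w ^ k) =
            fun k : ℕ => ((k.factorial : ℂ))⁻¹ • (w - 0) ^ k • iteratedDeriv k g 0 := by
          funext k
          simp only [sub_zero, smul_eq_mul]
          ring
        rw [e]
        exact hT
      have h2 := (LSum.single w (n : ℤ) 1).mul hw0 (lsum_ofPowerSeries hT')
      rw [one_mul, zpow_natCast] at h2
      exact h2
  rw [hEE']
  refine order_eq_of_coeff ?_ (fun k hk => ?_)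
  · rw [hE', HahnSeries.coeff_single_mul, sub_self, one_mul]
    have : (HahnSeries.ofPowerSeries ℤ ℂ
        (PowerSeries.mk fun k => (k.factorial : ℂ)⁻¹ * iteratedDeriv k g 0)).coeff ((0 : ℕ) : ℤ) =
        g 0 := by
      rw [HahnSeries.ofPowerSeries_apply_coeff]
      simp
    rw [show (0 : ℤ) = ((0 : ℕ) : ℤ) from rfl, this]
    exact hg0
  · rw [hE', HahnSeries.coeff_single_mul, one_mul]
    exact ModularCurve.ofPowerSeries_coeff_of_neg _ (by omega)

/-- **Embeddings at a point `τ0` of the upper half plane.** Given the analytic `j`-function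
`J` (invariance, `q`-expansion, holomorphy), there is a family of embeddings of the function
field of `X₀(N)` into `ℂ((w))` (`w` the Cayley coordinate centred at `τ0`), indexed by
`SL(2, ℤ) ⧸ Γ₀(N)`, which is injective, restricts to `κ` on constants, sends `j` to the
expansion `Ej` of `J` for every index, and on which the inverse of a stabiliser element `s`
of `τ0` acts through the rotation `w ↦ rotFactor τ0 s * w`. -/
theorem point_embeddings (N : ℕ) [NeZero N] {J : ℍ → ℂ} (hJ : JHyp J) (hol : MDiff J)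
    (κ : Kbar →+* ℂ) (τ0 : ℍ) :
    ∃ (Φ : (SL(2, ℤ) ⧸ CongruenceSubgroup.Gamma0 N) →
        (↥(ModularCurve.modularFunctionFieldBar N) →+* LaurentSeries ℂ)) (Ej : LaurentSeries ℂ),
      Function.Injective Φ ∧
      (∀ x (a : Kbar), Φ x (algebraMap Kbar ↥(ModularCurve.modularFunctionFieldBar N) a) =
        HahnSeries.C (κ a)) ∧
      (∀ x (hj : ModularCurve.coeffEmb Kbar ModularCurve.jq ∈
          ModularCurve.modularFunctionFieldBar N),
        Φ x ⟨ModularCurve.coeffEmb Kbar ModularCurve.jq, hj⟩ = Ej) ∧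
      (∀ (w : ℂ) (_ : w ≠ 0) (hw : ‖w‖ < 1), LSum w Ej (J ⟨cay τ0 w, cay_im_pos τ0 hw⟩)) ∧
      (∀ s : SL(2, ℤ), s • τ0 = τ0 → ∀ x (f : ↥(ModularCurve.modularFunctionFieldBar N)) (k : ℤ),
        (Φ (s⁻¹ • x) f).coeff k = rotFactor τ0 s ^ k * (Φ x f).coeff k) ∧
      (∀ x (P : MvPolynomial (Dv N) Kbar)
        (hP : MvPolynomial.aeval (jK N) P ∈ ModularCurve.modularFunctionFieldBar N)
        (w : ℂ) (_ : w ≠ 0) (hw : ‖w‖ < 1),
        LSum w (Φ x ⟨MvPolynomial.aeval (jK N) P, hP⟩)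
          (evFun N J κ (x.out)⁻¹ P ⟨cay τ0 w, cay_im_pos τ0 hw⟩)) ∧
      (∀ (c : ℂ) (n : ℕ), analyticOrderAt (fun z : ℂ => J (ofComplex z) - c) (τ0 : ℂ) = n →
        (Ej - HahnSeries.C c).order = (n : ℤ)) := by
  have hE : Expandable N J (finChart τ0) := expandable_fin hol τ0
  have hEj : ∀ (w : ℂ) (hw0 : w ≠ 0) (hw : ‖w‖ < 1),
      LSum w (genOf hE 1 ⟨1, one_dvd N⟩) (J ⟨cay τ0 w, cay_im_pos τ0 hw⟩) := by
    intro w hw0 hw
    have h := hasExp_genOf hE 1 ⟨1, one_dvd N⟩ ⟨w, hw0, hw⟩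
    have e : genFun N J 1 ⟨1, one_dvd N⟩ ((finChart τ0).pt ⟨w, hw0, hw⟩) =
        J ⟨cay τ0 w, cay_im_pos τ0 hw⟩ := by
      unfold genFun
      rw [dPt_one, one_smul]
      rfl
    rw [e] at h
    exact h
  refine ⟨cosetEmb hJ κ hE, genOf hE 1 ⟨1, one_dvd N⟩, cosetEmb_injective hJ κ hE,
    cosetEmb_algebraMap hJ κ hE, fun x hj => cosetEmb_j hJ κ hE x hj, hEj,
    fun s hs x f k => ?_, fun x P hP w hw0 hw => ?_, fun c n hn => ?_⟩
  rotate_left 2
  · refine order_eq_of_analyticOrderAt τ0 (fun τ => J τ - c) (hol.sub mdifferentiable_const) _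
      (fun y => ?_) n hn
    exact (hEj y.1 y.2.1 y.2.2).sub (LSum.C _ c)
  · have h := cosetEmb_rot hJ κ hE s (rotFactor τ0 s) (rotFactor_ne_zero τ0 s)
      (fun y => ⟨rotFactor τ0 s * y.1, mul_ne_zero (rotFactor_ne_zero τ0 s) y.2.1, by
        rw [norm_mul, norm_rotFactor, one_mul]; exact y.2.2⟩)
      (fun y => UpperHalfPlane.ext (cay_rot τ0 s hs y.1 y.2.2).symm) (fun _ => rfl) x
    rw [h]
    rfl
  · exact cosetEmb_hasExp hJ κ hE x P hP ⟨w, hw0, hw⟩


end Fermat.Agent.S24.helper276
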