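import Fermat.Agent.S24.helper2810_Ev
import Fermat.Agent.S24.helper167_JFinrank
import Fermat.Agent.S24.helper288_Conj

/-!
# S24: the analytic realisation `helper167.EvDatum N` and `Stmt_JFinrank`  (helper2810)

`helper2810.ev` satisfies `helper167.EvDatum N` (holomorphy, `Γ₀(N)`-invariance, exponential
growth along every coset, `ev j = J`, transfer of `ℂ`-linear relations to formal series).
-/

set_option autoImplicit false

open ModularCurve UpperHalfPlane CongruenceSubgroup
open scoped MatrixGroups Manifold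

namespace Fermat.Agent.S24.helper2810

open Fermat.Agent.S24.helper24

variable (N : ℕ) [NeZero N]

/-- Exponential growth of `ev N a` along every coset. -/
theorem hasExpGrowth_ev (a : helper3176.AN N) (g : SL(2, ℤ)) :
    helper167.HasExpGrowth (fun τ => ev N a (g • τ)) := by
  refine ev_induction N (P := fun f => helper167.HasExpGrowth (fun τ => f (g • τ)))
    (fun c => helper167.hasExpGrowth_const c) (fun f h hf hh => hf.add hh) ?_ a
  intro f d _ hd hf
  have h1 := helper288.hasExpGrowth_jFn_mul_smul g d (Nat.pos_of_ne_zero (NeZero.ne d))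
  have e : (fun τ : ℍ => helper288.jFn (ofComplex ((d : ℂ) * ((g • τ : ℍ) : ℂ))))
      = fun τ : ℍ => Jd d (g • τ) := by
    funext τ
    have hd0 : (0 : ℝ) < d := Nat.cast_pos.mpr (Nat.pos_of_ne_zero (NeZero.ne d))
    have him : 0 < ((d : ℂ) * ((g • τ : ℍ) : ℂ)).im := by
      simpa using mul_pos hd0 (g • τ).im_pos
    exact (Jd_eq d (g • τ) _ (by rw [ofComplex_apply_of_im_pos him])).symm
  rw [e] at h1
  exact hf.mul h1

/-- `ℂ`-linear relations between the functions `ev N b` hold between the formal series. -/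
theorem relation_transfer (s : Finset (ℕ × ℕ)) (c : ℕ × ℕ → ℂ) (b : ℕ × ℕ → helper3176.AN N)
    (h : ∀ τ : ℍ, ∑ i ∈ s, c i * ev N (b i) τ = 0) :
    ∑ i ∈ s, c i • coeffMap i0 (((b i : helper3176.AN N) : FN N) : LaurentSeries Kbar) = 0 := by
  have h1 : (∑ i ∈ s, constHom (c i) *
      (⟨ev N (b i), ev_mem_cuspMer N (b i)⟩ : helper315.cuspMer 1)) = 0 := by
    apply Subtype.ext
    have hs := map_sum (helper315.cuspMer 1).subtype (fun i => constHom (c i) *
      (⟨ev N (b i), ev_mem_cuspMer N (b i)⟩ : helper315.cuspMer 1)) s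
    show (helper315.cuspMer 1).subtype (∑ i ∈ s, constHom (c i) *
      (⟨ev N (b i), ev_mem_cuspMer N (b i)⟩ : helper315.cuspMer 1)) = 0
    rw [hs]
    funext τ
    rw [Finset.sum_apply]
    exact h τ
  have h2 := congrArg (helper315.cuspExp 1) h1
  rw [map_sum, map_zero] at h2
  rw [← h2]
  refine Finset.sum_congr rfl fun i _ => ?_
  rw [map_mul, cuspExp_ev, ← HahnSeries.C_mul_eq_smul]
  congr 1
  exact (helper315.cuspExpFun_const (helper315.natCast_pos' 1) (c i)).symm

/-- **(P1)** The analytic realisation of `A_N` in the shape of `helper167`. -/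
theorem evDatum : helper167.EvDatum N :=
  ⟨i0, ev N, mdiff_ev N, fun a _ hγ τ => ev_smul_of_mem_Gamma0 N hγ a τ,
    hasExpGrowth_ev N, fun τ => congrFun (ev_jBar N) τ, relation_transfer N⟩

end Fermat.Agent.S24.helper2810
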