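import Fermat.Agent.S24.helper2810_Ev
import Fermat.Agent.S24.helper1200_CuspLocal

/-!
# S24: `Stmt_LocalInf` (local datum at the cusp), unconditionally  (helper2810)

`helper1200.stmt_LocalInf_of_evGen` reduces the cusp datum to the evaluation datum
`helper1200.Stmt_EvGen`, which is provided by the analytic model `helper2810.ev`.
-/

set_option autoImplicit false

open UpperHalfPlane

namespace Fermat.Agent.S24.helper2810

open Fermat.Agent.S24.helper24

/-- The evaluation datum of `helper1200`. -/
theorem stmt_EvGen : helper1200.Stmt_EvGen := by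
  intro N _
  refine ⟨i0, ev N, ev_algebraMap N, ?_, ev_injective N⟩
  intro d _ hd
  rw [ev_jBarD N d hd]
  funext τ
  have hd0 : (0 : ℝ) < d := Nat.cast_pos.mpr (Nat.pos_of_ne_zero (NeZero.ne d))
  have him : 0 < ((d : ℂ) * (τ : ℂ)).im := by simpa using mul_pos hd0 τ.im_pos
  exact Jd_eq d τ _ (by rw [ofComplex_apply_of_im_pos him])

/-- **`Stmt_LocalInf`**: the local embedding datum at the cusp. -/
theorem stmt_LocalInf : Stmt_LocalInf :=
  helper1200.stmt_LocalInf_of_evGen stmt_EvGen

end Fermat.Agent.S24.helper2810
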