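import Fermat.Agent.S24.helper2810_EvDatum
import Fermat.Agent.S24.helper2810_LocalInf

/-!
# S24: `Stmt_JFinrank`, unconditionally  (helper2810)

`[F_N : ℚ̄(j)] = [SL(2, ℤ) : Γ₀(N)]` from `helper167.stmt_JFinrank_of`, the analytic realisation
`helper2810.evDatum` and the cusp datum `helper2810.stmt_LocalInf`.
-/

set_option autoImplicit false

namespace Fermat.Agent.S24.helper2810

open Fermat.Agent.S24.helper24

/-- **`Stmt_JFinrank`**: `[F_N : ℚ̄(j)] = [SL(2, ℤ) : Γ₀(N)]`. -/
theorem stmt_JFinrank : Stmt_JFinrank :=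
  helper167.stmt_JFinrank_of (fun N _ => evDatum N) stmt_LocalInf

end Fermat.Agent.S24.helper2810
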