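import Fermat.Agent.S24.helper2810_MerPackage
import Fermat.Agent.S24.helper2064_JLeaves

/-!
# S24: the three finite-point local data, unconditionally  (helper2810)

`Stmt_LocalGeneric`, `Stmt_Local1728`, `Stmt_LocalZero` from `helper2064.local_of_merPackage`
and the meromorphic package `helper2810.stmt_MerPackage`.
-/

set_option autoImplicit false

namespace Fermat.Agent.S24.helper2810

open Fermat.Agent.S24.helper24

theorem stmt_LocalFinite : Stmt_LocalGeneric ∧ Stmt_Local1728 ∧ Stmt_LocalZero :=
  helper2064.local_of_merPackage stmt_MerPackage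

/-- **`Stmt_LocalGeneric`**. -/
theorem stmt_LocalGeneric : Stmt_LocalGeneric := stmt_LocalFinite.1

/-- **`Stmt_Local1728`**. -/
theorem stmt_Local1728 : Stmt_Local1728 := stmt_LocalFinite.2.1

/-- **`Stmt_LocalZero`**. -/
theorem stmt_LocalZero : Stmt_LocalZero := stmt_LocalFinite.2.2

end Fermat.Agent.S24.helper2810
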