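import Fermat.Agent.S24.helper2810_Ev
import Fermat.Agent.S24.helper481_LocalFinite
import Fermat.Agent.S24.helper133_Stabilizer

/-!
# S24: `helper481.Stmt_MerPackage`  (helper2810)

The field `M = Frac(Hol(ℍ))` of `helper133_HolRing` with the orders `ordAt τ`, the action
`pullMer` of `SL(2, ℤ)` and the embedding of the function field obtained from the analytic model
`helper2810.ev` is a "meromorphic package" in the sense of `helper481_LocalFinite`.
-/

set_option autoImplicit false

open ModularCurve UpperHalfPlane CongruenceSubgroup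
open scoped MatrixGroups Manifold

noncomputable section

namespace Fermat.Agent.S24.helper2810

open Fermat.Agent.S24.helper24

/-- `Mer` as a `ℚ̄`-algebra through the embedding `i0 : ℚ̄ → ℂ`. -/
@[reducible] def algKbarMer : Algebra Kbar helper133.Mer :=
  ((algebraMap ℂ helper133.Mer).comp i0).toAlgebra

attribute [local instance] algKbarMer

theorem algebraMap_Kbar_Mer (c : Kbar) :
    algebraMap Kbar helper133.Mer c = algebraMap ℂ helper133.Mer (i0 c) := rfl

/-- The action of `SL(2, ℤ)` on `Mer` by `ℚ̄`-algebra automorphisms. -/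
def actK (g : SL(2, ℤ)) : helper133.Mer ≃ₐ[Kbar] helper133.Mer :=
  AlgEquiv.ofRingEquiv (f := (helper133.pullMer g).toRingEquiv)
    (fun c => (helper133.pullMer g).commutes (i0 c))

theorem actK_apply (g : SL(2, ℤ)) (z : helper133.Mer) : actK g z = helper133.pullMer g z := rfl

theorem actK_pow_apply (g : SL(2, ℤ)) (k : ℕ) (z : helper133.Mer) :
    (actK g ^ k) z = helper133.pullMer (g ^ k) z := by
  induction k generalizing z with
  | zero => rw [pow_zero, pow_zero, map_one]; rfl
  | succ k ih =>
    rw [pow_succ, pow_succ, AlgEquiv.mul_apply, ih, actK_apply, map_mul]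
    rfl

variable (N : ℕ) [NeZero N]

/-- `ev N a` as an element of `Hol`. -/
def evHol (a : helper3176.AN N) : helper133.Hol := ⟨ev N a, mdiff_ev N a⟩

theorem evHol_apply (a : helper3176.AN N) (τ : ℍ) :
    ((evHol N a : helper133.Hol) : ℍ → ℂ) τ = ev N a τ := rfl

/-- The analytic model as a `ℚ̄`-algebra hom into `Mer`. -/
def evMerA : helper3176.AN N →ₐ[Kbar] helper133.Mer where
  toFun a := algebraMap helper133.Hol helper133.Mer (evHol N a)
  map_one' := by
    have : evHol N 1 = 1 := Subtype.ext (map_one (ev N))
    rw [this, map_one]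
  map_mul' a b := by
    have : evHol N (a * b) = evHol N a * evHol N b := Subtype.ext (map_mul (ev N) a b)
    rw [this, map_mul]
  map_zero' := by
    have : evHol N 0 = 0 := Subtype.ext (map_zero (ev N))
    rw [this, map_zero]
  map_add' a b := by
    have : evHol N (a + b) = evHol N a + evHol N b := Subtype.ext (map_add (ev N) a b)
    rw [this, map_add]
  commutes' c := by
    have : evHol N (algebraMap Kbar (helper3176.AN N) c) = algebraMap ℂ helper133.Hol (i0 c) :=
      Subtype.ext (ev_algebraMap N c)
    rw [this, ← IsScalarTower.algebraMap_apply ℂ helper133.Hol helper133.Mer]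
    rfl

theorem evMerA_apply (a : helper3176.AN N) :
    evMerA N a = algebraMap helper133.Hol helper133.Mer (evHol N a) := rfl

theorem evMerA_injective : Function.Injective (evMerA N) := by
  intro a b hab
  have h1 : evHol N a = evHol N b := IsFractionRing.injective helper133.Hol helper133.Mer hab
  exact ev_injective N (congrArg (fun f : helper133.Hol => (f : ℍ → ℂ)) h1)

/-- **(P2)** The meromorphic package of `helper481`. -/
theorem stmt_MerPackage : helper481.Stmt_MerPackage := by
  intro N _
  obtain ⟨evF, hevF⟩ := helper3176.exists_algHom_extension N (evMerA N) (evMerA_injective N)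
  have hj : evF (jBar N) = algebraMap helper133.Hol helper133.Mer
      (evHol N ⟨jBar N, helper3176.jBar_mem_AN N⟩) :=
    hevF ⟨jBar N, helper3176.jBar_mem_AN N⟩
  refine ⟨helper133.Mer, inferInstance, algKbarMer, i0, helper133.ordAt, actK, evF,
    ?_, ?_, ?_, ?_, ?_, ?_, ?_, ?_, ?_⟩
  · intro g h z
    rw [actK_apply, actK_apply, actK_apply, map_mul]
    rfl
  · intro τ a ha
    rw [algebraMap_Kbar_Mer]
    exact helper133.ordAt_algebraMap_complex τ ((map_ne_zero i0).mpr ha)
  · intro g τ z hfix
    exact helper133.ordAt_pullMer_of_fixed hfix z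
  · intro γ hγ f
    have h : ((actK γ : helper133.Mer ≃ₐ[Kbar] helper133.Mer) : helper133.Mer →+* helper133.Mer).comp
        (evF : FN N →+* helper133.Mer) = (evF : FN N →+* helper133.Mer) := by
      apply helper3176.ringHom_ext_of_AN
      intro a
      show helper133.pullMer γ (evF a) = evF a
      rw [hevF, evMerA_apply, helper133.pullMer_algebraMap]
      congr 1
      apply Subtype.ext
      funext τ
      show ev N a (γ⁻¹ • τ) = ev N a τ
      exact ev_smul_of_mem_Gamma0 N (inv_mem hγ) a τ
    exact RingHom.congr_fun h f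
  · intro g hg
    have h : g⁻¹ ∈ Gamma0 N := by
      apply mem_Gamma0_of_ev_smul N
      intro a τ
      have h1 := hg (a : FN N)
      rw [hevF, evMerA_apply, actK_apply, helper133.pullMer_algebraMap] at h1
      have h3 := IsFractionRing.injective helper133.Hol helper133.Mer h1
      exact congrFun (congrArg (fun f : helper133.Hol => (f : ℍ → ℂ)) h3) τ
    simpa using inv_mem h
  · intro g
    rw [hj, actK_apply, helper133.pullMer_algebraMap]
    congr 1
    apply Subtype.ext
    funext τ
    show ev N ⟨jBar N, helper3176.jBar_mem_AN N⟩ (g⁻¹ • τ)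
      = ev N ⟨jBar N, helper3176.jBar_mem_AN N⟩ τ
    rw [ev_jBar]
    exact jFun_smul g⁻¹ τ
  · intro τ c hc
    have e : evF (jBar N) - algebraMap Kbar helper133.Mer c
        = algebraMap helper133.Hol helper133.Mer
          (evHol N ⟨jBar N, helper3176.jBar_mem_AN N⟩ - algebraMap ℂ helper133.Hol (i0 c)) := by
      rw [map_sub, hj, ← IsScalarTower.algebraMap_apply ℂ helper133.Hol helper133.Mer]
      rfl
    rw [e, helper133.ordAt_algebraMap, helper133.ordHol_eq_analyticOrderAt]
    have e2 : (((evHol N ⟨jBar N, helper3176.jBar_mem_AN N⟩ - algebraMap ℂ helper133.Hol (i0 c)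
        : helper133.Hol) : ℍ → ℂ) ∘ ofComplex)
        = fun z : ℂ => jFun (ofComplex z) - jFun τ := by
      funext z
      show ev N ⟨jBar N, helper3176.jBar_mem_AN N⟩ (ofComplex z) - i0 c
        = jFun (ofComplex z) - jFun τ
      rw [ev_jBar, hc]
    rw [e2]
  · intro τ hfix k z hz hk
    rw [actK_pow_apply] at hk
    exact helper133.hdiv_S hfix k hz hk
  · intro τ hfix k z hz hk
    rw [actK_pow_apply] at hk
    exact helper133.hdiv_ST hfix k hz hk

end Fermat.Agent.S24.helper2810
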