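import Mathlib

/-!
# Coefficient twist of Laurent series (helper2810)

For `ζ ≠ 0` the map `∑ aₙ tⁿ ↦ ∑ ζⁿ aₙ tⁿ` is a ring automorphism of `LaurentSeries ℂ`
(substitution `t ↦ ζ t`).  It preserves the order, fixes constants, and an element fixed by its
`k`-th power has order divisible by `m / gcd k m` when `ζ` is a primitive `m`-th root of unity.
-/

set_option autoImplicit false

namespace Fermat.Agent.S24.helper2810

open HahnSeries

noncomputable section

/-- The underlying function of the twist. -/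
def twistFun (ζ : ℂ) (x : LaurentSeries ℂ) : LaurentSeries ℂ where
  coeff n := ζ ^ n * x.coeff n
  isPWO_support' := x.isPWO_support.mono (fun n hn => by
    simp only [Function.mem_support, ne_eq] at hn ⊢
    exact fun h => hn (by rw [h, mul_zero]))

@[simp]
theorem twistFun_coeff (ζ : ℂ) (x : LaurentSeries ℂ) (n : ℤ) :
    (twistFun ζ x).coeff n = ζ ^ n * x.coeff n := rfl

theorem support_twistFun {ζ : ℂ} (hζ : ζ ≠ 0) (x : LaurentSeries ℂ) :
    (twistFun ζ x).support = x.support := by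
  ext n
  simp only [mem_support, twistFun_coeff, ne_eq, mul_eq_zero, not_or]
  constructor
  · exact fun h => h.2
  · exact fun h => ⟨zpow_ne_zero n hζ, h⟩

theorem twistFun_mul {ζ : ℂ} (hζ : ζ ≠ 0) (x y : LaurentSeries ℂ) :
    twistFun ζ (x * y) = twistFun ζ x * twistFun ζ y := by
  ext n
  rw [twistFun_coeff, coeff_mul, coeff_mul, Finset.mul_sum]
  refine Finset.sum_congr ?_ fun ij hij => ?_
  · ext ij
    simp [support_twistFun hζ]
  · have hn : ij.1 + ij.2 = n := by
      simp only [Finset.mem_antidiagonal] at hij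
      exact hij.2.2
    rw [twistFun_coeff, twistFun_coeff, ← hn, zpow_add₀ hζ]
    ring

/-- The twist `t ↦ ζ t` as a ring homomorphism. -/
def twistHom (ζ : ℂ) (hζ : ζ ≠ 0) : LaurentSeries ℂ →+* LaurentSeries ℂ where
  toFun := twistFun ζ
  map_one' := by
    ext n
    rw [twistFun_coeff, coeff_one]
    split_ifs with h
    · subst h; simp
    · simp
  map_mul' := twistFun_mul hζ
  map_zero' := by ext n; simp
  map_add' x y := by ext n; simp [mul_add]

@[simp]
theorem twistHom_coeff (ζ : ℂ) (hζ : ζ ≠ 0) (x : LaurentSeries ℂ) (n : ℤ) :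
    (twistHom ζ hζ x).coeff n = ζ ^ n * x.coeff n := rfl

theorem twistHom_C (ζ : ℂ) (hζ : ζ ≠ 0) (c : ℂ) :
    twistHom ζ hζ (HahnSeries.C c) = HahnSeries.C c := by
  ext n
  rw [twistHom_coeff, HahnSeries.C_apply, coeff_single]
  split_ifs with h
  · subst h; simp
  · simp

theorem twistHom_twistHom (ζ ξ : ℂ) (hζ : ζ ≠ 0) (hξ : ξ ≠ 0) (x : LaurentSeries ℂ) :
    twistHom ζ hζ (twistHom ξ hξ x) = twistHom (ζ * ξ) (mul_ne_zero hζ hξ) x := by
  ext n
  simp only [twistHom_coeff, mul_zpow]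
  ring

theorem twistHom_one (x : LaurentSeries ℂ) : twistHom 1 one_ne_zero x = x := by
  ext n
  simp

/-- The twist as a ring automorphism. -/
def twistEquiv (ζ : ℂ) (hζ : ζ ≠ 0) : LaurentSeries ℂ ≃+* LaurentSeries ℂ :=
  RingEquiv.ofRingHom (twistHom ζ hζ) (twistHom ζ⁻¹ (inv_ne_zero hζ))
    (by
      ext x : 1
      simp only [RingHom.comp_apply, RingHom.id_apply]
      rw [twistHom_twistHom]
      simp only [mul_inv_cancel₀ hζ]
      exact twistHom_one x)
    (by
      ext x : 1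
      simp only [RingHom.comp_apply, RingHom.id_apply]
      rw [twistHom_twistHom]
      simp only [inv_mul_cancel₀ hζ]
      exact twistHom_one x)

@[simp]
theorem twistEquiv_apply (ζ : ℂ) (hζ : ζ ≠ 0) (x : LaurentSeries ℂ) :
    twistEquiv ζ hζ x = twistHom ζ hζ x := rfl

theorem twistEquiv_coeff (ζ : ℂ) (hζ : ζ ≠ 0) (x : LaurentSeries ℂ) (n : ℤ) :
    (twistEquiv ζ hζ x).coeff n = ζ ^ n * x.coeff n := rfl

theorem iterate_twistHom_coeff (ζ : ℂ) (hζ : ζ ≠ 0) (k : ℕ) (x : LaurentSeries ℂ) (n : ℤ) :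
    (((twistHom ζ hζ)^[k]) x).coeff n = (ζ ^ k) ^ n * x.coeff n := by
  induction k generalizing x with
  | zero => simp
  | succ k ih =>
    rw [Function.iterate_succ_apply, ih, twistHom_coeff, pow_succ, mul_zpow]
    ring

theorem orderTop_twistHom (ζ : ℂ) (hζ : ζ ≠ 0) (x : LaurentSeries ℂ) :
    (twistHom ζ hζ x).orderTop = x.orderTop := by
  by_cases hx : x = 0
  · subst hx; simp
  · have hx' : twistHom ζ hζ x ≠ 0 := by
      intro h
      apply hx
      ext n
      have := congrArg (fun y => HahnSeries.coeff y n) h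
      simp only [twistHom_coeff, coeff_zero, mul_eq_zero] at this
      rcases this with h1 | h1
      · exact absurd h1 (zpow_ne_zero n hζ)
      · simpa using h1
    rw [orderTop_of_ne_zero hx, orderTop_of_ne_zero hx']
    congr 1
    have : (twistHom ζ hζ x).support = x.support := support_twistFun hζ x
    simp only [this]

theorem addVal_twistEquiv (ζ : ℂ) (hζ : ζ ≠ 0) (x : LaurentSeries ℂ) :
    HahnSeries.addVal ℤ ℂ (twistEquiv ζ hζ x) = HahnSeries.addVal ℤ ℂ x := by
  rw [addVal_apply, addVal_apply, twistEquiv_apply, orderTop_twistHom]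

/-- Divisibility of the order of an element fixed by a power of the twist. -/
theorem order_dvd_of_twist_pow_fixed {ζ : ℂ} {m : ℕ} (hm : 0 < m) (hζ : IsPrimitiveRoot ζ m)
    (hζ0 : ζ ≠ 0) (k : ℕ) (z : LaurentSeries ℂ) (hz : z ≠ 0)
    (hfix : ((twistHom ζ hζ0)^[k]) z = z) :
    ∃ l : ℤ, HahnSeries.addVal ℤ ℂ z = (((m / Nat.gcd k m : ℕ) * l : ℤ) : WithTop ℤ) := by
  rw [addVal_apply_of_ne hz]
  have hc : z.coeff z.order ≠ 0 := fun h => hz (coeff_order_eq_zero.mp h)
  have h1 := congrArg (fun y => HahnSeries.coeff y z.order) hfix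
  simp only [iterate_twistHom_coeff] at h1
  have h2 : (ζ ^ k) ^ z.order = 1 := by
    have : ((ζ ^ k) ^ z.order - 1) * z.coeff z.order = 0 := by rw [sub_mul, h1, one_mul, sub_self]
    rcases mul_eq_zero.mp this with h | h
    · exact sub_eq_zero.mp h
    · exact absurd h hc
  -- `ζ ^ (k * order) = 1`, so `m ∣ k * order`
  have h3 : ζ ^ ((k : ℤ) * z.order) = 1 := by
    rw [zpow_mul, zpow_natCast]; exact h2
  have h4 : (m : ℤ) ∣ (k : ℤ) * z.order := (hζ.zpow_eq_one_iff_dvd _).mp h3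
  -- hence `m / gcd k m ∣ order`
  have hg : Nat.gcd k m ∣ m := Nat.gcd_dvd_right k m
  have hgpos : 0 < Nat.gcd k m := Nat.gcd_pos_of_pos_right k hm
  obtain ⟨m', hm'⟩ := hg
  obtain ⟨k', hk'⟩ := Nat.gcd_dvd_left k m
  have hdiv : m / Nat.gcd k m = m' := Nat.div_eq_of_eq_mul_right hgpos hm' 
  have hcop : Nat.Coprime m' k' := by
    have h := Nat.coprime_div_gcd_div_gcd hgpos
    have e1 : k / Nat.gcd k m = k' := Nat.div_eq_of_eq_mul_right hgpos hk' 
    rw [e1, hdiv] at h
    exact h.symm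
  have h5 : (m' : ℤ) ∣ (k' : ℤ) * z.order := by
    have h6 : ((Nat.gcd k m : ℕ) : ℤ) * (m' : ℤ) ∣ ((Nat.gcd k m : ℕ) : ℤ) * ((k' : ℤ) * z.order) := by
      have e1 : ((Nat.gcd k m : ℕ) : ℤ) * (m' : ℤ) = (m : ℤ) := by
        rw [← Nat.cast_mul, ← hm']
      have e2 : ((Nat.gcd k m : ℕ) : ℤ) * ((k' : ℤ) * z.order) = (k : ℤ) * z.order := by
        rw [← mul_assoc, ← Nat.cast_mul, ← hk']
      rw [e1, e2]; exact h4
    exact (mul_dvd_mul_iff_left (by exact_mod_cast hgpos.ne')).mp h6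
  have h7 : (m' : ℤ) ∣ z.order :=
    (Int.isCoprime_iff_gcd_eq_one.mpr (by simpa [Int.gcd_natCast_natCast] using hcop)).dvd_of_dvd_mul_left h5
  obtain ⟨l, hl⟩ := h7
  refine ⟨l, ?_⟩
  rw [hdiv, hl]

end

end Fermat.Agent.S24.helper2810
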