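import Mathlib

/-!
# S24, module J5: local orders of `J = E₄³ / Δ`

Rankin–Cohen identity `2 E₄ · D E₆ − 3 E₆ · D E₄ = −1728 Δ` (with `D = (2πi)⁻¹ d/dτ`), the
derivative of `J`, and the vanishing orders of `J − J τ₀`.
-/

open UpperHalfPlane hiding I
open ModularForm EisensteinSeries MatrixGroups Complex Filter
open scoped Real Manifold ModularForm Topology

namespace Fermat.Agent.S24.helper2887

noncomputable section

local notation "Δ" => ModularForm.discriminant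
local notation "D" => Derivative.normalizedDerivOfComplex
local notation "𝕢" => Function.Periodic.qParam

/-- Slash invariance of a level-one modular form, for `γ : SL(2, ℤ)`. -/
lemma slash_eq_self {k : ℤ} (f : ModularForm 𝒮ℒ k) (γ : SL(2, ℤ)) :
    (f : ℍ → ℂ) ∣[k] γ = f :=
  SlashInvariantForm.slash_action_eqn f _ ⟨γ, rfl⟩

/-- The weight `k + 2` slash of `D f` for a slash-invariant `f`. -/
lemma D_slash {k : ℤ} (f : ModularForm 𝒮ℒ k) (γ : SL(2, ℤ)) (z : ℍ) :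
    (D (f : ℍ → ℂ) ∣[k + 2] γ) z =
      D (f : ℍ → ℂ) z + (k : ℂ) * (2 * π * I)⁻¹ * (γ 1 0 / denom γ z) * f z := by
  have h := congrFun (Derivative.normalizedDerivOfComplex_SL_slash (k := k) (ModularFormClass.holo f) (γ := γ)) z
  rw [slash_eq_self f γ] at h
  simp only [Pi.sub_apply] at h
  rw [h]
  ring

/-- The Rankin–Cohen bracket `[E₄, E₆]₁ / 2 = 2 E₄ · D E₆ − 3 E₆ · D E₄`. -/
def rc (z : ℍ) : ℂ := 2 * E₄ z * D (E₆ : ℍ → ℂ) z - 3 * E₆ z * D (E₄ : ℍ → ℂ) z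

lemma rc_slash (γ : SL(2, ℤ)) : rc ∣[(12 : ℤ)] γ = rc := by
  ext z
  have h4 := congrFun (slash_eq_self E₄ γ) z
  have h6 := congrFun (slash_eq_self E₆ γ) z
  have hD4 := D_slash E₄ γ z
  have hD6 := D_slash E₆ γ z
  rw [SL_slash_apply] at h4 h6 hD4 hD6 ⊢
  have hd : denom γ z ≠ 0 := denom_ne_zero γ z
  simp only [rc]
  have e12 : denom γ z ^ (-(12:ℤ)) = denom γ z ^ (-(4:ℤ)) * denom γ z ^ (-((6:ℤ) + 2)) := by
    rw [← zpow_add₀ hd]; norm_num
  have e12' : denom γ z ^ (-(12:ℤ)) = denom γ z ^ (-(6:ℤ)) * denom γ z ^ (-((4:ℤ) + 2)) := by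
    rw [← zpow_add₀ hd]; norm_num
  calc (2 * E₄ (γ • z) * D (E₆ : ℍ → ℂ) (γ • z) - 3 * E₆ (γ • z) * D (E₄ : ℍ → ℂ) (γ • z))
        * denom γ z ^ (-(12:ℤ))
      = 2 * (E₄ (γ • z) * denom γ z ^ (-(4:ℤ)))
          * (D (E₆ : ℍ → ℂ) (γ • z) * denom γ z ^ (-((6:ℤ) + 2)))
        - 3 * (E₆ (γ • z) * denom γ z ^ (-(6:ℤ)))
          * (D (E₄ : ℍ → ℂ) (γ • z) * denom γ z ^ (-((4:ℤ) + 2))) := by
        rw [sub_mul]
        congr 1
        · rw [e12]; ring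
        · rw [e12']; ring
    _ = _ := by
        rw [h4, h6, hD4, hD6]
        push_cast
        ring


lemma rc_mdiff : MDiff rc := by
  have h4 : MDiff (E₄ : ℍ → ℂ) := ModularFormClass.holo E₄
  have h6 : MDiff (E₆ : ℍ → ℂ) := ModularFormClass.holo E₆
  have hD4 := Derivative.normalizedDerivOfComplex_mdifferentiable h4
  have hD6 := Derivative.normalizedDerivOfComplex_mdifferentiable h6
  have : rc = (fun _ => (2 : ℂ)) * (E₄ : ℍ → ℂ) * D (E₆ : ℍ → ℂ)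
      - (fun _ => (3 : ℂ)) * (E₆ : ℍ → ℂ) * D (E₄ : ℍ → ℂ) := by
    ext z; simp [rc]
  rw [this]
  exact ((mdifferentiable_const.mul h4).mul hD6).sub ((mdifferentiable_const.mul h6).mul hD4)

/-- `D f` in terms of the cusp function: `D f = q · g'(q)`. -/
lemma D_eq_qParam_mul_deriv_cuspFunction {k : ℤ} (f : ModularForm 𝒮ℒ k) (z : ℍ) :
    D (f : ℍ → ℂ) z = 𝕢 1 z * deriv (cuspFunction 1 f) (𝕢 1 z) := by
  have hq : HasDerivAt (𝕢 1) (2 * π * I * 𝕢 1 z) (z : ℂ) := by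
    have h1 : HasDerivAt (fun w : ℂ => 2 * π * I * w / ((1 : ℝ) : ℂ)) (2 * π * I) (z : ℂ) := by
      simpa using ((hasDerivAt_id (z : ℂ)).const_mul (2 * π * I)).div_const ((1 : ℝ) : ℂ)
    have h2 : HasDerivAt (𝕢 1) (cexp (2 * π * I * (z : ℂ) / ((1 : ℝ) : ℂ)) * (2 * π * I))
        (z : ℂ) := h1.cexp
    have h3 : cexp (2 * π * I * (z : ℂ) / ((1 : ℝ) : ℂ)) * (2 * π * I) = 2 * π * I * 𝕢 1 z := by
      rw [mul_comm]; rfl
    rw [h3] at h2
    exact h2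
  have hg : HasDerivAt (cuspFunction 1 f) (deriv (cuspFunction 1 f) (𝕢 1 z)) (𝕢 1 z) :=
    (ModularFormClass.differentiableAt_cuspFunction f one_pos one_mem_strictPeriods_SL
      (Function.Periodic.norm_qParam_lt_one one_pos z.im_pos)).hasDerivAt
  have hcomp := hg.comp (z : ℂ) hq
  have heq : ((f : ℍ → ℂ) ∘ ofComplex) =ᶠ[𝓝 (z : ℂ)] (cuspFunction 1 f ∘ 𝕢 1) := by
    filter_upwards [isOpen_upperHalfPlaneSet.mem_nhds z.im_pos] with w hw
    simp only [Function.comp_apply, ofComplex_apply_of_im_pos hw]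
    exact (SlashInvariantFormClass.eq_cuspFunction f ⟨w, hw⟩ one_mem_strictPeriods_SL
      one_ne_zero).symm
  have hderiv : deriv ((f : ℍ → ℂ) ∘ ofComplex) (z : ℂ)
      = deriv (cuspFunction 1 f) (𝕢 1 z) * (2 * π * I * 𝕢 1 z) :=
    (hcomp.congr_of_eventuallyEq heq).deriv
  have hne : (2 * π * I : ℂ) ≠ 0 := Complex.two_pi_I_ne_zero
  simp only [Derivative.normalizedDerivOfComplex]
  rw [hderiv]
  field_simp

/-- The function of `q` whose `q`-multiple is `rc`. -/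
def rcAux (q : ℂ) : ℂ :=
  2 * cuspFunction 1 E₄ q * deriv (cuspFunction 1 E₆) q
    - 3 * cuspFunction 1 E₆ q * deriv (cuspFunction 1 E₄) q

lemma rc_eq_qParam_mul (z : ℍ) : rc z = 𝕢 1 z * rcAux (𝕢 1 z) := by
  have e4 := SlashInvariantFormClass.eq_cuspFunction E₄ z one_mem_strictPeriods_SL one_ne_zero
  have e6 := SlashInvariantFormClass.eq_cuspFunction E₆ z one_mem_strictPeriods_SL one_ne_zero
  simp only [rc, rcAux, D_eq_qParam_mul_deriv_cuspFunction, e4, e6]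
  ring

lemma rcAux_continuousAt : ContinuousAt rcAux 0 := by
  have a4 : AnalyticAt ℂ (cuspFunction 1 E₄) 0 :=
    ModularFormClass.analyticAt_cuspFunction_zero E₄ one_pos one_mem_strictPeriods_SL
  have a6 : AnalyticAt ℂ (cuspFunction 1 E₆) 0 :=
    ModularFormClass.analyticAt_cuspFunction_zero E₆ one_pos one_mem_strictPeriods_SL
  have c4 := a4.continuousAt
  have c6 := a6.continuousAt
  have d4 := a4.deriv.continuousAt
  have d6 := a6.deriv.continuousAt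
  unfold rcAux
  exact ((continuousAt_const.mul c4).mul d6).sub ((continuousAt_const.mul c6).mul d4)

lemma rcAux_zero : rcAux 0 = -1728 := by
  have h40 : cuspFunction 1 (E₄ : ℍ → ℂ) 0 = 1 := by
    have h := E_qExpansion_coeff_zero (k := 4) (by norm_num) ⟨2, rfl⟩
    rw [qExpansion_coeff] at h
    simpa using h
  have h60 : cuspFunction 1 (E₆ : ℍ → ℂ) 0 = 1 := by
    have h := E_qExpansion_coeff_zero (k := 6) (by norm_num) ⟨3, rfl⟩
    rw [qExpansion_coeff] at h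
    simpa using h
  have h41 : deriv (cuspFunction 1 (E₄ : ℍ → ℂ)) 0 = 240 := by
    have h := E₄_qExpansion_coeff_one
    rw [qExpansion_coeff] at h
    simpa using h
  have h61 : deriv (cuspFunction 1 (E₆ : ℍ → ℂ)) 0 = -504 := by
    have h := E₆_qExpansion_coeff_one
    rw [qExpansion_coeff] at h
    simpa using h
  simp only [rcAux, h40, h60, h41, h61]
  norm_num

lemma rc_isZeroAtImInfty : IsZeroAtImInfty rc := by
  have hq : Tendsto (fun τ : ℍ => 𝕢 1 τ) atImInfty (𝓝 0) := qParam_tendsto_atImInfty one_pos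
  have hh : Tendsto (fun τ : ℍ => rcAux (𝕢 1 τ)) atImInfty (𝓝 (rcAux 0)) :=
    rcAux_continuousAt.tendsto.comp hq
  have := hq.mul hh
  rw [zero_mul] at this
  exact this.congr fun z => (rc_eq_qParam_mul z).symm

/-- The Rankin–Cohen bracket as a weight 12 cusp form of level one. -/
def rcForm : CuspForm 𝒮ℒ 12 where
  toFun := rc
  slash_action_eq' A hA := by
    obtain ⟨A, rfl⟩ := hA
    exact rc_slash A
  holo' := rc_mdiff
  zero_at_cusps' hc := by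
    rw [Subgroup.IsArithmetic.isCusp_iff_isCusp_SL2Z] at hc
    rw [OnePoint.isZeroAt_iff_forall_SL2Z hc]
    intro γ _
    rw [rc_slash γ]
    exact rc_isZeroAtImInfty

@[simp] lemma rcForm_apply (w : ℍ) : rcForm w = rc w := rfl

/-- **Rankin–Cohen / Ramanujan identity**: `2 E₄ · D E₆ − 3 E₆ · D E₄ = −1728 Δ`. -/
theorem rc_eq (z : ℍ) :
    2 * E₄ z * D (E₆ : ℍ → ℂ) z - 3 * E₆ z * D (E₄ : ℍ → ℂ) z = -1728 * Δ z := by
  obtain ⟨c, hc⟩ := CuspForm.exists_smul_discriminant_of_weight_eq_twelve rcForm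
  have hc' : ∀ w : ℍ, c * Δ w = rc w := fun w => by
    have := congrArg (fun g : CuspForm 𝒮ℒ 12 => g w) hc
    simpa using this
  have key : ∀ w : ℍ, c * (∏' n, (1 - eta_q n w) ^ 24) = rcAux (𝕢 1 w) := fun w => by
    have h1 := hc' w
    rw [discriminant_eq_q_prod, rc_eq_qParam_mul] at h1
    have hq0 : 𝕢 1 (w : ℂ) ≠ 0 := Function.Periodic.qParam_ne_zero _
    apply mul_left_cancel₀ hq0
    rw [← h1]; ring
  have hq : Tendsto (fun τ : ℍ => 𝕢 1 τ) atImInfty (𝓝 0) := qParam_tendsto_atImInfty one_pos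
  have hh : Tendsto (fun τ : ℍ => rcAux (𝕢 1 τ)) atImInfty (𝓝 (rcAux 0)) :=
    rcAux_continuousAt.tendsto.comp hq
  have hP : Tendsto (fun τ : ℍ => c * ∏' n, (1 - eta_q n τ) ^ 24) atImInfty (𝓝 (c * 1)) :=
    tendsto_atImInfty_tprod_one_sub_eta_q_pow.const_mul c
  have hP' : Tendsto (fun τ : ℍ => rcAux (𝕢 1 τ)) atImInfty (𝓝 (c * 1)) :=
    hP.congr key
  have hceq : c = -1728 := by
    have := tendsto_nhds_unique hP' hh
    rw [mul_one, rcAux_zero] at this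
    exact this
  have := hc' z
  rw [hceq] at this
  exact this.symm


/-! ### The function `J = E₄³ / Δ` and its derivative -/

/-- The modular invariant `J = E₄³ / Δ` on the upper half-plane (so `J = q⁻¹ + 744 + …`). -/
abbrev J (z : ℍ) : ℂ := E₄ z ^ 3 / Δ z

lemma J_sub_1728 (z : ℍ) : J z - 1728 = E₆ z ^ 2 / Δ z := by
  have hΔ := discriminant_eq_E₄_cube_sub_E₆_sq z
  have hne : Δ z ≠ 0 := discriminant_ne_zero z
  rw [eq_div_iff hne, sub_mul, div_mul_cancel₀ _ hne, hΔ]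
  ring

lemma differentiableAt_comp_ofComplex {k : ℤ} (f : ModularForm 𝒮ℒ k) (z : ℍ) :
    DifferentiableAt ℂ ((f : ℍ → ℂ) ∘ ofComplex) (z : ℂ) :=
  UpperHalfPlane.mdifferentiableAt_iff.mp (ModularFormClass.holo f z)

lemma deriv_comp_ofComplex {k : ℤ} (f : ModularForm 𝒮ℒ k) (z : ℍ) :
    deriv ((f : ℍ → ℂ) ∘ ofComplex) (z : ℂ) = 2 * π * I * D (f : ℍ → ℂ) z := by
  have hne : (2 * π * I : ℂ) ≠ 0 := Complex.two_pi_I_ne_zero
  simp only [Derivative.normalizedDerivOfComplex]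
  field_simp

/-- Rankin–Cohen identity in terms of honest derivatives. -/
theorem rc_eq_deriv (z : ℍ) :
    2 * E₄ z * deriv ((E₆ : ℍ → ℂ) ∘ ofComplex) z - 3 * E₆ z * deriv ((E₄ : ℍ → ℂ) ∘ ofComplex) z
      = -1728 * (2 * π * I) * Δ z := by
  rw [deriv_comp_ofComplex, deriv_comp_ofComplex]
  linear_combination (2 * π * I) * rc_eq z

/-- The derivative of `J`: `J' = −2πi · E₄² E₆ / Δ`. -/
theorem hasDerivAt_J (z : ℍ) :
    HasDerivAt (J ∘ ofComplex) (-(2 * π * I) * E₄ z ^ 2 * E₆ z / Δ z) (z : ℂ) := by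
  set e4 : ℂ → ℂ := (E₄ : ℍ → ℂ) ∘ ofComplex with he4
  set e6 : ℂ → ℂ := (E₆ : ℍ → ℂ) ∘ ofComplex with he6
  have h4 : HasDerivAt e4 (deriv e4 z) z := (differentiableAt_comp_ofComplex E₄ z).hasDerivAt
  have h6 : HasDerivAt e6 (deriv e6 z) z := (differentiableAt_comp_ofComplex E₆ z).hasDerivAt
  have hfun : J ∘ ofComplex = fun w => 1728 * e4 w ^ 3 / (e4 w ^ 3 - e6 w ^ 2) := by
    funext w
    have hΔ := discriminant_eq_E₄_cube_sub_E₆_sq (ofComplex w)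
    have hne : Δ (ofComplex w) ≠ 0 := discriminant_ne_zero _
    show E₄ (ofComplex w) ^ 3 / Δ (ofComplex w)
      = 1728 * E₄ (ofComplex w) ^ 3 / (E₄ (ofComplex w) ^ 3 - E₆ (ofComplex w) ^ 2)
    rw [hΔ] at hne ⊢
    have hne' : E₄ (ofComplex w) ^ 3 - E₆ (ofComplex w) ^ 2 ≠ 0 := by
      intro h; apply hne; rw [h]; simp
    field_simp
  have e4z : e4 z = E₄ z := by simp [he4, ofComplex_apply]
  have e6z : e6 z = E₆ z := by simp [he6, ofComplex_apply]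
  have hΔz := discriminant_eq_E₄_cube_sub_E₆_sq z
  have hnez : Δ z ≠ 0 := discriminant_ne_zero z
  have hden : e4 z ^ 3 - e6 z ^ 2 ≠ 0 := by
    rw [e4z, e6z]
    intro h; apply hnez; rw [hΔz, h]; simp
  have hnum : HasDerivAt (fun w => 1728 * e4 w ^ 3)
      (1728 * ((3 : ℕ) * e4 z ^ (3 - 1) * deriv e4 z)) z :=
    (h4.fun_pow 3).const_mul (1728 : ℂ)
  have hdn : HasDerivAt (fun w => e4 w ^ 3 - e6 w ^ 2)
      ((3 : ℕ) * e4 z ^ (3 - 1) * deriv e4 z - (2 : ℕ) * e6 z ^ (2 - 1) * deriv e6 z) z :=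
    (h4.fun_pow 3).fun_sub (h6.fun_pow 2)
  have hquot := hnum.fun_div hdn hden
  rw [hfun]
  refine hquot.congr_deriv ?_
  have hrc := rc_eq_deriv z
  rw [← he4, ← he6] at hrc
  rw [e4z, e6z] at hden ⊢
  rw [div_eq_div_iff (pow_ne_zero 2 hden) hnez]
  have hΔ' : (1728 : ℂ) * Δ z = E₄ z ^ 3 - E₆ z ^ 2 := by rw [hΔz]; ring
  push_cast
  simp only [pow_one]
  linear_combination ((1728 : ℂ) * E₄ z ^ 2 * E₆ z * Δ z) * hrc
    - (2 * π * I * E₄ z ^ 2 * E₆ z * (E₄ z ^ 3 - E₆ z ^ 2 + 1728 * Δ z)) * hΔ'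

theorem deriv_J (z : ℍ) :
    deriv (J ∘ ofComplex) (z : ℂ) = -(2 * π * I) * E₄ z ^ 2 * E₆ z / Δ z :=
  (hasDerivAt_J z).deriv


/-! ### Special values at the elliptic points -/

/-- Transformation law of a level-one modular form at a point. -/
lemma apply_smul {k : ℤ} (f : ModularForm 𝒮ℒ k) (γ : SL(2, ℤ)) (z : ℍ) :
    f (γ • z) = denom γ z ^ k * f z := by
  have h := congrFun (slash_eq_self f γ) z
  rw [SL_slash_apply] at h
  have hd : denom γ z ≠ 0 := denom_ne_zero γ z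
  rw [← h, mul_comm (denom γ z ^ k), mul_assoc, ← zpow_add₀ hd, neg_add_cancel, zpow_zero,
    mul_one]

/-- `S` fixes every point with `z² + 1 = 0` (i.e. `z = i`). -/
lemma S_smul_eq_self {z : ℍ} (hz : (z : ℂ) ^ 2 + 1 = 0) : ModularGroup.S • z = z := by
  rw [modular_S_smul]
  apply UpperHalfPlane.ext
  show (-(z : ℂ))⁻¹ = z
  apply inv_eq_of_mul_eq_one_right
  linear_combination -hz

/-- `E₆` vanishes at `i`. -/
theorem E₆_eq_zero_of_sq_add_one {z : ℍ} (hz : (z : ℂ) ^ 2 + 1 = 0) : E₆ z = 0 := by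
  have h := apply_smul E₆ ModularGroup.S z
  rw [S_smul_eq_self hz, ModularGroup.denom_S] at h
  have hz6 : (z : ℂ) ^ (6 : ℤ) = -1 := by
    have h2 : (z : ℂ) ^ 2 = -1 := by linear_combination hz
    have : (z : ℂ) ^ (6 : ℤ) = ((z : ℂ) ^ 2) ^ 3 := by
      rw [← pow_mul]; norm_cast
    rw [this, h2]; norm_num
  rw [hz6] at h
  linear_combination h / 2

/-- `S • z = T • z` for every point with `z² + z + 1 = 0` (i.e. `z = ρ`). -/
lemma S_smul_eq_T_smul {z : ℍ} (hz : (z : ℂ) ^ 2 + z + 1 = 0) :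
    ModularGroup.S • z = ModularGroup.T • z := by
  rw [modular_S_smul, modular_T_smul]
  apply UpperHalfPlane.ext
  show (-(z : ℂ))⁻¹ = (((1 : ℝ) +ᵥ z : ℍ) : ℂ)
  rw [coe_vadd]
  apply inv_eq_of_mul_eq_one_right
  push_cast
  linear_combination -hz

/-- `S * T` fixes every point with `z² + z + 1 = 0` (i.e. `z = ρ`). -/
lemma ST_smul_eq_self {z : ℍ} (hz : (z : ℂ) ^ 2 + z + 1 = 0) :
    (ModularGroup.S * ModularGroup.T) • z = z := by
  rw [mul_smul, modular_T_smul, modular_S_smul]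
  apply UpperHalfPlane.ext
  show (-(((1 : ℝ) +ᵥ z : ℍ) : ℂ))⁻¹ = z
  rw [coe_vadd]
  apply inv_eq_of_mul_eq_one_right
  push_cast
  linear_combination -hz

lemma denom_T (z : ℍ) : denom ModularGroup.T z = 1 := by
  simp [denom, ModularGroup.T]

/-- `E₄` vanishes at `ρ`. -/
theorem E₄_eq_zero_of_sq_add_self_add_one {z : ℍ} (hz : (z : ℂ) ^ 2 + z + 1 = 0) :
    E₄ z = 0 := by
  have hS := apply_smul E₄ ModularGroup.S z
  have hT := apply_smul E₄ ModularGroup.T z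
  rw [S_smul_eq_T_smul hz, hT, ModularGroup.denom_S, denom_T] at hS
  have hz4 : (z : ℂ) ^ (4 : ℤ) = z := by
    have : (z : ℂ) ^ (4 : ℤ) = (z : ℂ) ^ 4 := by norm_cast
    rw [this]
    linear_combination ((z : ℂ) ^ 2 - z) * hz
  rw [hz4, one_zpow, one_mul] at hS
  have hz1 : (z : ℂ) - 1 ≠ 0 := by
    intro h
    have h1 : (z : ℂ) = 1 := by linear_combination h
    rw [h1] at hz
    norm_num at hz
  have : ((z : ℂ) - 1) * E₄ z = 0 := by linear_combination -hS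
  exact (mul_eq_zero.mp this).resolve_left hz1

theorem E₄_ne_zero_of_sq_add_one {z : ℍ} (hz : (z : ℂ) ^ 2 + 1 = 0) : E₄ z ≠ 0 := by
  intro h
  have hΔ := discriminant_eq_E₄_cube_sub_E₆_sq z
  rw [h, E₆_eq_zero_of_sq_add_one hz] at hΔ
  exact discriminant_ne_zero z (by rw [hΔ]; norm_num)

theorem E₆_ne_zero_of_sq_add_self_add_one {z : ℍ} (hz : (z : ℂ) ^ 2 + z + 1 = 0) :
    E₆ z ≠ 0 := by
  intro h
  have hΔ := discriminant_eq_E₄_cube_sub_E₆_sq z
  rw [h, E₄_eq_zero_of_sq_add_self_add_one hz] at hΔ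
  exact discriminant_ne_zero z (by rw [hΔ]; norm_num)

/-- `E₆` has a simple zero at `i`. -/
theorem deriv_E₆_ne_zero_of_sq_add_one {z : ℍ} (hz : (z : ℂ) ^ 2 + 1 = 0) :
    deriv ((E₆ : ℍ → ℂ) ∘ ofComplex) z ≠ 0 := by
  intro h
  have hrc := rc_eq_deriv z
  rw [h, E₆_eq_zero_of_sq_add_one hz] at hrc
  have hne : (-1728 * (2 * π * I) * Δ z : ℂ) ≠ 0 :=
    mul_ne_zero (mul_ne_zero (by norm_num) Complex.two_pi_I_ne_zero) (discriminant_ne_zero z)
  apply hne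
  rw [← hrc]; ring

/-- `E₄` has a simple zero at `ρ`. -/
theorem deriv_E₄_ne_zero_of_sq_add_self_add_one {z : ℍ} (hz : (z : ℂ) ^ 2 + z + 1 = 0) :
    deriv ((E₄ : ℍ → ℂ) ∘ ofComplex) z ≠ 0 := by
  intro h
  have hrc := rc_eq_deriv z
  rw [h, E₄_eq_zero_of_sq_add_self_add_one hz] at hrc
  have hne : (-1728 * (2 * π * I) * Δ z : ℂ) ≠ 0 :=
    mul_ne_zero (mul_ne_zero (by norm_num) Complex.two_pi_I_ne_zero) (discriminant_ne_zero z)
  apply hne
  rw [← hrc]; ring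

lemma J_eq_zero_iff (z : ℍ) : J z = 0 ↔ E₄ z = 0 := by
  simp [J, discriminant_ne_zero z]

lemma J_eq_1728_iff (z : ℍ) : J z = 1728 ↔ E₆ z = 0 := by
  rw [← sub_eq_zero, J_sub_1728]
  simp [discriminant_ne_zero z]

/-- `J(i) = 1728`. -/
theorem J_eq_1728_of_sq_add_one {z : ℍ} (hz : (z : ℂ) ^ 2 + 1 = 0) : J z = 1728 :=
  (J_eq_1728_iff z).mpr (E₆_eq_zero_of_sq_add_one hz)

/-- `J(ρ) = 0`. -/
theorem J_eq_zero_of_sq_add_self_add_one {z : ℍ} (hz : (z : ℂ) ^ 2 + z + 1 = 0) : J z = 0 :=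
  (J_eq_zero_iff z).mpr (E₄_eq_zero_of_sq_add_self_add_one hz)

lemma I_sq_add_one : ((UpperHalfPlane.I : ℍ) : ℂ) ^ 2 + 1 = 0 := by
  simp

lemma ρ_sq_add_self_add_one : ((ρ : ℍ) : ℂ) ^ 2 + ρ + 1 = 0 := by
  rw [ρ_sq]; ring

/-! ### Analyticity and the vanishing orders of `J - J τ₀` -/

lemma analyticAt_comp_ofComplex {k : ℤ} (f : ModularForm 𝒮ℒ k) (z : ℍ) :
    AnalyticAt ℂ ((f : ℍ → ℂ) ∘ ofComplex) (z : ℂ) :=
  (UpperHalfPlane.mdifferentiable_iff.mp (ModularFormClass.holo f)).analyticAt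
    (isOpen_upperHalfPlaneSet.mem_nhds z.im_pos)

lemma analyticAt_discriminant (z : ℍ) :
    AnalyticAt ℂ (fun w : ℂ => Δ (ofComplex w)) (z : ℂ) := by
  have h4 := analyticAt_comp_ofComplex E₄ z
  have h6 := analyticAt_comp_ofComplex E₆ z
  have hfun : (fun w : ℂ => Δ (ofComplex w))
      = fun w => (1728 : ℂ)⁻¹ * (((E₄ : ℍ → ℂ) ∘ ofComplex) w ^ 3
          - ((E₆ : ℍ → ℂ) ∘ ofComplex) w ^ 2) := by
    funext w
    rw [discriminant_eq_E₄_cube_sub_E₆_sq]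
    simp only [Function.comp_apply]
    ring
  rw [hfun]
  exact analyticAt_const.mul ((h4.pow 3).sub (h6.pow 2))

lemma analyticAt_discriminant_inv (z : ℍ) :
    AnalyticAt ℂ (fun w : ℂ => (Δ (ofComplex w))⁻¹) (z : ℂ) :=
  (analyticAt_discriminant z).inv (by rw [ofComplex_apply]; exact discriminant_ne_zero z)

lemma analyticAt_J (z : ℍ) : AnalyticAt ℂ (J ∘ ofComplex) (z : ℂ) := by
  have h4 := analyticAt_comp_ofComplex E₄ z
  have hfun : J ∘ ofComplex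
      = fun w => ((E₄ : ℍ → ℂ) ∘ ofComplex) w ^ 3 * (Δ (ofComplex w))⁻¹ := by
    funext w
    simp only [Function.comp_apply, J, div_eq_mul_inv]
  rw [hfun]
  exact (h4.pow 3).mul (analyticAt_discriminant_inv z)

/-- Every zero of `E₄` is simple. -/
theorem deriv_E₄_ne_zero_of_E₄_eq_zero {z : ℍ} (hz : E₄ z = 0) :
    deriv ((E₄ : ℍ → ℂ) ∘ ofComplex) z ≠ 0 := by
  intro h
  have hrc := rc_eq_deriv z
  rw [h, hz] at hrc
  have hne : (-1728 * (2 * π * I) * Δ z : ℂ) ≠ 0 :=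
    mul_ne_zero (mul_ne_zero (by norm_num) Complex.two_pi_I_ne_zero) (discriminant_ne_zero z)
  apply hne
  rw [← hrc]; ring

/-- Every zero of `E₆` is simple. -/
theorem deriv_E₆_ne_zero_of_E₆_eq_zero {z : ℍ} (hz : E₆ z = 0) :
    deriv ((E₆ : ℍ → ℂ) ∘ ofComplex) z ≠ 0 := by
  intro h
  have hrc := rc_eq_deriv z
  rw [h, hz] at hrc
  have hne : (-1728 * (2 * π * I) * Δ z : ℂ) ≠ 0 :=
    mul_ne_zero (mul_ne_zero (by norm_num) Complex.two_pi_I_ne_zero) (discriminant_ne_zero z)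
  apply hne
  rw [← hrc]; ring

theorem analyticOrderAt_E₄_of_E₄_eq_zero {z : ℍ} (hz : E₄ z = 0) :
    analyticOrderAt ((E₄ : ℍ → ℂ) ∘ ofComplex) (z : ℂ) = 1 :=
  (analyticAt_comp_ofComplex E₄ z).analyticOrderAt_eq_one_of_zero_deriv_ne_zero
    (by simp [ofComplex_apply, hz]) (deriv_E₄_ne_zero_of_E₄_eq_zero hz)

theorem analyticOrderAt_E₆_of_E₆_eq_zero {z : ℍ} (hz : E₆ z = 0) :
    analyticOrderAt ((E₆ : ℍ → ℂ) ∘ ofComplex) (z : ℂ) = 1 :=
  (analyticAt_comp_ofComplex E₆ z).analyticOrderAt_eq_one_of_zero_deriv_ne_zero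
    (by simp [ofComplex_apply, hz]) (deriv_E₆_ne_zero_of_E₆_eq_zero hz)

theorem deriv_J_ne_zero {z : ℍ} (h4 : E₄ z ≠ 0) (h6 : E₆ z ≠ 0) :
    deriv (J ∘ ofComplex) (z : ℂ) ≠ 0 := by
  rw [deriv_J]
  exact div_ne_zero (mul_ne_zero (mul_ne_zero (neg_ne_zero.mpr Complex.two_pi_I_ne_zero)
    (pow_ne_zero 2 h4)) h6) (discriminant_ne_zero z)

/-- **Generic points**: if `E₄ z ≠ 0` and `E₆ z ≠ 0` (i.e. `J z ∉ {0, 1728}`), then `J - J z`
has a simple zero at `z`. -/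
theorem analyticOrderAt_J_sub_eq_one {z : ℍ} (h4 : E₄ z ≠ 0) (h6 : E₆ z ≠ 0) :
    analyticOrderAt (fun w : ℂ => J (ofComplex w) - J z) (z : ℂ) = 1 := by
  have h := (analyticAt_J z).analyticOrderAt_sub_eq_one_of_deriv_ne_zero (deriv_J_ne_zero h4 h6)
  have e : (J ∘ ofComplex) (z : ℂ) = J z := by simp only [Function.comp_apply, ofComplex_apply]
  rw [e] at h
  exact h

/-- **Zeros of `E₆`** (the orbit of `i`): `J - J z = J - 1728` vanishes to order exactly `2`. -/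
theorem analyticOrderAt_J_sub_eq_two {z : ℍ} (h6 : E₆ z = 0) :
    analyticOrderAt (fun w : ℂ => J (ofComplex w) - J z) (z : ℂ) = 2 := by
  have a6 := analyticAt_comp_ofComplex E₆ z
  have ad := analyticAt_discriminant_inv z
  have hfun : (fun w : ℂ => J (ofComplex w) - J z)
      = ((E₆ : ℍ → ℂ) ∘ ofComplex) ^ 2 * (fun w : ℂ => (Δ (ofComplex w))⁻¹) := by
    funext w
    rw [(J_eq_1728_iff z).mpr h6, J_sub_1728]
    simp only [Pi.mul_apply, Pi.pow_apply, Function.comp_apply, div_eq_mul_inv]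
  have hd0 : analyticOrderAt (fun w : ℂ => (Δ (ofComplex w))⁻¹) (z : ℂ) = 0 := by
    rw [ad.analyticOrderAt_eq_zero, ofComplex_apply]
    exact inv_ne_zero (discriminant_ne_zero z)
  rw [hfun, analyticOrderAt_mul (a6.pow 2) ad, analyticOrderAt_pow a6,
    analyticOrderAt_E₆_of_E₆_eq_zero h6, hd0]
  rfl

/-- **Zeros of `E₄`** (the orbit of `ρ`): `J - J z = J` vanishes to order exactly `3`. -/
theorem analyticOrderAt_J_sub_eq_three {z : ℍ} (h4 : E₄ z = 0) :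
    analyticOrderAt (fun w : ℂ => J (ofComplex w) - J z) (z : ℂ) = 3 := by
  have a4 := analyticAt_comp_ofComplex E₄ z
  have ad := analyticAt_discriminant_inv z
  have hfun : (fun w : ℂ => J (ofComplex w) - J z)
      = ((E₄ : ℍ → ℂ) ∘ ofComplex) ^ 3 * (fun w : ℂ => (Δ (ofComplex w))⁻¹) := by
    funext w
    rw [(J_eq_zero_iff z).mpr h4, sub_zero]
    simp only [Pi.mul_apply, Pi.pow_apply, Function.comp_apply, J, div_eq_mul_inv]
  have hd0 : analyticOrderAt (fun w : ℂ => (Δ (ofComplex w))⁻¹) (z : ℂ) = 0 := by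
    rw [ad.analyticOrderAt_eq_zero, ofComplex_apply]
    exact inv_ne_zero (discriminant_ne_zero z)
  rw [hfun, analyticOrderAt_mul (a4.pow 3) ad, analyticOrderAt_pow a4,
    analyticOrderAt_E₄_of_E₄_eq_zero h4, hd0]
  rfl

/-- `E₄` and `E₆` have no common zero. -/
lemma E₆_ne_zero_of_E₄_eq_zero {z : ℍ} (h4 : E₄ z = 0) : E₆ z ≠ 0 := by
  intro h
  have hΔ := discriminant_eq_E₄_cube_sub_E₆_sq z
  rw [h, h4] at hΔ
  exact discriminant_ne_zero z (by rw [hΔ]; norm_num)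

/-- **Local orders of `J`**, all cases at once: for every `z : ℍ` the function `J - J z` vanishes
at `z` to order `3` if `E₄ z = 0` (iff `J z = 0`), `2` if `E₆ z = 0` (iff `J z = 1728`), and `1`
otherwise. -/
theorem analyticOrderAt_J_sub (z : ℍ) :
    analyticOrderAt (fun w : ℂ => J (ofComplex w) - J z) (z : ℂ)
      = if E₄ z = 0 then 3 else if E₆ z = 0 then 2 else 1 := by
  by_cases h4 : E₄ z = 0
  · rw [if_pos h4]; exact analyticOrderAt_J_sub_eq_three h4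
  · rw [if_neg h4]
    by_cases h6 : E₆ z = 0
    · rw [if_pos h6]; exact analyticOrderAt_J_sub_eq_two h6
    · rw [if_neg h6]; exact analyticOrderAt_J_sub_eq_one h4 h6

/-- Same statement, in terms of the value of `J`. -/
theorem analyticOrderAt_J_sub' (z : ℍ) :
    analyticOrderAt (fun w : ℂ => J (ofComplex w) - J z) (z : ℂ)
      = if J z = 0 then 3 else if J z = 1728 then 2 else 1 := by
  rw [analyticOrderAt_J_sub]
  simp only [J_eq_zero_iff, J_eq_1728_iff]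

/-- The order of `J - 1728` at `i` is `2`. -/
theorem analyticOrderAt_J_sub_I :
    analyticOrderAt (fun w : ℂ => J (ofComplex w) - J UpperHalfPlane.I)
      ((UpperHalfPlane.I : ℍ) : ℂ) = 2 :=
  analyticOrderAt_J_sub_eq_two (E₆_eq_zero_of_sq_add_one I_sq_add_one)

/-- The order of `J` at `ρ` is `3`. -/
theorem analyticOrderAt_J_sub_ρ :
    analyticOrderAt (fun w : ℂ => J (ofComplex w) - J ρ) ((ρ : ℍ) : ℂ) = 3 :=
  analyticOrderAt_J_sub_eq_three (E₄_eq_zero_of_sq_add_self_add_one ρ_sq_add_self_add_one)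

theorem E₆_I : E₆ UpperHalfPlane.I = 0 := E₆_eq_zero_of_sq_add_one I_sq_add_one

theorem E₄_ρ : E₄ ρ = 0 := E₄_eq_zero_of_sq_add_self_add_one ρ_sq_add_self_add_one

theorem J_I : J UpperHalfPlane.I = 1728 := J_eq_1728_of_sq_add_one I_sq_add_one

theorem J_ρ : J ρ = 0 := J_eq_zero_of_sq_add_self_add_one ρ_sq_add_self_add_one

/-- `J` is invariant under `SL(2, ℤ)`. -/
theorem J_smul (γ : SL(2, ℤ)) (z : ℍ) : J (γ • z) = J z := by
  have h4 := apply_smul E₄ γ z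
  have h6 := apply_smul E₆ γ z
  have hd : denom γ z ≠ 0 := denom_ne_zero γ z
  have hΔ1 := discriminant_eq_E₄_cube_sub_E₆_sq (γ • z)
  have hΔ2 := discriminant_eq_E₄_cube_sub_E₆_sq z
  have hne1 : Δ (γ • z) ≠ 0 := discriminant_ne_zero _
  have hne2 : Δ z ≠ 0 := discriminant_ne_zero _
  have e4 : (denom γ z ^ (4 : ℤ)) ^ 3 = denom γ z ^ (12 : ℤ) := by
    rw [← zpow_natCast, ← zpow_mul]; norm_num
  have e6 : (denom γ z ^ (6 : ℤ)) ^ 2 = denom γ z ^ (12 : ℤ) := by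
    rw [← zpow_natCast, ← zpow_mul]; norm_num
  have hΔ : Δ (γ • z) = denom γ z ^ (12 : ℤ) * Δ z := by
    rw [hΔ1, hΔ2, h4, h6, mul_pow, mul_pow, e4, e6]; ring
  show E₄ (γ • z) ^ 3 / Δ (γ • z) = E₄ z ^ 3 / Δ z
  rw [hΔ, h4, mul_pow, e4]
  exact mul_div_mul_left _ _ (zpow_ne_zero 12 hd)


end

end Fermat.Agent.S24.helper2887
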