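import Fermat.Agent.S24.helper864_LocalDatum
import Fermat.Agent.S24.helper315_Embed

/-!
# S24 / MOD: the local datum at the cusp (`Stmt_LocalInf`), without hypotheses

For `g ∈ SL(2, ℤ)`, `phi N g : FN N →+* LaurentSeries ℂ` is the expansion at the cusp, in
`t = exp (2πiτ/N)`, of `τ ↦ (ev a) (g τ)`.  It only depends on the coset `Γ₀(N) g`, the
translation `T` acts by the coefficient twist by `exp (2πi/N)`, and different cosets give
different embeddings.  Indexing by `x = g Γ₀(N) ↦ phi N g⁻¹` gives `Stmt_LocalInf` through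
`helper864.localDatum_of_twist`.
-/

set_option autoImplicit false

open Complex Filter Function Topology ModularCurve CongruenceSubgroup
open UpperHalfPlane hiding I
open scoped Real Manifold MatrixGroups

noncomputable section

namespace Fermat.Agent.S24.helper315

open Fermat.Agent.S24.helper24 Fermat.Agent.S24.helper3176

variable (N : ℕ) [NeZero N]

/-- `τ ↦ ev a (g τ)` is meromorphic at the cusp (period `N`). -/
theorem isCuspMer_ev_comp (g : SL(2, ℤ)) (a : AN N) :
    IsCuspMer (N : ℝ) (fun τ : ℍ => ev N a (g • τ)) := by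
  induction a using AN_induction N with
  | hgen d hd =>
    have hd0 : 0 < d := Nat.pos_of_ne_zero (NeZero.ne d)
    obtain ⟨a, b, e, ha, he, hae, -, -, hJ⟩ := helper288.exists_jFn_mul_smul g d hd0
    obtain ⟨m, hm⟩ := hd
    have hk : e * ((a.toNat * m : ℕ) : ℤ) = (N : ℤ) := by
      push_cast
      rw [Int.toNat_of_nonneg ha.le, hm]
      push_cast
      rw [← hae]
      ring
    have h1 := (cuspExpFun_jFun_affinePt N a b e ha he (a.toNat * m) hk).1
    have e1 : (fun τ : ℍ => ev N ⟨jBarD N d (Dvd.intro m hm.symm), jBarD_mem_AN N d _⟩ (g • τ))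
        = fun τ : ℍ => jFun (helper288.affinePt a b e ha he τ) := by
      funext τ
      rw [ev_jBarD]
      exact hJ τ
    rw [e1]
    exact h1
  | hc c =>
    rw [ev_algebraMap]
    exact (IsCuspHol.const _ _).isCuspMer
  | hadd a b ha hb =>
    have e1 : (fun τ : ℍ => ev N (a + b) (g • τ))
        = (fun τ : ℍ => ev N a (g • τ)) + (fun τ : ℍ => ev N b (g • τ)) := by
      funext τ
      rw [map_add]
      rfl
    rw [e1]
    exact ha.add (natCast_pos' N) hb
  | hmul a b ha hb =>
    have e1 : (fun τ : ℍ => ev N (a * b) (g • τ))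
        = (fun τ : ℍ => ev N a (g • τ)) * (fun τ : ℍ => ev N b (g • τ)) := by
      funext τ
      rw [map_mul]
      rfl
    rw [e1]
    exact ha.mul hb

/-- `a ↦ ev a ∘ g` as a ring hom into `cuspMer N`. -/
def pullSub (g : SL(2, ℤ)) : AN N →+* cuspMer N where
  toFun a := ⟨fun τ : ℍ => ev N a (g • τ), isCuspMer_ev_comp N g a⟩
  map_one' := Subtype.ext (by funext τ; simp only [map_one]; rfl)
  map_mul' a b := Subtype.ext (by funext τ; simp only [map_mul]; rfl)
  map_zero' := Subtype.ext (by funext τ; simp only [map_zero]; rfl)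
  map_add' a b := Subtype.ext (by funext τ; simp only [map_add]; rfl)

theorem pullSub_apply (g : SL(2, ℤ)) (a : AN N) (τ : ℍ) :
    (pullSub N g a : ℍ → ℂ) τ = ev N a (g • τ) := rfl

theorem pullSub_injective (g : SL(2, ℤ)) : Function.Injective (pullSub N g) := by
  intro a b hab
  apply ev_injective N
  funext τ
  have h1 := congrFun (congrArg Subtype.val hab) (g⁻¹ • τ)
  simpa only [pullSub_apply, smul_inv_smul] using h1

/-- The expansion at the cusp of `a ↦ ev a ∘ g`. -/
def phi0 (g : SL(2, ℤ)) : AN N →+* LaurentSeries ℂ := (cuspExp N).comp (pullSub N g)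

theorem phi0_injective (g : SL(2, ℤ)) : Function.Injective (phi0 N g) :=
  (cuspExp_injective N).comp (pullSub_injective N g)

/-- The cusp embedding attached to `g`, on the whole function field. -/
def phi (g : SL(2, ℤ)) : FN N →+* LaurentSeries ℂ := IsFractionRing.lift (phi0_injective N g)

theorem phi_coe (g : SL(2, ℤ)) (a : AN N) : phi N g (a : FN N) = cuspExp N (pullSub N g a) :=
  IsFractionRing.lift_algebraMap (phi0_injective N g) a

theorem phi_algebraMap (g : SL(2, ℤ)) (c : Kbar) :
    phi N g (algebraMap Kbar (FN N) c) = HahnSeries.C (iota0 c) := by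
  have h1 : algebraMap Kbar (FN N) c = ((algebraMap Kbar (AN N) c : AN N) : FN N) := rfl
  rw [h1, phi_coe]
  have h2 : pullSub N g (algebraMap Kbar (AN N) c) = constElem N (iota0 c) := by
    apply Subtype.ext
    funext τ
    rw [pullSub_apply, ev_algebraMap]
    rfl
  rw [h2, cuspExp_constElem]

theorem phi_jBar (g : SL(2, ℤ)) : phi N g (jBar N) = theta N (jBar N) := by
  have h1 : jBar N = ((⟨jBar N, jBar_mem_AN N⟩ : AN N) : FN N) := rfl
  rw [h1, phi_coe]
  have h2 : pullSub N g ⟨jBar N, jBar_mem_AN N⟩ = evSub N ⟨jBar N, jBar_mem_AN N⟩ := by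
    apply Subtype.ext
    funext τ
    rw [pullSub_apply, ← ev_apply, ev_jBar, jFun_smul]
  rw [h2, cuspExp_evSub]

theorem phi_mul_of_mem_Gamma0 {γ : SL(2, ℤ)} (hγ : γ ∈ Gamma0 N) (g : SL(2, ℤ)) :
    phi N (γ * g) = phi N g := by
  apply ringHom_ext_of_AN
  intro a
  rw [phi_coe, phi_coe]
  congr 1
  apply Subtype.ext
  funext τ
  rw [pullSub_apply, pullSub_apply, mul_smul, ev_smul_of_mem_Gamma0 N hγ]

theorem twist_phi (g : SL(2, ℤ)) (f : FN N) :
    twist (zetaN N) (phi N g f) = phi N (g * ModularGroup.T) f := by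
  have h : ((twist (zetaN N)).toRingHom.comp (phi N g)) = phi N (g * ModularGroup.T) := by
    apply ringHom_ext_of_AN
    intro a
    rw [RingHom.comp_apply, phi_coe, phi_coe]
    have h1 := (cuspExpFun_vadd_one N (pullSub N g a).2).2
    have h2 : (pullSub N (g * ModularGroup.T) a : ℍ → ℂ)
        = fun τ : ℍ => (pullSub N g a : ℍ → ℂ) ((1 : ℝ) +ᵥ τ) := by
      funext τ
      rw [pullSub_apply, pullSub_apply, mul_smul, modular_T_smul]
    rw [cuspExp_apply, cuspExp_apply, h2, h1]
    rfl
  exact congrArg (fun ψ : FN N →+* LaurentSeries ℂ => ψ f) h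

theorem mul_inv_mem_Gamma0_of_phi_eq {g g' : SL(2, ℤ)} (h : phi N g = phi N g') :
    g * g'⁻¹ ∈ Gamma0 N := by
  refine mul_inv_mem_Gamma0_of_ev_smul N (fun a τ => ?_)
  have h1 : phi N g (a : FN N) = phi N g' (a : FN N) := by rw [h]
  rw [phi_coe, phi_coe] at h1
  have h2 := cuspExp_injective N h1
  have h3 := congrFun (congrArg Subtype.val h2) τ
  exact h3

/-! ## The family indexed by `SL(2, ℤ) ⧸ Γ₀(N)` -/

/-- The cusp embeddings indexed by left cosets: `g Γ₀(N) ↦ phi N g⁻¹`. -/
def Phi : XN N → (FN N →+* LaurentSeries ℂ) :=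
  fun x => Quotient.liftOn' x (fun g => phi N g⁻¹) (fun g g' hgg' => by
    have h1 : g⁻¹ * g' ∈ Gamma0 N := QuotientGroup.leftRel_apply.mp hgg'
    have h2 : g'⁻¹ = (g⁻¹ * g')⁻¹ * g⁻¹ := by group
    show phi N g⁻¹ = phi N g'⁻¹
    rw [h2, phi_mul_of_mem_Gamma0 N (inv_mem h1)])

theorem Phi_mk (g : SL(2, ℤ)) : Phi N (QuotientGroup.mk g) = phi N g⁻¹ := rfl

theorem Phi_injective : Function.Injective (Phi N) := by
  intro x y
  induction x using QuotientGroup.induction_on with
  | H g =>
    induction y using QuotientGroup.induction_on with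
    | H g' =>
      intro h
      rw [Phi_mk, Phi_mk] at h
      have h1 := mul_inv_mem_Gamma0_of_phi_eq N h
      rw [inv_inv] at h1
      exact QuotientGroup.eq.mpr h1

theorem twist_Phi (x : XN N) (f : FN N) :
    twist (zetaN N) (Phi N x f) = Phi N (ModularGroup.T⁻¹ • x) f := by
  induction x using QuotientGroup.induction_on with
  | H g =>
    have h1 : (ModularGroup.T⁻¹ • (QuotientGroup.mk g : XN N)) = QuotientGroup.mk (ModularGroup.T⁻¹ * g) :=
      rfl
    rw [h1, Phi_mk, Phi_mk, twist_phi, mul_inv_rev, inv_inv]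

theorem theta_jBar_eq : theta N (jBar N) = qExpand ℂ N jqC := by
  have h := theta_jBarD N 1 (one_dvd N)
  have e : jBarD N 1 (one_dvd N) = jBar N := rfl
  rw [e] at h
  rw [h]
  exact qExpand_congr (mul_one N) jqC

theorem theta_jBar_ne_zero : theta N (jBar N) ≠ 0 := by
  rw [theta_jBar_eq]
  intro h0
  exact jqC_ne_zero (qExpand_injective N (by rw [h0, map_zero]))

theorem order_theta_jBar_inv : ((theta N (jBar N))⁻¹).order = (N : ℤ) := by
  have h0 := theta_jBar_ne_zero N
  have h1 : (theta N (jBar N))⁻¹ * theta N (jBar N) = 1 := inv_mul_cancel₀ h0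
  have h2 := HahnSeries.order_mul (inv_ne_zero h0) h0
  rw [h1, HahnSeries.order_one] at h2
  have h3 : (theta N (jBar N)).order = -(N : ℤ) := by
    rw [theta_jBar_eq, order_qExpand, order_jqC]
    ring
  rw [h3] at h2
  linarith

theorem isPrimitiveRoot_zetaN : IsPrimitiveRoot (zetaN N) N := by
  rw [← IsPrimitiveRoot.coe_units_iff]
  exact Complex.isPrimitiveRoot_exp N (NeZero.ne N)

theorem helper864_twist_eq (ζ : ℂˣ) (x : LaurentSeries ℂ) : helper864.twist ζ x = twist ζ x := rfl

/-- **`Stmt_LocalInf`**: the local datum at the cusp, for every level. -/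
theorem localDatum_inf : LocalDatum N (jBar N)⁻¹ N ModularGroup.T := by
  refine helper864.localDatum_of_twist N (jBar N)⁻¹ N (Nat.pos_of_ne_zero (NeZero.ne N))
    ModularGroup.T iota0 (zetaN N) (isPrimitiveRoot_zetaN N) (Phi N) ?_ (Phi_injective N)
    (theta N (jBar N))⁻¹ ?_ (inv_ne_zero (theta_jBar_ne_zero N)) (order_theta_jBar_inv N)
    (Or.inr ?_)
  · intro x c
    induction x using QuotientGroup.induction_on with
    | H g => rw [Phi_mk, phi_algebraMap]
  · intro x
    induction x using QuotientGroup.induction_on with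
    | H g => rw [Phi_mk, map_inv₀, phi_jBar]
  · intro x f
    rw [helper864_twist_eq]
    exact twist_Phi N x f

theorem stmt_LocalInf : Stmt_LocalInf := fun N _ => localDatum_inf N

end Fermat.Agent.S24.helper315
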