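import Fermat.Agent.S24.helper1644_AnalyticJ
import Fermat.Prelude.Def_ModularCurve_LaurentCoeff

/-!
# S24, module M1b (helper3176): the formal ↔ convergent dictionary

`HasQExp h f E` says that the function `f : ℍ → ℂ` is given on the whole upper half plane by the
convergent Laurent series `E` in the parameter `𝕢 = exp (2πiτ/h)`:
`f τ = ∑_{k ∈ ℤ} E.coeff k * 𝕢 ^ k`.

Such pairs `(f, E)` form a subring of `(ℍ → ℂ) × LaurentSeries ℂ`, and each component determines
the other.  Hence the functions having an expansion form a subring `qExpSubring h` of `ℍ → ℂ`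
with an injective ring hom `qExpHom` to `LaurentSeries ℂ`, and the convergent series form a
subring `convSubring h` of `LaurentSeries ℂ` with an injective ring hom `evalHom` to `ℍ → ℂ`.
-/

set_option autoImplicit false

open UpperHalfPlane Function.Periodic Complex ModularCurve
open scoped Real Manifold

namespace Fermat.Agent.S24.helper3176

noncomputable section

/-! ## Sums over `ℤ` -/

/-- Convolution of two absolutely summable families indexed by `ℤ`. -/
theorem hasSum_int_conv {a b : ℤ → ℂ} {s t : ℂ} (ha : HasSum a s) (hb : HasSum b t)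
    (c : ℤ → ℂ) (hc : ∀ n, HasSum (fun i => a i * b (n - i)) (c n)) : HasSum c (s * t) := by
  have hprod : HasSum (fun p : ℤ × ℤ => a p.1 * b p.2) (s * t) :=
    ha.mul hb (summable_mul_of_summable_norm ha.summable.norm hb.summable.norm)
  let e : ℤ × ℤ ≃ ℤ × ℤ :=
    { toFun := fun p => (p.2, p.1 - p.2)
      invFun := fun p => (p.1 + p.2, p.1)
      left_inv := fun p => by ext <;> simp
      right_inv := fun p => by ext <;> simp }
  have hprod' : HasSum ((fun p : ℤ × ℤ => a p.1 * b p.2) ∘ e) (s * t) :=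
    e.hasSum_iff.mpr hprod
  exact hprod'.prod_fiberwise hc

/-- The Cauchy product of two Laurent-type sums over `ℤ`. -/
theorem hasSum_cauchy_int {q : ℂ} (hq : q ≠ 0) {s t : ℂ}
    (E E' : LaurentSeries ℂ)
    (h1 : HasSum (fun k : ℤ => E.coeff k * q ^ k) s)
    (h2 : HasSum (fun k : ℤ => E'.coeff k * q ^ k) t) :
    HasSum (fun k : ℤ => (E * E').coeff k * q ^ k) (s * t) := by
  refine hasSum_int_conv h1 h2 _ fun n => ?_
  set A := Finset.antidiagonal E.isPWO_support E'.isPWO_support n with hA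
  have hF : ∀ i : ℤ, (E.coeff i * q ^ i) * (E'.coeff (n - i) * q ^ (n - i))
      = E.coeff i * E'.coeff (n - i) * q ^ n := by
    intro i
    have : q ^ i * q ^ (n - i) = q ^ n := by rw [← zpow_add₀ hq]; congr 1; ring
    rw [← this]; ring
  have hsupp : ∀ i ∉ A.image Prod.fst,
      (E.coeff i * q ^ i) * (E'.coeff (n - i) * q ^ (n - i)) = 0 := by
    intro i hi
    by_contra hne
    apply hi
    have h1 : E.coeff i ≠ 0 := fun h0 => hne (by rw [h0]; ring)
    have h2 : E'.coeff (n - i) ≠ 0 := fun h0 => hne (by rw [h0]; ring)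
    refine Finset.mem_image.mpr ⟨(i, n - i), ?_, rfl⟩
    rw [hA, Finset.mem_antidiagonal]
    exact ⟨h1, h2, by simp⟩
  have hsum : HasSum (fun i : ℤ => (E.coeff i * q ^ i) * (E'.coeff (n - i) * q ^ (n - i)))
      (∑ i ∈ A.image Prod.fst, (E.coeff i * q ^ i) * (E'.coeff (n - i) * q ^ (n - i))) :=
    hasSum_sum_of_ne_finset_zero hsupp
  have heq : ∑ i ∈ A.image Prod.fst, (E.coeff i * q ^ i) * (E'.coeff (n - i) * q ^ (n - i))
      = (E * E').coeff n * q ^ n := by
    rw [HahnSeries.coeff_mul, Finset.sum_mul, Finset.sum_image]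
    · refine Finset.sum_congr rfl fun ij hij => ?_
      have h3 : ij.1 + ij.2 = n := (Finset.mem_antidiagonal.mp hij).2.2
      have h4 : n - ij.1 = ij.2 := by omega
      rw [hF, h4]
    · intro x hx y hy hxy
      have h3 : x.1 + x.2 = n := (Finset.mem_antidiagonal.mp hx).2.2
      have h4 : y.1 + y.2 = n := (Finset.mem_antidiagonal.mp hy).2.2
      ext
      · exact hxy
      · omega
  rw [heq] at hsum
  exact hsum

/-- A sum over `ℤ` of a family vanishing below `m` is a sum over `ℕ`. -/
theorem hasSum_int_iff_nat_shift {F : ℤ → ℂ} (m : ℤ) (hF : ∀ k < m, F k = 0) {a : ℂ} :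
    HasSum (fun j : ℕ => F (j + m)) a ↔ HasSum F a := by
  have hinj : Function.Injective (fun j : ℕ => (j : ℤ) + m) := by
    intro x y hxy
    simpa using hxy
  refine hinj.hasSum_iff (f := F) ?_
  intro k hk
  apply hF
  by_contra hkm
  apply hk
  refine ⟨(k - m).toNat, ?_⟩
  show ((k - m).toNat : ℤ) + m = k
  omega

/-! ## The predicate `HasQExp` -/

/-- `f` is given on all of `ℍ` by the convergent Laurent series `E` in `exp (2πiτ/h)`. -/
def HasQExp (h : ℝ) (f : ℍ → ℂ) (E : LaurentSeries ℂ) : Prop :=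
  ∀ τ : ℍ, HasSum (fun k : ℤ => E.coeff k * qParam h (τ : ℂ) ^ k) (f τ)

variable {h : ℝ} {f g : ℍ → ℂ} {E E' : LaurentSeries ℂ}

theorem HasQExp.congr_left {f' : ℍ → ℂ} (hf : HasQExp h f E) (hff' : ∀ τ, f τ = f' τ) :
    HasQExp h f' E := fun τ => hff' τ ▸ hf τ

theorem hasQExp_zero (h : ℝ) : HasQExp h 0 0 := fun τ => by
  simpa using (hasSum_zero : HasSum (fun _ : ℤ => (0 : ℂ)) 0)

theorem hasQExp_const (h : ℝ) (c : ℂ) : HasQExp h (fun _ => c) (HahnSeries.C c) := fun τ => by
  have h0 : ∀ k : ℤ, k ≠ 0 →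
      (HahnSeries.C c : LaurentSeries ℂ).coeff k * qParam h (τ : ℂ) ^ k = 0 := by
    intro k hk
    rw [HahnSeries.C_apply, HahnSeries.coeff_single_of_ne hk, zero_mul]
  have h1 := hasSum_single (0 : ℤ) h0
  simpa using h1

theorem hasQExp_one (h : ℝ) : HasQExp h 1 1 := by
  have := hasQExp_const h 1
  rwa [map_one] at this

theorem HasQExp.add (hf : HasQExp h f E) (hg : HasQExp h g E') : HasQExp h (f + g) (E + E') :=
  fun τ => by
    have := (hf τ).add (hg τ)
    simpa [add_mul] using this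

theorem HasQExp.neg (hf : HasQExp h f E) : HasQExp h (-f) (-E) := fun τ => by
  have := (hf τ).neg
  simpa [neg_mul] using this

theorem HasQExp.sub (hf : HasQExp h f E) (hg : HasQExp h g E') : HasQExp h (f - g) (E - E') := by
  rw [sub_eq_add_neg, sub_eq_add_neg]
  exact hf.add hg.neg

/-- The Cauchy product. -/
theorem HasQExp.mul (hf : HasQExp h f E) (hg : HasQExp h g E') : HasQExp h (f * g) (E * E') :=
  fun τ => hasSum_cauchy_int (qParam_ne_zero _) E E' (hf τ) (hg τ)

theorem HasQExp.const_mul (c : ℂ) (hf : HasQExp h f E) :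
    HasQExp h (fun τ => c * f τ) (HahnSeries.C c * E) :=
  (hasQExp_const h c).mul hf

theorem HasQExp.pow (hf : HasQExp h f E) (n : ℕ) : HasQExp h (f ^ n) (E ^ n) := by
  induction n with
  | zero => simpa using hasQExp_one h
  | succ n ih => rw [pow_succ, pow_succ]; exact ih.mul hf

theorem hasQExp_sum {ι : Type*} (s : Finset ι) (F : ι → ℍ → ℂ) (G : ι → LaurentSeries ℂ)
    (hFG : ∀ i ∈ s, HasQExp h (F i) (G i)) : HasQExp h (∑ i ∈ s, F i) (∑ i ∈ s, G i) := by
  classical
  induction s using Finset.induction_on with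
  | empty => simpa using hasQExp_zero h
  | insert a s ha ih =>
      rw [Finset.sum_insert ha, Finset.sum_insert ha]
      exact (hFG a (Finset.mem_insert_self a s)).add
        (ih fun i hi => hFG i (Finset.mem_insert_of_mem hi))

theorem hasQExp_prod {ι : Type*} (s : Finset ι) (F : ι → ℍ → ℂ) (G : ι → LaurentSeries ℂ)
    (hFG : ∀ i ∈ s, HasQExp h (F i) (G i)) : HasQExp h (∏ i ∈ s, F i) (∏ i ∈ s, G i) := by
  classical
  induction s using Finset.induction_on with
  | empty => simpa using hasQExp_one h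
  | insert a s ha ih =>
      rw [Finset.prod_insert ha, Finset.prod_insert ha]
      exact (hFG a (Finset.mem_insert_self a s)).mul
        (ih fun i hi => hFG i (Finset.mem_insert_of_mem hi))

/-- The function is determined by the series. -/
theorem HasQExp.unique_left {f' : ℍ → ℂ} (hf : HasQExp h f E) (hf' : HasQExp h f' E) :
    f = f' :=
  funext fun τ => (hf τ).unique (hf' τ)

/-! ## The series is determined by the function -/

/-- A power series that sums to `0` on the punctured unit disc has vanishing constant term. -/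
theorem coeff_zero_eq_zero_of_hasSum_punctured {c : ℕ → ℂ}
    (hc : ∀ z : ℂ, z ≠ 0 → ‖z‖ < 1 → HasSum (fun n : ℕ => c n * z ^ n) 0) : c 0 = 0 := by
  classical
  let F : ℂ → ℂ := fun z => if z = 0 then c 0 else 0
  have hF : ∀ z : ℂ, ‖z‖ < 1 → HasSum (fun n : ℕ => c n * z ^ n) (F z) := by
    intro z hz
    by_cases hz0 : z = 0
    · have h0 : ∀ n : ℕ, n ≠ 0 → c n * z ^ n = 0 := by
        intro n hn
        rw [hz0, zero_pow hn, mul_zero]
      have h1 := hasSum_single (0 : ℕ) h0
      simpa [F, hz0] using h1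
    · simpa [F, hz0] using hc z hz0 hz
  have hps := helper1644.hasFPowerSeriesOnBall_of_hasSum (r := 1) one_pos
    (fun z hz => hF z (by simpa using hz))
  have hcont : ContinuousAt F 0 := hps.analyticAt.continuousAt
  have h1 : Filter.Tendsto F (nhdsWithin 0 {0}ᶜ) (nhds (F 0)) :=
    hcont.tendsto.mono_left nhdsWithin_le_nhds
  have h2 : Filter.Tendsto F (nhdsWithin 0 {0}ᶜ) (nhds 0) := by
    refine tendsto_const_nhds.congr' ?_
    filter_upwards [self_mem_nhdsWithin] with z hz
    have hz0 : z ≠ 0 := hz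
    simp [F, hz0]
  have h3 : F 0 = 0 := tendsto_nhds_unique h1 h2
  simpa [F] using h3

/-- The zero function has only the zero expansion. -/
theorem eq_zero_of_hasQExp_zero (hh : 0 < h) {D : LaurentSeries ℂ} (hD : HasQExp h 0 D) :
    D = 0 := by
  by_contra hne
  have hlt : ∀ k < D.order, D.coeff k = 0 := fun k hk => HahnSeries.coeff_eq_zero_of_lt_order hk
  have hm0 : D.coeff D.order ≠ 0 := fun h0 => hne (HahnSeries.coeff_order_eq_zero.mp h0)
  apply hm0
  have key := coeff_zero_eq_zero_of_hasSum_punctured (c := fun n : ℕ => D.coeff (n + D.order)) ?_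
  · simpa using key
  intro z hz0 hz1
  have him : 0 < (invQParam h z).im := im_invQParam_pos_of_norm_lt_one hh hz1 hz0
  have hq : qParam h (invQParam h z) = z := qParam_right_inv hh.ne' hz0
  have h1 : HasSum (fun k : ℤ => D.coeff k * z ^ k) 0 := by
    have := hD ⟨invQParam h z, him⟩
    rw [show (((⟨invQParam h z, him⟩ : ℍ) : ℂ)) = invQParam h z from rfl, hq] at this
    simpa using this
  have h2 : HasSum (fun j : ℕ => D.coeff (j + D.order) * z ^ ((j : ℤ) + D.order)) 0 :=
    (hasSum_int_iff_nat_shift (F := fun k : ℤ => D.coeff k * z ^ k) D.order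
      (fun k hk => by rw [hlt k hk, zero_mul])).mpr h1
  have h3 := h2.mul_right (z ^ (-D.order))
  rw [zero_mul] at h3
  have hfun : (fun j : ℕ => D.coeff (j + D.order) * z ^ ((j : ℤ) + D.order) * z ^ (-D.order))
      = fun n : ℕ => D.coeff (n + D.order) * z ^ n := by
    funext j
    rw [mul_assoc, ← zpow_add₀ hz0, add_neg_cancel_right, zpow_natCast]
  rw [hfun] at h3
  exact h3

theorem HasQExp.unique_right (hh : 0 < h) (hf : HasQExp h f E) (hf' : HasQExp h f E') :
    E = E' := by
  have h0 : HasQExp h 0 (E - E') := by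
    have := hf.sub hf'
    rwa [sub_self] at this
  exact sub_eq_zero.mp (eq_zero_of_hasQExp_zero hh h0)

theorem HasQExp.eq_zero_of_series_eq_zero (hf : HasQExp h f 0) : f = 0 :=
  hf.unique_left (hasQExp_zero h)

theorem HasQExp.series_eq_zero (hh : 0 < h) (hf : HasQExp h 0 E) : E = 0 :=
  eq_zero_of_hasQExp_zero hh hf

/-- Scalar multiples, with the coefficientwise scalar action on Laurent series. -/
theorem HasQExp.const_smul (c : ℂ) (hf : HasQExp h f E) :
    HasQExp h (fun τ => c * f τ) (c • E) := by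
  have := hf.const_mul c
  rwa [HahnSeries.C_mul_eq_smul] at this

/-! ## Scaling `τ ↦ d τ` -/

theorem im_natCast_mul_pos (d : ℕ) [NeZero d] (τ : ℍ) : 0 < ((d : ℂ) * (τ : ℂ)).im := by
  have hd : (0 : ℝ) < d := by exact_mod_cast NeZero.pos d
  have : ((d : ℂ) * (τ : ℂ)).im = d * τ.im := by simp
  rw [this]
  exact mul_pos hd τ.im_pos

theorem coe_ofComplex_natCast_mul (d : ℕ) [NeZero d] (τ : ℍ) :
    ((ofComplex ((d : ℂ) * (τ : ℂ)) : ℍ) : ℂ) = (d : ℂ) * (τ : ℂ) := by
  rw [ofComplex_apply_of_im_pos (im_natCast_mul_pos d τ)]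

theorem qParam_natCast_mul (h : ℝ) (d : ℕ) (z : ℂ) :
    qParam h ((d : ℂ) * z) = qParam h z ^ d := by
  rw [qParam, qParam, ← Complex.exp_nat_mul]
  congr 1
  ring

/-- Scaling: if `f` has the expansion `E(𝕢)` then `τ ↦ f (d τ)` has the expansion `E(𝕢 ^ d)`. -/
theorem HasQExp.scale (d : ℕ) [NeZero d] (hf : HasQExp h f E) :
    HasQExp h (fun τ : ℍ => f (ofComplex ((d : ℂ) * (τ : ℂ)))) (qExpand ℂ d E) := by
  intro τ
  have h1 := hf (ofComplex ((d : ℂ) * (τ : ℂ)))
  rw [coe_ofComplex_natCast_mul, qParam_natCast_mul] at h1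
  have hinj : Function.Injective (fun k : ℤ => (d : ℤ) * k) :=
    mul_right_injective₀ (by exact_mod_cast NeZero.ne d)
  refine (hinj.hasSum_iff (f := fun k : ℤ => (qExpand ℂ d E).coeff k * qParam h (τ : ℂ) ^ k)
    ?_).mp ?_
  · intro k hk
    rw [qExpand_coeff_of_not_dvd d E (fun hdvd => hk ?_), zero_mul]
    obtain ⟨m, rfl⟩ := hdvd
    exact ⟨m, rfl⟩
  · have hfun : ((fun k : ℤ => (qExpand ℂ d E).coeff k * qParam h (τ : ℂ) ^ k) ∘
        fun k : ℤ => (d : ℤ) * k) = fun k : ℤ => E.coeff k * (qParam h (τ : ℂ) ^ d) ^ k := by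
      funext k
      show (qExpand ℂ d E).coeff ((d : ℤ) * k) * qParam h (τ : ℂ) ^ ((d : ℤ) * k) = _
      rw [qExpand_coeff_mul, zpow_mul, zpow_natCast]
    rw [hfun]
    exact h1

/-! ## The analytic `j`-function -/

/-- The analytic `j` has the expansion `jq` (with complex coefficients). -/
theorem hasQExp_jFun : HasQExp 1 helper1644.jFun (coeffMap (algebraMap ℚ ℂ) jq) := fun τ => by
  simpa using helper1644.hasSum_jq τ

/-- `τ ↦ j(d τ)` has the expansion `jq(q^d)`. -/
theorem hasQExp_jFun_scale (d : ℕ) [NeZero d] :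
    HasQExp 1 (fun τ : ℍ => helper1644.jFun (ofComplex ((d : ℂ) * (τ : ℂ))))
      (qExpand ℂ d (coeffMap (algebraMap ℚ ℂ) jq)) :=
  hasQExp_jFun.scale d

end

end Fermat.Agent.S24.helper3176
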