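import Fermat.Agent.S24.helper3176_FieldAlg
import Fermat.Agent.S24.helper3176_Dictionary
import Fermat.Agent.S24.helper288_Conj
import Fermat.Agent.S24.helper167_JFinrank

/-!
# S24 (helper3176): the analytic realisation `ev : A_N →+* (ℍ → ℂ)`

`A_N = ℚ̄[j(q^d) : d ∣ N]` (`helper3176.AN N`) is realised by holomorphic functions on the upper
half plane: `ev N a` is the unique function with `q`-expansion `coeffMap i0 a`
(`HasQExp 1 (ev N a) (serF N a)`), for a fixed embedding `i0 : ℚ̄ →+* ℂ`.

Main results: `ev N` is an injective ring hom, `ev (j_d) τ = j(d τ)`, constants go to constants,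
values are holomorphic, `Γ₀(N)`-invariant, of exponential growth along every coset, `Γ₀(N)` is
exactly the group of `g` fixing all `ev a`, and `ℂ`-linear relations between the functions hold
between the series.  In particular `evDatum : helper167.EvDatum N`, hence
`Stmt_LocalInf → Stmt_JFinrank`.
-/

set_option autoImplicit false

open UpperHalfPlane Function.Periodic Complex ModularCurve CongruenceSubgroup
open scoped Real Manifold MatrixGroups

namespace Fermat.Agent.S24.helper3176

open Fermat.Agent.S24.helper24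

noncomputable section

/-- A fixed embedding of `ℚ̄` into `ℂ`. -/
def i0 : Kbar →+* ℂ :=
  haveI : Algebra.IsAlgebraic ℚ (AlgebraicClosure ℚ) := AlgebraicClosure.isAlgebraic ℚ
  ((IsAlgClosed.lift : AlgebraicClosure ℚ →ₐ[ℚ] ℂ) : AlgebraicClosure ℚ →+* ℂ)

theorem i0_comp_algebraMap : i0.comp (algebraMap ℚ Kbar) = algebraMap ℚ ℂ :=
  Subsingleton.elim _ _

/-- The complex Laurent series of an element of the function field. -/
def serF (N : ℕ) : FN N →+* LaurentSeries ℂ :=
  (coeffMap i0).comp (modularFunctionFieldBar N).val.toRingHom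

theorem serF_apply (N : ℕ) (x : FN N) : serF N x = coeffMap i0 (x : LaurentSeries Kbar) := rfl

theorem serF_injective (N : ℕ) : Function.Injective (serF N) := (serF N).injective

theorem serF_algebraMap (N : ℕ) (c : Kbar) :
    serF N (algebraMap Kbar (FN N) c) = HahnSeries.C (i0 c) := by
  rw [serF_apply]
  show coeffMap i0 (algebraMap Kbar (LaurentSeries Kbar) c) = _
  rw [algebraMap_laurentSeries_eq_single, coeffMap_single]
  rfl

theorem serF_jBarD (N d : ℕ) [NeZero d] (hd : d ∣ N) :
    serF N (jBarD N d hd) = qExpand ℂ d (coeffMap (algebraMap ℚ ℂ) jq) := by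
  rw [serF_apply, coe_jBarD]
  unfold jSeries coeffEmb
  rw [coeffMap_coeffMap, coeffMap_congr i0_comp_algebraMap,
    Fermat.Agent.S24.helper3176.coeffMap_qExpand]

/-- Every element of `A_N` has a convergent `q`-expansion. -/
theorem exists_hasQExp_of_mem (N : ℕ) {x : FN N} (hx : x ∈ AN N) :
    ∃ f : ℍ → ℂ, HasQExp 1 f (serF N x) := by
  unfold AN at hx
  induction hx using Algebra.adjoin_induction with
  | mem x hx =>
      obtain ⟨d, hd0, hd, rfl⟩ := hx
      exact ⟨_, by rw [serF_jBarD]; exact hasQExp_jFun_scale d⟩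
  | algebraMap c => exact ⟨_, by rw [serF_algebraMap]; exact hasQExp_const 1 (i0 c)⟩
  | add x y _ _ hx hy =>
      obtain ⟨f, hf⟩ := hx
      obtain ⟨g, hg⟩ := hy
      exact ⟨f + g, by rw [map_add]; exact hf.add hg⟩
  | mul x y _ _ hx hy =>
      obtain ⟨f, hf⟩ := hx
      obtain ⟨g, hg⟩ := hy
      exact ⟨f * g, by rw [map_mul]; exact hf.mul hg⟩

/-- The function attached to an element of `A_N`. -/
def evFun (N : ℕ) (a : AN N) : ℍ → ℂ := Classical.choose (exists_hasQExp_of_mem N a.2)

theorem hasQExp_evFun (N : ℕ) (a : AN N) : HasQExp 1 (evFun N a) (serF N (a : FN N)) :=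
  Classical.choose_spec (exists_hasQExp_of_mem N a.2)

/-- The analytic realisation of `A_N` by functions on the upper half plane. -/
def ev (N : ℕ) : AN N →+* (ℍ → ℂ) where
  toFun := evFun N
  map_one' := (hasQExp_evFun N 1).unique_left (by
    rw [show ((1 : AN N) : FN N) = 1 from rfl, map_one]
    exact hasQExp_one 1)
  map_mul' a b := (hasQExp_evFun N (a * b)).unique_left (by
    rw [show ((a * b : AN N) : FN N) = (a : FN N) * (b : FN N) from rfl, map_mul]
    exact (hasQExp_evFun N a).mul (hasQExp_evFun N b))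
  map_zero' := (hasQExp_evFun N 0).unique_left (by
    rw [show ((0 : AN N) : FN N) = 0 from rfl, map_zero]
    exact hasQExp_zero 1)
  map_add' a b := (hasQExp_evFun N (a + b)).unique_left (by
    rw [show ((a + b : AN N) : FN N) = (a : FN N) + (b : FN N) from rfl, map_add]
    exact (hasQExp_evFun N a).add (hasQExp_evFun N b))

/-- `ev N a` has the `q`-expansion `coeffMap i0 a`. -/
theorem hasQExp_ev (N : ℕ) (a : AN N) : HasQExp 1 (ev N a) (serF N (a : FN N)) :=
  hasQExp_evFun N a

theorem hasSum_ev (N : ℕ) (a : AN N) (τ : ℍ) :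
    HasSum (fun k : ℤ => i0 (((a : FN N) : LaurentSeries Kbar).coeff k) * qParam 1 (τ : ℂ) ^ k)
      (ev N a τ) :=
  hasQExp_ev N a τ

theorem ev_eq_of_hasQExp (N : ℕ) (a : AN N) {f : ℍ → ℂ}
    (hf : HasQExp 1 f (serF N (a : FN N))) : ev N a = f :=
  (hasQExp_ev N a).unique_left hf

theorem ev_injective (N : ℕ) : Function.Injective (ev N) := by
  intro a b hab
  have h1 := hasQExp_ev N a
  rw [hab] at h1
  exact Subtype.ext (serF_injective N (h1.unique_right one_pos (hasQExp_ev N b)))

theorem ev_algebraMap (N : ℕ) (c : Kbar) :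
    ev N (algebraMap Kbar (AN N) c) = fun _ => i0 c :=
  ev_eq_of_hasQExp N _ (by
    rw [show ((algebraMap Kbar (AN N) c : AN N) : FN N) = algebraMap Kbar (FN N) c from rfl,
      serF_algebraMap]
    exact hasQExp_const 1 (i0 c))

theorem ev_jBarD (N d : ℕ) [NeZero d] (hd : d ∣ N) :
    ev N ⟨jBarD N d hd, jBarD_mem_AN N d hd⟩
      = fun τ : ℍ => helper24.jFun (ofComplex ((d : ℂ) * (τ : ℂ))) :=
  ev_eq_of_hasQExp N _ (by
    rw [serF_jBarD]
    exact hasQExp_jFun_scale d)

theorem ev_jBar (N : ℕ) (τ : ℍ) : ev N ⟨jBar N, jBar_mem_AN N⟩ τ = helper24.jFun τ := by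
  have h := congrFun (ev_jBarD N 1 (one_dvd N)) τ
  have h1 : ofComplex (((1 : ℕ) : ℂ) * (τ : ℂ)) = τ := by
    rw [Nat.cast_one, one_mul, ofComplex_apply]
  rw [h1] at h
  exact h

/-- Induction principle for properties of the functions `ev N a`. -/
theorem ev_induction (N : ℕ) {P : (ℍ → ℂ) → Prop}
    (hconst : ∀ c : ℂ, P (fun _ => c))
    (hgen : ∀ (d : ℕ) [NeZero d], d ∣ N →
      P (fun τ : ℍ => helper24.jFun (ofComplex ((d : ℂ) * (τ : ℂ)))))
    (hadd : ∀ f g, P f → P g → P (f + g)) (hmul : ∀ f g, P f → P g → P (f * g))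
    (a : AN N) : P (ev N a) := by
  obtain ⟨x, hx⟩ := a
  have key : ∀ (x : FN N) (hx : x ∈ Algebra.adjoin Kbar (genSetF N)), P (ev N ⟨x, hx⟩) := by
    intro x hx
    induction hx using Algebra.adjoin_induction with
    | mem x hx =>
        obtain ⟨d, hd0, hd, rfl⟩ := hx
        have h := ev_jBarD N d hd
        have h2 := hgen d hd
        rw [← h] at h2
        exact h2
    | algebraMap c =>
        have h := ev_algebraMap N c
        have h2 := hconst (i0 c)
        rw [← h] at h2
        exact h2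
    | add x y hx hy hPx hPy =>
        have h := hadd _ _ hPx hPy
        rw [← map_add] at h
        exact h
    | mul x y hx hy hPx hPy =>
        have h := hmul _ _ hPx hPy
        rw [← map_mul] at h
        exact h
  exact key x hx

/-- The values of `ev` are holomorphic. -/
theorem mdiff_ev (N : ℕ) (a : AN N) : MDiff (ev N a) := by
  refine ev_induction N (P := fun f => MDiff f) ?_ ?_ ?_ ?_ a
  · intro c
    exact mdifferentiable_const
  · intro d _ hd
    have h := helper288.mdiff_jFn_mul_smul 1 d (NeZero.pos d)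
    simp only [one_smul] at h
    exact h
  · intro f g hf hg
    exact hf.add hg
  · intro f g hf hg
    exact hf.mul hg

/-- The values of `ev` are `Γ₀(N)`-invariant. -/
theorem ev_smul_of_mem_Gamma0 (N : ℕ) (a : AN N) (γ : SL(2, ℤ)) (hγ : γ ∈ Gamma0 N) (τ : ℍ) :
    ev N a (γ • τ) = ev N a τ := by
  refine ev_induction N (P := fun f => ∀ τ : ℍ, f (γ • τ) = f τ) ?_ ?_ ?_ ?_ a τ
  · intro c τ
    rfl
  · intro d _ hd τ
    exact helper288.jFn_mul_smul_of_mem_Gamma0 N d (NeZero.pos d) hd γ hγ τ
  · intro f g hf hg τ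
    rw [Pi.add_apply, Pi.add_apply, hf τ, hg τ]
  · intro f g hf hg τ
    rw [Pi.mul_apply, Pi.mul_apply, hf τ, hg τ]

/-- Exponential growth of `ev a` along every coset. -/
theorem hasExpGrowth_ev (N : ℕ) (a : AN N) (g : SL(2, ℤ)) :
    helper167.HasExpGrowth (fun τ => ev N a (g • τ)) := by
  refine ev_induction N (P := fun f => helper167.HasExpGrowth (fun τ => f (g • τ))) ?_ ?_ ?_ ?_ a
  · intro c
    exact helper167.hasExpGrowth_const c
  · intro d _ hd
    exact helper288.hasExpGrowth_jFn_mul_smul g d (NeZero.pos d)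
  · intro f1 f2 h1 h2
    exact h1.add h2
  · intro f1 f2 h1 h2
    exact h1.mul h2

/-- Separation (E5): the elements of `SL(2, ℤ)` fixing all `ev a` are those of `Γ₀(N)`. -/
theorem mem_Gamma0_of_ev_eq (N : ℕ) [NeZero N] (g : SL(2, ℤ))
    (h : ∀ (a : AN N) (τ : ℍ), ev N a (g • τ) = ev N a τ) : g ∈ Gamma0 N := by
  apply helper288.mem_Gamma0_of_jFn_eq N g
  intro τ
  have h1 := h ⟨jBarD N N dvd_rfl, jBarD_mem_AN N N dvd_rfl⟩ τ
  rw [ev_jBarD] at h1
  exact h1

/-- `ℂ`-linear relations between the functions `ev b` hold between the formal series. -/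
theorem linear_transfer (N : ℕ) {ι : Type*} (s : Finset ι) (c : ι → ℂ) (b : ι → AN N)
    (h : ∀ τ : ℍ, ∑ i ∈ s, c i * ev N (b i) τ = 0) :
    ∑ i ∈ s, c i • coeffMap i0 (((b i : AN N) : FN N) : LaurentSeries Kbar) = 0 := by
  have h1 : HasQExp 1 (∑ i ∈ s, fun τ => c i * ev N (b i) τ)
      (∑ i ∈ s, c i • serF N (b i : FN N)) :=
    hasQExp_sum s _ _ fun i _ => (hasQExp_ev N (b i)).const_smul (c i)
  have h2 : (∑ i ∈ s, fun τ => c i * ev N (b i) τ) = 0 := by
    funext τ
    rw [Finset.sum_apply]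
    exact h τ
  rw [h2] at h1
  exact h1.series_eq_zero one_pos

/-- The analytic datum required by `helper167.stmt_JFinrank_of`. -/
theorem evDatum (N : ℕ) [NeZero N] : helper167.EvDatum N :=
  ⟨i0, ev N, mdiff_ev N, ev_smul_of_mem_Gamma0 N, hasExpGrowth_ev N, ev_jBar N,
    linear_transfer N⟩

/-- `Stmt_JFinrank` follows from the cusp datum alone. -/
theorem stmt_JFinrank_of_localInf (hInf : Stmt_LocalInf) : Stmt_JFinrank :=
  helper167.stmt_JFinrank_of (fun N _ => evDatum N) hInf

end

end Fermat.Agent.S24.helper3176
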