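import Mathlib
import Fermat.Prelude.Def_AlgebraicCurve_DivisorClassGroup

set_option autoImplicit false

namespace Fermat.Agent.S24.helper324

open AlgebraicCurve

/-! ### Integer-valued order functions on a field -/

section OrdFun

variable {Ω : Type*} [Field Ω] (w : Ω → ℤ)
  (hw_mul : ∀ a b : Ω, a ≠ 0 → b ≠ 0 → w (a * b) = w a + w b)
  (hw_add : ∀ a b : Ω, a ≠ 0 → b ≠ 0 → a + b ≠ 0 → min (w a) (w b) ≤ w (a + b))

include hw_mul in
theorem w_one : w 1 = 0 := by
  have h := hw_mul 1 1 one_ne_zero one_ne_zero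
  rw [mul_one] at h
  linarith

include hw_mul in
theorem w_inv {a : Ω} (ha : a ≠ 0) : w a⁻¹ = - w a := by
  have h := hw_mul a a⁻¹ ha (inv_ne_zero ha)
  rw [mul_inv_cancel₀ ha, w_one w hw_mul] at h
  linarith

include hw_mul in
theorem w_neg_one : w (-1) = 0 := by
  have h := hw_mul (-1) (-1) (neg_ne_zero.mpr one_ne_zero) (neg_ne_zero.mpr one_ne_zero)
  rw [neg_mul_neg, mul_one, w_one w hw_mul] at h
  linarith

include hw_mul in
theorem w_neg {a : Ω} (ha : a ≠ 0) : w (-a) = w a := by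
  have h := hw_mul (-1) a (neg_ne_zero.mpr one_ne_zero) ha
  rw [neg_one_mul, w_neg_one w hw_mul] at h
  linarith

include hw_mul in
theorem w_pow {a : Ω} (ha : a ≠ 0) (n : ℕ) : w (a ^ n) = n * w a := by
  induction n with
  | zero => simp [w_one w hw_mul]
  | succ n ih =>
    rw [pow_succ, hw_mul _ _ (pow_ne_zero n ha) ha, ih]
    push_cast
    ring

include hw_mul in
theorem w_div {a b : Ω} (ha : a ≠ 0) (hb : b ≠ 0) : w (a / b) = w a - w b := by
  rw [div_eq_mul_inv, hw_mul _ _ ha (inv_ne_zero hb), w_inv w hw_mul hb]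
  ring

include hw_mul in
theorem w_zpow {a : Ω} (ha : a ≠ 0) (n : ℤ) : w (a ^ n) = n * w a := by
  obtain ⟨k, rfl | rfl⟩ := n.eq_nat_or_neg
  · rw [zpow_natCast, w_pow w hw_mul ha]
  · rw [zpow_neg, zpow_natCast, w_inv w hw_mul (pow_ne_zero k ha), w_pow w hw_mul ha]
    ring

include hw_mul hw_add in
theorem w_sub {a b : Ω} (ha : a ≠ 0) (hb : b ≠ 0) (hab : a - b ≠ 0) :
    min (w a) (w b) ≤ w (a - b) := by
  have h := hw_add a (-b) ha (neg_ne_zero.mpr hb) (by rwa [← sub_eq_add_neg])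
  rwa [w_neg w hw_mul hb, ← sub_eq_add_neg] at h

include hw_add in
theorem w_sum_le {ι : Type*} (t : Finset ι) (g : ι → Ω) (h : ∑ i ∈ t, g i ≠ 0) :
    ∃ i ∈ t, g i ≠ 0 ∧ w (g i) ≤ w (∑ i ∈ t, g i) := by
  classical
  induction t using Finset.induction_on with
  | empty => simp at h
  | insert a t hat ih =>
    rw [Finset.sum_insert hat] at h ⊢
    by_cases ha : g a = 0
    · rw [ha, zero_add] at h ⊢
      obtain ⟨i, hi, hgi, hle⟩ := ih h
      exact ⟨i, Finset.mem_insert_of_mem hi, hgi, hle⟩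
    · by_cases ht : ∑ i ∈ t, g i = 0
      · rw [ht, add_zero]
        exact ⟨a, Finset.mem_insert_self a t, ha, le_refl _⟩
      · have hmin := hw_add _ _ ha ht h
        rcases min_le_iff.mp hmin with h1 | h1
        · exact ⟨a, Finset.mem_insert_self a t, ha, h1⟩
        · obtain ⟨i, hi, hgi, hle⟩ := ih ht
          exact ⟨i, Finset.mem_insert_of_mem hi, hgi, hle.trans h1⟩

end OrdFun

/-! ### The valuation subring / place pulled back along an embedding -/

section Pullback

variable {K F : Type*} [Field K] [Field F] [Algebra K F]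
variable {Ω : Type*} [Field Ω] [Algebra K Ω] (w : Ω → ℤ)
  (hw_mul : ∀ a b : Ω, a ≠ 0 → b ≠ 0 → w (a * b) = w a + w b)
  (hw_add : ∀ a b : Ω, a ≠ 0 → b ≠ 0 → a + b ≠ 0 → min (w a) (w b) ≤ w (a + b))
  (hw_K : ∀ c : K, c ≠ 0 → w (algebraMap K Ω c) = 0)

/-- The valuation subring `{f | f = 0 ∨ 0 ≤ w (σ f)}` of `F`. -/
def vsub (σ : F →ₐ[K] Ω) : ValuationSubring F where
  carrier := {f | f = 0 ∨ 0 ≤ w (σ f)}
  mul_mem' := by
    rintro a b ha hb
    by_cases ha0 : a = 0
    · left; rw [ha0, zero_mul]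
    by_cases hb0 : b = 0
    · left; rw [hb0, mul_zero]
    have ha' := ha.resolve_left ha0
    have hb' := hb.resolve_left hb0
    right
    rw [map_mul, hw_mul _ _ ((map_ne_zero σ).mpr ha0) ((map_ne_zero σ).mpr hb0)]
    exact add_nonneg ha' hb'
  one_mem' := Or.inr (by rw [map_one, w_one w hw_mul])
  add_mem' := by
    rintro a b ha hb
    by_cases ha0 : a = 0
    · rw [ha0, zero_add]; exact hb
    by_cases hb0 : b = 0
    · rw [hb0, add_zero]; exact ha
    by_cases hab : a + b = 0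
    · left; exact hab
    have ha' := ha.resolve_left ha0
    have hb' := hb.resolve_left hb0
    right
    rw [map_add]
    refine le_trans (le_min ha' hb') (hw_add _ _ ((map_ne_zero σ).mpr ha0)
      ((map_ne_zero σ).mpr hb0) ?_)
    rw [← map_add]
    exact (map_ne_zero σ).mpr hab
  zero_mem' := Or.inl rfl
  neg_mem' := by
    rintro a ha
    by_cases ha0 : a = 0
    · left; rw [ha0, neg_zero]
    right
    rw [map_neg, w_neg w hw_mul ((map_ne_zero σ).mpr ha0)]
    exact ha.resolve_left ha0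
  mem_or_inv_mem' := by
    intro a
    by_cases ha0 : a = 0
    · left; left; exact ha0
    rcases le_total 0 (w (σ a)) with h | h
    · left; right; exact h
    · right; right
      rw [map_inv₀, w_inv w hw_mul ((map_ne_zero σ).mpr ha0)]
      exact neg_nonneg.mpr h

theorem mem_vsub_iff (σ : F →ₐ[K] Ω) (f : F) :
    f ∈ vsub w hw_mul hw_add σ ↔ f = 0 ∨ 0 ≤ w (σ f) := Iff.rfl

theorem mem_vsub_iff_of_ne (σ : F →ₐ[K] Ω) {f : F} (hf : f ≠ 0) :
    f ∈ vsub w hw_mul hw_add σ ↔ 0 ≤ w (σ f) :=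
  ⟨fun h => h.resolve_left hf, fun h => Or.inr h⟩

theorem vsub_isPrincipalIdealRing (σ : F →ₐ[K] Ω) :
    IsPrincipalIdealRing (vsub w hw_mul hw_add σ) := by
  classical
  constructor
  intro I
  by_cases hI : I = ⊥
  · rw [hI]; exact bot_isPrincipal
  obtain ⟨x, hxI, hx0⟩ : ∃ x ∈ I, x ≠ 0 := Submodule.exists_mem_ne_zero_of_ne_bot hI
  have hnn : ∀ z : vsub w hw_mul hw_add σ, z ≠ 0 → 0 ≤ w (σ (z : F)) := by
    intro z hz
    have hz' : (z : F) ≠ 0 := fun h => hz (Subtype.ext h)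
    exact z.2.resolve_left hz'
  let P : ℕ → Prop := fun n => ∃ z ∈ I, z ≠ 0 ∧ w (σ (z : F)) = n
  have hP : ∃ n, P n := ⟨(w (σ (x : F))).toNat, x, hxI, hx0, (Int.toNat_of_nonneg (hnn x hx0)).symm⟩
  obtain ⟨z, hzI, hz0, hzn⟩ := Nat.find_spec hP
  have hmin : ∀ z' ∈ I, z' ≠ 0 → w (σ (z : F)) ≤ w (σ (z' : F)) := by
    intro z' hz'I hz'0
    have h1 : Nat.find hP ≤ (w (σ (z' : F))).toNat :=
      Nat.find_min' hP ⟨z', hz'I, hz'0, (Int.toNat_of_nonneg (hnn z' hz'0)).symm⟩
    have h2 := Int.toNat_of_nonneg (hnn z' hz'0)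
    rw [hzn, ← h2]
    exact_mod_cast h1
  have hzF : (z : F) ≠ 0 := fun h => hz0 (Subtype.ext h)
  refine ⟨⟨z, le_antisymm ?_ ?_⟩⟩
  · intro g hg
    rw [Submodule.mem_span_singleton]
    by_cases hg0 : g = 0
    · exact ⟨0, by rw [hg0, zero_smul]⟩
    · have hgF : (g : F) ≠ 0 := fun h => hg0 (Subtype.ext h)
      have hmem : (g : F) / (z : F) ∈ vsub w hw_mul hw_add σ := by
        right
        rw [map_div₀, w_div w hw_mul ((map_ne_zero σ).mpr hgF) ((map_ne_zero σ).mpr hzF)]
        exact sub_nonneg.mpr (hmin g hg hg0)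
      refine ⟨⟨(g : F) / (z : F), hmem⟩, Subtype.ext ?_⟩
      show (g : F) / (z : F) * (z : F) = (g : F)
      exact div_mul_cancel₀ _ hzF
  · rw [Submodule.span_singleton_le_iff_mem]
    exact hzI

/-- The place of `F` pulled back along `σ`, given an element `y` of positive order. -/
def placeOf (σ : F →ₐ[K] Ω) (y : F) (hy0 : y ≠ 0) (hy : 0 < w (σ y)) : Place K F where
  toValuationSubring := vsub w hw_mul hw_add σ
  algebraMap_mem' := fun a => by
    by_cases ha : a = 0
    · left; rw [ha, map_zero]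
    · right
      rw [σ.commutes a, hw_K a ha]
  ne_top' := by
    intro h
    have hmem : y⁻¹ ∈ vsub w hw_mul hw_add σ := by rw [h]; exact ValuationSubring.mem_top _
    rcases hmem with h0 | h1
    · exact hy0 (inv_eq_zero.mp h0)
    · rw [map_inv₀, w_inv w hw_mul ((map_ne_zero σ).mpr hy0)] at h1
      linarith
  isPrincipalIdealRing' := vsub_isPrincipalIdealRing w hw_mul hw_add σ

@[simp]
theorem placeOf_toValuationSubring (σ : F →ₐ[K] Ω) (y : F) (hy0 : y ≠ 0) (hy : 0 < w (σ y)) :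
    (placeOf w hw_mul hw_add hw_K σ y hy0 hy).toValuationSubring = vsub w hw_mul hw_add σ := rfl

/-- `w ∘ σ` is a positive multiple of the normalised order at the pulled-back place. -/
theorem exists_kappa (σ : F →ₐ[K] Ω) (y : F) (hy0 : y ≠ 0) (hy : 0 < w (σ y)) :
    ∃ κ : ℤ, 0 < κ ∧ ∀ f : F, f ≠ 0 →
      w (σ f) = κ * (placeOf w hw_mul hw_add hw_K σ y hy0 hy).ord f := by
  set v := placeOf w hw_mul hw_add hw_K σ y hy0 hy with hv
  obtain ⟨π, hπ⟩ := IsDiscreteValuationRing.exists_irreducible v.toValuationSubring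
  have hπ0 : (π : F) ≠ 0 := fun h => hπ.ne_zero (Subtype.ext h)
  have hπnn : 0 ≤ w (σ (π : F)) := π.2.resolve_left hπ0
  have hunit : ∀ u : v.toValuationSubringˣ, w (σ ((u : v.toValuationSubring) : F)) = 0 := by
    intro u
    have hu0 : ((u : v.toValuationSubring) : F) ≠ 0 := fun h => u.ne_zero (Subtype.ext h)
    have hu'0 : (((u⁻¹ : v.toValuationSubringˣ) : v.toValuationSubring) : F) ≠ 0 :=
      fun h => (u⁻¹).ne_zero (Subtype.ext h)
    have h1 : 0 ≤ w (σ ((u : v.toValuationSubring) : F)) :=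
      (u : v.toValuationSubring).2.resolve_left hu0
    have h2 : 0 ≤ w (σ (((u⁻¹ : v.toValuationSubringˣ) : v.toValuationSubring) : F)) :=
      ((u⁻¹ : v.toValuationSubringˣ) : v.toValuationSubring).2.resolve_left hu'0
    have h3 : ((u : v.toValuationSubring) : F) *
        (((u⁻¹ : v.toValuationSubringˣ) : v.toValuationSubring) : F) = 1 := by
      exact congrArg (Subtype.val) (u.mul_inv)
    have h4 := hw_mul _ _ ((map_ne_zero σ).mpr hu0) ((map_ne_zero σ).mpr hu'0)
    rw [← map_mul, h3, map_one, w_one w hw_mul] at h4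
    linarith
  refine ⟨w (σ (π : F)), ?_, ?_⟩
  · rcases hπnn.lt_or_eq with h | h
    · exact h
    · exfalso
      have hmem : (π : F)⁻¹ ∈ v.toValuationSubring := by
        right
        rw [map_inv₀, w_inv w hw_mul ((map_ne_zero σ).mpr hπ0), ← h, neg_zero]
      apply hπ.not_isUnit
      refine IsUnit.of_mul_eq_one (⟨(π : F)⁻¹, hmem⟩ : v.toValuationSubring) (Subtype.ext ?_)
      show (π : F) * (π : F)⁻¹ = 1
      exact mul_inv_cancel₀ hπ0
  · intro f hf
    obtain ⟨u, hu⟩ := v.exists_unit_mul_zpow hf hπ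
    have hu0 : ((u : v.toValuationSubring) : F) ≠ 0 := fun h => u.ne_zero (Subtype.ext h)
    conv_lhs => rw [hu]
    rw [map_mul, map_zpow₀, hw_mul _ _ ((map_ne_zero σ).mpr hu0)
      (zpow_ne_zero _ ((map_ne_zero σ).mpr hπ0)), hunit u,
      w_zpow w hw_mul ((map_ne_zero σ).mpr hπ0)]
    ring

end Pullback

/-! ### Expansions at a pulled-back place and the fibre bound -/

section Fibre

variable {K F : Type*} [Field K] [Field F] [Algebra K F]
variable {Ω : Type*} [Field Ω] [Algebra K Ω] (w : Ω → ℤ)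
  (hw_mul : ∀ a b : Ω, a ≠ 0 → b ≠ 0 → w (a * b) = w a + w b)
  (hw_add : ∀ a b : Ω, a ≠ 0 → b ≠ 0 → a + b ≠ 0 → min (w a) (w b) ≤ w (a + b))
  (hw_K : ∀ c : K, c ≠ 0 → w (algebraMap K Ω c) = 0)
  (σ₀ : F →ₐ[K] Ω) (y : F) (hy0 : y ≠ 0) (hy : 0 < w (σ₀ y))
  (hres : ∀ u ∈ vsub w hw_mul hw_add σ₀, ∃ a : K, u = algebraMap K F a ∨
    0 < (placeOf w hw_mul hw_add hw_K σ₀ y hy0 hy).ord (u - algebraMap K F a))

theorem mem_vsub_of_ord_nonneg {f : F} (hf : f ≠ 0)
    (h : 0 ≤ (placeOf w hw_mul hw_add hw_K σ₀ y hy0 hy).ord f) :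
    f ∈ vsub w hw_mul hw_add σ₀ := by
  obtain ⟨κ, hκ, hκf⟩ := exists_kappa w hw_mul hw_add hw_K σ₀ y hy0 hy
  right
  rw [hκf f hf]
  exact mul_nonneg hκ.le h

include hres in
/-- `t`-adic expansion to order `k` with constant coefficients. -/
theorem expand_unif (t : F) (ht : (placeOf w hw_mul hw_add hw_K σ₀ y hy0 hy).ord t = 1)
    (k : ℕ) (f : F) (hf : f ∈ vsub w hw_mul hw_add σ₀) :
    ∃ (c : ℕ → K) (f' : F), f' ∈ vsub w hw_mul hw_add σ₀ ∧
      f = ∑ i ∈ Finset.range k, algebraMap K F (c i) * t ^ i + t ^ k * f' := by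
  set v := placeOf w hw_mul hw_add hw_K σ₀ y hy0 hy with hv
  have ht0 : t ≠ 0 := by
    rintro rfl
    rw [v.ord_zero] at ht
    exact zero_ne_one ht
  induction k with
  | zero => exact ⟨fun _ => 0, f, hf, by simp⟩
  | succ k ih =>
    obtain ⟨c, f', hf', hfe⟩ := ih
    obtain ⟨a, ha⟩ := hres f' hf'
    set g := f' - algebraMap K F a with hg
    have hgt : g / t ∈ vsub w hw_mul hw_add σ₀ := by
      by_cases hg0 : g = 0
      · rw [hg0, zero_div]; exact Or.inl rfl
      · have hpos : 0 < v.ord g := by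
          rcases ha with ha | ha
          · exact absurd (sub_eq_zero.mpr ha) hg0
          · exact ha
        refine mem_vsub_of_ord_nonneg w hw_mul hw_add hw_K σ₀ y hy0 hy (div_ne_zero hg0 ht0) ?_
        rw [div_eq_mul_inv, v.ord_mul hg0 (inv_ne_zero ht0), v.ord_inv, ht]
        linarith
    refine ⟨Function.update c k a, g / t, hgt, ?_⟩
    rw [Finset.sum_range_succ, Function.update_self]
    have hsum : ∑ i ∈ Finset.range k, algebraMap K F (Function.update c k a i) * t ^ i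
        = ∑ i ∈ Finset.range k, algebraMap K F (c i) * t ^ i := by
      refine Finset.sum_congr rfl fun i hi => ?_
      rw [Function.update_of_ne (Finset.mem_range.mp hi).ne]
    rw [hsum, hfe, pow_succ]
    have hf'eq : f' = algebraMap K F a + t * (g / t) := by
      rw [mul_div_cancel₀ _ ht0, hg]; ring
    conv_lhs => rw [hf'eq]
    ring

include hres in
/-- `y`-adic expansion: modulo `y ^ M`, every element of the valuation ring is a combination
of `1, t, …, t ^ (e - 1)` with coefficients polynomials in `y`. -/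
theorem expand_y (t : F) (ht : (placeOf w hw_mul hw_add hw_K σ₀ y hy0 hy).ord t = 1)
    (e : ℕ) (he : (placeOf w hw_mul hw_add hw_K σ₀ y hy0 hy).ord y = e)
    (M : ℕ) (f : F) (hf : f ∈ vsub w hw_mul hw_add σ₀) :
    ∃ (p : ℕ → Polynomial K) (f' : F), f' ∈ vsub w hw_mul hw_add σ₀ ∧
      f = ∑ i ∈ Finset.range e, Polynomial.aeval y (p i) * t ^ i + y ^ M * f' := by
  set v := placeOf w hw_mul hw_add hw_K σ₀ y hy0 hy with hv
  have ht0 : t ≠ 0 := by
    rintro rfl
    rw [v.ord_zero] at ht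
    exact zero_ne_one ht
  have hu : t ^ e / y ∈ vsub w hw_mul hw_add σ₀ := by
    refine mem_vsub_of_ord_nonneg w hw_mul hw_add hw_K σ₀ y hy0 hy
      (div_ne_zero (pow_ne_zero e ht0) hy0) ?_
    rw [div_eq_mul_inv, v.ord_mul (pow_ne_zero e ht0) (inv_ne_zero hy0), v.ord_inv, he,
      ← zpow_natCast, v.ord_zpow, ht]
    simp
  induction M with
  | zero => exact ⟨fun _ => 0, f, hf, by simp⟩
  | succ M ih =>
    obtain ⟨p, f', hf', hfe⟩ := ih
    obtain ⟨c, f'', hf'', hf'e⟩ := expand_unif w hw_mul hw_add hw_K σ₀ y hy0 hy hres t ht e f' hf'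
    refine ⟨fun i => p i + Polynomial.C (c i) * Polynomial.X ^ M, t ^ e / y * f'',
      (vsub w hw_mul hw_add σ₀).mul_mem _ _ hu hf'', ?_⟩
    have h1 : ∀ i, Polynomial.aeval y (p i + Polynomial.C (c i) * Polynomial.X ^ M)
        = Polynomial.aeval y (p i) + algebraMap K F (c i) * y ^ M := by
      intro i
      simp [Polynomial.aeval_C]
    simp only [h1, add_mul, Finset.sum_add_distrib]
    rw [hfe, hf'e, mul_add, Finset.mul_sum, pow_succ]
    have h2 : y ^ M * (t ^ e * f'') = y ^ M * y * (t ^ e / y * f'') := by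
      field_simp
    rw [h2, add_assoc]
    congr 1
    congr 1
    refine Finset.sum_congr rfl fun i _ => ?_
    ring

include hres in
/-- An embedding inducing the same place as `σ₀` and agreeing with another such embedding on
`y` and on a uniformizer `t` is equal to it. -/
theorem algHom_eq_of_apply_unif_eq (t : F)
    (ht : (placeOf w hw_mul hw_add hw_K σ₀ y hy0 hy).ord t = 1)
    (σ₁ σ₂ : F →ₐ[K] Ω)
    (h1 : vsub w hw_mul hw_add σ₁ = vsub w hw_mul hw_add σ₀)
    (h2 : vsub w hw_mul hw_add σ₂ = vsub w hw_mul hw_add σ₀)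
    (hy12 : σ₁ y = σ₂ y) (hwy1 : 0 < w (σ₁ y)) (ht12 : σ₁ t = σ₂ t) : σ₁ = σ₂ := by
  set v := placeOf w hw_mul hw_add hw_K σ₀ y hy0 hy with hv
  obtain ⟨κ, hκ, hκf⟩ := exists_kappa w hw_mul hw_add hw_K σ₀ y hy0 hy
  have hey : 0 < v.ord y := by
    have h := hκf y hy0
    rw [h] at hy
    exact pos_of_mul_pos_right hy hκ.le
  obtain ⟨e, he⟩ : ∃ e : ℕ, v.ord y = e := ⟨(v.ord y).toNat, (Int.toNat_of_nonneg hey.le).symm⟩
  have key : ∀ f ∈ vsub w hw_mul hw_add σ₀, σ₁ f = σ₂ f := by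
    intro f hf
    by_contra hne
    have hd : σ₁ f - σ₂ f ≠ 0 := sub_ne_zero.mpr hne
    obtain ⟨M, hM⟩ : ∃ M : ℕ, w (σ₁ f - σ₂ f) < M :=
      ⟨(w (σ₁ f - σ₂ f)).toNat + 1, by
        have := Int.self_le_toNat (w (σ₁ f - σ₂ f)); push_cast; omega⟩
    obtain ⟨p, f', hf', hfe⟩ :=
      expand_y w hw_mul hw_add hw_K σ₀ y hy0 hy hres t ht e he M f hf
    have hσ : ∀ σ : F →ₐ[K] Ω, σ f = ∑ i ∈ Finset.range e,
        Polynomial.aeval (σ y) (p i) * (σ t) ^ i + (σ y) ^ M * σ f' := by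
      intro σ
      conv_lhs => rw [hfe]
      simp only [map_add, map_sum, map_mul, map_pow, Polynomial.aeval_algHom_apply]
    have hdiff : σ₁ f - σ₂ f = (σ₁ y) ^ M * (σ₁ f' - σ₂ f') := by
      rw [hσ σ₁, hσ σ₂, ← hy12, ← ht12]; ring
    have hδ : σ₁ f' - σ₂ f' ≠ 0 := by
      intro h; rw [h, mul_zero] at hdiff; exact hd hdiff
    have hf'0 : f' ≠ 0 := by
      rintro rfl
      simp at hδ
    have hw1 : 0 ≤ w (σ₁ f') := by
      have hmem : f' ∈ vsub w hw_mul hw_add σ₁ := by rw [h1]; exact hf'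
      exact hmem.resolve_left hf'0
    have hw2 : 0 ≤ w (σ₂ f') := by
      have hmem : f' ∈ vsub w hw_mul hw_add σ₂ := by rw [h2]; exact hf'
      exact hmem.resolve_left hf'0
    have hwδ : 0 ≤ w (σ₁ f' - σ₂ f') :=
      le_trans (le_min hw1 hw2) (w_sub w hw_mul hw_add ((map_ne_zero σ₁).mpr hf'0)
        ((map_ne_zero σ₂).mpr hf'0) hδ)
    have hy1 : σ₁ y ≠ 0 := (map_ne_zero σ₁).mpr hy0
    have hwd : w (σ₁ f - σ₂ f) = M * w (σ₁ y) + w (σ₁ f' - σ₂ f') := by
      rw [hdiff, hw_mul _ _ (pow_ne_zero M hy1) hδ, w_pow w hw_mul hy1]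
    have hMnn : (0 : ℤ) ≤ M := Int.natCast_nonneg M
    nlinarith
  refine AlgHom.ext fun f => ?_
  by_cases hf : f ∈ vsub w hw_mul hw_add σ₀
  · exact key f hf
  · have hinv : f⁻¹ ∈ vsub w hw_mul hw_add σ₀ :=
      ((vsub w hw_mul hw_add σ₀).mem_or_inv_mem f).resolve_left hf
    have h := key f⁻¹ hinv
    rw [map_inv₀, map_inv₀] at h
    exact inv_injective h

include hres in
/-- **Fibre bound**: at most `ord_v y` of the embeddings agreeing on `y` induce the place `v`. -/
theorem fibre_card_le {X : Type*} (ι : X → (F →ₐ[K] Ω)) (hι : Function.Injective ι)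
    (hyι : ∀ j, ι j y = σ₀ y)
    (T : Finset X) (hT : ∀ j ∈ T, vsub w hw_mul hw_add (ι j) = vsub w hw_mul hw_add σ₀) :
    (T.card : ℤ) ≤ (placeOf w hw_mul hw_add hw_K σ₀ y hy0 hy).ord y := by
  classical
  set v := placeOf w hw_mul hw_add hw_K σ₀ y hy0 hy with hv
  obtain ⟨κ, hκ, hκf⟩ := exists_kappa w hw_mul hw_add hw_K σ₀ y hy0 hy
  have hey : 0 < v.ord y := by
    have h := hκf y hy0
    have hy' := hy
    rw [h] at hy'
    exact pos_of_mul_pos_right hy' hκ.le
  obtain ⟨e, he⟩ : ∃ e : ℕ, v.ord y = e := ⟨(v.ord y).toNat, (Int.toNat_of_nonneg hey.le).symm⟩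
  obtain ⟨π, hπ⟩ := IsDiscreteValuationRing.exists_irreducible v.toValuationSubring
  have ht : v.ord (π : F) = 1 := v.ord_coe_irreducible hπ
  have hπmem : (π : F) ∈ vsub w hw_mul hw_add σ₀ := π.2
  generalize (π : F) = t at ht hπmem
  rw [he]
  by_contra hlt
  have hlt' : e + 1 ≤ T.card := by
    have hlt2 : (e : ℤ) < T.card := not_le.mp hlt
    exact_mod_cast hlt2
  obtain ⟨T', hT'sub, hT'card⟩ := Finset.exists_subset_card_eq hlt'
  let x : X → Ω := fun j => ι j t
  have hinj : Set.InjOn x T' := by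
    intro j hj j' hj' hxx
    apply hι
    exact algHom_eq_of_apply_unif_eq w hw_mul hw_add hw_K σ₀ y hy0 hy hres t ht (ι j) (ι j')
      (hT j (hT'sub hj)) (hT j' (hT'sub hj')) (by rw [hyι, hyι]) (by rw [hyι]; exact hy) hxx
  let D : ℕ := ∑ j ∈ T', (w (∏ j' ∈ T'.erase j, (x j - x j'))).natAbs
  have htemem : t ^ e ∈ vsub w hw_mul hw_add σ₀ := pow_mem hπmem e
  obtain ⟨p, r, hr, hre⟩ :=
    expand_y w hw_mul hw_add hw_K σ₀ y hy0 hy hres t ht e he (D + 1) (t ^ e) htemem
  set ξ : Ω := σ₀ y with hξ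
  have hξ0 : ξ ≠ 0 := (map_ne_zero σ₀).mpr hy0
  let Q : Polynomial Ω :=
    ∑ i ∈ Finset.range e, Polynomial.C (Polynomial.aeval ξ (p i)) * Polynomial.X ^ i
  have hQmem : Q ∈ Polynomial.degreeLT Ω e := by
    refine Submodule.sum_mem _ fun i hi => ?_
    rw [Polynomial.mem_degreeLT]
    exact lt_of_le_of_lt (Polynomial.degree_C_mul_X_pow_le i _)
      (by exact_mod_cast Finset.mem_range.mp hi)
  have hQdeg : Q.degree < (e : WithBot ℕ) := Polynomial.mem_degreeLT.mp hQmem
  let P : Polynomial Ω := Polynomial.X ^ e - Q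
  have hPdeg : P.degree = (e : WithBot ℕ) := by
    rw [Polynomial.degree_sub_eq_left_of_degree_lt (by rwa [Polynomial.degree_X_pow]),
      Polynomial.degree_X_pow]
  have hPlead : P.leadingCoeff = 1 := (Polynomial.monic_X_pow_sub hQdeg).leadingCoeff
  have hPeval : ∀ j, P.eval (x j) = ξ ^ (D + 1) * ι j r := by
    intro j
    have h := congrArg (ι j) hre
    simp only [map_add, map_sum, map_mul, map_pow] at h
    have h' : ∀ i, (ι j) (Polynomial.aeval y (p i)) = Polynomial.aeval ξ (p i) := by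
      intro i
      rw [← Polynomial.aeval_algHom_apply, hyι j]
    simp only [h', hyι j] at h
    simp only [P, Q, Polynomial.eval_sub, Polynomial.eval_pow, Polynomial.eval_X,
      Polynomial.eval_finsetSum, Polynomial.eval_mul, Polynomial.eval_C, x]
    rw [h]
    ring
  have hL := Lagrange.leadingCoeff_eq_sum hinj (P := P) (by rw [hT'card, hPdeg]; rfl)
  rw [hPlead] at hL
  obtain ⟨j, hj, hterm0, hle⟩ := w_sum_le w hw_add T'
    (fun i => P.eval (x i) / ∏ j' ∈ T'.erase i, (x i - x j')) (by rw [← hL]; exact one_ne_zero)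
  rw [← hL, w_one w hw_mul] at hle
  have hprod0 : ∏ j' ∈ T'.erase j, (x j - x j') ≠ 0 := by
    rw [Finset.prod_ne_zero_iff]
    intro j' hj'
    rw [sub_ne_zero]
    intro hxx
    exact (Finset.ne_of_mem_erase hj') (hinj (Finset.mem_of_mem_erase hj') hj hxx.symm)
  have heval0 : P.eval (x j) ≠ 0 := by
    intro h
    apply hterm0
    show P.eval (x j) / _ = 0
    rw [h, zero_div]
  rw [hPeval j] at heval0
  have hr0 : r ≠ 0 := by
    rintro rfl
    simp at heval0
  have hιr0 : ι j r ≠ 0 := (map_ne_zero (ι j)).mpr hr0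
  have hwr : 0 ≤ w (ι j r) := by
    have hmem : r ∈ vsub w hw_mul hw_add (ι j) := by rw [hT j (hT'sub hj)]; exact hr
    exact hmem.resolve_left hr0
  have hwterm : w (P.eval (x j) / ∏ j' ∈ T'.erase j, (x j - x j'))
      = ((D + 1 : ℕ) : ℤ) * w ξ + w (ι j r) - w (∏ j' ∈ T'.erase j, (x j - x j')) := by
    rw [hPeval j, w_div w hw_mul (mul_ne_zero (pow_ne_zero _ hξ0) hιr0) hprod0,
      hw_mul _ _ (pow_ne_zero _ hξ0) hιr0, w_pow w hw_mul hξ0]
  have hDle : (w (∏ j' ∈ T'.erase j, (x j - x j'))).natAbs ≤ D :=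
    Finset.single_le_sum (f := fun j => (w (∏ j' ∈ T'.erase j, (x j - x j'))).natAbs)
      (fun _ _ => Nat.zero_le _) hj
  have habs : w (∏ j' ∈ T'.erase j, (x j - x j')) ≤ (D : ℤ) := by
    have h1 := Int.le_natAbs (a := w (∏ j' ∈ T'.erase j, (x j - x j')))
    have h2 : ((w (∏ j' ∈ T'.erase j, (x j - x j'))).natAbs : ℤ) ≤ (D : ℤ) := by
      exact_mod_cast hDle
    exact h1.trans h2
  have hξpos : 1 ≤ w ξ := hy
  have hDnn : (0 : ℤ) ≤ D := Int.natCast_nonneg D
  rw [hwterm] at hle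
  push_cast at hle
  nlinarith

end Fibre

/-! ### The orbit-counting theorem -/

section Main

variable {K F : Type*} [Field K] [Field F] [Algebra K F]

/-- **Orbit counting (general valued-field form).**
`y : F` has zero set `s` with `∑_{v ∈ s} ord_v y = |X|` (fundamental identity), all residue
fields are `K`, and `ι : X → (F →ₐ[K] Ω)` are `|X|` distinct embeddings into a field `Ω` with
a `ℤ`-valued order function `w`, all sending `y` to elements of the same order `m > 0`.
If `orb : X → O` is a surjection whose fibres ("orbits") leave `w ∘ ι` invariant and such that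
`m ∣ |orbit of i| * w (ι i f)` for all `f ≠ 0`, then `y` has exactly `|O|` zeros. -/
theorem card_zeros_eq_card_of_embeddings
    (y : F) (s : Finset (Place K F)) (hs : ∀ v : Place K F, v ∈ s ↔ 0 < v.ord y)
    (hres : ∀ v : Place K F, ∀ u ∈ v.toValuationSubring,
      ∃ a : K, u = algebraMap K F a ∨ 0 < v.ord (u - algebraMap K F a))
    {Ω : Type*} [Field Ω] [Algebra K Ω] (w : Ω → ℤ)
    (hw_mul : ∀ a b : Ω, a ≠ 0 → b ≠ 0 → w (a * b) = w a + w b)
    (hw_add : ∀ a b : Ω, a ≠ 0 → b ≠ 0 → a + b ≠ 0 → min (w a) (w b) ≤ w (a + b))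
    (hw_K : ∀ c : K, c ≠ 0 → w (algebraMap K Ω c) = 0)
    {X O : Type*} [Fintype X] [Finite O]
    (hsum : ∑ v ∈ s, v.ord y = (Fintype.card X : ℤ))
    (ι : X → (F →ₐ[K] Ω)) (hι : Function.Injective ι)
    (hy : ∀ i j, ι i y = ι j y) (m : ℤ) (hm : 0 < m) (hwy : ∀ i, w (ι i y) = m)
    (orb : X → O) (horb : Function.Surjective orb)
    (hw_orb : ∀ i j, orb i = orb j → ∀ f : F, f ≠ 0 → w (ι i f) = w (ι j f))
    (hw_div : ∀ i (f : F), f ≠ 0 → m ∣ (Nat.card {j // orb j = orb i} : ℤ) * w (ι i f)) :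
    s.card = Nat.card O := by
  classical
  by_cases hy0 : y = 0
  · subst hy0
    have hs' : s = ∅ := by
      ext v
      simp [hs v]
    rw [hs'] at hsum ⊢
    simp only [Finset.sum_empty] at hsum
    have hX : IsEmpty X := by
      rw [← Fintype.card_eq_zero_iff]; exact_mod_cast hsum.symm
    have hO : IsEmpty O := ⟨fun o => by obtain ⟨i, _⟩ := horb o; exact hX.false i⟩
    simp
  have hyi : ∀ i, 0 < w (ι i y) := fun i => by rw [hwy]; exact hm
  let pl : X → Place K F := fun i => placeOf w hw_mul hw_add hw_K (ι i) y hy0 (hyi i)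
  -- proportionality constants and uniformizers
  have hκ : ∀ i, ∃ κ : ℤ, 0 < κ ∧ m = κ * (pl i).ord y ∧ ∃ π : F, π ≠ 0 ∧ w (ι i π) = κ := by
    intro i
    obtain ⟨κ, hκ, hκf⟩ := exists_kappa w hw_mul hw_add hw_K (ι i) y hy0 (hyi i)
    refine ⟨κ, hκ, ?_, ?_⟩
    · rw [← hwy i]; exact hκf y hy0
    · obtain ⟨π, hπ⟩ := IsDiscreteValuationRing.exists_irreducible (pl i).toValuationSubring
      have hπ0 : (π : F) ≠ 0 := fun h => hπ.ne_zero (Subtype.ext h)
      refine ⟨π, hπ0, ?_⟩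
      rw [hκf _ hπ0, (pl i).ord_coe_irreducible hπ, mul_one]
  have hpos : ∀ i, 0 < (pl i).ord y := by
    intro i
    obtain ⟨κ, hκ, hmκ, -⟩ := hκ i
    have h : 0 < κ * (pl i).ord y := by rw [← hmκ]; exact hm
    exact pos_of_mul_pos_right h hκ.le
  have hmem : ∀ i, pl i ∈ s := fun i => (hs _).mpr (hpos i)
  -- the fibres of `pl` partition `X`
  have hcard : (Finset.univ : Finset X).card
      = ∑ v ∈ s, (Finset.univ.filter (fun i => pl i = v)).card :=
    Finset.card_eq_sum_card_fiberwise (fun i _ => hmem i)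
  -- each fibre has at most `ord_v y` elements
  have hle : ∀ v ∈ s, ((Finset.univ.filter (fun i => pl i = v)).card : ℤ) ≤ v.ord y := by
    intro v hv
    rcases (Finset.univ.filter (fun i => pl i = v)).eq_empty_or_nonempty with h | ⟨i₀, hi₀⟩
    · rw [h]; simpa using ((hs v).mp hv).le
    · have hi₀' : pl i₀ = v := (Finset.mem_filter.mp hi₀).2
      subst hi₀'
      refine fibre_card_le w hw_mul hw_add hw_K (ι i₀) y hy0 (hyi i₀) (hres (pl i₀)) ι hι
        (fun j => hy j i₀) _ ?_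
      intro j hj
      exact congrArg Place.toValuationSubring (Finset.mem_filter.mp hj).2
  -- hence exactly `ord_v y`
  have heq : ∀ v ∈ s, ((Finset.univ.filter (fun i => pl i = v)).card : ℤ) = v.ord y := by
    have hsum' : ∑ v ∈ s, ((Finset.univ.filter (fun i => pl i = v)).card : ℤ)
        = ∑ v ∈ s, v.ord y := by
      rw [hsum, ← Finset.card_univ, hcard]; push_cast; rfl
    exact (Finset.sum_eq_sum_iff_of_le hle).mp hsum'
  -- orbits lie in fibres
  have hpl_orb : ∀ i j, orb i = orb j → pl i = pl j := by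
    intro i j hij
    apply Place.ext
    show vsub w hw_mul hw_add (ι i) = vsub w hw_mul hw_add (ι j)
    ext f
    rw [mem_vsub_iff, mem_vsub_iff]
    by_cases hf : f = 0
    · simp [hf]
    · rw [hw_orb i j hij f hf]
  -- fibres are orbits
  have horb_pl : ∀ i j, pl j = pl i → orb j = orb i := by
    intro i
    have hsub : Finset.univ.filter (fun j => orb j = orb i)
        ⊆ Finset.univ.filter (fun j => pl j = pl i) := by
      intro j hj
      rw [Finset.mem_filter] at hj ⊢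
      exact ⟨hj.1, hpl_orb j i hj.2⟩
    have hcardA : Nat.card {j // orb j = orb i}
        = (Finset.univ.filter (fun j => orb j = orb i)).card := by
      rw [Nat.card_eq_fintype_card, Fintype.card_subtype]
    have hcle : (Finset.univ.filter (fun j => pl j = pl i)).card
        ≤ (Finset.univ.filter (fun j => orb j = orb i)).card := by
      obtain ⟨κ, hκ, hmκ, π, hπ0, hπ⟩ := hκ i
      have hd := hw_div i π hπ0
      rw [hπ, hmκ, hcardA, mul_comm κ] at hd
      have hd' : (pl i).ord y ∣ ((Finset.univ.filter (fun j => orb j = orb i)).card : ℤ) :=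
        (mul_dvd_mul_iff_right hκ.ne').mp hd
      have hcpos : 0 < ((Finset.univ.filter (fun j => orb j = orb i)).card : ℤ) := by
        have hi : i ∈ Finset.univ.filter (fun j => orb j = orb i) :=
          Finset.mem_filter.mpr ⟨Finset.mem_univ _, rfl⟩
        have hc : 0 < (Finset.univ.filter (fun j => orb j = orb i)).card :=
          Finset.card_pos.mpr ⟨i, hi⟩
        exact_mod_cast hc
      have h := Int.le_of_dvd hcpos hd'
      rw [← heq (pl i) (hmem i)] at h
      exact_mod_cast h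
    have hEq := Finset.eq_of_subset_of_card_le hsub hcle
    intro j hj
    have hj' : j ∈ Finset.univ.filter (fun j => pl j = pl i) :=
      Finset.mem_filter.mpr ⟨Finset.mem_univ _, hj⟩
    rw [← hEq] at hj'
    exact (Finset.mem_filter.mp hj').2
  -- every zero of `y` is hit
  have hsurj : ∀ v ∈ s, ∃ i, pl i = v := by
    intro v hv
    have h1 := heq v hv
    have h2 := (hs v).mp hv
    have h3 : 0 < (Finset.univ.filter (fun i => pl i = v)).card := by
      have h4 : (0 : ℤ) < ((Finset.univ.filter (fun i => pl i = v)).card : ℤ) := by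
        rw [h1]; exact h2
      exact_mod_cast h4
    obtain ⟨i, hi⟩ := Finset.card_pos.mp h3
    exact ⟨i, (Finset.mem_filter.mp hi).2⟩
  -- the bijection orbits ↔ zeros
  let g : O → s := fun o => ⟨pl (horb o).choose, hmem _⟩
  have hg_inj : Function.Injective g := by
    intro o o' h
    have h' : pl (horb o).choose = pl (horb o').choose := congrArg Subtype.val h
    have h'' := horb_pl _ _ h'
    rw [(horb o).choose_spec, (horb o').choose_spec] at h''
    exact h''
  have hg_surj : Function.Surjective g := by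
    rintro ⟨v, hv⟩
    obtain ⟨i, hi⟩ := hsurj v hv
    refine ⟨orb i, Subtype.ext ?_⟩
    show pl (horb (orb i)).choose = v
    rw [← hi]
    exact hpl_orb _ _ (horb (orb i)).choose_spec
  rw [Nat.card_congr (Equiv.ofBijective g ⟨hg_inj, hg_surj⟩), Nat.card_eq_fintype_card,
    Fintype.card_coe]

end Main

end Fermat.Agent.S24.helper324
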