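import Fermat.Agent.S24.helper24_Spec
import Fermat.Agent.S24.helper324_OrbitCountGen

/-!
# `Stmt_LOC` of the S24 specification (helper324)

`loc_of : Stmt_FundId → Stmt_ResidueK → Stmt_LOC`, deduced from the general orbit-counting
theorem `card_zeros_eq_card_of_embeddings` of `helper324_OrbitCountGen`.
-/

set_option autoImplicit false

open AlgebraicCurve IntermediateField

namespace Fermat.Agent.S24.helper324

open Fermat.Agent.S24.helper24

/-- If the residue field of `v` is `K`, every element of the valuation ring is congruent to a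
constant. -/
theorem hres_of_residue_surjective {K F : Type*} [Field K] [Field F] [Algebra K F]
    (v : Place K F) (h : Function.Surjective (algebraMap K v.ResidueField)) :
    ∀ u ∈ v.toValuationSubring,
      ∃ a : K, u = algebraMap K F a ∨ 0 < v.ord (u - algebraMap K F a) := by
  intro u hu
  obtain ⟨a, ha⟩ := h (IsLocalRing.residue _ ⟨u, hu⟩)
  refine ⟨a, ?_⟩
  set d : v.toValuationSubring := ⟨u, hu⟩ - algebraMap K v.toValuationSubring a with hd
  have hdF : (d : F) = u - algebraMap K F a := rfl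
  have hdres : IsLocalRing.residue _ d = 0 := by
    rw [hd, map_sub, ← ha]
    exact sub_eq_zero.mpr rfl
  have hnu : ¬ IsUnit d := by
    rw [IsLocalRing.residue_eq_zero_iff] at hdres
    exact (IsLocalRing.mem_maximalIdeal d).mp hdres
  by_cases hd0 : (d : F) = 0
  · left
    rw [hdF, sub_eq_zero] at hd0
    exact hd0
  · right
    rw [← hdF]
    have h1 : v.adicValuation (d : F) ≠ 1 :=
      fun h => hnu ((v.adicValuation_coe_eq_one_iff d).mp h)
    have h2 : v.adicValuation (d : F) ≤ 1 := by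
      rw [v.adicValuation_coe]
      exact IsDedekindDomain.HeightOneSpectrum.intValuation_le_one _ _
    have h3 : v.adicValuation (d : F) < 1 := lt_of_le_of_ne h2 h1
    have h4 : v.adicValuation (d : F) ≠ 0 := v.adicValuation_ne_zero hd0
    have h5 : WithZero.log (v.adicValuation (d : F)) < 0 := by
      rw [WithZero.log_lt_iff_lt_exp h4, WithZero.exp_zero]
      exact h3
    show 0 < -(WithZero.log (v.adicValuation (d : F)))
    linarith

/-- `σ ^ k` permutes the embeddings like `ρ ^ k`. -/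
theorem pow_apply_embedding {K F Ω X : Type*} [Field K] [Field F] [Algebra K F] [Field Ω]
    [Algebra K Ω] (ι : X → (F →ₐ[K] Ω)) (σ : Ω ≃ₐ[K] Ω) (ρ : Equiv.Perm X)
    (hρ : ∀ i f, σ (ι i f) = ι (ρ i) f) (k : ℕ) (i : X) (f : F) :
    (σ ^ k) (ι i f) = ι ((ρ ^ k) i) f := by
  induction k with
  | zero => simp
  | succ k ih =>
    rw [pow_succ', pow_succ', AlgEquiv.mul_apply, ih, hρ, Equiv.Perm.mul_apply]

/-- **`Stmt_LOC`** of the captain's specification, from the fundamental identity and
residue field `= K`. -/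
theorem loc_of (h1 : Stmt_FundId) (h2 : Stmt_ResidueK) : Stmt_LOC := by
  intro K F _ _ _ _ _ Ω _ _ y htr _ w hwK X _ hcard ι hι ξ hξ m hm hwξ σ hσ ρ hρ hdiv
  classical
  obtain ⟨s, hs, hsum⟩ := h1 K F y htr
  have hres : ∀ v : Place K F, ∀ u ∈ v.toValuationSubring,
      ∃ a : K, u = algebraMap K F a ∨ 0 < v.ord (u - algebraMap K F a) :=
    fun v => hres_of_residue_surjective v (h2 K F y htr v)
  -- the integer-valued order function
  let w' : Ω → ℤ := fun z => (w z).untopD 0
  have hw' : ∀ z : Ω, z ≠ 0 → w z = ((w' z : ℤ) : WithTop ℤ) := by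
    intro z hz
    have hne : w z ≠ ⊤ := fun h => hz ((AddValuation.top_iff w).mp h)
    obtain ⟨b, hb⟩ := WithTop.ne_top_iff_exists.mp hne
    show w z = (((w z).untopD 0 : ℤ) : WithTop ℤ)
    rw [← hb]
    rfl
  have hw_mul : ∀ a b : Ω, a ≠ 0 → b ≠ 0 → w' (a * b) = w' a + w' b := by
    intro a b ha hb
    have h := AddValuation.map_mul w a b
    rw [hw' a ha, hw' b hb, hw' (a * b) (mul_ne_zero ha hb)] at h
    exact_mod_cast h
  have hw_add : ∀ a b : Ω, a ≠ 0 → b ≠ 0 → a + b ≠ 0 → min (w' a) (w' b) ≤ w' (a + b) := by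
    intro a b ha hb hab
    have h := AddValuation.map_add w a b
    rw [hw' a ha, hw' b hb, hw' (a + b) hab] at h
    exact_mod_cast h
  have hw_K : ∀ c : K, c ≠ 0 → w' (algebraMap K Ω c) = 0 := by
    intro c hc
    show (w (algebraMap K Ω c)).untopD 0 = 0
    rw [hwK c hc]
    rfl
  have hsum' : ∑ v ∈ s, v.ord y = (Fintype.card X : ℤ) := by rw [hsum, hcard]
  have hy : ∀ i j, ι i y = ι j y := fun i j => (hξ i).trans (hξ j).symm
  have hwy : ∀ i, w' (ι i y) = (m : ℤ) := by
    intro i
    show (w (ι i y)).untopD 0 = (m : ℤ)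
    rw [hξ i, hwξ]
    rfl
  have hσpow : ∀ (k : ℕ) (z : Ω), w ((σ ^ k) z) = w z := by
    intro k
    induction k with
    | zero => intro z; simp
    | succ k ih => intro z; rw [pow_succ', AlgEquiv.mul_apply, hσ, ih]
  have hρpow : ∀ (k : ℕ) (i : X) (f : F), w (ι ((ρ ^ k) i) f) = w (ι i f) := by
    intro k i f
    rw [← pow_apply_embedding ι σ ρ hρ k i f, hσpow]
  have hρzpow : ∀ (k : ℤ) (i : X) (f : F), w (ι ((ρ ^ k) i) f) = w (ι i f) := by
    intro k i f
    rcases Int.eq_nat_or_neg k with ⟨n, rfl | rfl⟩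
    · rw [zpow_natCast]; exact hρpow n i f
    · have h := hρpow n ((ρ ^ (-(n : ℤ))) i) f
      rw [zpow_neg, zpow_natCast] at h ⊢
      rw [← h, Equiv.Perm.inv_def, Equiv.apply_symm_apply]
  -- orbits
  let orb : X → MulAction.orbitRel.Quotient (Subgroup.zpowers ρ) X := fun i => Quotient.mk'' i
  have horb : Function.Surjective orb := Quotient.mk''_surjective
  have horb_iff : ∀ i j, orb j = orb i ↔ j ∈ MulAction.orbit (Subgroup.zpowers ρ) i := by
    intro i j
    show (Quotient.mk'' j : MulAction.orbitRel.Quotient (Subgroup.zpowers ρ) X) = Quotient.mk'' i ↔ _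
    rw [Quotient.eq'']
    exact MulAction.orbitRel_apply
  have hw_orb : ∀ i j, orb i = orb j → ∀ f : F, f ≠ 0 → w' (ι i f) = w' (ι j f) := by
    intro i j hij f _
    obtain ⟨g, hg⟩ := (horb_iff j i).mp hij
    obtain ⟨k, hk⟩ := Subgroup.mem_zpowers_iff.mp g.2
    have hgi : (ρ ^ k) j = i := by rw [hk]; exact hg
    show (w (ι i f)).untopD 0 = (w (ι j f)).untopD 0
    rw [← hgi, hρzpow]
  have hw_div : ∀ i (f : F), f ≠ 0 →
      (m : ℤ) ∣ (Nat.card {j // orb j = orb i} : ℤ) * w' (ι i f) := by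
    intro i f hf
    set k : ℕ := Nat.card {j // orb j = orb i} with hk
    have hk' : k = Function.minimalPeriod (ρ • ·) i := by
      rw [hk, MulAction.minimalPeriod_eq_card, ← Nat.card_eq_fintype_card]
      exact Nat.card_congr (Equiv.subtypeEquivRight (fun j => horb_iff i j))
    have hper : (ρ ^ k) i = i := by
      have h := Function.isPeriodicPt_minimalPeriod (ρ • ·) i
      rw [← hk'] at h
      have h' : (ρ • ·)^[k] i = i := h
      rw [smul_iterate] at h'
      exact h'
    have hfix : (σ ^ k) (ι i f) = ι i f := by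
      rw [pow_apply_embedding ι σ ρ hρ k i f, hper]
    have hιf : ι i f ≠ 0 := (map_ne_zero (ι i)).mpr hf
    obtain ⟨l, hl⟩ := hdiv k (ι i f) hιf hfix
    have hl' : w' (ι i f) = ((m / Nat.gcd k m : ℕ) : ℤ) * l := by
      show (w (ι i f)).untopD 0 = _
      rw [hl]
      rfl
    rw [hl']
    have hnat : m ∣ k * (m / Nat.gcd k m) := by
      refine ⟨k / Nat.gcd k m, ?_⟩
      calc k * (m / Nat.gcd k m)
          = (k / Nat.gcd k m) * Nat.gcd k m * (m / Nat.gcd k m) := by
            rw [Nat.div_mul_cancel (Nat.gcd_dvd_left k m)]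
        _ = (k / Nat.gcd k m) * (Nat.gcd k m * (m / Nat.gcd k m)) := by ring
        _ = m * (k / Nat.gcd k m) := by
            rw [Nat.mul_div_cancel' (Nat.gcd_dvd_right k m)]; ring
    have hint : (m : ℤ) ∣ (k : ℤ) * ((m / Nat.gcd k m : ℕ) : ℤ) := by exact_mod_cast hnat
    rw [← mul_assoc]
    exact Dvd.dvd.mul_right hint l
  rw [Nat.subtype_card s hs]
  exact card_zeros_eq_card_of_embeddings y s hs hres w' hw_mul hw_add hw_K hsum' ι hι hy (m : ℤ)
    (by exact_mod_cast hm) hwy orb horb hw_orb hw_div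

end Fermat.Agent.S24.helper324
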