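import Fermat.Agent.S20.helper34_Index
import Fermat.Agent.S24.helper24_Spec

/-!
# `Stmt_Index` of the S24 spec `helper24_Spec`
-/

set_option autoImplicit false

namespace Fermat.Agent.S24.helper34

/-- `Stmt_Index` of `helper24_Spec`: `#(SL(2, ℤ) ⧸ Γ₀(N)) = ψ(N)`. -/
theorem stmt_Index : Fermat.Agent.S24.helper24.Stmt_Index :=
  fun N _ => Fermat.Agent.S20.helper34.index_Gamma0 N

end Fermat.Agent.S24.helper34
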