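import Fermat.Agent.S24.helper24_Spec
import Fermat.Agent.S24.helper384_Count
import Fermat.Agent.S24.helper264_LocAdapter

/-!
# S24: `Stmt_FundId → Stmt_LOC` (helper384)

Glue: the orbit counting lemma `card_zeros_eq_card_orbits` of `helper384_Count` closes
helper264's `Stmt_BPrime`, and helper264's adapter turns it into the captain's `Stmt_LOC`.

* `stmt_BPrime : helper264.Stmt_BPrime`
* `stmt_LOC_of_fundId : helper24.Stmt_FundId → helper24.Stmt_LOC`
-/

set_option autoImplicit false

open AlgebraicCurve IntermediateField

namespace Fermat.Agent.S24.helper384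

/-- helper264's `Stmt_BPrime` (the statement of the orbit counting lemma B′) holds. -/
theorem stmt_BPrime : Fermat.Agent.S24.helper264.Stmt_BPrime := by
  intro K F _ _ _ _ _ x hx _ hfund X O _ _ hcard w hw_mul hw_add hw_const e₀ he₀ hw_x hnorm
    orb horb hw_orb hw_div
  have hx0 : x ≠ 0 := by
    rintro rfl
    exact hx (isAlgebraic_zero)
  exact card_zeros_eq_card_orbits x hx0 hfund hcard w hw_mul hw_add hw_const e₀ he₀ hw_x hnorm
    orb horb hw_orb hw_div

/-- The captain's orbit counting statement `Stmt_LOC` follows from the fundamental identity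
`Stmt_FundId` alone. -/
theorem stmt_LOC_of_fundId (h1 : Fermat.Agent.S24.helper24.Stmt_FundId) :
    Fermat.Agent.S24.helper24.Stmt_LOC :=
  Fermat.Agent.S24.helper264.stmt_LOC_of_BPrime stmt_BPrime h1

end Fermat.Agent.S24.helper384
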