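import Fermat.Agent.S24.helper418_ExpDict
import Fermat.Agent.S24.helper3176_FieldAlg
import Fermat.Agent.S24.helper864_LocalDatum
import Fermat.Agent.S24.helper1644_AnalyticJ

/-!
# The local datum at the cusp (helper418): `Stmt_LocalInf`

For every coset `x = g Γ₀(N)` we construct a ring embedding of the modular function field
`FN N` into `ℂ((t))`, `t = q^(1/N)`: an element `u` of `AN N = ℚ̄[j(q^d) : d ∣ N]` is the
`q`-expansion of a unique function `ev u` on the upper half plane, and is sent to the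
`t`-expansion of `ev u ∘ g⁻¹`.  The construction only uses the `SL(2, ℤ)`-invariance of `J` and the
convergence of its `q`-expansion on the whole upper half plane (no holomorphy, no identity
theorem).
-/

set_option autoImplicit false

noncomputable section

namespace Fermat.Agent.S24.helper418

open scoped UpperHalfPlane Real MatrixGroups
open Complex ModularCurve CongruenceSubgroup
open Fermat.Agent.S24.helper24 Fermat.Agent.S24.helper3176

/-- The analytic input: an `SL(2, ℤ)`-invariant function whose `q`-expansion is the formal `j`. -/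
structure IsJ (J : ℍ → ℂ) : Prop where
  inv : ∀ (γ : SL(2, ℤ)) (τ : ℍ), J (γ • τ) = J τ
  exp : IsExp 1 J jC

/-! ### Coefficient maps -/

theorem coeffMap_algebraMap_eq_C (ι₀ : Kbar →+* ℂ) (c : Kbar) :
    coeffMap ι₀ (algebraMap Kbar (LaurentSeries Kbar) c) = HahnSeries.C (ι₀ c) := by
  rw [algebraMap_laurentSeries_eq_single, coeffMap_single]
  rfl

theorem coeffMap_coeffEmb (ι₀ : Kbar →+* ℂ) (x : LaurentSeries ℚ) :
    coeffMap ι₀ (coeffEmb Kbar x) = coeffMap (algebraMap ℚ ℂ) x := by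
  rw [coeffEmb, coeffMap_coeffMap]
  exact coeffMap_congr (Subsingleton.elim _ _) x

theorem coeffMap_jSeries (ι₀ : Kbar →+* ℂ) (d : ℕ) [NeZero d] :
    coeffMap ι₀ (jSeries d) = qExpand ℂ d jC := by
  rw [jSeries, coeffMap_coeffEmb, Fermat.Agent.S24.helper3176.coeffMap_qExpand]
  rfl

theorem coeffMap_injective (ι₀ : Kbar →+* ℂ) : Function.Injective (coeffMap ι₀) := by
  intro x y h
  ext k
  have h1 := congrArg (fun z : LaurentSeries ℂ => z.coeff k) h
  simp only [coeffMap_coeff] at h1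
  exact ι₀.injective h1

/-! ### Invariance of `J (d τ)` under `Γ₀(N)` -/

theorem scal_smul_Gamma0 {N d : ℕ} (hd0 : 0 < d) (hd : d ∣ N) {h : SL(2, ℤ)}
    (hh : h ∈ Gamma0 N) : ∃ h' : SL(2, ℤ), ∀ τ : ℍ, scal d (h • τ) = h' • scal d τ := by
  have hN : (N : ℤ) ∣ h 1 0 := by
    rw [Gamma0_mem] at hh
    exact (ZMod.intCast_zmod_eq_zero_iff_dvd _ _).mp hh
  obtain ⟨c', hc'⟩ : (d : ℤ) ∣ h 1 0 := (Int.natCast_dvd_natCast.mpr hd).trans hN
  have hdet : h 0 0 * h 1 1 - h 0 1 * h 1 0 = 1 := by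
    have h1 := h.det_coe
    rwa [Matrix.det_fin_two] at h1
  let h' : SL(2, ℤ) := ⟨!![h 0 0, h 0 1 * d; c', h 1 1], by
    rw [Matrix.det_fin_two_of]
    rw [hc'] at hdet
    linear_combination hdet⟩
  refine ⟨h', fun τ => ?_⟩
  ext
  rw [coe_scal hd0, UpperHalfPlane.coe_specialLinearGroup_apply,
    UpperHalfPlane.coe_specialLinearGroup_apply, coe_scal hd0]
  have h00 : (h' : Matrix (Fin 2) (Fin 2) ℤ) 0 0 = h 0 0 := rfl
  have h01 : (h' : Matrix (Fin 2) (Fin 2) ℤ) 0 1 = h 0 1 * d := rfl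
  have h10 : (h' : Matrix (Fin 2) (Fin 2) ℤ) 1 0 = c' := rfl
  have h11 : (h' : Matrix (Fin 2) (Fin 2) ℤ) 1 1 = h 1 1 := rfl
  rw [h00, h01, h10, h11, hc']
  simp only [algebraMap_int_eq, Int.coe_castRingHom, Complex.ofReal_intCast]
  push_cast
  rw [mul_div_assoc']
  congr 1 <;> ring

/-! ### The model relation -/

section Model

variable (N : ℕ) (ι₀ : Kbar →+* ℂ)

/-- `IsMdl N ι₀ u f`: the formal series `u` is the `q`-expansion of the function `f`, which is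
`Γ₀(N)`-invariant and all of whose `SL(2, ℤ)`-translates have `t`-expansions. -/
def IsMdl (u : LaurentSeries Kbar) (f : ℍ → ℂ) : Prop :=
  IsExp 1 f (coeffMap ι₀ u) ∧
    (∀ h ∈ Gamma0 N, ∀ τ : ℍ, f (h • τ) = f τ) ∧
    ∀ g : SL(2, ℤ), ∃ E : LaurentSeries ℂ, IsExp N (fun τ => f (g • τ)) E

variable {N ι₀}

theorem IsMdl.mul {u v : LaurentSeries Kbar} {f f' : ℍ → ℂ} (h : IsMdl N ι₀ u f)
    (h' : IsMdl N ι₀ v f') : IsMdl N ι₀ (u * v) (f * f') := by
  obtain ⟨h1, h2, h3⟩ := h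
  obtain ⟨h1', h2', h3'⟩ := h'
  refine ⟨?_, ?_, ?_⟩
  · rw [map_mul]
    exact h1.mul h1'
  · intro h hh τ
    show f (h • τ) * f' (h • τ) = f τ * f' τ
    rw [h2 h hh τ, h2' h hh τ]
  · intro g
    obtain ⟨E, hE⟩ := h3 g
    obtain ⟨E', hE'⟩ := h3' g
    exact ⟨E * E', hE.mul hE'⟩

theorem IsMdl.add {u v : LaurentSeries Kbar} {f f' : ℍ → ℂ} (h : IsMdl N ι₀ u f)
    (h' : IsMdl N ι₀ v f') : IsMdl N ι₀ (u + v) (f + f') := by
  obtain ⟨h1, h2, h3⟩ := h
  obtain ⟨h1', h2', h3'⟩ := h'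
  refine ⟨?_, ?_, ?_⟩
  · rw [map_add]
    exact h1.add h1'
  · intro h hh τ
    show f (h • τ) + f' (h • τ) = f τ + f' τ
    rw [h2 h hh τ, h2' h hh τ]
  · intro g
    obtain ⟨E, hE⟩ := h3 g
    obtain ⟨E', hE'⟩ := h3' g
    exact ⟨E + E', hE.add hE'⟩

variable {J : ℍ → ℂ}

theorem isExp_J_scal (hJ : IsJ J) (d : ℕ) [NeZero d] :
    IsExp 1 (fun τ => J (scal d τ)) (qExpand ℂ d jC) := by
  intro τ
  have h := hJ.exp (scal d τ)
  exact sumAt_qExpand d h (qM_scal (Nat.pos_of_ne_zero (NeZero.ne d)) 1 τ)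

theorem isMdl_gen [NeZero N] (hJ : IsJ J) {d : ℕ} [NeZero d] (hd : d ∣ N) :
    IsMdl N ι₀ (jSeries d) (fun τ => J (scal d τ)) := by
  have hd0 : 0 < d := Nat.pos_of_ne_zero (NeZero.ne d)
  have hN0 : 0 < N := Nat.pos_of_ne_zero (NeZero.ne N)
  refine ⟨?_, ?_, ?_⟩
  · rw [coeffMap_jSeries]
    exact isExp_J_scal hJ d
  · intro h hh τ
    obtain ⟨h', hh'⟩ := scal_smul_Gamma0 hd0 hd hh
    show J (scal d (h • τ)) = J (scal d τ)
    rw [hh' τ, hJ.inv]
  · intro g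
    obtain ⟨M, hM, c, _, _, hE⟩ := isExp_J_scal_smul hJ.inv hJ.exp hN0 hd g
    exact ⟨_, hE⟩

theorem isMdl_const (c : Kbar) :
    IsMdl N ι₀ (algebraMap Kbar (LaurentSeries Kbar) c) (fun _ => ι₀ c) := by
  refine ⟨?_, ?_, ?_⟩
  · rw [coeffMap_algebraMap_eq_C]
    exact isExp_C 1 _
  · intro h _ τ
    rfl
  · intro g
    exact ⟨_, isExp_C N _⟩

theorem exists_isMdl [NeZero N] (hJ : IsJ J) (ι₀ : Kbar →+* ℂ) (a : AN N) :
    ∃ f : ℍ → ℂ, IsMdl N ι₀ ((a : FN N) : LaurentSeries Kbar) f := by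
  obtain ⟨a, ha⟩ := a
  refine Algebra.adjoin_induction
    (p := fun (x : FN N) _ => ∃ f : ℍ → ℂ, IsMdl N ι₀ (x : LaurentSeries Kbar) f) ?_ ?_ ?_ ?_ ha
  · rintro x ⟨d, hd0, hd, rfl⟩
    exact ⟨_, isMdl_gen hJ hd⟩
  · intro c
    exact ⟨_, isMdl_const c⟩
  · rintro x y _ _ ⟨f, hf⟩ ⟨f', hf'⟩
    exact ⟨f + f', hf.add hf'⟩
  · rintro x y _ _ ⟨f, hf⟩ ⟨f', hf'⟩
    exact ⟨f * f', hf.mul hf'⟩

end Model

/-! ### The embeddings -/

section Embeddings

variable {N : ℕ} [NeZero N] {J : ℍ → ℂ} (hJ : IsJ J) (ι₀ : Kbar →+* ℂ)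

/-- The function on the upper half plane whose `q`-expansion is `a`. -/
def evF (a : AN N) : ℍ → ℂ := (exists_isMdl hJ ι₀ a).choose

theorem isMdl_evF (a : AN N) :
    IsMdl N ι₀ ((a : FN N) : LaurentSeries Kbar) (evF hJ ι₀ a) :=
  (exists_isMdl hJ ι₀ a).choose_spec

theorem evF_eq_of_isExp {a : AN N} {f : ℍ → ℂ}
    (h : IsExp 1 f (coeffMap ι₀ ((a : FN N) : LaurentSeries Kbar))) : evF hJ ι₀ a = f :=
  (isMdl_evF hJ ι₀ a).1.fun_unique h

theorem evF_add (a b : AN N) : evF hJ ι₀ (a + b) = evF hJ ι₀ a + evF hJ ι₀ b := by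
  apply evF_eq_of_isExp
  have h : (((a + b : AN N) : FN N) : LaurentSeries Kbar)
      = ((a : FN N) : LaurentSeries Kbar) + ((b : FN N) : LaurentSeries Kbar) := rfl
  rw [h, map_add]
  exact (isMdl_evF hJ ι₀ a).1.add (isMdl_evF hJ ι₀ b).1

theorem evF_mul (a b : AN N) : evF hJ ι₀ (a * b) = evF hJ ι₀ a * evF hJ ι₀ b := by
  apply evF_eq_of_isExp
  have h : (((a * b : AN N) : FN N) : LaurentSeries Kbar)
      = ((a : FN N) : LaurentSeries Kbar) * ((b : FN N) : LaurentSeries Kbar) := rfl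
  rw [h, map_mul]
  exact (isMdl_evF hJ ι₀ a).1.mul (isMdl_evF hJ ι₀ b).1

theorem evF_one : evF hJ ι₀ (1 : AN N) = 1 := by
  apply evF_eq_of_isExp
  have h : (((1 : AN N) : FN N) : LaurentSeries Kbar) = 1 := rfl
  rw [h, map_one]
  exact isExp_one 1

theorem evF_zero : evF hJ ι₀ (0 : AN N) = 0 := by
  apply evF_eq_of_isExp
  have h : (((0 : AN N) : FN N) : LaurentSeries Kbar) = 0 := rfl
  rw [h, map_zero]
  exact isExp_zero 1

/-- The `t`-expansion of `ev a ∘ g⁻¹`. -/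
def cuspExp (g : SL(2, ℤ)) (a : AN N) : LaurentSeries ℂ :=
  ((isMdl_evF hJ ι₀ a).2.2 g⁻¹).choose

theorem isExp_cuspExp (g : SL(2, ℤ)) (a : AN N) :
    IsExp N (fun τ => evF hJ ι₀ a (g⁻¹ • τ)) (cuspExp hJ ι₀ g a) :=
  ((isMdl_evF hJ ι₀ a).2.2 g⁻¹).choose_spec

theorem cuspExp_eq_of_isExp {g : SL(2, ℤ)} {a : AN N} {E : LaurentSeries ℂ}
    (h : IsExp N (fun τ => evF hJ ι₀ a (g⁻¹ • τ)) E) : cuspExp hJ ι₀ g a = E :=
  (isExp_cuspExp hJ ι₀ g a).series_unique (Nat.pos_of_ne_zero (NeZero.ne N)) h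

/-- `a ↦ t`-expansion of `ev a ∘ g⁻¹` as a ring hom on `AN N`. -/
def cuspHom (g : SL(2, ℤ)) : AN N →+* LaurentSeries ℂ where
  toFun := cuspExp hJ ι₀ g
  map_one' := by
    apply cuspExp_eq_of_isExp
    rw [evF_one]
    exact isExp_one N
  map_mul' a b := by
    apply cuspExp_eq_of_isExp
    rw [evF_mul]
    exact (isExp_cuspExp hJ ι₀ g a).mul (isExp_cuspExp hJ ι₀ g b)
  map_zero' := by
    apply cuspExp_eq_of_isExp
    rw [evF_zero]
    exact isExp_zero N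
  map_add' a b := by
    apply cuspExp_eq_of_isExp
    rw [evF_add]
    exact (isExp_cuspExp hJ ι₀ g a).add (isExp_cuspExp hJ ι₀ g b)

theorem cuspHom_apply (g : SL(2, ℤ)) (a : AN N) : cuspHom hJ ι₀ g a = cuspExp hJ ι₀ g a := rfl

theorem evF_eq_of_cuspExp_eq {g g' : SL(2, ℤ)} {a b : AN N}
    (h : cuspExp hJ ι₀ g a = cuspExp hJ ι₀ g' b) (τ : ℍ) :
    evF hJ ι₀ a (g⁻¹ • τ) = evF hJ ι₀ b (g'⁻¹ • τ) := by
  have h1 := isExp_cuspExp hJ ι₀ g a
  have h2 := isExp_cuspExp hJ ι₀ g' b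
  rw [← h] at h2
  exact congrFun (h1.fun_unique h2) τ

theorem cuspHom_injective (g : SL(2, ℤ)) :
    Function.Injective (cuspHom (N := N) hJ ι₀ g) := by
  intro a b hab
  have h2 : evF hJ ι₀ a = evF hJ ι₀ b := by
    funext τ
    have h := evF_eq_of_cuspExp_eq hJ ι₀ hab (g • τ)
    rwa [inv_smul_smul] at h
  have h3 : coeffMap ι₀ ((a : FN N) : LaurentSeries Kbar)
      = coeffMap ι₀ ((b : FN N) : LaurentSeries Kbar) := by
    have hb := (isMdl_evF hJ ι₀ b).1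
    rw [← h2] at hb
    exact (isMdl_evF hJ ι₀ a).1.series_unique one_pos hb
  exact Subtype.ext (Subtype.ext (coeffMap_injective ι₀ h3))

/-- The embedding of the function field into `ℂ((t))` attached to `g`. -/
def cuspPhi (g : SL(2, ℤ)) : FN N →+* LaurentSeries ℂ :=
  (exists_ringHom_extension N (cuspHom hJ ι₀ g) (cuspHom_injective hJ ι₀ g)).choose

theorem cuspPhi_coe (g : SL(2, ℤ)) (a : AN N) :
    cuspPhi hJ ι₀ g (a : FN N) = cuspExp hJ ι₀ g a :=
  (exists_ringHom_extension N (cuspHom hJ ι₀ g) (cuspHom_injective hJ ι₀ g)).choose_spec a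

theorem cuspPhi_algebraMap (g : SL(2, ℤ)) (c : Kbar) :
    cuspPhi hJ ι₀ g (algebraMap Kbar (FN N) c) = HahnSeries.C (ι₀ c) := by
  have h0 : ((algebraMap Kbar (AN N) c : AN N) : FN N) = algebraMap Kbar (FN N) c := rfl
  rw [← h0, cuspPhi_coe]
  apply cuspExp_eq_of_isExp
  have h1 : evF hJ ι₀ (algebraMap Kbar (AN N) c) = fun _ => ι₀ c := by
    apply evF_eq_of_isExp
    have h2 : (((algebraMap Kbar (AN N) c : AN N) : FN N) : LaurentSeries Kbar)
        = algebraMap Kbar (LaurentSeries Kbar) c := rfl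
    rw [h2, coeffMap_algebraMap_eq_C]
    exact isExp_C 1 _
  rw [h1]
  exact isExp_C N _

theorem evF_jBarD (d : ℕ) [NeZero d] (hd : d ∣ N) :
    evF hJ ι₀ (⟨jBarD N d hd, jBarD_mem_AN N d hd⟩ : AN N) = fun τ => J (scal d τ) := by
  apply evF_eq_of_isExp
  exact (isMdl_gen (ι₀ := ι₀) hJ hd).1

include hJ in
theorem isExp_J_level (hN : 0 < N) : IsExp N J (qExpand ℂ N jC) :=
  fun τ => sumAt_qExpand N (hJ.exp τ) (qM_one_eq_pow N hN τ)

theorem cuspPhi_jBar (g : SL(2, ℤ)) : cuspPhi hJ ι₀ g (jBar N) = qExpand ℂ N jC := by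
  have hN : 0 < N := Nat.pos_of_ne_zero (NeZero.ne N)
  have h0 : ((⟨jBar N, jBar_mem_AN N⟩ : AN N) : FN N) = jBar N := rfl
  rw [← h0, cuspPhi_coe]
  apply cuspExp_eq_of_isExp
  have h1 : evF hJ ι₀ (⟨jBar N, jBar_mem_AN N⟩ : AN N) = J := by
    have h2 := evF_jBarD hJ ι₀ 1 (one_dvd N)
    have h3 : (fun τ => J (scal 1 τ)) = J := by
      funext τ
      rw [scal_one]
    rw [h3] at h2
    exact h2
  rw [h1]
  exact (isExp_J_level hJ hN).congr fun τ => (hJ.inv g⁻¹ τ).symm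

theorem cuspPhi_mul_right (g : SL(2, ℤ)) {h : SL(2, ℤ)} (hh : h ∈ Gamma0 N) :
    cuspPhi hJ ι₀ (g * h) = cuspPhi (N := N) hJ ι₀ g := by
  apply ringHom_ext_of_AN
  intro a
  rw [cuspPhi_coe, cuspPhi_coe]
  apply cuspExp_eq_of_isExp
  refine (isExp_cuspExp hJ ι₀ g a).congr fun τ => ?_
  rw [mul_inv_rev, mul_smul]
  exact ((isMdl_evF hJ ι₀ a).2.1 h⁻¹ (inv_mem hh) _).symm

/-- The primitive `N`-th root of unity `exp (2πi/N)` as a unit. -/
def zetaN (N : ℕ) : ℂˣ := Units.mk0 (Complex.exp (2 * π * I / N)) (Complex.exp_ne_zero _)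

theorem zetaN_isPrimitiveRoot (N : ℕ) [NeZero N] : IsPrimitiveRoot (zetaN N) N := by
  rw [← IsPrimitiveRoot.coe_units_iff]
  exact Complex.isPrimitiveRoot_exp N (NeZero.ne N)

theorem qM_T_smul (N : ℕ) (τ : ℍ) : qM N (ModularGroup.T • τ) = (zetaN N : ℂ) * qM N τ := by
  rw [UpperHalfPlane.modular_T_smul]
  show Complex.exp (2 * π * I * ((1 : ℝ) +ᵥ τ : ℍ) / N)
    = Complex.exp (2 * π * I / N) * Complex.exp (2 * π * I * τ / N)
  rw [← Complex.exp_add, UpperHalfPlane.coe_vadd]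
  congr 1
  push_cast
  ring

theorem sumAt_twist_unit {E : LaurentSeries ℂ} {x a : ℂ} (ζ : ℂˣ) (h : SumAt E ((ζ : ℂ) * x) a) :
    SumAt (Fermat.Agent.S24.helper864.twist ζ E) x a := by
  unfold SumAt at *
  have hf : (fun n : ℤ => (Fermat.Agent.S24.helper864.twist ζ E).coeff n * x ^ n)
      = fun n => E.coeff n * ((ζ : ℂ) * x) ^ n := by
    funext n
    rw [Fermat.Agent.S24.helper864.twist_coeff, mul_zpow, Units.val_zpow_eq_zpow_val]
    ring
  rw [hf]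
  exact h

theorem cuspPhi_twist (g : SL(2, ℤ)) (f : FN N) :
    Fermat.Agent.S24.helper864.twist (zetaN N) (cuspPhi hJ ι₀ g f)
      = cuspPhi hJ ι₀ (ModularGroup.T⁻¹ * g) f := by
  have key : ((Fermat.Agent.S24.helper864.twist (zetaN N)).toRingHom.comp (cuspPhi hJ ι₀ g))
      = cuspPhi (N := N) hJ ι₀ (ModularGroup.T⁻¹ * g) := by
    apply ringHom_ext_of_AN
    intro a
    show Fermat.Agent.S24.helper864.twist (zetaN N) (cuspPhi hJ ι₀ g (a : FN N))
      = cuspPhi hJ ι₀ (ModularGroup.T⁻¹ * g) (a : FN N)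
    rw [cuspPhi_coe, cuspPhi_coe]
    symm
    apply cuspExp_eq_of_isExp
    intro τ
    have h := isExp_cuspExp hJ ι₀ g a (ModularGroup.T • τ)
    rw [qM_T_smul] at h
    have h2 : (ModularGroup.T⁻¹ * g)⁻¹ • τ = g⁻¹ • ModularGroup.T • τ := by
      rw [mul_inv_rev, inv_inv, mul_smul]
    show SumAt _ (qM N τ) (evF hJ ι₀ a ((ModularGroup.T⁻¹ * g)⁻¹ • τ))
    rw [h2]
    exact sumAt_twist_unit (zetaN N) h
  exact congrFun (congrArg DFunLike.coe key) f

theorem mem_Gamma0_of_cuspPhi_eq {g g' : SL(2, ℤ)}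
    (h : cuspPhi (N := N) hJ ι₀ g = cuspPhi hJ ι₀ g') : g⁻¹ * g' ∈ Gamma0 N := by
  have hN : 0 < N := Nat.pos_of_ne_zero (NeZero.ne N)
  set a : AN N := ⟨jBarD N N dvd_rfl, jBarD_mem_AN N N dvd_rfl⟩ with ha
  have hc : cuspExp hJ ι₀ g a = cuspExp hJ ι₀ g' a := by
    rw [← cuspPhi_coe, ← cuspPhi_coe, h]
  apply mem_Gamma0_of_J_scal hJ.inv hJ.exp hN
  intro τ
  have h1 := evF_eq_of_cuspExp_eq hJ ι₀ hc (g' • τ)
  rw [inv_smul_smul, ha, evF_jBarD, ← mul_smul] at h1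
  exact h1

/-- The embedding attached to a coset `x = g Γ₀(N)`. -/
def cuspEmb (x : XN N) : FN N →+* LaurentSeries ℂ := cuspPhi hJ ι₀ x.out

theorem cuspEmb_mk (g : SL(2, ℤ)) :
    cuspEmb hJ ι₀ (QuotientGroup.mk g : XN N) = cuspPhi hJ ι₀ g := by
  obtain ⟨h, hh⟩ := QuotientGroup.mk_out_eq_mul (Gamma0 N) g
  rw [cuspEmb, hh]
  exact cuspPhi_mul_right hJ ι₀ g h.2

theorem cuspEmb_injective : Function.Injective (cuspEmb (N := N) hJ ι₀) := by
  intro x y hxy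
  induction x using QuotientGroup.induction_on with
  | H g =>
    induction y using QuotientGroup.induction_on with
    | H g' =>
      rw [cuspEmb_mk, cuspEmb_mk] at hxy
      exact QuotientGroup.eq.mpr (mem_Gamma0_of_cuspPhi_eq hJ ι₀ hxy)

theorem cuspEmb_twist (x : XN N) (f : FN N) :
    Fermat.Agent.S24.helper864.twist (zetaN N) (cuspEmb hJ ι₀ x f)
      = cuspEmb hJ ι₀ (ModularGroup.T⁻¹ • x) f := by
  induction x using QuotientGroup.induction_on with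
  | H g =>
    have h : (ModularGroup.T⁻¹ • (QuotientGroup.mk g : XN N))
        = (QuotientGroup.mk (ModularGroup.T⁻¹ * g) : XN N) := rfl
    rw [h, cuspEmb_mk, cuspEmb_mk]
    exact cuspPhi_twist hJ ι₀ g f

end Embeddings

/-! ### The statement `Stmt_LocalInf` -/

theorem coeffMap_ofPowerSeries {R S : Type*} [CommRing R] [CommRing S] (f : R →+* S)
    (P : PowerSeries R) :
    coeffMap f (HahnSeries.ofPowerSeries ℤ R P) = HahnSeries.ofPowerSeries ℤ S (P.map f) := by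
  ext n
  rcases lt_or_ge n 0 with hn | hn
  · rw [coeffMap_coeff, ofPowerSeries_coeff_of_neg P hn, ofPowerSeries_coeff_of_neg _ hn,
      map_zero]
  · obtain ⟨m, rfl⟩ := Int.eq_ofNat_of_zero_le hn
    rw [coeffMap_coeff, HahnSeries.ofPowerSeries_apply_coeff,
      HahnSeries.ofPowerSeries_apply_coeff, PowerSeries.coeff_map]

theorem jC_eq : jC = HahnSeries.single (-1 : ℤ) (1 : ℂ) *
    HahnSeries.ofPowerSeries ℤ ℂ (jNumQ.map (algebraMap ℚ ℂ)) := by
  rw [jC, jq, map_mul, coeffMap_single, coeffMap_ofPowerSeries, map_one]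

theorem isJ_jFun : IsJ Fermat.Agent.S24.helper1644.jFun where
  inv := Fermat.Agent.S24.helper1644.jFun_smul
  exp := by
    intro τ
    rw [jC_eq, sumAt_single_mul_ofPowerSeries (qM_ne_zero 1 τ)]
    have h := Fermat.Agent.S24.helper1644.hasSum_jNumQ τ
    have hq : Function.Periodic.qParam 1 (τ : ℂ) = qM 1 τ := by
      simp [Function.Periodic.qParam, qM]
    rw [hq] at h
    have hfun : (fun n : ℕ => PowerSeries.coeff n (jNumQ.map (algebraMap ℚ ℂ)) * qM 1 τ ^ n)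
        = fun n : ℕ => ((PowerSeries.coeff n jNumQ : ℚ) : ℂ) * qM 1 τ ^ n := by
      funext n
      rw [PowerSeries.coeff_map]
      rfl
    rw [hfun]
    simpa using h

theorem twist_one (E : LaurentSeries ℂ) : twist 1 E = E := by
  ext n
  simp

theorem qExpand_jC_coeff_neg (N : ℕ) [NeZero N] : (qExpand ℂ N jC).coeff (-(N : ℤ)) = 1 := by
  have h := qExpand_twist_jC_coeff_neg N 1
  rwa [twist_one, inv_one] at h

theorem qExpand_jC_ne_zero (N : ℕ) [NeZero N] : qExpand ℂ N jC ≠ 0 := by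
  intro h
  have h1 := qExpand_jC_coeff_neg N
  rw [h] at h1
  simp at h1

theorem order_qExpand_jC (N : ℕ) [NeZero N] : (qExpand ℂ N jC).order = -(N : ℤ) := by
  apply le_antisymm
  · apply HahnSeries.order_le_of_coeff_ne_zero
    rw [qExpand_jC_coeff_neg]
    exact one_ne_zero
  · by_contra hlt
    rw [not_le] at hlt
    have h1 := qExpand_twist_jC_coeff_of_lt N 1 hlt
    rw [twist_one] at h1
    exact (not_congr HahnSeries.coeff_order_eq_zero).mpr (qExpand_jC_ne_zero N) h1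

theorem order_inv_qExpand_jC (N : ℕ) [NeZero N] : (qExpand ℂ N jC)⁻¹.order = (N : ℤ) := by
  have hne := qExpand_jC_ne_zero N
  have h1 := HahnSeries.order_mul hne (inv_ne_zero hne)
  rw [mul_inv_cancel₀ hne, HahnSeries.order_one, order_qExpand_jC] at h1
  linarith

/-- There is a ring embedding of `ℚ̄` into `ℂ`. -/
theorem nonempty_ringHom_Kbar : Nonempty (Kbar →+* ℂ) := by
  have halg : Algebra.IsAlgebraic ℚ (AlgebraicClosure ℚ) := by
    have h := AlgebraicClosure.isAlgebraic ℚ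
    constructor
    intro x
    obtain ⟨p, hp0, hp⟩ := h.isAlgebraic x
    refine ⟨p, hp0, ?_⟩
    rw [← hp]
    simp only [Polynomial.aeval_def]
    congr 1
  exact ⟨(IsAlgClosed.lift : AlgebraicClosure ℚ →ₐ[ℚ] ℂ).toRingHom⟩

/-- The local datum at the cusp, for any `J` with the two analytic properties. -/
theorem localDatum_inf_of_isJ (N : ℕ) [NeZero N] {J : ℍ → ℂ} (hJ : IsJ J) :
    LocalDatum N (jBar N)⁻¹ N ModularGroup.T := by
  have hN : 0 < N := Nat.pos_of_ne_zero (NeZero.ne N)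
  obtain ⟨ι₀⟩ := nonempty_ringHom_Kbar
  refine Fermat.Agent.S24.helper864.localDatum_of_twist N (jBar N)⁻¹ N hN ModularGroup.T ι₀
    (zetaN N) (zetaN_isPrimitiveRoot N) (cuspEmb hJ ι₀) (fun i a => ?_)
    (cuspEmb_injective hJ ι₀) (qExpand ℂ N jC)⁻¹ (fun i => ?_) ?_ ?_
    (Or.inr (cuspEmb_twist hJ ι₀))
  · exact cuspPhi_algebraMap hJ ι₀ _ a
  · rw [map_inv₀]
    congr 1
    exact cuspPhi_jBar hJ ι₀ _
  · exact inv_ne_zero (qExpand_jC_ne_zero N)
  · exact order_inv_qExpand_jC N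

/-- **M6** (`Stmt_LocalInf`): the local datum at the cusp. -/
theorem stmt_LocalInf : Stmt_LocalInf :=
  fun N _ => localDatum_inf_of_isJ N isJ_jFun

end Fermat.Agent.S24.helper418

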