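import Mathlib
import Fermat.Prelude.Def_ModularCurve_X0
import Fermat.Prelude.Def_ModularCurve_LaurentCoeff

/-!
# Everywhere-convergent Laurent expansions on the upper half plane (helper418)

`SumAt E x a`    : the Laurent series `E` converges at the point `x` with sum `a`.
`IsExp M f E`    : for every `τ` in the upper half plane, `E` converges at `exp (2πiτ/M)` to `f τ`.

The pairs `(f, E)` with `IsExp M f E` are closed under the ring operations, `E` is determined by `f`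
and `f` by `E`.  No holomorphy and no identity theorem are needed.
-/

set_option autoImplicit false

noncomputable section

namespace Fermat.Agent.S24.helper418

open scoped UpperHalfPlane Real
open Complex

/-! ### Pointwise sums of Laurent series -/

/-- The Laurent series `E` converges at the point `x` with sum `a`. -/
def SumAt (E : LaurentSeries ℂ) (x a : ℂ) : Prop :=
  HasSum (fun n : ℤ => E.coeff n * x ^ n) a

theorem SumAt.unique {E : LaurentSeries ℂ} {x a b : ℂ} (h : SumAt E x a) (h' : SumAt E x b) :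
    a = b :=
  HasSum.unique h h'

theorem SumAt.add {E E' : LaurentSeries ℂ} {x a a' : ℂ} (h : SumAt E x a) (h' : SumAt E' x a') :
    SumAt (E + E') x (a + a') := by
  unfold SumAt at *
  have hf : (fun n : ℤ => (E + E').coeff n * x ^ n)
      = fun n => E.coeff n * x ^ n + E'.coeff n * x ^ n := by
    funext n
    rw [HahnSeries.coeff_add, add_mul]
  rw [hf]
  exact h.add h'

theorem SumAt.neg {E : LaurentSeries ℂ} {x a : ℂ} (h : SumAt E x a) : SumAt (-E) x (-a) := by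
  unfold SumAt at *
  have hf : (fun n : ℤ => (-E).coeff n * x ^ n) = fun n => -(E.coeff n * x ^ n) := by
    funext n
    rw [HahnSeries.coeff_neg, neg_mul]
  rw [hf]
  exact h.neg

theorem sumAt_single (k : ℤ) (c x : ℂ) : SumAt (HahnSeries.single k c) x (c * x ^ k) := by
  unfold SumAt
  have h := hasSum_single (f := fun n : ℤ => (HahnSeries.single k c).coeff n * x ^ n) k
    (fun n hn => by simp [HahnSeries.coeff_single_of_ne hn])
  simpa using h

theorem sumAt_C (c x : ℂ) : SumAt (HahnSeries.C c) x c := by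
  have h := sumAt_single 0 c x
  simpa using h

theorem sumAt_zero (x : ℂ) : SumAt 0 x 0 := by
  unfold SumAt
  simp

theorem sumAt_one (x : ℂ) : SumAt 1 x 1 := by
  have h := sumAt_C 1 x
  simpa using h

theorem sumAt_single_mul_ofPowerSeries {k : ℤ} {P : PowerSeries ℂ} {x a : ℂ} (hx : x ≠ 0) :
    SumAt (HahnSeries.single k (1 : ℂ) * HahnSeries.ofPowerSeries ℤ ℂ P) x a ↔
      HasSum (fun n : ℕ => PowerSeries.coeff n P * x ^ n) (x ^ (-k) * a) := by
  unfold SumAt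
  have hinj : Function.Injective (fun n : ℕ => (n : ℤ) + k) := by
    intro m n h
    simpa using h
  rw [← hinj.hasSum_iff]
  · have hfun : ((fun n : ℤ => (HahnSeries.single k (1 : ℂ) *
        HahnSeries.ofPowerSeries ℤ ℂ P).coeff n * x ^ n) ∘ fun n : ℕ => (n : ℤ) + k)
        = fun n : ℕ => x ^ k * (PowerSeries.coeff n P * x ^ n) := by
      funext n
      simp only [Function.comp, HahnSeries.coeff_single_mul, add_sub_cancel_right, one_mul,
        HahnSeries.ofPowerSeries_apply_coeff]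
      rw [zpow_add₀ hx, zpow_natCast]
      ring
    rw [hfun]
    have hk : x ^ k ≠ 0 := zpow_ne_zero k hx
    have ha : a = x ^ k * (x ^ (-k) * a) := by
      rw [← mul_assoc, ← zpow_add₀ hx]
      simp
    conv_lhs => rw [ha]
    exact hasSum_mul_left_iff hk
  · intro m hm
    have hlt : m - k < 0 := by
      by_contra h
      rw [not_lt] at h
      exact hm ⟨(m - k).toNat, by simp [Int.toNat_of_nonneg h]⟩
    simp [HahnSeries.coeff_single_mul, ModularCurve.ofPowerSeries_coeff_of_neg P hlt]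

theorem hasSum_powerSeries_mul {P Q : PowerSeries ℂ} {x a b : ℂ}
    (hP : HasSum (fun n : ℕ => PowerSeries.coeff n P * x ^ n) a)
    (hQ : HasSum (fun n : ℕ => PowerSeries.coeff n Q * x ^ n) b) :
    HasSum (fun n : ℕ => PowerSeries.coeff n (P * Q) * x ^ n) (a * b) := by
  have hPn : Summable (fun n => ‖PowerSeries.coeff n P * x ^ n‖) :=
    summable_norm_iff.mpr hP.summable
  have hQn : Summable (fun n => ‖PowerSeries.coeff n Q * x ^ n‖) :=
    summable_norm_iff.mpr hQ.summable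
  have h1 := tsum_mul_tsum_eq_tsum_sum_antidiagonal_of_summable_norm hPn hQn
  have h2 := summable_norm_sum_mul_antidiagonal_of_summable_norm hPn hQn
  have h3 : Summable (fun n => ∑ kl ∈ Finset.HasAntidiagonal.antidiagonal n,
      (PowerSeries.coeff kl.1 P * x ^ kl.1) * (PowerSeries.coeff kl.2 Q * x ^ kl.2)) :=
    h2.of_norm
  have h4 : (fun n : ℕ => PowerSeries.coeff n (P * Q) * x ^ n) = fun n =>
      ∑ kl ∈ Finset.HasAntidiagonal.antidiagonal n,
        (PowerSeries.coeff kl.1 P * x ^ kl.1) * (PowerSeries.coeff kl.2 Q * x ^ kl.2) := by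
    funext n
    rw [PowerSeries.coeff_mul, Finset.sum_mul]
    refine Finset.sum_congr rfl fun kl hkl => ?_
    rw [← Finset.HasAntidiagonal.mem_antidiagonal.mp hkl, pow_add]
    ring
  rw [h4, ← hP.tsum_eq, ← hQ.tsum_eq, h1]
  exact h3.hasSum

theorem exists_single_mul_ofPowerSeries (E : LaurentSeries ℂ) :
    ∃ (k : ℤ) (P : PowerSeries ℂ),
      E = HahnSeries.single k (1 : ℂ) * HahnSeries.ofPowerSeries ℤ ℂ P :=
  ⟨E.order, E.powerSeriesPart, (LaurentSeries.single_order_mul_powerSeriesPart E).symm⟩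

theorem SumAt.mul {E E' : LaurentSeries ℂ} {x a a' : ℂ} (hx : x ≠ 0) (h : SumAt E x a)
    (h' : SumAt E' x a') : SumAt (E * E') x (a * a') := by
  obtain ⟨k, P, rfl⟩ := exists_single_mul_ofPowerSeries E
  obtain ⟨k', P', rfl⟩ := exists_single_mul_ofPowerSeries E'
  have hmul : HahnSeries.single k (1 : ℂ) * HahnSeries.ofPowerSeries ℤ ℂ P *
      (HahnSeries.single k' (1 : ℂ) * HahnSeries.ofPowerSeries ℤ ℂ P')
      = HahnSeries.single (k + k') (1 : ℂ) * HahnSeries.ofPowerSeries ℤ ℂ (P * P') := by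
    rw [mul_mul_mul_comm, HahnSeries.single_mul_single, one_mul, ← map_mul]
  rw [hmul, sumAt_single_mul_ofPowerSeries hx]
  have h1 := (sumAt_single_mul_ofPowerSeries hx).mp h
  have h2 := (sumAt_single_mul_ofPowerSeries hx).mp h'
  have h3 := hasSum_powerSeries_mul h1 h2
  convert h3 using 1
  rw [neg_add, zpow_add₀ hx]
  ring

/-- A power series that sums to zero on the punctured unit disc has zero constant coefficient. -/
theorem coeff_zero_eq_zero_of_hasSum {a : ℕ → ℂ}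
    (h : ∀ x : ℂ, x ≠ 0 → ‖x‖ < 1 → HasSum (fun n => a n * x ^ n) 0) : a 0 = 0 := by
  -- summability at `1/2`
  have hhalf : HasSum (fun n => a n * ((1 / 2 : ℝ) : ℂ) ^ n) 0 :=
    h _ (by norm_num) (by rw [Complex.norm_real]; norm_num)
  have hs0 : Summable (fun n => ‖a n * ((1 / 2 : ℝ) : ℂ) ^ n‖) :=
    summable_norm_iff.mpr hhalf.summable
  have hs1 : Summable (fun n : ℕ => ‖a (n + 1)‖ * (1 / 2 : ℝ) ^ n) := by
    have hs2 := (summable_nat_add_iff 1).mpr hs0
    have hs3 := hs2.mul_left 2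
    refine hs3.congr fun n => ?_
    rw [norm_mul, norm_pow, Complex.norm_real]
    have : ‖(1 / 2 : ℝ)‖ = 1 / 2 := by norm_num
    rw [this, pow_succ]
    ring
  set C : ℝ := ∑' n : ℕ, ‖a (n + 1)‖ * (1 / 2 : ℝ) ^ n with hC
  have hC0 : 0 ≤ C := tsum_nonneg fun n => by positivity
  -- the key estimate
  have key : ∀ ε : ℝ, 0 < ε → ε ≤ 1 / 2 → ‖a 0‖ ≤ ε * C := by
    intro ε hε hε2
    have hx : HasSum (fun n => a n * ((ε : ℝ) : ℂ) ^ n) 0 :=
      h _ (by exact_mod_cast hε.ne') (by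
        rw [Complex.norm_real, Real.norm_of_nonneg hε.le]; linarith)
    have hx1 := (hasSum_nat_add_iff' 1).mpr hx
    simp only [Finset.range_one, Finset.sum_singleton, pow_zero, mul_one, zero_sub] at hx1
    have hg : HasSum (fun n : ℕ => ε * (‖a (n + 1)‖ * (1 / 2 : ℝ) ^ n)) (ε * C) :=
      hs1.hasSum.mul_left ε
    have hle := HasSum.norm_le_of_bounded hx1 hg (fun n => by
      rw [norm_mul, norm_pow, Complex.norm_real, Real.norm_of_nonneg hε.le, pow_succ]
      have h1 : ε ^ n ≤ (1 / 2 : ℝ) ^ n := pow_le_pow_left₀ hε.le hε2 n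
      have h2 : 0 ≤ ‖a (n + 1)‖ := norm_nonneg _
      nlinarith [mul_le_mul_of_nonneg_left h1 (mul_nonneg h2 hε.le)])
    simpa using hle
  by_contra h0
  have hpos : 0 < ‖a 0‖ := norm_pos_iff.mpr h0
  set ε : ℝ := min (1 / 2) (‖a 0‖ / (2 * (C + 1))) with hε
  have hεpos : 0 < ε := lt_min (by norm_num) (by positivity)
  have hε2 : ε ≤ 1 / 2 := min_le_left _ _
  have hε3 : ε ≤ ‖a 0‖ / (2 * (C + 1)) := min_le_right _ _
  have h1 := key ε hεpos hε2
  have h2 : ε * C ≤ ‖a 0‖ / (2 * (C + 1)) * C := mul_le_mul_of_nonneg_right hε3 hC0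
  have h3 : ‖a 0‖ / (2 * (C + 1)) * C < ‖a 0‖ := by
    rw [div_mul_eq_mul_div, div_lt_iff₀ (by positivity)]
    nlinarith
  linarith

theorem eq_zero_of_sumAt_zero {E : LaurentSeries ℂ}
    (h : ∀ x : ℂ, x ≠ 0 → ‖x‖ < 1 → SumAt E x 0) : E = 0 := by
  by_contra hE
  have h0 : PowerSeries.coeff 0 E.powerSeriesPart ≠ 0 := by
    rw [LaurentSeries.powerSeriesPart_coeff]
    simpa using (not_congr HahnSeries.coeff_order_eq_zero).mpr hE
  refine h0 (coeff_zero_eq_zero_of_hasSum (a := fun n => PowerSeries.coeff n E.powerSeriesPart)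
    fun x hx hx1 => ?_)
  have h1 := h x hx hx1
  rw [← LaurentSeries.single_order_mul_powerSeriesPart E,
    sumAt_single_mul_ofPowerSeries hx] at h1
  simpa using h1

/-! ### Twisting and expanding -/

/-- The twist `coeff n ↦ c ^ n * coeff n` of a Laurent series (i.e. `t ↦ c * t`). -/
def twist (c : ℂ) (E : LaurentSeries ℂ) : LaurentSeries ℂ where
  coeff n := c ^ n * E.coeff n
  isPWO_support' := E.isPWO_support.mono fun n hn => by
    simp only [Function.mem_support, ne_eq] at hn ⊢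
    intro h
    exact hn (by rw [h, mul_zero])

@[simp]
theorem twist_coeff (c : ℂ) (E : LaurentSeries ℂ) (n : ℤ) :
    (twist c E).coeff n = c ^ n * E.coeff n :=
  rfl

theorem sumAt_twist {E : LaurentSeries ℂ} {x a c : ℂ} (h : SumAt E (c * x) a) :
    SumAt (twist c E) x a := by
  unfold SumAt at *
  have hf : (fun n : ℤ => (twist c E).coeff n * x ^ n) = fun n => E.coeff n * (c * x) ^ n := by
    funext n
    rw [twist_coeff, mul_zpow]
    ring
  rw [hf]
  exact h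

theorem sumAt_qExpand {E : LaurentSeries ℂ} {x y a : ℂ} (M : ℕ) [NeZero M] (h : SumAt E x a)
    (hxy : x = y ^ M) : SumAt (ModularCurve.qExpand ℂ M E) y a := by
  unfold SumAt at *
  have hM : (M : ℤ) ≠ 0 := by exact_mod_cast NeZero.ne M
  have hinj : Function.Injective (fun n : ℤ => (M : ℤ) * n) := mul_right_injective₀ hM
  rw [← hinj.hasSum_iff]
  · have hf : ((fun k : ℤ => (ModularCurve.qExpand ℂ M E).coeff k * y ^ k) ∘
        fun n : ℤ => (M : ℤ) * n) = fun n => E.coeff n * x ^ n := by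
      funext n
      simp only [Function.comp, ModularCurve.qExpand_coeff_mul]
      rw [hxy, zpow_mul, zpow_natCast]
    rw [hf]
    exact h
  · intro k hk
    have hnd : ¬ (M : ℤ) ∣ k := fun ⟨m, hm⟩ => hk ⟨m, hm.symm⟩
    rw [ModularCurve.qExpand_coeff_of_not_dvd M E hnd, zero_mul]

/-! ### Expansions of functions on the upper half plane -/

/-- `q^(1/M) = exp (2πiτ/M)` as a function on the upper half plane. -/
def qM (M : ℕ) (τ : ℍ) : ℂ := Complex.exp (2 * π * I * τ / M)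

theorem qM_ne_zero (M : ℕ) (τ : ℍ) : qM M τ ≠ 0 := Complex.exp_ne_zero _

theorem norm_qM_lt_one {M : ℕ} (hM : 0 < M) (τ : ℍ) : ‖qM M τ‖ < 1 := by
  rw [qM, Complex.norm_exp, Real.exp_lt_one_iff]
  have h1 : (2 * π * I * τ / M : ℂ) = ((2 * π / M : ℝ) : ℂ) * (I * τ) := by
    push_cast
    ring
  rw [h1, Complex.re_ofReal_mul]
  have h2 : (I * (τ : ℂ)).re = -τ.im := by simp
  rw [h2]
  have hM' : (0 : ℝ) < M := Nat.cast_pos.mpr hM
  have h3 : 0 < 2 * π / M := by positivity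
  nlinarith [τ.im_pos, Real.pi_pos]

theorem exists_qM_eq {M : ℕ} (hM : 0 < M) {x : ℂ} (hx : x ≠ 0) (hx1 : ‖x‖ < 1) :
    ∃ τ : ℍ, qM M τ = x := by
  have hM' : (0 : ℝ) < M := Nat.cast_pos.mpr hM
  have hMc : (M : ℂ) ≠ 0 := by exact_mod_cast hM.ne'
  have hlog : Real.log ‖x‖ < 0 := Real.log_neg (norm_pos_iff.mpr hx) hx1
  set z : ℂ := M * Complex.log x / (2 * π * I) with hz
  have hzim : 0 < z.im := by
    have h1 : z = ((M / (2 * π) : ℝ) : ℂ) * (-I * Complex.log x) := by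
      rw [hz]
      push_cast
      have hpi : (π : ℂ) ≠ 0 := by exact_mod_cast Real.pi_ne_zero
      field_simp
      ring_nf
      simp [Complex.I_sq]
    rw [h1, Complex.im_ofReal_mul]
    have h2 : (-I * Complex.log x).im = -Real.log ‖x‖ := by
      simp [Complex.log_re]
    rw [h2]
    have h3 : 0 < M / (2 * π) := by positivity
    nlinarith
  refine ⟨⟨z, hzim⟩, ?_⟩
  have hpi : (π : ℂ) ≠ 0 := by exact_mod_cast Real.pi_ne_zero
  have h4 : (2 * π * I * z / M : ℂ) = Complex.log x := by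
    rw [hz]
    field_simp
  show Complex.exp (2 * π * I * z / M) = x
  rw [h4, Complex.exp_log hx]

/-- `IsExp M f E`: at every point `τ` of the upper half plane the Laurent series `E` converges
at `exp (2πiτ/M)` with sum `f τ`. -/
def IsExp (M : ℕ) (f : ℍ → ℂ) (E : LaurentSeries ℂ) : Prop :=
  ∀ τ : ℍ, SumAt E (qM M τ) (f τ)

theorem IsExp.add {M : ℕ} {f f' : ℍ → ℂ} {E E' : LaurentSeries ℂ} (h : IsExp M f E)
    (h' : IsExp M f' E') : IsExp M (f + f') (E + E') :=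
  fun τ => (h τ).add (h' τ)

theorem IsExp.neg {M : ℕ} {f : ℍ → ℂ} {E : LaurentSeries ℂ} (h : IsExp M f E) :
    IsExp M (-f) (-E) :=
  fun τ => (h τ).neg

theorem IsExp.mul {M : ℕ} {f f' : ℍ → ℂ} {E E' : LaurentSeries ℂ} (h : IsExp M f E)
    (h' : IsExp M f' E') : IsExp M (f * f') (E * E') :=
  fun τ => (h τ).mul (qM_ne_zero M τ) (h' τ)

theorem isExp_C (M : ℕ) (c : ℂ) : IsExp M (fun _ => c) (HahnSeries.C c) :=
  fun _ => sumAt_C c _

theorem isExp_zero (M : ℕ) : IsExp M 0 0 :=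
  fun _ => sumAt_zero _

theorem isExp_one (M : ℕ) : IsExp M 1 1 :=
  fun _ => sumAt_one _

theorem IsExp.congr {M : ℕ} {f f' : ℍ → ℂ} {E : LaurentSeries ℂ} (h : IsExp M f E)
    (hf : ∀ τ, f τ = f' τ) : IsExp M f' E :=
  fun τ => hf τ ▸ h τ

/-- The function is determined by its expansion. -/
theorem IsExp.fun_unique {M : ℕ} {f f' : ℍ → ℂ} {E : LaurentSeries ℂ} (h : IsExp M f E)
    (h' : IsExp M f' E) : f = f' :=
  funext fun τ => (h τ).unique (h' τ)

/-- The expansion is determined by the function. -/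
theorem IsExp.series_unique {M : ℕ} (hM : 0 < M) {f : ℍ → ℂ} {E E' : LaurentSeries ℂ}
    (h : IsExp M f E) (h' : IsExp M f E') : E = E' := by
  have h0 : E + -E' = 0 := by
    refine eq_zero_of_sumAt_zero fun x hx hx1 => ?_
    obtain ⟨τ, rfl⟩ := exists_qM_eq hM hx hx1
    have := (h τ).add (h' τ).neg
    rwa [add_neg_cancel] at this
  rwa [add_neg_eq_zero] at h0

/-! ### The Hermite form and the expansions of `J (d * g τ)` -/

open scoped MatrixGroups

/-- The point `(a τ + b) / e` of the upper half plane (junk unless `0 < a` and `0 < e`). -/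
def affPt (a b e : ℤ) (τ : ℍ) : ℍ :=
  if h : 0 < a ∧ 0 < e then
    ⟨(((a : ℝ) : ℂ) * τ + ((b : ℝ) : ℂ)) / ((e : ℝ) : ℂ), by
      rw [Complex.div_ofReal_im]
      have ha : (0 : ℝ) < a := by exact_mod_cast h.1
      have he : (0 : ℝ) < e := by exact_mod_cast h.2
      have him : (((a : ℝ) : ℂ) * τ + ((b : ℝ) : ℂ)).im = a * τ.im := by simp
      rw [him]
      exact div_pos (mul_pos ha τ.im_pos) he⟩
  else τ

theorem coe_affPt {a b e : ℤ} (ha : 0 < a) (he : 0 < e) (τ : ℍ) :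
    (affPt a b e τ : ℂ) = ((a : ℂ) * τ + b) / e := by
  rw [affPt, dif_pos ⟨ha, he⟩]
  show (((a : ℝ) : ℂ) * τ + ((b : ℝ) : ℂ)) / ((e : ℝ) : ℂ) = _
  push_cast
  rfl

/-- The point `d * τ` of the upper half plane (junk for `d = 0`). -/
def scal (d : ℕ) (τ : ℍ) : ℍ := affPt d 0 1 τ

theorem coe_scal {d : ℕ} (hd : 0 < d) (τ : ℍ) : (scal d τ : ℂ) = d * τ := by
  rw [scal, coe_affPt (by exact_mod_cast hd) one_pos]
  simp

theorem scal_one (τ : ℍ) : scal 1 τ = τ := by
  ext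
  rw [coe_scal one_pos]
  simp

theorem hermite {d : ℕ} (hd : 0 < d) (g : SL(2, ℤ)) :
    ∃ (γ : SL(2, ℤ)) (b : ℤ), ∀ τ : ℍ,
      scal d (g • τ) = γ • affPt (Int.gcd d (g 1 0)) b ((d / Int.gcd d (g 1 0) : ℕ) : ℤ) τ := by
  set δ : ℕ := Int.gcd d (g 1 0) with hδ
  have hδpos : 0 < δ := Int.gcd_pos_of_ne_zero_left _ (by exact_mod_cast hd.ne')
  have hδd : δ ∣ d := by
    have h1 : ((δ : ℕ) : ℤ) ∣ (d : ℤ) := Int.gcd_dvd_left _ _
    exact_mod_cast h1
  obtain ⟨d', hd'⟩ := hδd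
  have hd'pos : 0 < d' := by
    rcases Nat.eq_zero_or_pos d' with h | h
    · rw [h, mul_zero] at hd'
      omega
    · exact h
  have hdiv : d / δ = d' := by
    rw [hd', Nat.mul_div_cancel_left _ hδpos]
  obtain ⟨r, hr⟩ : ((δ : ℕ) : ℤ) ∣ g 1 0 := Int.gcd_dvd_right _ _
  -- Bezout for `δ`
  have hbz : ((δ : ℕ) : ℤ) = (d : ℤ) * Int.gcdA d (g 1 0) + g 1 0 * Int.gcdB d (g 1 0) :=
    Int.gcd_eq_gcd_ab _ _
  have hδz : ((δ : ℕ) : ℤ) ≠ 0 := by exact_mod_cast hδpos.ne'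
  have hcop1 : IsCoprime (d' : ℤ) r := by
    refine ⟨Int.gcdA d (g 1 0), Int.gcdB d (g 1 0), ?_⟩
    have h2 : ((δ : ℕ) : ℤ) * (Int.gcdA d (g 1 0) * d' + Int.gcdB d (g 1 0) * r)
        = (δ : ℤ) * 1 := by
      have hdz : (d : ℤ) = (δ : ℤ) * d' := by exact_mod_cast hd'
      rw [mul_one]
      conv_rhs => rw [hbz]
      rw [hr, hdz]
      ring
    exact mul_left_cancel₀ hδz h2
  have hdet : g 0 0 * g 1 1 - g 0 1 * g 1 0 = 1 := by
    have h := g.det_coe
    rwa [Matrix.det_fin_two] at h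
  have hcop2 : IsCoprime (g 0 0) r := by
    refine ⟨g 1 1, -(g 0 1) * δ, ?_⟩
    rw [hr] at hdet
    linear_combination hdet
  obtain ⟨u, s', hbez⟩ := IsCoprime.mul_left hcop1 hcop2
  -- the matrix `γ`
  let γ : SL(2, ℤ) := ⟨!![(d' : ℤ) * g 0 0, -s'; r, u], by
    rw [Matrix.det_fin_two_of]
    linear_combination hbez⟩
  refine ⟨γ, u * d * g 0 1 + s' * g 1 1, fun τ => ?_⟩
  rw [hdiv]
  have hdz : (d : ℤ) = (δ : ℤ) * d' := by exact_mod_cast hd'
  have hdet' : g 0 0 * g 1 1 - g 0 1 * ((δ : ℤ) * r) = 1 := by rw [← hr]; exact hdet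
  -- two integer identities
  have hI1 : g 0 0 * (u * ((δ : ℤ) * d') * g 0 1 + s' * g 1 1) - s' = (δ : ℤ) * g 0 1 := by
    linear_combination ((δ : ℤ) * g 0 1) * hbez + s' * hdet'
  have hI2 : r * (u * ((δ : ℤ) * d') * g 0 1 + s' * g 1 1) + u * d' = g 1 1 := by
    linear_combination g 1 1 * hbez - (u * d') * hdet'
  have hI1c := congrArg (Int.cast : ℤ → ℂ) hI1
  have hI2c := congrArg (Int.cast : ℤ → ℂ) hI2
  push_cast at hI1c hI2c
  have hd'c : (d' : ℂ) ≠ 0 := by exact_mod_cast hd'pos.ne'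
  ext
  rw [coe_scal hd, UpperHalfPlane.coe_specialLinearGroup_apply,
    UpperHalfPlane.coe_specialLinearGroup_apply,
    coe_affPt (by exact_mod_cast hδpos) (by exact_mod_cast hd'pos)]
  have hγ00 : (γ : Matrix (Fin 2) (Fin 2) ℤ) 0 0 = (d' : ℤ) * g 0 0 := rfl
  have hγ01 : (γ : Matrix (Fin 2) (Fin 2) ℤ) 0 1 = -s' := rfl
  have hγ10 : (γ : Matrix (Fin 2) (Fin 2) ℤ) 1 0 = r := rfl
  have hγ11 : (γ : Matrix (Fin 2) (Fin 2) ℤ) 1 1 = u := rfl
  rw [hγ00, hγ01, hγ10, hγ11, hr]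
  simp only [algebraMap_int_eq, Int.coe_castRingHom, Complex.ofReal_intCast]
  push_cast
  have hdc : (d : ℂ) = (δ : ℂ) * d' := by
    rw [hd']
    push_cast
    rfl
  rw [hdc]
  have hnum : ((d' : ℂ) * (g 0 0 : ℂ)) * (((δ : ℂ) * τ + (u * ((δ : ℂ) * d') * (g 0 1 : ℂ)
      + s' * (g 1 1 : ℂ))) / d') + -(s' : ℂ) = (δ : ℂ) * ((g 0 0 : ℂ) * τ + (g 0 1 : ℂ)) := by
    field_simp
    linear_combination hI1c
  have hden : (r : ℂ) * (((δ : ℂ) * τ + (u * ((δ : ℂ) * d') * (g 0 1 : ℂ)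
      + s' * (g 1 1 : ℂ))) / d') + (u : ℂ) = ((δ : ℂ) * r * τ + (g 1 1 : ℂ)) / d' := by
    field_simp
    linear_combination hI2c
  rw [hnum, hden, div_div_eq_mul_div]
  ring

/-! ### The expansions of the conjugates of `j` -/

/-- The complex `q`-expansion of `j`, from the Prelude's formal `jq`. -/
def jC : LaurentSeries ℂ := ModularCurve.coeffMap (algebraMap ℚ ℂ) ModularCurve.jq

theorem jC_coeff_neg_one : jC.coeff (-1) = 1 := by
  rw [jC, ModularCurve.coeffMap_coeff, ModularCurve.coeff_jq_neg_one, map_one]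

theorem jC_coeff_of_lt {k : ℤ} (hk : k < -1) : jC.coeff k = 0 := by
  rw [jC, ModularCurve.coeffMap_coeff, ModularCurve.coeff_jq_of_lt hk, map_zero]

theorem qExpand_twist_jC_coeff_neg (M : ℕ) [NeZero M] (c : ℂ) :
    (ModularCurve.qExpand ℂ M (twist c jC)).coeff (-(M : ℤ)) = c⁻¹ := by
  have h : -(M : ℤ) = (M : ℤ) * (-1) := by ring
  rw [h, ModularCurve.qExpand_coeff_mul, twist_coeff, jC_coeff_neg_one, mul_one, zpow_neg_one]

theorem qExpand_twist_jC_coeff_of_lt (M : ℕ) [NeZero M] (c : ℂ) {k : ℤ} (hk : k < -(M : ℤ)) :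
    (ModularCurve.qExpand ℂ M (twist c jC)).coeff k = 0 := by
  by_cases hdvd : (M : ℤ) ∣ k
  · obtain ⟨m, rfl⟩ := hdvd
    have hM : (0 : ℤ) < M := by exact_mod_cast Nat.pos_of_ne_zero (NeZero.ne M)
    have hm : m < -1 := by
      by_contra hcon
      rw [not_lt] at hcon
      nlinarith
    rw [ModularCurve.qExpand_coeff_mul, twist_coeff, jC_coeff_of_lt hm, mul_zero]
  · exact ModularCurve.qExpand_coeff_of_not_dvd M _ hdvd

theorem qM_scal {d : ℕ} (hd : 0 < d) (M : ℕ) (τ : ℍ) : qM M (scal d τ) = qM M τ ^ d := by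
  rw [qM, qM, ← Complex.exp_nat_mul, coe_scal hd]
  congr 1
  ring

theorem qM_one_eq_pow (N : ℕ) (hN : 0 < N) (τ : ℍ) : qM 1 τ = qM N τ ^ N := by
  rw [qM, qM, ← Complex.exp_nat_mul]
  congr 1
  have hN' : (N : ℂ) ≠ 0 := by exact_mod_cast hN.ne'
  field_simp
  simp

theorem sumAt_J_affPt {J : ℍ → ℂ} (hexp : IsExp 1 J jC) {N δ d' k : ℕ} (hδ : 0 < δ)
    (hd' : 0 < d') (hk : 0 < k) (hN : N = d' * k) [NeZero (δ * k)] (b : ℤ) (τ : ℍ) :
    SumAt (ModularCurve.qExpand ℂ (δ * k) (twist (Complex.exp (2 * π * I * b / d')) jC))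
      (qM N τ) (J (affPt δ b d' τ)) := by
  have h2 := hexp (affPt δ b d' τ)
  have h3 : qM 1 (affPt δ b d' τ)
      = Complex.exp (2 * π * I * b / d') * (qM N τ ^ (δ * k)) := by
    rw [qM, qM, ← Complex.exp_nat_mul, ← Complex.exp_add,
      coe_affPt (by exact_mod_cast hδ) (by exact_mod_cast hd')]
    congr 1
    have hd'c : (d' : ℂ) ≠ 0 := by exact_mod_cast hd'.ne'
    have hkc : (k : ℂ) ≠ 0 := by exact_mod_cast hk.ne'
    have hNc : (N : ℂ) = (d' : ℂ) * k := by exact_mod_cast congrArg (Nat.cast : ℕ → ℂ) hN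
    rw [hNc]
    push_cast
    field_simp
    ring
  rw [h3] at h2
  exact sumAt_qExpand (δ * k) (sumAt_twist h2) rfl

/-- The `t = q^(1/N)`-expansion of the conjugate `τ ↦ J (d * g τ)` of `J (d τ)`, `d ∣ N`. -/
theorem isExp_J_scal_smul {J : ℍ → ℂ} (hinv : ∀ (γ : SL(2, ℤ)) (τ : ℍ), J (γ • τ) = J τ)
    (hexp : IsExp 1 J jC) {N d : ℕ} (hN : 0 < N) (hd : d ∣ N) (g : SL(2, ℤ)) :
    ∃ (M : ℕ) (_ : NeZero M) (c : ℂ), c ≠ 0 ∧
      M * (d / Int.gcd d (g 1 0)) = Int.gcd d (g 1 0) * N ∧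
      IsExp N (fun τ => J (scal d (g • τ))) (ModularCurve.qExpand ℂ M (twist c jC)) := by
  have hdpos : 0 < d := Nat.pos_of_dvd_of_pos hd hN
  obtain ⟨γ, b, hγ⟩ := hermite hdpos g
  set δ : ℕ := Int.gcd d (g 1 0) with hδ
  have hδpos : 0 < δ := Int.gcd_pos_of_ne_zero_left _ (by exact_mod_cast hdpos.ne')
  have hδd : δ ∣ d := by
    have h1 : ((δ : ℕ) : ℤ) ∣ (d : ℤ) := Int.gcd_dvd_left _ _
    exact_mod_cast h1
  have hd'pos : 0 < d / δ := Nat.div_pos (Nat.le_of_dvd hdpos hδd) hδpos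
  have hd'N : d / δ ∣ N := (Nat.div_dvd_of_dvd hδd).trans hd
  obtain ⟨k, hk⟩ := hd'N
  have hkpos : 0 < k := by
    rcases Nat.eq_zero_or_pos k with h | h
    · rw [h, mul_zero] at hk
      omega
    · exact h
  have hMpos : 0 < δ * k := Nat.mul_pos hδpos hkpos
  have hne : NeZero (δ * k) := ⟨hMpos.ne'⟩
  refine ⟨δ * k, hne, Complex.exp (2 * π * I * b / (d / δ : ℕ)), Complex.exp_ne_zero _,
    ?_, fun τ => ?_⟩
  · rw [hk]
    ring
  · have h1 : J (scal d (g • τ)) = J (affPt δ b ((d / δ : ℕ) : ℤ) τ) := by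
      rw [hγ τ, hinv]
    show SumAt _ (qM N τ) (J (scal d (g • τ)))
    rw [h1]
    exact sumAt_J_affPt hexp hδpos hd'pos hkpos hk b τ

/-- Coset separation: if `J (N * h τ) = J (N * τ)` for all `τ` then `h ∈ Γ₀(N)`. -/
theorem mem_Gamma0_of_J_scal {J : ℍ → ℂ} (hinv : ∀ (γ : SL(2, ℤ)) (τ : ℍ), J (γ • τ) = J τ)
    (hexp : IsExp 1 J jC) {N : ℕ} (hN : 0 < N) (h : SL(2, ℤ))
    (hJ : ∀ τ : ℍ, J (scal N (h • τ)) = J (scal N τ)) : h ∈ CongruenceSubgroup.Gamma0 N := by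
  obtain ⟨M₁, hM₁, c₁, hc₁, hrel₁, hE₁⟩ := isExp_J_scal_smul hinv hexp hN (dvd_refl N) h
  obtain ⟨M₂, hM₂, c₂, hc₂, hrel₂, hE₂⟩ :=
    isExp_J_scal_smul hinv hexp hN (dvd_refl N) (1 : SL(2, ℤ))
  have hfun : (fun τ : ℍ => J (scal N (h • τ))) = fun τ : ℍ => J (scal N ((1 : SL(2, ℤ)) • τ)) := by
    funext τ
    rw [hJ τ, one_smul]
  rw [hfun] at hE₁
  have hser := hE₁.series_unique hN hE₂
  -- compare lowest terms
  have hMM : M₁ = M₂ := by
    rcases lt_trichotomy M₁ M₂ with hlt | heq | hgt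
    · exfalso
      have h1 := qExpand_twist_jC_coeff_neg M₂ c₂
      have h2 : (ModularCurve.qExpand ℂ M₁ (twist c₁ jC)).coeff (-(M₂ : ℤ)) = 0 :=
        qExpand_twist_jC_coeff_of_lt M₁ c₁ (by exact_mod_cast neg_lt_neg (Int.ofNat_lt.mpr hlt))
      rw [hser, h1] at h2
      exact inv_ne_zero hc₂ h2
    · exact heq
    · exfalso
      have h1 := qExpand_twist_jC_coeff_neg M₁ c₁
      have h2 : (ModularCurve.qExpand ℂ M₂ (twist c₂ jC)).coeff (-(M₁ : ℤ)) = 0 :=
        qExpand_twist_jC_coeff_of_lt M₂ c₂ (by exact_mod_cast neg_lt_neg (Int.ofNat_lt.mpr hgt))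
      rw [← hser, h1] at h2
      exact inv_ne_zero hc₁ h2
  -- the numerology
  have h10 : ((1 : SL(2, ℤ)) : Matrix (Fin 2) (Fin 2) ℤ) 1 0 = 0 := by simp
  rw [h10, Int.gcd_zero_right, Int.natAbs_natCast, Nat.div_self hN, mul_one] at hrel₂
  set δ : ℕ := Int.gcd N (h 1 0) with hδ
  have hδpos : 0 < δ := Int.gcd_pos_of_ne_zero_left _ (by exact_mod_cast hN.ne')
  have hδN : δ ∣ N := by
    have h1 : ((δ : ℕ) : ℤ) ∣ (N : ℤ) := Int.gcd_dvd_left _ _
    exact_mod_cast h1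
  obtain ⟨e, he⟩ := hδN
  have hdiv : N / δ = e := by rw [he, Nat.mul_div_cancel_left _ hδpos]
  rw [hMM, hrel₂, hdiv] at hrel₁
  -- `N * N * e = δ * N`
  have h3 : N * e = δ := by
    have h4 : N * (N * e) = N * δ := by
      calc N * (N * e) = N * N * e := by ring
        _ = δ * N := hrel₁
        _ = N * δ := by ring
    exact Nat.eq_of_mul_eq_mul_left hN h4
  have he1 : e = 1 := by
    have h5 : δ * (e * e) = δ * 1 := by
      calc δ * (e * e) = (δ * e) * e := by ring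
        _ = N * e := by rw [← he]
        _ = δ * 1 := by rw [h3, mul_one]
    have h6 := Nat.eq_of_mul_eq_mul_left hδpos h5
    exact Nat.eq_one_of_mul_eq_one_right h6
  have hδN' : δ = N := by rw [he, he1, mul_one]
  have hdvd : (N : ℤ) ∣ h 1 0 := by
    have h7 : ((δ : ℕ) : ℤ) ∣ h 1 0 := Int.gcd_dvd_right _ _
    rwa [hδN'] at h7
  rw [CongruenceSubgroup.Gamma0_mem]
  exact (ZMod.intCast_zmod_eq_zero_iff_dvd _ _).mpr hdvd

end Fermat.Agent.S24.helper418
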