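/-
S24, G5 (helper4356): `Stmt_KaehlerSpan` of the captain's spec, proved (no hypotheses).
-/
import Fermat.Agent.S24.helper24_Spec
import Fermat.Agent.S24.helper4356_KaehlerRank

set_option autoImplicit false

namespace Fermat.Agent.S24.helper4356

/-- G5 of `helper24_Spec`: `Ω[F⁄K] = F · dx` and `dx ≠ 0`. -/
theorem stmt_KaehlerSpan : Fermat.Agent.S24.helper24.Stmt_KaehlerSpan := by
  intro K F _ _ _ _ x hx _
  exact ⟨span_D_eq_top x hx, D_ne_zero x hx⟩

end Fermat.Agent.S24.helper4356
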