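import Mathlib

/-!
# Laurent `q`-expansions at `i∞` of functions on the upper half plane (helper458, S24 MOD)

For a period `h > 0` we consider functions `f : ℍ → ℂ` that are `h`-periodic, holomorphic and
bounded at `i∞` (`IsNice h f`), and more generally those for which `q_h ^ M * f` is nice for
some `M` (`IsMer h f`, "meromorphic at `i∞`"), where `q_h τ = exp (2πiτ/h)`.
On the latter we define the Laurent expansion `qLaurent h f : LaurentSeries ℂ` and show that it
is an injective ring homomorphism.  Everything is built on Mathlib's `UpperHalfPlane.qExpansion`.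
-/

set_option autoImplicit false

noncomputable section

namespace Fermat.Agent.S24.helper458

open Filter Topology Complex UpperHalfPlane Function
open scoped Manifold

local notation "𝕢" => Periodic.qParam

/-! ## Nice functions -/

/-- `h`-periodic, holomorphic and bounded at `i∞`. -/
structure IsNice (h : ℝ) (f : ℍ → ℂ) : Prop where
  per : Periodic (f ∘ ofComplex) h
  hol : MDiff f
  bdd : IsBoundedAtImInfty f

/-- A convenient way to prove periodicity of `f ∘ ofComplex`. -/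
lemma periodic_comp_ofComplex_of {f : ℍ → ℂ} {h : ℝ}
    (hf : ∀ (τ : ℍ) (hτ : 0 < ((τ : ℂ) + h).im), f ⟨(τ : ℂ) + h, hτ⟩ = f τ) :
    Periodic (f ∘ ofComplex) h := by
  intro w
  by_cases hw : 0 < im w
  · have hw' : 0 < im (w + h) := by simpa using hw
    simp only [comp_apply, ofComplex_apply_of_im_pos hw', ofComplex_apply_of_im_pos hw]
    exact hf ⟨w, hw⟩ hw'
  · have hw0 : im w ≤ 0 := not_lt.mp hw
    have hw' : im (w + h) ≤ 0 := by simpa using hw0
    simp [ofComplex_apply_of_im_nonpos hw', ofComplex_apply_of_im_nonpos hw0]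

/-- Consequence of periodicity on `ℍ`. -/
lemma IsNice.apply_add {h : ℝ} {f : ℍ → ℂ} (hf : IsNice h f) (τ : ℍ)
    (hτ : 0 < ((τ : ℂ) + h).im) : f ⟨(τ : ℂ) + h, hτ⟩ = f τ := by
  have h1 := hf.per (τ : ℂ)
  simp only [comp_apply] at h1
  rw [ofComplex_apply_of_im_pos hτ, ofComplex_apply] at h1
  exact h1

namespace IsNice

variable {h : ℝ} {f g : ℍ → ℂ}

lemma congr (hf : IsNice h f) (hfg : f = g) : IsNice h g := hfg ▸ hf

lemma const (h : ℝ) (c : ℂ) : IsNice h (fun _ => c) where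
  per := fun _ => rfl
  hol := mdifferentiable_const
  bdd := Filter.const_boundedAtFilter _ c

lemma zero (h : ℝ) : IsNice h (0 : ℍ → ℂ) := const h 0

lemma one (h : ℝ) : IsNice h (1 : ℍ → ℂ) := const h 1

lemma add (hf : IsNice h f) (hg : IsNice h g) : IsNice h (f + g) where
  per := fun w => by
    have h1 := hf.per w
    have h2 := hg.per w
    simp only [comp_apply, Pi.add_apply] at h1 h2 ⊢
    rw [h1, h2]
  hol := hf.hol.add hg.hol
  bdd := hf.bdd.add hg.bdd

lemma neg (hf : IsNice h f) : IsNice h (-f) where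
  per := fun w => by
    have h1 := hf.per w
    simp only [comp_apply, Pi.neg_apply] at h1 ⊢
    rw [h1]
  hol := hf.hol.neg
  bdd := hf.bdd.neg

lemma mul (hf : IsNice h f) (hg : IsNice h g) : IsNice h (f * g) where
  per := fun w => by
    have h1 := hf.per w
    have h2 := hg.per w
    simp only [comp_apply, Pi.mul_apply] at h1 h2 ⊢
    rw [h1, h2]
  hol := hf.hol.mul hg.hol
  bdd := hf.bdd.mul hg.bdd

lemma sub (hf : IsNice h f) (hg : IsNice h g) : IsNice h (f - g) := by
  rw [sub_eq_add_neg]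
  exact hf.add hg.neg

lemma pow (hf : IsNice h f) (n : ℕ) : IsNice h (f ^ n) := by
  induction n with
  | zero => simpa using one h
  | succ n ih => rw [pow_succ]; exact ih.mul hf

lemma analyticAt (hh : 0 < h) (hf : IsNice h f) : AnalyticAt ℂ (cuspFunction h f) 0 :=
  analyticAt_cuspFunction_zero hh hf.per hf.hol hf.bdd

end IsNice

lemma qParam_add_period {h : ℝ} (hh : h ≠ 0) (z : ℂ) : 𝕢 h (z + h) = 𝕢 h z := by
  have hh' : (h : ℂ) ≠ 0 := by exact_mod_cast hh
  unfold Periodic.qParam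
  rw [show 2 * (Real.pi : ℂ) * Complex.I * (z + h) / h =
      2 * Real.pi * Complex.I * z / h + 2 * Real.pi * Complex.I by field_simp]
  exact Complex.exp_periodic _

/-- The function `τ ↦ q_h(τ) = exp (2πiτ/h)` on `ℍ`. -/
def qFun (h : ℝ) (τ : ℍ) : ℂ := 𝕢 h (τ : ℂ)

lemma qFun_ne_zero (h : ℝ) (τ : ℍ) : qFun h τ ≠ 0 := Periodic.qParam_ne_zero _

lemma isNice_qFun {h : ℝ} (hh : 0 < h) : IsNice h (qFun h) where
  per := periodic_comp_ofComplex_of fun τ hτ => by
    show 𝕢 h ((τ : ℂ) + h) = 𝕢 h (τ : ℂ)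
    exact qParam_add_period hh.ne' (τ : ℂ)
  hol := by
    rw [UpperHalfPlane.mdifferentiable_iff]
    refine (Periodic.differentiable_qParam (h := h)).differentiableOn.congr fun z hz => ?_
    simp only [comp_apply, qFun]
    rw [ofComplex_apply_of_im_pos hz]
  bdd := (qParam_tendsto_atImInfty hh).isBigO_one ℝ

/-! ## `q`-expansions of nice functions -/

section QExp

variable {h : ℝ} {f g : ℍ → ℂ}

lemma qExp_mul (hh : 0 < h) (hf : IsNice h f) (hg : IsNice h g) :
    qExpansion h (f * g) = qExpansion h f * qExpansion h g :=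
  qExpansion_mul (hf.analyticAt hh) (hg.analyticAt hh)

lemma qExp_add (hh : 0 < h) (hf : IsNice h f) (hg : IsNice h g) :
    qExpansion h (f + g) = qExpansion h f + qExpansion h g :=
  qExpansion_add (hf.analyticAt hh) (hg.analyticAt hh)

lemma qExp_eq_zero_iff (hh : 0 < h) (hf : IsNice h f) : qExpansion h f = 0 ↔ f = 0 :=
  qExpansion_eq_zero_iff hh hf.per hf.hol hf.bdd

lemma hasSum_qExp (hh : 0 < h) (hf : IsNice h f) (τ : ℍ) :
    HasSum (fun m : ℕ => (qExpansion h f).coeff m * qFun h τ ^ m) (f τ) := by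
  simpa [qFun, smul_eq_mul] using hasSum_qExpansion hh hf.per hf.hol hf.bdd τ

/-- A holomorphic function given by a convergent series in `q_h` is nice. -/
lemma isNice_of_hasSum (hh : 0 < h) {c : ℕ → ℂ} (hol : MDiff f)
    (hsum : ∀ τ : ℍ, HasSum (fun m : ℕ => c m * qFun h τ ^ m) (f τ)) : IsNice h f where
  per := periodic_comp_ofComplex_of fun τ hτ => by
    have h1 := hsum ⟨(τ : ℂ) + h, hτ⟩
    have h2 := hsum τ
    have e : qFun h ⟨(τ : ℂ) + h, hτ⟩ = qFun h τ := qParam_add_period hh.ne' _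
    rw [e] at h1
    exact h1.unique h2
  hol := hol
  bdd := isBoundedAtImInfty_of_hasSum_qExpansion hh (c := c)
    (by simpa [qFun, smul_eq_mul] using hsum)

/-- Uniqueness of the `q`-expansion. -/
lemma qExp_eq_mk_of_hasSum (hh : 0 < h) {c : ℕ → ℂ} (hol : MDiff f)
    (hsum : ∀ τ : ℍ, HasSum (fun m : ℕ => c m * qFun h τ ^ m) (f τ)) :
    qExpansion h f = PowerSeries.mk c := by
  have hn := isNice_of_hasSum hh hol hsum
  have h1 := (hasFPowerSeriesOnBall_cuspFunction hh (hn.analyticAt hh) (c := c)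
    (by simpa [qFun, smul_eq_mul] using hsum)).hasFPowerSeriesAt
  have h2 := (hn.analyticAt hh).hasFPowerSeriesAt
  ext m
  have h3 := congr_arg (FormalMultilinearSeries.coeff · m) (h1.eq_formalMultilinearSeries h2)
  simp only [FormalMultilinearSeries.coeff_ofScalars] at h3
  rw [PowerSeries.coeff_mk, qExpansion_coeff, h3, div_eq_inv_mul]

lemma qExp_const (hh : 0 < h) (c : ℂ) :
    qExpansion h (fun _ : ℍ => c) = PowerSeries.C c := by
  have h1 : qExpansion h (fun _ : ℍ => c) = PowerSeries.mk (fun m => if m = 0 then c else 0) := by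
    apply qExp_eq_mk_of_hasSum hh mdifferentiable_const
    intro τ
    have h2 := hasSum_single (f := fun m : ℕ => (if m = 0 then c else 0) * qFun h τ ^ m) 0
      (fun b hb => by simp [hb])
    simpa using h2
  rw [h1]
  ext m
  simp [PowerSeries.coeff_C]

lemma qExp_qFun (hh : 0 < h) : qExpansion h (qFun h) = PowerSeries.X := by
  have h1 : qExpansion h (qFun h) = PowerSeries.mk (fun m => if m = 1 then (1 : ℂ) else 0) := by
    apply qExp_eq_mk_of_hasSum hh (isNice_qFun hh).hol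
    intro τ
    have h2 := hasSum_single (f := fun m : ℕ => (if m = 1 then (1 : ℂ) else 0) * qFun h τ ^ m) 1
      (fun b hb => by simp [hb])
    simpa using h2
  rw [h1]
  ext m
  simp [PowerSeries.coeff_X]

lemma qExp_qFun_pow_mul (hh : 0 < h) (hf : IsNice h f) (k : ℕ) :
    qExpansion h (qFun h ^ k * f) = PowerSeries.X ^ k * qExpansion h f := by
  induction k with
  | zero => simp
  | succ k ih =>
    have e : qFun h ^ (k + 1) * f = qFun h * (qFun h ^ k * f) := by ring
    rw [e, qExp_mul hh (isNice_qFun hh) (((isNice_qFun hh).pow k).mul hf), ih, qExp_qFun hh]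
    ring

end QExp

/-! ## Functions meromorphic at `i∞` and their Laurent expansions -/

section Laurent

variable {h : ℝ} {f g : ℍ → ℂ}

/-- `f` is meromorphic at `i∞` with period `h`: some `q_h ^ M * f` is nice. -/
def IsMer (h : ℝ) (f : ℍ → ℂ) : Prop := ∃ M : ℕ, IsNice h (qFun h ^ M * f)

/-- The Laurent series of `f` computed with the exponent `M`. -/
def lau (h : ℝ) (f : ℍ → ℂ) (M : ℕ) : LaurentSeries ℂ :=
  HahnSeries.single (-(M : ℤ)) (1 : ℂ) *
    HahnSeries.ofPowerSeries ℤ ℂ (qExpansion h (qFun h ^ M * f))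

lemma isNice_qpow_add (hh : 0 < h) {M : ℕ} (hf : IsNice h (qFun h ^ M * f)) (k : ℕ) :
    IsNice h (qFun h ^ (M + k) * f) := by
  have e : qFun h ^ (M + k) * f = qFun h ^ k * (qFun h ^ M * f) := by ring
  rw [e]
  exact ((isNice_qFun hh).pow k).mul hf

lemma lau_add (hh : 0 < h) {M : ℕ} (hf : IsNice h (qFun h ^ M * f)) (k : ℕ) :
    lau h f (M + k) = lau h f M := by
  have e : qFun h ^ (M + k) * f = qFun h ^ k * (qFun h ^ M * f) := by ring
  unfold lau
  have hidx : -((M + k : ℕ) : ℤ) + (k : ℤ) = -(M : ℤ) := by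
    push_cast
    ring
  rw [e, qExp_qFun_pow_mul hh hf k, map_mul, HahnSeries.ofPowerSeries_X_pow, ← mul_assoc,
    HahnSeries.single_mul_single, hidx, one_mul]

open scoped Classical in
/-- The Laurent expansion at `i∞` in the parameter `q_h` (junk value `0` if `f` is not
meromorphic at `i∞`). -/
def qLaurent (h : ℝ) (f : ℍ → ℂ) : LaurentSeries ℂ :=
  if hf : IsMer h f then lau h f hf.choose else 0

lemma qLaurent_eq (hh : 0 < h) {M : ℕ} (hf : IsNice h (qFun h ^ M * f)) :
    qLaurent h f = lau h f M := by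
  have hm : IsMer h f := ⟨M, hf⟩
  rw [qLaurent, dif_pos hm, ← lau_add hh hm.choose_spec M, add_comm, lau_add hh hf]

lemma IsNice.isMer (hf : IsNice h f) : IsMer h f := ⟨0, by simpa using hf⟩

lemma qLaurent_of_isNice (hh : 0 < h) (hf : IsNice h f) :
    qLaurent h f = HahnSeries.ofPowerSeries ℤ ℂ (qExpansion h f) := by
  have h0 : IsNice h (qFun h ^ 0 * f) := by simpa using hf
  rw [qLaurent_eq hh h0, lau]
  simp

lemma IsMer.add (hh : 0 < h) (hf : IsMer h f) (hg : IsMer h g) : IsMer h (f + g) := by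
  obtain ⟨M, hM⟩ := hf
  obtain ⟨K, hK⟩ := hg
  refine ⟨M + K, ?_⟩
  have e : qFun h ^ (M + K) * (f + g) = qFun h ^ (M + K) * f + qFun h ^ (K + M) * g := by ring
  rw [e]
  exact (isNice_qpow_add hh hM K).add (isNice_qpow_add hh hK M)

lemma IsMer.mul (hf : IsMer h f) (hg : IsMer h g) : IsMer h (f * g) := by
  obtain ⟨M, hM⟩ := hf
  obtain ⟨K, hK⟩ := hg
  refine ⟨M + K, ?_⟩
  have e : qFun h ^ (M + K) * (f * g) = (qFun h ^ M * f) * (qFun h ^ K * g) := by ring
  rw [e]
  exact hM.mul hK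

lemma IsMer.neg (hf : IsMer h f) : IsMer h (-f) := by
  obtain ⟨M, hM⟩ := hf
  refine ⟨M, ?_⟩
  have e : qFun h ^ M * (-f) = -(qFun h ^ M * f) := by ring
  rw [e]
  exact hM.neg

lemma IsMer.const (h : ℝ) (c : ℂ) : IsMer h (fun _ => c) := (IsNice.const h c).isMer

lemma qLaurent_add (hh : 0 < h) (hf : IsMer h f) (hg : IsMer h g) :
    qLaurent h (f + g) = qLaurent h f + qLaurent h g := by
  obtain ⟨M, hM⟩ := hf
  obtain ⟨K, hK⟩ := hg
  have h1 := isNice_qpow_add hh hM K
  have h2 : IsNice h (qFun h ^ (M + K) * g) := by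
    rw [add_comm]
    exact isNice_qpow_add hh hK M
  have e : qFun h ^ (M + K) * (f + g) = qFun h ^ (M + K) * f + qFun h ^ (M + K) * g := by ring
  have h3 : IsNice h (qFun h ^ (M + K) * (f + g)) := by
    rw [e]
    exact h1.add h2
  rw [qLaurent_eq hh h3, qLaurent_eq hh h1, qLaurent_eq hh h2]
  unfold lau
  rw [e, qExp_add hh h1 h2, map_add, mul_add]

lemma qLaurent_mul (hh : 0 < h) (hf : IsMer h f) (hg : IsMer h g) :
    qLaurent h (f * g) = qLaurent h f * qLaurent h g := by
  obtain ⟨M, hM⟩ := hf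
  obtain ⟨K, hK⟩ := hg
  have e : qFun h ^ (M + K) * (f * g) = (qFun h ^ M * f) * (qFun h ^ K * g) := by ring
  have h3 : IsNice h (qFun h ^ (M + K) * (f * g)) := by
    rw [e]
    exact hM.mul hK
  rw [qLaurent_eq hh h3, qLaurent_eq hh hM, qLaurent_eq hh hK]
  unfold lau
  have hidx : -((M + K : ℕ) : ℤ) = -(M : ℤ) + -(K : ℤ) := by
    push_cast
    ring
  rw [e, qExp_mul hh hM hK, map_mul, mul_mul_mul_comm, HahnSeries.single_mul_single, hidx,
    one_mul]

lemma qLaurent_const (hh : 0 < h) (c : ℂ) :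
    qLaurent h (fun _ => c) = HahnSeries.C c := by
  rw [qLaurent_of_isNice hh (IsNice.const h c), qExp_const hh, HahnSeries.ofPowerSeries_C]

lemma qLaurent_one (hh : 0 < h) : qLaurent h (1 : ℍ → ℂ) = 1 := by
  have h1 := qLaurent_const hh 1
  rw [map_one] at h1
  exact h1

lemma qLaurent_zero (hh : 0 < h) : qLaurent h (0 : ℍ → ℂ) = 0 := by
  have h1 := qLaurent_const hh 0
  rw [map_zero] at h1
  exact h1

lemma qLaurent_qFun (hh : 0 < h) : qLaurent h (qFun h) = HahnSeries.single (1 : ℤ) (1 : ℂ) := by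
  rw [qLaurent_of_isNice hh (isNice_qFun hh), qExp_qFun hh, HahnSeries.ofPowerSeries_X]

/-- Injectivity of the Laurent expansion. -/
lemma eq_zero_of_qLaurent_eq_zero (hh : 0 < h) (hf : IsMer h f) (h0 : qLaurent h f = 0) :
    f = 0 := by
  obtain ⟨M, hM⟩ := hf
  rw [qLaurent_eq hh hM, lau] at h0
  have hne : (HahnSeries.single (-(M : ℤ)) (1 : ℂ) : LaurentSeries ℂ) ≠ 0 :=
    HahnSeries.single_ne_zero one_ne_zero
  have h1 : HahnSeries.ofPowerSeries ℤ ℂ (qExpansion h (qFun h ^ M * f)) = 0 :=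
    (mul_eq_zero.mp h0).resolve_left hne
  have h2 : qExpansion h (qFun h ^ M * f) = 0 :=
    HahnSeries.ofPowerSeries_injective (by rw [h1, map_zero])
  have h3 := (qExp_eq_zero_iff hh hM).mp h2
  funext τ
  have h4 := congrFun h3 τ
  simp only [Pi.mul_apply, Pi.pow_apply, Pi.zero_apply, mul_eq_zero] at h4
  exact h4.resolve_left (pow_ne_zero _ (qFun_ne_zero h τ))

lemma ofPowerSeries_coeff_neg (p : PowerSeries ℂ) {k : ℤ} (hk : k < 0) :
    (HahnSeries.ofPowerSeries ℤ ℂ p).coeff k = 0 := by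
  rw [HahnSeries.ofPowerSeries_apply]
  refine HahnSeries.embDomain_of_notMem_range ?_
  rintro ⟨m, rfl⟩
  exact absurd hk (not_lt.mpr (Int.natCast_nonneg m))

lemma coeff_lau (h : ℝ) (f : ℍ → ℂ) (M : ℕ) (n : ℤ) :
    (lau h f M).coeff n =
      if 0 ≤ n + M then (qExpansion h (qFun h ^ M * f)).coeff (n + M).toNat else 0 := by
  unfold lau
  rw [HahnSeries.coeff_single_mul, one_mul, sub_neg_eq_add]
  split_ifs with hn
  · obtain ⟨k, hk⟩ := Int.eq_ofNat_of_zero_le hn
    rw [hk, Int.toNat_natCast, HahnSeries.ofPowerSeries_apply_coeff]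
  · exact ofPowerSeries_coeff_neg _ (not_le.mp hn)

/-- The ring of functions on `ℍ` that are meromorphic at `i∞` with period `h`. -/
def merRing (h : ℝ) (hh : 0 < h) : Subring (ℍ → ℂ) where
  carrier := {f | IsMer h f}
  mul_mem' := fun hf hg => hf.mul hg
  one_mem' := IsMer.const h 1
  add_mem' := fun hf hg => hf.add hh hg
  zero_mem' := IsMer.const h 0
  neg_mem' := fun hf => hf.neg

lemma mem_merRing {h : ℝ} (hh : 0 < h) {f : ℍ → ℂ} : f ∈ merRing h hh ↔ IsMer h f := Iff.rfl

/-- The Laurent expansion as a ring homomorphism. -/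
def qLaurentHom (h : ℝ) (hh : 0 < h) : merRing h hh →+* LaurentSeries ℂ where
  toFun f := qLaurent h f.1
  map_one' := qLaurent_one hh
  map_mul' f g := qLaurent_mul hh f.2 g.2
  map_zero' := qLaurent_zero hh
  map_add' f g := qLaurent_add hh f.2 g.2

lemma qLaurentHom_apply (hh : 0 < h) (f : merRing h hh) :
    qLaurentHom h hh f = qLaurent h f.1 := rfl

lemma qLaurentHom_injective (hh : 0 < h) : Function.Injective (qLaurentHom h hh) := by
  rw [injective_iff_map_eq_zero]
  intro f hf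
  exact Subtype.ext (eq_zero_of_qLaurent_eq_zero hh f.2 hf)

/-- Two functions meromorphic at `i∞` with the same Laurent expansion are equal. -/
lemma eq_of_qLaurent_eq (hh : 0 < h) (hf : IsMer h f) (hg : IsMer h g)
    (hfg : qLaurent h f = qLaurent h g) : f = g := by
  have h1 : (⟨f, hf⟩ : merRing h hh) = ⟨g, hg⟩ := qLaurentHom_injective hh hfg
  exact congrArg Subtype.val h1

/-! ### Series in a power of `q_h` -/

/-- A holomorphic function given by a convergent power series in `q_h ^ e` is nice, and its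
`q_h`-expansion is the series with the exponents multiplied by `e`. -/
lemma isNice_and_qExp_of_hasSum_pow (hh : 0 < h) {e : ℕ} (he : 0 < e) {c : ℕ → ℂ}
    (hol : MDiff f)
    (hsum : ∀ τ : ℍ, HasSum (fun n : ℕ => c n * (qFun h τ ^ e) ^ n) (f τ)) :
    IsNice h f ∧
      qExpansion h f = PowerSeries.mk (fun m => if e ∣ m then c (m / e) else 0) := by
  have hsum' : ∀ τ : ℍ, HasSum
      (fun m : ℕ => (if e ∣ m then c (m / e) else 0) * qFun h τ ^ m) (f τ) := by
    intro τ
    have hinj : Function.Injective (fun n : ℕ => e * n) := fun a b hab =>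
      Nat.eq_of_mul_eq_mul_left he hab
    refine (hinj.hasSum_iff ?_).mp ?_
    · intro m hm
      have hne : ¬ e ∣ m := fun ⟨k, hk⟩ => hm ⟨k, hk.symm⟩
      simp [hne]
    · have e1 : ((fun m : ℕ => (if e ∣ m then c (m / e) else 0) * qFun h τ ^ m) ∘
          fun n : ℕ => e * n) = fun n : ℕ => c n * (qFun h τ ^ e) ^ n := by
        funext n
        simp [Nat.mul_div_cancel_left n he, pow_mul]
      rw [e1]
      exact hsum τ
  exact ⟨isNice_of_hasSum hh hol hsum', qExp_eq_mk_of_hasSum hh hol hsum'⟩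

/-! ### Translations `τ ↦ τ + a` -/

lemma qFun_vadd (h a : ℝ) (τ : ℍ) : qFun h (a +ᵥ τ) = 𝕢 h (a : ℂ) * qFun h τ := by
  unfold qFun Periodic.qParam
  rw [← Complex.exp_add, UpperHalfPlane.coe_vadd]
  congr 1
  ring

lemma tendsto_vadd_atImInfty (a : ℝ) :
    Tendsto (fun τ : ℍ => a +ᵥ τ) atImInfty atImInfty := by
  rw [atImInfty, tendsto_comap_iff]
  have e : (UpperHalfPlane.im ∘ fun τ : ℍ => a +ᵥ τ) = UpperHalfPlane.im := by
    funext τ
    simp [UpperHalfPlane.vadd_im]
  rw [e]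
  exact tendsto_comap

lemma IsNice.vadd (hf : IsNice h f) (a : ℝ) : IsNice h (fun τ => f (a +ᵥ τ)) where
  per := periodic_comp_ofComplex_of fun τ hτ => by
    have hτ' : 0 < (((a +ᵥ τ : ℍ) : ℂ) + h).im := by
      simpa [UpperHalfPlane.coe_vadd] using τ.im_pos
    have e : (a +ᵥ (⟨(τ : ℂ) + h, hτ⟩ : ℍ)) = ⟨((a +ᵥ τ : ℍ) : ℂ) + h, hτ'⟩ := by
      apply UpperHalfPlane.ext
      simp [UpperHalfPlane.coe_vadd]
      ring
    rw [e]
    exact hf.apply_add (a +ᵥ τ) hτ'
  hol := by
    have h1 := UpperHalfPlane.mdifferentiable_iff.mp hf.hol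
    rw [UpperHalfPlane.mdifferentiable_iff]
    have h2 : DifferentiableOn ℂ ((f ∘ ofComplex) ∘ fun z : ℂ => (a : ℂ) + z)
        upperHalfPlaneSet := by
      refine h1.comp (by fun_prop) ?_
      intro z hz
      simpa using hz
    refine h2.congr fun z hz => ?_
    have hz' : 0 < ((a : ℂ) + z).im := by simpa using hz
    simp only [comp_apply]
    rw [ofComplex_apply_of_im_pos hz, ofComplex_apply_of_im_pos hz']
    congr 1
  bdd := hf.bdd.comp_tendsto (tendsto_vadd_atImInfty a)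

lemma qExp_vadd (hh : 0 < h) (hf : IsNice h f) (a : ℝ) :
    qExpansion h (fun τ => f (a +ᵥ τ)) =
      PowerSeries.mk (fun m => 𝕢 h (a : ℂ) ^ m * (qExpansion h f).coeff m) := by
  apply qExp_eq_mk_of_hasSum hh (hf.vadd a).hol
  intro τ
  have h1 := hasSum_qExp hh hf (a +ᵥ τ)
  have e : (fun m : ℕ => 𝕢 h (a : ℂ) ^ m * (qExpansion h f).coeff m * qFun h τ ^ m) =
      fun m : ℕ => (qExpansion h f).coeff m * qFun h (a +ᵥ τ) ^ m := by
    funext m
    rw [qFun_vadd, mul_pow]
    ring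
  rw [e]
  exact h1

lemma IsMer.vadd (hf : IsMer h f) (a : ℝ) : IsMer h (fun τ => f (a +ᵥ τ)) := by
  obtain ⟨M, hM⟩ := hf
  refine ⟨M, ?_⟩
  have hε : 𝕢 h (a : ℂ) ≠ 0 := Periodic.qParam_ne_zero _
  have e : qFun h ^ M * (fun τ => f (a +ᵥ τ)) =
      (fun _ : ℍ => (𝕢 h (a : ℂ))⁻¹ ^ M) * fun τ => (qFun h ^ M * f) (a +ᵥ τ) := by
    funext τ
    simp only [Pi.mul_apply, Pi.pow_apply, qFun_vadd, mul_pow, inv_pow]
    field_simp
  rw [e]
  exact (IsNice.const h _).mul (hM.vadd a)

/-- The Laurent expansion of a translate: the `n`-th coefficient is multiplied by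
`exp (2πi a / h) ^ n`. -/
lemma coeff_qLaurent_vadd (hh : 0 < h) (hf : IsMer h f) (a : ℝ) (n : ℤ) :
    (qLaurent h (fun τ => f (a +ᵥ τ))).coeff n = 𝕢 h (a : ℂ) ^ n * (qLaurent h f).coeff n := by
  obtain ⟨M, hM⟩ := hf
  have hε : 𝕢 h (a : ℂ) ≠ 0 := Periodic.qParam_ne_zero _
  have e : qFun h ^ M * (fun τ => f (a +ᵥ τ)) =
      (fun _ : ℍ => (𝕢 h (a : ℂ))⁻¹ ^ M) * fun τ => (qFun h ^ M * f) (a +ᵥ τ) := by
    funext τ
    simp only [Pi.mul_apply, Pi.pow_apply, qFun_vadd, mul_pow, inv_pow]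
    field_simp
  have hM' : IsNice h (qFun h ^ M * (fun τ => f (a +ᵥ τ))) := by
    rw [e]
    exact (IsNice.const h _).mul (hM.vadd a)
  rw [qLaurent_eq hh hM', qLaurent_eq hh hM, coeff_lau, coeff_lau]
  split_ifs with hn
  · obtain ⟨k, hk⟩ := Int.eq_ofNat_of_zero_le hn
    rw [hk, Int.toNat_natCast, e, qExp_mul hh (IsNice.const h _) (hM.vadd a), qExp_const hh,
      qExp_vadd hh hM a, PowerSeries.coeff_C_mul, PowerSeries.coeff_mk]
    have hn' : n = (k : ℤ) - (M : ℤ) := by omega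
    rw [hn', zpow_sub₀ hε, zpow_natCast, zpow_natCast, inv_pow]
    field_simp
  · rw [mul_zero]

end Laurent

end Fermat.Agent.S24.helper458
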