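import Mathlib

/-!
# S24, module M3 base (helper481): a minimal field of meromorphic functions on `ℍ`

* an abstract rotation lemma (`hdiv_of_rotation`): in a valued field with a subfield of constants
  and residue field equal to the constants, an automorphism which rotates a uniformizer by a
  primitive `m`-th root of unity forces the divisibility property of `Stmt_LOC`;
* `Hol`: the `ℂ`-algebra of holomorphic functions on the upper half plane, a domain;
* `Mer = FractionRing Hol` with the order valuations `ordAt τ` and the action of `SL(2, ℤ)`.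
-/

set_option autoImplicit false

open UpperHalfPlane Filter Topology
open scoped MatrixGroups Manifold

namespace Fermat.Agent.S24.helper481

section rotation

variable {C Ω : Type*} [Field C] [Field Ω] [Algebra C Ω]

theorem addVal_zpow_of_eq_one (w : AddValuation Ω (WithTop ℤ)) (π : Ω) (hπ : w π = 1) (n : ℤ) :
    w (π ^ n) = (n : WithTop ℤ) := by
  have hnat : ∀ k : ℕ, w (π ^ k) = ((k : ℤ) : WithTop ℤ) := by
    intro k
    rw [AddValuation.map_pow, hπ]
    induction k with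
    | zero => simp
    | succ k ih => rw [succ_nsmul, ih]; push_cast; rfl
  cases n with
  | ofNat k => simpa using hnat k
  | negSucc k =>
    rw [zpow_negSucc, AddValuation.map_inv, hnat]
    rfl

/-- Abstract rotation lemma: if `φ` fixes the constants, preserves the valuation, multiplies a
uniformizer by the constant `ξ` and fixes an element `z` of valuation `n`, then `ξ ^ n = 1`,
provided every element of valuation `0` is congruent to a constant. -/
theorem zpow_eq_one_of_rotation (w : AddValuation Ω (WithTop ℤ))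
    (hconst : ∀ c : C, c ≠ 0 → w (algebraMap C Ω c) = 0)
    (hres : ∀ u : Ω, w u = 0 → ∃ c : C, 0 < w (u - algebraMap C Ω c))
    (φ : Ω →+* Ω) (hφc : ∀ c : C, φ (algebraMap C Ω c) = algebraMap C Ω c)
    (hφw : ∀ z, w (φ z) = w z)
    (π : Ω) (hπ : w π = 1) (ξ : C) (hφπ : φ π = algebraMap C Ω ξ * π)
    (z : Ω) (n : ℤ) (hn : w z = (n : WithTop ℤ)) (hfix : φ z = z) : ξ ^ n = 1 := by
  have hπ0 : π ≠ 0 := by
    intro h
    rw [h, AddValuation.map_zero] at hπ
    exact WithTop.top_ne_one hπ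
  have hξ0 : ξ ≠ 0 := by
    intro h
    rw [h, map_zero, zero_mul] at hφπ
    exact hπ0 ((map_eq_zero φ).mp hφπ)
  set u : Ω := z * (π ^ n)⁻¹ with hu
  have hwu : w u = 0 := by
    rw [hu, AddValuation.map_mul, AddValuation.map_inv, addVal_zpow_of_eq_one w π hπ, hn]
    rw [← WithTop.LinearOrderedAddCommGroup.coe_neg, ← WithTop.coe_add]
    simp
  have hφu : φ u = algebraMap C Ω (ξ ^ (-n)) * u := by
    rw [hu, map_mul, map_inv₀, map_zpow₀, hfix, hφπ, mul_zpow, map_zpow₀, zpow_neg]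
    have h1 : (algebraMap C Ω ξ) ^ n ≠ 0 := zpow_ne_zero _ ((map_ne_zero _).mpr hξ0)
    have h2 : π ^ n ≠ 0 := zpow_ne_zero _ hπ0
    field_simp
  obtain ⟨c, hc⟩ := hres u hwu
  have hc0 : c ≠ 0 := by
    intro h
    rw [h, map_zero, sub_zero, hwu] at hc
    exact lt_irrefl _ hc
  have h1 : 0 < w (φ u - algebraMap C Ω c) := by
    have : φ u - algebraMap C Ω c = φ (u - algebraMap C Ω c) := by
      rw [map_sub, hφc]
    rw [this, hφw]
    exact hc
  have ha0 : ξ ^ (-n) ≠ 0 := zpow_ne_zero _ hξ0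
  have h2 : 0 < w (algebraMap C Ω (ξ ^ (-n)) * (u - algebraMap C Ω c)) := by
    rw [AddValuation.map_mul, hconst _ ha0, zero_add]
    exact hc
  have h3 : algebraMap C Ω ((ξ ^ (-n) - 1) * c)
      = (φ u - algebraMap C Ω c) - algebraMap C Ω (ξ ^ (-n)) * (u - algebraMap C Ω c) := by
    rw [hφu, map_mul, map_sub, map_one]
    ring
  have h4 : 0 < w (algebraMap C Ω ((ξ ^ (-n) - 1) * c)) := by
    rw [h3]
    exact lt_of_lt_of_le (lt_min h1 h2) (AddValuation.map_sub w _ _)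
  have h5 : (ξ ^ (-n) - 1) * c = 0 := by
    by_contra hne
    rw [hconst _ hne] at h4
    exact lt_irrefl _ h4
  have h6 : ξ ^ (-n) = 1 := by
    rcases mul_eq_zero.mp h5 with h | h
    · exact sub_eq_zero.mp h
    · exact absurd h hc0
  rw [zpow_neg, inv_eq_one] at h6
  exact h6

theorem nat_div_gcd_dvd_of_dvd_mul {m k a : ℕ} (hm : 0 < m) (h : m ∣ k * a) :
    m / Nat.gcd k m ∣ a := by
  have hg : 0 < Nat.gcd k m := Nat.gcd_pos_of_pos_right k hm
  have hcop : Nat.Coprime (k / Nat.gcd k m) (m / Nat.gcd k m) := Nat.coprime_div_gcd_div_gcd hg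
  have hm' : m / Nat.gcd k m * Nat.gcd k m = m := Nat.div_mul_cancel (Nat.gcd_dvd_right k m)
  have hk' : k / Nat.gcd k m * Nat.gcd k m = k := Nat.div_mul_cancel (Nat.gcd_dvd_left k m)
  have h1 : m / Nat.gcd k m * Nat.gcd k m ∣ (k / Nat.gcd k m * a) * Nat.gcd k m := by
    have : (k / Nat.gcd k m * a) * Nat.gcd k m = k * a := by
      calc (k / Nat.gcd k m * a) * Nat.gcd k m = (k / Nat.gcd k m * Nat.gcd k m) * a := by ring
        _ = k * a := by rw [hk']
    rw [this, hm']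
    exact h
  have h2 : m / Nat.gcd k m ∣ k / Nat.gcd k m * a := Nat.dvd_of_mul_dvd_mul_right hg h1
  exact (Nat.Coprime.symm hcop).dvd_of_dvd_mul_left h2

/-- The divisibility hypothesis of the orbit counting lemma from a rotation of a uniformizer by
a primitive `m`-th root of unity. -/
theorem hdiv_of_rotation (w : AddValuation Ω (WithTop ℤ))
    (hconst : ∀ c : C, c ≠ 0 → w (algebraMap C Ω c) = 0)
    (hres : ∀ u : Ω, w u = 0 → ∃ c : C, 0 < w (u - algebraMap C Ω c))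
    (σ : Ω →+* Ω) (hσc : ∀ c : C, σ (algebraMap C Ω c) = algebraMap C Ω c)
    (hσw : ∀ z, w (σ z) = w z)
    (π : Ω) (hπ : w π = 1) (ζ : C) (m : ℕ) (hm : 0 < m) (hζ : IsPrimitiveRoot ζ m)
    (hσπ : σ π = algebraMap C Ω ζ * π)
    (k : ℕ) (z : Ω) (hz : z ≠ 0) (hfix : σ^[k] z = z) :
    ∃ l : ℤ, w z = (((m / Nat.gcd k m : ℕ) * l : ℤ) : WithTop ℤ) := by
  have hne : w z ≠ ⊤ := (AddValuation.ne_top_iff w).mpr hz
  obtain ⟨n, hn⟩ := WithTop.ne_top_iff_exists.mp hne
  have hφc : ∀ c : C, (σ ^ k) (algebraMap C Ω c) = algebraMap C Ω c := by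
    intro c
    rw [RingHom.coe_pow]
    exact Function.iterate_fixed (hσc c) k
  have hφw : ∀ (j : ℕ) (y : Ω), w ((σ ^ j) y) = w y := by
    intro j y
    rw [RingHom.coe_pow]
    induction j with
    | zero => rfl
    | succ j ih => rw [Function.iterate_succ_apply', hσw, ih]
  have hφπ : ∀ j : ℕ, (σ ^ j) π = algebraMap C Ω (ζ ^ j) * π := by
    intro j
    rw [RingHom.coe_pow]
    induction j with
    | zero => simp
    | succ j ih =>
      rw [Function.iterate_succ_apply', ih, map_mul, hσc, hσπ, pow_succ, map_mul]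
      ring
  have hfix' : (σ ^ k) z = z := by
    rw [RingHom.coe_pow]
    exact hfix
  have h1 := zpow_eq_one_of_rotation w hconst hres (σ ^ k) hφc (hφw k) π hπ (ζ ^ k) (hφπ k) z n hn.symm
    hfix'
  have h2 : ζ ^ ((k : ℤ) * n) = 1 := by
    rw [zpow_mul, zpow_natCast]
    exact h1
  have h3 : (m : ℤ) ∣ (k : ℤ) * n := (hζ.zpow_eq_one_iff_dvd _).mp h2
  have h4 : m ∣ k * n.natAbs := by
    have := Int.natAbs_dvd_natAbs.mpr h3
    rwa [Int.natAbs_mul, Int.natAbs_natCast, Int.natAbs_natCast] at this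
  have h5 : ((m / Nat.gcd k m : ℕ) : ℤ) ∣ n :=
    Int.natCast_dvd.mpr (nat_div_gcd_dvd_of_dvd_mul hm h4)
  obtain ⟨l, hl⟩ := h5
  exact ⟨l, by rw [← hn, hl]⟩

end rotation

section hol

/-- The `ℂ`-algebra of holomorphic functions on the upper half plane. -/
def Hol : Subalgebra ℂ (ℍ → ℂ) where
  carrier := {f | MDiff f}
  mul_mem' := fun hf hg => hf.mul hg
  add_mem' := fun hf hg => hf.add hg
  algebraMap_mem' := fun _ => mdifferentiable_const

theorem mem_Hol {f : ℍ → ℂ} : f ∈ Hol ↔ MDiff f := Iff.rfl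

instance instIsDomainHol : IsDomain Hol := by
  have : NoZeroDivisors Hol := by
    refine ⟨fun {a b} h => ?_⟩
    have h' : (a : ℍ → ℂ) * (b : ℍ → ℂ) = 0 := congrArg Subtype.val h
    rcases (UpperHalfPlane.mul_eq_zero_iff a.2 b.2).mp h' with h1 | h1
    · exact Or.inl (Subtype.ext h1)
    · exact Or.inr (Subtype.ext h1)
  exact NoZeroDivisors.to_isDomain _

theorem hol_analyticAt (f : Hol) (τ : ℍ) : AnalyticAt ℂ ((f : ℍ → ℂ) ∘ ofComplex) (τ : ℂ) :=
  (UpperHalfPlane.mdifferentiable_iff.mp f.2).analyticAt (isOpen_upperHalfPlaneSet.mem_nhds τ.im_pos)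

theorem hol_meromorphicAt (f : Hol) (τ : ℍ) :
    MeromorphicAt ((f : ℍ → ℂ) ∘ ofComplex) (τ : ℂ) :=
  (hol_analyticAt f τ).meromorphicAt

/-- The order of vanishing at `τ` as an additive valuation on `Hol`. -/
noncomputable def ordHol (τ : ℍ) : AddValuation Hol (WithTop ℤ) :=
  AddValuation.of (fun f => meromorphicOrderAt ((f : ℍ → ℂ) ∘ ofComplex) (τ : ℂ))
    (meromorphicOrderAt_eq_top_iff.mpr (Eventually.of_forall fun _ => rfl))
    (by
      have h : (((1 : Hol) : ℍ → ℂ) ∘ ofComplex) = fun _ => (1 : ℂ) := rfl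
      rw [h, meromorphicOrderAt_const]
      simp)
    (fun f g => meromorphicOrderAt_add (hol_meromorphicAt f τ) (hol_meromorphicAt g τ))
    (fun f g => meromorphicOrderAt_mul (hol_meromorphicAt f τ) (hol_meromorphicAt g τ))

theorem ordHol_apply (τ : ℍ) (f : Hol) :
    ordHol τ f = meromorphicOrderAt ((f : ℍ → ℂ) ∘ ofComplex) (τ : ℂ) := rfl

theorem ordHol_eq_top_iff (τ : ℍ) (f : Hol) : ordHol τ f = ⊤ ↔ f = 0 := by
  constructor
  · intro h
    rw [ordHol_apply, meromorphicOrderAt_eq_top_iff] at h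
    apply Subtype.ext
    apply UpperHalfPlane.eq_zero_of_frequently (τ := τ) f.2
    have h2 : ∀ᶠ z in 𝓝[≠] τ, (f : ℍ → ℂ) z = 0 := by
      rw [eventually_nhdsWithin_iff] at h ⊢
      rw [← isOpenEmbedding_coe.map_nhds_eq, eventually_map] at h
      filter_upwards [h] with a ha hne
      have := ha (fun h' => hne (UpperHalfPlane.ext h'))
      simpa using this
    exact h2.frequently
  · rintro rfl
    exact AddValuation.map_zero _

/-- The field of meromorphic functions on the upper half plane (quotients of holomorphic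
functions). -/
abbrev Mer : Type := FractionRing Hol

theorem ordHol_supp (τ : ℍ) :
    nonZeroDivisors Hol ≤ (AddValuation.toValuation (ordHol τ)).supp.primeCompl := by
  intro f hf hmem
  have hf0 : f ≠ 0 := nonZeroDivisors.ne_zero hf
  apply hf0
  rw [← ordHol_eq_top_iff τ]
  exact hmem

/-- The order at `τ` as an additive valuation on `Mer`. -/
noncomputable def ordAt (τ : ℍ) : AddValuation Mer (WithTop ℤ) :=
  AddValuation.ofValuation
    ((AddValuation.toValuation (ordHol τ)).extendToLocalization (ordHol_supp τ) Mer)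

theorem ordAt_algebraMap (τ : ℍ) (f : Hol) : ordAt τ (algebraMap Hol Mer f) = ordHol τ f :=
  Valuation.extendToLocalization_apply_map_apply _ (ordHol_supp τ) Mer f

theorem ordHol_const (τ : ℍ) (c : ℂ) (hc : c ≠ 0) : ordHol τ (algebraMap ℂ Hol c) = 0 := by
  have h : (((algebraMap ℂ Hol c : Hol) : ℍ → ℂ) ∘ ofComplex) = fun _ => c := rfl
  rw [ordHol_apply, h, meromorphicOrderAt_const]
  simp [hc]

theorem ordAt_const (τ : ℍ) (c : ℂ) (hc : c ≠ 0) : ordAt τ (algebraMap ℂ Mer c) = 0 := by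
  rw [IsScalarTower.algebraMap_apply ℂ Hol Mer, ordAt_algebraMap, ordHol_const τ c hc]

/-- The residue field of `ordAt τ` is `ℂ`: every element of order `0` is congruent to a
constant. -/
theorem ordAt_residue (τ : ℍ) (u : Mer) (hu : ordAt τ u = 0) :
    ∃ c : ℂ, 0 < ordAt τ (u - algebraMap ℂ Mer c) := by
  obtain ⟨a, b, hb, rfl⟩ := IsFractionRing.div_surjective Hol u
  have hb0 : b ≠ 0 := nonZeroDivisors.ne_zero hb
  have hb0' : algebraMap Hol Mer b ≠ 0 :=
    (map_ne_zero_iff _ (IsFractionRing.injective Hol Mer)).mpr hb0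
  have hob : ordHol τ b ≠ ⊤ := (ordHol_eq_top_iff τ b).not.mpr hb0
  rw [AddValuation.map_div, ordAt_algebraMap, ordAt_algebraMap] at hu
  have hA := hol_meromorphicAt a τ
  have hB := hol_meromorphicAt b τ
  have hAB : meromorphicOrderAt (((a : ℍ → ℂ) ∘ ofComplex) / ((b : ℍ → ℂ) ∘ ofComplex)) (τ : ℂ)
      = 0 := by
    rw [meromorphicOrderAt_div hA hB]
    exact hu
  obtain ⟨c, -, hc⟩ := tendsto_ne_zero_of_meromorphicOrderAt_eq_zero (hA.div hB) hAB
  refine ⟨c, ?_⟩
  have key : algebraMap Hol Mer a / algebraMap Hol Mer b - algebraMap ℂ Mer c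
      = algebraMap Hol Mer (a - algebraMap ℂ Hol c * b) / algebraMap Hol Mer b := by
    rw [IsScalarTower.algebraMap_apply ℂ Hol Mer, map_sub, map_mul]
    field_simp
  rw [key, AddValuation.map_div, ordAt_algebraMap, ordAt_algebraMap]
  have hH := hol_meromorphicAt (a - algebraMap ℂ Hol c * b) τ
  have hpos : 0 < meromorphicOrderAt
      ((((a - algebraMap ℂ Hol c * b : Hol) : ℍ → ℂ) ∘ ofComplex) / ((b : ℍ → ℂ) ∘ ofComplex))
      (τ : ℂ) := by
    rw [← tendsto_zero_iff_meromorphicOrderAt_pos (hH.div hB)]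
    have h1 : Tendsto (fun z => (((a : ℍ → ℂ) ∘ ofComplex) / ((b : ℍ → ℂ) ∘ ofComplex)) z - c)
        (𝓝[≠] (τ : ℂ)) (𝓝 0) := by
      simpa using hc.sub_const c
    refine h1.congr' ?_
    have hBne : ∀ᶠ z in 𝓝[≠] (τ : ℂ), ((b : ℍ → ℂ) ∘ ofComplex) z ≠ 0 :=
      (meromorphicOrderAt_ne_top_iff_eventually_ne_zero hB).mp hob
    filter_upwards [hBne] with z hz
    have hz' : (b : ℍ → ℂ) (ofComplex z) ≠ 0 := hz
    have e1 : ((a - algebraMap ℂ Hol c * b : Hol) : ℍ → ℂ) (ofComplex z)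
        = (a : ℍ → ℂ) (ofComplex z) - c * (b : ℍ → ℂ) (ofComplex z) := rfl
    simp only [Pi.div_apply, Function.comp_apply, e1]
    field_simp
  rw [meromorphicOrderAt_div hH hB] at hpos
  exact hpos

end hol

section action

theorem sl_det_pos (g : SL(2, ℤ)) :
    0 < (Matrix.SpecialLinearGroup.mapGL ℝ g : GL (Fin 2) ℝ).det.val := by simp

theorem mdiff_comp_smul (g : SL(2, ℤ)) {f : ℍ → ℂ} (hf : MDiff f) :
    MDiff (fun τ : ℍ => f (g • τ)) :=
  hf.comp (mdifferentiable_smul (sl_det_pos g))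

/-- Pull back a holomorphic function by `g⁻¹`. -/
noncomputable def pullHol (g : SL(2, ℤ)) : Hol ≃ₐ[ℂ] Hol where
  toFun f := ⟨fun τ => (f : ℍ → ℂ) (g⁻¹ • τ), mdiff_comp_smul g⁻¹ f.2⟩
  invFun f := ⟨fun τ => (f : ℍ → ℂ) (g • τ), mdiff_comp_smul g f.2⟩
  left_inv f := by
    apply Subtype.ext
    funext τ
    show (f : ℍ → ℂ) (g⁻¹ • g • τ) = (f : ℍ → ℂ) τ
    rw [inv_smul_smul]
  right_inv f := by
    apply Subtype.ext
    funext τ
    show (f : ℍ → ℂ) (g • g⁻¹ • τ) = (f : ℍ → ℂ) τ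
    rw [smul_inv_smul]
  map_mul' _ _ := rfl
  map_add' _ _ := rfl
  commutes' _ := rfl

theorem pullHol_apply (g : SL(2, ℤ)) (f : Hol) (τ : ℍ) :
    (pullHol g f : ℍ → ℂ) τ = (f : ℍ → ℂ) (g⁻¹ • τ) := rfl

theorem pullHol_mul (g h : SL(2, ℤ)) (f : Hol) :
    pullHol (g * h) f = pullHol g (pullHol h f) := by
  apply Subtype.ext
  funext τ
  rw [pullHol_apply, pullHol_apply, pullHol_apply, mul_inv_rev, mul_smul]

theorem ordHol_pullHol (g : SL(2, ℤ)) (τ : ℍ) (f : Hol) :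
    ordHol τ (pullHol g f) = ordHol (g⁻¹ • τ) f := by
  rw [ordHol_apply, ordHol_apply]
  exact UpperHalfPlane.meromorphicOrderAt_comp_smul (f := (f : ℍ → ℂ)) (τ := τ) (sl_det_pos g⁻¹)

/-- The action of `SL(2, ℤ)` on `Mer` (`actMer g z = z ∘ g⁻¹`). -/
noncomputable def actMer (g : SL(2, ℤ)) : Mer ≃ₐ[ℂ] Mer :=
  AlgEquiv.ofRingEquiv (f := IsFractionRing.ringEquivOfRingEquiv (K := Mer) (L := Mer)
    (pullHol g).toRingEquiv) (by
      intro c
      rw [IsScalarTower.algebraMap_apply ℂ Hol Mer, IsFractionRing.ringEquivOfRingEquiv_algebraMap]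
      rfl)

theorem actMer_algebraMap (g : SL(2, ℤ)) (f : Hol) :
    actMer g (algebraMap Hol Mer f) = algebraMap Hol Mer (pullHol g f) :=
  IsFractionRing.ringEquivOfRingEquiv_algebraMap (K := Mer) (L := Mer) (pullHol g).toRingEquiv f

theorem actMer_mul (g h : SL(2, ℤ)) (z : Mer) : actMer (g * h) z = actMer g (actMer h z) := by
  have key : ((actMer (g * h) : Mer ≃ₐ[ℂ] Mer) : Mer →+* Mer)
      = ((actMer g : Mer ≃ₐ[ℂ] Mer) : Mer →+* Mer).comp ((actMer h : Mer ≃ₐ[ℂ] Mer) : Mer →+* Mer) := by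
    apply IsFractionRing.ringHom_ext (A := Hol)
    intro f
    simp only [RingHom.comp_apply, RingHom.coe_coe, actMer_algebraMap, pullHol_mul]
  exact congrArg (fun φ : Mer →+* Mer => φ z) key

theorem ordAt_actMer (g : SL(2, ℤ)) (τ : ℍ) (z : Mer) :
    ordAt τ (actMer g z) = ordAt (g⁻¹ • τ) z := by
  obtain ⟨a, b, -, rfl⟩ := IsFractionRing.div_surjective Hol z
  rw [map_div₀, actMer_algebraMap, actMer_algebraMap, AddValuation.map_div, AddValuation.map_div,
    ordAt_algebraMap, ordAt_algebraMap, ordAt_algebraMap, ordAt_algebraMap, ordHol_pullHol,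
    ordHol_pullHol]

theorem ordAt_actMer_of_fix (g : SL(2, ℤ)) (τ : ℍ) (hfix : g • τ = τ) (z : Mer) :
    ordAt τ (actMer g z) = ordAt τ z := by
  rw [ordAt_actMer]
  have : g⁻¹ • τ = τ := by
    conv_lhs => rw [← hfix]
    rw [inv_smul_smul]
  rw [this]

end action

section stabilizer

/-- A uniformizer at `τ₀`: the function `(τ - τ₀) / (τ - p)`, `p` in the closed lower half
plane. -/
noncomputable def unifFun (τ₀ : ℍ) (p : ℂ) : ℍ → ℂ := fun τ => ((τ : ℂ) - τ₀) / ((τ : ℂ) - p)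

theorem unifFun_mdiff (τ₀ : ℍ) (p : ℂ) (hp : p.im ≤ 0) : MDiff (unifFun τ₀ p) := by
  rw [UpperHalfPlane.mdifferentiable_iff]
  have h1 : DifferentiableOn ℂ (fun z : ℂ => (z - τ₀) / (z - p)) {z | 0 < z.im} := by
    intro z hz
    have hne : z - p ≠ 0 := by
      intro h
      have h' : z = p := sub_eq_zero.mp h
      rw [h'] at hz
      exact absurd hz (not_lt.mpr hp)
    have hd : DifferentiableAt ℂ (fun z : ℂ => (z - τ₀) / (z - p)) z := by
      apply DifferentiableAt.div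
      · fun_prop
      · fun_prop
      · exact hne
    exact hd.differentiableWithinAt
  refine h1.congr ?_
  intro z hz
  simp [unifFun, ofComplex_apply_of_im_pos hz]

/-- The uniformizer as an element of `Hol`. -/
noncomputable def unifHol (τ₀ : ℍ) (p : ℂ) (hp : p.im ≤ 0) : Hol :=
  ⟨unifFun τ₀ p, unifFun_mdiff τ₀ p hp⟩

theorem ordHol_unifHol (τ₀ : ℍ) (p : ℂ) (hp : p.im ≤ 0) : ordHol τ₀ (unifHol τ₀ p hp) = 1 := by
  rw [ordHol_apply]
  have h1 : ((1 : ℤ) : WithTop ℤ) = 1 := rfl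
  have hne : (τ₀ : ℂ) - p ≠ 0 := by
    intro h
    have h' : (τ₀ : ℂ) = p := sub_eq_zero.mp h
    have := τ₀.im_pos
    rw [← UpperHalfPlane.coe_im, h'] at this
    exact absurd this (not_lt.mpr hp)
  rw [← h1, meromorphicOrderAt_eq_int_iff (hol_meromorphicAt _ τ₀)]
  refine ⟨fun z => (z - p)⁻¹, ?_, ?_, ?_⟩
  · exact (analyticAt_id.sub analyticAt_const).inv hne
  · exact inv_ne_zero hne
  · filter_upwards [eventually_nhdsWithin_of_eventually_nhds
      (isOpen_upperHalfPlaneSet.mem_nhds τ₀.im_pos)] with z hz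
    have hz' : 0 < z.im := hz
    simp [unifHol, unifFun, ofComplex_apply_of_im_pos hz', div_eq_mul_inv]

theorem coe_S_smul (w : ℍ) : ((ModularGroup.S • w : ℍ) : ℂ) = (-(w : ℂ))⁻¹ := by
  rw [modular_S_smul]

theorem coe_ST_smul (w : ℍ) :
    (((ModularGroup.S * ModularGroup.T) • w : ℍ) : ℂ) = (-(1 + (w : ℂ)))⁻¹ := by
  rw [mul_smul, coe_S_smul, modular_T_smul, UpperHalfPlane.coe_vadd]
  simp

theorem add_coe_ne_zero (w τ₀ : ℍ) : (w : ℂ) + τ₀ ≠ 0 := by
  intro h
  have h1 := congrArg Complex.im h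
  simp only [Complex.add_im, Complex.zero_im, UpperHalfPlane.coe_im] at h1
  have := w.im_pos
  have := τ₀.im_pos
  linarith

theorem add_one_add_coe_ne_zero (w τ₀ : ℍ) : (w : ℂ) + 1 + τ₀ ≠ 0 := by
  intro h
  have h1 := congrArg Complex.im h
  simp only [Complex.add_im, Complex.zero_im, Complex.one_im, UpperHalfPlane.coe_im] at h1
  have := w.im_pos
  have := τ₀.im_pos
  linarith

/-- Rotation of the uniformizer at a fixed point of `S`. -/
theorem unifFun_S (τ₀ : ℍ) (hfix : ModularGroup.S • τ₀ = τ₀) (τ : ℍ) :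
    unifFun τ₀ (-(τ₀ : ℂ)) (ModularGroup.S⁻¹ • τ) = (-1) * unifFun τ₀ (-(τ₀ : ℂ)) τ := by
  set w : ℍ := ModularGroup.S⁻¹ • τ with hw
  have hτ : (τ : ℂ) = (-(w : ℂ))⁻¹ := by
    rw [← coe_S_smul, hw, smul_inv_smul]
  have hτ₀ : (τ₀ : ℂ) = (-(τ₀ : ℂ))⁻¹ := by
    conv_lhs => rw [← hfix]
    rw [coe_S_smul]
  have hw0 : (w : ℂ) ≠ 0 := UpperHalfPlane.ne_zero w
  have hτ₀0 : (τ₀ : ℂ) ≠ 0 := UpperHalfPlane.ne_zero τ₀
  have h1 : (w : ℂ) * τ = -1 := by
    have h := mul_inv_cancel₀ (neg_ne_zero.mpr hw0)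
    rw [← hτ] at h
    linear_combination -h
  have h2 : (τ₀ : ℂ) * τ₀ = -1 := by
    have h := mul_inv_cancel₀ (neg_ne_zero.mpr hτ₀0)
    rw [← hτ₀] at h
    linear_combination -h
  have hd1 := add_coe_ne_zero w τ₀
  have hd2 := add_coe_ne_zero τ τ₀
  simp only [unifFun, sub_neg_eq_add]
  rw [div_eq_iff hd1, mul_comm (-1 : ℂ), mul_assoc, div_mul_eq_mul_div, eq_div_iff hd2]
  linear_combination 2 * h1 - 2 * h2

/-- Rotation of the uniformizer at a fixed point of `S * T`. -/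
theorem unifFun_ST (τ₀ : ℍ) (hfix : (ModularGroup.S * ModularGroup.T) • τ₀ = τ₀) (τ : ℍ) :
    unifFun τ₀ (-1 - (τ₀ : ℂ)) ((ModularGroup.S * ModularGroup.T)⁻¹ • τ)
      = (τ₀ : ℂ) * unifFun τ₀ (-1 - (τ₀ : ℂ)) τ := by
  set w : ℍ := (ModularGroup.S * ModularGroup.T)⁻¹ • τ with hw
  have hτ : (τ : ℂ) = (-(1 + (w : ℂ)))⁻¹ := by
    rw [← coe_ST_smul, hw, smul_inv_smul]
  have hτ₀ : (τ₀ : ℂ) = (-(1 + (τ₀ : ℂ)))⁻¹ := by
    conv_lhs => rw [← hfix]
    rw [coe_ST_smul]
  have hw1 : 1 + (w : ℂ) ≠ 0 := by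
    have := add_one_add_coe_ne_zero w w
    intro h
    have h' := congrArg Complex.im h
    simp only [Complex.add_im, Complex.zero_im, Complex.one_im, UpperHalfPlane.coe_im] at h'
    have := w.im_pos
    linarith
  have hτ₀1 : 1 + (τ₀ : ℂ) ≠ 0 := by
    intro h
    have h' := congrArg Complex.im h
    simp only [Complex.add_im, Complex.zero_im, Complex.one_im, UpperHalfPlane.coe_im] at h'
    have := τ₀.im_pos
    linarith
  have h1 : (τ : ℂ) * (1 + w) + 1 = 0 := by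
    have h := mul_inv_cancel₀ (neg_ne_zero.mpr hw1)
    rw [← hτ] at h
    linear_combination -h
  have hr : (τ₀ : ℂ) ^ 2 + τ₀ + 1 = 0 := by
    have h := mul_inv_cancel₀ (neg_ne_zero.mpr hτ₀1)
    rw [← hτ₀] at h
    linear_combination -h
  have hd1 := add_one_add_coe_ne_zero w τ₀
  have hd2 := add_one_add_coe_ne_zero τ τ₀
  have e1 : ∀ x : ℂ, x - (-1 - (τ₀ : ℂ)) = x + 1 + τ₀ := fun x => by ring
  simp only [unifFun, e1]
  rw [div_eq_iff hd1, mul_assoc, div_mul_eq_mul_div, ← mul_div_assoc, eq_div_iff hd2]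
  linear_combination (1 - (τ₀ : ℂ)) * h1 + ((w : ℂ) - τ + τ₀ - 1) * hr

theorem isPrimitiveRoot_neg_one_two : IsPrimitiveRoot (-1 : ℂ) 2 := by
  apply IsPrimitiveRoot.mk_of_lt _ (by norm_num) (by norm_num)
  intro l hl0 hl2
  interval_cases l
  norm_num

theorem isPrimitiveRoot_three_of_sq_add (r : ℂ) (hr : r ^ 2 + r + 1 = 0) :
    IsPrimitiveRoot r 3 := by
  apply IsPrimitiveRoot.mk_of_lt _ (by norm_num)
  · linear_combination (r - 1) * hr
  · intro l hl0 hl3
    interval_cases l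
    · intro h
      rw [pow_one] at h
      rw [h] at hr
      norm_num at hr
    · intro h
      have h2 : r = -2 := by linear_combination hr - h
      rw [h2] at h
      norm_num at h

theorem sq_add_of_ST_fix (τ₀ : ℍ) (hfix : (ModularGroup.S * ModularGroup.T) • τ₀ = τ₀) :
    (τ₀ : ℂ) ^ 2 + τ₀ + 1 = 0 := by
  have hτ₀ : (τ₀ : ℂ) = (-(1 + (τ₀ : ℂ)))⁻¹ := by
    conv_lhs => rw [← hfix]
    rw [coe_ST_smul]
  have hτ₀1 : 1 + (τ₀ : ℂ) ≠ 0 := by
    intro h
    have h' := congrArg Complex.im h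
    simp only [Complex.add_im, Complex.zero_im, Complex.one_im, UpperHalfPlane.coe_im] at h'
    have := τ₀.im_pos
    linarith
  have h := mul_inv_cancel₀ (neg_ne_zero.mpr hτ₀1)
  rw [← hτ₀] at h
  linear_combination -h

/-- The stabilizer lemma at a fixed point of `S` (iterate form). -/
theorem hdiv_S (τ₀ : ℍ) (hfix : ModularGroup.S • τ₀ = τ₀) (k : ℕ) (z : Mer) (hz : z ≠ 0)
    (hk : (actMer ModularGroup.S)^[k] z = z) :
    ∃ l : ℤ, ordAt τ₀ z = (((2 / Nat.gcd k 2 : ℕ) * l : ℤ) : WithTop ℤ) := by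
  have hp : (-(τ₀ : ℂ)).im ≤ 0 := by
    rw [Complex.neg_im, UpperHalfPlane.coe_im]
    linarith [τ₀.im_pos]
  refine hdiv_of_rotation (C := ℂ) (ordAt τ₀) (ordAt_const τ₀) (ordAt_residue τ₀)
    ((actMer ModularGroup.S : Mer ≃ₐ[ℂ] Mer) : Mer →+* Mer)
    (fun c => (actMer ModularGroup.S).commutes c)
    (ordAt_actMer_of_fix _ τ₀ hfix) (algebraMap Hol Mer (unifHol τ₀ _ hp)) ?_ (-1) 2
    (by norm_num) isPrimitiveRoot_neg_one_two ?_ k z hz hk
  · rw [ordAt_algebraMap, ordHol_unifHol]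
  · show actMer ModularGroup.S (algebraMap Hol Mer _) = _
    rw [actMer_algebraMap, IsScalarTower.algebraMap_apply ℂ Hol Mer, ← map_mul]
    congr 1
    apply Subtype.ext
    funext τ
    exact unifFun_S τ₀ hfix τ

/-- The stabilizer lemma at a fixed point of `S * T` (iterate form). -/
theorem hdiv_ST (τ₀ : ℍ) (hfix : (ModularGroup.S * ModularGroup.T) • τ₀ = τ₀) (k : ℕ) (z : Mer)
    (hz : z ≠ 0) (hk : (actMer (ModularGroup.S * ModularGroup.T))^[k] z = z) :
    ∃ l : ℤ, ordAt τ₀ z = (((3 / Nat.gcd k 3 : ℕ) * l : ℤ) : WithTop ℤ) := by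
  have hp : (-1 - (τ₀ : ℂ)).im ≤ 0 := by
    rw [Complex.sub_im, Complex.neg_im, Complex.one_im, UpperHalfPlane.coe_im]
    linarith [τ₀.im_pos]
  refine hdiv_of_rotation (C := ℂ) (ordAt τ₀) (ordAt_const τ₀) (ordAt_residue τ₀)
    ((actMer (ModularGroup.S * ModularGroup.T) : Mer ≃ₐ[ℂ] Mer) : Mer →+* Mer)
    (fun c => (actMer (ModularGroup.S * ModularGroup.T)).commutes c)
    (ordAt_actMer_of_fix _ τ₀ hfix) (algebraMap Hol Mer (unifHol τ₀ _ hp)) ?_ (τ₀ : ℂ) 3
    (by norm_num) (isPrimitiveRoot_three_of_sq_add _ (sq_add_of_ST_fix τ₀ hfix)) ?_ k z hz hk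
  · rw [ordAt_algebraMap, ordHol_unifHol]
  · show actMer (ModularGroup.S * ModularGroup.T) (algebraMap Hol Mer _) = _
    rw [actMer_algebraMap, IsScalarTower.algebraMap_apply ℂ Hol Mer, ← map_mul]
    congr 1
    apply Subtype.ext
    funext τ
    exact unifFun_ST τ₀ hfix τ

end stabilizer

end Fermat.Agent.S24.helper481
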