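import Fermat.Agent.S24.helper481_LocalFinite
import Fermat.Agent.S24.helper481_MerBase

/-!
# S24, module M3 (helper481): the abstract Mer-package from a function-level evaluation

`merPackage_of_evalHol : Stmt_EvalHol → Stmt_MerPackage`, where `Stmt_EvalHol` only speaks about
functions `ℍ → ℂ`: a subalgebra `A` of the function field with `Frac A = F_N` and an injective
ring hom `e : A →+* (ℍ → ℂ)` into holomorphic functions, `Γ₀(N)`-invariant, separating cosets,
with `e j = jFun`.
-/

set_option autoImplicit false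

open ModularCurve AlgebraicCurve CongruenceSubgroup UpperHalfPlane ModularForm EisensteinSeries
open scoped MatrixGroups Manifold

namespace Fermat.Agent.S24.helper481

open Fermat.Agent.S24.helper24

theorem discriminant_slash' (γ : SL(2, ℤ)) :
    (ModularForm.discriminant : ℍ → ℂ) ∣[(12 : ℤ)] γ = ModularForm.discriminant :=
  CuspForm.discriminant.slash_action_eq' _ ⟨γ, rfl⟩

theorem E₄_slash' (γ : SL(2, ℤ)) : (E₄ : ℍ → ℂ) ∣[(4 : ℤ)] γ = E₄ :=
  E₄.slash_action_eq' _ ⟨γ, rfl⟩

theorem discriminant_smul' (γ : SL(2, ℤ)) (z : ℍ) :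
    ModularForm.discriminant (γ • z) = denom γ z ^ (12 : ℤ) * ModularForm.discriminant z := by
  have h := congrFun (discriminant_slash' γ) z
  rw [SL_slash_apply] at h
  have hd : denom γ z ≠ 0 := denom_ne_zero γ z
  rw [← h, mul_comm (ModularForm.discriminant (γ • z)), ← mul_assoc, ← zpow_add₀ hd]
  simp

theorem E₄_smul' (γ : SL(2, ℤ)) (z : ℍ) :
    E₄ (γ • z) = denom γ z ^ (4 : ℤ) * E₄ z := by
  have h := congrFun (E₄_slash' γ) z
  rw [SL_slash_apply] at h
  have hd : denom γ z ≠ 0 := denom_ne_zero γ z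
  rw [← h, mul_comm (E₄ (γ • z)), ← mul_assoc, ← zpow_add₀ hd]
  simp

/-- The analytic `j`-function is `SL(2, ℤ)`-invariant. -/
theorem jFun_smul (γ : SL(2, ℤ)) (z : ℍ) : jFun (γ • z) = jFun z := by
  have hd : denom γ z ≠ 0 := denom_ne_zero γ z
  have h12 : (denom γ z ^ (4 : ℤ)) ^ 3 = denom γ z ^ (12 : ℤ) := by
    rw [← zpow_natCast, ← zpow_mul]; norm_num
  rw [jFun, jFun, discriminant_smul', E₄_smul', mul_pow, h12,
    mul_div_mul_left _ _ (zpow_ne_zero 12 hd)]

/-- Function-level evaluation interface at level `N`. -/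
def Stmt_EvalHol : Prop :=
  ∀ (N : ℕ) [NeZero N], ∃ (i0 : Kbar →+* ℂ) (A : Subalgebra Kbar (FN N)) (e : A →+* (ℍ → ℂ)),
    (∀ f : FN N, ∃ a b : A, b ≠ 0 ∧ f * (b : FN N) = a) ∧
    Function.Injective e ∧
    (∀ a : A, MDiff (e a)) ∧
    (∀ c : Kbar, e (algebraMap Kbar A c) = fun _ => i0 c) ∧
    (∃ hj : jBar N ∈ A, e ⟨jBar N, hj⟩ = jFun) ∧
    (∀ γ ∈ Gamma0 N, ∀ (a : A) (τ : ℍ), e a (γ • τ) = e a τ) ∧
    (∃ θ : A, ∀ g : SL(2, ℤ), (∀ τ : ℍ, e θ (g • τ) = e θ τ) → g ∈ Gamma0 N)

theorem algEquiv_pow_apply {K M : Type*} [CommSemiring K] [Semiring M] [Algebra K M]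
    (σ : M ≃ₐ[K] M) (k : ℕ) (z : M) : (σ ^ k) z = σ^[k] z := by
  induction k generalizing z with
  | zero => rfl
  | succ k ih => rw [pow_succ, AlgEquiv.mul_apply, Function.iterate_succ_apply, ih]

theorem isFractionRing_of_frac {K F : Type*} [Field K] [Field F] [Algebra K F]
    (A : Subalgebra K F) (hfrac : ∀ f : F, ∃ a b : A, b ≠ 0 ∧ f * (b : F) = a) :
    IsFractionRing A F := by
  apply IsFractionRing.of_field
  intro z
  obtain ⟨a, b, hb, hab⟩ := hfrac z
  refine ⟨a, b, ?_⟩
  have hb' : (b : F) ≠ 0 := fun h => hb (Subtype.ext h)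
  show z = (a : F) / (b : F)
  rw [eq_div_iff hb', hab]

/-- **M3, part (B)**: the abstract Mer-package from a function-level evaluation. -/
theorem merPackage_of_evalHol (h : Stmt_EvalHol) : Stmt_MerPackage := by
  intro N _
  obtain ⟨i0, A, e, hfrac, hinj, hhol, hconst, ⟨hj, hjv⟩, hinv, θ, hθ⟩ := h N
  have : IsFractionRing A (FN N) := isFractionRing_of_frac A hfrac
  -- the evaluation into `Hol` and `Mer`
  let eH : A →+* Hol := e.codRestrict Hol hhol
  have heH : ∀ a : A, ((eH a : Hol) : ℍ → ℂ) = e a := fun a => rfl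
  have heH_inj : Function.Injective eH := by
    intro a b hab
    apply hinj
    rw [← heH, ← heH, hab]
  let eM : A →+* Mer := (algebraMap Hol Mer).comp eH
  have heM_inj : Function.Injective eM :=
    (IsFractionRing.injective Hol Mer).comp heH_inj
  let evR : FN N →+* Mer := IsFractionRing.lift (A := A) (K := FN N) heM_inj
  have hevR : ∀ a : A, evR (algebraMap A (FN N) a) = algebraMap Hol Mer (eH a) := fun a =>
    IsFractionRing.lift_algebraMap heM_inj a
  -- the `ℚ̄`-structures
  let algK : Algebra Kbar Mer := ((algebraMap ℂ Mer).comp i0).toAlgebra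
  have halg : ∀ c : Kbar, algebraMap Kbar Mer c = algebraMap ℂ Mer (i0 c) := fun c => rfl
  have hconstH : ∀ c : Kbar, eH (algebraMap Kbar A c) = algebraMap ℂ Hol (i0 c) := by
    intro c
    apply Subtype.ext
    rw [heH, hconst]
    rfl
  let ev : FN N →ₐ[Kbar] Mer :=
    { evR with
      commutes' := fun c => by
        have h1 : algebraMap Kbar (FN N) c = algebraMap A (FN N) (algebraMap Kbar A c) := rfl
        show evR (algebraMap Kbar (FN N) c) = algebraMap Kbar Mer c
        rw [h1, hevR, hconstH, halg, ← IsScalarTower.algebraMap_apply ℂ Hol Mer] }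
  have hev : ∀ f : FN N, ev f = evR f := fun f => rfl
  let act : SL(2, ℤ) → (Mer ≃ₐ[Kbar] Mer) := fun g =>
    AlgEquiv.ofRingEquiv (f := (actMer g).toRingEquiv) (fun c => (actMer g).commutes (i0 c))
  have hact : ∀ (g : SL(2, ℤ)) (z : Mer), act g z = actMer g z := fun g z => rfl
  -- the key facts
  have hinvM : ∀ γ ∈ Gamma0 N, ∀ f : FN N, actMer γ (evR f) = evR f := by
    intro γ hγ f
    have key : ((actMer γ : Mer ≃ₐ[ℂ] Mer) : Mer →+* Mer).comp evR = evR := by
      apply IsFractionRing.ringHom_ext (A := A)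
      intro a
      rw [RingHom.comp_apply, hevR]
      show actMer γ (algebraMap Hol Mer (eH a)) = _
      rw [actMer_algebraMap]
      congr 1
      apply Subtype.ext
      funext τ
      rw [pullHol_apply, heH]
      exact hinv γ⁻¹ (inv_mem hγ) a τ
    exact congrArg (fun φ : FN N →+* Mer => φ f) key
  have hsepM : ∀ g : SL(2, ℤ), (∀ f : FN N, actMer g (evR f) = evR f) → g ∈ Gamma0 N := by
    intro g hg
    have h1 := hg (algebraMap A (FN N) θ)
    rw [hevR, actMer_algebraMap] at h1
    have h2 : pullHol g (eH θ) = eH θ := IsFractionRing.injective Hol Mer h1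
    have h3 : g⁻¹ ∈ Gamma0 N := by
      apply hθ
      intro τ
      have := congrFun (congrArg Subtype.val h2) τ
      rw [pullHol_apply, heH] at this
      exact this
    exact inv_mem_iff.mp h3
  have hjM : evR (jBar N) = algebraMap Hol Mer (eH ⟨jBar N, hj⟩) := hevR ⟨jBar N, hj⟩
  have hjH : ((eH ⟨jBar N, hj⟩ : Hol) : ℍ → ℂ) = jFun := by rw [heH, hjv]
  refine ⟨Mer, inferInstance, algK, i0, ordAt, act, ev, ?_, ?_, ?_, ?_, ?_, ?_, ?_, ?_, ?_⟩
  · intro g h z
    rw [hact, hact, hact]
    exact actMer_mul g h z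
  · intro τ a ha
    rw [halg]
    exact ordAt_const τ (i0 a) ((map_ne_zero i0).mpr ha)
  · intro g τ z hfix
    rw [hact]
    exact ordAt_actMer_of_fix g τ hfix z
  · intro γ hγ f
    rw [hact, hev]
    exact hinvM γ hγ f
  · intro g hg
    apply hsepM
    intro f
    have := hg f
    rw [hact, hev] at this
    exact this
  · intro g
    rw [hact, hev, hjM, actMer_algebraMap]
    congr 1
    apply Subtype.ext
    funext τ
    rw [pullHol_apply, hjH]
    exact jFun_smul g⁻¹ τ
  · intro τ c hc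
    rw [hev, hjM, halg, IsScalarTower.algebraMap_apply ℂ Hol Mer, ← map_sub, ordAt_algebraMap,
      ordHol_apply, (hol_analyticAt _ τ).meromorphicOrderAt_eq]
    congr 2
    funext z
    show ((eH ⟨jBar N, hj⟩ : Hol) : ℍ → ℂ) (ofComplex z) - i0 c = jFun (ofComplex z) - jFun τ
    rw [hjH, hc]
  · intro τ hfix k z hz hk
    rw [algEquiv_pow_apply] at hk
    exact hdiv_S τ hfix k z hz hk
  · intro τ hfix k z hz hk
    rw [algEquiv_pow_apply] at hk
    exact hdiv_ST τ hfix k z hz hk

/-- The three finite-point local data from the function-level evaluation. -/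
theorem local_of_evalHol (hEv : Stmt_EvalHol) (hC2 : Stmt_JSurj) (hG : Stmt_JGeneric)
    (hE : Stmt_JElliptic) : Stmt_LocalGeneric ∧ Stmt_Local1728 ∧ Stmt_LocalZero :=
  local_of_package (merPackage_of_evalHol hEv) hC2 hG hE

end Fermat.Agent.S24.helper481
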