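import Fermat.Agent.S24.helper24_Spec

/-!
# Kähler differentials of a function field of one variable (helper486)

`K` a field of characteristic zero, `F / K` a field extension, `x : F` transcendental over `K`
with `F` finite over `K⟮x⟯`.  Then `Ω[F⁄K]` is free of rank one over `F` with basis `D K F x`.

Main results (namespace `Fermat.Agent.S24.helper486`):
* `exists_linearEquiv` : `∃ Φ : Ω[F⁄K] ≃ₗ[F] F, Φ (D K F x) = 1`;
* `span_D_eq_top`, `D_ne_zero`, `eq_smul_D`, `nontrivial_kaehler`, `finrank_kaehler`;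
* `kaehlerSpan : helper24.Stmt_KaehlerSpan` (the captain's spec statement G5).

Route: `K[X] → F`, `X ↦ x`, is formally étale (a localisation followed by a separable algebraic
field extension), so `F ⊗[K[X]] Ω[K[X]⁄K] ≃ Ω[F⁄K]`
(`KaehlerDifferential.tensorKaehlerEquivOfFormallyEtale`) and `Ω[K[X]⁄K] ≃ K[X]`
(`KaehlerDifferential.polynomialEquiv`).
-/

set_option autoImplicit false
set_option linter.style.haveILetI false

namespace Fermat.Agent.S24.helper486

open KaehlerDifferential IntermediateField Polynomial TensorProduct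

section generic

variable {K F : Type*} [Field K] [Field F] [Algebra K F] [CharZero K]

/-- `Ω[F⁄K] ≃ F` sending `dx` to `1`. -/
theorem exists_linearEquiv (x : F) (hx : Transcendental K x) [FiniteDimensional K⟮x⟯ F] :
    ∃ Φ : Ω[F⁄K] ≃ₗ[F] F, Φ (D K F x) = 1 := by
  classical
  -- `F` as a `K[X]`-algebra via `X ↦ x`
  letI algA : Algebra K[X] F := (aeval x : K[X] →ₐ[K] F).toRingHom.toAlgebra
  have hAmap : ∀ p : K[X], algebraMap K[X] F p = aeval x p := fun p => rfl
  haveI : IsScalarTower K K[X] F := IsScalarTower.of_algebraMap_eq (fun c => by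
    rw [hAmap, Polynomial.algebraMap_apply, Algebra.algebraMap_self_apply, aeval_C])
  -- `F` as a `RatFunc K`-algebra
  let e : RatFunc K ≃ₐ[K] K⟮x⟯ := RatFunc.algEquivOfTranscendental x hx
  letI algR : Algebra (RatFunc K) F :=
    ((algebraMap K⟮x⟯ F).comp (e : RatFunc K →+* K⟮x⟯)).toAlgebra
  have hRmap : ∀ r : RatFunc K, algebraMap (RatFunc K) F r = ((e r : K⟮x⟯) : F) := fun r => rfl
  haveI : IsScalarTower K[X] (RatFunc K) F := IsScalarTower.of_algebraMap_eq (fun p => by
    rw [hRmap, hAmap, RatFunc.algEquivOfTranscendental_algebraMap]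
    simp [IntermediateField.AdjoinSimple.coe_aeval_gen_apply])
  haveI : CharZero F := charZero_of_injective_algebraMap (algebraMap K F).injective
  haveI : CharZero (RatFunc K) := charZero_of_injective_algebraMap (algebraMap K (RatFunc K)).injective
  haveI : Algebra.IsAlgebraic (RatFunc K) F := by
    refine ⟨fun y => ?_⟩
    have hy : IsAlgebraic K⟮x⟯ y := Algebra.IsAlgebraic.isAlgebraic y
    exact hy.of_ringHom_of_comp_eq (e : RatFunc K →+* K⟮x⟯) (RingHom.id F)
      e.surjective (fun _ _ h => h) rfl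
  haveI : Algebra.IsSeparable (RatFunc K) F := inferInstance
  haveI : Algebra.FormallyEtale (RatFunc K) F := Algebra.FormallyEtale.of_isSeparable _ _
  haveI : Algebra.FormallyEtale K[X] (RatFunc K) :=
    Algebra.FormallyEtale.of_isLocalization (nonZeroDivisors K[X])
  haveI : Algebra.FormallyEtale K[X] F := Algebra.FormallyEtale.comp K[X] (RatFunc K) F
  let e1 : F ⊗[K[X]] Ω[K[X]⁄K] ≃ₗ[F] Ω[F⁄K] := tensorKaehlerEquivOfFormallyEtale K K[X] F
  let e2 : F ⊗[K[X]] Ω[K[X]⁄K] ≃ₗ[F] F ⊗[K[X]] K[X] :=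
    LinearEquiv.baseChange K[X] F _ _ (polynomialEquiv K)
  let e3 : F ⊗[K[X]] K[X] ≃ₗ[F] F := TensorProduct.AlgebraTensorModule.rid K[X] F F
  refine ⟨e1.symm ≪≫ₗ e2 ≪≫ₗ e3, ?_⟩
  have h1 : e1.symm (D K F x) = (1 : F) ⊗ₜ[K[X]] D K K[X] X := by
    have := tensorKaehlerEquivOfFormallyEtale_symm_D_algebraMap K K[X] F (X : K[X])
    rw [hAmap, aeval_X] at this
    exact this
  simp only [LinearEquiv.trans_apply, h1]
  simp [e2, e3]

/-- Every differential is a multiple of `dx` (with an explicit linear coefficient). -/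
theorem exists_eq_smul_D (x : F) (hx : Transcendental K x) [FiniteDimensional K⟮x⟯ F]
    (ω : Ω[F⁄K]) : ∃ f : F, ω = f • D K F x := by
  obtain ⟨Φ, hΦ⟩ := exists_linearEquiv x hx
  refine ⟨Φ ω, Φ.injective ?_⟩
  rw [map_smul, hΦ, smul_eq_mul, mul_one]

/-- `dx` spans `Ω[F⁄K]`. -/
theorem span_D_eq_top (x : F) (hx : Transcendental K x) [FiniteDimensional K⟮x⟯ F] :
    Submodule.span F {D K F x} = ⊤ := by
  rw [eq_top_iff]
  rintro ω -
  obtain ⟨f, rfl⟩ := exists_eq_smul_D x hx ω
  exact Submodule.smul_mem _ _ (Submodule.subset_span rfl)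

/-- `dx ≠ 0`. -/
theorem D_ne_zero (x : F) (hx : Transcendental K x) [FiniteDimensional K⟮x⟯ F] :
    D K F x ≠ 0 := by
  obtain ⟨Φ, hΦ⟩ := exists_linearEquiv x hx
  intro h
  rw [h, map_zero] at hΦ
  exact zero_ne_one hΦ

/-- The coefficient of a differential with respect to `dx` is unique. -/
theorem smul_D_injective (x : F) (hx : Transcendental K x) [FiniteDimensional K⟮x⟯ F] :
    Function.Injective (fun f : F => f • D K F x) := by
  obtain ⟨Φ, hΦ⟩ := exists_linearEquiv x hx
  intro f g hfg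
  have := congrArg Φ hfg
  simpa [hΦ] using this

theorem existsUnique_eq_smul_D (x : F) (hx : Transcendental K x) [FiniteDimensional K⟮x⟯ F]
    (ω : Ω[F⁄K]) : ∃! f : F, ω = f • D K F x := by
  obtain ⟨f, hf⟩ := exists_eq_smul_D x hx ω
  exact ⟨f, hf, fun g hg => smul_D_injective x hx (hg.symm.trans hf)⟩

theorem smul_D_ne_zero (x : F) (hx : Transcendental K x) [FiniteDimensional K⟮x⟯ F]
    {f : F} (hf : f ≠ 0) : f • D K F x ≠ 0 :=
  smul_ne_zero hf (D_ne_zero x hx)

theorem nontrivial_kaehler (x : F) (hx : Transcendental K x) [FiniteDimensional K⟮x⟯ F] :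
    Nontrivial Ω[F⁄K] :=
  ⟨⟨D K F x, 0, D_ne_zero x hx⟩⟩

theorem finrank_kaehler (x : F) (hx : Transcendental K x) [FiniteDimensional K⟮x⟯ F] :
    Module.finrank F Ω[F⁄K] = 1 := by
  obtain ⟨Φ, -⟩ := exists_linearEquiv x hx
  rw [Φ.finrank_eq, Module.finrank_self]

end generic

/-- The captain's spec statement G5. -/
theorem kaehlerSpan : Fermat.Agent.S24.helper24.Stmt_KaehlerSpan := by
  intro K F _ _ _ _ x hx _
  exact ⟨span_D_eq_top x hx, D_ne_zero x hx⟩


end Fermat.Agent.S24.helper486
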