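import Fermat.Agent.S24.helper489_Residue

/-!
# S24, module G1 (helper489): the fundamental identity `∑ ord_v(y) = [F : K(y)]`
-/

set_option autoImplicit false

open AlgebraicCurve IsDedekindDomain IntermediateField

namespace Fermat.Agent.S24.helper489

section dedekind

variable {K F : Type*} [Field K] [Field F] [Algebra K F]
variable {B : Type*} [CommRing B] [IsDedekindDomain B] [Algebra B F] [IsFractionRing B F]
  [Algebra K B] [IsScalarTower K B F]

theorem mem_ofHeightOneSpectrum_iff (Q : HeightOneSpectrum B) (z : F) :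
    z ∈ (Place.ofHeightOneSpectrum (K := K) (F := F) Q).toValuationSubring ↔
      Q.valuation F z ≤ 1 :=
  Valuation.mem_valuationSubring_iff _ _

/-- Normalisation: the order function of the place attached to a prime `Q` of a Dedekind domain
is the `Q`-adic valuation. -/
theorem ofHeightOneSpectrum_ord (Q : HeightOneSpectrum B) (f : F) :
    (Place.ofHeightOneSpectrum (K := K) (F := F) Q).ord f
      = -(WithZero.log (Q.valuation F f)) := by
  set w := Place.ofHeightOneSpectrum (K := K) (F := F) Q with hw
  have hmem : ∀ z : F, z ∈ w.toValuationSubring ↔ Q.valuation F z ≤ 1 :=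
    fun z => mem_ofHeightOneSpectrum_iff Q z
  obtain ⟨ϖ, hϖ⟩ := IsDiscreteValuationRing.exists_irreducible w.toValuationSubring
  have hϖ0 : (ϖ : F) ≠ 0 := by
    simpa [ne_eq, ZeroMemClass.coe_eq_zero] using hϖ.ne_zero
  have hunit : ∀ u : w.toValuationSubringˣ,
      Q.valuation F ((u : w.toValuationSubring) : F) = 1 := by
    intro u
    have h1 : Q.valuation F ((u : w.toValuationSubring) : F) ≤ 1 :=
      (hmem _).mp (u : w.toValuationSubring).2
    have h2 : Q.valuation F (((u⁻¹ : w.toValuationSubringˣ) : w.toValuationSubring) : F) ≤ 1 :=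
      (hmem _).mp ((u⁻¹ : w.toValuationSubringˣ) : w.toValuationSubring).2
    have h3 : Q.valuation F ((u : w.toValuationSubring) : F) *
        Q.valuation F (((u⁻¹ : w.toValuationSubringˣ) : w.toValuationSubring) : F) = 1 := by
      rw [← map_mul]
      have : ((u : w.toValuationSubring) : F) *
          (((u⁻¹ : w.toValuationSubringˣ) : w.toValuationSubring) : F) = 1 := by
        have h := congrArg (Subtype.val) (Units.mul_inv u)
        exact h
      rw [this, map_one]
    exact eq_one_of_one_le_mul_left h1 h2 h3.ge
  set c : ℤ := -(WithZero.log (Q.valuation F (ϖ : F))) with hc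
  have key : ∀ g : F, g ≠ 0 → -(WithZero.log (Q.valuation F g)) = c * w.ord g := by
    intro g hg
    obtain ⟨u, hu⟩ := w.exists_unit_mul_zpow hg hϖ
    conv_lhs => rw [hu]
    rw [map_mul, hunit u, one_mul, map_zpow₀, WithZero.log_zpow, smul_eq_mul]
    ring
  have hcpos : 0 < c := by
    have h1 : Q.valuation F (ϖ : F) ≤ 1 := (hmem _).mp ϖ.2
    have h2 : Q.valuation F (ϖ : F) ≠ 1 := by
      intro h
      have hinv : (ϖ : F)⁻¹ ∈ w.toValuationSubring :=
        (hmem _).mpr (by rw [map_inv₀, h, inv_one])
      exact hϖ.not_isUnit ⟨⟨ϖ, ⟨_, hinv⟩, Subtype.ext (mul_inv_cancel₀ hϖ0),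
        Subtype.ext (inv_mul_cancel₀ hϖ0)⟩, rfl⟩
    have h3 : Q.valuation F (ϖ : F) < 1 := lt_of_le_of_ne h1 h2
    have hne : Q.valuation F (ϖ : F) ≠ 0 := (Valuation.ne_zero_iff _).mpr hϖ0
    have h4 : WithZero.log (Q.valuation F (ϖ : F)) < WithZero.log (1 : WithZero (Multiplicative ℤ)) :=
      (WithZero.log_lt_log hne one_ne_zero).mpr h3
    rw [WithZero.log_one] at h4
    omega
  obtain ⟨π, hπ⟩ := Q.valuation_exists_uniformizer F
  have hπ0 : π ≠ 0 := (Valuation.ne_zero_iff _).mp (by rw [hπ]; exact WithZero.exp_ne_zero)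
  have h1 := key π hπ0
  rw [hπ, WithZero.log_exp, neg_neg] at h1
  have hc1 : c = 1 := Int.eq_one_of_dvd_one hcpos.le ⟨w.ord π, h1⟩
  rcases eq_or_ne f 0 with rfl | hf
  · simp
  · rw [key f hf, hc1, one_mul]

/-- Distinct primes give distinct places. -/
theorem ofHeightOneSpectrum_injective :
    Function.Injective (Place.ofHeightOneSpectrum (K := K) (F := F) (R := B)) := by
  intro Q Q' h
  apply HeightOneSpectrum.eq_of_valuation_isEquiv_valuation (K := F)
  rw [Valuation.isEquiv_iff_valuationSubring]
  exact congrArg Place.toValuationSubring h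

/-- A place whose valuation ring contains the Dedekind domain `B` (with fraction field `F`)
is the place of a nonzero prime of `B`. -/
theorem exists_ofHeightOneSpectrum_eq (v : Place K F)
    (hB : ∀ b : B, algebraMap B F b ∈ v.toValuationSubring) :
    ∃ Q : HeightOneSpectrum B, Place.ofHeightOneSpectrum (K := K) (F := F) Q = v := by
  let φ : B →+* v.toValuationSubring :=
    (algebraMap B F).codRestrict v.toValuationSubring.toSubring hB
  have hφ : ∀ b : B, ((φ b : v.toValuationSubring) : F) = algebraMap B F b := fun b => rfl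
  let Q0 : Ideal B := (IsLocalRing.maximalIdeal v.toValuationSubring).comap φ
  have hQ0prime : Q0.IsPrime := Ideal.comap_isPrime φ _
  have hunit_of_notMem : ∀ s : B, s ∉ Q0 → ∃ t : v.toValuationSubring,
      algebraMap B F s * (t : F) = 1 := by
    intro s hs
    have hsunit : IsUnit (φ s) := by
      by_contra hnu
      exact hs (show φ s ∈ IsLocalRing.maximalIdeal _ from by
        rwa [IsLocalRing.mem_maximalIdeal, mem_nonunits_iff])
    obtain ⟨t, ht⟩ := hsunit.exists_right_inv
    exact ⟨t, congrArg Subtype.val ht⟩
  have hQ0 : Q0 ≠ ⊥ := by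
    intro hbot
    apply v.ne_top'
    refine SetLike.ext fun f => ⟨fun _ => ValuationSubring.mem_top f, fun _ => ?_⟩
    obtain ⟨b, s, hs, rfl⟩ := IsFractionRing.div_surjective (A := B) f
    have hs0 : s ≠ 0 := nonZeroDivisors.ne_zero hs
    obtain ⟨t, ht⟩ := hunit_of_notMem s (by rw [hbot, Ideal.mem_bot]; exact hs0)
    have hinv : (algebraMap B F s)⁻¹ = (t : F) := inv_eq_of_mul_eq_one_right ht
    rw [div_eq_mul_inv, hinv]
    exact mul_mem (hB b) t.2
  let Q : HeightOneSpectrum B := ⟨Q0, hQ0prime, hQ0⟩
  refine ⟨Q, ?_⟩
  apply Place.ext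
  apply ValuationSubring.eq_of_le_of_ne_top _ ?_ v.ne_top'
  intro f hf
  rw [mem_ofHeightOneSpectrum_iff] at hf
  obtain ⟨n, d, hnd⟩ := Q.exists_primeCompl_mul_eq_of_integer f hf
  obtain ⟨t, ht⟩ := hunit_of_notMem d d.2
  have hf' : f = algebraMap B F n * (t : F) := by
    calc f = f * (algebraMap B F d * t) := by rw [ht, mul_one]
      _ = (f * algebraMap B F d) * t := by ring
      _ = algebraMap B F n * t := by rw [hnd]
  rw [hf']
  exact mul_mem (hB n) t.2

/-- The order of an element of `B` at the place of `Q` is its `Q`-adic multiplicity. -/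
theorem ofHeightOneSpectrum_ord_algebraMap (Q : HeightOneSpectrum B) {b : B} (hb : b ≠ 0) :
    (Place.ofHeightOneSpectrum (K := K) (F := F) Q).ord (algebraMap B F b)
      = (multiplicity Q.asIdeal (Ideal.span {b}) : ℤ) := by
  rw [ofHeightOneSpectrum_ord, HeightOneSpectrum.valuation_of_algebraMap,
    Q.intValuation_eq_exp_neg_multiplicity hb, WithZero.log_exp, neg_neg]

/-- An element of `B` has positive order at the place of `Q` iff it lies in `Q`. -/
theorem ofHeightOneSpectrum_ord_pos_iff (Q : HeightOneSpectrum B) {b : B} (hb : b ≠ 0) :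
    0 < (Place.ofHeightOneSpectrum (K := K) (F := F) Q).ord (algebraMap B F b)
      ↔ b ∈ Q.asIdeal := by
  rw [← Q.valuation_lt_one_iff_mem (K := F), ofHeightOneSpectrum_ord]
  have hne : Q.valuation F (algebraMap B F b) ≠ 0 :=
    (Valuation.ne_zero_iff _).mpr (by
      rwa [ne_eq, map_eq_zero_iff _ (IsFractionRing.injective B F)])
  rw [← WithZero.log_lt_log hne one_ne_zero, WithZero.log_one]
  omega

end dedekind

section abstract

variable {K F : Type*} [Field K] [Field F] [Algebra K F]
variable {A B : Type*} [CommRing A] [IsDedekindDomain A] [CommRing B] [IsDedekindDomain B]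
  [Algebra K A] [Algebra A B] [Algebra K B] [IsScalarTower K A B]
  [Algebra A F] [Algebra B F] [IsScalarTower A B F] [IsScalarTower K B F] [IsFractionRing B F]

set_option linter.deprecated false in
/-- Abstract form of the fundamental identity: `A ⊆ B` Dedekind domains inside `F`, `B` finite
over `A` with fraction field `F`, `L = Frac A`, and `yA : A` generating a maximal ideal. -/
theorem fundId_aux [IsAlgClosed K]
    (L : Type*) [Field L] [Algebra A L] [IsFractionRing A L] [Algebra L F] [IsScalarTower A L F]
    [Module.Finite A B]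
    (halg : ∀ u : F, Transcendental K u → Algebra.IsAlgebraic K⟮u⟯ F)
    (yA : A) (hyA0 : yA ≠ 0) (hPmax : (Ideal.span {yA}).IsMaximal)
    {y : F} (hyAF : algebraMap A F yA = y)
    (hB : ∀ v : Place K F, 0 < v.ord y →
      ∀ b : B, algebraMap B F b ∈ v.toValuationSubring) :
    ∃ s : Finset (Place K F), (∀ v : Place K F, v ∈ s ↔ 0 < v.ord y) ∧
      ∑ v ∈ s, v.ord y = (Module.finrank L F : ℤ) := by
  classical
  subst hyAF
  set P : Ideal A := Ideal.span {yA} with hPdef
  have hP0 : P ≠ ⊥ := by
    rw [ne_eq, Ideal.span_singleton_eq_bot]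
    exact hyA0
  have hsum := Ideal.sum_ramification_inertia B L F (p := P) hP0
  set yB : B := algebraMap A B yA with hyBdef
  have hyBF : algebraMap B F yB = algebraMap A F yA :=
    (IsScalarTower.algebraMap_apply A B F yA).symm
  have hinjAF : Function.Injective (algebraMap A F) := by
    rw [IsScalarTower.algebraMap_eq A L F]
    exact (algebraMap L F).injective.comp (IsFractionRing.injective A L)
  have hy0 : algebraMap A F yA ≠ 0 := by
    rwa [ne_eq, map_eq_zero_iff _ hinjAF]
  have hyB0 : yB ≠ 0 := by
    intro h
    apply hy0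
    rw [← hyBF, h, map_zero]
  have hmap : P.map (algebraMap A B) = Ideal.span {yB} := by
    rw [hPdef, Ideal.map_span, Set.image_singleton]
  have hI0 : (Ideal.span {yB} : Ideal B) ≠ 0 := by
    rw [Ne, Ideal.zero_eq_bot, Ideal.span_singleton_eq_bot]
    exact hyB0
  let T : Finset (HeightOneSpectrum B) := (Ideal.finite_factors hI0).toFinset
  have hT : ∀ Q : HeightOneSpectrum B, Q ∈ T ↔ yB ∈ Q.asIdeal := by
    intro Q
    rw [Set.Finite.mem_toFinset, Set.mem_setOf_eq, Ideal.dvd_span_singleton]
  have hpos : ∀ Q : HeightOneSpectrum B,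
      0 < (Place.ofHeightOneSpectrum (K := K) (F := F) Q).ord (algebraMap A F yA)
        ↔ yB ∈ Q.asIdeal := by
    intro Q
    have h := ofHeightOneSpectrum_ord_pos_iff (K := K) (F := F) Q hyB0
    rw [hyBF] at h
    exact h
  -- ramification index and inertia degree at the primes over `P`
  have he : ∀ Q : HeightOneSpectrum B, yB ∈ Q.asIdeal →
      (Place.ofHeightOneSpectrum (K := K) (F := F) Q).ord (algebraMap A F yA)
        = ((Ideal.ramificationIdx' P Q.asIdeal * Ideal.inertiaDeg' P Q.asIdeal : ℕ) : ℤ) := by
    intro Q hQ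
    have hlies : Q.asIdeal.LiesOver P :=
      ⟨hPmax.eq_of_le (Ideal.comap_ne_top _ Q.isPrime.ne_top) (by
        rw [Ideal.span_singleton_le_iff_mem, Ideal.mem_comap]
        exact hQ)⟩
    have hord := ofHeightOneSpectrum_ord_algebraMap (K := K) (F := F) Q hyB0
    rw [hyBF] at hord
    have hram : Ideal.ramificationIdx' P Q.asIdeal
        = multiplicity Q.asIdeal (Ideal.span {yB}) := by
      rw [Ideal.IsDedekindDomain.ramificationIdx'_eq_multiplicity (by rw [hmap]; exact hI0)
        Q.isPrime, hmap]
    have hin : Ideal.inertiaDeg' P Q.asIdeal = 1 := by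
      rw [Ideal.inertiaDeg'_algebraMap]
      have hsurj : Function.Surjective (algebraMap (A ⧸ P) (B ⧸ Q.asIdeal)) := by
        intro z
        obtain ⟨b, rfl⟩ := Ideal.Quotient.mk_surjective z
        have hbmem : algebraMap B F b ∈
            (Place.ofHeightOneSpectrum (K := K) (F := F) Q).toValuationSubring := by
          rw [mem_ofHeightOneSpectrum_iff]
          exact Q.valuation_le_one b
        obtain ⟨a, ha⟩ := exists_const_sub_ord_pos _ halg (algebraMap B F b) hbmem
        refine ⟨Ideal.Quotient.mk P (algebraMap K A a), ?_⟩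
        rw [Ideal.Quotient.algebraMap_mk_of_liesOver, Ideal.Quotient.eq,
          ← IsScalarTower.algebraMap_apply K A B]
        have hcoe : algebraMap B F (algebraMap K B a) = algebraMap K F a :=
          (IsScalarTower.algebraMap_apply K B F a).symm
        by_cases h0 : b - algebraMap K B a = 0
        · rw [← neg_sub, h0, neg_zero]
          exact zero_mem _
        · have hpos' : 0 < (Place.ofHeightOneSpectrum (K := K) (F := F) Q).ord
              (algebraMap B F (b - algebraMap K B a)) := by
            rw [map_sub, hcoe]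
            rcases ha with ha | ha
            · exfalso
              apply h0
              apply IsFractionRing.injective B F
              rw [map_sub, hcoe, ha, sub_self, map_zero]
            · exact ha
          have hmem := (ofHeightOneSpectrum_ord_pos_iff (K := K) (F := F) Q h0).mp hpos'
          rw [← neg_sub]
          exact neg_mem hmem
      let := Ideal.Quotient.field P
      have hinj : Function.Injective (algebraMap (A ⧸ P) (B ⧸ Q.asIdeal)) :=
        (algebraMap (A ⧸ P) (B ⧸ Q.asIdeal)).injective
      have h1 := (LinearEquiv.ofBijective (Algebra.linearMap (A ⧸ P) (B ⧸ Q.asIdeal))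
        ⟨hinj, hsurj⟩).finrank_eq
      rw [Module.finrank_self] at h1
      exact h1.symm
    rw [hord, hram, hin, mul_one]
  let s : Finset (Place K F) := T.image (Place.ofHeightOneSpectrum (K := K) (F := F))
  refine ⟨s, ?_, ?_⟩
  · intro v
    constructor
    · intro hv
      obtain ⟨Q, hQ, rfl⟩ := Finset.mem_image.mp hv
      exact (hpos Q).mpr ((hT Q).mp hQ)
    · intro hv
      obtain ⟨Q, rfl⟩ := exists_ofHeightOneSpectrum_eq v (hB v hv)
      exact Finset.mem_image.mpr ⟨Q, (hT Q).mpr ((hpos Q).mp hv), rfl⟩
  · rw [Finset.sum_image (fun Q _ Q' _ h => ofHeightOneSpectrum_injective h), ← hsum]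
    push_cast
    refine Finset.sum_bij (fun Q _ => Q.asIdeal) ?_ ?_ ?_ ?_
    · intro Q hQ
      rw [Multiset.mem_toFinset, UniqueFactorizationMonoid.factors_eq_normalizedFactors,
        Ideal.mem_normalizedFactors_iff (by rw [hmap]; exact hI0), hmap,
        Ideal.span_singleton_le_iff_mem]
      exact ⟨Q.isPrime, (hT Q).mp hQ⟩
    · intro Q _ Q' _ h
      exact HeightOneSpectrum.ext h
    · intro J hJ
      rw [Multiset.mem_toFinset, UniqueFactorizationMonoid.factors_eq_normalizedFactors,
        Ideal.mem_normalizedFactors_iff (by rw [hmap]; exact hI0), hmap,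
        Ideal.span_singleton_le_iff_mem] at hJ
      have hJ0 : J ≠ ⊥ := by
        rintro rfl
        exact hyB0 (by simpa using hJ.2)
      exact ⟨⟨J, hJ.1, hJ0⟩, (hT _).mpr hJ.2, rfl⟩
    · intro Q hQ
      have := he Q ((hT Q).mp hQ)
      push_cast at this
      exact this

end abstract

section concrete

variable {K F : Type*} [Field K] [Field F] [Algebra K F]

open scoped IntermediateField.algebraAdjoinAdjoin

/-- **Fundamental identity** for the zeros of a transcendental element `y` of a function field
`F` of one variable over an algebraically closed field `K` of characteristic zero: they are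
finitely many and their orders add up to `[F : K(y)]`. -/
theorem fundId [IsAlgClosed K] [CharZero K] (y : F) (hy : Transcendental K y)
    [FiniteDimensional K⟮y⟯ F] :
    ∃ s : Finset (Place K F), (∀ v : Place K F, v ∈ s ↔ 0 < v.ord y) ∧
      ∑ v ∈ s, v.ord y = (Module.finrank K⟮y⟯ F : ℤ) := by
  have halg : ∀ u : F, Transcendental K u → Algebra.IsAlgebraic K⟮u⟯ F :=
    fun u hu => helper2549.exchange_isAlgebraic y u hu
  have hy0 : y ≠ 0 := by
    rintro rfl
    exact hy isAlgebraic_zero
  let A : Subalgebra K F := Algebra.adjoin K ({y} : Set F)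
  let e : Polynomial K ≃ₐ[K] A := Polynomial.algEquivOfTranscendental K y hy
  have hPID : IsPrincipalIdealRing A :=
    IsPrincipalIdealRing.of_surjective (e : Polynomial K →+* A) e.surjective
  let B : Subalgebra A F := integralClosure A F
  have hsep : Algebra.IsSeparable K⟮y⟯ F := inferInstance
  have hDed : IsDedekindDomain B := integralClosure.isDedekindDomain A K⟮y⟯ F
  have hFrac : IsFractionRing B F := integralClosure.isFractionRing_of_finite_extension K⟮y⟯ F
  have hFin : Module.Finite A B := IsIntegralClosure.finite A K⟮y⟯ F B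
  let yA : A := ⟨y, Algebra.self_mem_adjoin_singleton K y⟩
  have hyA : Irreducible yA := by
    have := (MulEquiv.irreducible_iff e).mpr Polynomial.irreducible_X
    rwa [Polynomial.algEquivOfTranscendental_apply_X] at this
  have hPmax : (Ideal.span {yA}).IsMaximal := PrincipalIdealRing.isMaximal_of_irreducible hyA
  have hB : ∀ v : Place K F, 0 < v.ord y → ∀ b : B, algebraMap B F b ∈ v.toValuationSubring := by
    intro v hv
    have hy_mem : y ∈ v.toValuationSubring := mem_of_ord_nonneg v hy0 hv.le
    have hA : ∀ a : A, algebraMap A F a ∈ v.toValuationSubring := by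
      intro a
      have hle : Algebra.adjoin K ({y} : Set F) ≤
          { v.toValuationSubring.toSubring.toSubsemiring with
            algebraMap_mem' := v.algebraMap_mem' } :=
        Algebra.adjoin_le (by
          intro z hz
          rw [Set.mem_singleton_iff] at hz
          rw [hz]
          exact hy_mem)
      exact hle a.2
    intro b
    have hbint : IsIntegral A (algebraMap B F b) := b.2
    let : Algebra A v.toValuationSubring :=
      ((algebraMap A F).codRestrict v.toValuationSubring.toSubring hA).toAlgebra
    let : IsScalarTower A v.toValuationSubring F :=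
      IsScalarTower.of_algebraMap_eq fun f => rfl
    have hx : IsIntegral v.toValuationSubring (algebraMap B F b) := hbint.tower_top
    obtain ⟨z, hz⟩ := IsIntegrallyClosed.isIntegral_iff.mp hx
    exact hz ▸ z.2
  exact fundId_aux (A := A) (B := B) K⟮y⟯ halg yA hyA.ne_zero hPmax rfl hB

end concrete

open Fermat.Agent.S24.helper24 in
/-- G1 in the captain's shape. -/
theorem stmt_FundId : Stmt_FundId := by
  intro K F _ _ _ _ _ y hy _
  exact fundId y hy

end Fermat.Agent.S24.helper489
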