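import Fermat.Agent.S24.helper4961_HolRing

/-!
# S24, module MOD-H, part 2: the action of `SL(2, ℤ)` on `Hol` and `Mer` (helper4961)

* `(g • f) τ = f (g⁻¹ • τ)` on `Hol`, extended to `Mer = FractionRing Hol`;
* `ordAt τ (g • z) = ordAt (g⁻¹ • τ) z`;
* the stabiliser lemma and its specialisations for `S` and `S * T`.
-/

set_option autoImplicit false

open scoped UpperHalfPlane Manifold MatrixGroups Topology
open UpperHalfPlane Filter

namespace Fermat.Agent.S24.helper4961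

noncomputable section

/-! ## The action on `Hol` -/

theorem mdifferentiable_sl_smul (g : SL(2, ℤ)) :
    MDifferentiable 𝓘(ℂ) 𝓘(ℂ) (fun τ : ℍ => g • τ) :=
  UpperHalfPlane.mdifferentiable_smul (g := (g : GL (Fin 2) ℝ)) (by simp)

/-- The pull-back action of `SL(2, ℤ)` on holomorphic functions: `(g • f) τ = f (g⁻¹ • τ)`. -/
instance : SMul SL(2, ℤ) Hol where
  smul g f := ⟨fun τ => (f : ℍ → ℂ) (g⁻¹ • τ), f.2.comp (mdifferentiable_sl_smul g⁻¹)⟩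

@[simp] theorem hol_smul_apply (g : SL(2, ℤ)) (f : Hol) (τ : ℍ) :
    ((g • f : Hol) : ℍ → ℂ) τ = (f : ℍ → ℂ) (g⁻¹ • τ) := rfl

instance : MulSemiringAction SL(2, ℤ) Hol where
  one_smul f := by
    apply hol_ext; intro τ; simp
  mul_smul g h f := by
    apply hol_ext; intro τ; simp [mul_smul]
  smul_zero g := by
    apply hol_ext; intro τ; simp
  smul_add g f₁ f₂ := by
    apply hol_ext; intro τ; simp
  smul_one g := by
    apply hol_ext; intro τ; simp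
  smul_mul g f₁ f₂ := by
    apply hol_ext; intro τ; simp

instance : SMulCommClass SL(2, ℤ) ℂ Hol where
  smul_comm g c f := by
    apply hol_ext; intro τ; rfl

theorem hol_smul_algebraMap (g : SL(2, ℤ)) (c : ℂ) : g • (algebraMap ℂ Hol c) = algebraMap ℂ Hol c := by
  apply hol_ext; intro τ; rfl

/-! ## The action on `Mer` -/

instance : MulSemiringAction SL(2, ℤ) Mer := IsFractionRing.mulSemiringAction SL(2, ℤ) Hol Mer

theorem mer_smul_algebraMap (g : SL(2, ℤ)) (f : Hol) :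
    g • (algebraMap Hol Mer f) = algebraMap Hol Mer (g • f) :=
  IsFractionRing.ringEquivOfRingEquiv_algebraMap (MulSemiringAction.toRingEquiv SL(2, ℤ) Hol g) f

theorem mer_smul_const (g : SL(2, ℤ)) (c : ℂ) : g • (algebraMap ℂ Mer c) = algebraMap ℂ Mer c := by
  rw [IsScalarTower.algebraMap_apply ℂ Hol Mer, mer_smul_algebraMap, hol_smul_algebraMap]

instance : SMulCommClass SL(2, ℤ) ℂ Mer where
  smul_comm g c z := by
    rw [Algebra.smul_def, Algebra.smul_def, smul_mul', mer_smul_const]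

/-- The action of `g`, as a `ℂ`-algebra automorphism of `Mer`. -/
def sigma (g : SL(2, ℤ)) : Mer ≃ₐ[ℂ] Mer := MulSemiringAction.toAlgEquiv ℂ Mer g

@[simp] theorem sigma_apply (g : SL(2, ℤ)) (z : Mer) : sigma g z = g • z := rfl

theorem sigma_pow_apply (g : SL(2, ℤ)) (k : ℕ) (z : Mer) : (sigma g ^ k) z = g ^ k • z := by
  induction k generalizing z with
  | zero => simp
  | succ k ih =>
    rw [pow_succ, AlgEquiv.mul_apply, ih, sigma_apply, pow_succ, mul_smul]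


/-! ## Equivariance of the order -/

/-- The Möbius transformation attached to `g`, as a function `ℂ → ℂ`. -/
def moeb (g : SL(2, ℤ)) (z : ℂ) : ℂ := ((g • ofComplex z : ℍ) : ℂ)

theorem moeb_coe (g : SL(2, ℤ)) (τ : ℍ) : moeb g (τ : ℂ) = ((g • τ : ℍ) : ℂ) := by
  rw [moeb, ofComplex_apply]

theorem ofComplex_moeb (g : SL(2, ℤ)) (z : ℂ) : ofComplex (moeb g z) = g • ofComplex z := by
  rw [moeb, ofComplex_apply]

theorem det_coe_sl (g : SL(2, ℤ)) :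
    ((g : GL (Fin 2) ℝ) : Matrix (Fin 2) (Fin 2) ℝ).det = 1 :=
  congrArg Units.val (Matrix.SpecialLinearGroup.det_mapGL (S := ℝ) g)

theorem det_coe_sl_pos (g : SL(2, ℤ)) :
    0 < ((g : GL (Fin 2) ℝ) : Matrix (Fin 2) (Fin 2) ℝ).det := by
  rw [det_coe_sl]; exact one_pos

theorem analyticAt_moeb (g : SL(2, ℤ)) (τ : ℍ) : AnalyticAt ℂ (moeb g) (τ : ℂ) :=
  UpperHalfPlane.analyticAt_smul (g := (g : GL (Fin 2) ℝ)) (det_coe_sl_pos g) τ

theorem hasDerivAt_moeb (g : SL(2, ℤ)) (τ : ℍ) :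
    HasDerivAt (moeb g) (1 / denom (g : GL (Fin 2) ℝ) τ ^ 2) (τ : ℂ) := by
  have h := (UpperHalfPlane.hasStrictDerivAt_smul (g := (g : GL (Fin 2) ℝ))
    (det_coe_sl_pos g) τ).hasDerivAt
  rw [det_coe_sl] at h
  have h' : HasDerivAt (fun z : ℂ => ((g • ofComplex z : ℍ) : ℂ))
      (1 / denom (g : GL (Fin 2) ℝ) τ ^ 2) (τ : ℂ) := by
    simpa using h
  exact h'

theorem deriv_moeb_ne_zero (g : SL(2, ℤ)) (τ : ℍ) : deriv (moeb g) (τ : ℂ) ≠ 0 :=
  UpperHalfPlane.deriv_smul_ne_zero (g := (g : GL (Fin 2) ℝ)) (det_coe_sl_pos g) τ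

theorem holOrder_smul (g : SL(2, ℤ)) (τ : ℍ) (f : Hol) :
    holOrder τ (g • f) = holOrder (g⁻¹ • τ) f := by
  unfold holOrder
  have key := analyticOrderAt_comp_of_deriv_ne_zero
    (f := fun z : ℂ => (f : ℍ → ℂ) (ofComplex z)) (analyticAt_moeb g⁻¹ τ) (deriv_moeb_ne_zero g⁻¹ τ)
  have h1 : ((fun z : ℂ => (f : ℍ → ℂ) (ofComplex z)) ∘ (moeb g⁻¹))
      = fun z : ℂ => ((g • f : Hol) : ℍ → ℂ) (ofComplex z) := by
    funext z
    simp [ofComplex_moeb]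
  rw [h1, moeb_coe] at key
  exact key

theorem ordHol_smul (g : SL(2, ℤ)) (τ : ℍ) (f : Hol) :
    ordHol τ (g • f) = ordHol (g⁻¹ • τ) f := by
  rw [ordHol_apply, ordHol_apply, holOrder_smul]

/-- Equivariance of the order of vanishing. -/
theorem ordAt_smul (g : SL(2, ℤ)) (τ : ℍ) (z : Mer) :
    ordAt τ (g • z) = ordAt (g⁻¹ • τ) z := by
  obtain ⟨a, b, -, rfl⟩ := IsFractionRing.div_surjective (A := Hol) z
  rw [smul_div₀', mer_smul_algebraMap, mer_smul_algebraMap, AddValuation.map_div,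
    AddValuation.map_div, ordAt_algebraMap, ordAt_algebraMap, ordAt_algebraMap, ordAt_algebraMap,
    ordHol_smul, ordHol_smul]

/-- If `g` fixes `τ`, the order at `τ` is `g`-invariant. -/
theorem ordAt_smul_of_fixed (g : SL(2, ℤ)) (τ : ℍ) (hg : g • τ = τ) (z : Mer) :
    ordAt τ (g • z) = ordAt τ z := by
  rw [ordAt_smul]
  have : g⁻¹ • τ = τ := by
    conv_lhs => rw [← hg]
    rw [inv_smul_smul]
  rw [this]


/-! ## The stabiliser lemma -/

/-- If `g` fixes `τ0`, then `f (g • z) / f z` tends to `μ ^ ord f` as `z → τ0`, where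
`μ = (c τ0 + d)⁻²` is the derivative of `g` at `τ0`. -/
theorem tendsto_ratio (g : SL(2, ℤ)) (τ0 : ℍ) (hg : g • τ0 = τ0) (f : Hol) (hf : f ≠ 0) :
    Tendsto (fun z : ℂ => (f : ℍ → ℂ) (g • ofComplex z) / (f : ℍ → ℂ) (ofComplex z))
      (𝓝[≠] (τ0 : ℂ))
      (𝓝 ((1 / denom (g : GL (Fin 2) ℝ) τ0 ^ 2) ^ (holOrder τ0 f).toNat)) := by
  set n := (holOrder τ0 f).toNat with hn
  have hord : holOrder τ0 f = (n : ℕ∞) := (ENat.natCast_toNat (holOrder_ne_top τ0 hf)).symm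
  obtain ⟨u, hu, hu0, hfu⟩ := (hol_analyticAt f τ0).analyticOrderAt_eq_natCast.mp hord
  have hG : HasDerivAt (moeb g) (1 / denom (g : GL (Fin 2) ℝ) τ0 ^ 2) (τ0 : ℂ) :=
    hasDerivAt_moeb g τ0
  have hGτ : moeb g (τ0 : ℂ) = τ0 := by rw [moeb_coe, hg]
  have hGc : Tendsto (moeb g) (𝓝 (τ0 : ℂ)) (𝓝 (τ0 : ℂ)) := by
    have := hG.continuousAt.tendsto
    rwa [hGτ] at this
  have hfuG : ∀ᶠ z in 𝓝 (τ0 : ℂ),
      (f : ℍ → ℂ) (g • ofComplex z) = (moeb g z - τ0) ^ n • u (moeb g z) := by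
    filter_upwards [hGc.eventually hfu] with z hz
    rw [← ofComplex_moeb]; exact hz
  have hslope : Tendsto (slope (moeb g) (τ0 : ℂ)) (𝓝[≠] (τ0 : ℂ))
      (𝓝 (1 / denom (g : GL (Fin 2) ℝ) τ0 ^ 2)) :=
    hasDerivAt_iff_tendsto_slope.mp hG
  have hu1 : Tendsto u (𝓝[≠] (τ0 : ℂ)) (𝓝 (u τ0)) :=
    hu.continuousAt.tendsto.mono_left nhdsWithin_le_nhds
  have hu2 : Tendsto (fun z => u (moeb g z)) (𝓝[≠] (τ0 : ℂ)) (𝓝 (u τ0)) :=
    (hu.continuousAt.tendsto.comp hGc).mono_left nhdsWithin_le_nhds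
  have hlim : Tendsto (fun z => (slope (moeb g) (τ0 : ℂ) z) ^ n * (u (moeb g z) / u z))
      (𝓝[≠] (τ0 : ℂ)) (𝓝 ((1 / denom (g : GL (Fin 2) ℝ) τ0 ^ 2) ^ n * (u τ0 / u τ0))) :=
    (hslope.pow n).mul (hu2.div hu1 hu0)
  rw [div_self hu0, mul_one] at hlim
  refine hlim.congr' ?_
  filter_upwards [hfu.filter_mono nhdsWithin_le_nhds, hfuG.filter_mono nhdsWithin_le_nhds]
    with z h1 h2
  rw [h1, h2, slope_def_field, hGτ, smul_eq_mul, smul_eq_mul, div_pow, div_mul_div_comm]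

theorem eventually_ne_zero (τ0 : ℍ) (f : Hol) (hf : f ≠ 0) :
    ∀ᶠ w in 𝓝[≠] (τ0 : ℂ), (f : ℍ → ℂ) (ofComplex w) ≠ 0 := by
  rcases (hol_analyticAt f τ0).eventually_eq_zero_or_eventually_ne_zero with h | h
  · exact absurd (analyticOrderAt_eq_top.mpr h) (holOrder_ne_top τ0 hf)
  · exact h

theorem ordInt_div (τ0 : ℍ) (a b : Hol) (ha : a ≠ 0) (hb : b ≠ 0) :
    ordInt τ0 (algebraMap Hol Mer a / algebraMap Hol Mer b)
      = ((holOrder τ0 a).toNat : ℤ) - ((holOrder τ0 b).toNat : ℤ) := by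
  have hoa : holOrder τ0 a = ((holOrder τ0 a).toNat : ℕ∞) :=
    (ENat.natCast_toNat (holOrder_ne_top τ0 ha)).symm
  have hob : holOrder τ0 b = ((holOrder τ0 b).toNat : ℕ∞) :=
    (ENat.natCast_toNat (holOrder_ne_top τ0 hb)).symm
  rw [ordInt, AddValuation.map_div, ordAt_algebraMap, ordAt_algebraMap, ordHol_apply, ordHol_apply,
    hoa, hob, enatToZ_coe, enatToZ_coe, ← WithTop.LinearOrderedAddCommGroup.coe_sub]
  rw [WithTop.untopD_coe, ENat.toNat_natCast, ENat.toNat_natCast]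

/-- **Stabiliser lemma.** If `g` fixes `τ0` and `z ≠ 0` is `g`-invariant, then
`μ ^ ord_τ0 z = 1`, where `μ = (c τ0 + d)⁻²` is the derivative of `g` at `τ0`. -/
theorem stabiliser_zpow_eq_one (g : SL(2, ℤ)) (τ0 : ℍ) (hg : g • τ0 = τ0) (z : Mer) (hz : z ≠ 0)
    (hgz : g • z = z) :
    (1 / denom (g : GL (Fin 2) ℝ) τ0 ^ 2) ^ (ordInt τ0 z) = 1 := by
  obtain ⟨a, b, hb, rfl⟩ := IsFractionRing.div_surjective (A := Hol) z
  have hb0 : b ≠ 0 := nonZeroDivisors.ne_zero hb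
  have ha0 : a ≠ 0 := by
    rintro rfl
    simp at hz
  have hinv : g⁻¹ • (algebraMap Hol Mer a / algebraMap Hol Mer b)
      = algebraMap Hol Mer a / algebraMap Hol Mer b := by
    conv_lhs => rw [← hgz]
    rw [inv_smul_smul]
  rw [smul_div₀', mer_smul_algebraMap, mer_smul_algebraMap] at hinv
  have hinj := IsFractionRing.injective Hol Mer
  have hb' : algebraMap Hol Mer b ≠ 0 := by
    rw [Ne, map_eq_zero_iff _ hinj]; exact hb0
  have hgb0 : g⁻¹ • b ≠ 0 := by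
    rw [Ne, smul_eq_zero_iff_eq]; exact hb0
  have hgb' : algebraMap Hol Mer (g⁻¹ • b) ≠ 0 := by
    rw [Ne, map_eq_zero_iff _ hinj]; exact hgb0
  rw [div_eq_div_iff hgb' hb', ← map_mul, ← map_mul] at hinv
  have hcross : (g⁻¹ • a) * b = a * (g⁻¹ • b) := hinj hinv
  have hpt : ∀ τ : ℍ, (a : ℍ → ℂ) (g • τ) * (b : ℍ → ℂ) τ
      = (a : ℍ → ℂ) τ * (b : ℍ → ℂ) (g • τ) := by
    intro τ
    have := congrArg (fun f : Hol => (f : ℍ → ℂ) τ) hcross
    simpa using this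
  have hta := tendsto_ratio g τ0 hg a ha0
  have htb := tendsto_ratio g τ0 hg b hb0
  have heq : (fun w : ℂ => (a : ℍ → ℂ) (g • ofComplex w) / (a : ℍ → ℂ) (ofComplex w))
      =ᶠ[𝓝[≠] (τ0 : ℂ)]
      (fun w : ℂ => (b : ℍ → ℂ) (g • ofComplex w) / (b : ℍ → ℂ) (ofComplex w)) := by
    filter_upwards [eventually_ne_zero τ0 a ha0, eventually_ne_zero τ0 b hb0] with w h1 h2
    rw [div_eq_div_iff h1 h2, hpt (ofComplex w), mul_comm]
  have hμ := tendsto_nhds_unique (hta.congr' heq) htb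
  have hμ0 : (1 / denom (g : GL (Fin 2) ℝ) τ0 ^ 2 : ℂ) ≠ 0 :=
    one_div_ne_zero (pow_ne_zero _ (denom_ne_zero _ τ0))
  rw [ordInt_div τ0 a b ha0 hb0, zpow_sub₀ hμ0, zpow_natCast, zpow_natCast, hμ]
  exact div_self (pow_ne_zero _ hμ0)


/-! ## The divisibility property (`hdiv`) -/

theorem coe_mul_sl (g h : SL(2, ℤ)) :
    ((g * h : SL(2, ℤ)) : GL (Fin 2) ℝ) = (g : GL (Fin 2) ℝ) * (h : GL (Fin 2) ℝ) :=
  map_mul (Matrix.SpecialLinearGroup.mapGL ℝ) g h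

/-- `denom` is multiplicative on the stabiliser of a point. -/
theorem denom_mul_of_fixed (g h : SL(2, ℤ)) (τ0 : ℍ) (hh : h • τ0 = τ0) :
    denom ((g * h : SL(2, ℤ)) : GL (Fin 2) ℝ) τ0
      = denom (g : GL (Fin 2) ℝ) τ0 * denom (h : GL (Fin 2) ℝ) τ0 := by
  have h1 : ((h • τ0 : ℍ) : ℂ) = τ0 := by rw [hh]
  have h2 : ((h • τ0 : ℍ) : ℂ)
      = num (h : GL (Fin 2) ℝ) τ0 / denom (h : GL (Fin 2) ℝ) τ0 := by
    rw [ModularGroup.sl_moeb, UpperHalfPlane.coe_smul_of_det_pos (det_coe_sl_pos h)]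
  rw [coe_mul_sl, denom_cocycle _ _ τ0.im_ne_zero, ← h2, h1]

theorem pow_smul_of_fixed (g : SL(2, ℤ)) (τ0 : ℍ) (hg : g • τ0 = τ0) (k : ℕ) :
    g ^ k • τ0 = τ0 := by
  induction k with
  | zero => simp
  | succ k ih => rw [pow_succ, mul_smul, hg, ih]

theorem denom_pow_of_fixed (g : SL(2, ℤ)) (τ0 : ℍ) (hg : g • τ0 = τ0) (k : ℕ) :
    denom ((g ^ k : SL(2, ℤ)) : GL (Fin 2) ℝ) τ0 = denom (g : GL (Fin 2) ℝ) τ0 ^ k := by
  induction k with
  | zero => simp [denom]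
  | succ k ih => rw [pow_succ, denom_mul_of_fixed _ _ τ0 hg, ih, pow_succ]

theorem div_gcd_dvd_of_dvd_mul {m k : ℕ} (hm : 0 < m) {n : ℤ} (h : (m : ℤ) ∣ k * n) :
    ((m / Nat.gcd k m : ℕ) : ℤ) ∣ n := by
  have hd : 0 < Nat.gcd k m := Nat.gcd_pos_of_pos_right k hm
  have hcop : Nat.Coprime (m / Nat.gcd k m) (k / Nat.gcd k m) :=
    (Nat.coprime_div_gcd_div_gcd hd).symm
  have hm' : (m : ℤ) = (Nat.gcd k m : ℤ) * ((m / Nat.gcd k m : ℕ) : ℤ) := by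
    exact_mod_cast (Nat.mul_div_cancel' (Nat.gcd_dvd_right k m)).symm
  have hk' : (k : ℤ) = (Nat.gcd k m : ℤ) * ((k / Nat.gcd k m : ℕ) : ℤ) := by
    exact_mod_cast (Nat.mul_div_cancel' (Nat.gcd_dvd_left k m)).symm
  rw [hm', hk', mul_assoc] at h
  have hd0 : ((Nat.gcd k m : ℕ) : ℤ) ≠ 0 := by exact_mod_cast hd.ne'
  have h2 : ((m / Nat.gcd k m : ℕ) : ℤ) ∣ ((k / Nat.gcd k m : ℕ) : ℤ) * n :=
    (mul_dvd_mul_iff_left hd0).mp h
  exact (Nat.isCoprime_iff_coprime.mpr hcop).dvd_of_dvd_mul_left h2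

/-- **The `hdiv` property in general form**: if `g` fixes `τ0` and its derivative multiplier
`(c τ0 + d)⁻²` is a primitive `m`-th root of unity, then every nonzero `z : Mer` fixed by
`(sigma g)^k` has order at `τ0` divisible by `m / gcd k m`. -/
theorem hdiv_of_isPrimitiveRoot (g : SL(2, ℤ)) (τ0 : ℍ) (hg : g • τ0 = τ0) {m : ℕ} (hm : 0 < m)
    (hμ : IsPrimitiveRoot (1 / denom (g : GL (Fin 2) ℝ) τ0 ^ 2 : ℂ) m)
    (k : ℕ) (z : Mer) (hz : z ≠ 0) (hk : (sigma g ^ k) z = z) :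
    ∃ l : ℤ, ordAt τ0 z = (((m / Nat.gcd k m : ℕ) * l : ℤ) : WithTop ℤ) := by
  rw [sigma_pow_apply] at hk
  have h1 := stabiliser_zpow_eq_one (g ^ k) τ0 (pow_smul_of_fixed g τ0 hg k) z hz hk
  rw [denom_pow_of_fixed g τ0 hg k, ← pow_mul, mul_comm k 2, pow_mul, ← one_div_pow, ← zpow_natCast,
    ← zpow_mul] at h1
  have h2 : (m : ℤ) ∣ (k : ℤ) * ordInt τ0 z := (hμ.zpow_eq_one_iff_dvd _).mp h1
  obtain ⟨l, hl⟩ := div_gcd_dvd_of_dvd_mul hm h2
  exact ⟨l, by rw [ordAt_eq_ordInt τ0 hz, hl]⟩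

/-- The trivial `hdiv` property (`m = 1`). -/
theorem hdiv_one (τ0 : ℍ) (k : ℕ) (z : Mer) (hz : z ≠ 0) :
    ∃ l : ℤ, ordAt τ0 z = (((1 / Nat.gcd k 1 : ℕ) * l : ℤ) : WithTop ℤ) :=
  ⟨ordInt τ0 z, by rw [ordAt_eq_ordInt τ0 hz]; simp⟩

theorem S_fixed_sq (τ0 : ℍ) (h : ModularGroup.S • τ0 = τ0) : (τ0 : ℂ) ^ 2 = -1 := by
  have h1 := congrArg (fun z : ℍ => (z : ℂ)) h
  simp only [UpperHalfPlane.modular_S_smul] at h1
  have h0 : (τ0 : ℂ) ≠ 0 := τ0.ne_zero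
  have h2 : (-(τ0 : ℂ))⁻¹ = τ0 := h1
  field_simp at h2
  linear_combination -h2

theorem denom_S_coe (τ0 : ℍ) : denom ((ModularGroup.S : SL(2, ℤ)) : GL (Fin 2) ℝ) τ0 = τ0 := by
  rw [ModularGroup.denom_apply]
  have h10 : (ModularGroup.S : SL(2, ℤ)) 1 0 = 1 := by rfl
  have h11 : (ModularGroup.S : SL(2, ℤ)) 1 1 = 0 := by rfl
  rw [h10, h11]
  simp

theorem denom_ST_coe (τ0 : ℍ) :
    denom ((ModularGroup.S * ModularGroup.T : SL(2, ℤ)) : GL (Fin 2) ℝ) τ0 = τ0 + 1 := by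
  rw [ModularGroup.denom_apply]
  have h10 : (ModularGroup.S * ModularGroup.T : SL(2, ℤ)) 1 0 = 1 := by rfl
  have h11 : (ModularGroup.S * ModularGroup.T : SL(2, ℤ)) 1 1 = 1 := by rfl
  rw [h10, h11]
  simp

theorem ST_fixed_eq (τ0 : ℍ) (h : (ModularGroup.S * ModularGroup.T) • τ0 = τ0) :
    (τ0 : ℂ) ^ 2 + τ0 + 1 = 0 := by
  have h1 := congrArg (fun z : ℍ => (z : ℂ)) h
  simp only [mul_smul, UpperHalfPlane.modular_S_smul, UpperHalfPlane.modular_T_smul] at h1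
  have h2 : (-(((1 : ℝ) +ᵥ τ0 : ℍ) : ℂ))⁻¹ = τ0 := h1
  rw [UpperHalfPlane.coe_vadd] at h2
  have h2' : (-((1 : ℂ) + (τ0 : ℂ)))⁻¹ = τ0 := by simpa using h2
  have h0 : (-((1 : ℂ) + (τ0 : ℂ))) ≠ 0 := by
    intro h0
    rw [h0, inv_zero] at h2'
    exact τ0.ne_zero h2'.symm
  have h3 := inv_mul_cancel₀ h0
  rw [h2'] at h3
  linear_combination -h3

/-- The `hdiv` property at a fixed point of `S` (e.g. `τ0 = i`), with `m = 2`. -/
theorem hdiv_S (τ0 : ℍ) (h : ModularGroup.S • τ0 = τ0) (k : ℕ) (z : Mer) (hz : z ≠ 0)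
    (hk : (sigma ModularGroup.S ^ k) z = z) :
    ∃ l : ℤ, ordAt τ0 z = (((2 / Nat.gcd k 2 : ℕ) * l : ℤ) : WithTop ℤ) := by
  refine hdiv_of_isPrimitiveRoot ModularGroup.S τ0 h (by norm_num) ?_ k z hz hk
  rw [denom_S_coe, S_fixed_sq τ0 h]
  have : (1 / (-1 : ℂ)) = -1 := by norm_num
  rw [this]
  exact IsPrimitiveRoot.neg_one 0 (by norm_num)

/-- The `hdiv` property at a fixed point of `S * T` (i.e. `τ0 = ρ`), with `m = 3`. -/
theorem hdiv_ST (τ0 : ℍ) (h : (ModularGroup.S * ModularGroup.T) • τ0 = τ0) (k : ℕ) (z : Mer)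
    (hz : z ≠ 0) (hk : (sigma (ModularGroup.S * ModularGroup.T) ^ k) z = z) :
    ∃ l : ℤ, ordAt τ0 z = (((3 / Nat.gcd k 3 : ℕ) * l : ℤ) : WithTop ℤ) := by
  refine hdiv_of_isPrimitiveRoot (ModularGroup.S * ModularGroup.T) τ0 h (by norm_num) ?_ k z hz hk
  have hq := ST_fixed_eq τ0 h
  have h0 : (τ0 : ℂ) ≠ 0 := τ0.ne_zero
  have hsq : ((τ0 : ℂ) + 1) ^ 2 = τ0 := by linear_combination hq
  have hcube : (τ0 : ℂ) ^ 3 = 1 := by linear_combination ((τ0 : ℂ) - 1) * hq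
  have hne1 : (τ0 : ℂ) ≠ 1 := by
    intro h1
    have := congrArg Complex.im h1
    simp at this
    exact τ0.im_ne_zero this
  rw [denom_ST_coe, hsq, one_div]
  rw [IsPrimitiveRoot.iff (by norm_num : 0 < 3)]
  refine ⟨by rw [inv_pow, hcube, inv_one], ?_⟩
  intro l hl0 hl3 hl
  rw [inv_pow, inv_eq_one] at hl
  interval_cases l
  · exact hne1 (by simpa using hl)
  · apply hne1
    have h3 : (τ0 : ℂ) ^ 3 = (τ0 : ℂ) := by
      calc (τ0 : ℂ) ^ 3 = (τ0 : ℂ) ^ 2 * (τ0 : ℂ) := by ring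
        _ = (τ0 : ℂ) := by rw [hl, one_mul]
    rw [← h3, hcube]


/-! ## Packaging over a base field `K` embedded in `ℂ`

`LocalDatum` (see `helper24_Spec`) wants `Algebra K Mer` and `σ : Mer ≃ₐ[K] Mer` for
`K = AlgebraicClosure ℚ`; these are induced by any ring hom `φ : K →+* ℂ`. -/

section BaseField

variable {K : Type*} [Field K] (φ : K →+* ℂ)

/-- The `K`-algebra structure on `Mer` induced by `φ : K →+* ℂ` (constants). -/
@[reducible] def merAlgebra : Algebra K Mer := ((algebraMap ℂ Mer).comp φ).toAlgebra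

theorem merAlgebra_algebraMap (a : K) :
    @algebraMap K Mer _ _ (merAlgebra φ) a = algebraMap ℂ Mer (φ a) := rfl

/-- The valuation `ordAt τ` is trivial on the nonzero constants of `K`. -/
theorem ordAt_merAlgebra (τ : ℍ) (a : K) (ha : a ≠ 0) :
    ordAt τ (@algebraMap K Mer _ _ (merAlgebra φ) a) = 0 := by
  rw [merAlgebra_algebraMap]
  exact ordAt_const τ (by rw [Ne, map_eq_zero]; exact ha)

/-- The action of `g : SL(2, ℤ)`, as a `K`-algebra automorphism of `Mer`. -/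
def sigmaK (g : SL(2, ℤ)) : @AlgEquiv K Mer Mer _ _ _ (merAlgebra φ) (merAlgebra φ) :=
  letI := merAlgebra φ
  AlgEquiv.ofRingEquiv (f := (sigma g).toRingEquiv) (fun a => mer_smul_const g (φ a))

theorem sigmaK_apply (g : SL(2, ℤ)) (z : Mer) : sigmaK φ g z = g • z := rfl

theorem sigmaK_pow_apply (g : SL(2, ℤ)) (k : ℕ) (z : Mer) :
    (letI := merAlgebra φ; (sigmaK φ g ^ k) z) = g ^ k • z := by
  let _ := merAlgebra φ
  induction k generalizing z with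
  | zero => simp
  | succ k ih =>
    rw [pow_succ, AlgEquiv.mul_apply, ih, sigmaK_apply, pow_succ, mul_smul]

theorem sigmaK_one_apply (z : Mer) : sigmaK φ 1 z = z := by
  rw [sigmaK_apply, one_smul]

/-- `w ∘ σ = w` when `g` fixes the point. -/
theorem ordAt_sigmaK (g : SL(2, ℤ)) (τ : ℍ) (hg : g • τ = τ) (z : Mer) :
    ordAt τ (sigmaK φ g z) = ordAt τ z :=
  ordAt_smul_of_fixed g τ hg z

/-- `hdiv` for `m = 1` (any point, `σ = sigmaK φ g` arbitrary). -/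
theorem hdiv_one_K (g : SL(2, ℤ)) (τ0 : ℍ) (k : ℕ) (z : Mer) (hz : z ≠ 0)
    (_hk : (letI := merAlgebra φ; (sigmaK φ g ^ k) z) = z) :
    ∃ l : ℤ, ordAt τ0 z = (((1 / Nat.gcd k 1 : ℕ) * l : ℤ) : WithTop ℤ) :=
  hdiv_one τ0 k z hz

/-- `hdiv` for `m = 2` at a fixed point of `S`, for `σ = sigmaK φ S`. -/
theorem hdiv_S_K (τ0 : ℍ) (h : ModularGroup.S • τ0 = τ0) (k : ℕ) (z : Mer) (hz : z ≠ 0)
    (hk : (letI := merAlgebra φ; (sigmaK φ ModularGroup.S ^ k) z) = z) :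
    ∃ l : ℤ, ordAt τ0 z = (((2 / Nat.gcd k 2 : ℕ) * l : ℤ) : WithTop ℤ) := by
  rw [sigmaK_pow_apply] at hk
  exact hdiv_S τ0 h k z hz (by rw [sigma_pow_apply]; exact hk)

/-- `hdiv` for `m = 3` at a fixed point of `S * T`, for `σ = sigmaK φ (S * T)`. -/
theorem hdiv_ST_K (τ0 : ℍ) (h : (ModularGroup.S * ModularGroup.T) • τ0 = τ0) (k : ℕ) (z : Mer)
    (hz : z ≠ 0)
    (hk : (letI := merAlgebra φ; (sigmaK φ (ModularGroup.S * ModularGroup.T) ^ k) z) = z) :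
    ∃ l : ℤ, ordAt τ0 z = (((3 / Nat.gcd k 3 : ℕ) * l : ℤ) : WithTop ℤ) := by
  rw [sigmaK_pow_apply] at hk
  exact hdiv_ST τ0 h k z hz (by rw [sigma_pow_apply]; exact hk)

end BaseField

/-! ## The fixed points `i` and `ρ` -/

theorem S_smul_I : ModularGroup.S • UpperHalfPlane.I = UpperHalfPlane.I := by
  rw [UpperHalfPlane.modular_S_smul]
  ext
  simp [Complex.inv_I]

/-- The point `ρ = e^{2πi/3} = -1/2 + (√3/2) i` of the upper half plane. -/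
def rho : ℍ := ⟨⟨-1 / 2, Real.sqrt 3 / 2⟩, by
  show 0 < Real.sqrt 3 / 2
  positivity⟩

theorem rho_coe : (rho : ℂ) = ⟨-1 / 2, Real.sqrt 3 / 2⟩ := rfl

theorem rho_sq_add : (rho : ℂ) ^ 2 + rho + 1 = 0 := by
  have h3 : Real.sqrt 3 * Real.sqrt 3 = 3 := Real.mul_self_sqrt (by norm_num)
  rw [rho_coe]
  apply Complex.ext
  · simp [pow_two]
    nlinarith [h3]
  · simp [pow_two]
    ring

theorem ST_smul_rho : (ModularGroup.S * ModularGroup.T) • rho = rho := by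
  rw [mul_smul, UpperHalfPlane.modular_T_smul, UpperHalfPlane.modular_S_smul]
  apply UpperHalfPlane.ext
  show (-(((1 : ℝ) +ᵥ rho : ℍ) : ℂ))⁻¹ = (rho : ℂ)
  rw [UpperHalfPlane.coe_vadd]
  have hq := rho_sq_add
  apply inv_eq_of_mul_eq_one_right
  push_cast
  linear_combination -hq

end

end Fermat.Agent.S24.helper4961
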