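import Mathlib

/-!
# S24, module MOD-H: the analytic base ring (helper4961)

* `Hol`   : the `ℂ`-algebra of holomorphic functions on the upper half plane (a domain);
* `Mer`   : its field of fractions;
* `ordAt τ` : the order of vanishing at `τ`, as an `AddValuation Mer (WithTop ℤ)`;
* the action of `SL(2, ℤ)` on `Hol` and `Mer` by `(g • f) τ = f (g⁻¹ • τ)`;
* the stabiliser lemma: an invariant element has order divisible by the order of the
  derivative multiplier (used at `i` with `S` and at `ρ` with `S * T`).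
-/

set_option autoImplicit false

open scoped UpperHalfPlane Manifold MatrixGroups Topology
open UpperHalfPlane

namespace Fermat.Agent.S24.helper4961

noncomputable section

/-! ## The ring of holomorphic functions -/

/-- The `ℂ`-algebra of holomorphic functions on the upper half plane. -/
def Hol : Subalgebra ℂ (ℍ → ℂ) where
  carrier := {f | MDifferentiable 𝓘(ℂ) 𝓘(ℂ) f}
  mul_mem' := fun hf hg => MDifferentiable.mul hf hg
  add_mem' := fun hf hg => MDifferentiable.add hf hg
  algebraMap_mem' := fun _ => mdifferentiable_const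

theorem mem_Hol {f : ℍ → ℂ} : f ∈ Hol ↔ MDifferentiable 𝓘(ℂ) 𝓘(ℂ) f := Iff.rfl

theorem hol_mdifferentiable (f : Hol) : MDifferentiable 𝓘(ℂ) 𝓘(ℂ) (f : ℍ → ℂ) := f.2

/-- Build an element of `Hol` from a holomorphic function. -/
def holMk (f : ℍ → ℂ) (hf : MDifferentiable 𝓘(ℂ) 𝓘(ℂ) f) : Hol := ⟨f, hf⟩

@[simp] theorem holMk_coe (f : ℍ → ℂ) (hf : MDifferentiable 𝓘(ℂ) 𝓘(ℂ) f) :
    ((holMk f hf : Hol) : ℍ → ℂ) = f := rfl

@[simp] theorem hol_coe_mul (f g : Hol) : ((f * g : Hol) : ℍ → ℂ) = (f : ℍ → ℂ) * (g : ℍ → ℂ) := rfl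
@[simp] theorem hol_coe_add (f g : Hol) : ((f + g : Hol) : ℍ → ℂ) = (f : ℍ → ℂ) + (g : ℍ → ℂ) := rfl
@[simp] theorem hol_coe_sub (f g : Hol) : ((f - g : Hol) : ℍ → ℂ) = (f : ℍ → ℂ) - (g : ℍ → ℂ) := rfl
@[simp] theorem hol_coe_neg (f : Hol) : ((-f : Hol) : ℍ → ℂ) = -(f : ℍ → ℂ) := rfl
@[simp] theorem hol_coe_zero : ((0 : Hol) : ℍ → ℂ) = 0 := rfl
@[simp] theorem hol_coe_one : ((1 : Hol) : ℍ → ℂ) = 1 := rfl
@[simp] theorem hol_coe_algebraMap (c : ℂ) (τ : ℍ) : ((algebraMap ℂ Hol c : Hol) : ℍ → ℂ) τ = c := rfl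
@[simp] theorem hol_coe_pow (f : Hol) (n : ℕ) : ((f ^ n : Hol) : ℍ → ℂ) = (f : ℍ → ℂ) ^ n := rfl

theorem hol_ext {f g : Hol} (h : ∀ τ, (f : ℍ → ℂ) τ = (g : ℍ → ℂ) τ) : f = g :=
  Subtype.ext (funext h)

/-- The restriction to the upper half plane of `f ∘ ofComplex` is analytic. -/
theorem hol_analyticAt (f : Hol) (τ : ℍ) :
    AnalyticAt ℂ (fun z : ℂ => (f : ℍ → ℂ) (ofComplex z)) (τ : ℂ) := by
  have h := UpperHalfPlane.mdifferentiable_iff.mp f.2
  exact (h.analyticOnNhd isOpen_upperHalfPlaneSet) τ τ.im_pos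

instance : Nontrivial Hol := ⟨⟨0, 1, fun h => by
  have := congrArg (fun f : Hol => (f : ℍ → ℂ) UpperHalfPlane.I) h
  simp at this⟩⟩

instance : NoZeroDivisors Hol where
  eq_zero_or_eq_zero_of_mul_eq_zero := by
    intro f g h
    have h' : (f : ℍ → ℂ) * (g : ℍ → ℂ) = 0 := congrArg Subtype.val h
    rcases (UpperHalfPlane.mul_eq_zero_iff f.2 g.2).mp h' with h0 | h0
    · exact Or.inl (Subtype.ext h0)
    · exact Or.inr (Subtype.ext h0)

instance : IsDomain Hol := NoZeroDivisors.to_isDomain _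

/-- The field of "meromorphic functions": fractions of holomorphic functions on `ℍ`. -/
abbrev Mer : Type := FractionRing Hol

example : Field Mer := inferInstance
example : Algebra ℂ Mer := inferInstance
example : IsScalarTower ℂ Hol Mer := inferInstance
example : IsFractionRing Hol Mer := inferInstance


/-! ## Order of vanishing -/

/-- Order of vanishing of a holomorphic function at `τ`, in `ℕ∞`. -/
def holOrder (τ : ℍ) (f : Hol) : ℕ∞ :=
  analyticOrderAt (fun z : ℂ => (f : ℍ → ℂ) (ofComplex z)) (τ : ℂ)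

theorem holOrder_eq_top_iff (τ : ℍ) (f : Hol) : holOrder τ f = ⊤ ↔ f = 0 := by
  constructor
  · intro h
    rw [holOrder, analyticOrderAt_eq_top] at h
    have h2 : ∀ᶠ w in 𝓝 τ, (f : ℍ → ℂ) w = 0 := by
      rw [← isOpenEmbedding_coe.map_nhds_eq, Filter.eventually_map] at h
      filter_upwards [h] with w hw
      simpa [ofComplex_apply] using hw
    have h3 : ∃ᶠ w in 𝓝[≠] τ, (f : ℍ → ℂ) w = 0 :=
      (h2.filter_mono nhdsWithin_le_nhds).frequently
    exact Subtype.ext (UpperHalfPlane.eq_zero_of_frequently f.2 h3)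
  · rintro rfl
    simp [holOrder, analyticOrderAt_eq_top]

theorem holOrder_ne_top (τ : ℍ) {f : Hol} (hf : f ≠ 0) : holOrder τ f ≠ ⊤ :=
  fun h => hf ((holOrder_eq_top_iff τ f).mp h)

theorem holOrder_mul (τ : ℍ) (f g : Hol) : holOrder τ (f * g) = holOrder τ f + holOrder τ g :=
  analyticOrderAt_mul (hol_analyticAt f τ) (hol_analyticAt g τ)

theorem holOrder_add (τ : ℍ) (f g : Hol) : min (holOrder τ f) (holOrder τ g) ≤ holOrder τ (f + g) :=
  le_analyticOrderAt_add

theorem holOrder_one (τ : ℍ) : holOrder τ (1 : Hol) = 0 :=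
  analyticOrderAt_eq_zero.mpr (Or.inr (by simp))

theorem holOrder_eq_zero_iff (τ : ℍ) (f : Hol) : holOrder τ f = 0 ↔ (f : ℍ → ℂ) τ ≠ 0 := by
  rw [holOrder, (hol_analyticAt f τ).analyticOrderAt_eq_zero, ofComplex_apply]

theorem holOrder_algebraMap (τ : ℍ) {c : ℂ} (hc : c ≠ 0) : holOrder τ (algebraMap ℂ Hol c) = 0 :=
  (holOrder_eq_zero_iff τ _).mpr (by simpa using hc)

/-- The embedding `ℕ∞ → WithTop ℤ`. -/
def enatToZ (n : ℕ∞) : WithTop ℤ := WithTop.map (fun k : ℕ => (k : ℤ)) n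

@[simp] theorem enatToZ_top : enatToZ ⊤ = ⊤ := rfl
@[simp] theorem enatToZ_coe (n : ℕ) : enatToZ (n : ℕ∞) = ((n : ℤ) : WithTop ℤ) := rfl
@[simp] theorem enatToZ_zero : enatToZ 0 = 0 := rfl

theorem enatToZ_add (a b : ℕ∞) : enatToZ (a + b) = enatToZ a + enatToZ b := by
  induction a using ENat.recTopCoe with
  | top => simp
  | coe a =>
    induction b using ENat.recTopCoe with
    | top => simp
    | coe b =>
      rw [← ENat.natCast_add, enatToZ_coe, enatToZ_coe, enatToZ_coe, ← WithTop.coe_add]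
      push_cast
      rfl

theorem enatToZ_mono : Monotone enatToZ := by
  intro a b h
  induction b using ENat.recTopCoe with
  | top => simp
  | coe b =>
    induction a using ENat.recTopCoe with
    | top => simp at h
    | coe a =>
      rw [enatToZ_coe, enatToZ_coe, WithTop.coe_le_coe]
      exact_mod_cast h

theorem enatToZ_eq_top_iff (a : ℕ∞) : enatToZ a = ⊤ ↔ a = ⊤ := by
  induction a using ENat.recTopCoe with
  | top => simp
  | coe a => simp

/-- The order of vanishing at `τ` as an additive valuation on `Hol`. -/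
def ordHol (τ : ℍ) : AddValuation Hol (WithTop ℤ) :=
  AddValuation.of (fun f => enatToZ (holOrder τ f))
    (by simp [(holOrder_eq_top_iff τ 0).mpr rfl])
    (by simp [holOrder_one])
    (fun f g => by
      rw [← enatToZ_mono.map_min]
      exact enatToZ_mono (holOrder_add τ f g))
    (fun f g => by rw [holOrder_mul, enatToZ_add])

theorem ordHol_apply (τ : ℍ) (f : Hol) : ordHol τ f = enatToZ (holOrder τ f) := rfl

theorem ordHol_eq_top_iff (τ : ℍ) (f : Hol) : ordHol τ f = ⊤ ↔ f = 0 := by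
  rw [ordHol_apply, enatToZ_eq_top_iff, holOrder_eq_top_iff]

theorem nonZeroDivisors_le_supp (τ : ℍ) :
    nonZeroDivisors Hol ≤ (Valuation.supp (AddValuation.toValuation (ordHol τ))).primeCompl := by
  intro f hf
  have hf0 : f ≠ 0 := nonZeroDivisors.ne_zero hf
  show f ∉ AddValuation.supp (ordHol τ)
  rw [AddValuation.mem_supp_iff, ordHol_eq_top_iff]
  exact hf0

/-- The order of vanishing at `τ` as an additive valuation on `Mer`. -/
def ordAt (τ : ℍ) : AddValuation Mer (WithTop ℤ) :=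
  AddValuation.ofValuation
    (Valuation.extendToLocalization (AddValuation.toValuation (ordHol τ))
      (nonZeroDivisors_le_supp τ) Mer)

theorem ordAt_algebraMap (τ : ℍ) (f : Hol) : ordAt τ (algebraMap Hol Mer f) = ordHol τ f :=
  Valuation.extendToLocalization_apply_map_apply (AddValuation.toValuation (ordHol τ))
    (nonZeroDivisors_le_supp τ) Mer f

/-- The order on `Mer` of (the image of) a holomorphic function is its analytic order. -/
theorem ordAt_algebraMap_of_analyticOrderAt (τ : ℍ) (f : Hol) {n : ℕ}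
    (h : analyticOrderAt (fun z : ℂ => (f : ℍ → ℂ) (ofComplex z)) (τ : ℂ) = n) :
    ordAt τ (algebraMap Hol Mer f) = ((n : ℤ) : WithTop ℤ) := by
  rw [ordAt_algebraMap, ordHol_apply, holOrder, h, enatToZ_coe]

theorem ordAt_algebraMap_nonneg (τ : ℍ) (f : Hol) : 0 ≤ ordAt τ (algebraMap Hol Mer f) := by
  rw [ordAt_algebraMap, ordHol_apply]
  have h0 : (0 : ℕ∞) ≤ holOrder τ f := bot_le
  have := enatToZ_mono h0
  simpa using this

theorem ordAt_algebraMap_eq_zero_iff (τ : ℍ) (f : Hol) :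
    ordAt τ (algebraMap Hol Mer f) = 0 ↔ (f : ℍ → ℂ) τ ≠ 0 := by
  rw [ordAt_algebraMap, ordHol_apply, ← holOrder_eq_zero_iff]
  induction holOrder τ f using ENat.recTopCoe with
  | top => simp
  | coe a =>
    rw [enatToZ_coe]
    constructor
    · intro h
      have : (a : ℤ) = 0 := by exact_mod_cast h
      exact_mod_cast this
    · intro h
      have : a = 0 := by exact_mod_cast h
      subst this
      rfl

/-- The valuation is trivial on nonzero constants. -/
theorem ordAt_const (τ : ℍ) {c : ℂ} (hc : c ≠ 0) : ordAt τ (algebraMap ℂ Mer c) = 0 := by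
  rw [IsScalarTower.algebraMap_apply ℂ Hol Mer, ordAt_algebraMap, ordHol_apply,
    holOrder_algebraMap τ hc]
  rfl

theorem ordAt_eq_top_iff (τ : ℍ) (z : Mer) : ordAt τ z = ⊤ ↔ z = 0 :=
  AddValuation.top_iff (ordAt τ)

theorem ordAt_ne_top (τ : ℍ) {z : Mer} (hz : z ≠ 0) : ordAt τ z ≠ ⊤ :=
  fun h => hz ((ordAt_eq_top_iff τ z).mp h)

/-- The integer order of a nonzero element of `Mer` (junk value `0` at `0`). -/
def ordInt (τ : ℍ) (z : Mer) : ℤ := (ordAt τ z).untopD 0

theorem ordAt_eq_ordInt (τ : ℍ) {z : Mer} (hz : z ≠ 0) : ordAt τ z = ((ordInt τ z : ℤ) : WithTop ℤ) := by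
  obtain ⟨n, hn⟩ := WithTop.ne_top_iff_exists.mp (ordAt_ne_top τ hz)
  rw [ordInt, ← hn]
  rfl

end

end Fermat.Agent.S24.helper4961
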