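import Mathlib
import Fermat.Prelude.Def_ModularCurve_X0
import Fermat.Prelude.Def_ModularCurve_LaurentCoeff

/-!
# S24 module M1c + E5 + M4a (helper504): Hermite forms and conjugates of a modular function

`J : ℍ → ℂ` is an abstract `SL(2,ℤ)`-invariant function with a `q`-expansion (hypotheses), so this
file depends on Mathlib and the Prelude definition of `qExpand` only.

* `hermite_exists`: `diag(d,1) * g = γ * [a, b; 0, d']` with `γ ∈ SL(2,ℤ)`, `a d' = d`, `b < d'`.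
* `hermite_smul`, `hermite_invariant`: hence `J (d (g τ)) = J ((a τ + b) / d')`.
* `HasQExpZ`, `twist`, `HasQExpZ.hermite`: explicit expansion of `τ ↦ J((aτ+b)/d')` in
  `t = exp(2πiτ/N)`.
* `HasQExpZ.norm_mul_exp_sub_le`: `J q - E₋₁ = O(q)`; `HasQExpZ.tendsto_mul_exp`,
  `HasQExpZ.norm_le_exp`, `HasQExpZ.norm_hpt_le_exp` (growth of all conjugates).
* `hermite_data_unique`: distinct Hermite data give distinct conjugate functions.
* `mem_Gamma0_of_forall_eq` (E5) and its coset forms; `J_hpt_smul_of_mem_Gamma0` (converse).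
* `J_hpt_T_smul`, `HasQExpZ.comp_T`: effect of `τ ↦ τ + 1`.
* `hermiteExp_coeff_neg`, `hermiteExp_coeff_of_lt`, `coeffMap_twist`.
-/

set_option autoImplicit false

namespace Fermat.Agent.S24.helper504

open Matrix MatrixGroups UpperHalfPlane
open scoped Real

/-- Hermite normal form of `diag(d,1) * g` for `g ∈ SL(2,ℤ)`. -/
theorem hermite_exists (d : ℕ) (hd : 0 < d) (g : SL(2, ℤ)) :
    ∃ (γ : SL(2, ℤ)) (a b d' : ℕ), a * d' = d ∧ b < d' ∧
      (!![(d : ℤ), 0; 0, 1] * (g : Matrix (Fin 2) (Fin 2) ℤ))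
        = (γ : Matrix (Fin 2) (Fin 2) ℤ) * !![(a : ℤ), (b : ℤ); 0, (d' : ℤ)] := by
  -- entries of g
  obtain ⟨p, q, r, s, hg⟩ : ∃ p q r s : ℤ, (g : Matrix (Fin 2) (Fin 2) ℤ) = !![p, q; r, s] :=
    ⟨g 0 0, g 0 1, g 1 0, g 1 1, by ext i j; fin_cases i <;> fin_cases j <;> rfl⟩
  have hdet : p * s - q * r = 1 := by
    have h := g.det_coe
    rw [hg, Matrix.det_fin_two_of] at h
    linarith
  -- a = gcd(d, r)
  set a : ℕ := Nat.gcd d r.natAbs with ha
  have ha_pos : 0 < a := Nat.gcd_pos_of_pos_left _ hd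
  have had : a ∣ d := Nat.gcd_dvd_left _ _
  have har : (a : ℤ) ∣ r := by
    have : a ∣ r.natAbs := Nat.gcd_dvd_right _ _
    exact Int.natCast_dvd.mpr this
  obtain ⟨d', hd'⟩ := had
  obtain ⟨r', hr'⟩ := har
  have hd'_pos : 0 < d' := by
    rcases Nat.eq_zero_or_pos d' with h | h
    · subst h; simp at hd'; omega
    · exact h
  -- coprimality of d' and r'
  have hcop1 : IsCoprime (d' : ℤ) r' := by
    have h1 : Nat.gcd d' r'.natAbs = 1 := by
      have h2 : Nat.gcd (a * d') (a * r'.natAbs) = a := by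
        have : r.natAbs = a * r'.natAbs := by rw [hr', Int.natAbs_mul, Int.natAbs_natCast]
        rw [← this, ← hd']
      rw [Nat.gcd_mul_left] at h2
      exact Nat.eq_of_mul_eq_mul_left ha_pos (by rw [h2, mul_one])
    rw [Int.isCoprime_iff_gcd_eq_one]
    simpa [Int.gcd] using h1
  have hcop2 : IsCoprime p r' := by
    have : IsCoprime p r := ⟨s, -q, by linarith⟩
    rw [hr'] at this
    exact this.of_mul_right_right
  have hcop : IsCoprime ((d' : ℤ) * p) r' := hcop1.mul_left hcop2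
  obtain ⟨u, v, huv⟩ := hcop
  -- preliminary b₀, then reduce mod d'
  set b₀ : ℤ := u * d * q + v * s with hb₀
  set k : ℤ := b₀ / d' with hk
  have hd'z : (0 : ℤ) < d' := by exact_mod_cast hd'_pos
  have hbmod : 0 ≤ b₀ % d' ∧ b₀ % d' < d' :=
    ⟨Int.emod_nonneg _ hd'z.ne', Int.emod_lt_of_pos _ hd'z⟩
  obtain ⟨b, hb⟩ : ∃ b : ℕ, (b : ℤ) = b₀ % d' := ⟨(b₀ % d').toNat, Int.toNat_of_nonneg hbmod.1⟩
  have hbk : (b : ℤ) = b₀ - k * d' := by
    rw [hb, hk, Int.emod_def]; ring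
  have hdz : (d : ℤ) = a * d' := by exact_mod_cast hd'
  -- the matrix γ
  let γm : Matrix (Fin 2) (Fin 2) ℤ := !![(d' : ℤ) * p, -v + k * ((d' : ℤ) * p); r', u + k * r']
  have hγdet : γm.det = 1 := by
    rw [Matrix.det_fin_two_of]
    linear_combination huv
  refine ⟨⟨γm, hγdet⟩, a, b, d', hd'.symm, ?_, ?_⟩
  · have := hbmod.2
    rw [← hb] at this
    exact_mod_cast this
  · rw [hg]
    have hdet' : p * s - q * (a * r') = 1 := by rw [← hr']; exact hdet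
    show _ = γm * _
    simp only [γm, Matrix.mul_fin_two]
    ext i j
    fin_cases i <;> fin_cases j <;> simp
    · rw [hdz]; ring
    · rw [hbk, hb₀, hdz]
      linear_combination (-(a : ℤ) * d' * q) * huv + (-v * d') * hdet'
    · rw [hr']; ring
    · rw [hbk, hb₀, hdz]
      linear_combination (-s) * huv + (u * d') * hdet'

theorem int_linear_ne_zero (c e : ℤ) (h : c ≠ 0 ∨ e ≠ 0) (τ : ℍ) :
    (c : ℂ) * (τ : ℂ) + (e : ℂ) ≠ 0 := by
  intro h0
  have him := congrArg Complex.im h0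
  have hre := congrArg Complex.re h0
  simp at him hre
  rcases him with hc | hτ
  · subst hc
    simp at hre
    rcases h with h | h
    · exact h rfl
    · exact h hre
  · exact τ.im_ne_zero hτ

theorem sl_bottom_ne_zero (g : SL(2, ℤ)) : g 1 0 ≠ 0 ∨ g 1 1 ≠ 0 := by
  by_contra h
  simp only [not_or, not_not] at h
  have hdet := g.det_coe
  rw [Matrix.det_fin_two] at hdet
  rw [h.1, h.2] at hdet
  simp at hdet

theorem hermite_smul {d a b d' : ℕ} (hd' : 0 < d') {g γ : SL(2, ℤ)}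
    (hM : (!![(d : ℤ), 0; 0, 1] * (g : Matrix (Fin 2) (Fin 2) ℤ))
        = (γ : Matrix (Fin 2) (Fin 2) ℤ) * !![(a : ℤ), (b : ℤ); 0, (d' : ℤ)])
    (τ z z' : ℍ) (hz : (z : ℂ) = d * ((g • τ : ℍ) : ℂ))
    (hz' : (z' : ℂ) = (a * (τ : ℂ) + b) / d') : z = γ • z' := by
  apply UpperHalfPlane.ext
  have hg := int_linear_ne_zero _ _ (sl_bottom_ne_zero g) τ
  have hγ := int_linear_ne_zero _ _ (sl_bottom_ne_zero γ) z'
  rw [hz, coe_specialLinearGroup_apply, coe_specialLinearGroup_apply]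
  simp only [eq_intCast, Complex.ofReal_intCast]
  have h00 := congrFun (congrFun hM 0) 0
  have h01 := congrFun (congrFun hM 0) 1
  have h10 := congrFun (congrFun hM 1) 0
  have h11 := congrFun (congrFun hM 1) 1
  simp [Matrix.mul_apply, Fin.sum_univ_two] at h00 h01 h10 h11
  have h00' : (d : ℂ) * (g 0 0 : ℤ) = (γ 0 0 : ℤ) * a := by exact_mod_cast h00
  have h01' : (d : ℂ) * (g 0 1 : ℤ) = (γ 0 0 : ℤ) * b + (γ 0 1 : ℤ) * d' := by exact_mod_cast h01
  have h10' : ((g 1 0 : ℤ) : ℂ) = (γ 1 0 : ℤ) * a := by exact_mod_cast h10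
  have h11' : ((g 1 1 : ℤ) : ℂ) = (γ 1 0 : ℤ) * b + (γ 1 1 : ℤ) * d' := by exact_mod_cast h11
  have hd'c : (d' : ℂ) ≠ 0 := by exact_mod_cast hd'.ne'
  rw [mul_div_assoc', div_eq_div_iff hg hγ]
  rw [hz'] at hγ ⊢
  have e1 : (d : ℂ) * (((g 0 0 : ℤ) : ℂ) * τ + ((g 0 1 : ℤ) : ℂ))
      = (((γ 0 0 : ℤ) : ℂ) * ((a * (τ : ℂ) + b) / d') + ((γ 0 1 : ℤ) : ℂ)) * d' := by
    field_simp
    linear_combination (τ : ℂ) * h00' + h01'
  have e2 : (((g 1 0 : ℤ) : ℂ) * τ + ((g 1 1 : ℤ) : ℂ))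
      = (((γ 1 0 : ℤ) : ℂ) * ((a * (τ : ℂ) + b) / d') + ((γ 1 1 : ℤ) : ℂ)) * d' := by
    field_simp
    linear_combination (τ : ℂ) * h10' + h11'
  rw [e1, e2]
  ring

/-- Consequence for an `SL(2,ℤ)`-invariant function. -/
theorem hermite_invariant {d a b d' : ℕ} (hd' : 0 < d') {g γ : SL(2, ℤ)}
    (hM : (!![(d : ℤ), 0; 0, 1] * (g : Matrix (Fin 2) (Fin 2) ℤ))
        = (γ : Matrix (Fin 2) (Fin 2) ℤ) * !![(a : ℤ), (b : ℤ); 0, (d' : ℤ)])
    {J : ℍ → ℂ} (hJ : ∀ (γ : SL(2, ℤ)) (τ : ℍ), J (γ • τ) = J τ)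
    (τ z z' : ℍ) (hz : (z : ℂ) = d * ((g • τ : ℍ) : ℂ))
    (hz' : (z' : ℂ) = (a * (τ : ℂ) + b) / d') : J z = J z' := by
  rw [hermite_smul hd' hM τ z z' hz hz', hJ]

noncomputable section

/-- The point `(a τ + b) / d'` of the upper half plane. -/
def hpt (a b d' : ℕ) [NeZero a] [NeZero d'] (τ : ℍ) : ℍ :=
  ⟨((a : ℂ) * τ + b) / d', by
    have ha : (0 : ℝ) < a := by exact_mod_cast Nat.pos_of_ne_zero (NeZero.ne a)
    have hd : (0 : ℝ) < d' := by exact_mod_cast Nat.pos_of_ne_zero (NeZero.ne d')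
    have : (((a : ℂ) * τ + b) / d').im = a * τ.im / d' := by
      rw [show ((a : ℂ) * τ + b) / d' = ((a : ℝ) * (τ : ℂ) + (b : ℝ)) / (d' : ℝ) by push_cast; ring]
      rw [Complex.div_ofReal_im]
      simp
    rw [this]
    exact div_pos (mul_pos ha τ.im_pos) hd⟩

@[simp]
theorem coe_hpt (a b d' : ℕ) [NeZero a] [NeZero d'] (τ : ℍ) :
    ((hpt a b d' τ : ℍ) : ℂ) = ((a : ℂ) * τ + b) / d' := rfl

theorem im_hpt (a b d' : ℕ) [NeZero a] [NeZero d'] (τ : ℍ) :
    (hpt a b d' τ).im = a * τ.im / d' := by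
  show (((a : ℂ) * τ + b) / d').im = a * τ.im / d'
  rw [show ((a : ℂ) * τ + b) / d' = ((a : ℝ) * (τ : ℂ) + (b : ℝ)) / (d' : ℝ) by push_cast; ring]
  rw [Complex.div_ofReal_im]
  simp

/-- `f` has the `ℤ`-indexed expansion `E` in the parameter `exp(2πiτ/M)`. -/
def HasQExpZ (M : ℕ) (f : ℍ → ℂ) (E : LaurentSeries ℂ) : Prop :=
  ∀ τ : ℍ, HasSum (fun n : ℤ => E.coeff n * Complex.exp (2 * π * Complex.I * n * τ / M)) (f τ)

end

section Twist

variable {R : Type*} [Field R]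

/-- Coefficientwise twist `a_n ↦ ξ^n a_n` of a Laurent series. -/
def twist (ξ : R) (E : LaurentSeries R) : LaurentSeries R where
  coeff n := ξ ^ n * E.coeff n
  isPWO_support' := E.isPWO_support.mono (by
    intro n hn
    simp only [Function.mem_support, ne_eq, mul_eq_zero, not_or] at hn
    exact hn.2)

@[simp]
theorem twist_coeff (ξ : R) (E : LaurentSeries R) (n : ℤ) :
    (twist ξ E).coeff n = ξ ^ n * E.coeff n := rfl

end Twist

open ModularCurve in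
/-- Expansion of the Hermite conjugate `τ ↦ J((aτ+b)/d')` in `t = exp(2πiτ/N)`, where
`m = a N / d'`. -/
theorem HasQExpZ.hermite {J : ℍ → ℂ} {E : LaurentSeries ℂ} (hJ : HasQExpZ 1 J E)
    (N a b d' m : ℕ) [NeZero N] [NeZero a] [NeZero d'] [NeZero m] (hm : m * d' = a * N) :
    HasQExpZ N (fun τ => J (hpt a b d' τ))
      (qExpand ℂ m (twist (Complex.exp (2 * π * Complex.I * b / d')) E)) := by
  intro τ
  have hinj : Function.Injective (fun k : ℤ => (m : ℤ) * k) :=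
    mul_right_injective₀ (by exact_mod_cast NeZero.ne m)
  rw [← hinj.hasSum_iff]
  · have h := hJ (hpt a b d' τ)
    convert h using 1
    funext k
    simp only [Function.comp_apply, qExpand_coeff_mul, twist_coeff, coe_hpt]
    rw [← Complex.exp_int_mul, mul_comm (Complex.exp _) (E.coeff k), mul_assoc,
      ← Complex.exp_add]
    congr 2
    have hN : (N : ℂ) ≠ 0 := by exact_mod_cast NeZero.ne N
    have hd : (d' : ℂ) ≠ 0 := by exact_mod_cast NeZero.ne d'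
    have hm' : (m : ℂ) * d' = a * N := by exact_mod_cast hm
    push_cast
    field_simp
    linear_combination ((k : ℂ) * τ) * hm'
  · intro n hn
    rw [qExpand_coeff_of_not_dvd, zero_mul]
    rintro ⟨k, rfl⟩
    exact hn ⟨k, rfl⟩

theorem norm_exp_two_pi_I_int_mul (n : ℤ) (τ : ℍ) :
    ‖Complex.exp (2 * π * Complex.I * n * τ)‖ = Real.exp (-2 * π * n * τ.im) := by
  rw [Complex.norm_exp]
  congr 1
  have : (2 * (π : ℂ) * Complex.I * n * τ) = ((2 * π * n : ℝ) : ℂ) * (Complex.I * τ) := by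
    push_cast; ring
  rw [this, Complex.re_ofReal_mul]
  simp

/-- Key estimate: `J(τ) q(τ) - E₋₁ = O(q)`. -/
theorem HasQExpZ.norm_mul_exp_sub_le {J : ℍ → ℂ} {E : LaurentSeries ℂ} (hJ : HasQExpZ 1 J E)
    (hE : ∀ k : ℤ, k < -1 → E.coeff k = 0) :
    ∃ C : ℝ, 0 ≤ C ∧ ∀ τ : ℍ, 1 ≤ τ.im →
      ‖J τ * Complex.exp (2 * π * Complex.I * τ) - E.coeff (-1)‖ ≤ C * Real.exp (-2 * π * τ.im) := by
  -- summability at τ₀ = i
  have h0 := (hJ UpperHalfPlane.I).summable.norm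
  set C : ℝ := ∑' n : ℤ, ‖E.coeff n * Complex.exp (2 * π * Complex.I * n * (UpperHalfPlane.I : ℍ) / (1 : ℕ))‖
    with hC
  refine ⟨C, tsum_nonneg fun _ => norm_nonneg _, fun τ hτ => ?_⟩
  have h1 := (hJ τ).mul_right (Complex.exp (2 * π * Complex.I * τ))
  have h2 := h1.update (-1) 0
  simp only [Nat.cast_one, div_one] at h2
  have hterm : E.coeff (-1) * Complex.exp (2 * π * Complex.I * ((-1 : ℤ) : ℂ) * τ)
      * Complex.exp (2 * π * Complex.I * τ) = E.coeff (-1) := by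
    rw [mul_assoc, ← Complex.exp_add]
    have : (2 * (π : ℂ) * Complex.I * ((-1 : ℤ) : ℂ) * τ + 2 * π * Complex.I * τ) = 0 := by
      push_cast; ring
    rw [this, Complex.exp_zero, mul_one]
  rw [hterm] at h2
  have h3 : HasSum (fun n : ℤ => Real.exp (-2 * π * τ.im) *
      ‖E.coeff n * Complex.exp (2 * π * Complex.I * n * (UpperHalfPlane.I : ℍ) / (1 : ℕ))‖)
      (Real.exp (-2 * π * τ.im) * C) := h0.hasSum.mul_left _
  have key := HasSum.norm_le_of_bounded h2 h3 ?_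
  · calc ‖J τ * Complex.exp (2 * π * Complex.I * τ) - E.coeff (-1)‖
        = ‖0 - E.coeff (-1) + J τ * Complex.exp (2 * π * Complex.I * τ)‖ := by
          congr 1; ring
      _ ≤ Real.exp (-2 * π * τ.im) * C := key
      _ = C * Real.exp (-2 * π * τ.im) := mul_comm _ _
  · intro n
    by_cases hn1 : n = -1
    · subst hn1
      simp only [Function.update_self, norm_zero]
      positivity
    rw [Function.update_of_ne hn1]
    rcases lt_or_gt_of_ne hn1 with hlt | hgt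
    · rw [hE n hlt]
      simp only [zero_mul, norm_zero]
      positivity
    · -- n ≥ 0
      have hn0 : 0 ≤ n := by omega
      rw [norm_mul, norm_mul, norm_mul, Nat.cast_one, div_one,
        norm_exp_two_pi_I_int_mul, norm_exp_two_pi_I_int_mul,
        show ‖Complex.exp (2 * π * Complex.I * τ)‖ = Real.exp (-2 * π * τ.im) by
          have := norm_exp_two_pi_I_int_mul 1 τ
          simpa using this]
      have hI : (UpperHalfPlane.I : ℍ).im = 1 := UpperHalfPlane.I_im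
      rw [hI]
      have hle : Real.exp (-2 * π * n * τ.im) ≤ Real.exp (-2 * π * n * 1) := by
        apply Real.exp_le_exp.mpr
        have hn0' : (0 : ℝ) ≤ n := by exact_mod_cast hn0
        have hpi := Real.pi_pos
        nlinarith [mul_nonneg hn0' (sub_nonneg.mpr hτ), mul_nonneg hpi.le (mul_nonneg hn0' (sub_nonneg.mpr hτ))]
      calc ‖E.coeff n‖ * Real.exp (-2 * π * n * τ.im) * Real.exp (-2 * π * τ.im)
          ≤ ‖E.coeff n‖ * Real.exp (-2 * π * n * 1) * Real.exp (-2 * π * τ.im) := by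
            gcongr
        _ = Real.exp (-2 * π * τ.im) * (‖E.coeff n‖ * Real.exp (-2 * π * n * 1)) := by ring

open Filter Topology CongruenceSubgroup

noncomputable section

/-- `J(τ) q(τ) → E₋₁` at `i∞`. -/
theorem HasQExpZ.tendsto_mul_exp {J : ℍ → ℂ} {E : LaurentSeries ℂ} (hJ : HasQExpZ 1 J E)
    (hE : ∀ k : ℤ, k < -1 → E.coeff k = 0) :
    Tendsto (fun τ : ℍ => J τ * Complex.exp (2 * π * Complex.I * τ)) atImInfty
      (𝓝 (E.coeff (-1))) := by
  obtain ⟨C, hC0, hC⟩ := hJ.norm_mul_exp_sub_le hE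
  rw [tendsto_iff_norm_sub_tendsto_zero]
  have h1 : Tendsto (fun τ : ℍ => C * Real.exp (-2 * π * τ.im)) atImInfty (𝓝 0) := by
    have : Tendsto (fun τ : ℍ => Real.exp (-2 * π * τ.im)) atImInfty (𝓝 0) := by
      apply Real.tendsto_exp_atBot.comp
      have hpi : (0 : ℝ) < 2 * π := by positivity
      have : Tendsto (fun τ : ℍ => (-(2 * π)) * τ.im) atImInfty atBot :=
        (tendsto_comap (f := UpperHalfPlane.im) (x := atTop)).const_mul_atTop_of_neg (by linarith)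
      refine this.congr fun τ => by ring
    simpa using this.const_mul C
  refine squeeze_zero' (Eventually.of_forall fun _ => norm_nonneg _) ?_ h1
  have : ∀ᶠ τ : ℍ in atImInfty, 1 ≤ τ.im := by
    have := (tendsto_comap (f := UpperHalfPlane.im) (x := atTop)).eventually_ge_atTop 1
    exact this
  filter_upwards [this] with τ hτ using hC τ hτ

/-- Growth bound: `‖J τ‖ ≤ C exp(2π Im τ)` for `Im τ ≥ 1`. -/
theorem HasQExpZ.norm_le_exp {J : ℍ → ℂ} {E : LaurentSeries ℂ} (hJ : HasQExpZ 1 J E)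
    (hE : ∀ k : ℤ, k < -1 → E.coeff k = 0) :
    ∃ C : ℝ, 0 ≤ C ∧ ∀ τ : ℍ, 1 ≤ τ.im → ‖J τ‖ ≤ C * Real.exp (2 * π * τ.im) := by
  obtain ⟨C, hC0, hC⟩ := hJ.norm_mul_exp_sub_le hE
  refine ⟨‖E.coeff (-1)‖ + C, by positivity, fun τ hτ => ?_⟩
  have h1 := hC τ hτ
  have hq : ‖Complex.exp (2 * π * Complex.I * τ)‖ = Real.exp (-2 * π * τ.im) := by
    have := norm_exp_two_pi_I_int_mul 1 τ
    simpa using this
  have h2 : ‖J τ * Complex.exp (2 * π * Complex.I * τ)‖ ≤ ‖E.coeff (-1)‖ + C := by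
    have hexp : Real.exp (-2 * π * τ.im) ≤ 1 := by
      apply Real.exp_le_one_iff.mpr
      have := Real.pi_pos
      nlinarith [τ.im_pos]
    calc ‖J τ * Complex.exp (2 * π * Complex.I * τ)‖
        = ‖(J τ * Complex.exp (2 * π * Complex.I * τ) - E.coeff (-1)) + E.coeff (-1)‖ := by
          congr 1; ring
      _ ≤ ‖J τ * Complex.exp (2 * π * Complex.I * τ) - E.coeff (-1)‖ + ‖E.coeff (-1)‖ :=
          norm_add_le _ _
      _ ≤ C * Real.exp (-2 * π * τ.im) + ‖E.coeff (-1)‖ := by gcongr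
      _ ≤ C * 1 + ‖E.coeff (-1)‖ := by gcongr
      _ = ‖E.coeff (-1)‖ + C := by ring
  rw [norm_mul, hq] at h2
  have hpos : 0 < Real.exp (-2 * π * τ.im) := Real.exp_pos _
  have h3 : ‖J τ‖ ≤ (‖E.coeff (-1)‖ + C) / Real.exp (-2 * π * τ.im) := by
    rw [le_div_iff₀ hpos]; exact h2
  have h4 : (‖E.coeff (-1)‖ + C) / Real.exp (-2 * π * τ.im)
      = (‖E.coeff (-1)‖ + C) * Real.exp (2 * π * τ.im) := by
    rw [div_eq_mul_inv, ← Real.exp_neg]
    congr 2
    ring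
  rw [h4] at h3
  exact h3

/-- The points `i (n+1)`. -/
def iy (n : ℕ) : ℍ := ⟨((n : ℂ) + 1) * Complex.I, by
  have : (((n : ℂ) + 1) * Complex.I).im = (n : ℝ) + 1 := by simp
  rw [this]; positivity⟩

@[simp] theorem coe_iy (n : ℕ) : ((iy n : ℍ) : ℂ) = ((n : ℂ) + 1) * Complex.I := rfl

theorem im_iy (n : ℕ) : (iy n).im = (n : ℝ) + 1 := by
  show (((n : ℂ) + 1) * Complex.I).im = (n : ℝ) + 1
  simp

theorem tendsto_hpt_iy (a b d' : ℕ) [NeZero a] [NeZero d'] :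
    Tendsto (fun n : ℕ => hpt a b d' (iy n)) atTop atImInfty := by
  rw [atImInfty, tendsto_comap_iff]
  have ha : (0 : ℝ) < a := by exact_mod_cast Nat.pos_of_ne_zero (NeZero.ne a)
  have hd : (0 : ℝ) < d' := by exact_mod_cast Nat.pos_of_ne_zero (NeZero.ne d')
  have h1 : Tendsto (fun n : ℕ => ((n : ℝ) + 1)) atTop atTop :=
    tendsto_atTop_add_const_right _ _ tendsto_natCast_atTop_atTop
  have h2 : Tendsto (fun n : ℕ => (a / d' : ℝ) * ((n : ℝ) + 1)) atTop atTop :=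
    h1.const_mul_atTop (div_pos ha hd)
  refine h2.congr fun n => ?_
  simp only [Function.comp_apply, im_hpt, im_iy]
  ring

theorem exp_hpt_iy_div (a b d' a₁ b₁ d₁' : ℕ) [NeZero a] [NeZero d'] [NeZero a₁] [NeZero d₁']
    (n : ℕ) :
    Complex.exp (2 * π * Complex.I * (hpt a b d' (iy n) : ℍ))
        / Complex.exp (2 * π * Complex.I * (hpt a₁ b₁ d₁' (iy n) : ℍ))
      = Complex.exp ((((-2 * π * ((n : ℝ) + 1) * ((a : ℝ) / d' - (a₁ : ℝ) / d₁') : ℝ)) : ℂ)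
          + (((2 * π * ((b : ℝ) / d' - (b₁ : ℝ) / d₁') : ℝ)) : ℂ) * Complex.I) := by
  rw [← Complex.exp_sub]
  congr 1
  simp only [coe_hpt, coe_iy]
  have hd : (d' : ℂ) ≠ 0 := by exact_mod_cast NeZero.ne d'
  have hd₁ : (d₁' : ℂ) ≠ 0 := by exact_mod_cast NeZero.ne d₁'
  push_cast
  field_simp
  ring_nf
  rw [Complex.I_sq]
  ring

/-- The ratio of the `q`-parameters at two Hermite conjugates with the same `J`-values tends
to `1`. -/
theorem tendsto_exp_ratio {J : ℍ → ℂ} {E : LaurentSeries ℂ} (hJ : HasQExpZ 1 J E)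
    (hE : ∀ k : ℤ, k < -1 → E.coeff k = 0) (hE1 : E.coeff (-1) ≠ 0)
    {a b d' a₁ b₁ d₁' : ℕ} [NeZero a] [NeZero d'] [NeZero a₁] [NeZero d₁']
    (h : ∀ τ : ℍ, J (hpt a b d' τ) = J (hpt a₁ b₁ d₁' τ)) :
    Tendsto (fun n : ℕ => Complex.exp (2 * π * Complex.I * (hpt a b d' (iy n) : ℍ))
        / Complex.exp (2 * π * Complex.I * (hpt a₁ b₁ d₁' (iy n) : ℍ))) atTop (𝓝 1) := by
  have hF := (hJ.tendsto_mul_exp hE).comp (tendsto_hpt_iy a b d')
  have hF₁ := (hJ.tendsto_mul_exp hE).comp (tendsto_hpt_iy a₁ b₁ d₁')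
  have hρ := hF.div hF₁ hE1
  rw [div_self hE1] at hρ
  have hne := hF₁.eventually_ne hE1
  refine hρ.congr' ?_
  filter_upwards [hne] with n hn
  simp only [Function.comp_apply, Pi.div_apply] at hn ⊢
  rw [h (iy n)]
  have hJne : J (hpt a₁ b₁ d₁' (iy n)) ≠ 0 := left_ne_zero_of_mul hn
  rw [mul_div_mul_left _ _ hJne]

theorem hermite_data_unique {J : ℍ → ℂ} {E : LaurentSeries ℂ} (hJ : HasQExpZ 1 J E)
    (hE : ∀ k : ℤ, k < -1 → E.coeff k = 0) (hE1 : E.coeff (-1) ≠ 0)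
    {a b d' a₁ b₁ d₁' : ℕ} [NeZero a] [NeZero d'] [NeZero a₁] [NeZero d₁']
    (hprod : a * d' = a₁ * d₁') (hb : b < d') (hb₁ : b₁ < d₁')
    (h : ∀ τ : ℍ, J (hpt a b d' τ) = J (hpt a₁ b₁ d₁' τ)) :
    a = a₁ ∧ b = b₁ ∧ d' = d₁' := by
  have hρ := tendsto_exp_ratio hJ hE hE1 h
  simp only [exp_hpt_iy_div] at hρ
  have had : (0 : ℝ) < d' := by exact_mod_cast Nat.pos_of_ne_zero (NeZero.ne d')
  have had₁ : (0 : ℝ) < d₁' := by exact_mod_cast Nat.pos_of_ne_zero (NeZero.ne d₁')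
  have haa : (0 : ℝ) < a := by exact_mod_cast Nat.pos_of_ne_zero (NeZero.ne a)
  -- norms
  have hnorm := hρ.norm
  simp only [Complex.norm_exp, Complex.add_re, Complex.ofReal_re, Complex.mul_re, Complex.I_re,
    mul_zero, Complex.ofReal_im, Complex.I_im, mul_one, sub_self, add_zero, norm_one] at hnorm
  -- step 1: a / d' = a₁ / d₁'
  have hδ : (a : ℝ) / d' - (a₁ : ℝ) / d₁' = 0 := by
    by_contra hδ
    have h1 : Tendsto (fun n : ℕ => ((n : ℝ) + 1)) atTop atTop :=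
      tendsto_atTop_add_const_right _ _ tendsto_natCast_atTop_atTop
    rcases lt_or_gt_of_ne hδ with hlt | hgt
    · -- exponent → +∞
      have h2 : Tendsto (fun n : ℕ => -2 * π * ((n : ℝ) + 1) * ((a : ℝ) / d' - (a₁ : ℝ) / d₁'))
          atTop atTop := by
        have hc : 0 < -2 * π * ((a : ℝ) / d' - (a₁ : ℝ) / d₁') := by
          have := Real.pi_pos
          nlinarith
        refine (h1.const_mul_atTop hc).congr fun n => by ring
      have h3 := Real.tendsto_exp_atTop.comp h2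
      exact not_tendsto_nhds_of_tendsto_atTop h3 _ hnorm
    · have h2 : Tendsto (fun n : ℕ => -2 * π * ((n : ℝ) + 1) * ((a : ℝ) / d' - (a₁ : ℝ) / d₁'))
          atTop atBot := by
        have hc : -2 * π * ((a : ℝ) / d' - (a₁ : ℝ) / d₁') < 0 := by
          have := Real.pi_pos
          nlinarith
        refine (h1.const_mul_atTop_of_neg hc).congr fun n => by ring
      have h3 := Real.tendsto_exp_atBot.comp h2
      have := tendsto_nhds_unique h3 hnorm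
      norm_num at this
  have hcross : a * d₁' = a₁ * d' := by
    have : (a : ℝ) * d₁' = a₁ * d' := by
      field_simp at hδ
      linarith
    exact_mod_cast this
  have haa₁ : a = a₁ := by
    have h2 : (a * a) * (d' * d₁') = (a₁ * a₁) * (d' * d₁') := by
      calc (a * a) * (d' * d₁') = (a * d') * (a * d₁') := by ring
        _ = (a₁ * d₁') * (a₁ * d') := by rw [hprod, hcross]
        _ = (a₁ * a₁) * (d' * d₁') := by ring
    have hpos : 0 < d' * d₁' :=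
      Nat.mul_pos (Nat.pos_of_ne_zero (NeZero.ne d')) (Nat.pos_of_ne_zero (NeZero.ne d₁'))
    have h3 : a * a = a₁ * a₁ := Nat.eq_of_mul_eq_mul_right hpos h2
    exact Nat.mul_self_inj.mp h3
  have hdd₁ : d' = d₁' := by
    rw [haa₁] at hprod
    exact Nat.eq_of_mul_eq_mul_left (Nat.pos_of_ne_zero (NeZero.ne a₁)) hprod
  refine ⟨haa₁, ?_, hdd₁⟩
  -- step 2: b = b₁
  subst haa₁ hdd₁
  simp only [sub_self, mul_zero, Complex.ofReal_zero, zero_add] at hρ
  have hconst := tendsto_nhds_unique tendsto_const_nhds hρ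
  rw [Complex.exp_eq_one_iff] at hconst
  obtain ⟨k, hk⟩ := hconst
  have hk' : ((b : ℝ) / d' - (b₁ : ℝ) / d') = k := by
    have h2 : ((2 * π * ((b : ℝ) / d' - (b₁ : ℝ) / d') : ℝ) : ℂ) = ((2 * π * k : ℝ) : ℂ) := by
      have hI : Complex.I ≠ 0 := Complex.I_ne_zero
      apply mul_right_cancel₀ hI
      rw [hk]; push_cast; ring
    have h3 := Complex.ofReal_injective h2
    have hpi : (2 * π) ≠ 0 := by positivity
    exact mul_left_cancel₀ hpi h3
  have hk'' : (b : ℤ) - b₁ = k * d' := by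
    have : ((b : ℝ) - b₁) = k * d' := by
      field_simp at hk'
      linarith
    exact_mod_cast this
  have hk0 : k = 0 := by
    by_contra hk0
    have hbz : (b : ℤ) < d' := by exact_mod_cast hb
    have hb₁z : (b₁ : ℤ) < d' := by exact_mod_cast hb₁
    have hb0 : (0 : ℤ) ≤ b := by positivity
    have hb₁0 : (0 : ℤ) ≤ b₁ := by positivity
    have hd0 : (0 : ℤ) < d' := by exact_mod_cast Nat.pos_of_ne_zero (NeZero.ne d')
    rcases lt_or_gt_of_ne hk0 with hneg | hpos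
    · have : k * (d' : ℤ) ≤ -1 * d' := by nlinarith
      linarith
    · have : 1 * (d' : ℤ) ≤ k * d' := by nlinarith
      linarith
  rw [hk0, zero_mul] at hk''
  have : (b : ℤ) = b₁ := by linarith
  exact_mod_cast this

/-- **E5**: if `J(N (g τ)) = J(N τ)` for all `τ` then `g ∈ Γ₀(N)`. -/
theorem mem_Gamma0_of_forall_eq (N : ℕ) [NeZero N] {J : ℍ → ℂ} {E : LaurentSeries ℂ}
    (hJ : HasQExpZ 1 J E) (hE : ∀ k : ℤ, k < -1 → E.coeff k = 0) (hE1 : E.coeff (-1) ≠ 0)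
    (hJinv : ∀ (γ : SL(2, ℤ)) (τ : ℍ), J (γ • τ) = J τ) (g : SL(2, ℤ))
    (h : ∀ τ : ℍ, J (hpt N 0 1 (g • τ)) = J (hpt N 0 1 τ)) : g ∈ Gamma0 N := by
  obtain ⟨γ, a, b, d', hprod, hb, hM⟩ := hermite_exists N (Nat.pos_of_ne_zero (NeZero.ne N)) g
  have hd'pos : 0 < d' := by
    rcases Nat.eq_zero_or_pos d' with h0 | h0
    · subst h0; simp at hprod; exact absurd hprod.symm (NeZero.ne N)
    · exact h0
  have hapos : 0 < a := by
    rcases Nat.eq_zero_or_pos a with h0 | h0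
    · subst h0; simp at hprod; exact absurd hprod.symm (NeZero.ne N)
    · exact h0
  have : NeZero a := ⟨hapos.ne'⟩
  have : NeZero d' := ⟨hd'pos.ne'⟩
  have key : ∀ τ : ℍ, J (hpt a b d' τ) = J (hpt N 0 1 τ) := by
    intro τ
    rw [← h τ]
    symm
    apply hermite_invariant hd'pos hM hJinv τ
    · simp
    · simp
  obtain ⟨haN, -, -⟩ := hermite_data_unique hJ hE hE1 (by rw [hprod, mul_one]) hb one_pos key
  have h10 := congrFun (congrFun hM 1) 0
  simp [Matrix.mul_apply, Fin.sum_univ_two] at h10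
  rw [Gamma0_mem, h10, haN]
  simp

/-- Converse: `Γ₀(N)` fixes `τ ↦ J(d τ)` for every `d ∣ N`. -/
theorem J_hpt_smul_of_mem_Gamma0 {N d : ℕ} [NeZero d] (hd : d ∣ N) {J : ℍ → ℂ}
    (hJinv : ∀ (γ : SL(2, ℤ)) (τ : ℍ), J (γ • τ) = J τ) {g : SL(2, ℤ)} (hg : g ∈ Gamma0 N)
    (τ : ℍ) : J (hpt d 0 1 (g • τ)) = J (hpt d 0 1 τ) := by
  rw [Gamma0_mem] at hg
  have hdr : (d : ℤ) ∣ g 1 0 := by
    have h1 : (N : ℤ) ∣ g 1 0 := (ZMod.intCast_zmod_eq_zero_iff_dvd _ _).mp hg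
    exact (Int.natCast_dvd_natCast.mpr hd).trans h1
  obtain ⟨r', hr'⟩ := hdr
  have hdet : g 0 0 * g 1 1 - g 0 1 * g 1 0 = 1 := by
    have h := g.det_coe
    rw [Matrix.det_fin_two] at h
    exact h
  let γm : Matrix (Fin 2) (Fin 2) ℤ := !![g 0 0, (d : ℤ) * g 0 1; r', g 1 1]
  have hγdet : γm.det = 1 := by
    rw [Matrix.det_fin_two_of]
    rw [hr'] at hdet
    linear_combination hdet
  have hM : (!![(d : ℤ), 0; 0, 1] * (g : Matrix (Fin 2) (Fin 2) ℤ))
      = ((⟨γm, hγdet⟩ : SL(2, ℤ)) : Matrix (Fin 2) (Fin 2) ℤ) * !![(d : ℤ), ((0 : ℕ) : ℤ); 0, ((1 : ℕ) : ℤ)] := by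
    show _ = γm * _
    ext i j
    fin_cases i <;> fin_cases j <;> simp [γm, Matrix.mul_apply, Fin.sum_univ_two]
    · ring
    · rw [hr']; ring
  exact hermite_invariant one_pos hM hJinv τ _ _ (by simp) (by simp)

theorem coe_T_smul (τ : ℍ) : ((ModularGroup.T • τ : ℍ) : ℂ) = (τ : ℂ) + 1 := by
  rw [UpperHalfPlane.modular_T_smul, UpperHalfPlane.coe_vadd]
  push_cast; ring

theorem coe_T_zpow_smul (k : ℤ) (τ : ℍ) : ((ModularGroup.T ^ k • τ : ℍ) : ℂ) = (τ : ℂ) + k := by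
  rw [UpperHalfPlane.modular_T_zpow_smul, UpperHalfPlane.coe_vadd]
  push_cast; ring

/-- `τ ↦ τ + 1` moves the Hermite parameter `b` to `b + a`. -/
theorem hpt_T_smul (a b d' : ℕ) [NeZero a] [NeZero d'] (τ : ℍ) :
    hpt a b d' (ModularGroup.T • τ) = hpt a (b + a) d' τ := by
  apply UpperHalfPlane.ext
  simp only [coe_hpt, coe_T_smul]
  push_cast
  ring

/-- Changing `b` by a multiple of `d'` is an integer translation. -/
theorem hpt_add_mul (a b d' : ℕ) [NeZero a] [NeZero d'] (k : ℕ) (τ : ℍ) :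
    hpt a (b + k * d') d' τ = ModularGroup.T ^ (k : ℤ) • hpt a b d' τ := by
  apply UpperHalfPlane.ext
  simp only [coe_hpt, coe_T_zpow_smul]
  have hd : (d' : ℂ) ≠ 0 := by exact_mod_cast NeZero.ne d'
  push_cast
  field_simp
  ring

theorem J_hpt_add_mul {J : ℍ → ℂ} (hJinv : ∀ (γ : SL(2, ℤ)) (τ : ℍ), J (γ • τ) = J τ)
    (a b d' : ℕ) [NeZero a] [NeZero d'] (k : ℕ) (τ : ℍ) :
    J (hpt a (b + k * d') d' τ) = J (hpt a b d' τ) := by
  rw [hpt_add_mul, hJinv]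

theorem J_hpt_mod {J : ℍ → ℂ} (hJinv : ∀ (γ : SL(2, ℤ)) (τ : ℍ), J (γ • τ) = J τ)
    (a b d' : ℕ) [NeZero a] [NeZero d'] (τ : ℍ) :
    J (hpt a b d' τ) = J (hpt a (b % d') d' τ) := by
  conv_lhs => rw [← Nat.mod_add_div b d', mul_comm d' (b / d')]
  exact J_hpt_add_mul hJinv a (b % d') d' (b / d') τ

/-- The conjugate `J((aτ+b)/d')` precomposed with `τ ↦ τ + 1` is the conjugate with
`b` replaced by `(b + a) % d'`. -/
theorem J_hpt_T_smul {J : ℍ → ℂ} (hJinv : ∀ (γ : SL(2, ℤ)) (τ : ℍ), J (γ • τ) = J τ)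
    (a b d' : ℕ) [NeZero a] [NeZero d'] (τ : ℍ) :
    J (hpt a b d' (ModularGroup.T • τ)) = J (hpt a ((b + a) % d') d' τ) := by
  rw [hpt_T_smul, J_hpt_mod hJinv]

/-- Effect of `τ ↦ τ + 1` on expansions in `exp(2πiτ/N)`: twist by `ζ_N`. -/
theorem HasQExpZ.comp_T {N : ℕ} {f : ℍ → ℂ} {E : LaurentSeries ℂ} (h : HasQExpZ N f E) :
    HasQExpZ N (fun τ => f (ModularGroup.T • τ))
      (twist (Complex.exp (2 * π * Complex.I / N)) E) := by
  intro τ
  have h1 := h (ModularGroup.T • τ)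
  convert h1 using 1
  funext n
  rw [twist_coeff, ← Complex.exp_int_mul, mul_comm (Complex.exp _) (E.coeff n), mul_assoc,
    ← Complex.exp_add, coe_T_smul]
  congr 2
  ring

/-- Coset form of E5 (convention `g⁻¹`): equal conjugates give equal left cosets. -/
theorem inv_mul_mem_Gamma0_of_forall_eq (N : ℕ) [NeZero N] {J : ℍ → ℂ} {E : LaurentSeries ℂ}
    (hJ : HasQExpZ 1 J E) (hE : ∀ k : ℤ, k < -1 → E.coeff k = 0) (hE1 : E.coeff (-1) ≠ 0)
    (hJinv : ∀ (γ : SL(2, ℤ)) (τ : ℍ), J (γ • τ) = J τ) (g h : SL(2, ℤ))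
    (H : ∀ τ : ℍ, J (hpt N 0 1 (g⁻¹ • τ)) = J (hpt N 0 1 (h⁻¹ • τ))) :
    g⁻¹ * h ∈ Gamma0 N := by
  apply mem_Gamma0_of_forall_eq N hJ hE hE1 hJinv
  intro τ
  have := H (h • τ)
  rwa [inv_smul_smul, ← mul_smul] at this

theorem quotient_mk_eq_of_forall_eq (N : ℕ) [NeZero N] {J : ℍ → ℂ} {E : LaurentSeries ℂ}
    (hJ : HasQExpZ 1 J E) (hE : ∀ k : ℤ, k < -1 → E.coeff k = 0) (hE1 : E.coeff (-1) ≠ 0)
    (hJinv : ∀ (γ : SL(2, ℤ)) (τ : ℍ), J (γ • τ) = J τ) (g h : SL(2, ℤ))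
    (H : ∀ τ : ℍ, J (hpt N 0 1 (g⁻¹ • τ)) = J (hpt N 0 1 (h⁻¹ • τ))) :
    (QuotientGroup.mk g : SL(2, ℤ) ⧸ Gamma0 N) = QuotientGroup.mk h :=
  QuotientGroup.eq.mpr (inv_mul_mem_Gamma0_of_forall_eq N hJ hE hE1 hJinv g h H)

/-- Coset form of E5 (convention `g`): equal conjugates give `g * h⁻¹ ∈ Γ₀(N)`. -/
theorem mul_inv_mem_Gamma0_of_forall_eq (N : ℕ) [NeZero N] {J : ℍ → ℂ} {E : LaurentSeries ℂ}
    (hJ : HasQExpZ 1 J E) (hE : ∀ k : ℤ, k < -1 → E.coeff k = 0) (hE1 : E.coeff (-1) ≠ 0)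
    (hJinv : ∀ (γ : SL(2, ℤ)) (τ : ℍ), J (γ • τ) = J τ) (g h : SL(2, ℤ))
    (H : ∀ τ : ℍ, J (hpt N 0 1 (g • τ)) = J (hpt N 0 1 (h • τ))) :
    g * h⁻¹ ∈ Gamma0 N := by
  apply mem_Gamma0_of_forall_eq N hJ hE hE1 hJinv
  intro τ
  have := H (h⁻¹ • τ)
  rwa [smul_inv_smul, ← mul_smul] at this

open ModularCurve in
/-- Leading coefficient of the Hermite expansion. -/
theorem hermiteExp_coeff_neg (E : LaurentSeries ℂ) (m : ℕ) [NeZero m] (ξ : ℂ) :
    (qExpand ℂ m (twist ξ E)).coeff (-(m : ℤ)) = ξ⁻¹ * E.coeff (-1) := by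
  have h : -(m : ℤ) = (m : ℤ) * (-1) := by ring
  rw [h, qExpand_coeff_mul, twist_coeff, _root_.zpow_neg_one]

open ModularCurve in
/-- The Hermite expansion has no terms below `-m`. -/
theorem hermiteExp_coeff_of_lt (E : LaurentSeries ℂ) (hE : ∀ k : ℤ, k < -1 → E.coeff k = 0)
    (m : ℕ) [NeZero m] (ξ : ℂ) {n : ℤ} (hn : n < -(m : ℤ)) :
    (qExpand ℂ m (twist ξ E)).coeff n = 0 := by
  by_cases hdvd : (m : ℤ) ∣ n
  · obtain ⟨k, rfl⟩ := hdvd
    rw [qExpand_coeff_mul, twist_coeff]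
    have hm : (0 : ℤ) < m := by exact_mod_cast Nat.pos_of_ne_zero (NeZero.ne m)
    have hk : k < -1 := by
      by_contra hk
      push Not at hk
      nlinarith
    rw [hE k hk, mul_zero]
  · exact qExpand_coeff_of_not_dvd m _ hdvd

/-- `twist` commutes with coefficient maps along field homomorphisms. -/
theorem coeffMap_twist {K L : Type*} [Field K] [Field L] (f : K →+* L) (ξ : K)
    (E : LaurentSeries K) :
    ModularCurve.coeffMap f (twist ξ E) = twist (f ξ) (ModularCurve.coeffMap f E) := by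
  ext n
  simp [map_zpow₀]

/-- Growth of the conjugates at `i∞`. -/
theorem HasQExpZ.norm_hpt_le_exp {J : ℍ → ℂ} {E : LaurentSeries ℂ} (hJ : HasQExpZ 1 J E)
    (hE : ∀ k : ℤ, k < -1 → E.coeff k = 0) :
    ∃ C : ℝ, 0 ≤ C ∧ ∀ (a b d' : ℕ) [NeZero a] [NeZero d'] (τ : ℍ), (d' : ℝ) ≤ τ.im →
      ‖J (hpt a b d' τ)‖ ≤ C * Real.exp (2 * π * (a * τ.im / d')) := by
  obtain ⟨C, hC0, hC⟩ := hJ.norm_le_exp hE
  refine ⟨C, hC0, fun a b d' _ _ τ hτ => ?_⟩
  have h1 := hC (hpt a b d' τ) ?_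
  · rwa [im_hpt] at h1
  · rw [im_hpt]
    have hd : (0 : ℝ) < d' := by exact_mod_cast Nat.pos_of_ne_zero (NeZero.ne d')
    have ha : (1 : ℝ) ≤ a := by exact_mod_cast Nat.pos_of_ne_zero (NeZero.ne a)
    rw [le_div_iff₀ hd]
    nlinarith [τ.im_pos]

end

end Fermat.Agent.S24.helper504
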