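import Fermat.Agent.S24.helper315_Twist
import Fermat.Agent.S24.helper3176_FieldAlg
import Fermat.Agent.S24.helper1644_AnalyticJ
import Fermat.Agent.S24.helper504_Hermite

/-!
# S24 / MOD: the analytic model `ev` of `A_N = ℚ̄[j(q^d) : d ∣ N]` and the coset expansions
at the cusp (helper504)

Built on landed files only: `helper315_CuspExp` (ring hom `cuspExp`), `helper3176_FieldAlg`
(`AN N`, fraction field), `helper1644_AnalyticJ` (q-expansion of `jFun`), `helper504_Hermite`.
-/

set_option autoImplicit false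

open Complex Filter Function Topology
open UpperHalfPlane hiding I
open ModularCurve CongruenceSubgroup
open scoped Real Manifold MatrixGroups

noncomputable section

namespace Fermat.Agent.S24.helper504

open Fermat.Agent.S24.helper24

/-! ## From everywhere-valid `ℤ`-indexed expansions to `helper315.cuspExp` -/

theorem HasQExpZ.hPeriodic {M : ℕ} [NeZero M] {f : ℍ → ℂ} {E : LaurentSeries ℂ}
    (h : HasQExpZ M f E) : helper315.HPeriodic (M : ℝ) f := by
  intro τ
  have h1 := h ((M : ℝ) +ᵥ τ)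
  have h2 := h τ
  refine h1.unique ?_
  convert h2 using 1
  funext n
  congr 1
  have hM : (M : ℂ) ≠ 0 := Nat.cast_ne_zero.mpr (NeZero.ne M)
  have e : 2 * π * Complex.I * n * (((M : ℝ) +ᵥ τ : ℍ) : ℂ) / M
      = 2 * π * Complex.I * n * τ / M + n * (2 * π * Complex.I) := by
    rw [coe_vadd]
    push_cast
    field_simp
    ring
  rw [e, Complex.exp_add, Complex.exp_int_mul_two_pi_mul_I, mul_one]

theorem exists_coeff_eq_zero_of_lt (E : LaurentSeries ℂ) :
    ∃ m : ℕ, ∀ n : ℤ, n < -(m : ℤ) → E.coeff n = 0 := by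
  refine ⟨(-E.order).toNat, fun n hn => HahnSeries.coeff_eq_zero_of_lt_order ?_⟩
  have := Int.self_le_toNat (-E.order)
  omega

/-- An everywhere-valid `ℤ`-indexed expansion in `exp(2πiτ/M)` of a holomorphic function gives
membership in `helper315.cuspMer M` with the same expansion. -/
theorem HasQExpZ.isCuspMer {M : ℕ} [NeZero M] {f : ℍ → ℂ} {E : LaurentSeries ℂ}
    (h : HasQExpZ M f E) (hd : MDiff f) :
    helper315.IsCuspMer (M : ℝ) f ∧ helper315.cuspExpFun (M : ℝ) f = E := by
  obtain ⟨m, hm⟩ := exists_coeff_eq_zero_of_lt E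
  have hM : (M : ℂ) ≠ 0 := Nat.cast_ne_zero.mpr (NeZero.ne M)
  have hs : ∀ τ : ℍ, HasSum (fun n : ℕ => E.coeff ((n : ℤ) - m) * helper315.qH (M : ℝ) τ ^ n)
      (helper315.qH (M : ℝ) τ ^ m * f τ) := by
    intro τ
    have hinj : Function.Injective (fun n : ℕ => (n : ℤ) - m) := by
      intro a b hab
      simpa using hab
    have h1 := h τ
    rw [← hinj.hasSum_iff] at h1
    · have h2 := h1.mul_left (helper315.qH (M : ℝ) τ ^ m)
      have e : (fun n : ℕ => E.coeff ((n : ℤ) - m) * helper315.qH (M : ℝ) τ ^ n)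
          = fun i : ℕ => helper315.qH (M : ℝ) τ ^ m *
            ((fun n : ℤ => E.coeff n * cexp (2 * π * Complex.I * n * τ / M)) ∘
              fun n : ℕ => (n : ℤ) - m) i := by
        funext n
        simp only [Function.comp_apply, helper315.qH_apply, Periodic.qParam]
        rw [mul_left_comm, ← Complex.exp_nat_mul, ← Complex.exp_nat_mul, ← Complex.exp_add]
        congr 2
        push_cast
        field_simp
        ring
      rw [e]
      exact h2
    · intro k hk
      rw [hm k, zero_mul]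
      by_contra hk'
      push Not at hk'
      exact hk ⟨(k + m).toNat, by
        show ((k + m).toNat : ℤ) - m = k
        rw [Int.toNat_of_nonneg (by omega)]; ring⟩
  obtain ⟨h3, h4⟩ := helper315.cuspExpFun_eq_of_hasSum (helper315.natCast_pos' M) hd h.hPeriodic hs
  refine ⟨⟨m, h3⟩, ?_⟩
  rw [h4]
  ext k
  rw [helper315.coeff_single_neg_mul_ofPowerSeries]
  split_ifs with hk
  · rw [PowerSeries.coeff_mk, Int.toNat_of_nonneg hk]
    congr 1
    ring
  · exact (hm k (by omega)).symm

/-! ## The analytic `j` and its conjugates -/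

theorem hasQExpZ_jFun : HasQExpZ 1 jFun (coeffEmb ℂ jq) := by
  intro τ
  have h := helper1644.hasSum_jq τ
  have e : (fun n : ℤ => (coeffEmb ℂ jq).coeff n * cexp (2 * π * Complex.I * n * τ / ((1 : ℕ) : ℂ)))
      = fun k : ℤ => ((jq.coeff k : ℚ) : ℂ) * (Periodic.qParam 1 (τ : ℂ)) ^ k := by
    funext n
    rw [coeffEmb_coeff, eq_ratCast]
    congr 1
    rw [Periodic.qParam, ← Complex.exp_int_mul]
    congr 1
    push_cast
    ring
  show HasSum (fun n : ℤ => (coeffEmb ℂ jq).coeff n
    * cexp (2 * π * Complex.I * n * τ / ((1 : ℕ) : ℂ))) (jFun τ)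
  rw [e]
  exact h

theorem coeffEmb_jq_coeff_of_lt {k : ℤ} (hk : k < -1) : (coeffEmb ℂ jq).coeff k = 0 := by
  rw [coeffEmb_coeff, coeff_jq_of_lt hk, map_zero]

theorem coeffEmb_jq_coeff_neg_one : (coeffEmb ℂ jq).coeff (-1) ≠ 0 := by
  rw [coeffEmb_coeff, coeff_jq_neg_one, map_one]
  exact one_ne_zero

theorem jFun_smul (γ : SL(2, ℤ)) (τ : ℍ) : jFun (γ • τ) = jFun τ := helper1644.jFun_smul γ τ

theorem mdiff_jFun : MDiff jFun := helper1644.mdifferentiable_jFun

theorem mdiff_comp_hpt {f : ℍ → ℂ} (hf : MDiff f) (a b d' : ℕ) [NeZero a] [NeZero d'] :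
    MDiff (fun τ : ℍ => f (hpt a b d' τ)) := by
  rw [UpperHalfPlane.mdifferentiable_iff] at hf ⊢
  have hmaps : Set.MapsTo (fun z : ℂ => ((a : ℂ) * z + b) / d') {z : ℂ | 0 < z.im}
      {z : ℂ | 0 < z.im} := by
    intro z hz
    exact (hpt a b d' ⟨z, hz⟩).2
  have h1 : DifferentiableOn ℂ ((f ∘ ofComplex) ∘ fun z : ℂ => ((a : ℂ) * z + b) / d')
      {z : ℂ | 0 < z.im} :=
    hf.comp (by fun_prop) hmaps
  refine h1.congr (fun z hz => ?_)
  have hz' : 0 < (((a : ℂ) * z + b) / d').im := hmaps hz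
  simp only [comp_apply, ofComplex_apply_of_im_pos (show 0 < z.im from hz),
    ofComplex_apply_of_im_pos hz']
  congr 1

theorem twist_exp_zero (E : LaurentSeries ℂ) (d' : ℕ) :
    twist (cexp (2 * π * Complex.I * ((0 : ℕ) : ℂ) / d')) E = E := by
  ext n
  simp

/-- The function `τ ↦ j(dτ)`. -/
def jd (d : ℕ) [NeZero d] : ℍ → ℂ := fun τ => jFun (hpt d 0 1 τ)

theorem jd_apply (d : ℕ) [NeZero d] (τ : ℍ) : jd d τ = jFun (hpt d 0 1 τ) := rfl

theorem hpt_one (τ : ℍ) : hpt 1 0 1 τ = τ := by
  apply UpperHalfPlane.ext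
  simp

theorem jd_one : jd 1 = jFun := by
  funext τ
  rw [jd_apply, hpt_one]

theorem hasQExpZ_jd (d : ℕ) [NeZero d] : HasQExpZ 1 (jd d) (qExpand ℂ d (coeffEmb ℂ jq)) := by
  have h := hasQExpZ_jFun.hermite 1 d 0 1 d (by ring)
  rwa [twist_exp_zero] at h

theorem mdiff_jd (d : ℕ) [NeZero d] : MDiff (jd d) := mdiff_comp_hpt mdiff_jFun d 0 1

/-- Hermite data for the conjugate `τ ↦ j(d (g τ))`. -/
theorem exists_hermite_conj {N d : ℕ} [NeZero N] [NeZero d] (hd : d ∣ N) (g : SL(2, ℤ)) :
    ∃ (a b d' m : ℕ) (_ : NeZero a) (_ : NeZero d') (_ : NeZero m), a * d' = d ∧ b < d' ∧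
      m * d' = a * N ∧ ∀ τ : ℍ, jd d (g • τ) = jFun (hpt a b d' τ) := by
  obtain ⟨γ, a, b, d', hprod, hb, hM⟩ := hermite_exists d (Nat.pos_of_ne_zero (NeZero.ne d)) g
  have hd'pos : 0 < d' := by
    rcases Nat.eq_zero_or_pos d' with h0 | h0
    · subst h0; simp at hprod; exact absurd hprod.symm (NeZero.ne d)
    · exact h0
  have hapos : 0 < a := by
    rcases Nat.eq_zero_or_pos a with h0 | h0
    · subst h0; simp at hprod; exact absurd hprod.symm (NeZero.ne d)
    · exact h0
  obtain ⟨k, hk⟩ := hd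
  have hkpos : 0 < k := by
    rcases Nat.eq_zero_or_pos k with h0 | h0
    · subst h0; simp at hk; exact absurd hk (NeZero.ne N)
    · exact h0
  have ha : NeZero a := ⟨hapos.ne'⟩
  have hd' : NeZero d' := ⟨hd'pos.ne'⟩
  have hm : NeZero (a * a * k) := ⟨(Nat.mul_pos (Nat.mul_pos hapos hapos) hkpos).ne'⟩
  refine ⟨a, b, d', a * a * k, ha, hd', hm, hprod, hb, ?_, fun τ => ?_⟩
  · rw [hk, ← hprod]; ring
  · rw [jd_apply]
    apply hermite_invariant hd'pos hM jFun_smul τ
    · simp
    · simp

/-- Every conjugate of `j(dτ)`, `d ∣ N`, is meromorphic at the cusp in `exp(2πiτ/N)`. -/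
theorem pull_jd_isCuspMer {N d : ℕ} [NeZero N] [NeZero d] (hd : d ∣ N) (g : SL(2, ℤ)) :
    helper315.IsCuspMer (N : ℝ) (fun τ => jd d (g • τ)) := by
  obtain ⟨a, b, d', m, _, _, _, -, -, hm, h⟩ := exists_hermite_conj hd g
  have e : (fun τ => jd d (g • τ)) = fun τ => jFun (hpt a b d' τ) := funext h
  rw [e]
  exact ((hasQExpZ_jFun.hermite N a b d' m hm).isCuspMer (mdiff_comp_hpt mdiff_jFun a b d')).1

/-! ## The analytic model `evA` of `A_N` -/

/-- The embedding of constants `ℚ̄ → ℂ`. -/
def kappa : Kbar →+* ℂ :=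
  haveI : Algebra.IsAlgebraic ℚ (AlgebraicClosure ℚ) := AlgebraicClosure.isAlgebraic ℚ
  ((IsAlgClosed.lift : AlgebraicClosure ℚ →ₐ[ℚ] ℂ) : AlgebraicClosure ℚ →+* ℂ)

theorem coeffMap_kappa_coeffEmb (x : LaurentSeries ℚ) :
    coeffMap kappa (coeffEmb Kbar x) = coeffEmb ℂ x := by
  rw [coeffEmb, coeffMap_coeffMap]
  exact coeffMap_congr (RingHom.ext fun c => by
    rw [RingHom.comp_apply, eq_ratCast, eq_ratCast, map_ratCast]) x

theorem coeffMap_injective {R S : Type*} [Field R] [Field S] (f : R →+* S) :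
    Function.Injective (coeffMap f) := by
  intro x y h
  ext n
  have := congrArg (fun z => z.coeff n) h
  simp only [coeffMap_coeff] at this
  exact f.injective this

/-- The formal `q`-expansion with complex coefficients. -/
def formalC (N : ℕ) : FN N →+* LaurentSeries ℂ :=
  (coeffMap kappa).comp ((modularFunctionFieldBar N).val : FN N →+* LaurentSeries Kbar)

theorem formalC_apply (N : ℕ) (x : FN N) :
    formalC N x = coeffMap kappa (x : LaurentSeries Kbar) := rfl

theorem formalC_injective (N : ℕ) : Function.Injective (formalC N) := (formalC N).injective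

theorem formalC_jBarD (N d : ℕ) [NeZero d] (hd : d ∣ N) :
    formalC N (jBarD N d hd) = qExpand ℂ d (coeffEmb ℂ jq) := by
  rw [formalC_apply, helper3176.coe_jBarD, jSeries, coeffMap_kappa_coeffEmb,
    helper3176.coeffEmb_qExpand]

theorem formalC_algebraMap (N : ℕ) (c : Kbar) :
    formalC N (algebraMap Kbar (FN N) c) = HahnSeries.C (kappa c) := by
  rw [formalC_apply]
  have h : ((algebraMap Kbar (FN N) c : FN N) : LaurentSeries Kbar)
      = algebraMap Kbar (LaurentSeries Kbar) c := rfl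
  rw [h, algebraMap_laurentSeries_eq_single, coeffMap_single, HahnSeries.C_apply]

/-- Induction principle for the subalgebra `AN N`. -/
theorem AN_induction (N : ℕ) {p : helper3176.AN N → Prop}
    (gen : ∀ (d : ℕ) [NeZero d] (hd : d ∣ N),
      p ⟨jBarD N d hd, helper3176.jBarD_mem_AN N d hd⟩)
    (const : ∀ c : Kbar, p (algebraMap Kbar (helper3176.AN N) c))
    (add : ∀ x y, p x → p y → p (x + y)) (mul : ∀ x y, p x → p y → p (x * y))
    (a : helper3176.AN N) : p a := by
  obtain ⟨x, hx⟩ := a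
  have key : ∀ (x : FN N) (hx : x ∈ Algebra.adjoin Kbar (helper3176.genSetF N)),
      p ⟨x, hx⟩ := by
    intro x hx
    induction hx using Algebra.adjoin_induction with
    | mem y hy =>
        obtain ⟨d, hd0, hd, rfl⟩ := hy
        exact gen d hd
    | algebraMap c => exact const c
    | add x y hx hy ihx ihy => exact add ⟨x, hx⟩ ⟨y, hy⟩ ihx ihy
    | mul x y hx hy ihx ihy => exact mul ⟨x, hx⟩ ⟨y, hy⟩ ihx ihy
  exact key x hx

theorem jd_mem_cuspMer_one (d : ℕ) [NeZero d] : jd d ∈ helper315.cuspMer 1 :=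
  ((hasQExpZ_jd d).isCuspMer (mdiff_jd d)).1

theorem cuspExp_jd (d : ℕ) [NeZero d] :
    helper315.cuspExp 1 ⟨jd d, jd_mem_cuspMer_one d⟩ = qExpand ℂ d (coeffEmb ℂ jq) :=
  ((hasQExpZ_jd d).isCuspMer (mdiff_jd d)).2

theorem const_mem_cuspMer (M : ℕ) [NeZero M] (c : ℂ) :
    (fun _ : ℍ => c) ∈ helper315.cuspMer M :=
  (helper315.IsCuspHol.const _ c).isCuspMer

theorem cuspExp_const (M : ℕ) [NeZero M] (c : ℂ) :
    helper315.cuspExp M ⟨fun _ => c, const_mem_cuspMer M c⟩ = HahnSeries.C c :=
  helper315.cuspExpFun_const (helper315.natCast_pos' M) c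

theorem formalC_mem_range (N : ℕ) (a : helper3176.AN N) :
    formalC N (a : FN N) ∈ (helper315.cuspExp 1).range := by
  induction a using AN_induction with
  | gen d hd => exact ⟨⟨jd d, jd_mem_cuspMer_one d⟩, by rw [cuspExp_jd, formalC_jBarD]⟩
  | const c =>
      exact ⟨⟨fun _ => kappa c, const_mem_cuspMer 1 _⟩, by
        rw [cuspExp_const]; exact (formalC_algebraMap N c).symm⟩
  | add x y hx hy =>
      have : formalC N ((x + y : helper3176.AN N) : FN N) = formalC N x + formalC N y :=
        map_add _ _ _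
      rw [this]; exact add_mem hx hy
  | mul x y hx hy =>
      have : formalC N ((x * y : helper3176.AN N) : FN N) = formalC N x * formalC N y :=
        map_mul _ _ _
      rw [this]; exact mul_mem hx hy

/-- `cuspExp 1` as an isomorphism onto its range. -/
def cuspEquiv : helper315.cuspMer 1 ≃+* (helper315.cuspExp 1).range :=
  RingEquiv.ofBijective (helper315.cuspExp 1).rangeRestrict
    ⟨fun _ _ h => helper315.cuspExp_injective 1 (congrArg Subtype.val h),
      (helper315.cuspExp 1).rangeRestrict_surjective⟩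

theorem coe_cuspEquiv (f : helper315.cuspMer 1) :
    ((cuspEquiv f : (helper315.cuspExp 1).range) : LaurentSeries ℂ) = helper315.cuspExp 1 f := rfl

/-- **The analytic model**: `evA N a` is the function on `ℍ` whose `q`-expansion is the formal
series `a` (coefficients mapped to `ℂ` by `kappa`). -/
def evA (N : ℕ) : helper3176.AN N →+* helper315.cuspMer 1 :=
  (cuspEquiv.symm : (helper315.cuspExp 1).range →+* helper315.cuspMer 1).comp
    (((formalC N).comp (algebraMap (helper3176.AN N) (FN N))).codRestrict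
      (helper315.cuspExp 1).range (formalC_mem_range N))

theorem cuspExp_evA (N : ℕ) (a : helper3176.AN N) :
    helper315.cuspExp 1 (evA N a) = formalC N (a : FN N) := by
  have h := cuspEquiv.apply_symm_apply
    ((((formalC N).comp (algebraMap (helper3176.AN N) (FN N))).codRestrict
      (helper315.cuspExp 1).range (formalC_mem_range N)) a)
  exact congrArg Subtype.val h

theorem evA_injective (N : ℕ) : Function.Injective (evA N) := by
  intro a b h
  have h1 : formalC N (a : FN N) = formalC N (b : FN N) := by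
    rw [← cuspExp_evA, ← cuspExp_evA, h]
  exact Subtype.ext (formalC_injective N h1)

theorem evA_eq_of_cuspExp (N : ℕ) (a : helper3176.AN N) (f : helper315.cuspMer 1)
    (h : helper315.cuspExp 1 f = formalC N (a : FN N)) : evA N a = f :=
  helper315.cuspExp_injective 1 ((cuspExp_evA N a).trans h.symm)

theorem evA_jBarD (N d : ℕ) [NeZero d] (hd : d ∣ N) :
    ((evA N ⟨jBarD N d hd, helper3176.jBarD_mem_AN N d hd⟩ : helper315.cuspMer 1) : ℍ → ℂ)
      = jd d := by
  rw [evA_eq_of_cuspExp N _ ⟨jd d, jd_mem_cuspMer_one d⟩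
    (by rw [cuspExp_jd]; exact (formalC_jBarD N d hd).symm)]

theorem evA_algebraMap (N : ℕ) (c : Kbar) :
    ((evA N (algebraMap Kbar (helper3176.AN N) c) : helper315.cuspMer 1) : ℍ → ℂ)
      = fun _ => kappa c := by
  rw [evA_eq_of_cuspExp N _ ⟨fun _ => kappa c, const_mem_cuspMer 1 _⟩
    (by rw [cuspExp_const]; exact (formalC_algebraMap N c).symm)]

/-- The analytic model as a function-valued ring hom. -/
def evFun (N : ℕ) : helper3176.AN N →+* (ℍ → ℂ) :=
  (helper315.cuspMer 1).subtype.comp (evA N)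

theorem evFun_apply (N : ℕ) (a : helper3176.AN N) :
    evFun N a = ((evA N a : helper315.cuspMer 1) : ℍ → ℂ) := rfl

theorem evFun_injective (N : ℕ) : Function.Injective (evFun N) :=
  Subtype.val_injective.comp (evA_injective N)

theorem evFun_jBarD (N d : ℕ) [NeZero d] (hd : d ∣ N) :
    evFun N ⟨jBarD N d hd, helper3176.jBarD_mem_AN N d hd⟩ = jd d := evA_jBarD N d hd

theorem evFun_algebraMap (N : ℕ) (c : Kbar) :
    evFun N (algebraMap Kbar (helper3176.AN N) c) = fun _ => kappa c := evA_algebraMap N c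

theorem evFun_mdiff (N : ℕ) (a : helper3176.AN N) : MDiff (evFun N a) :=
  helper315.IsCuspMer.mdiff (evA N a).2

/-! ## Pull-back by `SL(2, ℤ)` -/

/-- Precomposition with the action of `g`. -/
def pull (g : SL(2, ℤ)) : (ℍ → ℂ) →+* (ℍ → ℂ) where
  toFun f := fun τ => f (g • τ)
  map_one' := rfl
  map_mul' _ _ := rfl
  map_zero' := rfl
  map_add' _ _ := rfl

theorem pull_apply (g : SL(2, ℤ)) (f : ℍ → ℂ) (τ : ℍ) : pull g f τ = f (g • τ) := rfl

theorem pull_injective (g : SL(2, ℤ)) : Function.Injective (pull g) := by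
  intro f f' h
  funext τ
  have := congrFun h (g⁻¹ • τ)
  simpa [pull_apply, smul_inv_smul] using this

theorem pull_mul (g h : SL(2, ℤ)) (f : ℍ → ℂ) : pull (g * h) f = pull h (pull g f) := by
  funext τ
  simp [pull_apply, mul_smul]

theorem pull_one (f : ℍ → ℂ) : pull 1 f = f := by
  funext τ
  simp [pull_apply]

/-- `Γ₀(N)`-invariance of the analytic model. -/
theorem pull_evFun_of_mem_Gamma0 (N : ℕ) {γ : SL(2, ℤ)} (hγ : γ ∈ Gamma0 N)
    (a : helper3176.AN N) : pull γ (evFun N a) = evFun N a := by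
  induction a using AN_induction with
  | gen d hd =>
      rw [evFun_jBarD]
      funext τ
      exact J_hpt_smul_of_mem_Gamma0 hd jFun_smul hγ τ
  | const c => rw [evFun_algebraMap]; rfl
  | add x y hx hy => rw [map_add, map_add, hx, hy]
  | mul x y hx hy => rw [map_mul, map_mul, hx, hy]

/-- Every conjugate of an element of the analytic model is meromorphic at the cusp. -/
theorem pull_evFun_mem (N : ℕ) [NeZero N] (g : SL(2, ℤ)) (a : helper3176.AN N) :
    pull g (evFun N a) ∈ helper315.cuspMer N := by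
  induction a using AN_induction with
  | gen d hd =>
      rw [evFun_jBarD]
      exact pull_jd_isCuspMer hd g
  | const c => rw [evFun_algebraMap]; exact const_mem_cuspMer N (kappa c)
  | add x y hx hy => rw [map_add, map_add]; exact add_mem hx hy
  | mul x y hx hy => rw [map_mul, map_mul]; exact mul_mem hx hy

/-! ## The coset expansions at the cusp -/

/-- Expansion at the cusp (in `t = exp(2πiτ/N)`) of the conjugate `ev a ∘ g`, on `A_N`. -/
def cosetExpA (N : ℕ) [NeZero N] (g : SL(2, ℤ)) : helper3176.AN N →+* LaurentSeries ℂ :=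
  (helper315.cuspExp N).comp
    (((pull g).comp (evFun N)).codRestrict (helper315.cuspMer N) (pull_evFun_mem N g))

theorem cosetExpA_apply (N : ℕ) [NeZero N] (g : SL(2, ℤ)) (a : helper3176.AN N) :
    cosetExpA N g a = helper315.cuspExpFun (N : ℝ) (pull g (evFun N a)) := rfl

theorem cosetExpA_injective (N : ℕ) [NeZero N] (g : SL(2, ℤ)) :
    Function.Injective (cosetExpA N g) := by
  intro a b h
  have h1 := helper315.cuspExp_injective N h
  have h2 : pull g (evFun N a) = pull g (evFun N b) := congrArg Subtype.val h1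
  exact evFun_injective N (pull_injective g h2)

/-- Expansion at the cusp of the conjugate by `g`, on the whole function field. -/
def cosetExp (N : ℕ) [NeZero N] (g : SL(2, ℤ)) : FN N →+* LaurentSeries ℂ :=
  IsFractionRing.lift (cosetExpA_injective N g)

theorem cosetExp_coe (N : ℕ) [NeZero N] (g : SL(2, ℤ)) (a : helper3176.AN N) :
    cosetExp N g (a : FN N) = cosetExpA N g a :=
  IsFractionRing.lift_algebraMap (cosetExpA_injective N g) a

theorem cosetExp_algebraMap (N : ℕ) [NeZero N] (g : SL(2, ℤ)) (c : Kbar) :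
    cosetExp N g (algebraMap Kbar (FN N) c) = HahnSeries.C (kappa c) := by
  have h : algebraMap Kbar (FN N) c = ((algebraMap Kbar (helper3176.AN N) c : helper3176.AN N) : FN N) :=
    rfl
  rw [h, cosetExp_coe, cosetExpA_apply, evFun_algebraMap]
  exact helper315.cuspExpFun_const (helper315.natCast_pos' N) (kappa c)

theorem cosetExp_jBarD (N : ℕ) [NeZero N] (g : SL(2, ℤ)) (d : ℕ) [NeZero d] (hd : d ∣ N) :
    cosetExp N g (jBarD N d hd) = helper315.cuspExpFun (N : ℝ) (fun τ => jd d (g • τ)) := by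
  have h := cosetExp_coe N g ⟨jBarD N d hd, helper3176.jBarD_mem_AN N d hd⟩
  rw [cosetExpA_apply, evFun_jBarD] at h
  exact h

/-- All coset expansions agree on `j`: the common value is `j(t^N)`. -/
theorem cosetExp_jBar (N : ℕ) [NeZero N] (g : SL(2, ℤ)) :
    cosetExp N g (jBar N) = qExpand ℂ N (coeffEmb ℂ jq) := by
  have h := cosetExp_jBarD N g 1 (one_dvd N)
  have e : (fun τ => jd 1 (g • τ)) = jd 1 := by
    funext τ
    rw [jd_one, jFun_smul]
  rw [e] at h
  have h2 := hasQExpZ_jFun.hermite N 1 0 1 N (by ring)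
  rw [twist_exp_zero] at h2
  have h3 := (h2.isCuspMer (mdiff_jd 1)).2
  exact h.trans h3

/-- `Γ₀(N)`-invariance: the expansion only depends on the right coset `Γ₀(N) g`. -/
theorem cosetExp_mul_of_mem_Gamma0 (N : ℕ) [NeZero N] {γ : SL(2, ℤ)} (hγ : γ ∈ Gamma0 N)
    (g : SL(2, ℤ)) : cosetExp N (γ * g) = cosetExp N g := by
  apply helper3176.ringHom_ext_of_AN
  intro a
  rw [cosetExp_coe, cosetExp_coe, cosetExpA_apply, cosetExpA_apply, pull_mul,
    pull_evFun_of_mem_Gamma0 N hγ]

/-- Translation `τ ↦ τ + 1` is the coefficient twist by `exp(2πi/N)`. -/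
theorem twist_cosetExp (N : ℕ) [NeZero N] (g : SL(2, ℤ)) (f : FN N) :
    helper315.twist (helper315.zetaN N) (cosetExp N g f) = cosetExp N (g * ModularGroup.T) f := by
  have key : ((helper315.twist (helper315.zetaN N) : LaurentSeries ℂ →+* LaurentSeries ℂ).comp
      (cosetExp N g)) = cosetExp N (g * ModularGroup.T) := by
    apply helper3176.ringHom_ext_of_AN
    intro a
    rw [RingHom.comp_apply, cosetExp_coe, cosetExp_coe, cosetExpA_apply, cosetExpA_apply]
    have h := (helper315.cuspExpFun_vadd_one N (pull_evFun_mem N g a)).2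
    have e : (fun τ : ℍ => pull g (evFun N a) ((1 : ℝ) +ᵥ τ))
        = pull (g * ModularGroup.T) (evFun N a) := by
      funext τ
      rw [pull_apply, pull_apply, mul_smul, UpperHalfPlane.modular_T_smul]
    rw [e] at h
    exact h.symm
  exact congrArg (fun φ : FN N →+* LaurentSeries ℂ => φ f) key

/-- E5: the coset expansions separate the cosets (convention `g⁻¹`). -/
theorem quotient_mk_eq_of_cosetExp_eq (N : ℕ) [NeZero N] (g h : SL(2, ℤ))
    (H : cosetExp N g⁻¹ = cosetExp N h⁻¹) :
    (QuotientGroup.mk g : SL(2, ℤ) ⧸ Gamma0 N) = QuotientGroup.mk h := by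
  apply quotient_mk_eq_of_forall_eq N hasQExpZ_jFun (fun k hk => coeffEmb_jq_coeff_of_lt hk)
    coeffEmb_jq_coeff_neg_one jFun_smul
  have h1 := congrArg (fun φ : FN N →+* LaurentSeries ℂ => φ (jBarD N N dvd_rfl)) H
  simp only [cosetExp_jBarD] at h1
  have h2 : (⟨fun τ => jd N (g⁻¹ • τ), pull_jd_isCuspMer dvd_rfl g⁻¹⟩ : helper315.cuspMer N)
      = ⟨fun τ => jd N (h⁻¹ • τ), pull_jd_isCuspMer dvd_rfl h⁻¹⟩ :=
    helper315.cuspExp_injective N h1
  intro τ
  exact congrFun (congrArg Subtype.val h2) τ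

end Fermat.Agent.S24.helper504
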