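import Fermat.Agent.S24.helper504_CuspEv
import Fermat.Agent.S24.helper580_HolMer
import Fermat.Agent.S24.helper2064_JLeaves

/-!
# S24 / MOD: the finite-point package `helper481.Stmt_MerPackage` (helper504)

`M = helper580.Mer = Frac(Hol)`, `ord = helper580.ordAt`, `act g = helper580.pull g⁻¹`,
`ev = ` the analytic model `evFun` of `helper504_CuspEv` extended to the function field.
Consequently `Stmt_LocalGeneric`, `Stmt_Local1728`, `Stmt_LocalZero` hold unconditionally.
-/

set_option autoImplicit false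

open Complex Filter Function Topology
open UpperHalfPlane hiding I
open ModularCurve CongruenceSubgroup
open scoped Real Manifold MatrixGroups

noncomputable section

namespace Fermat.Agent.S24.helper504

open Fermat.Agent.S24.helper24

/-- `Mer` as a `ℚ̄`-algebra via `kappa`. -/
abbrev merAlgebra : Algebra Kbar helper580.Mer :=
  ((algebraMap ℂ helper580.Mer).comp kappa).toAlgebra

attribute [local instance] merAlgebra

theorem merAlgebra_algebraMap (a : Kbar) :
    algebraMap Kbar helper580.Mer a = algebraMap ℂ helper580.Mer (kappa a) := rfl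

/-- The action of `SL(2, ℤ)` on `Mer`: `act g z = z ∘ g⁻¹`. -/
def actMer (g : SL(2, ℤ)) : helper580.Mer ≃ₐ[Kbar] helper580.Mer :=
  { (helper580.pull g⁻¹).toRingEquiv with
    commutes' := fun a => (helper580.pull g⁻¹).commutes (kappa a) }

theorem actMer_apply (g : SL(2, ℤ)) (z : helper580.Mer) :
    actMer g z = helper580.pull g⁻¹ z := rfl

theorem actMer_pow_apply (g : SL(2, ℤ)) (k : ℕ) (z : helper580.Mer) :
    (actMer g ^ k) z = (helper580.pull g⁻¹)^[k] z := by
  induction k generalizing z with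
  | zero => rfl
  | succ k ih =>
      rw [pow_succ, AlgEquiv.mul_apply, ih, Function.iterate_succ_apply]
      rfl

/-- The analytic model, valued in holomorphic functions. -/
def evHol (N : ℕ) : helper3176.AN N →+* helper580.Hol :=
  (evFun N).codRestrict helper580.Hol (fun a => evFun_mdiff N a)

theorem evHol_apply (N : ℕ) (a : helper3176.AN N) (τ : ℍ) :
    ((evHol N a : helper580.Hol) : ℍ → ℂ) τ = evFun N a τ := rfl

theorem evHol_injective (N : ℕ) : Function.Injective (evHol N) :=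
  fun a b h => evFun_injective N
    (show evFun N a = evFun N b from congrArg (fun f : helper580.Hol => (f : ℍ → ℂ)) h)

/-- The analytic model on `A_N`, valued in `Mer`. -/
def evMerA (N : ℕ) : helper3176.AN N →+* helper580.Mer :=
  (algebraMap helper580.Hol helper580.Mer).comp (evHol N)

theorem evMerA_injective (N : ℕ) : Function.Injective (evMerA N) :=
  (IsFractionRing.injective helper580.Hol helper580.Mer).comp (evHol_injective N)

/-- The analytic model on the function field, valued in `Mer`. -/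
def evMer (N : ℕ) : FN N →+* helper580.Mer := IsFractionRing.lift (evMerA_injective N)

theorem evMer_coe (N : ℕ) (a : helper3176.AN N) :
    evMer N (a : FN N) = algebraMap helper580.Hol helper580.Mer (evHol N a) :=
  IsFractionRing.lift_algebraMap (evMerA_injective N) a

theorem evMer_algebraMap (N : ℕ) (c : Kbar) :
    evMer N (algebraMap Kbar (FN N) c) = algebraMap Kbar helper580.Mer c := by
  have h : algebraMap Kbar (FN N) c
      = ((algebraMap Kbar (helper3176.AN N) c : helper3176.AN N) : FN N) := rfl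
  rw [h, evMer_coe, merAlgebra_algebraMap,
    IsScalarTower.algebraMap_apply ℂ helper580.Hol helper580.Mer]
  congr 1
  apply helper580.Hol.ext
  intro τ
  rw [evHol_apply, evFun_algebraMap]
  rfl

/-- The analytic model as a `ℚ̄`-algebra hom. -/
def evMerAlg (N : ℕ) : FN N →ₐ[Kbar] helper580.Mer :=
  { evMer N with commutes' := evMer_algebraMap N }

theorem evMerAlg_apply (N : ℕ) (f : FN N) : evMerAlg N f = evMer N f := rfl

theorem evFun_jBar (N : ℕ) : evFun N ⟨jBar N, helper3176.jBar_mem_AN N⟩ = jFun := by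
  have h := evFun_jBarD N 1 (one_dvd N)
  rwa [jd_one] at h

theorem actMer_evMer_of_mem_Gamma0 (N : ℕ) {γ : SL(2, ℤ)} (hγ : γ ∈ Gamma0 N) (f : FN N) :
    actMer γ (evMer N f) = evMer N f := by
  have key : ((actMer γ : helper580.Mer ≃ₐ[Kbar] helper580.Mer) : helper580.Mer →+* helper580.Mer).comp
      (evMer N) = evMer N := by
    apply helper3176.ringHom_ext_of_AN
    intro a
    rw [RingHom.comp_apply, evMer_coe]
    show helper580.pull γ⁻¹ (algebraMap helper580.Hol helper580.Mer (evHol N a)) = _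
    rw [helper580.pull_algebraMap]
    congr 1
    apply helper580.Hol.ext
    intro τ
    exact congrFun (pull_evFun_of_mem_Gamma0 N (inv_mem hγ) a) τ
  exact congrArg (fun φ : FN N →+* helper580.Mer => φ f) key

theorem mem_Gamma0_of_actMer_evMer (N : ℕ) [NeZero N] (g : SL(2, ℤ))
    (h : ∀ f : FN N, actMer g (evMer N f) = evMer N f) : g ∈ Gamma0 N := by
  have h1 := h ((⟨jBarD N N dvd_rfl, helper3176.jBarD_mem_AN N N dvd_rfl⟩ : helper3176.AN N) : FN N)
  rw [evMer_coe] at h1
  have h2 : helper580.pull g⁻¹ (algebraMap helper580.Hol helper580.Mer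
      (evHol N ⟨jBarD N N dvd_rfl, helper3176.jBarD_mem_AN N N dvd_rfl⟩))
      = algebraMap helper580.Hol helper580.Mer
        (evHol N ⟨jBarD N N dvd_rfl, helper3176.jBarD_mem_AN N N dvd_rfl⟩) := h1
  rw [helper580.pull_algebraMap] at h2
  have h3 := IsFractionRing.injective helper580.Hol helper580.Mer h2
  have h4 : g⁻¹ ∈ Gamma0 N := by
    apply mem_Gamma0_of_forall_eq N hasQExpZ_jFun (fun k hk => coeffEmb_jq_coeff_of_lt hk)
      coeffEmb_jq_coeff_neg_one jFun_smul
    intro τ
    have h5 := congrFun (congrArg Subtype.val h3) τ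
    have h6 : evFun N ⟨jBarD N N dvd_rfl, helper3176.jBarD_mem_AN N N dvd_rfl⟩ (g⁻¹ • τ)
        = evFun N ⟨jBarD N N dvd_rfl, helper3176.jBarD_mem_AN N N dvd_rfl⟩ τ := h5
    rw [evFun_jBarD] at h6
    exact h6
  exact inv_mem_iff.mp h4

theorem actMer_evMer_jBar (N : ℕ) (g : SL(2, ℤ)) :
    actMer g (evMer N (jBar N)) = evMer N (jBar N) := by
  have e : (jBar N : FN N)
      = ((⟨jBar N, helper3176.jBar_mem_AN N⟩ : helper3176.AN N) : FN N) := rfl
  rw [e, evMer_coe]
  show helper580.pull g⁻¹ (algebraMap helper580.Hol helper580.Mer _) = _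
  rw [helper580.pull_algebraMap]
  congr 1
  apply helper580.Hol.ext
  intro τ
  show evFun N ⟨jBar N, helper3176.jBar_mem_AN N⟩ (g⁻¹ • τ)
    = evFun N ⟨jBar N, helper3176.jBar_mem_AN N⟩ τ
  rw [evFun_jBar]
  exact jFun_smul g⁻¹ τ

theorem ordAt_evMer_jBar_sub (N : ℕ) (τ : ℍ) (c : Kbar) (hc : jFun τ = kappa c) :
    helper580.ordAt τ (evMer N (jBar N) - algebraMap Kbar helper580.Mer c)
      = (analyticOrderAt (fun z : ℂ => jFun (ofComplex z) - jFun τ) (τ : ℂ)).map (↑) := by
  have e : (jBar N : FN N)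
      = ((⟨jBar N, helper3176.jBar_mem_AN N⟩ : helper3176.AN N) : FN N) := rfl
  rw [e, evMer_coe, merAlgebra_algebraMap,
    IsScalarTower.algebraMap_apply ℂ helper580.Hol helper580.Mer, ← map_sub,
    helper580.ordAt_algebraMap_eq_analyticOrderAt]
  have e2 : (((evHol N ⟨jBar N, helper3176.jBar_mem_AN N⟩ - algebraMap ℂ helper580.Hol (kappa c)
      : helper580.Hol) : ℍ → ℂ) ∘ ofComplex) = fun z : ℂ => jFun (ofComplex z) - jFun τ := by
    funext z
    show evFun N ⟨jBar N, helper3176.jBar_mem_AN N⟩ (ofComplex z) - kappa c = _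
    rw [evFun_jBar, hc]
  rw [e2]

/-- The divisibility property at a fixed point, for `actMer`. -/
theorem hdiv_actMer {g : SL(2, ℤ)} {τ : ℍ} (hfix : g • τ = τ) {m : ℕ} (hm : m.Prime)
    (hgm : g ^ m = 1 ∨ g ^ m = -1)
    (hμ : ∀ n : ℤ, (1 / denom (g : GL (Fin 2) ℝ) (τ : ℂ) ^ 2) ^ n = 1 → (m : ℤ) ∣ n) :
    helper481.HDiv (helper580.ordAt τ) (actMer g) m := by
  intro k z hz hk
  rw [actMer_pow_apply] at hk
  apply helper580.hdiv_of_stabilizer hfix hm hgm hμ k z hz
  have hleft : Function.LeftInverse (helper580.pull g) (helper580.pull g⁻¹) := fun w => by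
    rw [helper580.pull_pull, inv_mul_cancel, helper580.pull_one]
  have h := (hleft.iterate k) z
  rw [hk] at h
  exact h

theorem sq_eq_neg_one_of_S_smul {τ : ℍ} (h : ModularGroup.S • τ = τ) : (τ : ℂ) ^ 2 = -1 := by
  have h1 : ((ModularGroup.S • τ : ℍ) : ℂ) = τ := by rw [h]
  rw [UpperHalfPlane.modular_S_smul] at h1
  have h2 : (-(τ : ℂ))⁻¹ = τ := h1
  have hne : (τ : ℂ) ≠ 0 := UpperHalfPlane.ne_zero τ
  have h3 : (τ : ℂ) * (-(τ : ℂ)) = 1 :=
    calc (τ : ℂ) * (-(τ : ℂ)) = (-(τ : ℂ))⁻¹ * (-(τ : ℂ)) := by rw [h2]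
      _ = 1 := inv_mul_cancel₀ (neg_ne_zero.mpr hne)
  linear_combination -h3

theorem sq_add_of_ST_smul {τ : ℍ} (h : (ModularGroup.S * ModularGroup.T) • τ = τ) :
    (τ : ℂ) ^ 2 + (τ : ℂ) + 1 = 0 := by
  have h1 : (((ModularGroup.S * ModularGroup.T) • τ : ℍ) : ℂ) = τ := by rw [h]
  rw [mul_smul, UpperHalfPlane.modular_S_smul, UpperHalfPlane.modular_T_smul] at h1
  have h2 : (-((1 : ℝ) +ᵥ τ : ℍ) : ℂ)⁻¹ = τ := h1
  rw [UpperHalfPlane.coe_vadd] at h2
  have hne : ((1 : ℝ) : ℂ) + (τ : ℂ) ≠ 0 := by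
    intro h0
    have := congrArg Complex.im h0
    simp at this
    exact τ.im_pos.ne' this
  have h3 : (τ : ℂ) * (-(((1 : ℝ) : ℂ) + (τ : ℂ))) = 1 :=
    calc (τ : ℂ) * (-(((1 : ℝ) : ℂ) + (τ : ℂ)))
        = (-(((1 : ℝ) : ℂ) + (τ : ℂ)))⁻¹ * (-(((1 : ℝ) : ℂ) + (τ : ℂ))) := by rw [h2]
      _ = 1 := inv_mul_cancel₀ (neg_ne_zero.mpr hne)
  push_cast at h3
  linear_combination -h3

theorem denom_ST (τ : ℍ) :
    denom ((ModularGroup.S * ModularGroup.T : SL(2, ℤ)) : GL (Fin 2) ℝ) (τ : ℂ)
      = (τ : ℂ) + 1 := by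
  rw [ModularGroup.denom_apply]
  have h10 : (ModularGroup.S * ModularGroup.T : SL(2, ℤ)) 1 0 = 1 := by
    show ((ModularGroup.S * ModularGroup.T : SL(2, ℤ)) : Matrix (Fin 2) (Fin 2) ℤ) 1 0 = 1
    rw [helper580.coe_ST]; rfl
  have h11 : (ModularGroup.S * ModularGroup.T : SL(2, ℤ)) 1 1 = 1 := by
    show ((ModularGroup.S * ModularGroup.T : SL(2, ℤ)) : Matrix (Fin 2) (Fin 2) ℤ) 1 1 = 1
    rw [helper580.coe_ST]; rfl
  rw [h10, h11]
  simp

/-- **The finite-point package** of `helper481`. -/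
theorem stmt_MerPackage : helper481.Stmt_MerPackage := by
  intro N _
  refine ⟨helper580.Mer, inferInstance, merAlgebra, kappa, fun τ => helper580.ordAt τ, actMer,
    evMerAlg N, ?_, ?_, ?_, ?_, ?_, ?_, ?_, ?_, ?_⟩
  · intro g h z
    show helper580.pull (g * h)⁻¹ z = helper580.pull g⁻¹ (helper580.pull h⁻¹ z)
    rw [helper580.pull_pull, mul_inv_rev]
  · intro τ a ha
    rw [merAlgebra_algebraMap]
    exact helper580.ordAt_const τ ((map_ne_zero kappa).mpr ha)
  · intro g τ z hfix
    show helper580.ordAt τ (helper580.pull g⁻¹ z) = helper580.ordAt τ z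
    rw [helper580.ordAt_pull]
    have : g⁻¹ • τ = τ := by rw [inv_smul_eq_iff, hfix]
    rw [this]
  · intro γ hγ f
    exact actMer_evMer_of_mem_Gamma0 N hγ f
  · intro g h
    exact mem_Gamma0_of_actMer_evMer N g h
  · intro g
    exact actMer_evMer_jBar N g
  · intro τ c hc
    exact ordAt_evMer_jBar_sub N τ c hc
  · intro τ hfix
    refine hdiv_actMer hfix Nat.prime_two (Or.inr helper580.S_pow_two) ?_
    intro n hn
    rw [ModularGroup.denom_S τ, sq_eq_neg_one_of_S_smul hfix] at hn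
    have h2 : (1 / (-1) : ℂ) = -1 := by norm_num
    rw [h2] at hn
    rcases Int.even_or_odd n with he | ho
    · exact he.two_dvd
    · rw [ho.neg_one_zpow] at hn
      norm_num at hn
  · intro τ hfix
    refine hdiv_actMer hfix Nat.prime_three (Or.inr helper580.ST_pow_three) ?_
    intro n hn
    rw [denom_ST] at hn
    refine helper580.three_dvd_of_zpow_eq_one ?_ n hn
    have h2 := sq_add_of_ST_smul hfix
    have h4 : (τ : ℂ) ≠ 0 := UpperHalfPlane.ne_zero τ
    have h3 : ((τ : ℂ) + 1) ^ 2 = (τ : ℂ) := by linear_combination h2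
    rw [h3]
    field_simp
    linear_combination h2

/-- The three finite-point local data of the Spec. -/
theorem stmt_LocalFinite : Stmt_LocalGeneric ∧ Stmt_Local1728 ∧ Stmt_LocalZero :=
  helper2064.local_of_merPackage stmt_MerPackage

/-- **M3**. -/
theorem stmt_LocalGeneric : Stmt_LocalGeneric := stmt_LocalFinite.1

/-- **M4**. -/
theorem stmt_Local1728 : Stmt_Local1728 := stmt_LocalFinite.2.1

/-- **M5**. -/
theorem stmt_LocalZero : Stmt_LocalZero := stmt_LocalFinite.2.2

end Fermat.Agent.S24.helper504
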