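import Mathlib
import Fermat.Agent.Lib.helper843_JPolynomial

/-!
# Klein's invariant `J = E₄³/Δ` takes every complex value

`jInv_surjective` : for every `c : ℂ` there is `τ : ℍ` with `E₄ τ ^ 3 / Δ τ = c`.

Proof: otherwise `1/(J - c)` is holomorphic, `SL(2,ℤ)`-invariant and tends to `0` at `i∞`,
hence is a constant (`helper843.exists_polynomial_jInv` with `m = 0`), and the constant is `0`,
which is absurd.
-/

set_option autoImplicit false

namespace Fermat.Agent.S24.helper519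

open UpperHalfPlane ModularForm EisensteinSeries MatrixGroups Filter Asymptotics
open scoped Manifold Topology
open Fermat.Agent.Lib.helper843

local notation "Δ" => ModularForm.discriminant

/-- `J = E₄³/Δ` is unbounded at `i∞`: `1/(J - c) → 0`. -/
lemma tendsto_inv_jInv_sub (c : ℂ) :
    Tendsto (fun z : ℍ => (jInv z - c)⁻¹) atImInfty (𝓝 0) := by
  have h1 : Tendsto (fun z : ℍ => Δ z * jInv z) atImInfty (𝓝 1) := tendsto_discriminant_mul_jInv
  have h0 : Tendsto (fun z : ℍ => Δ z) atImInfty (𝓝 0) := discriminant_isZeroAtImInfty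
  have h2 : Tendsto (fun z : ℍ => Δ z * jInv z - c * Δ z) atImInfty (𝓝 (1 - c * 0)) :=
    h1.sub (h0.const_mul c)
  have h3 : Tendsto (fun z : ℍ => Δ z / (Δ z * jInv z - c * Δ z)) atImInfty (𝓝 (0 / (1 - c * 0))) :=
    h0.div h2 (by simp)
  rw [zero_div] at h3
  refine h3.congr (fun z => ?_)
  have hΔ : Δ z ≠ 0 := discriminant_ne_zero z
  rw [show Δ z * jInv z - c * Δ z = Δ z * (jInv z - c) by ring, div_mul_eq_div_div, div_self hΔ,
    one_div]

/-- **Surjectivity of Klein's invariant** `J = E₄³/Δ : ℍ → ℂ`. -/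
theorem jInv_surjective' (c : ℂ) : ∃ τ : ℍ, jInv τ = c := by
  by_contra hex
  have hne : ∀ τ : ℍ, jInv τ ≠ c := fun τ h => hex ⟨τ, h⟩
  have hsub : ∀ z : ℍ, jInv z - c ≠ 0 := fun z => sub_ne_zero.mpr (hne z)
  set F : ℍ → ℂ := fun z => (jInv z - c)⁻¹ with hFdef
  have hF : MDiff F := by
    have h1 : MDiff (fun _ : ℍ => (1 : ℂ)) := mdifferentiable_const
    have h2 : MDiff (fun z : ℍ => jInv z - c) := mdifferentiable_jInv.sub mdifferentiable_const
    have h3 := h1.div h2 hsub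
    have hEq : F = (fun _ : ℍ => (1 : ℂ)) / fun z : ℍ => jInv z - c := by
      funext z
      simp [hFdef, one_div]
    rw [hEq]
    exact h3
  have hinv : ∀ (γ : SL(2, ℤ)) (z : ℍ), F (γ • z) = F z := by
    intro γ z
    simp only [hFdef, jInv_smul γ z]
  have hzero : Tendsto F atImInfty (𝓝 0) := tendsto_inv_jInv_sub c
  have hbdd : IsBoundedAtImInfty (fun z => Δ z ^ 0 * F z) := by
    have : Tendsto (fun z => Δ z ^ 0 * F z) atImInfty (𝓝 0) := by simpa using hzero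
    exact this.isBigO_one ℝ
  obtain ⟨P, hdeg, hP⟩ := exists_polynomial_jInv hF hinv 0 hbdd
  have hPc : P = Polynomial.C (P.coeff 0) :=
    Polynomial.eq_C_of_natDegree_le_zero hdeg
  have hconst : ∀ z, F z = P.coeff 0 := by
    intro z
    rw [hP z, hPc, Polynomial.eval_C, Polynomial.coeff_C_zero]
  have h0 : P.coeff 0 = 0 := by
    have h2 : Tendsto F atImInfty (𝓝 (P.coeff 0)) := by
      have : F = fun _ => P.coeff 0 := funext hconst
      rw [this]
      exact tendsto_const_nhds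
    exact tendsto_nhds_unique h2 hzero
  have hI := hconst UpperHalfPlane.I
  rw [h0] at hI
  exact (inv_ne_zero (hsub UpperHalfPlane.I)) hI

/-- **Surjectivity of Klein's invariant**, stated for the raw expression `E₄ τ ^ 3 / Δ τ`. -/
theorem jInv_surjective (c : ℂ) : ∃ τ : ℍ, E₄ τ ^ 3 / ModularForm.discriminant τ = c :=
  jInv_surjective' c

/-! ### Values at the elliptic points `i` and `ρ` -/

lemma E₆_slash (γ : SL(2, ℤ)) : (E₆ : ℍ → ℂ) ∣[(6 : ℤ)] γ = E₆ :=
  E₆.slash_action_eq' _ ⟨γ, rfl⟩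

lemma E₆_smul (γ : SL(2, ℤ)) (z : ℍ) :
    E₆ (γ • z) = denom γ z ^ (6 : ℤ) * E₆ z := by
  have h := congrFun (E₆_slash γ) z
  rw [SL_slash_apply] at h
  have hd : denom γ z ≠ 0 := denom_ne_zero γ z
  rw [← h, mul_comm (E₆ (γ • z)), ← mul_assoc, ← zpow_add₀ hd]
  simp

lemma S_smul_I : ModularGroup.S • UpperHalfPlane.I = UpperHalfPlane.I :=
  ModularGroup.stabilizer_I.mpr (by simp)

lemma ST_smul_ρ : (ModularGroup.S * ModularGroup.T) • UpperHalfPlane.ρ = UpperHalfPlane.ρ :=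
  ModularGroup.stabilizer_ρ.mpr (by simp)

/-- `E₆` vanishes at `i`. -/
lemma E₆_I : E₆ UpperHalfPlane.I = 0 := by
  have h := E₆_smul ModularGroup.S UpperHalfPlane.I
  rw [S_smul_I, ModularGroup.denom_S] at h
  have hI : ((UpperHalfPlane.I : ℍ) : ℂ) ^ (6 : ℤ) = -1 := by
    have : ((UpperHalfPlane.I : ℍ) : ℂ) = Complex.I := rfl
    rw [this, show (6 : ℤ) = ((6 : ℕ) : ℤ) from rfl, zpow_natCast]
    have h2 : Complex.I ^ 6 = (Complex.I ^ 2) ^ 3 := by ring
    rw [h2, Complex.I_sq]; norm_num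
  rw [hI] at h
  linear_combination h / 2

/-- `E₄` vanishes at `ρ`. -/
lemma E₄_ρ : E₄ UpperHalfPlane.ρ = 0 := by
  have h := E₄_smul (ModularGroup.S * ModularGroup.T) UpperHalfPlane.ρ
  rw [ST_smul_ρ] at h
  have e10 : (ModularGroup.S * ModularGroup.T : SL(2, ℤ)) 1 0 = 1 := by
    simp [ModularGroup.S, ModularGroup.T, Matrix.SpecialLinearGroup.coe_mul]
  have e11 : (ModularGroup.S * ModularGroup.T : SL(2, ℤ)) 1 1 = 1 := by
    simp [ModularGroup.S, ModularGroup.T, Matrix.SpecialLinearGroup.coe_mul]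
  rw [ModularGroup.denom_apply, e10, e11] at h
  simp only [Int.cast_one, one_mul] at h
  have hsq : ((UpperHalfPlane.ρ : ℍ) : ℂ) ^ 2 = -(UpperHalfPlane.ρ : ℂ) - 1 := UpperHalfPlane.ρ_sq
  have h4 : ((UpperHalfPlane.ρ : ℂ) + 1) ^ (4 : ℤ) = -(UpperHalfPlane.ρ : ℂ) - 1 := by
    rw [show (4 : ℤ) = ((4 : ℕ) : ℤ) from rfl, zpow_natCast]
    have e1 : ((UpperHalfPlane.ρ : ℂ) + 1) ^ 2 = (UpperHalfPlane.ρ : ℂ) := by
      linear_combination hsq
    have e2 : ((UpperHalfPlane.ρ : ℂ) + 1) ^ 4 = (((UpperHalfPlane.ρ : ℂ) + 1) ^ 2) ^ 2 := by ring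
    rw [e2, e1, hsq]
  rw [h4] at h
  have hne : (UpperHalfPlane.ρ : ℂ) + 2 ≠ 0 := by
    intro h0
    have him := congrArg Complex.im h0
    have hpos := (UpperHalfPlane.ρ).im_pos
    simp at him
    have : (UpperHalfPlane.ρ).im = 0 := him
    linarith
  have h' : ((UpperHalfPlane.ρ : ℂ) + 2) * E₄ UpperHalfPlane.ρ = 0 := by
    linear_combination h
  exact (mul_eq_zero.mp h').resolve_left hne

/-- `J(i) = 1728`. -/
lemma jInv_I : jInv UpperHalfPlane.I = 1728 := by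
  have hΔ := ModularForm.discriminant_eq_E₄_cube_sub_E₆_sq UpperHalfPlane.I
  have hne : Δ UpperHalfPlane.I ≠ 0 := discriminant_ne_zero _
  rw [E₆_I] at hΔ
  rw [jInv, div_eq_iff hne, hΔ]
  ring

/-- `J(ρ) = 0`. -/
lemma jInv_ρ : jInv UpperHalfPlane.ρ = 0 := by
  rw [jInv, E₄_ρ]
  simp

lemma E₄_cube_div_discriminant_I :
    E₄ UpperHalfPlane.I ^ 3 / ModularForm.discriminant UpperHalfPlane.I = 1728 := jInv_I

lemma E₄_cube_div_discriminant_ρ :
    E₄ UpperHalfPlane.ρ ^ 3 / ModularForm.discriminant UpperHalfPlane.ρ = 0 := jInv_ρ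

end Fermat.Agent.S24.helper519
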