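import Fermat.Agent.S24.helper24_Spec

/-!
# `Stmt_JTranscendental` : the function `j` is transcendental over `ℚ̄`

A Laurent series with a pole (here: `j = q⁻¹ + 744 + ⋯`) is transcendental over the field of
constants: the leading coefficient of `P(j)` is the leading coefficient of `P`.
-/

set_option autoImplicit false

open ModularCurve IntermediateField

namespace Fermat.Agent.S24.helper519

open Fermat.Agent.S24.helper24

section Generic

variable {L : Type*} [Field L]

/-- The coefficient of `c • y` for a constant `c`. -/
lemma coeff_algebraMap_mul (c : L) (y : LaurentSeries L) (k : ℤ) :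
    (algebraMap L (LaurentSeries L) c * y).coeff k = c * y.coeff k := by
  rw [algebraMap_laurentSeries_eq_single, HahnSeries.coeff_single_mul, sub_zero]

/-- If the powers of `x : L((q))` satisfy `(x^n).coeff (-n) = 1` and `(x^n).coeff m = 0` for
`m < -n` (i.e. `x = q⁻¹ + ⋯`), then `x` is transcendental over `L`. -/
theorem transcendental_of_coeff_pow (x : LaurentSeries L)
    (h1 : ∀ n : ℕ, (x ^ n).coeff (-(n : ℤ)) = 1)
    (h0 : ∀ (n : ℕ) (m : ℤ), m < -(n : ℤ) → (x ^ n).coeff m = 0) :
    Transcendental L x := by
  intro halg
  obtain ⟨p, hp0, hp⟩ := halg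
  have hlead : p.coeff p.natDegree ≠ 0 := by
    rw [Polynomial.coeff_natDegree]
    exact Polynomial.leadingCoeff_ne_zero.mpr hp0
  have hcoeff : (Polynomial.aeval x p).coeff (-(p.natDegree : ℤ)) = p.coeff p.natDegree := by
    rw [Polynomial.aeval_eq_sum_range, HahnSeries.coeff_sum]
    rw [Finset.sum_eq_single_of_mem p.natDegree (Finset.self_mem_range_succ _)]
    · rw [Algebra.smul_def, coeff_algebraMap_mul, h1, mul_one]
    · intro i hi hne
      have hlt : i < p.natDegree :=
        lt_of_le_of_ne (Nat.lt_succ_iff.mp (Finset.mem_range.mp hi)) hne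
      rw [Algebra.smul_def, coeff_algebraMap_mul, h0 i _ (by omega), mul_zero]
  rw [hp] at hcoeff
  exact hlead (by simpa using hcoeff.symm)

end Generic

/-- `j = q⁻¹ + 744 + ⋯` with coefficients in any field `L ⊇ ℚ` is transcendental over `L`. -/
theorem transcendental_coeffEmb_jq (L : Type*) [Field L] [Algebra ℚ L] :
    Transcendental L (coeffEmb L jq) := by
  refine transcendental_of_coeff_pow _ (fun n => ?_) (fun n m hm => ?_)
  · rw [← map_pow, coeffEmb_coeff, coeff_jq_pow_self, map_one]
  · rw [← map_pow, coeffEmb_coeff, coeff_jq_pow_of_lt hm, map_zero]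

/-- **M1** (`Stmt_JTranscendental`): `j` is transcendental over `ℚ̄` in the function field
of level `N`. -/
theorem stmt_JTranscendental : Stmt_JTranscendental := by
  intro N _ halg
  have hinj : Function.Injective (algebraMap (FN N) (LaurentSeries Kbar)) :=
    (algebraMap (FN N) (LaurentSeries Kbar)).injective
  have h2 : IsAlgebraic Kbar (algebraMap (FN N) (LaurentSeries Kbar) (jBar N)) :=
    (isAlgebraic_algebraMap_iff hinj).mpr halg
  have h3 : algebraMap (FN N) (LaurentSeries Kbar) (jBar N) = coeffEmb Kbar jq := coe_jBar N
  rw [h3] at h2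
  exact transcendental_coeffEmb_jq Kbar h2

/-- Variant: `j - c` is transcendental for every constant `c`. -/
theorem transcendental_jBar_sub (N : ℕ) [NeZero N] (c : Kbar) :
    Transcendental Kbar (jBar N - algebraMap Kbar (FN N) c) := by
  intro halg
  apply stmt_JTranscendental N
  have h := halg.add (isAlgebraic_algebraMap (R := Kbar) (A := FN N) c)
  simpa using h

/-- Variant: `1/j` is transcendental. -/
theorem transcendental_jBar_inv (N : ℕ) [NeZero N] :
    Transcendental Kbar (jBar N)⁻¹ := by
  intro halg
  apply stmt_JTranscendental N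
  simpa using halg.inv

end Fermat.Agent.S24.helper519
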