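import Fermat.Agent.S24.helper24_Spec
import Fermat.Agent.S24.helper552_HolRing

/-!
# Local data at the points of the upper half plane (S24, M3)

From a "dictionary" hypothesis (polynomial relations between the formal `j(q^d)` over `ℚ̄`
are the same as the relations between the analytic functions `J(dτ)`), we construct the
analytic embedding `ev : F_N → Mer` and deduce the local data `LocalDatum` of the spec file
at the points over `j = c`, `j = 1728`, `j = 0`.
-/

set_option autoImplicit false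

open ModularCurve AlgebraicCurve IntermediateField CongruenceSubgroup UpperHalfPlane
open scoped MatrixGroups Manifold
open Fermat.Agent.S24.helper24

namespace Fermat.Agent.S24.helper552

noncomputable section

/-! ## Generators of the function field -/

/-- The index type of the generators `j(q^d)`, `d ∣ N`. -/
abbrev Dv (N : ℕ) : Type := {d : ℕ // d ∣ N}

theorem Dv.neZero {N : ℕ} [NeZero N] (d : Dv N) : NeZero d.1 :=
  ⟨ne_zero_of_dvd_ne_zero (NeZero.ne N) d.2⟩

theorem Dv.pos {N : ℕ} [NeZero N] (d : Dv N) : 0 < d.1 :=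
  Nat.pos_of_ne_zero (ne_zero_of_dvd_ne_zero (NeZero.ne N) d.2)

/-- The generator `j(q^d)` of the function field of level `N`. -/
def jGen (N : ℕ) [NeZero N] (d : Dv N) : FN N :=
  haveI : NeZero d.1 := d.neZero
  jBarD N d.1 d.2

theorem jGen_one (N : ℕ) [NeZero N] : jGen N ⟨1, one_dvd N⟩ = jBar N := rfl

theorem coe_jGen (N : ℕ) [NeZero N] (d : Dv N) :
    ((jGen N d : FN N) : LaurentSeries Kbar) =
      coeffEmb Kbar (@qExpand ℚ _ d.1 d.neZero jq) := rfl

/-- The function field is generated, as a field over `ℚ̄`, by the `j(q^d)`. -/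
theorem modularFunctionFieldBar_eq_adjoin (N : ℕ) [NeZero N] :
    modularFunctionFieldBar N =
      IntermediateField.adjoin Kbar
        (Set.range fun d : Dv N => ((jGen N d : FN N) : LaurentSeries Kbar)) := by
  apply le_antisymm
  · show laurentBaseChange Kbar (modularFunctionFieldFull N) ≤ _
    rw [laurentBaseChange, IntermediateField.adjoin_le_iff]
    have key : ∀ x : LaurentSeries ℚ, x ∈ IntermediateField.adjoin ℚ (divisorExpansions N) →
        coeffEmb Kbar x ∈ IntermediateField.adjoin Kbar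
          (Set.range fun d : Dv N => ((jGen N d : FN N) : LaurentSeries Kbar)) := by
      intro x hx
      induction hx using IntermediateField.adjoin_induction with
      | mem y hy =>
          obtain ⟨d, hne, hd, rfl⟩ := hy
          exact IntermediateField.subset_adjoin Kbar _ ⟨⟨d, hd⟩, rfl⟩
      | algebraMap q =>
          have h : coeffEmb Kbar (algebraMap ℚ (LaurentSeries ℚ) q)
              = algebraMap Kbar (LaurentSeries Kbar) (algebraMap ℚ Kbar q) := by
            rw [algebraMap_apply_eq_single, algebraMap_laurentSeries_eq_single, coeffEmb,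
              coeffMap_single]
          rw [h]
          exact IntermediateField.algebraMap_mem _ _
      | add y z _ _ hy hz => rw [map_add]; exact add_mem hy hz
      | inv y _ hy => rw [map_inv₀]; exact inv_mem hy
      | mul y z _ _ hy hz => rw [map_mul]; exact mul_mem hy hz
    rintro _ ⟨x, hx, rfl⟩
    exact key x hx
  · rw [IntermediateField.adjoin_le_iff]
    rintro _ ⟨d, rfl⟩
    exact (jGen N d).2

/-- Every element of the function field is a quotient of polynomials in the generators. -/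
theorem exists_aeval_div (N : ℕ) [NeZero N] (f : FN N) :
    ∃ r s : MvPolynomial (Dv N) Kbar,
      f = MvPolynomial.aeval (jGen N) r / MvPolynomial.aeval (jGen N) s := by
  have hf : (f : LaurentSeries Kbar) ∈ IntermediateField.adjoin Kbar
      (Set.range fun d : Dv N => ((jGen N d : FN N) : LaurentSeries Kbar)) := by
    rw [← modularFunctionFieldBar_eq_adjoin]
    exact f.2
  obtain ⟨r, s, h⟩ := (IntermediateField.mem_adjoin_range_iff Kbar _ _).mp hf
  have hc : ∀ p : MvPolynomial (Dv N) Kbar,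
      ((MvPolynomial.aeval (jGen N) p : FN N) : LaurentSeries Kbar)
        = MvPolynomial.aeval (fun d : Dv N => ((jGen N d : FN N) : LaurentSeries Kbar)) p := by
    intro p
    have := MvPolynomial.comp_aeval (jGen N) (modularFunctionFieldBar N).val
    exact AlgHom.congr_fun this p
  refine ⟨r, s, Subtype.ext ?_⟩
  rw [h, IntermediateField.coe_div, hc, hc]

/-! ## The analytic `j`-function -/

theorem jFun_mdiff : MDifferentiable 𝓘(ℂ) 𝓘(ℂ) jFun := by
  rw [UpperHalfPlane.mdifferentiable_iff]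
  have h4 := UpperHalfPlane.mdifferentiable_iff.mp ModularForm.E₄.holo'
  have h12 := UpperHalfPlane.mdifferentiable_iff.mp CuspForm.discriminant.holo'
  have hdiv := (h4.pow 3).div h12 (fun z _ => ModularForm.discriminant_ne_zero _)
  exact hdiv

theorem jFun_smul (g : SL(2, ℤ)) (τ : ℍ) : jFun (g • τ) = jFun τ := by
  have hmem : (Matrix.SpecialLinearGroup.mapGL ℝ g) ∈ (𝒮ℒ : Subgroup (GL (Fin 2) ℝ)) := ⟨g, rfl⟩
  have h4 := SlashInvariantForm.slash_action_eqn'' ModularForm.E₄ hmem τ
  have h12 := SlashInvariantForm.slash_action_eqn'' CuspForm.discriminant hmem τ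
  have hd : denom (Matrix.SpecialLinearGroup.mapGL ℝ g) (τ : ℂ) ≠ 0 := denom_ne_zero _ τ
  have hΔ : ModularForm.discriminant τ ≠ 0 := ModularForm.discriminant_ne_zero τ
  rw [CuspForm.coe_discriminant] at h12
  have hsm : g • τ = (Matrix.SpecialLinearGroup.mapGL ℝ g) • τ := rfl
  unfold jFun
  rw [hsm, h4, h12]
  rw [zpow_ofNat, zpow_ofNat]
  field_simp

/-- The function `τ ↦ J(dτ)`. -/
def JdFun (d : ℕ) : ℍ → ℂ := fun τ => jFun (ofComplex ((d : ℂ) * τ))

theorem JdFun_one (τ : ℍ) : JdFun 1 τ = jFun τ := by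
  simp [JdFun]

theorem JdFun_mdiff (d : ℕ) (hd : 0 < d) : MDifferentiable 𝓘(ℂ) 𝓘(ℂ) (JdFun d) := by
  rw [UpperHalfPlane.mdifferentiable_iff]
  have hJ := UpperHalfPlane.mdifferentiable_iff.mp jFun_mdiff
  have hmaps : Set.MapsTo (fun z : ℂ => (d : ℂ) * z) {z | 0 < z.im} {z | 0 < z.im} := by
    intro z hz
    show 0 < ((d : ℂ) * z).im
    simp only [Complex.mul_im, Complex.natCast_re, Complex.natCast_im,
      zero_mul, add_zero]
    exact mul_pos (by exact_mod_cast hd) hz
  have hcomp := hJ.comp ((differentiable_id.const_mul (d : ℂ)).differentiableOn) hmaps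
  refine hcomp.congr ?_
  intro z hz
  simp only [Function.comp_apply, JdFun]
  rw [UpperHalfPlane.ofComplex_apply_of_im_pos hz]

/-- The point `d * τ`. -/
def dmul (d : ℕ) (hd : 0 < d) (τ : ℍ) : ℍ :=
  ⟨(d : ℂ) * τ, by
    simp only [Complex.mul_im, Complex.natCast_re, Complex.natCast_im, zero_mul, add_zero]
    exact mul_pos (by exact_mod_cast hd) τ.im_pos⟩

theorem coe_dmul (d : ℕ) (hd : 0 < d) (τ : ℍ) : ((dmul d hd τ : ℍ) : ℂ) = (d : ℂ) * τ := rfl

theorem JdFun_eq (d : ℕ) (hd : 0 < d) (τ : ℍ) : JdFun d τ = jFun (dmul d hd τ) := by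
  unfold JdFun
  rw [← coe_dmul d hd τ, UpperHalfPlane.ofComplex_apply]

/-- `J(dτ)` is invariant under `Γ₀(N)` when `d ∣ N`. -/
theorem JdFun_smul_Gamma0 (N : ℕ) [NeZero N] (d : Dv N) (γ : SL(2, ℤ)) (hγ : γ ∈ Gamma0 N)
    (τ : ℍ) : JdFun d.1 (γ • τ) = JdFun d.1 τ := by
  have hd := d.pos
  have hc : (N : ℤ) ∣ γ 1 0 := by
    rw [Gamma0_mem] at hγ
    exact (ZMod.intCast_zmod_eq_zero_iff_dvd _ _).mp hγ
  obtain ⟨c', hc'⟩ : (d.1 : ℤ) ∣ γ 1 0 := (Int.natCast_dvd_natCast.mpr d.2).trans hc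
  have hdet : γ 0 0 * γ 1 1 - γ 0 1 * γ 1 0 = 1 := by
    have := γ.det_coe
    rw [Matrix.det_fin_two] at this
    exact this
  let γ' : SL(2, ℤ) := ⟨!![γ 0 0, γ 0 1 * d.1; c', γ 1 1], by
    rw [Matrix.det_fin_two_of]
    rw [hc'] at hdet
    linear_combination hdet⟩
  have key : γ' • dmul d.1 hd τ = dmul d.1 hd (γ • τ) := by
    apply UpperHalfPlane.ext
    rw [coe_dmul, UpperHalfPlane.coe_specialLinearGroup_apply,
      UpperHalfPlane.coe_specialLinearGroup_apply, coe_dmul]
    have e00 : γ' 0 0 = γ 0 0 := rfl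
    have e01 : γ' 0 1 = γ 0 1 * d.1 := rfl
    have e10 : γ' 1 0 = c' := rfl
    have e11 : γ' 1 1 = γ 1 1 := rfl
    rw [e00, e01, e10, e11, hc']
    have hden := UpperHalfPlane.denom_ne_zero (Matrix.SpecialLinearGroup.mapGL ℝ γ) τ
    have hden' : ((γ 1 0 : ℤ) : ℂ) * τ + ((γ 1 1 : ℤ) : ℂ) ≠ 0 := by
      simpa [denom] using hden
    rw [hc'] at hden'
    push_cast at hden' ⊢
    have hden'' : (c' : ℂ) * ((d.1 : ℂ) * τ) + (γ 1 1 : ℂ) ≠ 0 := by
      intro h0
      apply hden'
      linear_combination h0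
    field_simp
  rw [JdFun_eq d.1 hd, JdFun_eq d.1 hd, ← key, jFun_smul]

/-! ## The analytic embedding -/

/-- `J(dτ)` as an element of `Hol`. -/
def JdHol (N : ℕ) [NeZero N] (d : Dv N) : Hol := ⟨JdFun d.1, JdFun_mdiff d.1 d.pos⟩

/-- Evaluation at a point. -/
def evalAt (τ : ℍ) : Hol →+* ℂ where
  toFun f := f.1 τ
  map_one' := rfl
  map_mul' _ _ := rfl
  map_zero' := rfl
  map_add' _ _ := rfl

/-- The dictionary hypothesis: the polynomial relations over `ℚ̄` between the formal series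
`j(q^d)`, `d ∣ N`, are exactly the relations between the functions `J(dτ)` (with coefficients
transported by `i0`). Any `q`-expansion dictionary (or any analytic embedding `ev`) proves it. -/
def DictStmt (i0 : Kbar →+* ℂ) : Prop :=
  ∀ (N : ℕ) [NeZero N] (P : MvPolynomial (Dv N) Kbar),
    MvPolynomial.aeval (jGen N) P = 0 ↔
      ∀ τ : ℍ, MvPolynomial.eval₂ i0 (fun d : Dv N => jFun (ofComplex ((d.1 : ℂ) * τ))) P = 0

section Ev

variable (i0 : Kbar →+* ℂ) (N : ℕ) [NeZero N]

/-- Evaluation of polynomials in the generators at the functions `J(dτ)`. -/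
def evR : MvPolynomial (Dv N) Kbar →+* Hol :=
  MvPolynomial.eval₂Hom (constHol.comp i0) (JdHol N)

theorem evR_C (c : Kbar) : evR i0 N (MvPolynomial.C c) = constHol (i0 c) := by
  simp [evR]

theorem evR_X (d : Dv N) : evR i0 N (MvPolynomial.X d) = JdHol N d := by
  simp [evR]

theorem evR_apply (P : MvPolynomial (Dv N) Kbar) (τ : ℍ) :
    (evR i0 N P).1 τ =
      MvPolynomial.eval₂ i0 (fun d : Dv N => jFun (ofComplex ((d.1 : ℂ) * τ))) P := by
  have h := MvPolynomial.eval₂_comp_left (evalAt τ) (constHol.comp i0) (JdHol N) P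
  have h1 : (evalAt τ).comp (constHol.comp i0) = i0 := RingHom.ext fun c => rfl
  have h2 : (⇑(evalAt τ) ∘ JdHol N) = fun d : Dv N => jFun (ofComplex ((d.1 : ℂ) * τ)) := rfl
  rw [h1, h2] at h
  exact h

theorem evR_eq_zero_iff (hD : DictStmt i0) (P : MvPolynomial (Dv N) Kbar) :
    evR i0 N P = 0 ↔ MvPolynomial.aeval (jGen N) P = 0 := by
  rw [hD N P]
  constructor
  · intro h τ
    rw [← evR_apply, h]
    rfl
  · intro h
    apply Subtype.ext
    funext τ
    rw [evR_apply, h τ]
    rfl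

/-- The subalgebra generated by the `j(q^d)`. -/
abbrev AN : Subalgebra Kbar (FN N) :=
  (MvPolynomial.aeval (jGen N) : MvPolynomial (Dv N) Kbar →ₐ[Kbar] FN N).range

/-- The presentation of `AN N` as a quotient of the polynomial ring. -/
def piA : MvPolynomial (Dv N) Kbar →+* AN N :=
  (MvPolynomial.aeval (jGen N) : MvPolynomial (Dv N) Kbar →ₐ[Kbar] FN N).rangeRestrict.toRingHom

theorem piA_surjective : Function.Surjective (piA N) :=
  AlgHom.rangeRestrict_surjective
    (MvPolynomial.aeval (jGen N) : MvPolynomial (Dv N) Kbar →ₐ[Kbar] FN N)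

theorem coe_piA (P : MvPolynomial (Dv N) Kbar) :
    ((piA N P : AN N) : FN N) = MvPolynomial.aeval (jGen N) P := rfl

theorem piA_eq_zero_iff (P : MvPolynomial (Dv N) Kbar) :
    piA N P = 0 ↔ MvPolynomial.aeval (jGen N) P = 0 := by
  rw [← coe_piA]
  exact ⟨fun h => by rw [h]; rfl, fun h => Subtype.ext h⟩

/-- The analytic embedding on the subalgebra `AN N`. -/
def evA (hD : DictStmt i0) : AN N →+* Hol :=
  RingHom.liftOfSurjective (piA N) (piA_surjective N)
    ⟨evR i0 N, fun P hP => by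
      rw [RingHom.mem_ker] at hP ⊢
      rw [evR_eq_zero_iff i0 N hD]
      exact (piA_eq_zero_iff N P).mp hP⟩

theorem evA_piA (hD : DictStmt i0) (P : MvPolynomial (Dv N) Kbar) :
    evA i0 N hD (piA N P) = evR i0 N P :=
  RingHom.liftOfSurjective_comp_apply (piA N) (piA_surjective N) _ P

theorem evA_injective (hD : DictStmt i0) : Function.Injective (evA i0 N hD) := by
  rw [injective_iff_map_eq_zero]
  intro a ha
  obtain ⟨P, rfl⟩ := piA_surjective N a
  rw [evA_piA, evR_eq_zero_iff i0 N hD] at ha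
  exact (piA_eq_zero_iff N P).mpr ha

instance instIsFractionRingAN : IsFractionRing (AN N) (FN N) :=
  IsFractionRing.of_field _ _ fun z => by
    obtain ⟨r, s, h⟩ := exists_aeval_div N z
    exact ⟨piA N r, piA N s, h⟩

/-- The analytic embedding of the function field into the field of meromorphic functions. -/
def ev (hD : DictStmt i0) : FN N →+* Mer :=
  IsFractionRing.lift (A := AN N) (g := (algebraMap Hol Mer).comp (evA i0 N hD))
    (algebraMap_injective.comp (evA_injective i0 N hD))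

theorem ev_aeval (hD : DictStmt i0) (P : MvPolynomial (Dv N) Kbar) :
    ev i0 N hD (MvPolynomial.aeval (jGen N) P) = algebraMap Hol Mer (evR i0 N P) := by
  have h := IsFractionRing.lift_algebraMap (A := AN N) (K := FN N)
    (g := (algebraMap Hol Mer).comp (evA i0 N hD))
    (algebraMap_injective.comp (evA_injective i0 N hD)) (piA N P)
  rw [RingHom.comp_apply, evA_piA] at h
  exact h

theorem ev_jGen (hD : DictStmt i0) (d : Dv N) :
    ev i0 N hD (jGen N d) = algebraMap Hol Mer (JdHol N d) := by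
  have h := ev_aeval i0 N hD (MvPolynomial.X d)
  rwa [MvPolynomial.aeval_X, evR_X] at h

theorem ev_algebraMap (hD : DictStmt i0) (c : Kbar) :
    ev i0 N hD (algebraMap Kbar (FN N) c) = constMer (i0 c) := by
  have h := ev_aeval i0 N hD (MvPolynomial.C c)
  rwa [MvPolynomial.aeval_C, evR_C] at h

/-- `Γ₀(N)`-invariance of the analytic embedding. -/
theorem pull_ev_of_mem_Gamma0 (hD : DictStmt i0) (γ : SL(2, ℤ)) (hγ : γ ∈ Gamma0 N) (f : FN N) :
    pull γ (ev i0 N hD f) = ev i0 N hD f := by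
  have key : (pullHol γ : Hol →+* Hol).comp (evR i0 N) = evR i0 N := by
    apply MvPolynomial.ringHom_ext
    · intro c
      rw [RingHom.comp_apply, evR_C]
      rfl
    · intro d
      rw [RingHom.comp_apply, evR_X]
      apply Subtype.ext
      funext τ
      exact JdFun_smul_Gamma0 N d γ⁻¹ (inv_mem hγ) τ
  obtain ⟨r, s, rfl⟩ := exists_aeval_div N f
  rw [map_div₀, map_div₀, ev_aeval, ev_aeval, pull_algebraMap, pull_algebraMap]
  have hr := RingHom.congr_fun key r
  have hs := RingHom.congr_fun key s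
  rw [RingHom.comp_apply] at hr hs
  rw [show pullHol γ (evR i0 N r) = evR i0 N r from hr,
    show pullHol γ (evR i0 N s) = evR i0 N s from hs]

end Ev

/-! ## Local data -/

/-- Coset separation hypothesis (E5): `J(N·gτ) = J(Nτ)` for all `τ` forces `g ∈ Γ₀(N)`. -/
def E5Stmt : Prop :=
  ∀ (N : ℕ) [NeZero N] (g : SL(2, ℤ)),
    (∀ τ : ℍ, jFun (ofComplex ((N : ℂ) * ((g • τ : ℍ) : ℂ)))
      = jFun (ofComplex ((N : ℂ) * (τ : ℂ)))) → g ∈ Gamma0 N

section Local

variable (i0 : Kbar →+* ℂ)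

/-- The `ℚ̄`-algebra structure on `Mer` induced by `i0`. -/
@[reducible] def algKbarMer : Algebra Kbar Mer := (constMer.comp i0).toAlgebra

/-- The analytic embedding as a `ℚ̄`-algebra homomorphism. -/
def evAlg (N : ℕ) [NeZero N] (hD : DictStmt i0) :
    @AlgHom Kbar (FN N) Mer _ _ _ _ (algKbarMer i0) :=
  letI := algKbarMer i0
  { ev i0 N hD with commutes' := fun c => ev_algebraMap i0 N hD c }

theorem evAlg_apply (N : ℕ) [NeZero N] (hD : DictStmt i0) (f : FN N) :
    evAlg i0 N hD f = ev i0 N hD f := rfl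

/-- The pullback as a `ℚ̄`-algebra automorphism. -/
def pullAlg (g : SL(2, ℤ)) : @AlgEquiv Kbar Mer Mer _ _ _ (algKbarMer i0) (algKbarMer i0) :=
  letI := algKbarMer i0
  { pull g with commutes' := fun c => pull_constMer g (i0 c) }

theorem pullAlg_apply (g : SL(2, ℤ)) (z : Mer) : pullAlg i0 g z = pull g z := rfl

theorem pullAlg_pow_apply (g : SL(2, ℤ)) (k : ℕ) (z : Mer) :
    letI := algKbarMer i0
    ((pullAlg i0 g) ^ k) z = (pull g)^[k] z := by
  let _ : Algebra Kbar Mer := algKbarMer i0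
  induction k generalizing z with
  | zero => rfl
  | succ k ih =>
    rw [pow_succ, AlgEquiv.mul_apply, ih, pullAlg_apply, Function.iterate_succ_apply]

theorem holC_J_sub_const (N : ℕ) [NeZero N] (c : ℂ) :
    holC (JdHol N ⟨1, one_dvd N⟩ - constHol c) = fun z : ℂ => jFun (ofComplex z) - c := by
  funext z
  show JdFun 1 (ofComplex z) - c = _
  rw [JdFun_one]

theorem pullHol_JdHol_one (N : ℕ) [NeZero N] (g : SL(2, ℤ)) :
    pullHol g (JdHol N ⟨1, one_dvd N⟩) = JdHol N ⟨1, one_dvd N⟩ := by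
  apply Subtype.ext
  funext τ
  show JdFun 1 (g⁻¹ • τ) = JdFun 1 τ
  rw [JdFun_one, JdFun_one, jFun_smul]

/-- The local datum at a point `τ0` fixed by `s`, over the value `c` of `j`. -/
theorem localDatum_of_fixed (hD : DictStmt i0) (hE5 : E5Stmt) (N : ℕ) [NeZero N]
    (s : SL(2, ℤ)) (m : ℕ) (hm : 0 < m) (τ0 : ℍ) (hfix : s • τ0 = τ0) (c : Kbar)
    (hord : analyticOrderAt (fun z : ℂ => jFun (ofComplex z) - i0 c) τ0 = m)
    (hdiv : ∀ (k : ℕ) (z : Mer), z ≠ 0 → (pull s)^[k] z = z →
      ∃ l : ℤ, ordAt τ0 z = (((m / Nat.gcd k m : ℕ) * l : ℤ) : WithTop ℤ)) :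
    LocalDatum N (jBar N - algebraMap Kbar (FN N) c) m s := by
  let _ : Algebra Kbar Mer := algKbarMer i0
  have hΓ : ∀ (g γ : SL(2, ℤ)), γ ∈ Gamma0 N → ∀ f : FN N,
      pull (g * γ) (ev i0 N hD f) = pull g (ev i0 N hD f) := by
    intro g γ hγ f
    rw [pull_mul, pull_ev_of_mem_Gamma0 i0 N hD γ hγ]
  have hcoset : ∀ (g g' : SL(2, ℤ)), ((g : SL(2, ℤ)) : XN N) = g' → ∀ f : FN N,
      pull g' (ev i0 N hD f) = pull g (ev i0 N hD f) := by
    intro g g' hgg f
    have hmem : g⁻¹ * g' ∈ Gamma0 N := QuotientGroup.eq.mp hgg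
    have := hΓ g (g⁻¹ * g') hmem f
    rwa [mul_inv_cancel_left] at this
  refine ⟨Mer, inferInstance, algKbarMer i0, ordAt τ0,
    fun x => (pullAlg i0 (Quotient.out x)).toAlgHom.comp (evAlg i0 N hD), pullAlg i0 s,
    algebraMap Hol Mer (JdHol N ⟨1, one_dvd N⟩ - constHol (i0 c)), ?_, ?_, ?_, hm, ?_, ?_,
    Or.inl ?_, ?_⟩
  · -- the valuation is trivial on constants
    intro a ha
    exact ordAt_constMer τ0 ((map_ne_zero i0).mpr ha)
  · -- injectivity in the coset
    intro x x' hxx
    have h1 := AlgHom.congr_fun hxx (jGen N ⟨N, dvd_rfl⟩)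
    have h2 : pull (Quotient.out x) (ev i0 N hD (jGen N ⟨N, dvd_rfl⟩))
        = pull (Quotient.out x') (ev i0 N hD (jGen N ⟨N, dvd_rfl⟩)) := h1
    rw [ev_jGen, pull_algebraMap, pull_algebraMap] at h2
    have h3 := algebraMap_injective h2
    have h4 : ∀ τ : ℍ, JdFun N ((Quotient.out x)⁻¹ • τ) = JdFun N ((Quotient.out x')⁻¹ • τ) :=
      fun τ => congrArg (fun f : Hol => f.1 τ) h3
    have h5 : (Quotient.out x)⁻¹ * Quotient.out x' ∈ Gamma0 N := by
      apply hE5 N
      intro τ
      have := h4 (Quotient.out x' • τ)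
      rw [inv_smul_smul, ← mul_smul] at this
      exact this
    have h6 : ((Quotient.out x : SL(2, ℤ)) : XN N) = (Quotient.out x' : SL(2, ℤ)) :=
      QuotientGroup.eq.mpr h5
    rwa [QuotientGroup.out_eq', QuotientGroup.out_eq'] at h6
  · -- all embeddings agree on `j - c`
    intro x
    show pull (Quotient.out x) (ev i0 N hD (jBar N - algebraMap Kbar (FN N) c)) = _
    rw [map_sub, ev_algebraMap, ← jGen_one, ev_jGen, map_sub, pull_algebraMap, pull_constMer,
      pullHol_JdHol_one, map_sub]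
    rfl
  · -- the order of `j - c` at `τ0`
    apply ordAt_algebraMap_of_analyticOrderAt
    rw [holC_J_sub_const]
    exact hord
  · -- invariance of the valuation
    intro z
    exact ordAt_pull_of_fixed s τ0 hfix z
  · -- equivariance
    intro x f
    show pull s (pull (Quotient.out x) (ev i0 N hD f))
      = pull (Quotient.out (s • x)) (ev i0 N hD f)
    rw [← pull_mul]
    refine (hcoset (s * Quotient.out x) (Quotient.out (s • x)) ?_ f).symm
    rw [QuotientGroup.out_eq']
    conv_rhs => rw [← QuotientGroup.out_eq' x]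
    rfl
  · -- divisibility
    intro k z hz hk
    have hk' : (pull s)^[k] z = z := by
      rw [← pullAlg_pow_apply i0 s k z]
      exact hk
    exact hdiv k z hz hk'

end Local

/-! ## The three finite-point statements of the spec -/

/-- J5 at a fixed point of `S`: `J - 1728` vanishes to order exactly `2`. -/
def J5iStmt : Prop :=
  ∃ τ0 : ℍ, ModularGroup.S • τ0 = τ0 ∧
    analyticOrderAt (fun z : ℂ => jFun (ofComplex z) - 1728) (τ0 : ℂ) = 2

/-- J5 at a fixed point of `S * T`: `J` vanishes to order exactly `3`. -/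
def J5rhoStmt : Prop :=
  ∃ τ0 : ℍ, (ModularGroup.S * ModularGroup.T) • τ0 = τ0 ∧
    analyticOrderAt (fun z : ℂ => jFun (ofComplex z)) (τ0 : ℂ) = 3

/-- C2 + J5 at generic points: every value `c ≠ 0, 1728` is taken with multiplicity one at some
point. -/
def J5genStmt : Prop :=
  ∀ c : ℂ, c ≠ 0 → c ≠ 1728 → ∃ τ0 : ℍ,
    analyticOrderAt (fun z : ℂ => jFun (ofComplex z) - c) (τ0 : ℂ) = 1

theorem stmt_Local1728 (i0 : Kbar →+* ℂ) (hD : DictStmt i0) (hE5 : E5Stmt) (h : J5iStmt) :
    Stmt_Local1728 := by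
  intro N _
  obtain ⟨τ0, hfix, hord⟩ := h
  have hord' : analyticOrderAt (fun z : ℂ => jFun (ofComplex z) - i0 1728) (τ0 : ℂ)
      = ((2 : ℕ) : ℕ∞) := by
    rw [map_ofNat]
    exact hord
  exact localDatum_of_fixed i0 hD hE5 N ModularGroup.S 2 (by norm_num) τ0 hfix 1728 hord'
    (fun k z hz hk => hdiv_S τ0 hfix k z hz hk)

theorem stmt_LocalZero (i0 : Kbar →+* ℂ) (hD : DictStmt i0) (hE5 : E5Stmt) (h : J5rhoStmt) :
    Stmt_LocalZero := by
  intro N _
  obtain ⟨τ0, hfix, hord⟩ := h
  have hord' : analyticOrderAt (fun z : ℂ => jFun (ofComplex z) - i0 0) (τ0 : ℂ)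
      = ((3 : ℕ) : ℕ∞) := by
    simp only [map_zero, sub_zero]
    exact hord
  have key := localDatum_of_fixed i0 hD hE5 N (ModularGroup.S * ModularGroup.T) 3 (by norm_num)
    τ0 hfix 0 hord' (fun k z hz hk => hdiv_ST τ0 hfix k z hz hk)
  rwa [map_zero, sub_zero] at key

theorem stmt_LocalGeneric (i0 : Kbar →+* ℂ) (hD : DictStmt i0) (hE5 : E5Stmt) (h : J5genStmt) :
    Stmt_LocalGeneric := by
  intro N _ c hc0 hc1728
  have h1 : i0 c ≠ 0 := (map_ne_zero i0).mpr hc0
  have h2 : i0 c ≠ 1728 := by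
    intro h'
    apply hc1728
    apply i0.injective
    rw [h', map_ofNat]
  obtain ⟨τ0, hord⟩ := h (i0 c) h1 h2
  have hord' : analyticOrderAt (fun z : ℂ => jFun (ofComplex z) - i0 c) (τ0 : ℂ)
      = ((1 : ℕ) : ℕ∞) := by
    rw [hord]
    rfl
  exact localDatum_of_fixed i0 hD hE5 N 1 1 one_pos τ0 (one_smul _ _) c hord'
    (fun k z hz _ => hdiv_one τ0 k z hz)

/-- The three finite-point statements together. -/
theorem stmt_LocalFinite (i0 : Kbar →+* ℂ) (hD : DictStmt i0) (hE5 : E5Stmt) (hi : J5iStmt)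
    (hρ : J5rhoStmt) (hgen : J5genStmt) :
    Stmt_LocalGeneric ∧ Stmt_Local1728 ∧ Stmt_LocalZero :=
  ⟨stmt_LocalGeneric i0 hD hE5 hgen, stmt_Local1728 i0 hD hE5 hi, stmt_LocalZero i0 hD hE5 hρ⟩

end

end Fermat.Agent.S24.helper552
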