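/-
S24, MODULE M3-L (helper557), part 1: Mathlib-only toolkit.

* `taylor0 f`            : formal Taylor series at `0` of `f : ℂ → ℂ` (ring hom on analytic germs,
                           `order = analyticOrderAt`, behaviour under `w ↦ ζ w`);
* `twist ζ`              : the coefficient twist `t ↦ ζ t` as a ring automorphism of
                           `LaurentSeries ℂ` (order preserving);
* `cinv τ0`, `texp τ0 f` : expansion of a holomorphic function on the upper half plane in the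
                           Cayley coordinate `(τ - τ0) / (τ - conj τ0)` (injective ring hom,
                           order = analytic order at `τ0`);
* `rot s τ0`             : a stabilizer `s ∈ SL(2, ℤ)` of `τ0` acts on expansions by
                           `PowerSeries.rescale (rot s τ0)` (`texp_comp_smul`).
-/
import Mathlib

set_option autoImplicit false

open Complex Filter Topology UpperHalfPlane
open scoped Manifold MatrixGroups

namespace Fermat.Agent.S24.helper557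

/-! ## Formal Taylor series at `0` -/

/-- The formal Taylor series at `0` of a function `ℂ → ℂ`. -/
noncomputable def taylor0 (f : ℂ → ℂ) : PowerSeries ℂ :=
  PowerSeries.mk fun n => iteratedDeriv n f 0 / (n.factorial : ℂ)

theorem coeff_taylor0 (f : ℂ → ℂ) (n : ℕ) :
    PowerSeries.coeff n (taylor0 f) = iteratedDeriv n f 0 / (n.factorial : ℂ) :=
  PowerSeries.coeff_mk _ _

theorem taylor0_congr {f g : ℂ → ℂ} (h : f =ᶠ[𝓝 0] g) : taylor0 f = taylor0 g := by
  ext n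
  rw [coeff_taylor0, coeff_taylor0, h.iteratedDeriv_eq n]

theorem taylor0_add {f g : ℂ → ℂ} (hf : AnalyticAt ℂ f 0) (hg : AnalyticAt ℂ g 0) :
    taylor0 (f + g) = taylor0 f + taylor0 g := by
  ext n
  simp only [coeff_taylor0, map_add]
  rw [iteratedDeriv_add hf.contDiffAt hg.contDiffAt, add_div]

theorem taylor0_sub {f g : ℂ → ℂ} (hf : AnalyticAt ℂ f 0) (hg : AnalyticAt ℂ g 0) :
    taylor0 (f - g) = taylor0 f - taylor0 g := by
  ext n
  simp only [coeff_taylor0, map_sub]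
  rw [iteratedDeriv_sub hf.contDiffAt hg.contDiffAt, sub_div]

theorem taylor0_mul {f g : ℂ → ℂ} (hf : AnalyticAt ℂ f 0) (hg : AnalyticAt ℂ g 0) :
    taylor0 (f * g) = taylor0 f * taylor0 g := by
  ext n
  rw [PowerSeries.coeff_mul, coeff_taylor0, iteratedDeriv_mul hf.contDiffAt hg.contDiffAt,
    Finset.Nat.sum_antidiagonal_eq_sum_range_succ
      (fun i j => PowerSeries.coeff i (taylor0 f) * PowerSeries.coeff j (taylor0 g)),
    Finset.sum_div]
  refine Finset.sum_congr rfl fun i hi => ?_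
  have hi' : i ≤ n := Nat.lt_succ_iff.mp (Finset.mem_range.mp hi)
  rw [coeff_taylor0, coeff_taylor0, Nat.cast_choose ℂ hi']
  have h1 : (n.factorial : ℂ) ≠ 0 := Nat.cast_ne_zero.mpr n.factorial_ne_zero
  have h2 : (i.factorial : ℂ) ≠ 0 := Nat.cast_ne_zero.mpr i.factorial_ne_zero
  have h3 : ((n - i).factorial : ℂ) ≠ 0 := Nat.cast_ne_zero.mpr (n - i).factorial_ne_zero
  field_simp

theorem taylor0_const (c : ℂ) : taylor0 (fun _ => c) = PowerSeries.C c := by
  ext n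
  rw [coeff_taylor0, PowerSeries.coeff_C]
  rcases n with _ | n
  · simp
  · simp [iteratedDeriv_const]

theorem taylor0_id : taylor0 (fun z => z) = PowerSeries.X := by
  ext n
  rw [coeff_taylor0, PowerSeries.coeff_X, iteratedDeriv_fun_id_zero]
  split_ifs with h
  · subst h; simp
  · simp

theorem order_taylor0 {f : ℂ → ℂ} (hf : AnalyticAt ℂ f 0) :
    (taylor0 f).order = analyticOrderAt f 0 := by
  refine ENat.eq_of_forall_natCast_le_iff fun n => ?_
  rw [natCast_le_analyticOrderAt_iff_iteratedDeriv_eq_zero hf]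
  constructor
  · intro h i hi
    have := PowerSeries.coeff_of_lt_order i (lt_of_lt_of_le (by exact_mod_cast hi) h)
    rw [coeff_taylor0, div_eq_zero_iff] at this
    exact this.resolve_right (Nat.cast_ne_zero.mpr i.factorial_ne_zero)
  · intro h
    refine PowerSeries.nat_le_order _ _ fun i hi => ?_
    rw [coeff_taylor0, h i hi, zero_div]

theorem eventually_eq_zero_of_taylor0_eq_zero {f : ℂ → ℂ} (hf : AnalyticAt ℂ f 0)
    (h : taylor0 f = 0) : ∀ᶠ z in 𝓝 (0 : ℂ), f z = 0 := by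
  rw [← analyticOrderAt_eq_top, ← order_taylor0 hf, h, PowerSeries.order_zero]

/-- Taylor coefficients of `w ↦ f (ζ * w)`. -/
theorem taylor0_comp_mul {f : ℂ → ℂ} {r : ℝ} (hr : 0 < r)
    (hf : DifferentiableOn ℂ f (Metric.ball 0 r)) (ζ : ℂ) (hζ : ‖ζ‖ = 1) :
    taylor0 (fun w => f (ζ * w)) = PowerSeries.rescale ζ (taylor0 f) := by
  ext n
  rw [PowerSeries.coeff_rescale, coeff_taylor0, coeff_taylor0]
  have hopen : IsOpen (Metric.ball (0 : ℂ) r) := Metric.isOpen_ball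
  have h0 : (0 : ℂ) ∈ Metric.ball (0 : ℂ) r := Metric.mem_ball_self hr
  have hmaps : Set.MapsTo (ζ * ·) (Metric.ball (0 : ℂ) r) (Metric.ball (0 : ℂ) r) := by
    intro w hw
    simp only [Metric.mem_ball, dist_zero_right] at hw ⊢
    rw [norm_mul, hζ, one_mul]
    exact hw
  have hcd : ContDiffOn ℂ n f (Metric.ball 0 r) := hf.contDiffOn hopen
  have key := iteratedDerivWithin_comp_const_smul (n := n) h0 hopen.uniqueDiffOn hcd ζ hmaps
  rw [iteratedDerivWithin_of_isOpen hopen h0, mul_zero, iteratedDerivWithin_of_isOpen hopen h0,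
    smul_eq_mul] at key
  rw [key, mul_div_assoc]


/-! ## Coefficient twist on Laurent series -/

/-- `t ↦ ζ t` on Laurent series: the coefficient of `t ^ n` is multiplied by `ζ ^ n`. -/
noncomputable def twistFun (ζ : ℂ) (x : LaurentSeries ℂ) : LaurentSeries ℂ where
  coeff n := ζ ^ n * x.coeff n
  isPWO_support' := x.isPWO_support.mono fun n hn => by
    rw [Function.mem_support] at hn
    rw [HahnSeries.mem_support]
    exact fun h => hn (by rw [h, mul_zero])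

theorem coeff_twistFun (ζ : ℂ) (x : LaurentSeries ℂ) (n : ℤ) :
    (twistFun ζ x).coeff n = ζ ^ n * x.coeff n := rfl

theorem support_twistFun {ζ : ℂ} (hζ : ζ ≠ 0) (x : LaurentSeries ℂ) :
    (twistFun ζ x).support = x.support := by
  ext n
  simp [coeff_twistFun, zpow_ne_zero n hζ]

theorem twistFun_add (ζ : ℂ) (x y : LaurentSeries ℂ) :
    twistFun ζ (x + y) = twistFun ζ x + twistFun ζ y := by
  ext n
  simp [coeff_twistFun, mul_add]

theorem twistFun_mul {ζ : ℂ} (hζ : ζ ≠ 0) (x y : LaurentSeries ℂ) :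
    twistFun ζ (x * y) = twistFun ζ x * twistFun ζ y := by
  ext n
  rw [coeff_twistFun, HahnSeries.coeff_mul, HahnSeries.coeff_mul, Finset.mul_sum]
  have hA : Finset.antidiagonal (twistFun ζ x).isPWO_support (twistFun ζ y).isPWO_support n
      = Finset.antidiagonal x.isPWO_support y.isPWO_support n := by
    ext ij
    simp only [Finset.mem_antidiagonal, support_twistFun hζ]
  rw [hA]
  refine Finset.sum_congr rfl fun ij hij => ?_
  have hsum : ij.1 + ij.2 = n := (Finset.mem_antidiagonal.mp hij).2.2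
  rw [coeff_twistFun, coeff_twistFun, ← hsum, zpow_add₀ hζ]
  ring

theorem twistFun_twistFun_inv {ζ : ℂ} (hζ : ζ ≠ 0) (x : LaurentSeries ℂ) :
    twistFun ζ (twistFun ζ⁻¹ x) = x := by
  ext n
  rw [coeff_twistFun, coeff_twistFun, ← mul_assoc, inv_zpow, mul_inv_cancel₀ (zpow_ne_zero n hζ),
    one_mul]

/-- The coefficient twist as a ring automorphism. -/
noncomputable def twist (ζ : ℂ) (hζ : ζ ≠ 0) : LaurentSeries ℂ ≃+* LaurentSeries ℂ where
  toFun := twistFun ζ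
  invFun := twistFun ζ⁻¹
  left_inv x := by
    have := twistFun_twistFun_inv (inv_ne_zero hζ) x
    rwa [inv_inv] at this
  right_inv x := twistFun_twistFun_inv hζ x
  map_mul' := twistFun_mul hζ
  map_add' := twistFun_add ζ

theorem coeff_twist (ζ : ℂ) (hζ : ζ ≠ 0) (x : LaurentSeries ℂ) (n : ℤ) :
    (twist ζ hζ x).coeff n = ζ ^ n * x.coeff n := rfl

theorem twist_C (ζ : ℂ) (hζ : ζ ≠ 0) (c : ℂ) :
    twist ζ hζ (HahnSeries.C c) = HahnSeries.C c := by
  ext n
  rw [coeff_twist, HahnSeries.C_apply, HahnSeries.coeff_single]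
  split_ifs with h
  · subst h; simp
  · simp

theorem orderTop_twist (ζ : ℂ) (hζ : ζ ≠ 0) (x : LaurentSeries ℂ) :
    (twist ζ hζ x).orderTop = x.orderTop := by
  apply le_antisymm
  · rw [HahnSeries.le_orderTop_iff_forall]
    intro j hj
    have h := HahnSeries.coeff_eq_zero_of_lt_orderTop hj
    rw [coeff_twist] at h
    exact (mul_eq_zero.mp h).resolve_left (zpow_ne_zero j hζ)
  · rw [HahnSeries.le_orderTop_iff_forall]
    intro j hj
    rw [coeff_twist, HahnSeries.coeff_eq_zero_of_lt_orderTop hj, mul_zero]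

theorem ofPowerSeries_coeff_neg (p : PowerSeries ℂ) {n : ℤ} (hn : n < 0) :
    (HahnSeries.ofPowerSeries ℤ ℂ p).coeff n = 0 := by
  rw [HahnSeries.ofPowerSeries_apply]
  refine HahnSeries.embDomain_of_notMem_range ?_
  rintro ⟨k, rfl⟩
  exact absurd hn (not_lt.mpr (Int.natCast_nonneg k))

theorem twist_ofPowerSeries (ζ : ℂ) (hζ : ζ ≠ 0) (p : PowerSeries ℂ) :
    twist ζ hζ (HahnSeries.ofPowerSeries ℤ ℂ p)
      = HahnSeries.ofPowerSeries ℤ ℂ (PowerSeries.rescale ζ p) := by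
  ext n
  rw [coeff_twist]
  rcases lt_or_ge n 0 with hn | hn
  · rw [ofPowerSeries_coeff_neg _ hn, ofPowerSeries_coeff_neg _ hn, mul_zero]
  · obtain ⟨k, rfl⟩ := Int.eq_ofNat_of_zero_le hn
    rw [HahnSeries.ofPowerSeries_apply_coeff, HahnSeries.ofPowerSeries_apply_coeff,
      PowerSeries.coeff_rescale, zpow_natCast]

/-- Order of `ofPowerSeries p` from the order of `p`. -/
theorem orderTop_ofPowerSeries {p : PowerSeries ℂ} {m : ℕ} (hp : p.order = m) :
    (HahnSeries.ofPowerSeries ℤ ℂ p).orderTop = ((m : ℤ) : WithTop ℤ) := by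
  apply HahnSeries.orderTop_eq_of_le
  · rw [HahnSeries.mem_support, HahnSeries.ofPowerSeries_apply_coeff]
    exact (PowerSeries.order_eq_nat.mp hp).1
  · intro n hn
    rw [HahnSeries.mem_support] at hn
    rcases lt_or_ge n 0 with hneg | hpos
    · exact absurd (ofPowerSeries_coeff_neg p hneg) hn
    · obtain ⟨k, rfl⟩ := Int.eq_ofNat_of_zero_le hpos
      rw [HahnSeries.ofPowerSeries_apply_coeff] at hn
      by_contra hlt
      rw [not_le] at hlt
      exact hn ((PowerSeries.order_eq_nat.mp hp).2 k (by exact_mod_cast hlt))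


/-! ## The Cayley coordinate at a point of the upper half plane -/

/-- Inverse Cayley transform centred at `τ0`: maps the unit disc onto the upper half plane,
`0 ↦ τ0`. -/
noncomputable def cinv (τ0 : ℍ) (w : ℂ) : ℂ :=
  ((τ0 : ℂ) - starRingEnd ℂ (τ0 : ℂ) * w) / (1 - w)

theorem cinv_zero (τ0 : ℍ) : cinv τ0 0 = τ0 := by simp [cinv]

theorem one_sub_ne_zero_of_norm_lt_one {w : ℂ} (hw : ‖w‖ < 1) : 1 - w ≠ 0 := by
  intro h
  have h1 : w = 1 := (sub_eq_zero.mp h).symm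
  rw [h1, norm_one] at hw
  exact lt_irrefl _ hw

theorem im_cinv_pos (τ0 : ℍ) {w : ℂ} (hw : ‖w‖ < 1) : 0 < (cinv τ0 w).im := by
  have hy : 0 < (τ0 : ℂ).im := τ0.im_pos
  have hd : 1 - w ≠ 0 := one_sub_ne_zero_of_norm_lt_one hw
  have hn : 0 < Complex.normSq (1 - w) := Complex.normSq_pos.mpr hd
  have hw2 : w.re * w.re + w.im * w.im < 1 := by
    have h1 : Complex.normSq w = ‖w‖ ^ 2 := Complex.normSq_eq_norm_sq w
    have h2 : ‖w‖ ^ 2 < 1 := by nlinarith [norm_nonneg w]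
    rw [← h1, Complex.normSq_apply] at h2
    exact h2
  rw [cinv, Complex.div_im, ← sub_div]
  apply div_pos _ hn
  simp only [Complex.sub_im, Complex.sub_re, Complex.mul_im, Complex.mul_re, Complex.conj_re,
    Complex.conj_im, Complex.one_re, Complex.one_im]
  nlinarith [hy, hw2]

theorem differentiableOn_cinv (τ0 : ℍ) : DifferentiableOn ℂ (cinv τ0) (Metric.ball 0 1) := by
  intro w hw
  have hw' : ‖w‖ < 1 := by simpa using hw
  apply DifferentiableAt.differentiableWithinAt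
  unfold cinv
  exact ((differentiableAt_const _).sub ((differentiableAt_const _).mul differentiableAt_id)).div
    ((differentiableAt_const _).sub differentiableAt_id) (one_sub_ne_zero_of_norm_lt_one hw')

theorem analyticAt_cinv (τ0 : ℍ) : AnalyticAt ℂ (cinv τ0) 0 :=
  (differentiableOn_cinv τ0).analyticAt (Metric.ball_mem_nhds 0 one_pos)

theorem hasDerivAt_cinv (τ0 : ℍ) :
    HasDerivAt (cinv τ0) ((τ0 : ℂ) - starRingEnd ℂ (τ0 : ℂ)) 0 := by
  have h1 : HasDerivAt (fun w : ℂ => (τ0 : ℂ) - starRingEnd ℂ (τ0 : ℂ) * w)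
      (-(starRingEnd ℂ (τ0 : ℂ))) 0 := by
    simpa using ((hasDerivAt_id (0 : ℂ)).const_mul (starRingEnd ℂ (τ0 : ℂ))).const_sub (τ0 : ℂ)
  have h2 : HasDerivAt (fun w : ℂ => 1 - w) (-1) 0 := by
    simpa using (hasDerivAt_id (0 : ℂ)).const_sub 1
  have h3 := h1.div h2 (by simp)
  have h4 : (-(starRingEnd ℂ (τ0 : ℂ)) * (1 - 0) - ((τ0 : ℂ) - starRingEnd ℂ (τ0 : ℂ) * 0) * -1)
      / (1 - 0) ^ 2 = (τ0 : ℂ) - starRingEnd ℂ (τ0 : ℂ) := by ring
  rw [h4] at h3
  exact h3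

theorem deriv_cinv_ne_zero (τ0 : ℍ) : deriv (cinv τ0) 0 ≠ 0 := by
  rw [(hasDerivAt_cinv τ0).deriv]
  intro h
  have h1 := congrArg Complex.im h
  simp only [Complex.sub_im, Complex.conj_im, Complex.zero_im] at h1
  have hy : 0 < (τ0 : ℂ).im := τ0.im_pos
  linarith

/-! ## Expansion of a holomorphic function on `ℍ` in the Cayley coordinate -/

/-- A function on `ℍ` read in the Cayley coordinate centred at `τ0`. -/
noncomputable def germ (τ0 : ℍ) (f : ℍ → ℂ) : ℂ → ℂ := fun w => f (ofComplex (cinv τ0 w))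

theorem germ_eq (τ0 : ℍ) (f : ℍ → ℂ) : germ τ0 f = (f ∘ ofComplex) ∘ cinv τ0 := rfl

theorem differentiableOn_germ (τ0 : ℍ) {f : ℍ → ℂ} (hf : MDiff f) :
    DifferentiableOn ℂ (germ τ0 f) (Metric.ball 0 1) := by
  rw [UpperHalfPlane.mdifferentiable_iff] at hf
  exact hf.comp (differentiableOn_cinv τ0) fun w hw => im_cinv_pos τ0 (by simpa using hw)

theorem analyticAt_germ (τ0 : ℍ) {f : ℍ → ℂ} (hf : MDiff f) : AnalyticAt ℂ (germ τ0 f) 0 :=
  (differentiableOn_germ τ0 hf).analyticAt (Metric.ball_mem_nhds 0 one_pos)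

/-- Formal Taylor expansion at `τ0` (in the Cayley coordinate) of a function on `ℍ`. -/
noncomputable def texp (τ0 : ℍ) (f : ℍ → ℂ) : PowerSeries ℂ := taylor0 (germ τ0 f)

theorem texp_add (τ0 : ℍ) {f g : ℍ → ℂ} (hf : MDiff f) (hg : MDiff g) :
    texp τ0 (f + g) = texp τ0 f + texp τ0 g :=
  taylor0_add (analyticAt_germ τ0 hf) (analyticAt_germ τ0 hg)

theorem texp_sub (τ0 : ℍ) {f g : ℍ → ℂ} (hf : MDiff f) (hg : MDiff g) :
    texp τ0 (f - g) = texp τ0 f - texp τ0 g :=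
  taylor0_sub (analyticAt_germ τ0 hf) (analyticAt_germ τ0 hg)

theorem texp_mul (τ0 : ℍ) {f g : ℍ → ℂ} (hf : MDiff f) (hg : MDiff g) :
    texp τ0 (f * g) = texp τ0 f * texp τ0 g :=
  taylor0_mul (analyticAt_germ τ0 hf) (analyticAt_germ τ0 hg)

theorem texp_const (τ0 : ℍ) (c : ℂ) : texp τ0 (fun _ => c) = PowerSeries.C c :=
  taylor0_const c

theorem order_texp (τ0 : ℍ) {f : ℍ → ℂ} (hf : MDiff f) :
    (texp τ0 f).order = analyticOrderAt (f ∘ ofComplex) (τ0 : ℂ) := by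
  rw [texp, order_taylor0 (analyticAt_germ τ0 hf), germ_eq,
    analyticOrderAt_comp_of_deriv_ne_zero (analyticAt_cinv τ0) (deriv_cinv_ne_zero τ0), cinv_zero]

theorem eq_zero_of_texp_eq_zero (τ0 : ℍ) {f : ℍ → ℂ} (hf : MDiff f) (h : texp τ0 f = 0) :
    f = 0 := by
  have h1 : analyticOrderAt (f ∘ ofComplex) (τ0 : ℂ) = ⊤ := by
    rw [← order_texp τ0 hf, h, PowerSeries.order_zero]
  rw [analyticOrderAt_eq_top] at h1
  refine UpperHalfPlane.eq_zero_of_frequently hf (τ := τ0) ?_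
  have h2 : ∀ᶠ z in 𝓝 τ0, f z = 0 := by
    rw [← isOpenEmbedding_coe.map_nhds_eq, eventually_map] at h1
    filter_upwards [h1] with z hz
    simpa using hz
  exact (h2.filter_mono nhdsWithin_le_nhds).frequently

theorem mdiff_sub {f g : ℍ → ℂ} (hf : MDiff f) (hg : MDiff g) : MDiff (f - g) := by
  rw [UpperHalfPlane.mdifferentiable_iff] at hf hg ⊢
  exact hf.sub hg

/-- The expansion map is injective on holomorphic functions. -/
theorem eq_of_texp_eq (τ0 : ℍ) {f g : ℍ → ℂ} (hf : MDiff f) (hg : MDiff g)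
    (h : texp τ0 f = texp τ0 g) : f = g := by
  have h1 : texp τ0 (f - g) = 0 := by rw [texp_sub τ0 hf hg, h, sub_self]
  exact sub_eq_zero.mp (eq_zero_of_texp_eq_zero τ0 (mdiff_sub hf hg) h1)

/-- Precomposition with the action of `SL(2, ℤ)` preserves holomorphy. -/
theorem mdiff_comp_smul {f : ℍ → ℂ} (hf : MDiff f) (g : SL(2, ℤ)) :
    MDiff (fun τ : ℍ => f (g • τ)) := by
  have hg : MDiff (fun τ : ℍ => (Matrix.SpecialLinearGroup.mapGL ℝ g) • τ) :=
    UpperHalfPlane.mdifferentiable_smul (by simp)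
  exact hf.comp hg

/-! ## Stabilizers act by rotations in the Cayley coordinate -/

/-- The rotation number of `s` at `τ0`: `(c τ̄0 + d) / (c τ0 + d)`. -/
noncomputable def rot (s : SL(2, ℤ)) (τ0 : ℍ) : ℂ :=
  (((s 1 0 : ℤ) : ℂ) * starRingEnd ℂ (τ0 : ℂ) + ((s 1 1 : ℤ) : ℂ)) /
    (((s 1 0 : ℤ) : ℂ) * (τ0 : ℂ) + ((s 1 1 : ℤ) : ℂ))

theorem denom_ne_zero' (s : SL(2, ℤ)) {z : ℂ} (hz : 0 < z.im) :
    ((s 1 0 : ℤ) : ℂ) * z + ((s 1 1 : ℤ) : ℂ) ≠ 0 := by
  intro h
  have him := congrArg Complex.im h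
  have hre := congrArg Complex.re h
  simp only [Complex.add_im, Complex.mul_im, Complex.intCast_re, Complex.intCast_im, zero_mul,
    add_zero, Complex.zero_im] at him
  simp only [Complex.add_re, Complex.mul_re, Complex.intCast_re, Complex.intCast_im, zero_mul,
    sub_zero, Complex.zero_re] at hre
  have hc : ((s 1 0 : ℤ) : ℝ) = 0 := by
    rcases mul_eq_zero.mp him with h0 | h0
    · exact h0
    · exact absurd h0 hz.ne'
  have hd : ((s 1 1 : ℤ) : ℝ) = 0 := by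
    rw [hc, zero_mul, zero_add] at hre
    exact hre
  have hc' : s 1 0 = 0 := by exact_mod_cast hc
  have hd' : s 1 1 = 0 := by exact_mod_cast hd
  have hdet := Matrix.SpecialLinearGroup.det_coe s
  rw [Matrix.det_fin_two, hc', hd'] at hdet
  simp at hdet

theorem norm_rot (s : SL(2, ℤ)) (τ0 : ℍ) : ‖rot s τ0‖ = 1 := by
  have h1 : ((s 1 0 : ℤ) : ℂ) * starRingEnd ℂ (τ0 : ℂ) + ((s 1 1 : ℤ) : ℂ)
      = starRingEnd ℂ (((s 1 0 : ℤ) : ℂ) * (τ0 : ℂ) + ((s 1 1 : ℤ) : ℂ)) := by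
    simp [map_add, map_mul]
  rw [rot, norm_div, h1, RCLike.norm_conj]
  exact div_self (norm_ne_zero_iff.mpr (denom_ne_zero' s τ0.im_pos))

theorem rot_ne_zero (s : SL(2, ℤ)) (τ0 : ℍ) : rot s τ0 ≠ 0 := by
  intro h
  have := norm_rot s τ0
  rw [h, norm_zero] at this
  exact zero_ne_one this

theorem coe_smul_cinv (s : SL(2, ℤ)) (τ0 : ℍ) (hfix : s • τ0 = τ0) {w : ℂ} (hw : ‖w‖ < 1) :
    ((s • ofComplex (cinv τ0 w) : ℍ) : ℂ) = cinv τ0 (rot s τ0 * w) := by
  have hpos := im_cinv_pos τ0 hw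
  have hw1 : 1 - w ≠ 0 := one_sub_ne_zero_of_norm_lt_one hw
  have hζw : ‖rot s τ0 * w‖ < 1 := by rw [norm_mul, norm_rot, one_mul]; exact hw
  have hw2 : 1 - rot s τ0 * w ≠ 0 := one_sub_ne_zero_of_norm_lt_one hζw
  have hD0 : ((s 1 0 : ℤ) : ℂ) * (τ0 : ℂ) + ((s 1 1 : ℤ) : ℂ) ≠ 0 := denom_ne_zero' s τ0.im_pos
  have hD : ((s 1 0 : ℤ) : ℂ) * cinv τ0 w + ((s 1 1 : ℤ) : ℂ) ≠ 0 := denom_ne_zero' s hpos
  -- the fixed point equation
  have hfix' : (((s 0 0 : ℤ) : ℂ) * (τ0 : ℂ) + ((s 0 1 : ℤ) : ℂ))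
      = (τ0 : ℂ) * (((s 1 0 : ℤ) : ℂ) * (τ0 : ℂ) + ((s 1 1 : ℤ) : ℂ)) := by
    have h := congrArg (fun z : ℍ => (z : ℂ)) hfix
    simp only [coe_specialLinearGroup_apply, algebraMap_int_eq, eq_intCast,
      Complex.ofReal_intCast] at h
    rw [div_eq_iff hD0] at h
    exact h
  have hfixc : (((s 0 0 : ℤ) : ℂ) * starRingEnd ℂ (τ0 : ℂ) + ((s 0 1 : ℤ) : ℂ))
      = starRingEnd ℂ (τ0 : ℂ) *
        (((s 1 0 : ℤ) : ℂ) * starRingEnd ℂ (τ0 : ℂ) + ((s 1 1 : ℤ) : ℂ)) := by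
    have h := congrArg (starRingEnd ℂ) hfix'
    simpa [map_add, map_mul] using h
  rw [coe_specialLinearGroup_apply, ofComplex_apply_of_im_pos hpos]
  simp only [algebraMap_int_eq, eq_intCast, Complex.ofReal_intCast]
  rw [div_eq_iff hD]
  have hD' : ((s 1 0 : ℤ) : ℂ) * cinv τ0 w + ((s 1 1 : ℤ) : ℂ)
      = ((((s 1 0 : ℤ) : ℂ) * (τ0 : ℂ) + ((s 1 1 : ℤ) : ℂ))
          - (((s 1 0 : ℤ) : ℂ) * starRingEnd ℂ (τ0 : ℂ) + ((s 1 1 : ℤ) : ℂ)) * w) / (1 - w) := by
    unfold cinv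
    field_simp
    ring
  have hN' : ((s 0 0 : ℤ) : ℂ) * cinv τ0 w + ((s 0 1 : ℤ) : ℂ)
      = ((τ0 : ℂ) * (((s 1 0 : ℤ) : ℂ) * (τ0 : ℂ) + ((s 1 1 : ℤ) : ℂ))
          - starRingEnd ℂ (τ0 : ℂ) *
            (((s 1 0 : ℤ) : ℂ) * starRingEnd ℂ (τ0 : ℂ) + ((s 1 1 : ℤ) : ℂ)) * w) / (1 - w) := by
    rw [← hfix', ← hfixc]
    unfold cinv
    field_simp
    ring
  have hw2' : ((s 1 0 : ℤ) : ℂ) * (τ0 : ℂ) + ((s 1 1 : ℤ) : ℂ)
      - (((s 1 0 : ℤ) : ℂ) * starRingEnd ℂ (τ0 : ℂ) + ((s 1 1 : ℤ) : ℂ)) * w ≠ 0 := by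
    have h0 : ((s 1 0 : ℤ) : ℂ) * (τ0 : ℂ) + ((s 1 1 : ℤ) : ℂ)
        - (((s 1 0 : ℤ) : ℂ) * starRingEnd ℂ (τ0 : ℂ) + ((s 1 1 : ℤ) : ℂ)) * w
        = (((s 1 0 : ℤ) : ℂ) * (τ0 : ℂ) + ((s 1 1 : ℤ) : ℂ)) * (1 - rot s τ0 * w) := by
      unfold rot
      field_simp
    rw [h0]
    exact mul_ne_zero hD0 hw2
  have key : ∀ (A B t tb w : ℂ), A ≠ 0 → 1 - w ≠ 0 → A - B * w ≠ 0 →
      (t * A - tb * B * w) / (1 - w)
        = (t - tb * (B / A * w)) / (1 - B / A * w) * ((A - B * w) / (1 - w)) := by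
    intro A B t tb w hA hw hABw
    have h1 : 1 - B / A * w = (A - B * w) / A := by field_simp
    have h2 : t - tb * (B / A * w) = (t * A - tb * B * w) / A := by field_simp
    rw [h1, h2]
    field_simp
  rw [hN', hD']
  exact key _ _ _ _ _ hD0 hw1 hw2'

theorem germ_comp_smul (s : SL(2, ℤ)) (τ0 : ℍ) (hfix : s • τ0 = τ0) (f : ℍ → ℂ) {w : ℂ}
    (hw : ‖w‖ < 1) :
    germ τ0 (fun τ => f (s • τ)) w = germ τ0 f (rot s τ0 * w) := by
  unfold germ
  rw [← coe_smul_cinv s τ0 hfix hw, ofComplex_apply]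

theorem texp_comp_smul (s : SL(2, ℤ)) (τ0 : ℍ) (hfix : s • τ0 = τ0) {f : ℍ → ℂ} (hf : MDiff f) :
    texp τ0 (fun τ => f (s • τ)) = PowerSeries.rescale (rot s τ0) (texp τ0 f) := by
  rw [texp, texp, ← taylor0_comp_mul one_pos (differentiableOn_germ τ0 hf) _ (norm_rot s τ0)]
  apply taylor0_congr
  filter_upwards [Metric.ball_mem_nhds (0 : ℂ) one_pos] with w hw
  exact germ_comp_smul s τ0 hfix f (by simpa using hw)

theorem rot_one (τ0 : ℍ) : rot 1 τ0 = 1 := by
  simp [rot]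

end Fermat.Agent.S24.helper557
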