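/-
S24, MODULE M3-L (helper557), part 2: the three finite-point deliverables of MOD in the
`LocalDatum` shape of `helper24_Spec`, from an abstract analytic model of the function field.

* `AnalyticModel N`       : the single input `Prop` (output of M1: `ev` + invariance + separation);
* `localDatum_intro`      : packaging of a family of ring embeddings into `LaurentSeries ℂ`
                            permuted by a coefficient twist into a `LocalDatum`;
* `localDatum_core`       : the local datum at a fixed point `τ0` of `s ∈ SL(2, ℤ)`;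
* `stmt_LocalGeneric_of`, `stmt_Local1728_of`, `stmt_LocalZero_of`.
-/
import Fermat.Agent.S24.helper24_Spec
import Fermat.Agent.S24.helper557_CayleyTaylor

set_option autoImplicit false

open Complex UpperHalfPlane ModularCurve AlgebraicCurve CongruenceSubgroup
open scoped Manifold MatrixGroups

namespace Fermat.Agent.S24.helper557

open Fermat.Agent.S24.helper24

/-- **Analytic model** of the function field of level `N`: a `ℚ̄`-subalgebra `A` of `F_N` with
fraction field `F_N`, realised injectively as a ring of holomorphic functions on `ℍ`, containing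
`j ↦ jFun`, invariant under `Γ₀(N)` and separating the cosets of `Γ₀(N)`. -/
def AnalyticModel (N : ℕ) : Prop :=
  ∃ (i0 : Kbar →+* ℂ) (A : Subalgebra Kbar (FN N)) (ev : A →+* (ℍ → ℂ)),
    (∀ f : FN N, ∃ a b : A, f = (a : FN N) / (b : FN N)) ∧
    (∀ c : Kbar, ev (algebraMap Kbar A c) = fun _ => i0 c) ∧
    (∀ a : A, MDiff (ev a)) ∧
    Function.Injective ev ∧
    (∃ hj : jBar N ∈ A, ev ⟨jBar N, hj⟩ = jFun) ∧
    (∀ γ ∈ Gamma0 N, ∀ (a : A) (τ : ℍ), ev a (γ • τ) = ev a τ) ∧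
    (∀ g : SL(2, ℤ), (∀ (a : A) (τ : ℍ), ev a (g • τ) = ev a τ) → g ∈ Gamma0 N)

/-! ## Packaging -/

theorem dvd_of_zpow_eq_one {ζ : ℂ} {m : ℕ} (hm : 0 < m) (hprim : IsPrimitiveRoot ζ m) (k : ℕ)
    (n : ℤ) (h : (ζ ^ n) ^ k = 1) : ((m / Nat.gcd k m : ℕ) : ℤ) ∣ n := by
  have h1 : ζ ^ (n * (k : ℤ)) = 1 := by rw [zpow_mul, zpow_natCast]; exact h
  have h2 : (m : ℤ) ∣ n * (k : ℤ) := (hprim.zpow_eq_one_iff_dvd _).mp h1
  have hd : 0 < Nat.gcd k m := Nat.gcd_pos_of_pos_right k hm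
  have hcop : Nat.Coprime (m / Nat.gcd k m) (k / Nat.gcd k m) := by
    have := Nat.coprime_div_gcd_div_gcd hd
    exact this.symm
  have hm' : (m : ℤ) = (Nat.gcd k m : ℤ) * ((m / Nat.gcd k m : ℕ) : ℤ) := by
    rw [← Nat.cast_mul, Nat.mul_div_cancel' (Nat.gcd_dvd_right k m)]
  have hk' : (k : ℤ) = (Nat.gcd k m : ℤ) * ((k / Nat.gcd k m : ℕ) : ℤ) := by
    rw [← Nat.cast_mul, Nat.mul_div_cancel' (Nat.gcd_dvd_left k m)]
  have h3 : (Nat.gcd k m : ℤ) * ((m / Nat.gcd k m : ℕ) : ℤ)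
      ∣ (Nat.gcd k m : ℤ) * (n * ((k / Nat.gcd k m : ℕ) : ℤ)) := by
    have : (Nat.gcd k m : ℤ) * (n * ((k / Nat.gcd k m : ℕ) : ℤ)) = n * (k : ℤ) := by
      rw [hk']; ring
    rw [this, ← hm']
    exact h2
  have h4 : ((m / Nat.gcd k m : ℕ) : ℤ) ∣ n * ((k / Nat.gcd k m : ℕ) : ℤ) :=
    Int.dvd_of_mul_dvd_mul_left (by exact_mod_cast hd.ne') h3
  exact (Nat.isCoprime_iff_coprime.mpr hcop).dvd_of_dvd_mul_right h4

/-- A family of ring embeddings `F_N → ℂ((t))`, constant on `ℚ̄` via `i0`, permuted by the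
coefficient twist by a primitive `m`-th root of unity, is a `LocalDatum`. -/
theorem localDatum_intro (N : ℕ) (y : FN N) (m : ℕ) (g : SL(2, ℤ)) (i0 : Kbar →+* ℂ)
    (φ : XN N → (FN N →+* LaurentSeries ℂ))
    (hφK : ∀ x c, φ x (algebraMap Kbar (FN N) c) = HahnSeries.C (i0 c))
    (hφinj : Function.Injective φ) (ξ : LaurentSeries ℂ) (hξ : ∀ i, φ i y = ξ) (hm : 0 < m)
    (hwξ : ξ.orderTop = ((m : ℤ) : WithTop ℤ))
    (ζ : ℂ) (hζ0 : ζ ≠ 0) (hperm : ∀ i f, twist ζ hζ0 (φ i f) = φ (g⁻¹ • i) f)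
    (hprim : IsPrimitiveRoot ζ m) : LocalDatum N y m g := by
  let alg : Algebra Kbar (LaurentSeries ℂ) :=
    ((HahnSeries.C : ℂ →+* LaurentSeries ℂ).comp i0).toAlgebra
  have halg : ∀ c : Kbar, algebraMap Kbar (LaurentSeries ℂ) c = HahnSeries.C (i0 c) := fun c => rfl
  let ι : XN N → (FN N →ₐ[Kbar] LaurentSeries ℂ) := fun x =>
    { φ x with commutes' := fun c => by rw [halg]; exact hφK x c }
  let σ : LaurentSeries ℂ ≃ₐ[Kbar] LaurentSeries ℂ :=
    { twist ζ hζ0 with commutes' := fun c => by rw [halg]; exact twist_C ζ hζ0 _ }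
  have hσ : ∀ z, σ z = twist ζ hζ0 z := fun z => rfl
  have hpow : ∀ (k : ℕ) (z : LaurentSeries ℂ) (n : ℤ),
      ((σ ^ k) z).coeff n = (ζ ^ n) ^ k * z.coeff n := by
    intro k
    induction k with
    | zero => intro z n; simp
    | succ k ih =>
      intro z n
      rw [pow_succ, AlgEquiv.mul_apply, ih, hσ, coeff_twist, pow_succ]
      ring
  refine ⟨LaurentSeries ℂ, inferInstance, alg, HahnSeries.addVal ℤ ℂ, ι, σ, ξ, ?_, ?_, ?_, hm, ?_,
    ?_, Or.inr ?_, ?_⟩
  · intro a ha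
    rw [halg, HahnSeries.addVal_apply, HahnSeries.C_apply,
      HahnSeries.orderTop_single ((map_ne_zero i0).mpr ha)]
    rfl
  · intro x x' h
    apply hφinj
    refine RingHom.ext fun f => ?_
    exact congrArg (fun e : FN N →ₐ[Kbar] LaurentSeries ℂ => e f) h
  · intro i
    exact hξ i
  · rw [HahnSeries.addVal_apply, hwξ]
  · intro z
    rw [HahnSeries.addVal_apply, HahnSeries.addVal_apply, hσ, orderTop_twist]
  · intro i f
    exact hperm i f
  · intro k z hz hfix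
    have hc : z.coeff z.order ≠ 0 := fun h0 => hz (HahnSeries.coeff_order_eq_zero.mp h0)
    have h1 := hpow k z z.order
    rw [hfix] at h1
    have h2 : (ζ ^ z.order) ^ k = 1 := by
      have h3 : ((ζ ^ z.order) ^ k - 1) * z.coeff z.order = 0 := by
        rw [sub_mul, one_mul, ← h1, sub_self]
      exact sub_eq_zero.mp ((mul_eq_zero.mp h3).resolve_right hc)
    obtain ⟨l, hl⟩ := dvd_of_zpow_eq_one hm hprim k z.order h2
    refine ⟨l, ?_⟩
    rw [HahnSeries.addVal_apply, ← HahnSeries.order_eq_orderTop_of_ne_zero hz, hl]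


/-! ## Expansions of the conjugates -/

section Core

variable {N : ℕ}

/-- Expansion at `τ0` (Cayley coordinate) of the `g`-conjugate `τ ↦ ev a (g⁻¹ τ)`. -/
noncomputable def expand (A : Subalgebra Kbar (FN N)) (ev : A →+* (ℍ → ℂ))
    (hhol : ∀ a : A, MDiff (ev a)) (τ0 : ℍ) (g : SL(2, ℤ)) : A →+* LaurentSeries ℂ where
  toFun a := HahnSeries.ofPowerSeries ℤ ℂ (texp τ0 (fun τ => ev a (g⁻¹ • τ)))
  map_one' := by
    have h : (fun τ : ℍ => ev (1 : A) (g⁻¹ • τ)) = fun _ => (1 : ℂ) := by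
      funext τ; rw [map_one]; rfl
    rw [h, texp_const, map_one, map_one]
  map_mul' a b := by
    have h : (fun τ : ℍ => ev (a * b) (g⁻¹ • τ))
        = (fun τ => ev a (g⁻¹ • τ)) * (fun τ => ev b (g⁻¹ • τ)) := by
      funext τ; rw [map_mul]; rfl
    rw [h, texp_mul τ0 (mdiff_comp_smul (hhol a) g⁻¹) (mdiff_comp_smul (hhol b) g⁻¹), map_mul]
  map_zero' := by
    have h : (fun τ : ℍ => ev (0 : A) (g⁻¹ • τ)) = fun _ => (0 : ℂ) := by
      funext τ; rw [map_zero]; rfl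
    rw [h, texp_const, map_zero, map_zero]
  map_add' a b := by
    have h : (fun τ : ℍ => ev (a + b) (g⁻¹ • τ))
        = (fun τ => ev a (g⁻¹ • τ)) + (fun τ => ev b (g⁻¹ • τ)) := by
      funext τ; rw [map_add]; rfl
    rw [h, texp_add τ0 (mdiff_comp_smul (hhol a) g⁻¹) (mdiff_comp_smul (hhol b) g⁻¹), map_add]

theorem expand_apply (A : Subalgebra Kbar (FN N)) (ev : A →+* (ℍ → ℂ))
    (hhol : ∀ a : A, MDiff (ev a)) (τ0 : ℍ) (g : SL(2, ℤ)) (a : A) :
    expand A ev hhol τ0 g a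
      = HahnSeries.ofPowerSeries ℤ ℂ (texp τ0 (fun τ => ev a (g⁻¹ • τ))) := rfl

theorem expand_injective (A : Subalgebra Kbar (FN N)) (ev : A →+* (ℍ → ℂ))
    (hhol : ∀ a : A, MDiff (ev a)) (hinj : Function.Injective ev) (τ0 : ℍ) (g : SL(2, ℤ)) :
    Function.Injective (expand A ev hhol τ0 g) := by
  rw [injective_iff_map_eq_zero]
  intro a ha
  rw [expand_apply] at ha
  have h1 : texp τ0 (fun τ => ev a (g⁻¹ • τ)) = 0 :=
    HahnSeries.ofPowerSeries_injective (by rw [ha, map_zero])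
  have h2 := eq_zero_of_texp_eq_zero τ0 (mdiff_comp_smul (hhol a) g⁻¹) h1
  apply hinj
  rw [map_zero]
  funext τ
  have h3 := congrFun h2 (g • τ)
  simp only [inv_smul_smul, Pi.zero_apply] at h3
  exact h3

/-- **Local datum at a fixed point.** `τ0` is fixed by `s`, the rotation number of `s` at `τ0`
is a primitive `m`-th root of unity and `J - J(τ0)` vanishes to order `m` at `τ0`. -/
theorem localDatum_core (i0 : Kbar →+* ℂ) (A : Subalgebra Kbar (FN N))
    (ev : A →+* (ℍ → ℂ))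
    (hfrac : ∀ f : FN N, ∃ a b : A, f = (a : FN N) / (b : FN N))
    (hconst : ∀ c : Kbar, ev (algebraMap Kbar A c) = fun _ => i0 c)
    (hhol : ∀ a : A, MDiff (ev a))
    (hinj : Function.Injective ev)
    (hjA : jBar N ∈ A) (hj : ev ⟨jBar N, hjA⟩ = jFun)
    (hΓ : ∀ γ ∈ Gamma0 N, ∀ (a : A) (τ : ℍ), ev a (γ • τ) = ev a τ)
    (hsep : ∀ g : SL(2, ℤ), (∀ (a : A) (τ : ℍ), ev a (g • τ) = ev a τ) → g ∈ Gamma0 N)
    (hinv : ∀ (g : SL(2, ℤ)) (τ : ℍ), jFun (g • τ) = jFun τ)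
    (s : SL(2, ℤ)) (τ0 : ℍ) (hfix : s • τ0 = τ0) (m : ℕ) (hm : 0 < m)
    (hprim : IsPrimitiveRoot (rot s τ0) m)
    (hord : analyticOrderAt (fun z : ℂ => jFun (ofComplex z) - jFun τ0) (τ0 : ℂ) = m)
    (c : Kbar) (hc : i0 c = jFun τ0) :
    LocalDatum N (jBar N - algebraMap Kbar (FN N) c) m s := by
  have hfr : IsFractionRing A (FN N) := IsFractionRing.of_field A (FN N) hfrac
  have hEinj : ∀ g, Function.Injective (expand A ev hhol τ0 g) :=
    fun g => expand_injective A ev hhol hinj τ0 g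
  let φ : XN N → (FN N →+* LaurentSeries ℂ) :=
    fun x => IsFractionRing.lift (hEinj (Quotient.out x))
  have hφA : ∀ (x : XN N) (a : A), φ x (a : FN N) = expand A ev hhol τ0 (Quotient.out x) a :=
    fun x a => IsFractionRing.lift_algebraMap (hEinj _) a
  -- coset independence
  have hcoset : ∀ (h h' : SL(2, ℤ)), (h : XN N) = (h' : XN N) →
      ∀ (a : A) (τ : ℍ), ev a (h'⁻¹ • τ) = ev a (h⁻¹ • τ) := by
    intro h h' hh a τ
    have hmem : h⁻¹ * h' ∈ Gamma0 N := QuotientGroup.eq.mp hh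
    have h1 : h'⁻¹ = (h⁻¹ * h')⁻¹ * h⁻¹ := by group
    rw [h1, mul_smul]
    exact hΓ _ (inv_mem hmem) a _
  let aY : A := ⟨jBar N, hjA⟩ - algebraMap Kbar A c
  have haY : ev aY = fun τ => jFun τ - jFun τ0 := by
    funext τ
    simp only [aY, map_sub, hj, hconst, Pi.sub_apply, hc]
  have hY : (aY : FN N) = jBar N - algebraMap Kbar (FN N) c := rfl
  refine localDatum_intro N _ m s i0 φ ?_ ?_
    (HahnSeries.ofPowerSeries ℤ ℂ (texp τ0 (ev aY))) ?_ hm ?_ (rot s τ0) (rot_ne_zero s τ0) ?_ hprim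
  · -- constants
    intro x k
    have h1 : algebraMap Kbar (FN N) k = ((algebraMap Kbar A k : A) : FN N) := rfl
    rw [h1, hφA, expand_apply, hconst, texp_const, HahnSeries.ofPowerSeries_C]
  · -- injectivity in the coset
    intro x x' hxx
    have h1 : ∀ (a : A) (τ : ℍ),
        ev a ((Quotient.out x)⁻¹ • τ) = ev a ((Quotient.out x')⁻¹ • τ) := by
      intro a
      have h2 : expand A ev hhol τ0 (Quotient.out x) a = expand A ev hhol τ0 (Quotient.out x') a := by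
        rw [← hφA, ← hφA, hxx]
      rw [expand_apply, expand_apply] at h2
      have h3 := HahnSeries.ofPowerSeries_injective h2
      exact congrFun
        (eq_of_texp_eq τ0 (mdiff_comp_smul (hhol a) _) (mdiff_comp_smul (hhol a) _) h3)
    have h4 : (Quotient.out x')⁻¹ * Quotient.out x ∈ Gamma0 N := by
      apply hsep
      intro a τ
      rw [mul_smul, ← h1 a, inv_smul_smul]
    have h5 : ((Quotient.out x' : SL(2, ℤ)) : XN N) = ((Quotient.out x : SL(2, ℤ)) : XN N) :=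
      QuotientGroup.eq.mpr h4
    rw [QuotientGroup.out_eq', QuotientGroup.out_eq'] at h5
    exact h5.symm
  · -- value on `y`
    intro i
    rw [← hY, hφA, expand_apply]
    congr 2
    funext τ
    rw [haY]
    show jFun _ - _ = jFun _ - _
    rw [hinv]
  · -- order of `ξ`
    apply orderTop_ofPowerSeries
    rw [order_texp τ0 (hhol aY), haY]
    exact hord
  · -- the twist permutes the embeddings
    intro i f
    have key : ((twist (rot s τ0) (rot_ne_zero s τ0) : LaurentSeries ℂ ≃+* LaurentSeries ℂ)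
        : LaurentSeries ℂ →+* LaurentSeries ℂ).comp (φ i) = φ (s⁻¹ • i) := by
      apply IsFractionRing.ringHom_ext (A := A)
      intro a
      have e1 : (algebraMap A (FN N)) a = (a : FN N) := rfl
      rw [e1, RingHom.comp_apply, hφA, hφA, expand_apply, expand_apply]
      show twist _ _ _ = _
      rw [twist_ofPowerSeries, ← texp_comp_smul s τ0 hfix (mdiff_comp_smul (hhol a) _)]
      congr 2
      funext τ
      have hcos : ((s⁻¹ * Quotient.out i : SL(2, ℤ)) : XN N)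
          = ((Quotient.out (s⁻¹ • i) : SL(2, ℤ)) : XN N) := by
        rw [QuotientGroup.out_eq']
        conv_rhs => rw [← QuotientGroup.out_eq' i]
        rfl
      have h2 := hcoset _ _ hcos a τ
      rw [h2, mul_inv_rev, inv_inv, mul_smul]
    exact congrArg (fun e : FN N →+* LaurentSeries ℂ => e f) key

/-- `localDatum_core` with the analytic model packaged. -/
theorem localDatum_of_analyticModel
    (hinv : ∀ (g : SL(2, ℤ)) (τ : ℍ), jFun (g • τ) = jFun τ)
    (s : SL(2, ℤ)) (m : ℕ) (hm : 0 < m)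
    (hAM : AnalyticModel N)
    (P : (Kbar →+* ℂ) → Kbar → Prop)
    (hP : ∀ (i0 : Kbar →+* ℂ) (c : Kbar), P i0 c → ∃ τ0 : ℍ, s • τ0 = τ0 ∧
      IsPrimitiveRoot (rot s τ0) m ∧
      analyticOrderAt (fun z : ℂ => jFun (ofComplex z) - jFun τ0) (τ0 : ℂ) = m ∧
      i0 c = jFun τ0)
    (c : Kbar) (hc : ∀ i0 : Kbar →+* ℂ, P i0 c) :
    LocalDatum N (jBar N - algebraMap Kbar (FN N) c) m s := by
  obtain ⟨i0, A, ev, hfrac, hconst, hhol, hinj, ⟨hjA, hj⟩, hΓ, hsep⟩ := hAM
  obtain ⟨τ0, hfix, hprim, hord, hc0⟩ := hP i0 c (hc i0)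
  exact localDatum_core i0 A ev hfrac hconst hhol hinj hjA hj hΓ hsep hinv s τ0 hfix m hm hprim
    hord c hc0

end Core

/-! ## The three finite-point statements of the specification -/

/-- **M3 (generic points)**: from the analytic model, invariance and surjectivity of `J`, and
simplicity of the zeros of `J - J(τ0)` away from `J ∈ {0, 1728}`. -/
theorem stmt_LocalGeneric_of (hAM : ∀ (N : ℕ) [NeZero N], AnalyticModel N)
    (hinv : ∀ (g : SL(2, ℤ)) (τ : ℍ), jFun (g • τ) = jFun τ)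
    (hsurj : ∀ c : ℂ, ∃ τ : ℍ, jFun τ = c)
    (hord : ∀ τ0 : ℍ, jFun τ0 ≠ 0 → jFun τ0 ≠ 1728 →
      analyticOrderAt (fun z : ℂ => jFun (ofComplex z) - jFun τ0) (τ0 : ℂ) = 1) :
    Stmt_LocalGeneric := by
  intro N _ c hc0 hc1728
  refine localDatum_of_analyticModel hinv 1 1 one_pos (hAM N) (fun _ c => c ≠ 0 ∧ c ≠ 1728) ?_ c
    (fun _ => ⟨hc0, hc1728⟩)
  rintro i0 c ⟨hc0, hc1728⟩
  obtain ⟨τ0, hτ0⟩ := hsurj (i0 c)
  have h0 : jFun τ0 ≠ 0 := by rw [hτ0]; exact (map_ne_zero i0).mpr hc0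
  have h1 : jFun τ0 ≠ 1728 := by
    rw [hτ0]
    intro h
    apply hc1728
    apply i0.injective
    rw [h, map_ofNat]
  refine ⟨τ0, one_smul _ _, ?_, ?_, hτ0.symm⟩
  · rw [rot_one]; exact IsPrimitiveRoot.one
  · rw [hord τ0 h0 h1]; rfl

theorem rot_S (τ0 : ℍ) (hfix : ModularGroup.S • τ0 = τ0) : rot ModularGroup.S τ0 = -1 := by
  have h1 : ((ModularGroup.S • τ0 : ℍ) : ℂ) = (τ0 : ℂ) := by rw [hfix]
  rw [UpperHalfPlane.modular_S_smul] at h1
  have hne : (τ0 : ℂ) ≠ 0 := UpperHalfPlane.ne_zero τ0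
  have hsq : (τ0 : ℂ) * (τ0 : ℂ) = -1 := by
    have h2 : (-(τ0 : ℂ))⁻¹ = (τ0 : ℂ) := h1
    field_simp at h2
    linear_combination -h2
  have hI : (τ0 : ℂ) = Complex.I := by
    have h3 : ((τ0 : ℂ) - Complex.I) * ((τ0 : ℂ) + Complex.I) = 0 := by
      have := Complex.I_mul_I
      linear_combination hsq - this
    rcases mul_eq_zero.mp h3 with h | h
    · exact sub_eq_zero.mp h
    · exfalso
      have him := congrArg Complex.im h
      simp only [Complex.add_im, Complex.I_im, Complex.zero_im] at him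
      have := τ0.im_pos
      have h4 : (τ0 : ℂ).im = τ0.im := rfl
      linarith
  have hS10 : (ModularGroup.S 1 0 : ℤ) = 1 := by simp [ModularGroup.S]
  have hS11 : (ModularGroup.S 1 1 : ℤ) = 0 := by simp [ModularGroup.S]
  rw [rot, hS10, hS11, hI]
  simp [Complex.conj_I]

/-- **M4 (`j = 1728`)**: from the analytic model, invariance of `J`, and a fixed point of `S`
where `J = 1728` with multiplicity `2`. -/
theorem stmt_Local1728_of (hAM : ∀ (N : ℕ) [NeZero N], AnalyticModel N)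
    (hinv : ∀ (g : SL(2, ℤ)) (τ : ℍ), jFun (g • τ) = jFun τ)
    (h1728 : ∃ τ0 : ℍ, ModularGroup.S • τ0 = τ0 ∧ jFun τ0 = 1728 ∧
      analyticOrderAt (fun z : ℂ => jFun (ofComplex z) - jFun τ0) (τ0 : ℂ) = 2) :
    Stmt_Local1728 := by
  intro N _
  obtain ⟨τ0, hfix, hval, hord⟩ := h1728
  refine localDatum_of_analyticModel hinv ModularGroup.S 2 two_pos (hAM N) (fun _ c => c = 1728) ?_
    1728 (fun _ => rfl)
  rintro i0 c rfl
  refine ⟨τ0, hfix, ?_, ?_, ?_⟩
  · rw [rot_S τ0 hfix]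
    exact IsPrimitiveRoot.neg_one 0 (by norm_num)
  · rw [hord]; rfl
  · rw [hval, map_ofNat]

theorem rot_ST_isPrimitiveRoot (τ0 : ℍ) (hfix : (ModularGroup.S * ModularGroup.T) • τ0 = τ0) :
    IsPrimitiveRoot (rot (ModularGroup.S * ModularGroup.T) τ0) 3 := by
  have h1 : (((ModularGroup.S * ModularGroup.T) • τ0 : ℍ) : ℂ) = (τ0 : ℂ) := by rw [hfix]
  rw [mul_smul, UpperHalfPlane.modular_S_smul, UpperHalfPlane.modular_T_smul] at h1
  have h2 : (-((1 : ℂ) + (τ0 : ℂ)))⁻¹ = (τ0 : ℂ) := by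
    simpa using h1
  have hne1 : (1 : ℂ) + (τ0 : ℂ) ≠ 0 := by
    intro h
    rw [h, neg_zero, inv_zero] at h2
    exact UpperHalfPlane.ne_zero τ0 h2.symm
  -- τ0² + τ0 + 1 = 0
  have hq : (τ0 : ℂ) * (τ0 : ℂ) + (τ0 : ℂ) + 1 = 0 := by
    field_simp at h2
    linear_combination -h2
  have hq' : starRingEnd ℂ (τ0 : ℂ) * starRingEnd ℂ (τ0 : ℂ) + starRingEnd ℂ (τ0 : ℂ) + 1 = 0 := by
    have := congrArg (starRingEnd ℂ) hq
    simpa [map_add, map_mul] using this
  have hneq : (τ0 : ℂ) - starRingEnd ℂ (τ0 : ℂ) ≠ 0 := by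
    intro h
    have him := congrArg Complex.im h
    simp only [Complex.sub_im, Complex.conj_im, Complex.zero_im] at him
    have := τ0.im_pos
    have h4 : (τ0 : ℂ).im = τ0.im := rfl
    linarith
  have hsum : starRingEnd ℂ (τ0 : ℂ) = -1 - (τ0 : ℂ) := by
    have h3 : ((τ0 : ℂ) - starRingEnd ℂ (τ0 : ℂ)) *
        ((τ0 : ℂ) + starRingEnd ℂ (τ0 : ℂ) + 1) = 0 := by
      linear_combination hq - hq'
    have h4 := (mul_eq_zero.mp h3).resolve_left hneq
    linear_combination h4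
  have hne0 : (τ0 : ℂ) ≠ 0 := UpperHalfPlane.ne_zero τ0
  have hST10 : ((ModularGroup.S * ModularGroup.T) 1 0 : ℤ) = 1 := by
    simp [ModularGroup.S, ModularGroup.T, Matrix.mul_apply, Fin.sum_univ_two]
  have hST11 : ((ModularGroup.S * ModularGroup.T) 1 1 : ℤ) = 1 := by
    simp [ModularGroup.S, ModularGroup.T, Matrix.mul_apply, Fin.sum_univ_two]
  have hrot : rot (ModularGroup.S * ModularGroup.T) τ0 = (τ0 : ℂ) * (τ0 : ℂ) := by
    rw [rot, hST10, hST11, hsum]
    have hd : ((1 : ℤ) : ℂ) * (τ0 : ℂ) + ((1 : ℤ) : ℂ) ≠ 0 := by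
      simpa [add_comm] using hne1
    rw [div_eq_iff hd]
    push_cast
    linear_combination (-(τ0 : ℂ)) * hq
  have hcube : (τ0 : ℂ) ^ 3 = 1 := by linear_combination ((τ0 : ℂ) - 1) * hq
  have hτ1 : (τ0 : ℂ) ≠ 1 := by
    intro h
    rw [h] at hq
    norm_num at hq
  rw [hrot]
  refine IsPrimitiveRoot.mk_of_lt _ (by norm_num) ?_ ?_
  · linear_combination ((τ0 : ℂ) ^ 3 + 1) * hcube
  · intro l hl0 hl3
    interval_cases l
    · -- τ0² ≠ 1
      intro h
      have h5 : (τ0 : ℂ) = -2 := by linear_combination hq - h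
      rw [h5] at hq
      norm_num at hq
    · -- τ0⁴ ≠ 1, i.e. τ0 ≠ 1
      intro h
      apply hτ1
      linear_combination h - (τ0 : ℂ) * hcube

/-- **M5 (`j = 0`)**: from the analytic model, invariance of `J`, and a fixed point of `S * T`
where `J = 0` with multiplicity `3`. -/
theorem stmt_LocalZero_of (hAM : ∀ (N : ℕ) [NeZero N], AnalyticModel N)
    (hinv : ∀ (g : SL(2, ℤ)) (τ : ℍ), jFun (g • τ) = jFun τ)
    (h0 : ∃ τ0 : ℍ, (ModularGroup.S * ModularGroup.T) • τ0 = τ0 ∧ jFun τ0 = 0 ∧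
      analyticOrderAt (fun z : ℂ => jFun (ofComplex z) - jFun τ0) (τ0 : ℂ) = 3) :
    Stmt_LocalZero := by
  intro N _
  obtain ⟨τ0, hfix, hval, hord⟩ := h0
  have key := localDatum_of_analyticModel hinv (ModularGroup.S * ModularGroup.T) 3 (by norm_num)
    (hAM N) (fun _ c => c = 0) (by
      rintro i0 c rfl
      refine ⟨τ0, hfix, rot_ST_isPrimitiveRoot τ0 hfix, ?_, ?_⟩
      · rw [hord]; rfl
      · rw [hval, map_zero]) 0 (fun _ => rfl)
  rw [map_zero, sub_zero] at key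
  exact key

end Fermat.Agent.S24.helper557
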