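import Fermat.Agent.S24.helper164_FinitePoints
import Fermat.Agent.S24.helper315_Embed
import Fermat.Agent.S24.helper2064_JLeaves

/-!
# S24: the three finite-point leaves, hypothesis-free (helper5639)

Glue of landed files only:

* `helper315.exists_ev`   — the analytic evaluation of `A_N = ℚ̄[j(q^d) : d ∣ N]`;
* `helper164.stmt_Local*_of` — the finite-point local data from an `EmbPackage`;
* `helper2064.stmt_JSurj / stmt_JGeneric / stmt_JElliptic` — the facts on the `j`-function.
-/

set_option autoImplicit false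

open UpperHalfPlane
open scoped MatrixGroups

namespace Fermat.Agent.S24.helper5639

open Fermat.Agent.S24.helper24

/-- The embedding package of `helper164`, from the `(Ev)` package of `helper315`. -/
theorem embPackage (N : ℕ) [NeZero N] : helper164.EmbPackage N := by
  obtain ⟨κ, e, hmd, hc, hj, hinj, hinv, hsep⟩ := helper315.exists_ev N
  refine ⟨κ, helper3176.AN N, e, helper3176.exists_div_AN N, hmd, ?_, hc,
    ⟨⟨jBar N, helper3176.jBar_mem_AN N⟩, rfl, hj⟩, ?_, hsep⟩
  · intro r hr
    exact hinj (hr.trans (map_zero e).symm)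
  · intro r γ hγ τ
    exact hinv γ hγ r τ

theorem jFun_smul (γ : SL(2, ℤ)) (τ : ℍ) : jFun (γ • τ) = jFun τ :=
  helper315.jFun_smul γ τ

/-- `Stmt_LocalGeneric`, no hypotheses. -/
theorem stmt_LocalGeneric : Stmt_LocalGeneric :=
  helper164.stmt_LocalGeneric_of (fun N _ => embPackage N) jFun_smul helper2064.stmt_JSurj
    (fun τ₀ h0 h1 => helper2064.stmt_JGeneric τ₀ h0 h1)

/-- `Stmt_Local1728`, no hypotheses. -/
theorem stmt_Local1728 : Stmt_Local1728 := by
  obtain ⟨⟨τ, hfix, hj, hord⟩, -⟩ := helper2064.stmt_JElliptic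
  refine helper164.stmt_Local1728_of (fun N _ => embPackage N) jFun_smul ⟨τ, hfix, ?_⟩
  rw [hj] at hord
  exact hord

/-- `Stmt_LocalZero`, no hypotheses. -/
theorem stmt_LocalZero : Stmt_LocalZero := by
  obtain ⟨-, ⟨τ, hfix, hj, hord⟩⟩ := helper2064.stmt_JElliptic
  refine helper164.stmt_LocalZero_of (fun N _ => embPackage N) jFun_smul ⟨τ, hfix, ?_⟩
  rw [hj] at hord
  simpa using hord

end Fermat.Agent.S24.helper5639
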