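import Fermat.Agent.S24.helper24_Spec

/-!
# S24, module M3-FUN (helper570): the three finite-point local data

`stmt_LocalGeneric`, `stmt_Local1728`, `stmt_LocalZero` prove the statements
`helper24.Stmt_LocalGeneric`, `helper24.Stmt_Local1728`, `helper24.Stmt_LocalZero` of
`helper24_Spec` from function-level hypotheses about the analytic function
`helper24.jFun : ℍ → ℂ` only:

* `EvHyp i0 N`: a polynomial relation with coefficients in `ℚ̄` between the formal series
  `j(q^d)`, `d ∣ N`, holds iff the corresponding relation holds between the functions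
  `τ ↦ j(dτ)` (coefficients mapped by `i0 : ℚ̄ →+* ℂ`);
* coset separation: `(∀ τ, jD N (g • τ) = jD N τ) → g ∈ Gamma0 N`;
* surjectivity of `jFun` and the local orders `1`, `2` (at `i`), `3` (at a fixed point of `S * T`).

Everything else is built here: the ring `Hol` of holomorphic functions on the upper half plane,
`Mer = FractionRing Hol`, the valuation `ordM τ`, the action `sigmaM` of `SL(2, ℤ)`, the
stabilizer lemma (`stabilizer_lemma`, `hdiv_of_isPrimitiveRoot`), the embedding `ev`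
(`exists_ev`) and the general datum `localDatum_of`.
-/

set_option autoImplicit false

open UpperHalfPlane Complex Filter Topology
open scoped MatrixGroups Manifold

namespace Fermat.Agent.S24.helper570

noncomputable section

/-- The open upper half plane as a subset of `ℂ`. -/
abbrev Hset : Set ℂ := {z : ℂ | 0 < z.im}

theorem isOpen_Hset : IsOpen Hset := isOpen_lt continuous_const Complex.continuous_im

theorem isPreconnected_Hset : IsPreconnected Hset :=
  (convex_halfSpace_im_gt 0).isPreconnected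

/-- The ring of holomorphic functions on the upper half plane. -/
def Hol : Subring (ℍ → ℂ) where
  carrier := {f | DifferentiableOn ℂ (f ∘ ofComplex) Hset}
  mul_mem' := fun {f g} hf hg => by
    show DifferentiableOn ℂ ((f ∘ ofComplex) * (g ∘ ofComplex)) Hset
    exact hf.mul hg
  one_mem' := by
    show DifferentiableOn ℂ (fun _ => (1 : ℂ)) Hset
    exact differentiableOn_const _
  add_mem' := fun {f g} hf hg => by
    show DifferentiableOn ℂ ((f ∘ ofComplex) + (g ∘ ofComplex)) Hset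
    exact hf.add hg
  zero_mem' := by
    show DifferentiableOn ℂ (fun _ => (0 : ℂ)) Hset
    exact differentiableOn_const _
  neg_mem' := fun {f} hf => by
    show DifferentiableOn ℂ (-(f ∘ ofComplex)) Hset
    exact hf.neg

theorem mem_Hol_iff {f : ℍ → ℂ} : f ∈ Hol ↔ DifferentiableOn ℂ (f ∘ ofComplex) Hset := Iff.rfl

theorem mem_Hol_iff_mdiff {f : ℍ → ℂ} : f ∈ Hol ↔ MDiff f :=
  UpperHalfPlane.mdifferentiable_iff.symm

/-- The extension of an element of `Hol` to a function on `ℂ`. -/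
def ext (f : Hol) : ℂ → ℂ := (f : ℍ → ℂ) ∘ ofComplex

theorem ext_apply (f : Hol) (z : ℂ) : ext f z = (f : ℍ → ℂ) (ofComplex z) := rfl

theorem ext_coe (f : Hol) (τ : ℍ) : ext f (τ : ℂ) = (f : ℍ → ℂ) τ := by
  rw [ext_apply, ofComplex_apply]

theorem ext_differentiableOn (f : Hol) : DifferentiableOn ℂ (ext f) Hset := f.2

theorem ext_analyticOnNhd (f : Hol) : AnalyticOnNhd ℂ (ext f) Hset :=
  (ext_differentiableOn f).analyticOnNhd isOpen_Hset

theorem ext_analyticAt (f : Hol) (τ : ℍ) : AnalyticAt ℂ (ext f) (τ : ℂ) :=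
  ext_analyticOnNhd f _ τ.im_pos

theorem ext_meromorphicAt (f : Hol) (τ : ℍ) : MeromorphicAt (ext f) (τ : ℂ) :=
  (ext_analyticAt f τ).meromorphicAt

theorem ext_zero : ext 0 = 0 := rfl
theorem ext_one : ext 1 = 1 := rfl
theorem ext_mul (f g : Hol) : ext (f * g) = ext f * ext g := rfl
theorem ext_add (f g : Hol) : ext (f + g) = ext f + ext g := rfl
theorem ext_neg (f : Hol) : ext (-f) = -ext f := rfl

/-- Identity theorem: an element of `Hol` vanishing near one point is zero. -/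
theorem eq_zero_of_eventually (f : Hol) (τ : ℍ) (h : ext f =ᶠ[𝓝 (τ : ℂ)] 0) : f = 0 := by
  have h1 := (ext_analyticOnNhd f).eqOn_zero_of_preconnected_of_eventuallyEq_zero
    isPreconnected_Hset τ.im_pos h
  apply Subtype.ext
  funext τ'
  have := h1 τ'.im_pos
  rw [ext_coe] at this
  simpa using this

theorem eq_zero_iff_forall (f : Hol) : f = 0 ↔ ∀ τ : ℍ, (f : ℍ → ℂ) τ = 0 := by
  constructor
  · rintro rfl τ; rfl
  · intro h
    apply Subtype.ext
    funext τ
    exact h τ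

instance : NoZeroDivisors Hol where
  eq_zero_or_eq_zero_of_mul_eq_zero := by
    intro f g hfg
    by_contra hcon
    push Not at hcon
    obtain ⟨hf, hg⟩ := hcon
    obtain ⟨τ, hτ⟩ : ∃ τ : ℍ, (f : ℍ → ℂ) τ ≠ 0 := by
      by_contra h
      push Not at h
      exact hf ((eq_zero_iff_forall f).2 h)
    apply hg
    apply eq_zero_of_eventually g τ
    have hcont : ContinuousAt (ext f) (τ : ℂ) := (ext_analyticAt f τ).continuousAt
    have hne : ∀ᶠ z in 𝓝 (τ : ℂ), ext f z ≠ 0 :=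
      hcont.eventually_ne (by rw [ext_coe]; exact hτ)
    filter_upwards [hne] with z hz
    have h1 : ext (f * g) z = 0 := by rw [hfg]; rfl
    rw [ext_mul, Pi.mul_apply] at h1
    simpa using (mul_eq_zero.1 h1).resolve_left hz

instance : IsDomain Hol := NoZeroDivisors.to_isDomain _

/-- The field of meromorphic functions on the upper half plane (fractions of holomorphic
functions). -/
abbrev Mer : Type := FractionRing Hol

/-- The order of vanishing of an element of `Hol` at a point. -/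
def ordH (τ : ℍ) (f : Hol) : WithTop ℤ := meromorphicOrderAt (ext f) (τ : ℂ)

theorem ordH_eq_top_iff (τ : ℍ) (f : Hol) : ordH τ f = ⊤ ↔ f = 0 := by
  constructor
  · intro h
    rw [ordH, meromorphicOrderAt_eq_top_iff] at h
    apply eq_zero_of_eventually f τ
    have hc : ContinuousAt (ext f) (τ : ℂ) := (ext_analyticAt f τ).continuousAt
    exact (hc.eventuallyEq_nhds_iff_eventuallyEq_nhdsNE
      (continuousAt_const (y := (0 : ℂ)))).1 h
  · rintro rfl
    rw [ordH, meromorphicOrderAt_eq_top_iff]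
    exact Eventually.of_forall fun z => rfl

theorem ordH_zero (τ : ℍ) : ordH τ 0 = ⊤ := (ordH_eq_top_iff τ 0).2 rfl

theorem ordH_one (τ : ℍ) : ordH τ 1 = 0 := by
  rw [ordH, ext_one]
  have : (1 : ℂ → ℂ) = fun _ => (1 : ℂ) := rfl
  rw [this, meromorphicOrderAt_const]
  simp

theorem ordH_mul (τ : ℍ) (f g : Hol) : ordH τ (f * g) = ordH τ f + ordH τ g := by
  show meromorphicOrderAt (ext f * ext g) (τ : ℂ)
    = meromorphicOrderAt (ext f) (τ : ℂ) + meromorphicOrderAt (ext g) (τ : ℂ)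
  exact meromorphicOrderAt_mul (ext_meromorphicAt f τ) (ext_meromorphicAt g τ)

theorem ordH_add (τ : ℍ) (f g : Hol) : min (ordH τ f) (ordH τ g) ≤ ordH τ (f + g) := by
  show min (meromorphicOrderAt (ext f) (τ : ℂ)) (meromorphicOrderAt (ext g) (τ : ℂ))
    ≤ meromorphicOrderAt (ext f + ext g) (τ : ℂ)
  exact meromorphicOrderAt_add (ext_meromorphicAt f τ) (ext_meromorphicAt g τ)

/-- The order of vanishing at `τ` as an additive valuation on `Hol`. -/
def ordHol (τ : ℍ) : AddValuation Hol (WithTop ℤ) :=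
  AddValuation.of (ordH τ) (ordH_zero τ) (ordH_one τ) (ordH_add τ) (ordH_mul τ)

theorem ordHol_apply (τ : ℍ) (f : Hol) : ordHol τ f = ordH τ f := rfl

theorem nonZeroDivisors_le_supp (τ : ℍ) :
    nonZeroDivisors Hol ≤ (AddValuation.toValuation (ordHol τ)).supp.primeCompl := by
  intro f hf
  show f ∉ (AddValuation.toValuation (ordHol τ)).supp
  rw [Valuation.mem_supp_iff]
  intro h
  have h2 : ordHol τ f = ⊤ := by
    have := congrArg (fun x => OrderDual.ofDual (Multiplicative.toAdd x)) h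
    simpa using this
  rw [ordHol_apply, ordH_eq_top_iff] at h2
  exact nonZeroDivisors.ne_zero hf h2

/-- The order at `τ` as an additive valuation on `Mer`. -/
def ordM (τ : ℍ) : AddValuation Mer (WithTop ℤ) :=
  AddValuation.ofValuation
    ((AddValuation.toValuation (ordHol τ)).extendToLocalization (nonZeroDivisors_le_supp τ) Mer)

theorem ordM_algebraMap (τ : ℍ) (f : Hol) : ordM τ (algebraMap Hol Mer f) = ordH τ f := by
  show OrderDual.ofDual (Multiplicative.toAdd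
    (((AddValuation.toValuation (ordHol τ)).extendToLocalization (nonZeroDivisors_le_supp τ) Mer)
      (algebraMap Hol Mer f))) = ordH τ f
  rw [Valuation.extendToLocalization_apply_map_apply]
  rfl

/-! ### Constants -/

/-- Constant functions. -/
def constH : ℂ →+* Hol where
  toFun c := ⟨fun _ => c, by
    show DifferentiableOn ℂ (fun _ => c) Hset
    exact differentiableOn_const _⟩
  map_one' := rfl
  map_mul' _ _ := rfl
  map_zero' := rfl
  map_add' _ _ := rfl

theorem constH_apply (c : ℂ) (τ : ℍ) : (constH c : ℍ → ℂ) τ = c := rfl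

theorem ext_constH (c : ℂ) : ext (constH c) = fun _ => c := rfl

theorem constH_injective : Function.Injective constH := by
  intro a b h
  have := congrArg (fun f : Hol => (f : ℍ → ℂ) UpperHalfPlane.I) h
  simpa [constH_apply] using this

theorem ordH_constH (τ : ℍ) {c : ℂ} (hc : c ≠ 0) : ordH τ (constH c) = 0 := by
  classical
  rw [ordH, ext_constH, meromorphicOrderAt_const]
  simp [hc]

/-- The order of an element of `Hol` in terms of `analyticOrderAt`. -/
theorem ordH_eq_analyticOrderAt (τ : ℍ) (f : Hol) :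
    ordH τ f = (analyticOrderAt (ext f) (τ : ℂ)).map (↑) :=
  (ext_analyticAt f τ).meromorphicOrderAt_eq

theorem ordH_eq_natCast (τ : ℍ) (f : Hol) {n : ℕ} (h : analyticOrderAt (ext f) (τ : ℂ) = n) :
    ordH τ f = ((n : ℤ) : WithTop ℤ) := by
  rw [ordH_eq_analyticOrderAt, h]
  rfl

theorem ordH_ne_top (τ : ℍ) {f : Hol} (hf : f ≠ 0) : ordH τ f ≠ ⊤ := fun h =>
  hf ((ordH_eq_top_iff τ f).1 h)

/-! ### Trailing coefficients -/

/-- The trailing coefficient of an element of `Hol` at a point. -/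
def tcH (τ : ℍ) (f : Hol) : ℂ := meromorphicTrailingCoeffAt (ext f) (τ : ℂ)

theorem tcH_mul (τ : ℍ) (f g : Hol) : tcH τ (f * g) = tcH τ f * tcH τ g := by
  show meromorphicTrailingCoeffAt (ext f * ext g) (τ : ℂ) = _
  exact (ext_meromorphicAt f τ).meromorphicTrailingCoeffAt_mul (ext_meromorphicAt g τ)

theorem tcH_ne_zero (τ : ℍ) {f : Hol} (hf : f ≠ 0) : tcH τ f ≠ 0 :=
  (ext_meromorphicAt f τ).meromorphicTrailingCoeffAt_ne_zero (ordH_ne_top τ hf)

theorem trailingCoeff_sub_of_deriv_ne_zero {G : ℂ → ℂ} {x : ℂ} (hG : AnalyticAt ℂ G x)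
    (hG' : deriv G x ≠ 0) :
    meromorphicTrailingCoeffAt (fun z => G z - G x) x = deriv G x := by
  have hF : AnalyticAt ℂ (fun z => G z - G x) x := hG.sub analyticAt_const
  have hord : analyticOrderAt (fun z => G z - G x) x = 1 :=
    hG.analyticOrderAt_sub_eq_one_of_deriv_ne_zero hG'
  have hmord : meromorphicOrderAt (fun z => G z - G x) x = 1 := by
    rw [hF.meromorphicOrderAt_eq, hord]; rfl
  have h1 := hF.meromorphicAt.tendsto_nhds_meromorphicTrailingCoeffAt
  rw [hmord] at h1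
  have h2 : Tendsto (slope G x) (𝓝[≠] x) (𝓝 (deriv G x)) :=
    hasDerivAt_iff_tendsto_slope.1 hG.differentiableAt.hasDerivAt
  have h3 : ((fun z => z - x) ^ (-(1 : WithTop ℤ).untop₀) • fun z => G z - G x) = slope G x := by
    funext z
    simp [slope_def_field, div_eq_inv_mul]
  rw [h3] at h1
  exact tendsto_nhds_unique h1 h2

/-! ### The action of `SL(2, ℤ)` -/

theorem det_pos_coe (g : SL(2, ℤ)) : 0 < ((g : GL (Fin 2) ℝ)).det.val := by simp

/-- Pull-back by `g⁻¹`: `(pull g f) τ = f (g⁻¹ • τ)`. -/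
def pull (g : SL(2, ℤ)) : Hol →+* Hol where
  toFun f := ⟨fun τ => (f : ℍ → ℂ) (g⁻¹ • τ), by
    rw [mem_Hol_iff_mdiff]
    exact (mem_Hol_iff_mdiff.1 f.2).comp (mdifferentiable_smul (det_pos_coe g⁻¹))⟩
  map_one' := rfl
  map_mul' _ _ := rfl
  map_zero' := rfl
  map_add' _ _ := rfl

theorem pull_apply (g : SL(2, ℤ)) (f : Hol) (τ : ℍ) :
    (pull g f : ℍ → ℂ) τ = (f : ℍ → ℂ) (g⁻¹ • τ) := rfl

theorem ext_pull (g : SL(2, ℤ)) (f : Hol) :
    ext (pull g f) = fun z => (f : ℍ → ℂ) (g⁻¹ • ofComplex z) := rfl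

theorem pull_one (f : Hol) : pull 1 f = f := by
  apply Subtype.ext; funext τ
  rw [pull_apply, inv_one, one_smul]

theorem pull_mul (g h : SL(2, ℤ)) (f : Hol) : pull (g * h) f = pull g (pull h f) := by
  apply Subtype.ext; funext τ
  rw [pull_apply, pull_apply, pull_apply, mul_inv_rev, mul_smul]

theorem pull_constH (g : SL(2, ℤ)) (c : ℂ) : pull g (constH c) = constH c := rfl

/-- `pull g` as a ring automorphism. -/
def pullEquiv (g : SL(2, ℤ)) : Hol ≃+* Hol :=
  RingEquiv.ofRingHom (pull g) (pull g⁻¹)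
    (RingHom.ext fun f => by
      show pull g (pull g⁻¹ f) = f
      rw [← pull_mul, mul_inv_cancel, pull_one])
    (RingHom.ext fun f => by
      show pull g⁻¹ (pull g f) = f
      rw [← pull_mul, inv_mul_cancel, pull_one])

theorem pullEquiv_apply (g : SL(2, ℤ)) (f : Hol) : pullEquiv g f = pull g f := rfl

/-- The action as a group homomorphism into ring automorphisms of `Hol`. -/
def pullHom : SL(2, ℤ) →* (Hol ≃+* Hol) where
  toFun := pullEquiv
  map_one' := RingEquiv.ext fun f => pull_one f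
  map_mul' g h := RingEquiv.ext fun f => pull_mul g h f

/-- The action on `Mer`. -/
def sigmaM : SL(2, ℤ) →* (Mer ≃+* Mer) :=
  (IsFractionRing.ringEquivOfRingEquivHom Hol Mer).comp pullHom

theorem sigmaM_algebraMap (g : SL(2, ℤ)) (f : Hol) :
    sigmaM g (algebraMap Hol Mer f) = algebraMap Hol Mer (pull g f) :=
  IsFractionRing.ringEquivOfRingEquiv_algebraMap (pullEquiv g) f

theorem ordH_pull (g : SL(2, ℤ)) (τ : ℍ) (f : Hol) :
    ordH τ (pull g f) = ordH (g⁻¹ • τ) f := by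
  rw [ordH, ext_pull]
  exact meromorphicOrderAt_comp_smul (f := (f : ℍ → ℂ)) (τ := τ) (det_pos_coe g⁻¹)

theorem exists_div_eq (z : Mer) :
    ∃ a b : Hol, b ≠ 0 ∧ z = algebraMap Hol Mer a / algebraMap Hol Mer b := by
  obtain ⟨a, b, hb, rfl⟩ := IsFractionRing.div_surjective (A := Hol) z
  exact ⟨a, b, nonZeroDivisors.ne_zero hb, rfl⟩

theorem algebraMap_ne_zero {b : Hol} (hb : b ≠ 0) : algebraMap Hol Mer b ≠ 0 := by
  intro h
  exact hb ((IsFractionRing.injective Hol Mer) (by rw [h, map_zero]))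

theorem ordM_div (τ : ℍ) (a b : Hol) :
    ordM τ (algebraMap Hol Mer a / algebraMap Hol Mer b) = ordH τ a - ordH τ b := by
  rw [AddValuation.map_div, ordM_algebraMap, ordM_algebraMap]

theorem ordM_sigmaM (g : SL(2, ℤ)) (τ : ℍ) (z : Mer) :
    ordM τ (sigmaM g z) = ordM (g⁻¹ • τ) z := by
  obtain ⟨a, b, hb, rfl⟩ := exists_div_eq z
  rw [map_div₀, sigmaM_algebraMap, sigmaM_algebraMap, ordM_div, ordM_div, ordH_pull, ordH_pull]

/-! ### The stabilizer lemma -/

/-- The derivative at `τ` of the Möbius transformation `w ↦ g⁻¹ • w`. -/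
def mult (g : SL(2, ℤ)) (τ : ℍ) : ℂ :=
  deriv (fun w : ℂ => ((g⁻¹ • ofComplex w : ℍ) : ℂ)) (τ : ℂ)

theorem mult_eq (g : SL(2, ℤ)) (τ : ℍ) :
    mult g τ = 1 / denom ((g⁻¹ : SL(2, ℤ)) : GL (Fin 2) ℝ) τ ^ 2 := by
  have h := deriv_smul (g := ((g⁻¹ : SL(2, ℤ)) : GL (Fin 2) ℝ)) (det_pos_coe g⁻¹) τ
  rw [mult]
  have h2 : (fun w : ℂ => ((g⁻¹ • ofComplex w : ℍ) : ℂ))
      = (fun w : ℂ => ((((g⁻¹ : SL(2, ℤ)) : GL (Fin 2) ℝ) • ofComplex w : ℍ) : ℂ)) := rfl
  have hdet : (((g⁻¹ : SL(2, ℤ)) : GL (Fin 2) ℝ)).val.det = 1 :=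
    Matrix.SpecialLinearGroup.det_coe (Matrix.SpecialLinearGroup.map (Int.castRingHom ℝ) g⁻¹)
  rw [h2, h, hdet]
  simp

theorem mult_ne_zero (g : SL(2, ℤ)) (τ : ℍ) : mult g τ ≠ 0 :=
  deriv_smul_ne_zero (g := ((g⁻¹ : SL(2, ℤ)) : GL (Fin 2) ℝ)) (det_pos_coe g⁻¹) τ

theorem tcH_pull (g : SL(2, ℤ)) (τ : ℍ) (hfix : g • τ = τ) (f : Hol) :
    tcH τ (pull g f) = mult g τ ^ (ordH τ f).untop₀ * tcH τ f := by
  have hfix' : g⁻¹ • τ = τ := by
    rw [inv_smul_eq_iff]; exact hfix.symm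
  set G : ℂ → ℂ := fun w : ℂ => ((g⁻¹ • ofComplex w : ℍ) : ℂ) with hG
  have hGτ : G (τ : ℂ) = (τ : ℂ) := by
    simp only [hG]
    rw [ofComplex_apply, hfix']
  have hGan : AnalyticAt ℂ G (τ : ℂ) :=
    analyticAt_smul (g := ((g⁻¹ : SL(2, ℤ)) : GL (Fin 2) ℝ)) (det_pos_coe g⁻¹) τ
  have hG' : deriv G (τ : ℂ) ≠ 0 := mult_ne_zero g τ
  have hnc : ¬ EventuallyConst G (𝓝 (τ : ℂ)) := by
    have hgo : analyticOrderAt (fun z => G z - G (τ : ℂ)) (τ : ℂ) = 1 :=
      hGan.analyticOrderAt_sub_eq_one_of_deriv_ne_zero hG'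
    rw [eventuallyConst_iff_analyticOrderAt_sub_eq_top, hgo]
    simp
  have hcomp : ext (pull g f) = ext f ∘ G := by
    funext w
    show (f : ℍ → ℂ) (g⁻¹ • ofComplex w)
      = (f : ℍ → ℂ) (ofComplex ((g⁻¹ • ofComplex w : ℍ) : ℂ))
    rw [ofComplex_apply]
  have hmer : MeromorphicAt (ext f) (G (τ : ℂ)) := by
    rw [hGτ]; exact ext_meromorphicAt f τ
  have key := hmer.meromorphicTrailingCoeffAt_comp hGan hnc
  rw [tcH, hcomp, key, trailingCoeff_sub_of_deriv_ne_zero hGan hG', hGτ]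
  rfl

theorem ordH_pull_of_fix (g : SL(2, ℤ)) (τ : ℍ) (hfix : g • τ = τ) (f : Hol) :
    ordH τ (pull g f) = ordH τ f := by
  rw [ordH_pull, inv_smul_eq_iff.2 hfix.symm]

theorem pow_smul_fix (g : SL(2, ℤ)) (τ : ℍ) (hfix : g • τ = τ) (k : ℕ) : g ^ k • τ = τ := by
  induction k with
  | zero => simp
  | succ k ih => rw [pow_succ, mul_smul, hfix, ih]

theorem tcH_pull_pow (g : SL(2, ℤ)) (τ : ℍ) (hfix : g • τ = τ) (f : Hol) (k : ℕ) :
    tcH τ (pull (g ^ k) f) = (mult g τ ^ (ordH τ f).untop₀) ^ k * tcH τ f := by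
  induction k with
  | zero => simp [pull_one]
  | succ k ih =>
    rw [pow_succ', pull_mul, tcH_pull g τ hfix, ordH_pull_of_fix _ τ (pow_smul_fix g τ hfix k),
      ih, pow_succ']
    ring

/-- **Stabilizer lemma.** If `g` fixes `τ` and `z ≠ 0` is a meromorphic function fixed by the
`k`-th power of `g`, then `mult g τ ^ (k * ord_τ z) = 1`. -/
theorem stabilizer_lemma (g : SL(2, ℤ)) (τ : ℍ) (hfix : g • τ = τ) (k : ℕ) (z : Mer) (hz : z ≠ 0)
    (hσ : sigmaM (g ^ k) z = z) :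
    ∃ n : ℤ, ordM τ z = ((n : ℤ) : WithTop ℤ) ∧ mult g τ ^ ((k : ℤ) * n) = 1 := by
  obtain ⟨a, b, hb, rfl⟩ := exists_div_eq z
  have ha : a ≠ 0 := by
    rintro rfl
    apply hz
    simp
  have hb' := algebraMap_ne_zero hb
  have hpb : pull (g ^ k) b ≠ 0 := by
    intro h
    have : ordH τ (pull (g ^ k) b) = ⊤ := (ordH_eq_top_iff τ _).2 h
    rw [ordH_pull_of_fix _ τ (pow_smul_fix g τ hfix k)] at this
    exact ordH_ne_top τ hb this
  have hpb' := algebraMap_ne_zero hpb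
  rw [map_div₀, sigmaM_algebraMap, sigmaM_algebraMap, div_eq_div_iff hpb' hb', ← map_mul,
    ← map_mul] at hσ
  have hσ' : pull (g ^ k) a * b = a * pull (g ^ k) b := IsFractionRing.injective Hol Mer hσ
  have htc := congrArg (tcH τ) hσ'
  rw [tcH_mul, tcH_mul, tcH_pull_pow g τ hfix, tcH_pull_pow g τ hfix] at htc
  have hta := tcH_ne_zero τ ha
  have htb := tcH_ne_zero τ hb
  set na := (ordH τ a).untop₀ with hna
  set nb := (ordH τ b).untop₀ with hnb
  have hμ := mult_ne_zero g τ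
  have h1 : (mult g τ ^ na) ^ k = (mult g τ ^ nb) ^ k := by
    have h2 : (mult g τ ^ na) ^ k * (tcH τ a * tcH τ b)
        = (mult g τ ^ nb) ^ k * (tcH τ a * tcH τ b) := by
      rw [← mul_assoc, htc]; ring
    exact mul_right_cancel₀ (mul_ne_zero hta htb) h2
  refine ⟨na - nb, ?_, ?_⟩
  · rw [ordM_div]
    have e1 : ordH τ a = ((na : ℤ) : WithTop ℤ) := (WithTop.coe_untop₀_of_ne_top (ordH_ne_top τ ha)).symm
    have e2 : ordH τ b = ((nb : ℤ) : WithTop ℤ) := (WithTop.coe_untop₀_of_ne_top (ordH_ne_top τ hb)).symm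
    rw [e1, e2]
    rfl
  · rw [← zpow_natCast, ← zpow_mul, ← zpow_natCast, ← zpow_mul] at h1
    rw [mul_sub, zpow_sub₀ hμ, mul_comm (k : ℤ) na, mul_comm (k : ℤ) nb, h1]
    exact div_self (zpow_ne_zero _ hμ)

/-- The divisibility hypothesis of the orbit counting lemma, from the stabilizer lemma. -/
theorem hdiv_of_isPrimitiveRoot (g : SL(2, ℤ)) (τ : ℍ) (hfix : g • τ = τ) (m : ℕ) (hm : 0 < m)
    (hprim : IsPrimitiveRoot (mult g τ) m) (k : ℕ) (z : Mer) (hz : z ≠ 0)
    (hσ : sigmaM (g ^ k) z = z) :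
    ∃ l : ℤ, ordM τ z = (((m / Nat.gcd k m : ℕ) * l : ℤ) : WithTop ℤ) := by
  obtain ⟨n, hn, hpow⟩ := stabilizer_lemma g τ hfix k z hz hσ
  have hdvd : (m : ℤ) ∣ (k : ℤ) * n := (hprim.zpow_eq_one_iff_dvd _).1 hpow
  have hdvd' : m ∣ k * n.natAbs := by
    have := Int.natCast_dvd.1 hdvd
    rwa [Int.natAbs_mul, Int.natAbs_natCast] at this
  have hgpos : 0 < Nat.gcd k m := Nat.gcd_pos_of_pos_right k hm
  have hcop : Nat.Coprime (m / Nat.gcd k m) (k / Nat.gcd k m) := by
    rw [Nat.coprime_comm]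
    exact Nat.coprime_div_gcd_div_gcd hgpos
  have h3 : m / Nat.gcd k m ∣ n.natAbs := by
    apply hcop.dvd_of_dvd_mul_left
    obtain ⟨c, hc⟩ := hdvd'
    refine ⟨c, ?_⟩
    have hm' : m = Nat.gcd k m * (m / Nat.gcd k m) := (Nat.mul_div_cancel' (Nat.gcd_dvd_right k m)).symm
    have hk' : k = Nat.gcd k m * (k / Nat.gcd k m) := (Nat.mul_div_cancel' (Nat.gcd_dvd_left k m)).symm
    apply Nat.eq_of_mul_eq_mul_left hgpos
    calc Nat.gcd k m * (k / Nat.gcd k m * n.natAbs) = (Nat.gcd k m * (k / Nat.gcd k m)) * n.natAbs := by ring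
      _ = k * n.natAbs := by rw [← hk']
      _ = m * c := hc
      _ = (Nat.gcd k m * (m / Nat.gcd k m)) * c := by rw [← hm']
      _ = Nat.gcd k m * (m / Nat.gcd k m * c) := by ring
  obtain ⟨l, hl⟩ := Int.natCast_dvd.2 h3
  exact ⟨l, by rw [hn, hl]⟩

/-! ### The analytic `j`-function -/

open ModularForm in
theorem jFun_mdiff : MDiff helper24.jFun := by
  have h4 : MDiff (fun z : ℍ => E₄ z ^ 3) := (E₄.holo').pow 3
  exact h4.div CuspForm.discriminant.holo' discriminant_ne_zero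

open ModularForm in
theorem jFun_smul (γ : SL(2, ℤ)) (z : ℍ) : helper24.jFun (γ • z) = helper24.jFun z := by
  have hd : denom γ z ≠ 0 := denom_ne_zero γ z
  have hΔ : discriminant (γ • z) = denom γ z ^ (12 : ℤ) * discriminant z := by
    have h0 : (discriminant : ℍ → ℂ) ∣[(12 : ℤ)] γ = discriminant :=
      CuspForm.discriminant.slash_action_eq' _ ⟨γ, rfl⟩
    have h := congrFun h0 z
    rw [ModularForm.SL_slash_apply] at h
    rw [← h, mul_comm (discriminant (γ • z)), ← mul_assoc, ← zpow_add₀ hd]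
    simp
  have hE : E₄ (γ • z) = denom γ z ^ (4 : ℤ) * E₄ z := by
    have h0 : (E₄ : ℍ → ℂ) ∣[(4 : ℤ)] γ = E₄ := E₄.slash_action_eq' _ ⟨γ, rfl⟩
    have h := congrFun h0 z
    rw [ModularForm.SL_slash_apply] at h
    rw [← h, mul_comm (E₄ (γ • z)), ← mul_assoc, ← zpow_add₀ hd]
    simp
  have h12 : (denom γ z ^ (4 : ℤ)) ^ 3 = denom γ z ^ (12 : ℤ) := by
    rw [← zpow_natCast, ← zpow_mul]; norm_num
  rw [helper24.jFun, helper24.jFun, hΔ, hE, mul_pow, h12,
    mul_div_mul_left _ _ (zpow_ne_zero 12 hd)]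

/-- `j` as an element of `Hol`. -/
def JH : Hol := ⟨helper24.jFun, mem_Hol_iff_mdiff.2 jFun_mdiff⟩

theorem JH_apply (τ : ℍ) : (JH : ℍ → ℂ) τ = helper24.jFun τ := rfl

theorem pull_JH (g : SL(2, ℤ)) : pull g JH = JH := by
  apply Subtype.ext; funext τ
  rw [pull_apply, JH_apply, JH_apply, jFun_smul]

/-- The function `τ ↦ j(d τ)`. -/
def jD (d : ℕ) (τ : ℍ) : ℂ := helper24.jFun (ofComplex ((d : ℂ) * (τ : ℂ)))

theorem jD_one (τ : ℍ) : jD 1 τ = helper24.jFun τ := by
  rw [jD, Nat.cast_one, one_mul, ofComplex_apply]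

theorem im_natCast_mul_pos {d : ℕ} (hd : d ≠ 0) {z : ℂ} (hz : 0 < z.im) :
    0 < ((d : ℂ) * z).im := by
  have : ((d : ℂ) * z).im = d * z.im := by simp
  rw [this]
  exact mul_pos (by exact_mod_cast Nat.pos_of_ne_zero hd) hz

theorem jD_mem {d : ℕ} (hd : d ≠ 0) : jD d ∈ Hol := by
  have h1 : DifferentiableOn ℂ (ext JH ∘ fun z : ℂ => (d : ℂ) * z) Hset := by
    refine (ext_differentiableOn JH).comp ?_ ?_
    · exact (differentiableOn_const _).mul differentiableOn_id
    · intro z hz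
      exact im_natCast_mul_pos hd hz
  refine h1.congr ?_
  intro z hz
  show helper24.jFun (ofComplex ((d : ℂ) * ((ofComplex z : ℍ) : ℂ)))
    = helper24.jFun (ofComplex ((d : ℂ) * z))
  rw [ofComplex_apply_of_im_pos hz]

theorem jD_Gamma0 {N d : ℕ} (hd : d ∣ N) (hd0 : d ≠ 0) (γ : SL(2, ℤ))
    (hγ : γ ∈ CongruenceSubgroup.Gamma0 N) (τ : ℍ) : jD d (γ • τ) = jD d τ := by
  rw [CongruenceSubgroup.Gamma0_mem] at hγ
  have hN : (N : ℤ) ∣ γ 1 0 := (ZMod.intCast_zmod_eq_zero_iff_dvd _ N).1 hγ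
  obtain ⟨c', hc'⟩ : (d : ℤ) ∣ γ 1 0 := (Int.natCast_dvd_natCast.2 hd).trans hN
  have hdet : γ 0 0 * γ 1 1 - γ 0 1 * γ 1 0 = 1 := by
    have := γ.det_coe
    rw [Matrix.det_fin_two] at this
    exact this
  let γ' : SL(2, ℤ) := ⟨!![γ 0 0, γ 0 1 * d; c', γ 1 1], by
    rw [Matrix.det_fin_two_of]
    rw [hc'] at hdet
    linarith⟩
  have hτ' : 0 < ((d : ℂ) * (τ : ℂ)).im := im_natCast_mul_pos hd0 τ.im_pos
  have key : ((d : ℂ) * ((γ • τ : ℍ) : ℂ)) = ((γ' • ofComplex ((d : ℂ) * (τ : ℂ)) : ℍ) : ℂ) := by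
    rw [coe_specialLinearGroup_apply, coe_specialLinearGroup_apply, ofComplex_apply_of_im_pos hτ']
    have h10 : ((algebraMap ℤ ℝ (γ 1 0) : ℝ) : ℂ) = (d : ℂ) * ((algebraMap ℤ ℝ c' : ℝ) : ℂ) := by
      rw [hc']; simp
    have e00 : γ' 0 0 = γ 0 0 := rfl
    have e01 : γ' 0 1 = γ 0 1 * d := rfl
    have e10 : γ' 1 0 = c' := rfl
    have e11 : γ' 1 1 = γ 1 1 := rfl
    rw [e00, e01, e10, e11, h10]
    have hden : (d : ℂ) * ((algebraMap ℤ ℝ c' : ℝ) : ℂ) * (τ : ℂ) + ((algebraMap ℤ ℝ (γ 1 1) : ℝ) : ℂ) ≠ 0 := by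
      have := denom_ne_zero γ τ
      rw [ModularGroup.denom_apply, hc'] at this
      simpa using this
    have hden' : ((algebraMap ℤ ℝ c' : ℝ) : ℂ) * ((d : ℂ) * (τ : ℂ)) + ((algebraMap ℤ ℝ (γ 1 1) : ℝ) : ℂ) ≠ 0 := by
      rw [← mul_assoc, mul_comm _ (d : ℂ)]; exact hden
    rw [mul_div_assoc', div_eq_div_iff hden hden']
    simp
    ring
  rw [jD, jD, key, ofComplex_apply, jFun_smul]

/-! ### The function field is generated by the `j(q^d)` -/

open ModularCurve helper24 in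
/-- The index type of the generators: divisors of `N`. -/
abbrev Dv (N : ℕ) : Type := {d : ℕ // d ∈ N.divisors}

theorem Dv.ne_zero {N : ℕ} (d : Dv N) : d.1 ≠ 0 := (Nat.pos_of_mem_divisors d.2).ne'

theorem Dv.dvd {N : ℕ} (d : Dv N) : d.1 ∣ N := Nat.dvd_of_mem_divisors d.2

open ModularCurve helper24 in
/-- The formal series `j(q^d)` for `d ∣ N`. -/
def jSer (N : ℕ) (d : Dv N) : LaurentSeries Kbar :=
  @jSeries d.1 ⟨d.ne_zero⟩

open ModularCurve helper24 in
theorem jSer_mem (N : ℕ) (d : Dv N) : jSer N d ∈ modularFunctionFieldBar N :=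
  @jSeries_mem N d.1 ⟨d.ne_zero⟩ d.dvd

open ModularCurve helper24 in
/-- `j(q^d)` as an element of the function field. -/
def jGen (N : ℕ) (d : Dv N) : FN N := ⟨jSer N d, jSer_mem N d⟩

open ModularCurve helper24 IntermediateField in
theorem coeffEmb_mem_adjoin (N : ℕ) [NeZero N] (x : LaurentSeries ℚ)
    (hx : x ∈ IntermediateField.adjoin ℚ (divisorExpansions N)) :
    coeffEmb Kbar x ∈ IntermediateField.adjoin Kbar (Set.range (jSer N)) := by
  induction hx using IntermediateField.adjoin_induction with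
  | mem y hy =>
    obtain ⟨d, hne, hdvd, rfl⟩ := hy
    refine IntermediateField.subset_adjoin Kbar _ ?_
    exact ⟨⟨d, Nat.mem_divisors.2 ⟨hdvd, NeZero.ne N⟩⟩, rfl⟩
  | algebraMap r =>
    have : coeffEmb Kbar (algebraMap ℚ (LaurentSeries ℚ) r)
        = algebraMap Kbar (LaurentSeries Kbar) (algebraMap ℚ Kbar r) := by
      rw [algebraMap_apply_eq_single, algebraMap_laurentSeries_eq_single, coeffEmb,
        coeffMap_single]
    rw [this]
    exact IntermediateField.algebraMap_mem _ _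
  | add y z _ _ hy hz =>
    rw [map_add]
    exact add_mem hy hz
  | inv y _ hy =>
    rw [map_inv₀]
    exact inv_mem hy
  | mul y z _ _ hy hz =>
    rw [map_mul]
    exact mul_mem hy hz

open ModularCurve helper24 IntermediateField in
theorem bar_eq_adjoin (N : ℕ) [NeZero N] :
    modularFunctionFieldBar N = IntermediateField.adjoin Kbar (Set.range (jSer N)) := by
  apply le_antisymm
  · show laurentBaseChange Kbar (modularFunctionFieldFull N) ≤ _
    rw [laurentBaseChange, IntermediateField.adjoin_le_iff]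
    rintro _ ⟨x, hx, rfl⟩
    exact coeffEmb_mem_adjoin N x hx
  · rw [IntermediateField.adjoin_le_iff]
    rintro _ ⟨d, rfl⟩
    exact jSer_mem N d

/-! ### `Mer` as a `ℚ̄`-algebra and the evaluation hypothesis -/

/-- `Mer` with the `ℚ̄`-algebra structure coming from an embedding `i0 : ℚ̄ →+* ℂ`. -/
def MerK (_i0 : helper24.Kbar →+* ℂ) : Type := Mer

instance (i0 : helper24.Kbar →+* ℂ) : Field (MerK i0) := inferInstanceAs (Field Mer)

/-- The structure map `ℚ̄ → Mer`. -/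
def toMerK (i0 : helper24.Kbar →+* ℂ) : helper24.Kbar →+* MerK i0 :=
  (algebraMap Hol Mer).comp (constH.comp i0)

instance (i0 : helper24.Kbar →+* ℂ) : Algebra helper24.Kbar (MerK i0) := (toMerK i0).toAlgebra

/-- The map `Hol → MerK i0`. -/
def holK (i0 : helper24.Kbar →+* ℂ) : Hol →+* MerK i0 := algebraMap Hol Mer

theorem holK_injective (i0 : helper24.Kbar →+* ℂ) : Function.Injective (holK i0) :=
  IsFractionRing.injective Hol Mer

theorem algebraMap_MerK (i0 : helper24.Kbar →+* ℂ) (a : helper24.Kbar) :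
    algebraMap helper24.Kbar (MerK i0) a = holK i0 (constH (i0 a)) := rfl

/-- `τ ↦ j(d τ)` as an element of `Hol`, for `d ∣ N`. -/
def JDH (N : ℕ) (d : Dv N) : Hol := ⟨jD d.1, jD_mem d.ne_zero⟩

theorem JDH_apply (N : ℕ) (d : Dv N) (τ : ℍ) : (JDH N d : ℍ → ℂ) τ = jD d.1 τ := rfl

/-- **Evaluation hypothesis** (function-level form of "`ev` is a well-defined injective ring
homomorphism on `ℚ̄[j(q^d) : d ∣ N]`"): a polynomial relation between the formal series
`j(q^d)` holds iff the corresponding relation holds between the functions `τ ↦ j(dτ)`. -/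
def EvHyp (i0 : helper24.Kbar →+* ℂ) (N : ℕ) : Prop :=
  ∀ p : MvPolynomial (Dv N) helper24.Kbar,
    MvPolynomial.aeval (jSer N) p = 0 ↔
      ∀ τ : ℍ, MvPolynomial.eval₂ i0 (fun d : Dv N => jD d.1 τ) p = 0

/-- Evaluation at a point as a ring homomorphism. -/
def evalAt (τ : ℍ) : Hol →+* ℂ where
  toFun f := (f : ℍ → ℂ) τ
  map_one' := rfl
  map_mul' _ _ := rfl
  map_zero' := rfl
  map_add' _ _ := rfl

theorem aeval_holK_eq (i0 : helper24.Kbar →+* ℂ) (N : ℕ) (p : MvPolynomial (Dv N) helper24.Kbar) :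
    MvPolynomial.aeval (fun d : Dv N => holK i0 (JDH N d)) p
      = holK i0 (MvPolynomial.eval₂ (constH.comp i0) (JDH N) p) := by
  rw [MvPolynomial.aeval_def, MvPolynomial.hom_eval₂]
  rfl

theorem aeval_holK_eq_zero_iff (i0 : helper24.Kbar →+* ℂ) (N : ℕ)
    (p : MvPolynomial (Dv N) helper24.Kbar) :
    MvPolynomial.aeval (fun d : Dv N => holK i0 (JDH N d)) p = 0 ↔
      ∀ τ : ℍ, MvPolynomial.eval₂ i0 (fun d : Dv N => jD d.1 τ) p = 0 := by
  rw [aeval_holK_eq, map_eq_zero_iff _ (holK_injective i0), eq_zero_iff_forall]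
  refine forall_congr' fun τ => ?_
  have h := MvPolynomial.hom_eval₂ p (constH.comp i0) (evalAt τ) (JDH N)
  have h2 : (evalAt τ).comp (constH.comp i0) = i0 := RingHom.ext fun a => rfl
  rw [h2] at h
  have h3 : (fun d : Dv N => evalAt τ (JDH N d)) = fun d : Dv N => jD d.1 τ := rfl
  rw [h3] at h
  rw [← h]
  rfl

open ModularCurve helper24 in
/-- **Existence of the analytic embedding.** From the evaluation hypothesis we get a `ℚ̄`-algebra
embedding of the function field into `Mer` sending `j(q^d)` to `τ ↦ j(dτ)`. -/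
theorem exists_ev (i0 : Kbar →+* ℂ) (N : ℕ) [NeZero N] (h : EvHyp i0 N) :
    ∃ ev : FN N →ₐ[Kbar] MerK i0, ∀ d : Dv N, ev (jGen N d) = holK i0 (JDH N d) := by
  classical
  let φ : MvPolynomial (Dv N) Kbar →ₐ[Kbar] FN N := MvPolynomial.aeval (jGen N)
  let ψ : MvPolynomial (Dv N) Kbar →ₐ[Kbar] MerK i0 :=
    MvPolynomial.aeval (fun d : Dv N => holK i0 (JDH N d))
  have hφval : ∀ p, ((φ p : FN N) : LaurentSeries Kbar) = MvPolynomial.aeval (jSer N) p := by
    intro p
    have h1 := MvPolynomial.comp_aeval (R := Kbar) (f := jGen N) (modularFunctionFieldBar N).val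
    exact congrArg (fun f => f p) h1
  have hker : ∀ p, φ p = 0 ↔ ψ p = 0 := by
    intro p
    rw [aeval_holK_eq_zero_iff, ← h p, ← hφval p]
    constructor
    · intro h0; rw [h0]; rfl
    · intro h0; exact Subtype.ext h0
  let φbar := Ideal.kerLiftAlg φ
  have hφbar : Function.Injective φbar := Ideal.kerLiftAlg_injective φ
  let ψbar := Ideal.Quotient.liftₐ (RingHom.ker φ) ψ (fun p hp => (hker p).1 hp)
  have hψbar : Function.Injective ψbar := by
    rw [injective_iff_map_eq_zero]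
    intro x hx
    obtain ⟨p, rfl⟩ := Ideal.Quotient.mk_surjective x
    have h1 : ψ p = 0 := hx
    exact Ideal.Quotient.eq_zero_iff_mem.2 ((hker p).2 h1)
  let : Algebra (MvPolynomial (Dv N) Kbar ⧸ RingHom.ker φ) (FN N) := φbar.toRingHom.toAlgebra
  have : IsScalarTower Kbar (MvPolynomial (Dv N) Kbar ⧸ RingHom.ker φ) (FN N) :=
    IsScalarTower.of_algebraMap_eq (fun x => (φbar.commutes x).symm)
  have : FaithfulSMul (MvPolynomial (Dv N) Kbar ⧸ RingHom.ker φ) (FN N) :=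
    (faithfulSMul_iff_algebraMap_injective _ _).2 hφbar
  have : IsFractionRing (MvPolynomial (Dv N) Kbar ⧸ RingHom.ker φ) (FN N) := by
    refine IsFractionRing.of_field _ _ (fun z => ?_)
    have hz : (z : LaurentSeries Kbar) ∈ IntermediateField.adjoin Kbar (Set.range (jSer N)) := by
      rw [← bar_eq_adjoin]; exact z.2
    obtain ⟨r, s, hrs⟩ := (IntermediateField.mem_adjoin_range_iff Kbar (jSer N) _).1 hz
    refine ⟨Ideal.Quotient.mk _ r, Ideal.Quotient.mk _ s, Subtype.ext ?_⟩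
    have e1 : algebraMap (MvPolynomial (Dv N) Kbar ⧸ RingHom.ker φ) (FN N) (Ideal.Quotient.mk _ r)
        = φ r := rfl
    have e2 : algebraMap (MvPolynomial (Dv N) Kbar ⧸ RingHom.ker φ) (FN N) (Ideal.Quotient.mk _ s)
        = φ s := rfl
    rw [e1, e2, IntermediateField.coe_div, hφval, hφval, hrs]
  refine ⟨IsFractionRing.liftAlgHom (g := ψbar) hψbar, fun d => ?_⟩
  have e1 : jGen N d = algebraMap (MvPolynomial (Dv N) Kbar ⧸ RingHom.ker φ) (FN N)
      (Ideal.Quotient.mk _ (MvPolynomial.X d)) := by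
    show jGen N d = φ (MvPolynomial.X d)
    simp [φ]
  rw [e1, IsFractionRing.liftAlgHom_apply, IsFractionRing.lift_algebraMap]
  show ψ (MvPolynomial.X d) = _
  simp [ψ]

/-! ### The local data -/

/-- The action on `MerK i0` as a `ℚ̄`-algebra automorphism. -/
def sigmaK (i0 : helper24.Kbar →+* ℂ) (g : SL(2, ℤ)) : MerK i0 ≃ₐ[helper24.Kbar] MerK i0 :=
  AlgEquiv.ofRingEquiv (f := (sigmaM g : MerK i0 ≃+* MerK i0)) (fun a => by
    rw [algebraMap_MerK]
    exact (sigmaM_algebraMap g _).trans (by rw [pull_constH]; rfl))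

theorem sigmaK_apply (i0 : helper24.Kbar →+* ℂ) (g : SL(2, ℤ)) (z : MerK i0) :
    sigmaK i0 g z = sigmaM g z := rfl

theorem sigmaK_holK (i0 : helper24.Kbar →+* ℂ) (g : SL(2, ℤ)) (f : Hol) :
    sigmaK i0 g (holK i0 f) = holK i0 (pull g f) := sigmaM_algebraMap g f

theorem sigmaK_mul (i0 : helper24.Kbar →+* ℂ) (g h : SL(2, ℤ)) (z : MerK i0) :
    sigmaK i0 (g * h) z = sigmaK i0 g (sigmaK i0 h z) := by
  rw [sigmaK_apply, sigmaK_apply, sigmaK_apply, map_mul]
  rfl

theorem sigmaK_pow (i0 : helper24.Kbar →+* ℂ) (g : SL(2, ℤ)) (k : ℕ) (z : MerK i0) :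
    (sigmaK i0 g ^ k) z = sigmaK i0 (g ^ k) z := by
  induction k generalizing z with
  | zero =>
    rw [pow_zero, pow_zero, AlgEquiv.one_apply, sigmaK_apply, map_one]
    rfl
  | succ k ih =>
    rw [pow_succ, AlgEquiv.mul_apply, ih, pow_succ, sigmaK_mul]

/-- The order at `τ` as an additive valuation on `MerK i0`. -/
def ordK (i0 : helper24.Kbar →+* ℂ) (τ : ℍ) : AddValuation (MerK i0) (WithTop ℤ) := ordM τ

theorem ordK_holK (i0 : helper24.Kbar →+* ℂ) (τ : ℍ) (f : Hol) :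
    ordK i0 τ (holK i0 f) = ordH τ f := ordM_algebraMap τ f

theorem ordK_sigmaK (i0 : helper24.Kbar →+* ℂ) (g : SL(2, ℤ)) (τ : ℍ) (z : MerK i0) :
    ordK i0 τ (sigmaK i0 g z) = ordK i0 (g⁻¹ • τ) z := ordM_sigmaM g τ z

theorem pull_JDH_of_mem (N : ℕ) (d : Dv N) (γ : SL(2, ℤ))
    (hγ : γ ∈ CongruenceSubgroup.Gamma0 N) : pull γ (JDH N d) = JDH N d := by
  apply Subtype.ext
  funext τ
  rw [pull_apply, JDH_apply, JDH_apply]
  exact jD_Gamma0 d.dvd d.ne_zero γ⁻¹ (inv_mem hγ) τ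

theorem JDH_one (N : ℕ) (h1 : 1 ∈ N.divisors) : JDH N ⟨1, h1⟩ = JH := by
  apply Subtype.ext
  funext τ
  exact jD_one τ

open ModularCurve helper24 in
theorem jBar_eq_jGen (N : ℕ) (h1 : 1 ∈ N.divisors) : jBar N = jGen N ⟨1, h1⟩ := by
  apply Subtype.ext
  show jSeries 1 = @jSeries 1 _
  rfl

open ModularCurve helper24 CongruenceSubgroup in
/-- `Γ₀(N)`-invariance of the image of `ev`. -/
theorem ev_invariant (i0 : Kbar →+* ℂ) (N : ℕ) [NeZero N] (ev : FN N →ₐ[Kbar] MerK i0)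
    (hev : ∀ d : Dv N, ev (jGen N d) = holK i0 (JDH N d)) (γ : SL(2, ℤ)) (hγ : γ ∈ Gamma0 N)
    (f : FN N) : sigmaK i0 γ (ev f) = ev f := by
  have hgen : ∀ d : Dv N, sigmaK i0 γ (ev (jGen N d)) = ev (jGen N d) := by
    intro d
    rw [hev, sigmaK_holK, pull_JDH_of_mem N d γ hγ]
  have key : ((sigmaK i0 γ : MerK i0 →ₐ[Kbar] MerK i0)).comp ev = ev := by
    refine IntermediateField.algHom_ext_of_eq_adjoin Kbar (bar_eq_adjoin N) ?_
    rintro _ ⟨d, rfl⟩
    rw [AlgHom.comp_apply]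
    exact hgen d
  exact congrArg (fun φ => φ f) key

open ModularCurve helper24 CongruenceSubgroup in
/-- The embedding attached to a coset. -/
def iotaOf (i0 : Kbar →+* ℂ) (N : ℕ) (ev : FN N →ₐ[Kbar] MerK i0) (x : XN N) :
    FN N →ₐ[Kbar] MerK i0 :=
  ((sigmaK i0 (Quotient.out x) : MerK i0 →ₐ[Kbar] MerK i0)).comp ev

open ModularCurve helper24 CongruenceSubgroup in
theorem iotaOf_mk (i0 : Kbar →+* ℂ) (N : ℕ) (ev : FN N →ₐ[Kbar] MerK i0)
    (hinv : ∀ γ : SL(2, ℤ), γ ∈ Gamma0 N → ∀ f, sigmaK i0 γ (ev f) = ev f)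
    (g : SL(2, ℤ)) (f : FN N) :
    iotaOf i0 N ev (g : XN N) f = sigmaK i0 g (ev f) := by
  obtain ⟨h, hh⟩ := QuotientGroup.mk_out_eq_mul (Gamma0 N) g
  show sigmaK i0 (Quotient.out (g : XN N)) (ev f) = _
  rw [hh, sigmaK_mul, hinv _ h.2]

open ModularCurve helper24 CongruenceSubgroup in
/-- **Local datum at a point `τ₀` of the upper half plane** with stabilizer generator `g`. -/
theorem localDatum_of (i0 : Kbar →+* ℂ) (N : ℕ) [NeZero N] (hEV : EvHyp i0 N)
    (hE5 : ∀ g : SL(2, ℤ), (∀ τ : ℍ, jD N (g • τ) = jD N τ) → g ∈ Gamma0 N)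
    (g : SL(2, ℤ)) (τ0 : ℍ) (hfix : g • τ0 = τ0) (m : ℕ) (hm : 0 < m)
    (hprim : IsPrimitiveRoot (mult g τ0) m) (c : Kbar)
    (hord : analyticOrderAt (fun z : ℂ => jFun (ofComplex z) - i0 c) (τ0 : ℂ) = m) :
    LocalDatum N (jBar N - algebraMap Kbar (FN N) c) m g := by
  obtain ⟨ev, hev⟩ := exists_ev i0 N hEV
  have hinv := ev_invariant i0 N ev hev
  have hN0 : N ≠ 0 := NeZero.ne N
  have hJ : ev (jBar N) = holK i0 JH := by
    have h1 : 1 ∈ N.divisors := Nat.mem_divisors.2 ⟨one_dvd N, hN0⟩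
    rw [jBar_eq_jGen N h1, hev, JDH_one]
  have hy : ev (jBar N - algebraMap Kbar (FN N) c) = holK i0 (JH - constH (i0 c)) := by
    rw [map_sub, hJ, AlgHom.commutes, algebraMap_MerK, map_sub]
  have hpull : ∀ h : SL(2, ℤ), pull h (JH - constH (i0 c)) = JH - constH (i0 c) := by
    intro h
    rw [map_sub, pull_JH, pull_constH]
  refine ⟨MerK i0, inferInstance, inferInstance, ordK i0 τ0, iotaOf i0 N ev, sigmaK i0 g,
    holK i0 (JH - constH (i0 c)), ?_, ?_, ?_, hm, ?_, ?_, Or.inl ?_, ?_⟩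
  · intro a ha
    rw [algebraMap_MerK, ordK_holK]
    exact ordH_constH τ0 ((map_ne_zero i0).2 ha)
  · intro x y hxy
    induction x using QuotientGroup.induction_on with
    | H g₁ =>
    induction y using QuotientGroup.induction_on with
    | H g₂ =>
    have h1 := congrArg (fun φ => φ (jGen N ⟨N, Nat.mem_divisors.2 ⟨dvd_rfl, hN0⟩⟩)) hxy
    simp only [iotaOf_mk i0 N ev hinv, hev, sigmaK_holK] at h1
    have h2 := holK_injective i0 h1
    rw [QuotientGroup.eq]
    apply hE5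
    intro τ
    have h3 := congrArg (fun f : Hol => (f : ℍ → ℂ) (g₂ • τ)) h2
    simp only [pull_apply, JDH_apply, inv_smul_smul] at h3
    rw [mul_smul]
    exact h3
  · intro i
    induction i using QuotientGroup.induction_on with
    | H h =>
    rw [iotaOf_mk i0 N ev hinv, hy, sigmaK_holK, hpull]
  · rw [ordK_holK]
    exact ordH_eq_natCast τ0 _ hord
  · intro z
    rw [ordK_sigmaK, inv_smul_eq_iff.2 hfix.symm]
  · intro i f
    induction i using QuotientGroup.induction_on with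
    | H h =>
    rw [iotaOf_mk i0 N ev hinv]
    have e : g • (h : XN N) = ((g * h : SL(2, ℤ)) : XN N) := rfl
    rw [e, iotaOf_mk i0 N ev hinv, sigmaK_mul]
  · intro k z hz hσ
    rw [sigmaK_pow] at hσ
    exact hdiv_of_isPrimitiveRoot g τ0 hfix m hm hprim k z hz hσ

/-! ### The three deliverables in the shapes of `helper24_Spec` -/

theorem mult_one (τ : ℍ) : mult 1 τ = 1 := by
  rw [mult_eq]
  simp

theorem S_smul_I : ModularGroup.S • UpperHalfPlane.I = UpperHalfPlane.I := by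
  rw [UpperHalfPlane.modular_S_smul]
  ext
  simp

theorem mult_S_I : mult ModularGroup.S UpperHalfPlane.I = -1 := by
  have h10 : (ModularGroup.S⁻¹ : SL(2, ℤ)) 1 0 = -1 := by decide
  have h11 : (ModularGroup.S⁻¹ : SL(2, ℤ)) 1 1 = 0 := by decide
  rw [mult_eq, ModularGroup.denom_apply, h10, h11]
  simp

theorem isPrimitiveRoot_mult_S_I : IsPrimitiveRoot (mult ModularGroup.S UpperHalfPlane.I) 2 := by
  rw [mult_S_I]
  refine IsPrimitiveRoot.mk_of_lt _ (by norm_num) (by norm_num) ?_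
  intro l hl0 hl2
  interval_cases l
  norm_num

/-- A fixed point of `S * T` is a root of `x² + x + 1`. -/
theorem fix_ST_sq (ρ : ℍ) (hρ : (ModularGroup.S * ModularGroup.T) • ρ = ρ) :
    (ρ : ℂ) ^ 2 + (ρ : ℂ) + 1 = 0 := by
  have h : (((ModularGroup.S * ModularGroup.T) • ρ : ℍ) : ℂ) = (ρ : ℂ) := by rw [hρ]
  rw [coe_specialLinearGroup_apply] at h
  have e00 : ((ModularGroup.S * ModularGroup.T) : SL(2, ℤ)) 0 0 = 0 := by decide
  have e01 : ((ModularGroup.S * ModularGroup.T) : SL(2, ℤ)) 0 1 = -1 := by decide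
  have e10 : ((ModularGroup.S * ModularGroup.T) : SL(2, ℤ)) 1 0 = 1 := by decide
  have e11 : ((ModularGroup.S * ModularGroup.T) : SL(2, ℤ)) 1 1 = 1 := by decide
  rw [e00, e01, e10, e11] at h
  have hden : (ρ : ℂ) + 1 ≠ 0 := by
    intro h0
    have := congrArg Complex.im h0
    simp at this
    exact absurd this ρ.im_pos.ne'
  have h' : (-1 : ℂ) / ((ρ : ℂ) + 1) = (ρ : ℂ) := by simpa using h
  rw [div_eq_iff hden] at h'
  linear_combination -h'

theorem mult_ST (ρ : ℍ) : mult (ModularGroup.S * ModularGroup.T) ρ = 1 / (ρ : ℂ) ^ 2 := by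
  have h10 : ((ModularGroup.S * ModularGroup.T)⁻¹ : SL(2, ℤ)) 1 0 = -1 := by decide
  have h11 : ((ModularGroup.S * ModularGroup.T)⁻¹ : SL(2, ℤ)) 1 1 = 0 := by decide
  rw [mult_eq, ModularGroup.denom_apply, h10, h11]
  simp

theorem isPrimitiveRoot_mult_ST (ρ : ℍ) (hρ : (ModularGroup.S * ModularGroup.T) • ρ = ρ) :
    IsPrimitiveRoot (mult (ModularGroup.S * ModularGroup.T) ρ) 3 := by
  have hsq := fix_ST_sq ρ hρ
  have hρ0 : (ρ : ℂ) ≠ 0 := ne_zero ρ
  have hcube : (ρ : ℂ) ^ 3 = 1 := by linear_combination ((ρ : ℂ) - 1) * hsq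
  rw [mult_ST]
  have hμ : 1 / (ρ : ℂ) ^ 2 = (ρ : ℂ) := by
    rw [div_eq_iff (pow_ne_zero 2 hρ0)]
    linear_combination -hcube
  rw [hμ]
  refine IsPrimitiveRoot.mk_of_lt _ (by norm_num) hcube ?_
  intro l hl0 hl3
  interval_cases l
  · rw [pow_one]
    intro h1
    rw [h1] at hsq
    norm_num at hsq
  · intro h2
    have h1 : (ρ : ℂ) = -2 := by linear_combination hsq - h2
    rw [h1] at h2
    norm_num at h2

open ModularCurve helper24 CongruenceSubgroup in
/-- **M3 (generic points).** -/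
theorem stmt_LocalGeneric (i0 : Kbar →+* ℂ)
    (hEV : ∀ (N : ℕ) [NeZero N], EvHyp i0 N)
    (hE5 : ∀ (N : ℕ) [NeZero N] (g : SL(2, ℤ)),
      (∀ τ : ℍ, jD N (g • τ) = jD N τ) → g ∈ Gamma0 N)
    (hsurj : ∀ c : ℂ, ∃ τ : ℍ, jFun τ = c)
    (hord : ∀ τ0 : ℍ, jFun τ0 ≠ 0 → jFun τ0 ≠ 1728 →
      analyticOrderAt (fun z : ℂ => jFun (ofComplex z) - jFun τ0) (τ0 : ℂ) = 1) :
    Stmt_LocalGeneric := by
  intro N _ c hc0 hc1728
  obtain ⟨τ0, hτ0⟩ := hsurj (i0 c)
  have h0 : jFun τ0 ≠ 0 := by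
    rw [hτ0]; exact (map_ne_zero i0).2 hc0
  have h1 : jFun τ0 ≠ 1728 := by
    rw [hτ0]
    intro h
    apply hc1728
    apply i0.injective
    rw [h, map_ofNat]
  have h2 := hord τ0 h0 h1
  rw [hτ0] at h2
  refine localDatum_of i0 N (hEV N) (hE5 N) 1 τ0 (one_smul _ _) 1 one_pos ?_ c ?_
  · rw [mult_one]; exact IsPrimitiveRoot.one
  · rw [h2]; rfl

open ModularCurve helper24 CongruenceSubgroup in
/-- **M4 (the point `i`, over `j = 1728`).** -/
theorem stmt_Local1728 (i0 : Kbar →+* ℂ)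
    (hEV : ∀ (N : ℕ) [NeZero N], EvHyp i0 N)
    (hE5 : ∀ (N : ℕ) [NeZero N] (g : SL(2, ℤ)),
      (∀ τ : ℍ, jD N (g • τ) = jD N τ) → g ∈ Gamma0 N)
    (hord : analyticOrderAt (fun z : ℂ => jFun (ofComplex z) - 1728)
      ((UpperHalfPlane.I : ℍ) : ℂ) = 2) :
    Stmt_Local1728 := by
  intro N _
  refine localDatum_of i0 N (hEV N) (hE5 N) ModularGroup.S UpperHalfPlane.I S_smul_I 2
    two_pos isPrimitiveRoot_mult_S_I 1728 ?_
  rw [map_ofNat, hord]; rfl

open ModularCurve helper24 CongruenceSubgroup in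
/-- **M5 (the point `ρ`, over `j = 0`).** -/
theorem stmt_LocalZero (i0 : Kbar →+* ℂ)
    (hEV : ∀ (N : ℕ) [NeZero N], EvHyp i0 N)
    (hE5 : ∀ (N : ℕ) [NeZero N] (g : SL(2, ℤ)),
      (∀ τ : ℍ, jD N (g • τ) = jD N τ) → g ∈ Gamma0 N)
    (ρ : ℍ) (hρ : (ModularGroup.S * ModularGroup.T) • ρ = ρ)
    (hord : analyticOrderAt (fun z : ℂ => jFun (ofComplex z)) (ρ : ℂ) = 3) :
    Stmt_LocalZero := by
  intro N _
  have h := localDatum_of i0 N (hEV N) (hE5 N) (ModularGroup.S * ModularGroup.T) ρ hρ 3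
    (by norm_num) (isPrimitiveRoot_mult_ST ρ hρ) 0 (by
      rw [map_zero]
      simp only [sub_zero]
      rw [hord]; rfl)
  rw [map_zero, sub_zero] at h
  exact h

end

end Fermat.Agent.S24.helper570
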