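import Fermat.Agent.S24.helper580_MerPackage
import Fermat.Agent.S24.helper6180_Ev

/-!
# S24 (helper580): the three finite-point leaves of the Spec, without hypotheses

`helper6180_Ev` provides the function-level evaluation datum `Stmt_EvFun`; hence
`helper481.Stmt_MerPackage`, `Stmt_LocalGeneric`, `Stmt_Local1728`, `Stmt_LocalZero`.
-/

set_option autoImplicit false

open UpperHalfPlane CongruenceSubgroup
open scoped MatrixGroups Manifold

namespace Fermat.Agent.S24.helper580

open Fermat.Agent.S24.helper24

/-- The function-level evaluation datum, from `helper6180_Ev`. -/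
theorem stmt_EvFun : Stmt_EvFun := by
  intro N _
  refine ⟨helper6180.i0, helper6180.evHom N, ?_, ?_, ?_, ?_, ?_, ?_⟩
  · exact helper6180.ev_injective N
  · exact helper6180.mdiff_ev N
  · exact helper6180.ev_algebraMap N
  · exact helper6180.ev_jBar N
  · exact fun γ hγ a τ => helper6180.ev_smul_of_mem_Gamma0 N a γ hγ τ
  · exact fun g h => helper6180.mem_Gamma0_of_ev_smul N g h

/-- (P2) The finite-point package of `helper481_LocalFinite`. -/
theorem stmt_MerPackage_closed : helper481.Stmt_MerPackage := stmt_MerPackage stmt_EvFun

/-- M3 of the Spec. -/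
theorem stmt_LocalGeneric : Stmt_LocalGeneric := (stmt_LocalFinite stmt_EvFun).1

/-- M4 of the Spec. -/
theorem stmt_Local1728 : Stmt_Local1728 := (stmt_LocalFinite stmt_EvFun).2.1

/-- M5 of the Spec. -/
theorem stmt_LocalZero : Stmt_LocalZero := (stmt_LocalFinite stmt_EvFun).2.2

end Fermat.Agent.S24.helper580
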