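import Fermat.Agent.S24.helper6180_Ev
import Fermat.Agent.S24.helper580_MerPackage

/-!
# S24 / MOD (helper6180): `helper580.Stmt_EvFun` holds

The analytic evaluation `ev` of `helper6180_Ev` satisfies all clauses of `helper580.Stmt_EvFun`;
hence the finite-point package `helper481.Stmt_MerPackage` and the three finite-point local data.
-/

set_option autoImplicit false

open ModularCurve CongruenceSubgroup UpperHalfPlane
open scoped MatrixGroups Manifold

namespace Fermat.Agent.S24.helper6180

open Fermat.Agent.S24.helper24

/-- The function-level evaluation datum exists. -/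
theorem stmt_EvFun : helper580.Stmt_EvFun := fun N _ =>
  ⟨i0, evHom N, ev_injective N, mdiff_ev N, ev_algebraMap N, ev_jBar N,
    fun γ hγ a τ => ev_smul_of_mem_Gamma0 N a γ hγ τ,
    fun g h => mem_Gamma0_of_ev_smul N g h⟩

/-- The finite-point package. -/
theorem stmt_MerPackage : helper481.Stmt_MerPackage := helper580.stmt_MerPackage stmt_EvFun

/-- The three finite-point local data of the Spec. -/
theorem stmt_LocalFinite : Stmt_LocalGeneric ∧ Stmt_Local1728 ∧ Stmt_LocalZero :=
  helper580.stmt_LocalFinite stmt_EvFun

end Fermat.Agent.S24.helper6180
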