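import Fermat.Agent.S24.helper1644_AnalyticJ
import Fermat.Agent.S24.helper864_Twist

/-!
# S24 (helper6239): the "graph" dictionary between functions and Laurent expansions

`Expands u f E`: the function `f : α → ℂ` has the Laurent expansion `E` in the chart
`u : α → ℂ` (with values in the unit disc): there are `M : ℕ` and a holomorphic `g` on the unit
disc with `E = X^(-M) * taylor(g)` and `f * u^M = g ∘ u`.

The set of pairs `(f, E)` with `Expands u f E` is closed under the ring operations; `E` is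
determined by `f` when the punctured unit disc is in the range of `u`; `f` is determined by `E`
when `u` has no zero.
-/

set_option autoImplicit false

open Filter Topology

namespace Fermat.Agent.S24.helper6239

open Fermat.Agent.S24.helper1644 ModularCurve

noncomputable section

/-! ### More on `taylorPS` -/

lemma analyticAt_of_diffOn {g : ℂ → ℂ} (hg : DifferentiableOn ℂ g (Metric.ball 0 1)) :
    AnalyticAt ℂ g 0 :=
  hg.analyticAt ball_mem_nhds_zero

lemma taylorPS_add {f g : ℂ → ℂ} (hf : AnalyticAt ℂ f 0) (hg : AnalyticAt ℂ g 0) :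
    taylorPS (f + g) = taylorPS f + taylorPS g := by
  ext n
  simp only [coeff_taylorPS, map_add]
  rw [iteratedDeriv_add hf.contDiffAt hg.contDiffAt]
  ring

lemma taylorPS_X_pow (k : ℕ) : taylorPS (fun z : ℂ => z ^ k) = PowerSeries.X ^ k := by
  have h := taylorPS_polynomial (Polynomial.X ^ k)
  simpa using h

lemma taylorPS_const (c : ℂ) : taylorPS (fun _ : ℂ => c) = PowerSeries.C c := by
  have h := taylorPS_polynomial (Polynomial.C c)
  simpa using h

/-- A holomorphic function on the unit disc with vanishing Taylor series vanishes. -/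
lemma eq_zero_of_taylorPS_eq_zero {g : ℂ → ℂ} (hg : DifferentiableOn ℂ g (Metric.ball 0 1))
    (h : taylorPS g = 0) {z : ℂ} (hz : ‖z‖ < 1) : g z = 0 := by
  have h1 := hasSum_taylorPS hg hz
  rw [h] at h1
  simp only [map_zero, zero_mul] at h1
  exact h1.unique hasSum_zero

/-- Two holomorphic functions on the unit disc with the same Taylor series agree. -/
lemma eq_of_taylorPS_eq {g g' : ℂ → ℂ} (hg : DifferentiableOn ℂ g (Metric.ball 0 1))
    (hg' : DifferentiableOn ℂ g' (Metric.ball 0 1))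
    (h : taylorPS g = taylorPS g') {z : ℂ} (hz : ‖z‖ < 1) : g z = g' z := by
  have h1 := hasSum_taylorPS hg hz
  have h2 := hasSum_taylorPS hg' hz
  rw [h] at h1
  exact h1.unique h2

/-- If two holomorphic functions on the unit disc agree on the punctured disc, their Taylor
series agree. -/
lemma taylorPS_eq_of_eqOn_punctured {g g' : ℂ → ℂ}
    (hg : DifferentiableOn ℂ g (Metric.ball 0 1))
    (hg' : DifferentiableOn ℂ g' (Metric.ball 0 1))
    (h : ∀ z : ℂ, ‖z‖ < 1 → z ≠ 0 → g z = g' z) : taylorPS g = taylorPS g' := by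
  apply taylorPS_congr
  have hc : ContinuousAt g 0 := (analyticAt_of_diffOn hg).continuousAt
  have hc' : ContinuousAt g' 0 := (analyticAt_of_diffOn hg').continuousAt
  have hev : ∀ᶠ z in 𝓝[≠] (0 : ℂ), g z = g' z := by
    have : ∀ᶠ z in 𝓝 (0 : ℂ), z ≠ 0 → g z = g' z := by
      filter_upwards [ball_mem_nhds_zero] with z hz hz0
      exact h z (by simpa using hz) hz0
    exact eventually_nhdsWithin_iff.mpr this
  have h0 : g 0 = g' 0 := by
    have t1 : Tendsto g (𝓝[≠] (0 : ℂ)) (𝓝 (g 0)) := hc.tendsto.mono_left nhdsWithin_le_nhds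
    have t2 : Tendsto g' (𝓝[≠] (0 : ℂ)) (𝓝 (g' 0)) := hc'.tendsto.mono_left nhdsWithin_le_nhds
    exact tendsto_nhds_unique_of_eventuallyEq t1 t2 hev
  filter_upwards [ball_mem_nhds_zero] with z hz
  by_cases hz0 : z = 0
  · rw [hz0, h0]
  · exact h z (by simpa using hz) hz0

/-! ### The dictionary -/

/-- `X^(-M) * P` as a Laurent series. -/
def lau (M : ℕ) (P : PowerSeries ℂ) : LaurentSeries ℂ :=
  HahnSeries.single (-(M : ℤ)) (1 : ℂ) * HahnSeries.ofPowerSeries ℤ ℂ P

lemma lau_mul (M M' : ℕ) (P P' : PowerSeries ℂ) :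
    lau M P * lau M' P' = lau (M + M') (P * P') := by
  unfold lau
  rw [map_mul, mul_mul_mul_comm, HahnSeries.single_mul_single, one_mul]
  congr 2
  push_cast
  ring_nf

lemma lau_zero (P : PowerSeries ℂ) : lau 0 P = HahnSeries.ofPowerSeries ℤ ℂ P := by
  unfold lau
  simp

lemma lau_shift (M k : ℕ) (P : PowerSeries ℂ) :
    lau (M + k) (PowerSeries.X ^ k * P) = lau M P := by
  unfold lau
  rw [map_mul, HahnSeries.ofPowerSeries_X_pow, ← mul_assoc, HahnSeries.single_mul_single, one_mul]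
  congr 2
  push_cast
  ring_nf

lemma lau_add (M : ℕ) (P P' : PowerSeries ℂ) : lau M P + lau M P' = lau M (P + P') := by
  unfold lau
  rw [map_add, mul_add]

lemma lau_injective (M : ℕ) : Function.Injective (lau M) := by
  intro P P' h
  unfold lau at h
  have h1 : HahnSeries.single ((M : ℤ)) (1 : ℂ) * (HahnSeries.single (-(M : ℤ)) (1 : ℂ) *
      HahnSeries.ofPowerSeries ℤ ℂ P) = HahnSeries.single ((M : ℤ)) (1 : ℂ) *
      (HahnSeries.single (-(M : ℤ)) (1 : ℂ) * HahnSeries.ofPowerSeries ℤ ℂ P') := by rw [h]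
  rw [← mul_assoc, ← mul_assoc, HahnSeries.single_mul_single] at h1
  simp only [add_neg_cancel, mul_one, HahnSeries.single_zero_one, one_mul] at h1
  exact HahnSeries.ofPowerSeries_injective h1

lemma lau_eq_lau_iff (M M' : ℕ) (P P' : PowerSeries ℂ) :
    lau M P = lau M' P' ↔ PowerSeries.X ^ M' * P = PowerSeries.X ^ M * P' := by
  rw [← lau_shift M M' P, ← lau_shift M' M P', add_comm M' M]
  exact (lau_injective (M + M')).eq_iff

/-- The function `f : α → ℂ` has Laurent expansion `E` in the chart `u`. -/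
def Expands {α : Type*} (u : α → ℂ) (f : α → ℂ) (E : LaurentSeries ℂ) : Prop :=
  ∃ (M : ℕ) (g : ℂ → ℂ), DifferentiableOn ℂ g (Metric.ball 0 1) ∧
    E = lau M (taylorPS g) ∧ ∀ τ, f τ * u τ ^ M = g (u τ)

section
variable {α : Type*} {u : α → ℂ}

lemma Expands.mul {f f' : α → ℂ} {E E' : LaurentSeries ℂ} (h : Expands u f E)
    (h' : Expands u f' E') : Expands u (f * f') (E * E') := by
  obtain ⟨M, g, hg, rfl, hfg⟩ := h
  obtain ⟨M', g', hg', rfl, hfg'⟩ := h'
  refine ⟨M + M', g * g', hg.mul hg', ?_, fun τ => ?_⟩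
  · rw [lau_mul, taylorPS_mul (analyticAt_of_diffOn hg) (analyticAt_of_diffOn hg')]
  · simp only [Pi.mul_apply]
    rw [← hfg τ, ← hfg' τ]
    ring

lemma Expands.add {f f' : α → ℂ} {E E' : LaurentSeries ℂ} (h : Expands u f E)
    (h' : Expands u f' E') : Expands u (f + f') (E + E') := by
  obtain ⟨M, g, hg, rfl, hfg⟩ := h
  obtain ⟨M', g', hg', rfl, hfg'⟩ := h'
  have hd1 : DifferentiableOn ℂ (fun z : ℂ => z ^ M') (Metric.ball 0 1) :=
    (differentiable_pow M').differentiableOn
  have hd2 : DifferentiableOn ℂ (fun z : ℂ => z ^ M) (Metric.ball 0 1) :=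
    (differentiable_pow M).differentiableOn
  refine ⟨M + M', (fun z : ℂ => z ^ M') * g + (fun z : ℂ => z ^ M) * g',
    (hd1.mul hg).add (hd2.mul hg'), ?_, fun τ => ?_⟩
  · rw [taylorPS_add ((analyticAt_of_diffOn hd1).mul (analyticAt_of_diffOn hg))
      ((analyticAt_of_diffOn hd2).mul (analyticAt_of_diffOn hg')),
      taylorPS_mul (analyticAt_of_diffOn hd1) (analyticAt_of_diffOn hg),
      taylorPS_mul (analyticAt_of_diffOn hd2) (analyticAt_of_diffOn hg'),
      taylorPS_X_pow, taylorPS_X_pow, ← lau_add, lau_shift]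
    rw [add_comm M M', lau_shift]
  · simp only [Pi.add_apply, Pi.mul_apply]
    rw [← hfg τ, ← hfg' τ]
    ring

lemma Expands.const (c : ℂ) : Expands u (fun _ => c) (HahnSeries.C c) := by
  refine ⟨0, fun _ => c, differentiableOn_const c, ?_, fun τ => by simp⟩
  rw [lau_zero, taylorPS_const, HahnSeries.ofPowerSeries_C]

lemma Expands.zero : Expands u 0 0 := by
  have h := Expands.const (u := u) 0
  simpa [Pi.zero_def] using h

lemma Expands.one : Expands u 1 1 := by
  have h := Expands.const (u := u) 1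
  simpa [Pi.one_def] using h

lemma Expands.neg {f : α → ℂ} {E : LaurentSeries ℂ} (h : Expands u f E) :
    Expands u (-f) (-E) := by
  have h1 := (Expands.const (u := u) (-1)).mul h
  have e1 : (fun _ : α => (-1 : ℂ)) * f = -f := by
    funext τ; simp
  have e2 : (HahnSeries.C (-1 : ℂ) : LaurentSeries ℂ) * E = -E := by
    rw [map_neg, map_one, neg_one_mul]
  rwa [e1, e2] at h1

lemma Expands.sub {f f' : α → ℂ} {E E' : LaurentSeries ℂ} (h : Expands u f E)
    (h' : Expands u f' E') : Expands u (f - f') (E - E') := by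
  rw [sub_eq_add_neg, sub_eq_add_neg]
  exact h.add h'.neg

lemma Expands.pow {f : α → ℂ} {E : LaurentSeries ℂ} (h : Expands u f E) (n : ℕ) :
    Expands u (f ^ n) (E ^ n) := by
  induction n with
  | zero => simpa using Expands.one
  | succ n ih => rw [pow_succ, pow_succ]; exact ih.mul h

lemma Expands.sum {ι : Type*} (s : Finset ι) {f : ι → α → ℂ} {E : ι → LaurentSeries ℂ}
    (h : ∀ i ∈ s, Expands u (f i) (E i)) : Expands u (∑ i ∈ s, f i) (∑ i ∈ s, E i) := by
  classical
  induction s using Finset.induction_on with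
  | empty => simpa using Expands.zero
  | insert a s ha ih =>
    rw [Finset.sum_insert ha, Finset.sum_insert ha]
    exact (h a (Finset.mem_insert_self a s)).add
      (ih fun i hi => h i (Finset.mem_insert_of_mem hi))

/-- The expansion is determined by the function, if the chart covers the punctured disc. -/
lemma Expands.unique_right (hu : ∀ z : ℂ, ‖z‖ < 1 → z ≠ 0 → ∃ τ, u τ = z)
    {f : α → ℂ} {E E' : LaurentSeries ℂ} (h : Expands u f E) (h' : Expands u f E') : E = E' := by
  obtain ⟨M, g, hg, rfl, hfg⟩ := h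
  obtain ⟨M', g', hg', rfl, hfg'⟩ := h'
  rw [lau_eq_lau_iff]
  have hd1 : DifferentiableOn ℂ (fun z : ℂ => z ^ M') (Metric.ball 0 1) :=
    (differentiable_pow M').differentiableOn
  have hd2 : DifferentiableOn ℂ (fun z : ℂ => z ^ M) (Metric.ball 0 1) :=
    (differentiable_pow M).differentiableOn
  rw [← taylorPS_X_pow, ← taylorPS_X_pow,
    ← taylorPS_mul (analyticAt_of_diffOn hd1) (analyticAt_of_diffOn hg),
    ← taylorPS_mul (analyticAt_of_diffOn hd2) (analyticAt_of_diffOn hg')]
  apply taylorPS_eq_of_eqOn_punctured (hd1.mul hg) (hd2.mul hg')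
  intro z hz hz0
  obtain ⟨τ, rfl⟩ := hu z hz hz0
  simp only [Pi.mul_apply]
  rw [← hfg τ, ← hfg' τ]
  ring

/-- The function is determined by the expansion, if the chart has values in the punctured
disc. -/
lemma Expands.unique_left (hu : ∀ τ, ‖u τ‖ < 1) (hu0 : ∀ τ, u τ ≠ 0)
    {f f' : α → ℂ} {E : LaurentSeries ℂ} (h : Expands u f E) (h' : Expands u f' E) : f = f' := by
  obtain ⟨M, g, hg, rfl, hfg⟩ := h
  obtain ⟨M', g', hg', hE, hfg'⟩ := h'
  rw [lau_eq_lau_iff] at hE
  have hd1 : DifferentiableOn ℂ (fun z : ℂ => z ^ M') (Metric.ball 0 1) :=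
    (differentiable_pow M').differentiableOn
  have hd2 : DifferentiableOn ℂ (fun z : ℂ => z ^ M) (Metric.ball 0 1) :=
    (differentiable_pow M).differentiableOn
  rw [← taylorPS_X_pow, ← taylorPS_X_pow,
    ← taylorPS_mul (analyticAt_of_diffOn hd1) (analyticAt_of_diffOn hg),
    ← taylorPS_mul (analyticAt_of_diffOn hd2) (analyticAt_of_diffOn hg')] at hE
  funext τ
  have h1 := eq_of_taylorPS_eq (hd1.mul hg) (hd2.mul hg') hE (hu τ)
  simp only [Pi.mul_apply] at h1
  rw [← hfg τ, ← hfg' τ] at h1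
  have h2 : u τ ^ (M + M') ≠ 0 := pow_ne_zero _ (hu0 τ)
  have h3 : f τ * u τ ^ (M + M') = f' τ * u τ ^ (M + M') := by
    rw [pow_add]; linear_combination h1
  exact mul_right_cancel₀ h2 h3

end


/-! ### Change of chart -/

lemma norm_pow_lt_one {z : ℂ} (hz : ‖z‖ < 1) (d : ℕ) [NeZero d] : ‖z ^ d‖ < 1 := by
  rw [norm_pow]
  exact pow_lt_one₀ (norm_nonneg _) hz (NeZero.ne d)

lemma diffOn_comp_pow {g : ℂ → ℂ} (hg : DifferentiableOn ℂ g (Metric.ball 0 1)) (d : ℕ)
    [NeZero d] : DifferentiableOn ℂ (fun z : ℂ => g (z ^ d)) (Metric.ball 0 1) := by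
  have h1 : DifferentiableOn ℂ (fun z : ℂ => z ^ d) (Metric.ball 0 1) :=
    (differentiable_pow d).differentiableOn
  exact hg.comp h1 fun z hz => by
    have : ‖z‖ < 1 := by simpa using hz
    simpa using norm_pow_lt_one this d

lemma coeff_taylorPS_comp_pow {g : ℂ → ℂ} (hg : DifferentiableOn ℂ g (Metric.ball 0 1)) (d : ℕ)
    [NeZero d] (n : ℕ) :
    PowerSeries.coeff n (taylorPS (fun z : ℂ => g (z ^ d)))
      = if d ∣ n then PowerSeries.coeff (n / d) (taylorPS g) else 0 := by
  have hd : 0 < d := NeZero.pos d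
  have key : taylorPS (fun z : ℂ => g (z ^ d)) = PowerSeries.mk
      (fun n => if d ∣ n then PowerSeries.coeff (n / d) (taylorPS g) else 0) := by
    apply taylorPS_eq_of_hasSum (r := 1) one_pos
    intro z hz
    have h1 := hasSum_taylorPS hg (norm_pow_lt_one hz d)
    have hinj : Function.Injective (fun m : ℕ => d * m) := fun a b h =>
      Nat.eq_of_mul_eq_mul_left hd h
    rw [← hinj.hasSum_iff]
    · convert h1 using 1
      funext m
      simp only [Function.comp_apply, dvd_mul_right, if_true, Nat.mul_div_cancel_left m hd,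
        pow_mul]
    · intro n hn
      have : ¬ d ∣ n := fun ⟨m, hm⟩ => hn ⟨m, hm.symm⟩
      simp [this]
  rw [key, PowerSeries.coeff_mk]

lemma ofPowerSeries_taylorPS_comp_pow {g : ℂ → ℂ}
    (hg : DifferentiableOn ℂ g (Metric.ball 0 1)) (d : ℕ) [NeZero d] :
    HahnSeries.ofPowerSeries ℤ ℂ (taylorPS (fun z : ℂ => g (z ^ d)))
      = qExpand ℂ d (HahnSeries.ofPowerSeries ℤ ℂ (taylorPS g)) := by
  have hd : 0 < d := NeZero.pos d
  ext k
  by_cases hdk : (d : ℤ) ∣ k
  · obtain ⟨m, rfl⟩ := hdk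
    rw [qExpand_coeff_mul]
    rcases lt_or_ge m 0 with hm | hm
    · rw [ofPowerSeries_coeff_of_neg _ hm, ofPowerSeries_coeff_of_neg]
      exact mul_neg_of_pos_of_neg (by exact_mod_cast hd) hm
    · lift m to ℕ using hm
      rw [HahnSeries.ofPowerSeries_apply_coeff, show ((d : ℤ) * (m : ℤ)) = ((d * m : ℕ) : ℤ) by
        push_cast; ring, HahnSeries.ofPowerSeries_apply_coeff, coeff_taylorPS_comp_pow hg]
      simp [Nat.mul_div_cancel_left m hd]
  · rw [qExpand_coeff_of_not_dvd d _ hdk]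
    rcases lt_or_ge k 0 with hk | hk
    · exact ofPowerSeries_coeff_of_neg _ hk
    · lift k to ℕ using hk
      rw [HahnSeries.ofPowerSeries_apply_coeff, coeff_taylorPS_comp_pow hg]
      have : ¬ d ∣ k := fun h => hdk (Int.natCast_dvd_natCast.mpr h)
      simp [this]

lemma qExpand_lau (d : ℕ) [NeZero d] (M : ℕ) {g : ℂ → ℂ}
    (hg : DifferentiableOn ℂ g (Metric.ball 0 1)) :
    qExpand ℂ d (lau M (taylorPS g)) = lau (d * M) (taylorPS (fun z : ℂ => g (z ^ d))) := by
  unfold lau
  rw [map_mul, qExpand_single, ofPowerSeries_taylorPS_comp_pow hg]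
  congr 2
  push_cast
  ring_nf

/-- Substituting `u' = u^d`: the expansion is transformed by `qExpand d`. -/
lemma Expands.comp_pow {α β : Type*} {u : α → ℂ} {u' : β → ℂ} {f : β → ℂ}
    {E : LaurentSeries ℂ} (h : Expands u' f E) (d : ℕ) [NeZero d] (s : α → β)
    (hs : ∀ τ, u' (s τ) = u τ ^ d) : Expands u (fun τ => f (s τ)) (qExpand ℂ d E) := by
  obtain ⟨M, g, hg, rfl, hfg⟩ := h
  refine ⟨d * M, fun z => g (z ^ d), diffOn_comp_pow hg d, qExpand_lau d M hg, fun τ => ?_⟩
  show f (s τ) * u τ ^ (d * M) = g (u τ ^ d)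
  rw [pow_mul, ← hs, hfg]

open Fermat.Agent.S24.helper864 in
/-- Substituting `u' = c * u` with `‖c‖ = 1`: the expansion is transformed by the coefficient
twist. -/
lemma Expands.comp_twist {α β : Type*} {u : α → ℂ} {u' : β → ℂ} {f : β → ℂ}
    {E : LaurentSeries ℂ} (h : Expands u' f E) (c : ℂˣ) (hc : ‖(c : ℂ)‖ = 1) (s : α → β)
    (hs : ∀ τ, u' (s τ) = c * u τ) : Expands u (fun τ => f (s τ)) (twist c E) := by
  obtain ⟨M, g, hg, rfl, hfg⟩ := h
  have hmap : DifferentiableOn ℂ (fun z : ℂ => g ((c : ℂ) * z)) (Metric.ball 0 1) := by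
    have h1 : DifferentiableOn ℂ (fun z : ℂ => (c : ℂ) * z) (Metric.ball 0 1) :=
      (differentiable_id.const_mul (c : ℂ)).differentiableOn
    exact hg.comp h1 fun z hz => by
      have : ‖z‖ < 1 := by simpa using hz
      simpa [hc] using this
  have hg' : DifferentiableOn ℂ (fun z : ℂ => ((c : ℂ) ^ M)⁻¹ * g ((c : ℂ) * z))
      (Metric.ball 0 1) := hmap.const_mul _
  refine ⟨M, fun z => ((c : ℂ) ^ M)⁻¹ * g ((c : ℂ) * z), hg', ?_, fun τ => ?_⟩
  · -- compare coefficients
    have hcoeff : ∀ n : ℕ, PowerSeries.coeff n (taylorPS fun z => ((c : ℂ) ^ M)⁻¹ * g ((c : ℂ) * z))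
        = ((c : ℂ) ^ M)⁻¹ * ((c : ℂ) ^ n * PowerSeries.coeff n (taylorPS g)) := by
      have key : taylorPS (fun z => ((c : ℂ) ^ M)⁻¹ * g ((c : ℂ) * z)) = PowerSeries.mk
          (fun n => ((c : ℂ) ^ M)⁻¹ * ((c : ℂ) ^ n * PowerSeries.coeff n (taylorPS g))) := by
        apply taylorPS_eq_of_hasSum (r := 1) one_pos
        intro z hz
        have h1 := hasSum_taylorPS hg (z := (c : ℂ) * z) (by simpa [hc] using hz)
        have h2 := h1.mul_left (((c : ℂ) ^ M)⁻¹)
        have h3 : (fun n : ℕ => ((c : ℂ) ^ M)⁻¹ * ((c : ℂ) ^ n *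
            PowerSeries.coeff n (taylorPS g)) * z ^ n) = fun i : ℕ => ((c : ℂ) ^ M)⁻¹ *
            (PowerSeries.coeff i (taylorPS g) * ((c : ℂ) * z) ^ i) := by
          funext n
          rw [mul_pow]
          ring
        rw [h3]
        exact h2
      intro n
      rw [key, PowerSeries.coeff_mk]
    ext k
    unfold lau
    rw [twist_coeff, HahnSeries.coeff_single_mul, HahnSeries.coeff_single_mul, one_mul, one_mul]
    rcases lt_or_ge (k - -(M : ℤ)) 0 with hk | hk
    · rw [ofPowerSeries_coeff_of_neg _ hk, ofPowerSeries_coeff_of_neg _ hk, mul_zero]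
    · obtain ⟨n, hn⟩ := Int.eq_ofNat_of_zero_le hk
      rw [hn, HahnSeries.ofPowerSeries_apply_coeff, HahnSeries.ofPowerSeries_apply_coeff, hcoeff]
      have hk' : k = (n : ℤ) - (M : ℤ) := by omega
      rw [hk', zpow_sub, zpow_natCast, zpow_natCast]
      push_cast
      field_simp
  · show f (s τ) * u τ ^ M = ((c : ℂ) ^ M)⁻¹ * g ((c : ℂ) * u τ)
    rw [← hs, ← hfg (s τ), hs]
    have hc0 : (c : ℂ) ^ M ≠ 0 := pow_ne_zero _ c.ne_zero
    rw [mul_pow]
    field_simp


end

end Fermat.Agent.S24.helper6239
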