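import Fermat.Agent.S24.helper6239_Dict
import Fermat.Agent.S24.helper3176_FieldAlg
import Fermat.Agent.S24.helper288_Conj

/-!
# S24 (helper6239): the shared core "EV"

`evHom i0 N : AN N →+* (ℍ → ℂ)`: the analytic function attached to an element of the
`ℚ̄`-algebra `AN N = ℚ̄[j(q^d) : d ∣ N]` (for an embedding `i0 : ℚ̄ →+* ℂ`), characterised by
`Expands qChart (evHom i0 N a) (coeffMap i0 a)`: the formal series of `a` is the `q`-expansion of
`evHom i0 N a`.

* `evHom_algebraMap`, `evHom_jBarD`, `evHom_jBar`: values on constants and generators;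
* `evHom_injective`, `mdiff_evHom`;
* `evHom_smul_of_mem_Gamma0`: `Γ₀(N)`-invariance;
* `mem_Gamma0_of_evHom`: separation;
* `hasExpGrowth_evHom`: exponential growth of all conjugates.
-/

set_option autoImplicit false

open Filter Topology UpperHalfPlane ModularCurve CongruenceSubgroup
open scoped MatrixGroups Manifold

namespace Fermat.Agent.S24.helper6239

open Fermat.Agent.S24.helper1644 Fermat.Agent.S24.helper24 Fermat.Agent.S24.helper3176

noncomputable section

/-! ### The `q`-chart -/

/-- The chart `q = exp(2πiτ)` on the upper half plane. -/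
def qChart (τ : ℍ) : ℂ := Function.Periodic.qParam 1 (τ : ℂ)

lemma norm_qChart_lt_one (τ : ℍ) : ‖qChart τ‖ < 1 :=
  Function.Periodic.norm_qParam_lt_one one_pos τ.im_pos

lemma qChart_ne_zero (τ : ℍ) : qChart τ ≠ 0 := Function.Periodic.qParam_ne_zero _

lemma qChart_surj (z : ℂ) (hz : ‖z‖ < 1) (hz0 : z ≠ 0) : ∃ τ : ℍ, qChart τ = z :=
  ⟨⟨Function.Periodic.invQParam 1 z,
    Function.Periodic.im_invQParam_pos_of_norm_lt_one one_pos hz hz0⟩,
    Function.Periodic.qParam_right_inv one_ne_zero hz0⟩

/-- The point `d * τ`. -/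
def scale (d : ℕ) (τ : ℍ) : ℍ := ofComplex ((d : ℂ) * (τ : ℂ))

lemma im_scale_pos (d : ℕ) [NeZero d] (τ : ℍ) : 0 < ((d : ℂ) * (τ : ℂ)).im := by
  have hd : (0 : ℝ) < d := by exact_mod_cast NeZero.pos d
  simpa using mul_pos hd τ.im_pos

lemma coe_scale (d : ℕ) [NeZero d] (τ : ℍ) : ((scale d τ : ℍ) : ℂ) = (d : ℂ) * (τ : ℂ) := by
  unfold scale
  rw [ofComplex_apply_of_im_pos (im_scale_pos d τ)]

lemma qChart_scale (d : ℕ) [NeZero d] (τ : ℍ) : qChart (scale d τ) = qChart τ ^ d := by
  unfold qChart
  rw [coe_scale, Function.Periodic.qParam, Function.Periodic.qParam, ← Complex.exp_nat_mul]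
  congr 1
  simp only [Complex.ofReal_one, div_one]
  ring

lemma scale_one (τ : ℍ) : scale 1 τ = τ := by
  apply UpperHalfPlane.ext
  rw [coe_scale]
  simp

/-! ### Expansion of `j` -/

lemma coeffMap_ofPowerSeries {R S : Type*} [CommRing R] [CommRing S] (f : R →+* S)
    (P : PowerSeries R) :
    coeffMap f (HahnSeries.ofPowerSeries ℤ R P) = HahnSeries.ofPowerSeries ℤ S (P.map f) := by
  ext k
  rw [coeffMap_coeff]
  rcases lt_or_ge k 0 with hk | hk
  · rw [ofPowerSeries_coeff_of_neg _ hk, ofPowerSeries_coeff_of_neg _ hk, map_zero]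
  · lift k to ℕ using hk
    rw [HahnSeries.ofPowerSeries_apply_coeff, HahnSeries.ofPowerSeries_apply_coeff,
      PowerSeries.coeff_map]

lemma coeffEmb_jq_eq_lau : coeffEmb ℂ jq = lau 1 (taylorPS jnFun) := by
  unfold lau
  rw [coeffEmb, jq, map_mul, coeffMap_single, map_one, coeffMap_ofPowerSeries, taylorPS_jnFun]
  congr 2

lemma expands_jFn : Expands qChart helper288.jFn (coeffEmb ℂ jq) := by
  refine ⟨1, jnFun, differentiableOn_jnFun, coeffEmb_jq_eq_lau, fun τ => ?_⟩
  rw [pow_one, qChart, jnFun_qParam, mul_comm]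
  rfl

lemma expands_jFn_scale (d : ℕ) [NeZero d] :
    Expands qChart (fun τ => helper288.jFn (scale d τ)) (qExpand ℂ d (coeffEmb ℂ jq)) :=
  expands_jFn.comp_pow d (scale d) (qChart_scale d)


/-! ### The formal expansion with complex coefficients -/

variable (i0 : Kbar →+* ℂ)

lemma coeffMap_coeffEmb_Kbar (x : LaurentSeries ℚ) :
    coeffMap i0 (coeffEmb Kbar x) = coeffEmb ℂ x := by
  rw [coeffEmb, coeffEmb, coeffMap_coeffMap]
  exact coeffMap_congr (RingHom.ext_rat _ _) x

lemma coeffMap_jSeries (d : ℕ) [NeZero d] :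
    coeffMap i0 (jSeries d) = qExpand ℂ d (coeffEmb ℂ jq) := by
  rw [jSeries, coeffMap_coeffEmb_Kbar, coeffEmb_qExpand]

variable (N : ℕ)

/-- The expansion of an element of the function field, with complex coefficients. -/
def cexpHom : FN N →+* LaurentSeries ℂ :=
  (coeffMap i0).comp (algebraMap (FN N) (LaurentSeries Kbar))

lemma cexpHom_apply (a : FN N) : cexpHom i0 N a = coeffMap i0 (a : LaurentSeries Kbar) := rfl

lemma cexpHom_injective : Function.Injective (cexpHom i0 N) := (cexpHom i0 N).injective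

lemma cexpHom_algebraMap (c : Kbar) :
    cexpHom i0 N (algebraMap Kbar (FN N) c) = HahnSeries.C (i0 c) := by
  rw [cexpHom_apply]
  show coeffMap i0 (algebraMap Kbar (LaurentSeries Kbar) c) = _
  rw [algebraMap_laurentSeries_eq_single, coeffMap_single, HahnSeries.C_apply]

lemma cexpHom_jBarD (d : ℕ) [NeZero d] (hd : d ∣ N) :
    cexpHom i0 N (jBarD N d hd) = qExpand ℂ d (coeffEmb ℂ jq) := by
  rw [cexpHom_apply, coe_jBarD, coeffMap_jSeries]

/-- Induction principle for the subalgebra `AN N`. -/
theorem AN_induction {P : AN N → Prop}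
    (hgen : ∀ (d : ℕ) [NeZero d] (hd : d ∣ N), P ⟨jBarD N d hd, jBarD_mem_AN N d hd⟩)
    (hconst : ∀ c : Kbar, P (algebraMap Kbar (AN N) c))
    (hadd : ∀ a b, P a → P b → P (a + b)) (hmul : ∀ a b, P a → P b → P (a * b)) :
    ∀ a, P a := by
  rintro ⟨a, ha⟩
  unfold AN at ha
  induction ha using Algebra.adjoin_induction with
  | mem x hx =>
      obtain ⟨d, hd0, hd, rfl⟩ := hx
      exact hgen d hd
  | algebraMap c => exact hconst c
  | add x y hx hy hPx hPy => exact hadd ⟨x, hx⟩ ⟨y, hy⟩ hPx hPy
  | mul x y hx hy hPx hPy => exact hmul ⟨x, hx⟩ ⟨y, hy⟩ hPx hPy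

lemma exists_expands (a : AN N) :
    ∃ f : ℍ → ℂ, Expands qChart f (cexpHom i0 N (a : FN N)) := by
  induction a using AN_induction with
  | hgen d hd =>
      refine ⟨fun τ => helper288.jFn (scale d τ), ?_⟩
      show Expands qChart _ (cexpHom i0 N (jBarD N d hd))
      rw [cexpHom_jBarD]
      exact expands_jFn_scale d
  | hconst c =>
      refine ⟨fun _ => i0 c, ?_⟩
      show Expands qChart _ (cexpHom i0 N (algebraMap Kbar (FN N) c))
      rw [cexpHom_algebraMap]
      exact Expands.const _
  | hadd a b ha hb =>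
      obtain ⟨f, hf⟩ := ha
      obtain ⟨g, hg⟩ := hb
      refine ⟨f + g, ?_⟩
      show Expands qChart _ (cexpHom i0 N ((a : FN N) + (b : FN N)))
      rw [map_add]
      exact hf.add hg
  | hmul a b ha hb =>
      obtain ⟨f, hf⟩ := ha
      obtain ⟨g, hg⟩ := hb
      refine ⟨f * g, ?_⟩
      show Expands qChart _ (cexpHom i0 N ((a : FN N) * (b : FN N)))
      rw [map_mul]
      exact hf.mul hg

/-- The analytic function attached to an element of `AN N`. -/
def evFun (a : AN N) : ℍ → ℂ := (exists_expands i0 N a).choose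

lemma expands_evFun (a : AN N) : Expands qChart (evFun i0 N a) (cexpHom i0 N (a : FN N)) :=
  (exists_expands i0 N a).choose_spec

lemma evFun_unique {a : AN N} {f : ℍ → ℂ} (h : Expands qChart f (cexpHom i0 N (a : FN N))) :
    evFun i0 N a = f :=
  (expands_evFun i0 N a).unique_left norm_qChart_lt_one qChart_ne_zero h

/-- The evaluation ring homomorphism `AN N →+* (ℍ → ℂ)`. -/
def evHom : AN N →+* (ℍ → ℂ) where
  toFun := evFun i0 N
  map_one' := evFun_unique i0 N (by
    show Expands qChart 1 (cexpHom i0 N (1 : FN N))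
    rw [map_one]; exact Expands.one)
  map_mul' a b := evFun_unique i0 N (by
    show Expands qChart _ (cexpHom i0 N ((a : FN N) * (b : FN N)))
    rw [map_mul]; exact (expands_evFun i0 N a).mul (expands_evFun i0 N b))
  map_zero' := evFun_unique i0 N (by
    show Expands qChart 0 (cexpHom i0 N (0 : FN N))
    rw [map_zero]; exact Expands.zero)
  map_add' a b := evFun_unique i0 N (by
    show Expands qChart _ (cexpHom i0 N ((a : FN N) + (b : FN N)))
    rw [map_add]; exact (expands_evFun i0 N a).add (expands_evFun i0 N b))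

lemma expands_evHom (a : AN N) : Expands qChart (evHom i0 N a) (cexpHom i0 N (a : FN N)) :=
  expands_evFun i0 N a

lemma evHom_unique {a : AN N} {f : ℍ → ℂ} (h : Expands qChart f (cexpHom i0 N (a : FN N))) :
    evHom i0 N a = f := evFun_unique i0 N h

lemma evHom_algebraMap (c : Kbar) : evHom i0 N (algebraMap Kbar (AN N) c) = fun _ => i0 c :=
  evHom_unique i0 N (by
    show Expands qChart _ (cexpHom i0 N (algebraMap Kbar (FN N) c))
    rw [cexpHom_algebraMap]; exact Expands.const _)

lemma evHom_jBarD (d : ℕ) [NeZero d] (hd : d ∣ N) :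
    evHom i0 N ⟨jBarD N d hd, jBarD_mem_AN N d hd⟩ = fun τ => helper288.jFn (scale d τ) :=
  evHom_unique i0 N (by
    show Expands qChart _ (cexpHom i0 N (jBarD N d hd))
    rw [cexpHom_jBarD]; exact expands_jFn_scale d)

lemma evHom_jBar : evHom i0 N ⟨jBar N, jBar_mem_AN N⟩ = helper288.jFn := by
  have h := evHom_jBarD i0 N 1 (one_dvd N)
  simp only [scale_one] at h
  exact h

lemma evHom_injective : Function.Injective (evHom i0 N) := by
  rw [injective_iff_map_eq_zero]
  intro a ha
  have h1 := expands_evHom i0 N a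
  rw [ha] at h1
  have h2 : cexpHom i0 N (a : FN N) = 0 := h1.unique_right qChart_surj Expands.zero
  have h3 : (a : FN N) = 0 := cexpHom_injective i0 N (by rw [h2, map_zero])
  exact Subtype.ext h3


/-! ### Holomorphy, invariance, separation, growth -/

lemma Expands.mdiff {f : ℍ → ℂ} {E : LaurentSeries ℂ} (h : Expands qChart f E) : MDiff f := by
  obtain ⟨M, g, hg, -, hfg⟩ := h
  rw [UpperHalfPlane.mdifferentiable_iff]
  have hq : DifferentiableOn ℂ (fun z : ℂ => Function.Periodic.qParam 1 z) {z | 0 < z.im} := by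
    unfold Function.Periodic.qParam
    fun_prop
  have hmaps : Set.MapsTo (fun z : ℂ => Function.Periodic.qParam 1 z) {z | 0 < z.im}
      (Metric.ball 0 1) := fun z hz => by
    simpa using Function.Periodic.norm_qParam_lt_one one_pos hz
  have h1 : DifferentiableOn ℂ (fun z : ℂ => g (Function.Periodic.qParam 1 z) /
      Function.Periodic.qParam 1 z ^ M) {z | 0 < z.im} :=
    (hg.comp hq hmaps).div (hq.pow M) fun z _ => pow_ne_zero _ (Function.Periodic.qParam_ne_zero _)
  refine h1.congr fun z hz => ?_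
  have hz' : 0 < z.im := hz
  simp only [Function.comp_apply]
  have h2 := hfg (ofComplex z)
  have h3 : qChart (ofComplex z) = Function.Periodic.qParam 1 z := by
    unfold qChart
    rw [ofComplex_apply_of_im_pos hz']
  rw [h3] at h2
  rw [← h2, mul_div_assoc, div_self (pow_ne_zero _ (Function.Periodic.qParam_ne_zero _)), mul_one]

lemma mdiff_evHom (a : AN N) : MDiff (evHom i0 N a) := (expands_evHom i0 N a).mdiff

/-- `Γ₀(N)`-invariance of the analytic functions attached to `AN N`. -/
lemma evHom_smul_of_mem_Gamma0 (a : AN N) :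
    ∀ γ ∈ Gamma0 N, ∀ τ : ℍ, evHom i0 N a (γ • τ) = evHom i0 N a τ := by
  induction a using AN_induction with
  | hgen d hd =>
      intro γ hγ τ
      rw [evHom_jBarD]
      exact helper288.jFn_mul_smul_of_mem_Gamma0 N d (NeZero.pos d) hd γ hγ τ
  | hconst c =>
      intro γ hγ τ
      rw [evHom_algebraMap]
  | hadd a b ha hb =>
      intro γ hγ τ
      rw [map_add, Pi.add_apply, Pi.add_apply, ha γ hγ τ, hb γ hγ τ]
  | hmul a b ha hb =>
      intro γ hγ τ
      rw [map_mul, Pi.mul_apply, Pi.mul_apply, ha γ hγ τ, hb γ hγ τ]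

/-- Separation: an element of `SL(2, ℤ)` fixing all the analytic functions attached to `AN N`
lies in `Γ₀(N)`. -/
lemma mem_Gamma0_of_evHom [NeZero N] (g : SL(2, ℤ))
    (h : ∀ (a : AN N) (τ : ℍ), evHom i0 N a (g • τ) = evHom i0 N a τ) : g ∈ Gamma0 N := by
  apply helper288.mem_Gamma0_of_jFn_eq N g
  intro τ
  have h1 := h ⟨jBarD N N dvd_rfl, jBarD_mem_AN N N dvd_rfl⟩ τ
  rw [evHom_jBarD] at h1
  exact h1

/-- Exponential growth of all conjugates. -/
lemma hasExpGrowth_evHom (a : AN N) :
    ∀ g : SL(2, ℤ), helper167.HasExpGrowth (fun τ => evHom i0 N a (g • τ)) := by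
  induction a using AN_induction with
  | hgen d hd =>
      intro g
      rw [evHom_jBarD]
      exact helper288.hasExpGrowth_jFn_mul_smul g d (NeZero.pos d)
  | hconst c =>
      intro g
      rw [evHom_algebraMap]
      exact helper167.hasExpGrowth_const _
  | hadd a b ha hb =>
      intro g
      rw [map_add]
      exact (ha g).add (hb g)
  | hmul a b ha hb =>
      intro g
      rw [map_mul]
      exact (ha g).mul (hb g)

end
end Fermat.Agent.S24.helper6239
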