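import Fermat.Agent.S24.helper627_PlaceBasics

/-!
# The fundamental identity for function fields in one variable (helper627)

`K` algebraically closed of characteristic zero, `x : F` transcendental over `K`,
`F` finite over `K(x)`. Then the zeros of `x - c` among the places of `F / K` form a finite
set and the sum of the orders is `[F : K(x)]` (`exists_finset_zeros`).

Proof: the integral closure `B` of `K[x]` in `F` is a Dedekind domain, finite free of rank
`[F : K(x)]` over `K[x]`; the zeros of `x - c` are the places of the primes of `B` over
`(x - c)`, the order of `x - c` is the ramification index, all inertia degrees are one, and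
the sum of `e * f` is the rank.
-/

set_option autoImplicit false
set_option linter.style.haveILetI false

open AlgebraicCurve IsDedekindDomain Polynomial

namespace Fermat.Agent.S24.helper627

section Integral

variable {K F : Type*} [Field K] [Field F] [Algebra K F]

/-- The valuation ring of a place is integrally closed in `F`: an element integral over a ring
mapping into the valuation ring lies in the valuation ring. -/
theorem mem_of_isIntegral (v : Place K F) {A : Type*} [CommRing A] [Algebra A F]
    (hA : ∀ a : A, algebraMap A F a ∈ v.toValuationSubring) {f : F} (hf : IsIntegral A f) :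
    f ∈ v.toValuationSubring := by
  let _ : Algebra A v.toValuationSubring :=
    ((algebraMap A F).codRestrict v.toValuationSubring.toSubring hA).toAlgebra
  have : IsScalarTower A v.toValuationSubring F :=
    IsScalarTower.of_algebraMap_eq (fun _ => rfl)
  have h1 : IsIntegral v.toValuationSubring f := hf.tower_top
  obtain ⟨y, hy⟩ := IsIntegrallyClosed.isIntegral_iff.mp h1
  rw [← hy]
  exact y.2

end Integral

section Core

variable {K F : Type*} [Field K] [Field F] [Algebra K F]
variable [Algebra K[X] F] [IsScalarTower K K[X] F]

/-- The image of `K[X]` lies in the valuation ring as soon as the image of `X - c` does. -/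
theorem algebraMap_polynomial_mem (v : Place K F) (c : K)
    (h : algebraMap K[X] F (X - C c) ∈ v.toValuationSubring) (p : K[X]) :
    algebraMap K[X] F p ∈ v.toValuationSubring := by
  have hC : ∀ a : K, algebraMap K[X] F (C a) ∈ v.toValuationSubring := by
    intro a
    have : algebraMap K[X] F (C a) = algebraMap K F a := by
      rw [IsScalarTower.algebraMap_apply K K[X] F, Polynomial.algebraMap_apply,
        Algebra.algebraMap_self, RingHom.id_apply]
    rw [this]
    exact v.algebraMap_mem' a
  have hX : algebraMap K[X] F X ∈ v.toValuationSubring := by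
    have : (X : K[X]) = (X - C c) + C c := by ring
    rw [this, map_add]
    exact add_mem h (hC c)
  induction p using Polynomial.induction_on with
  | C a => exact hC a
  | add p q hp hq => rw [map_add]; exact add_mem hp hq
  | monomial n a ih =>
    rw [pow_succ, ← mul_assoc, map_mul]
    exact mul_mem ih hX

/-- **Fundamental identity**, abstract form: `F` is a finite separable extension of a fraction
field `L` of `K[X]`, `K` algebraically closed. The places of `F` that are zeros of the image of
`X - c` form a finite set and the orders add up to `[F : L]`. -/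
theorem core_zeros [IsAlgClosed K] (L : Type*) [Field L] [Algebra K[X] L] [IsFractionRing K[X] L]
    [Algebra L F] [IsScalarTower K[X] L F] [FiniteDimensional L F] [Algebra.IsSeparable L F]
    (c : K) :
    ∃ s : Finset (Place K F),
      (∀ v : Place K F, v ∈ s ↔ 0 < v.ord (algebraMap K[X] F (X - C c))) ∧
      ∑ v ∈ s, v.ord (algebraMap K[X] F (X - C c)) = (Module.finrank L F : ℤ) := by
  classical
  let B := integralClosure K[X] F
  have hinjF : Function.Injective (algebraMap K[X] F) := by
    rw [IsScalarTower.algebraMap_eq K[X] L F]
    exact (algebraMap L F).injective.comp (IsFractionRing.injective K[X] L)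
  haveI : Module.IsTorsionFree K[X] F := Module.isTorsionFree_iff_algebraMap_injective.mpr hinjF
  haveI : IsDedekindDomain B := integralClosure.isDedekindDomain K[X] L F
  haveI : IsFractionRing B F := integralClosure.isFractionRing_of_finite_extension L F
  haveI : Module.Finite K[X] B := IsIntegralClosure.finite K[X] L F B
  haveI : Module.Free K[X] B := IsIntegralClosure.module_free K[X] L F B
  have hrank : Module.finrank K[X] B = Module.finrank L F := IsIntegralClosure.rank K[X] L F B
  let p : Ideal K[X] := Ideal.span {X - C c}
  haveI hpmax : p.IsMaximal := PrincipalIdealRing.isMaximal_of_irreducible (irreducible_X_sub_C c)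
  haveI : Fintype (p.primesOver B) := (Algebra.QuasiFinite.finite_primesOver p).fintype
  have hsum := Ideal.sum_ramification_inertia_eq_finrank p B
  set y : F := algebraMap K[X] F (X - C c) with hy
  set yB : B := algebraMap K[X] B (X - C c) with hyB
  have hyB_coe : algebraMap B F yB = y := by
    rw [hyB, hy, ← IsScalarTower.algebraMap_apply K[X] B F]
  have hy0 : y ≠ 0 := by
    rw [hy, Ne, map_eq_zero_iff _ hinjF]
    exact X_sub_C_ne_zero c
  have hyB0 : yB ≠ 0 := by
    intro h
    rw [h, map_zero] at hyB_coe
    exact hy0 hyB_coe.symm
  have hmap : p.map (algebraMap K[X] B) = Ideal.span {yB} := by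
    rw [Ideal.map_span, Set.image_singleton]
  have hmap0 : p.map (algebraMap K[X] B) ≠ ⊥ := by
    rw [hmap, Ne, Ideal.span_singleton_eq_bot]
    exact hyB0
  -- the height one prime and the place attached to a prime over `p`
  have hqne : ∀ q : p.primesOver B, q.1 ≠ ⊥ := by
    intro q hq
    haveI : q.1.LiesOver p := q.2.2
    have h1 : yB ∈ q.1 := by
      have h2 : (X - C c : K[X]) ∈ p := Ideal.subset_span (Set.mem_singleton _)
      rw [Ideal.LiesOver.over (p := p) (P := q.1)] at h2
      exact h2
    rw [hq, Ideal.mem_bot] at h1
    exact hyB0 h1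
  let wq : p.primesOver B → HeightOneSpectrum B := fun q => ⟨q.1, q.2.1, hqne q⟩
  let vq : p.primesOver B → Place K F := fun q => Place.ofHeightOneSpectrum (K := K) (wq q)
  have hord : ∀ q : p.primesOver B, (vq q).ord y = (q.1.ramificationIdx K[X] : ℤ) := by
    intro q
    haveI : q.1.IsPrime := q.2.1
    haveI : q.1.LiesOver p := q.2.2
    have h1 : (wq q).valuation F y = (wq q).intValuation yB := by
      rw [← hyB_coe]
      exact (wq q).valuation_of_algebraMap yB
    show (Place.ofHeightOneSpectrum (K := K) (wq q)).ord y = _
    rw [ord_ofHeightOneSpectrum, h1, (wq q).intValuation_eq_exp_neg_multiplicity hyB0,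
      WithZero.log_exp, neg_neg, Ideal.IsDedekindDomain.ramificationIdx_eq_multiplicity p q.1 hmap0,
      hmap]
  have hinertia : ∀ q : p.primesOver B, q.1.inertiaDeg K[X] = 1 := by
    intro q
    haveI : q.1.IsPrime := q.2.1
    haveI : q.1.LiesOver p := q.2.2
    haveI hqmax : q.1.IsMaximal := (wq q).isMaximal
    rw [Ideal.inertiaDeg_eq_of_isMaximal p q.1]
    letI : Field (K[X] ⧸ p) := Ideal.Quotient.field p
    letI : Field (B ⧸ q.1) := Ideal.Quotient.field q.1
    haveI : IsAlgClosed (K[X] ⧸ p) :=
      IsAlgClosed.of_ringEquiv K (K[X] ⧸ p) (quotientSpanXSubCAlgEquiv c).symm.toRingEquiv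
    haveI : Algebra.IsIntegral (K[X] ⧸ p) (B ⧸ q.1) := Algebra.IsIntegral.of_finite _ _
    have hbij : Function.Bijective (algebraMap (K[X] ⧸ p) (B ⧸ q.1)) :=
      IsAlgClosed.algebraMap_bijective_of_isIntegral
    rw [← Module.finrank_self (K[X] ⧸ p)]
    exact ((AlgEquiv.ofBijective (Algebra.ofId (K[X] ⧸ p) (B ⧸ q.1)) hbij).toLinearEquiv.finrank_eq).symm
  have hinj : Function.Injective vq := by
    intro q q' h
    have h1 : ((wq q).valuation F).valuationSubring = ((wq q').valuation F).valuationSubring :=
      congrArg Place.toValuationSubring h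
    have h2 : wq q = wq q' :=
      HeightOneSpectrum.eq_of_valuation_isEquiv_valuation
        ((Valuation.isEquiv_iff_valuationSubring _ _).mpr h1)
    exact Subtype.ext (congrArg HeightOneSpectrum.asIdeal h2)
  refine ⟨Finset.univ.image vq, ?_, ?_⟩
  · intro v
    rw [Finset.mem_image]
    constructor
    · rintro ⟨q, -, rfl⟩
      haveI : q.1.IsPrime := q.2.1
      rw [hord]
      exact_mod_cast Ideal.ramificationIdx_pos q.1 K[X]
    · intro hv
      have hyv : y ∈ v.toValuationSubring := mem_of_ord_nonneg v hv.le
      have hR : ∀ b : B, algebraMap B F b ∈ v.toValuationSubring := fun b =>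
        mem_of_isIntegral v (algebraMap_polynomial_mem v c hyv) b.2
      obtain ⟨w, hw, hmem⟩ := exists_heightOneSpectrum_eq v hR ⟨yB, hyB0, by rwa [hyB_coe]⟩
      have hlies : w.asIdeal.LiesOver p := by
        refine ⟨?_⟩
        have hle : p ≤ w.asIdeal.under K[X] := by
          rw [Ideal.span_le, Set.singleton_subset_iff]
          show algebraMap K[X] B (X - C c) ∈ w.asIdeal
          rw [hmem]
          right
          rwa [hyB_coe]
        have hne : w.asIdeal.under K[X] ≠ ⊤ := (Ideal.IsPrime.under K[X] w.asIdeal).ne_top
        exact hpmax.eq_of_le hne hle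
      refine ⟨⟨w.asIdeal, w.isPrime, hlies⟩, Finset.mem_univ _, ?_⟩
      exact hw
  · rw [Finset.sum_image (fun a _ b _ h => hinj h)]
    simp only [hord]
    rw [← hrank, ← hsum]
    push_cast
    refine Finset.sum_congr rfl (fun q _ => ?_)
    rw [hinertia q]
    simp

end Core

section Main

open IntermediateField

variable {K F : Type*} [Field K] [Field F] [Algebra K F]

/-- **Fundamental identity** for a function field in one variable over an algebraically closed
field of characteristic zero: the zeros of `x - c` form a finite set of places and their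
orders add up to `[F : K(x)]`. -/
theorem exists_finset_zeros [IsAlgClosed K] [CharZero K] (x : F) (hx : Transcendental K x)
    [FiniteDimensional K⟮x⟯ F] (c : K) :
    ∃ s : Finset (Place K F), (∀ v : Place K F, v ∈ s ↔ 0 < v.ord (x - algebraMap K F c)) ∧
      ∑ v ∈ s, v.ord (x - algebraMap K F c) = (Module.finrank K⟮x⟯ F : ℤ) := by
  letI : Algebra K[X] F := (aeval x).toRingHom.toAlgebra
  letI : Algebra K[X] K⟮x⟯ := (aeval (AdjoinSimple.gen K x)).toRingHom.toAlgebra
  have h1 : ∀ p : K[X], algebraMap K[X] F p = aeval x p := fun p => rfl
  have h2 : ∀ p : K[X], algebraMap K[X] K⟮x⟯ p = aeval (AdjoinSimple.gen K x) p := fun p => rfl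
  haveI : IsScalarTower K K[X] F := IsScalarTower.of_algebraMap_eq (fun a => by
    rw [h1, Polynomial.algebraMap_apply, Algebra.algebraMap_self, RingHom.id_apply, aeval_C])
  haveI : IsScalarTower K[X] K⟮x⟯ F := IsScalarTower.of_algebraMap_eq (fun p => by
    rw [h1, h2]
    exact (Polynomial.aeval_algHom_apply (IsScalarTower.toAlgHom K K⟮x⟯ F)
      (AdjoinSimple.gen K x) p))
  haveI : IsFractionRing K[X] K⟮x⟯ :=
    IsLocalization.isLocalization_of_algEquiv _
      (AlgEquiv.ofRingEquiv (f := (RatFunc.algEquivOfTranscendental x hx).toRingEquiv)
        (fun g => RatFunc.algEquivOfTranscendental_algebraMap x hx g))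
  have h := core_zeros (K := K) (F := F) K⟮x⟯ c
  have h3 : algebraMap K[X] F (X - C c) = x - algebraMap K F c := by
    rw [h1, map_sub, aeval_X, aeval_C]
  rwa [h3] at h

end Main

end Fermat.Agent.S24.helper627
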