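import Fermat.Agent.S24.helper24_Spec
import Fermat.Agent.S24.helper627_FundId

/-!
# `Stmt_FundId` of the S24 specification (helper627)

The fundamental identity in the exact shape of `helper24.Stmt_FundId`.
-/

set_option autoImplicit false

open AlgebraicCurve IntermediateField

namespace Fermat.Agent.S24.helper627

/-- G1 of the S24 specification: the zeros of a transcendental element `y` are finitely many
and their orders add up to `[F : K(y)]`. -/
theorem stmt_FundId : Fermat.Agent.S24.helper24.Stmt_FundId := by
  intro K F _ _ _ _ _ y hy _
  have h := exists_finset_zeros y hy (0 : K)
  simpa using h

end Fermat.Agent.S24.helper627
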