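import Mathlib
import Fermat.Prelude.Def_ModularCurve_X0
import Fermat.Agent.S24.helper864_Twist
import Fermat.Agent.S24.helper1644_AnalyticJ

/-!
# S24 (helper6324): a dictionary between functions and Laurent series in a chart

`IsExp u f E` says that the function `f : α → ℂ` is given everywhere by the (convergent) Laurent
series `E` in the coordinate `u : α → ℂ`:  `f x = ∑_{n ∈ ℤ} E_n (u x)^n` for all `x`.

Such pairs `(f, E)` are closed under constants, sums and products (Cauchy product); `f` is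
determined by `E`, and `E` is determined by `f` as soon as the coordinate takes all values of a
punctured disc.  The dictionary is compatible with the substitutions `t ↦ t^M` (`qExpand`) and
`t ↦ ζ t` (`twist`).
-/

set_option autoImplicit false


namespace Fermat.Agent.S24.helper6324

noncomputable section

/-- `f x = ∑_{n ∈ ℤ} E_n (u x)^n` for every `x`. -/
def IsExp {α : Type*} (u : α → ℂ) (f : α → ℂ) (E : LaurentSeries ℂ) : Prop :=
  ∀ x, HasSum (fun n : ℤ => E.coeff n * u x ^ n) (f x)

section Basic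

variable {α : Type*} {u : α → ℂ} {f g : α → ℂ} {E E' : LaurentSeries ℂ}

theorem IsExp.fun_eq (hf : IsExp u f E) (hg : IsExp u g E) : f = g :=
  funext fun x => (hf x).unique (hg x)

theorem IsExp.congr (hf : IsExp u f E) (h : ∀ x, f x = g x) : IsExp u g E := fun x => by
  rw [← h x]; exact hf x

theorem IsExp.const (u : α → ℂ) (c : ℂ) : IsExp u (fun _ => c) (HahnSeries.C c) := fun x => by
  have h := hasSum_single (f := fun n : ℤ => (HahnSeries.C c : LaurentSeries ℂ).coeff n * u x ^ n)
    (0 : ℤ) (fun n hn => by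
      show (HahnSeries.C c : LaurentSeries ℂ).coeff n * u x ^ n = 0
      rw [HahnSeries.C_apply, HahnSeries.coeff_single_of_ne hn, zero_mul])
  simpa [HahnSeries.C_apply] using h

theorem IsExp.zero (u : α → ℂ) : IsExp u (0 : α → ℂ) 0 := fun x => by
  simp [hasSum_zero]

theorem IsExp.add (hf : IsExp u f E) (hg : IsExp u g E') : IsExp u (f + g) (E + E') := fun x => by
  have h := (hf x).add (hg x)
  have hfun : (fun n : ℤ => (E + E').coeff n * u x ^ n)
      = fun n : ℤ => E.coeff n * u x ^ n + E'.coeff n * u x ^ n := by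
    funext n
    rw [HahnSeries.coeff_add, add_mul]
  rw [hfun]
  exact h

theorem IsExp.neg (hf : IsExp u f E) : IsExp u (-f) (-E) := fun x => by
  have h := (hf x).neg
  have hfun : (fun n : ℤ => (-E).coeff n * u x ^ n) = fun n : ℤ => -(E.coeff n * u x ^ n) := by
    funext n
    rw [HahnSeries.coeff_neg, neg_mul]
  rw [hfun]
  exact h

theorem IsExp.sub (hf : IsExp u f E) (hg : IsExp u g E') : IsExp u (f - g) (E - E') := by
  rw [sub_eq_add_neg, sub_eq_add_neg]
  exact hf.add hg.neg

theorem IsExp.comp {β : Type*} (hf : IsExp u f E) (h : β → α) :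
    IsExp (fun y => u (h y)) (fun y => f (h y)) E := fun y => hf (h y)

end Basic

/-! ### Passing between `ℤ`-indexed and `ℕ`-indexed sums -/

theorem hasSum_single_mul_ofPowerSeries_iff (P : PowerSeries ℂ) (k : ℤ) {z : ℂ} (hz : z ≠ 0)
    (s : ℂ) :
    HasSum (fun n : ℤ => ((HahnSeries.single k (1 : ℂ) : LaurentSeries ℂ)
        * (HahnSeries.ofPowerSeries ℤ ℂ P)).coeff n * z ^ n) s ↔
      HasSum (fun n : ℕ => PowerSeries.coeff n P * z ^ n) (z ^ (-k) * s) := by
  have hi : Function.Injective (fun n : ℕ => (n : ℤ) + k) := by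
    intro a b h
    simpa using h
  rw [← hi.hasSum_iff]
  · have hfun : ((fun n : ℤ => ((HahnSeries.single k (1 : ℂ) : LaurentSeries ℂ)
        * (HahnSeries.ofPowerSeries ℤ ℂ P)).coeff n * z ^ n) ∘ fun n : ℕ => (n : ℤ) + k)
        = fun n : ℕ => PowerSeries.coeff n P * z ^ n * z ^ k := by
      funext n
      simp only [Function.comp_apply]
      rw [HahnSeries.coeff_single_mul_add, one_mul, HahnSeries.ofPowerSeries_apply_coeff,
        zpow_add₀ hz, zpow_natCast, mul_assoc]
    rw [hfun]
    have hzk : z ^ k ≠ 0 := zpow_ne_zero k hz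
    have hs : s = (z ^ (-k) * s) * z ^ k := by
      rw [zpow_neg]
      field_simp
    conv_lhs => rw [hs]
    exact hasSum_mul_right_iff hzk
  · intro n hn
    have hlt : n - k < 0 := by
      by_contra hcon
      apply hn
      refine ⟨(n - k).toNat, ?_⟩
      simp only
      omega
    rw [HahnSeries.coeff_single_mul, one_mul, ModularCurve.ofPowerSeries_coeff_of_neg _ hlt,
      zero_mul]

theorem hasSum_laurent_iff (E : LaurentSeries ℂ) {z : ℂ} (hz : z ≠ 0) (s : ℂ) :
    HasSum (fun n : ℤ => E.coeff n * z ^ n) s ↔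
      HasSum (fun n : ℕ => PowerSeries.coeff n E.powerSeriesPart * z ^ n)
        (z ^ (-E.order) * s) := by
  conv_lhs => rw [← LaurentSeries.single_order_mul_powerSeriesPart E]
  exact hasSum_single_mul_ofPowerSeries_iff _ _ hz s

/-- Cauchy product of convergent power series. -/
theorem hasSum_powerSeries_mul {P Q : PowerSeries ℂ} {z a b : ℂ}
    (hP : HasSum (fun n : ℕ => PowerSeries.coeff n P * z ^ n) a)
    (hQ : HasSum (fun n : ℕ => PowerSeries.coeff n Q * z ^ n) b) :
    HasSum (fun n : ℕ => PowerSeries.coeff n (P * Q) * z ^ n) (a * b) := by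
  have hPn := hP.summable.norm
  have hQn := hQ.summable.norm
  have hsum := summable_norm_sum_mul_antidiagonal_of_summable_norm hPn hQn
  have htsum := tsum_mul_tsum_eq_tsum_sum_antidiagonal_of_summable_norm hPn hQn
  have hfun : (fun n : ℕ => PowerSeries.coeff n (P * Q) * z ^ n)
      = fun n : ℕ => ∑ kl ∈ Finset.HasAntidiagonal.antidiagonal n,
          (PowerSeries.coeff kl.1 P * z ^ kl.1) * (PowerSeries.coeff kl.2 Q * z ^ kl.2) := by
    funext n
    rw [PowerSeries.coeff_mul, Finset.sum_mul]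
    refine Finset.sum_congr rfl fun kl hkl => ?_
    rw [← Finset.HasAntidiagonal.mem_antidiagonal.mp hkl, pow_add]
    ring
  rw [hfun, ← hP.tsum_eq, ← hQ.tsum_eq, htsum]
  exact hsum.of_norm.hasSum

theorem single_mul_ofPowerSeries_mul (k l : ℤ) (P Q : PowerSeries ℂ) :
    ((HahnSeries.single k (1 : ℂ) : LaurentSeries ℂ) * HahnSeries.ofPowerSeries ℤ ℂ P)
        * ((HahnSeries.single l (1 : ℂ) : LaurentSeries ℂ) * HahnSeries.ofPowerSeries ℤ ℂ Q)
      = (HahnSeries.single (k + l) (1 : ℂ) : LaurentSeries ℂ) * HahnSeries.ofPowerSeries ℤ ℂ (P * Q) := by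
  rw [mul_mul_mul_comm, HahnSeries.single_mul_single, mul_one, map_mul]

theorem IsExp.mul {α : Type*} {u : α → ℂ} (hu : ∀ x, u x ≠ 0) {f g : α → ℂ}
    {E E' : LaurentSeries ℂ} (hf : IsExp u f E) (hg : IsExp u g E') :
    IsExp u (f * g) (E * E') := fun x => by
  have h1 := (hasSum_laurent_iff E (hu x) (f x)).mp (hf x)
  have h2 := (hasSum_laurent_iff E' (hu x) (g x)).mp (hg x)
  have h3 := hasSum_powerSeries_mul h1 h2
  have hE : E * E' = (HahnSeries.single (E.order + E'.order) (1 : ℂ) : LaurentSeries ℂ)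
      * HahnSeries.ofPowerSeries ℤ ℂ (E.powerSeriesPart * E'.powerSeriesPart) := by
    rw [← single_mul_ofPowerSeries_mul, LaurentSeries.single_order_mul_powerSeriesPart,
      LaurentSeries.single_order_mul_powerSeriesPart]
  rw [hE]
  rw [hasSum_single_mul_ofPowerSeries_iff _ _ (hu x)]
  have hval : u x ^ (-(E.order + E'.order)) * (f * g) x
      = u x ^ (-E.order) * f x * (u x ^ (-E'.order) * g x) := by
    rw [neg_add, zpow_add₀ (hu x), Pi.mul_apply]
    ring
  rw [hval]
  exact h3

theorem IsExp.pow {α : Type*} {u : α → ℂ} (hu : ∀ x, u x ≠ 0) {f : α → ℂ}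
    {E : LaurentSeries ℂ} (hf : IsExp u f E) (n : ℕ) : IsExp u (f ^ n) (E ^ n) := by
  induction n with
  | zero =>
    rw [pow_zero, pow_zero]
    have h := IsExp.const u 1
    rw [map_one] at h
    exact h
  | succ n ih =>
    rw [pow_succ, pow_succ]
    exact ih.mul hu hf

/-! ### Uniqueness of the series -/

/-- A power series whose sum vanishes on a punctured disc is zero. -/
theorem coeff_eq_zero_of_hasSum_zero {c : ℕ → ℂ} {r : ℝ} (hr : 0 < r)
    (h : ∀ z : ℂ, z ≠ 0 → ‖z‖ < r → HasSum (fun n => c n * z ^ n) 0) : c = 0 := by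
  classical
  let g : ℂ → ℂ := fun z => if z = 0 then c 0 else 0
  have hg : ∀ z : ℂ, ‖z‖ < r → HasSum (fun n => c n * z ^ n) (g z) := by
    intro z hz
    by_cases hz0 : z = 0
    · subst hz0
      have h0 := hasSum_single (f := fun n : ℕ => c n * (0 : ℂ) ^ n) 0 (fun n hn => by
        show c n * (0 : ℂ) ^ n = 0
        rw [zero_pow hn, mul_zero])
      simpa [g] using h0
    · simpa [g, hz0] using h z hz0 hz
  lift r to NNReal using hr.le
  have hr' : (0 : NNReal) < r := by exact_mod_cast hr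
  have hps := helper1644.hasFPowerSeriesOnBall_of_hasSum hr' hg
  have hcont : ContinuousAt g 0 := hps.hasFPowerSeriesAt.continuousAt
  have hg0 : g 0 = 0 := by
    have hlim : Filter.Tendsto g (nhdsWithin (0 : ℂ) {0}ᶜ) (nhds (g 0)) :=
      hcont.tendsto.mono_left nhdsWithin_le_nhds
    have hev : g =ᶠ[nhdsWithin (0 : ℂ) {0}ᶜ] fun _ => 0 := by
      filter_upwards [self_mem_nhdsWithin] with z hz
      have hz0 : z ≠ 0 := hz
      simp [g, hz0]
    have hlim0 : Filter.Tendsto g (nhdsWithin (0 : ℂ) {0}ᶜ) (nhds 0) :=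
      (tendsto_const_nhds).congr' hev.symm
    exact tendsto_nhds_unique hlim hlim0
  have hgz : g = fun _ => 0 := by
    funext z
    by_cases hz0 : z = 0
    · rw [hz0, hg0]
    · simp [g, hz0]
  have hT := helper1644.taylorPS_eq_of_hasSum (f := g) (c := c) (r := (r : ℝ)) hr hg
  have hT0 : helper1644.taylorPS g = 0 := by
    rw [hgz]
    ext n
    simp [helper1644.coeff_taylorPS]
  rw [hT0] at hT
  funext n
  have := congrArg (PowerSeries.coeff n) hT
  simpa using this.symm

theorem IsExp.series_eq_zero {α : Type*} {u : α → ℂ} {r : ℝ} (hr : 0 < r)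
    (hsurj : ∀ z : ℂ, z ≠ 0 → ‖z‖ < r → ∃ x, u x = z) {E : LaurentSeries ℂ}
    (h : IsExp u (0 : α → ℂ) E) : E = 0 := by
  have hc : (fun n : ℕ => PowerSeries.coeff n E.powerSeriesPart) = 0 := by
    apply coeff_eq_zero_of_hasSum_zero hr
    intro z hz hzr
    obtain ⟨x, rfl⟩ := hsurj z hz hzr
    have := (hasSum_laurent_iff E hz 0).mp (h x)
    simpa using this
  have hP : E.powerSeriesPart = 0 := by
    ext n
    simpa using congrFun hc n
  exact (LaurentSeries.powerSeriesPart_eq_zero E).mp hP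

theorem IsExp.series_unique {α : Type*} {u : α → ℂ} {r : ℝ} (hr : 0 < r)
    (hsurj : ∀ z : ℂ, z ≠ 0 → ‖z‖ < r → ∃ x, u x = z) {f : α → ℂ} {E E' : LaurentSeries ℂ}
    (h : IsExp u f E) (h' : IsExp u f E') : E = E' := by
  have hsub := h.sub h'
  rw [sub_self] at hsub
  exact sub_eq_zero.mp (hsub.series_eq_zero hr hsurj)

/-! ### Substitutions -/

theorem IsExp.qExpand {α : Type*} {u v : α → ℂ} (M : ℕ) [NeZero M]
    (huv : ∀ x, v x ^ M = u x) {f : α → ℂ} {E : LaurentSeries ℂ} (h : IsExp u f E) :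
    IsExp v f (ModularCurve.qExpand ℂ M E) := fun x => by
  have hM : (M : ℤ) ≠ 0 := by exact_mod_cast NeZero.ne M
  have hi : Function.Injective (fun n : ℤ => (M : ℤ) * n) := mul_right_injective₀ hM
  rw [← hi.hasSum_iff]
  · have hfun : ((fun n : ℤ => (ModularCurve.qExpand ℂ M E).coeff n * v x ^ n)
        ∘ fun n : ℤ => (M : ℤ) * n) = fun n : ℤ => E.coeff n * u x ^ n := by
      funext n
      simp only [Function.comp_apply]
      rw [ModularCurve.qExpand_coeff_mul, zpow_mul, zpow_natCast, huv]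
    rw [hfun]
    exact h x
  · intro n hn
    have hnd : ¬ (M : ℤ) ∣ n := fun ⟨m, hm⟩ => hn ⟨m, hm.symm⟩
    rw [ModularCurve.qExpand_coeff_of_not_dvd M E hnd, zero_mul]

theorem IsExp.twist {α : Type*} {u v : α → ℂ} (ζ : ℂˣ) (huv : ∀ x, u x = (ζ : ℂ) * v x)
    {f : α → ℂ} {E : LaurentSeries ℂ} (h : IsExp u f E) :
    IsExp v f (helper864.twist ζ E) := fun x => by
  have hfun : (fun n : ℤ => (helper864.twist ζ E).coeff n * v x ^ n)
      = fun n : ℤ => E.coeff n * u x ^ n := by
    funext n
    rw [helper864.twist_coeff, huv, mul_zpow]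
    push_cast
    ring
  rw [hfun]
  exact h x

end

end Fermat.Agent.S24.helper6324
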