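import Mathlib
import Fermat.Agent.S24.helper24_Spec
import Fermat.Agent.S24.helper3176_FieldAlg
import Fermat.Agent.S24.helper288_Hermite
import Fermat.Agent.S24.helper6324_Dict

/-!
# S24 (helper6324): the analytic evaluation `ev : AN N →+* (ℍ → ℂ)`

`AN N = ℚ̄[j(q^d) : d ∣ N]` (helper3176).  For `a ∈ AN N` the formal series `Φ a ∈ ℂ((q))`
(coefficients embedded via a fixed `i0 : ℚ̄ →+* ℂ`) converges for every `τ ∈ ℍ`
(`q = exp(2πiτ)`), and `ev a τ` is its sum.  `ev` is an injective ring hom with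
`ev (j(q^d)) = (τ ↦ J(dτ))`, `ev c = i0 c`.
-/

set_option autoImplicit false

open UpperHalfPlane ModularCurve CongruenceSubgroup
open scoped MatrixGroups

namespace Fermat.Agent.S24.helper6324

noncomputable section

open Fermat.Agent.S24.helper24 Fermat.Agent.S24.helper3176

local notation "𝕢" => Function.Periodic.qParam

/-! ### The charts `q^(1/M)` -/

/-- The coordinate `exp(2πiτ/M)` on the upper half plane. -/
def qc (M : ℕ) (τ : ℍ) : ℂ := 𝕢 (M : ℝ) (τ : ℂ)

theorem qc_ne_zero (M : ℕ) (τ : ℍ) : qc M τ ≠ 0 := Function.Periodic.qParam_ne_zero _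

theorem qc_surj (M : ℕ) [NeZero M] :
    ∀ z : ℂ, z ≠ 0 → ‖z‖ < 1 → ∃ τ : ℍ, qc M τ = z := by
  intro z hz hz1
  have hM : (0 : ℝ) < M := by exact_mod_cast NeZero.pos M
  have him : 0 < (Function.Periodic.invQParam (M : ℝ) z).im := by
    rw [Function.Periodic.im_invQParam]
    have hlog : Real.log ‖z‖ < 0 := Real.log_neg (norm_pos_iff.mpr hz) hz1
    have hneg : -(M : ℝ) / (2 * Real.pi) < 0 :=
      div_neg_of_neg_of_pos (by linarith) (by positivity)
    exact mul_pos_of_neg_of_neg hneg hlog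
  exact ⟨⟨_, him⟩, Function.Periodic.qParam_right_inv hM.ne' hz⟩

theorem qc_pow (M : ℕ) [NeZero M] (τ : ℍ) : qc M τ ^ M = qc 1 τ := by
  have hM : (M : ℂ) ≠ 0 := by exact_mod_cast NeZero.ne M
  rw [qc, qc, Function.Periodic.qParam, Function.Periodic.qParam, ← Complex.exp_nat_mul]
  congr 1
  push_cast
  field_simp

theorem coe_ofComplex_natCast_mul (d : ℕ) [NeZero d] (τ : ℍ) :
    ((ofComplex ((d : ℂ) * (τ : ℂ)) : ℍ) : ℂ) = (d : ℂ) * (τ : ℂ) := by
  have hd : (0 : ℝ) < d := by exact_mod_cast NeZero.pos d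
  have him : 0 < ((d : ℂ) * (τ : ℂ)).im := by
    have : ((d : ℂ) * (τ : ℂ)).im = d * τ.im := by simp
    rw [this]
    exact mul_pos hd τ.im_pos
  rw [UpperHalfPlane.ofComplex_apply_of_im_pos him]

theorem qc_one_ofComplex_mul (d : ℕ) [NeZero d] (τ : ℍ) :
    qc 1 (ofComplex ((d : ℂ) * (τ : ℂ))) = qc 1 τ ^ d := by
  rw [qc, qc, coe_ofComplex_natCast_mul, Function.Periodic.qParam, Function.Periodic.qParam,
    ← Complex.exp_nat_mul]
  congr 1
  push_cast
  ring

/-! ### The embedding of the coefficients and of the formal series -/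

/-- A fixed embedding `ℚ̄ → ℂ`. -/
def i0 : Kbar →+* ℂ :=
  haveI : Algebra.IsAlgebraic ℚ Kbar := AlgebraicClosure.isAlgebraic ℚ
  ((IsAlgClosed.lift : Kbar →ₐ[ℚ] ℂ) : Kbar →+* ℂ)

theorem i0_injective : Function.Injective i0 := i0.injective

theorem coeffMap_injective {R S : Type*} [CommRing R] [CommRing S] (f : R →+* S)
    (hf : Function.Injective f) : Function.Injective (coeffMap f) := by
  intro x y h
  ext k
  apply hf
  have := congrArg (fun z : LaurentSeries S => z.coeff k) h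
  simpa using this

/-- The formal series with complex coefficients attached to an element of the function field. -/
def Phi (N : ℕ) : FN N →+* LaurentSeries ℂ :=
  (coeffMap i0).comp (algebraMap (FN N) (LaurentSeries Kbar))

theorem Phi_apply (N : ℕ) (a : FN N) : Phi N a = coeffMap i0 (a : LaurentSeries Kbar) := rfl

theorem Phi_injective (N : ℕ) : Function.Injective (Phi N) :=
  (coeffMap_injective i0 i0_injective).comp (algebraMap (FN N) (LaurentSeries Kbar)).injective

theorem Phi_algebraMap (N : ℕ) (c : Kbar) :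
    Phi N (algebraMap Kbar (FN N) c) = HahnSeries.C (i0 c) := by
  rw [Phi_apply]
  have h : ((algebraMap Kbar (FN N) c : FN N) : LaurentSeries Kbar)
      = algebraMap Kbar (LaurentSeries Kbar) c := rfl
  rw [h, algebraMap_laurentSeries_eq_single, coeffMap_single, HahnSeries.C_apply]

/-- The formal `j` with complex coefficients. -/
def jC : LaurentSeries ℂ := coeffMap (algebraMap ℚ ℂ) jq

theorem Phi_jBarD (N d : ℕ) [NeZero d] (hd : d ∣ N) :
    Phi N (jBarD N d hd) = qExpand ℂ d jC := by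
  rw [Phi_apply, coe_jBarD, jSeries, coeffEmb, coeffMap_coeffMap, coeffMap_qExpand, jC]
  congr 1
  exact coeffMap_congr (Subsingleton.elim _ _) _

theorem Phi_jBar (N : ℕ) : Phi N (jBar N) = jC := by
  have h := Phi_jBarD N 1 (one_dvd N)
  rw [qExpand_one_apply] at h
  exact h

/-! ### The analytic `j` and its multiples -/

theorem isExp_jFun : IsExp (qc 1) helper1644.jFun jC := fun τ => by
  have h := helper1644.hasSum_jq τ
  have hfun : (fun n : ℤ => jC.coeff n * qc 1 τ ^ n)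
      = fun k : ℤ => ((ModularCurve.jq.coeff k : ℚ) : ℂ) * (𝕢 1 (τ : ℂ)) ^ k := by
    funext n
    simp [jC, qc]
  rw [hfun]
  exact h

/-- The function `τ ↦ J(dτ)`. -/
def Jd (d : ℕ) (τ : ℍ) : ℂ := helper1644.jFun (ofComplex ((d : ℂ) * (τ : ℂ)))

theorem isExp_Jd (d : ℕ) [NeZero d] : IsExp (qc 1) (Jd d) (qExpand ℂ d jC) := by
  have h1 : IsExp (fun τ : ℍ => qc 1 (ofComplex ((d : ℂ) * (τ : ℂ)))) (Jd d) jC :=
    isExp_jFun.comp fun τ : ℍ => ofComplex ((d : ℂ) * (τ : ℂ))
  exact h1.qExpand d fun τ => (qc_one_ofComplex_mul d τ).symm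

/-! ### Summation of a formal series -/

/-- The sum of a Laurent series at `q = exp(2πiτ)` (junk if it does not converge). -/
def sumFun (E : LaurentSeries ℂ) (τ : ℍ) : ℂ := ∑' n : ℤ, E.coeff n * qc 1 τ ^ n

/-- The Laurent series converges at `q = exp(2πiτ)` for every `τ ∈ ℍ`. -/
def Conv (E : LaurentSeries ℂ) : Prop := ∃ f : ℍ → ℂ, IsExp (qc 1) f E

theorem Conv.isExp {E : LaurentSeries ℂ} (h : Conv E) : IsExp (qc 1) (sumFun E) E := by
  obtain ⟨f, hf⟩ := h
  intro τ
  rw [sumFun, (hf τ).tsum_eq]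
  exact hf τ

theorem sumFun_eq {E : LaurentSeries ℂ} {f : ℍ → ℂ} (h : IsExp (qc 1) f E) : sumFun E = f :=
  (Conv.isExp ⟨f, h⟩).fun_eq h

theorem conv_Phi (N : ℕ) (a : AN N) : Conv (Phi N (a : FN N)) := by
  obtain ⟨a, ha⟩ := a
  show Conv (Phi N a)
  unfold AN at ha
  induction ha using Algebra.adjoin_induction with
  | mem x hx =>
      obtain ⟨d, hd0, hd, rfl⟩ := hx
      rw [Phi_jBarD]
      exact ⟨_, isExp_Jd d⟩
  | algebraMap c =>
      rw [Phi_algebraMap]
      exact ⟨_, IsExp.const _ _⟩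
  | add x y _ _ hx hy =>
      obtain ⟨f, hf⟩ := hx
      obtain ⟨g, hg⟩ := hy
      rw [map_add]
      exact ⟨_, hf.add hg⟩
  | mul x y _ _ hx hy =>
      obtain ⟨f, hf⟩ := hx
      obtain ⟨g, hg⟩ := hy
      rw [map_mul]
      exact ⟨_, hf.mul (qc_ne_zero 1) hg⟩

/-- The analytic evaluation of the elements of `AN N`. -/
def ev (N : ℕ) : AN N →+* (ℍ → ℂ) where
  toFun a := sumFun (Phi N (a : FN N))
  map_one' := by
    show sumFun (Phi N ((1 : AN N) : FN N)) = 1
    have h1 : Phi N ((1 : AN N) : FN N) = HahnSeries.C 1 := by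
      rw [show ((1 : AN N) : FN N) = 1 from rfl, map_one, map_one]
    rw [h1]
    exact sumFun_eq (IsExp.const _ 1)
  map_mul' a b := by
    show sumFun (Phi N ((a * b : AN N) : FN N)) = sumFun (Phi N a) * sumFun (Phi N b)
    rw [show ((a * b : AN N) : FN N) = (a : FN N) * (b : FN N) from rfl, map_mul]
    exact sumFun_eq (((conv_Phi N a).isExp).mul (qc_ne_zero 1) (conv_Phi N b).isExp)
  map_zero' := by
    show sumFun (Phi N ((0 : AN N) : FN N)) = 0
    rw [show ((0 : AN N) : FN N) = 0 from rfl, map_zero]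
    exact sumFun_eq (IsExp.zero _)
  map_add' a b := by
    show sumFun (Phi N ((a + b : AN N) : FN N)) = sumFun (Phi N a) + sumFun (Phi N b)
    rw [show ((a + b : AN N) : FN N) = (a : FN N) + (b : FN N) from rfl, map_add]
    exact sumFun_eq (((conv_Phi N a).isExp).add (conv_Phi N b).isExp)

theorem isExp_ev (N : ℕ) (a : AN N) : IsExp (qc 1) (ev N a) (Phi N (a : FN N)) :=
  (conv_Phi N a).isExp

theorem ev_eq_of_isExp (N : ℕ) (a : AN N) {f : ℍ → ℂ} (h : IsExp (qc 1) f (Phi N (a : FN N))) :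
    ev N a = f :=
  sumFun_eq h

theorem ev_algebraMap (N : ℕ) (c : Kbar) : ev N (algebraMap Kbar (AN N) c) = fun _ => i0 c := by
  apply ev_eq_of_isExp
  have h : ((algebraMap Kbar (AN N) c : AN N) : FN N) = algebraMap Kbar (FN N) c := rfl
  rw [h, Phi_algebraMap]
  exact IsExp.const _ _

theorem ev_jBarD (N d : ℕ) [NeZero d] (hd : d ∣ N) :
    ev N ⟨jBarD N d hd, jBarD_mem_AN N d hd⟩ = Jd d := by
  apply ev_eq_of_isExp
  show IsExp (qc 1) (Jd d) (Phi N (jBarD N d hd))
  rw [Phi_jBarD]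
  exact isExp_Jd d

theorem ev_injective (N : ℕ) : Function.Injective (ev N) := by
  rw [injective_iff_map_eq_zero]
  intro a ha
  have h := isExp_ev N a
  rw [ha] at h
  have h0 : Phi N (a : FN N) = 0 := h.series_eq_zero one_pos (qc_surj 1)
  have h1 : (a : FN N) = 0 := by
    apply Phi_injective N
    rw [h0, map_zero]
  exact Subtype.ext h1

/-- Induction principle: a property of functions on `ℍ` which holds for constants and the
`τ ↦ J(dτ)`, `d ∣ N`, and is stable under sums and products, holds for all `ev a`. -/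
theorem ev_induction (N : ℕ) (P : (ℍ → ℂ) → Prop) (hconst : ∀ c : ℂ, P fun _ => c)
    (hgen : ∀ (d : ℕ) [NeZero d], d ∣ N → P (Jd d))
    (hadd : ∀ f g, P f → P g → P (f + g)) (hmul : ∀ f g, P f → P g → P (f * g)) (a : AN N) :
    P (ev N a) := by
  obtain ⟨a, ha⟩ := a
  unfold AN at ha
  induction ha using Algebra.adjoin_induction with
  | mem x hx =>
      obtain ⟨d, hd0, hd, rfl⟩ := hx
      have h := ev_jBarD N d hd
      have h2 : (⟨jBarD N d hd, Algebra.subset_adjoin ⟨d, hd0, hd, rfl⟩⟩ : AN N)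
          = ⟨jBarD N d hd, jBarD_mem_AN N d hd⟩ := rfl
      rw [h2, h]
      exact hgen d hd
  | algebraMap c =>
      have h := ev_algebraMap N c
      have h2 : (⟨algebraMap Kbar (FN N) c, (Algebra.adjoin Kbar (genSetF N)).algebraMap_mem c⟩
          : AN N) = algebraMap Kbar (AN N) c := rfl
      rw [h2, h]
      exact hconst _
  | add x y hx hy hPx hPy =>
      have h2 : (⟨x + y, add_mem hx hy⟩ : AN N) = ⟨x, hx⟩ + ⟨y, hy⟩ := rfl
      rw [h2, map_add]
      exact hadd _ _ hPx hPy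
  | mul x y hx hy hPx hPy =>
      have h2 : (⟨x * y, mul_mem hx hy⟩ : AN N) = ⟨x, hx⟩ * ⟨y, hy⟩ := rfl
      rw [h2, map_mul]
      exact hmul _ _ hPx hPy

/-! ### Holomorphy, `Γ₀(N)`-invariance, separation -/

open scoped Manifold

theorem Jd_one : Jd 1 = helper1644.jFun := by
  funext τ
  simp [Jd]

theorem ev_jBar (N : ℕ) : ev N ⟨jBar N, jBar_mem_AN N⟩ = helper1644.jFun := by
  have h := ev_jBarD N 1 (one_dvd N)
  rw [Jd_one] at h
  exact h

theorem mdiff_Jd (d : ℕ) [NeZero d] : MDiff (Jd d) := by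
  rw [UpperHalfPlane.mdifferentiable_iff]
  have h := helper1644.differentiableOn_jFun_comp_ofComplex
  have hmap : Set.MapsTo (fun z : ℂ => (d : ℂ) * z) {z : ℂ | 0 < z.im} {z : ℂ | 0 < z.im} := by
    intro z hz
    have hd : (0 : ℝ) < d := by exact_mod_cast NeZero.pos d
    show 0 < ((d : ℂ) * z).im
    have him : ((d : ℂ) * z).im = d * z.im := by simp
    rw [him]
    exact mul_pos hd hz
  have h2 : DifferentiableOn ℂ ((helper1644.jFun ∘ ofComplex) ∘ fun z : ℂ => (d : ℂ) * z)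
      {z : ℂ | 0 < z.im} :=
    h.comp (differentiable_id.const_mul (d : ℂ)).differentiableOn hmap
  refine h2.congr fun z hz => ?_
  have hz' : 0 < z.im := hz
  simp only [Function.comp_apply, Jd]
  rw [UpperHalfPlane.ofComplex_apply_of_im_pos hz']

theorem mdiff_ev (N : ℕ) (a : AN N) : MDiff (ev N a) :=
  ev_induction N (fun f => MDiff f) (fun _ => mdifferentiable_const)
    (fun d _ _ => mdiff_Jd d) (fun _ _ hf hg => hf.add hg) (fun _ _ hf hg => hf.mul hg) a

theorem Jd_smul_of_mem_Gamma0 (N d : ℕ) [NeZero d] (hd : d ∣ N) {γ : SL(2, ℤ)}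
    (hγ : γ ∈ Gamma0 N) (τ : ℍ) : Jd d (γ • τ) = Jd d τ :=
  helper288.jFn_mul_smul_of_mem_Gamma0 N d (NeZero.pos d) hd γ hγ τ

/-- `ev a` is invariant under `Γ₀(N)`. -/
theorem ev_smul_of_mem_Gamma0 (N : ℕ) (a : AN N) {γ : SL(2, ℤ)} (hγ : γ ∈ Gamma0 N) (τ : ℍ) :
    ev N a (γ • τ) = ev N a τ := by
  revert τ
  refine ev_induction N (fun f => ∀ τ, f (γ • τ) = f τ) (fun _ _ => rfl)
    (fun d _ hd τ => Jd_smul_of_mem_Gamma0 N d hd hγ τ) ?_ ?_ a
  · intro f g hf hg τ
    rw [Pi.add_apply, Pi.add_apply, hf, hg]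
  · intro f g hf hg τ
    rw [Pi.mul_apply, Pi.mul_apply, hf, hg]

/-- Separation of cosets: the functions `ev a ∘ g` determine the coset of `g`. -/
theorem mul_inv_mem_Gamma0_of_ev_smul (N : ℕ) [NeZero N] (g g' : SL(2, ℤ))
    (h : ∀ (a : AN N) (τ : ℍ), ev N a (g • τ) = ev N a (g' • τ)) : g * g'⁻¹ ∈ Gamma0 N := by
  refine helper288.mul_inv_mem_Gamma0_of_jFn_eq N g g' fun τ => ?_
  have h1 := h ⟨jBarD N N dvd_rfl, jBarD_mem_AN N N dvd_rfl⟩ τ
  rw [ev_jBarD] at h1
  exact h1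

theorem mem_Gamma0_of_ev_smul (N : ℕ) [NeZero N] (g : SL(2, ℤ))
    (h : ∀ (a : AN N) (τ : ℍ), ev N a (g • τ) = ev N a τ) : g ∈ Gamma0 N := by
  have h1 := mul_inv_mem_Gamma0_of_ev_smul N g 1 fun a τ => by rw [h a τ, one_smul]
  simpa using h1

end

end Fermat.Agent.S24.helper6324
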