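import Mathlib
import Fermat.Agent.S24.helper6324_Ev
import Fermat.Agent.S24.helper864_LocalDatum

/-!
# S24 (helper6324): the local datum at the cusp (`Stmt_LocalInf`)

For `g ∈ SL(2, ℤ)` and `a ∈ AN N` the function `τ ↦ ev a (g • τ)` has an everywhere convergent
Laurent expansion in `t = exp(2πiτ/N)` (Hermite form of `diag(d,1) * g`, helper288).  This gives
injective ring homs `cuspHom N g : AN N →+* ℂ((t))`, depending only on the coset `Γ₀(N) g`,
with `cuspHom N (g * T) = twist ζ_N ∘ cuspHom N g`.  Extending to the fraction field `FN N` and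
indexing by `x = g Γ₀(N) ↦ cuspHom N g⁻¹` we obtain the hypotheses of
`helper864.localDatum_of_twist`, hence `Stmt_LocalInf`.
-/

set_option autoImplicit false

open UpperHalfPlane ModularCurve CongruenceSubgroup
open scoped MatrixGroups

namespace Fermat.Agent.S24.helper6324

noncomputable section

open Fermat.Agent.S24.helper24 Fermat.Agent.S24.helper3176

local notation "𝕢" => Function.Periodic.qParam

/-! ### Expansions of the conjugates at the cusp -/

theorem exists_isExp_Jd_smul (N d : ℕ) [NeZero N] [NeZero d] (hd : d ∣ N) (g : SL(2, ℤ)) :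
    ∃ E : LaurentSeries ℂ, IsExp (qc N) (fun τ => Jd d (g • τ)) E := by
  obtain ⟨a, b, e, ha, he, hae, -, -, hJ⟩ := helper288.exists_jFn_mul_smul g d (NeZero.pos d)
  -- `e ∣ N`
  have hed : (e : ℤ) ∣ (N : ℤ) := by
    have h1 : (e : ℤ) ∣ (d : ℤ) := ⟨a, by rw [← hae, mul_comm]⟩
    exact h1.trans (Int.natCast_dvd_natCast.mpr hd)
  obtain ⟨k', hk'⟩ := hed
  have hNpos : (0 : ℤ) < N := by exact_mod_cast NeZero.pos N
  have hk'pos : 0 < k' := by
    by_contra hcon
    have hle : k' ≤ 0 := not_lt.mp hcon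
    have : e * k' ≤ 0 := mul_nonpos_of_nonneg_of_nonpos he.le hle
    omega
  obtain ⟨k, rfl⟩ : ∃ k : ℕ, k' = (k : ℤ) := ⟨k'.toNat, (Int.toNat_of_nonneg hk'pos.le).symm⟩
  have hkpos : 0 < k := by exact_mod_cast hk'pos
  have hq := helper288.qParam_affinePt a b e ha he N k (NeZero.pos N) hk'.symm
  -- the expansion of `J((a τ + b)/e)` in `q((a τ + b)/e)`
  have h1 : IsExp (fun τ : ℍ => qc 1 (helper288.affinePt a b e ha he τ))
      (fun τ : ℍ => helper1644.jFun (helper288.affinePt a b e ha he τ)) jC :=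
    isExp_jFun.comp fun τ : ℍ => helper288.affinePt a b e ha he τ
  let ω : ℂˣ := Units.mk0 (Complex.exp (2 * Real.pi * Complex.I * b / e)) (Complex.exp_ne_zero _)
  have hM : NeZero (a.toNat * k) := ⟨Nat.mul_ne_zero (by omega) hkpos.ne'⟩
  have h2 : IsExp (fun τ : ℍ => qc N τ ^ (a.toNat * k))
      (fun τ : ℍ => helper1644.jFun (helper288.affinePt a b e ha he τ)) (helper864.twist ω jC) := by
    refine h1.twist ω fun τ => ?_
    have := hq τ
    simpa [qc, ω] using this
  have h3 : IsExp (qc N) (fun τ : ℍ => helper1644.jFun (helper288.affinePt a b e ha he τ))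
      (qExpand ℂ (a.toNat * k) (helper864.twist ω jC)) :=
    h2.qExpand (a.toNat * k) fun τ => rfl
  exact ⟨_, h3.congr fun τ => (hJ τ).symm⟩

theorem exists_isExp_ev_smul (N : ℕ) [NeZero N] (a : AN N) (g : SL(2, ℤ)) :
    ∃ E : LaurentSeries ℂ, IsExp (qc N) (fun τ => ev N a (g • τ)) E := by
  refine ev_induction N (fun f => ∃ E : LaurentSeries ℂ, IsExp (qc N) (fun τ => f (g • τ)) E)
    (fun c => ⟨_, IsExp.const _ c⟩) (fun d _ hd => exists_isExp_Jd_smul N d hd g) ?_ ?_ a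
  · rintro f f' ⟨E, hE⟩ ⟨E', hE'⟩
    exact ⟨_, hE.add hE'⟩
  · rintro f f' ⟨E, hE⟩ ⟨E', hE'⟩
    exact ⟨_, hE.mul (qc_ne_zero N) hE'⟩

/-- The expansion of `ev a ∘ g` in `t = exp(2πiτ/N)`. -/
def cuspSer (N : ℕ) [NeZero N] (g : SL(2, ℤ)) (a : AN N) : LaurentSeries ℂ :=
  (exists_isExp_ev_smul N a g).choose

theorem isExp_cuspSer (N : ℕ) [NeZero N] (g : SL(2, ℤ)) (a : AN N) :
    IsExp (qc N) (fun τ => ev N a (g • τ)) (cuspSer N g a) :=
  (exists_isExp_ev_smul N a g).choose_spec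

theorem cuspSer_eq (N : ℕ) [NeZero N] (g : SL(2, ℤ)) (a : AN N) {E : LaurentSeries ℂ}
    (h : IsExp (qc N) (fun τ => ev N a (g • τ)) E) : cuspSer N g a = E :=
  (isExp_cuspSer N g a).series_unique one_pos (qc_surj N) h

/-- The expansion at the cusp, as a ring hom. -/
def cuspHom (N : ℕ) [NeZero N] (g : SL(2, ℤ)) : AN N →+* LaurentSeries ℂ where
  toFun := cuspSer N g
  map_one' := by
    apply cuspSer_eq
    have h := IsExp.const (qc N) 1
    rw [map_one] at h
    exact h.congr fun τ => by rw [map_one]; rfl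
  map_mul' a b := by
    apply cuspSer_eq
    exact ((isExp_cuspSer N g a).mul (qc_ne_zero N) (isExp_cuspSer N g b)).congr fun τ => by
      rw [map_mul]; rfl
  map_zero' := by
    apply cuspSer_eq
    exact (IsExp.zero (qc N)).congr fun τ => by rw [map_zero]; rfl
  map_add' a b := by
    apply cuspSer_eq
    exact ((isExp_cuspSer N g a).add (isExp_cuspSer N g b)).congr fun τ => by
      rw [map_add]; rfl

theorem cuspHom_apply (N : ℕ) [NeZero N] (g : SL(2, ℤ)) (a : AN N) :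
    cuspHom N g a = cuspSer N g a := rfl

theorem isExp_cuspHom (N : ℕ) [NeZero N] (g : SL(2, ℤ)) (a : AN N) :
    IsExp (qc N) (fun τ => ev N a (g • τ)) (cuspHom N g a) :=
  isExp_cuspSer N g a

theorem cuspHom_algebraMap (N : ℕ) [NeZero N] (g : SL(2, ℤ)) (c : Kbar) :
    cuspHom N g (algebraMap Kbar (AN N) c) = HahnSeries.C (i0 c) := by
  apply cuspSer_eq
  rw [ev_algebraMap]
  exact IsExp.const _ _

theorem cuspHom_injective (N : ℕ) [NeZero N] (g : SL(2, ℤ)) :
    Function.Injective (cuspHom N g) := by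
  rw [injective_iff_map_eq_zero]
  intro a ha
  have h := isExp_cuspHom N g a
  rw [ha] at h
  have hfun := h.fun_eq (IsExp.zero (qc N))
  apply ev_injective N
  rw [map_zero]
  funext τ
  have := congrFun hfun (g⁻¹ • τ)
  simpa using this

theorem cuspHom_eq_of_ev_eq (N : ℕ) [NeZero N] (g g' : SL(2, ℤ))
    (h : ∀ (a : AN N) (τ : ℍ), ev N a (g • τ) = ev N a (g' • τ)) : cuspHom N g = cuspHom N g' := by
  ext1 a
  apply cuspSer_eq
  exact (isExp_cuspHom N g' a).congr fun τ => (h a τ).symm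

/-- `cuspHom N g` depends only on the coset `Γ₀(N) g`. -/
theorem cuspHom_mul_of_mem_Gamma0 (N : ℕ) [NeZero N] (g : SL(2, ℤ)) {γ : SL(2, ℤ)}
    (hγ : γ ∈ Gamma0 N) : cuspHom N (γ * g) = cuspHom N g :=
  cuspHom_eq_of_ev_eq N _ _ fun a τ => by rw [mul_smul, ev_smul_of_mem_Gamma0 N a hγ]

/-- The `N`-th root of unity `exp(2πi/N)`. -/
def zetaN (N : ℕ) : ℂˣ :=
  Units.mk0 (Complex.exp (2 * Real.pi * Complex.I / N)) (Complex.exp_ne_zero _)

theorem isPrimitiveRoot_zetaN (N : ℕ) [NeZero N] : IsPrimitiveRoot (zetaN N) N :=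
  IsPrimitiveRoot.coe_units_iff.mp (Complex.isPrimitiveRoot_exp N (NeZero.ne N))

theorem qc_T_smul (N : ℕ) [NeZero N] (τ : ℍ) :
    qc N (ModularGroup.T • τ) = (zetaN N : ℂ) * qc N τ := by
  rw [qc, qc, UpperHalfPlane.modular_T_smul, UpperHalfPlane.coe_vadd, Function.Periodic.qParam,
    Function.Periodic.qParam]
  show _ = Complex.exp (2 * Real.pi * Complex.I / N) * _
  rw [← Complex.exp_add]
  congr 1
  push_cast
  ring

/-- Translation by `T` twists the expansion. -/
theorem cuspHom_mul_T (N : ℕ) [NeZero N] (g : SL(2, ℤ)) (a : AN N) :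
    cuspHom N (g * ModularGroup.T) a = helper864.twist (zetaN N) (cuspHom N g a) := by
  apply cuspSer_eq
  have h1 : IsExp (fun τ : ℍ => qc N (ModularGroup.T • τ))
      (fun τ : ℍ => ev N a (g • (ModularGroup.T • τ))) (cuspHom N g a) :=
    (isExp_cuspHom N g a).comp fun τ : ℍ => ModularGroup.T • τ
  have h2 := h1.twist (zetaN N) (v := qc N) fun τ => qc_T_smul N τ
  exact h2.congr fun τ => by rw [mul_smul]

theorem isExp_jFun_qcN (N : ℕ) [NeZero N] : IsExp (qc N) helper1644.jFun (qExpand ℂ N jC) :=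
  isExp_jFun.qExpand N fun τ => qc_pow N τ

theorem cuspHom_jBar (N : ℕ) [NeZero N] (g : SL(2, ℤ)) :
    cuspHom N g ⟨jBar N, jBar_mem_AN N⟩ = qExpand ℂ N jC := by
  apply cuspSer_eq
  rw [ev_jBar]
  exact (isExp_jFun_qcN N).congr fun τ => (helper1644.jFun_smul g τ).symm

/-! ### The series `j(t^N)` -/

theorem coeff_jC (k : ℤ) : jC.coeff k = ((jq.coeff k : ℚ) : ℂ) := by
  simp [jC]

theorem coeff_qExpand_jC_neg (N : ℕ) [NeZero N] : (qExpand ℂ N jC).coeff (-(N : ℤ)) = 1 := by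
  have h : (-(N : ℤ)) = (N : ℤ) * (-1) := by ring
  rw [h, qExpand_coeff_mul, coeff_jC, coeff_jq_neg_one]
  simp

theorem coeff_qExpand_jC_of_lt (N : ℕ) [NeZero N] {n : ℤ} (hn : n < -(N : ℤ)) :
    (qExpand ℂ N jC).coeff n = 0 := by
  by_cases hdvd : (N : ℤ) ∣ n
  · obtain ⟨k, rfl⟩ := hdvd
    have hN : (0 : ℤ) < N := by exact_mod_cast NeZero.pos N
    have hk : k < -1 := by
      by_contra hcon
      have hk' : -1 ≤ k := not_lt.mp hcon
      nlinarith
    rw [qExpand_coeff_mul, coeff_jC, coeff_jq_of_lt hk]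
    simp
  · exact qExpand_coeff_of_not_dvd N jC hdvd

theorem qExpand_jC_ne_zero (N : ℕ) [NeZero N] : qExpand ℂ N jC ≠ 0 := by
  intro h
  have := coeff_qExpand_jC_neg N
  rw [h] at this
  simp at this

theorem order_qExpand_jC (N : ℕ) [NeZero N] : (qExpand ℂ N jC).order = -(N : ℤ) := by
  apply le_antisymm
  · apply HahnSeries.order_le_of_coeff_ne_zero
    rw [coeff_qExpand_jC_neg]
    exact one_ne_zero
  · by_contra hcon
    have hlt : (qExpand ℂ N jC).order < -(N : ℤ) := not_le.mp hcon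
    exact HahnSeries.coeff_order_eq_zero.not.2 (qExpand_jC_ne_zero N)
      (coeff_qExpand_jC_of_lt N hlt)

theorem order_inv_qExpand_jC (N : ℕ) [NeZero N] : ((qExpand ℂ N jC)⁻¹).order = (N : ℤ) := by
  have hne := qExpand_jC_ne_zero N
  have hne' : (qExpand ℂ N jC)⁻¹ ≠ 0 := inv_ne_zero hne
  have hmul : (qExpand ℂ N jC * (qExpand ℂ N jC)⁻¹).order
      = (qExpand ℂ N jC).order + ((qExpand ℂ N jC)⁻¹).order :=
    HahnSeries.order_mul_of_ne_zero
      (mul_ne_zero (HahnSeries.leadingCoeff_ne_zero.mpr hne)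
        (HahnSeries.leadingCoeff_ne_zero.mpr hne'))
  rw [mul_inv_cancel₀ hne, HahnSeries.order_one, order_qExpand_jC] at hmul
  omega

/-! ### The family indexed by the cosets and the local datum -/

/-- The cusp expansion attached to a coset `x = g Γ₀(N)`: the expansion of `ev a ∘ g⁻¹`. -/
def cuspEmbA (N : ℕ) [NeZero N] (x : XN N) : AN N →+* LaurentSeries ℂ :=
  cuspHom N (x.out)⁻¹

theorem cuspEmbA_mk (N : ℕ) [NeZero N] (g : SL(2, ℤ)) :
    cuspEmbA N (QuotientGroup.mk g : XN N) = cuspHom N g⁻¹ := by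
  obtain ⟨γ, hγ⟩ := QuotientGroup.mk_out_eq_mul (Gamma0 N) g
  rw [cuspEmbA, hγ, mul_inv_rev]
  exact cuspHom_mul_of_mem_Gamma0 N g⁻¹ (inv_mem γ.2)

/-- The cusp expansion on the whole function field. -/
def cuspEmb (N : ℕ) [NeZero N] (x : XN N) : FN N →+* LaurentSeries ℂ :=
  IsFractionRing.lift (cuspHom_injective N (x.out)⁻¹)

theorem cuspEmb_coe (N : ℕ) [NeZero N] (x : XN N) (a : AN N) :
    cuspEmb N x (a : FN N) = cuspEmbA N x a :=
  IsFractionRing.lift_algebraMap (cuspHom_injective N (x.out)⁻¹) a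

theorem cuspEmb_algebraMap (N : ℕ) [NeZero N] (x : XN N) (c : Kbar) :
    cuspEmb N x (algebraMap Kbar (FN N) c) = HahnSeries.C (i0 c) := by
  have h : algebraMap Kbar (FN N) c = ((algebraMap Kbar (AN N) c : AN N) : FN N) := rfl
  rw [h, cuspEmb_coe, cuspEmbA, cuspHom_algebraMap]

theorem cuspEmb_injective (N : ℕ) [NeZero N] : Function.Injective (cuspEmb N) := by
  intro x y hxy
  have hA : ∀ a : AN N, cuspHom N (x.out)⁻¹ a = cuspHom N (y.out)⁻¹ a := by
    intro a
    have := congrArg (fun φ : FN N →+* LaurentSeries ℂ => φ (a : FN N)) hxy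
    simpa only [cuspEmb_coe, cuspEmbA] using this
  have hmem : (x.out)⁻¹ * ((y.out)⁻¹)⁻¹ ∈ Gamma0 N := by
    refine mul_inv_mem_Gamma0_of_ev_smul N _ _ fun a τ => ?_
    have h1 := isExp_cuspHom N (x.out)⁻¹ a
    have h2 := isExp_cuspHom N (y.out)⁻¹ a
    rw [hA a] at h1
    exact congrFun (h1.fun_eq h2) τ
  rw [inv_inv] at hmem
  have : (QuotientGroup.mk x.out : XN N) = QuotientGroup.mk y.out := QuotientGroup.eq.mpr hmem
  rwa [QuotientGroup.out_eq', QuotientGroup.out_eq'] at this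

theorem cuspEmb_jBar (N : ℕ) [NeZero N] (x : XN N) : cuspEmb N x (jBar N) = qExpand ℂ N jC := by
  have h : jBar N = ((⟨jBar N, jBar_mem_AN N⟩ : AN N) : FN N) := rfl
  rw [h, cuspEmb_coe, cuspEmbA, cuspHom_jBar]

theorem twist_cuspEmb (N : ℕ) [NeZero N] (x : XN N) (f : FN N) :
    helper864.twist (zetaN N) (cuspEmb N x f) = cuspEmb N (ModularGroup.T⁻¹ • x) f := by
  have key : ((helper864.twist (zetaN N)).toRingHom.comp (cuspEmb N x))
      = cuspEmb N (ModularGroup.T⁻¹ • x) := by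
    apply ringHom_ext_of_AN
    intro a
    have hx : ModularGroup.T⁻¹ • x = (QuotientGroup.mk (ModularGroup.T⁻¹ * x.out) : XN N) := by
      conv_lhs => rw [← QuotientGroup.out_eq' x]
      rfl
    rw [RingHom.comp_apply, cuspEmb_coe, cuspEmb_coe, hx, cuspEmbA_mk, mul_inv_rev, inv_inv]
    exact (cuspHom_mul_T N (x.out)⁻¹ a).symm
  exact congrArg (fun φ : FN N →+* LaurentSeries ℂ => φ f) key

/-- **The local datum at the cusp.** -/
theorem stmt_LocalInf : Stmt_LocalInf := by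
  intro N _
  refine helper864.localDatum_of_twist N (jBar N)⁻¹ N (NeZero.pos N) ModularGroup.T i0 (zetaN N)
    (isPrimitiveRoot_zetaN N) (cuspEmb N) (cuspEmb_algebraMap N) (cuspEmb_injective N)
    (qExpand ℂ N jC)⁻¹ (fun i => ?_) (inv_ne_zero (qExpand_jC_ne_zero N)) (order_inv_qExpand_jC N)
    (Or.inr (twist_cuspEmb N))
  rw [map_inv₀, cuspEmb_jBar]

end

end Fermat.Agent.S24.helper6324
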