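import Mathlib

/-!
# Taylor expansion in the Cayley coordinate at a point of the upper half plane (helper633)

Tools for the finite-point local data of S24 (`LocalDatum` at `j = c`, `j = 1728`, `j = 0`):

* `taylor0 g`: the Taylor series at `0` of `g : ℂ → ℂ` as a formal power series; it is additive
  and multiplicative on functions analytic at `0`, vanishes iff the function vanishes near `0`,
  its order is the analytic order, and `g (c * u)` has Taylor series `rescale c`.
* `cay τ0 u = (τ0 - conj τ0 * u) / (1 - u)`: the inverse Cayley map centred at `τ0`.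
* `tayH τ0 f = taylor0 (f ∘ cay τ0)` for `f` on the upper half plane: additive, multiplicative,
  injective on holomorphic functions (identity theorem), order = `analyticOrderAt` at `τ0`, and
  pulling back by an element fixing `τ0` is a rescaling (`tayH_comp_smul`).
* `S` acts at `I` by `u ↦ -u`, `S * T` acts at `rhoPt` by `u ↦ lamRho * u` with `lamRho` a
  primitive cube root of unity.
* `twist lam`: the ring automorphism `t ↦ lam * t` of `LaurentSeries ℂ`; it preserves the order,
  is compatible with `PowerSeries.rescale`, and a nonzero series fixed by the `k`-th iterate of the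
  twist by a primitive `m`-th root of unity has order divisible by `m / gcd k m`.
-/

set_option autoImplicit false

open Complex UpperHalfPlane Filter Topology
open scoped MatrixGroups Manifold

namespace Fermat.Agent.S24.helper633

noncomputable section

/-! ## Taylor series at `0` as a formal power series -/

/-- The Taylor series at `0` of a function `ℂ → ℂ`, as a formal power series. -/
def taylor0 (g : ℂ → ℂ) : PowerSeries ℂ :=
  PowerSeries.mk fun m => (m.factorial : ℂ)⁻¹ * iteratedDeriv m g 0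

lemma coeff_taylor0 (g : ℂ → ℂ) (m : ℕ) :
    PowerSeries.coeff m (taylor0 g) = (m.factorial : ℂ)⁻¹ * iteratedDeriv m g 0 := by
  simp [taylor0]

lemma taylor0_congr {f g : ℂ → ℂ} (h : f =ᶠ[𝓝 0] g) : taylor0 f = taylor0 g := by
  ext m
  simp [coeff_taylor0, h.iteratedDeriv_eq m]

lemma taylor0_mul {f g : ℂ → ℂ} (hf : AnalyticAt ℂ f 0) (hg : AnalyticAt ℂ g 0) :
    taylor0 (f * g) = taylor0 f * taylor0 g := by
  ext n
  simp only [coeff_taylor0, iteratedDeriv_mul hf.contDiffAt hg.contDiffAt, Finset.mul_sum,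
    PowerSeries.coeff_mul, Finset.Nat.sum_antidiagonal_eq_sum_range_succ_mk, Nat.succ_eq_add_one]
  refine Finset.sum_congr rfl fun i hi ↦ ?_
  rw [Nat.cast_choose _ (by grind)]
  field_simp [Nat.factorial_ne_zero]

lemma taylor0_add {f g : ℂ → ℂ} (hf : AnalyticAt ℂ f 0) (hg : AnalyticAt ℂ g 0) :
    taylor0 (f + g) = taylor0 f + taylor0 g := by
  ext n
  simp [coeff_taylor0, iteratedDeriv_add hf.contDiffAt hg.contDiffAt, mul_add]

lemma taylor0_const (c : ℂ) : taylor0 (fun _ => c) = PowerSeries.C c := by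
  ext n
  rw [coeff_taylor0, iteratedDeriv_const, PowerSeries.coeff_C]
  rcases n with _ | n <;> simp

lemma taylor0_eq_zero_iff {f : ℂ → ℂ} (hf : AnalyticAt ℂ f 0) :
    taylor0 f = 0 ↔ analyticOrderAt f 0 = ⊤ := by
  constructor
  · intro h
    have h0 : ∀ n : ℕ, iteratedDeriv n f 0 = 0 := by
      intro n
      have := congrArg (PowerSeries.coeff n) h
      rw [coeff_taylor0] at this
      simpa [Nat.factorial_ne_zero] using this
    rw [ENat.eq_top_iff_forall_ge]
    intro n
    exact (natCast_le_analyticOrderAt_iff_iteratedDeriv_eq_zero hf).2 fun i _ => h0 i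
  · intro h
    rw [analyticOrderAt_eq_top] at h
    have : f =ᶠ[𝓝 0] fun _ => (0 : ℂ) := h
    rw [taylor0_congr this, taylor0_const]
    simp

lemma taylor0_order {f : ℂ → ℂ} (hf : AnalyticAt ℂ f 0) {n : ℕ}
    (h : analyticOrderAt f 0 = n) : (taylor0 f).order = n := by
  rw [analyticOrderAt_eq_nat_iff_iteratedDeriv_eq_zero hf] at h
  rw [PowerSeries.order_eq_nat]
  refine ⟨?_, fun i hi => ?_⟩
  · rw [coeff_taylor0]
    exact mul_ne_zero (inv_ne_zero (Nat.cast_ne_zero.2 (Nat.factorial_ne_zero n))) h.2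
  · rw [coeff_taylor0, h.1 i hi, mul_zero]

lemma iteratedDeriv_comp_mul_zero (n : ℕ) : ∀ {f : ℂ → ℂ}, AnalyticAt ℂ f 0 → ∀ c : ℂ,
    iteratedDeriv n (fun u => f (c * u)) 0 = c ^ n * iteratedDeriv n f 0 := by
  induction n with
  | zero => intro f _ c; simp
  | succ n ih =>
    intro f hf c
    rw [iteratedDeriv_succ', iteratedDeriv_succ']
    have hmul : Tendsto (fun u : ℂ => c * u) (𝓝 0) (𝓝 0) := by
      have : Continuous fun u : ℂ => c * u := by fun_prop
      simpa using this.tendsto 0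
    have hev : deriv (fun u => f (c * u)) =ᶠ[𝓝 0] fun u => c * deriv f (c * u) := by
      filter_upwards [hmul.eventually hf.eventually_analyticAt] with u hu
      have h1 : HasDerivAt f (deriv f (c * u)) (c * u) := hu.differentiableAt.hasDerivAt
      have h2 : HasDerivAt (fun u : ℂ => c * u) c u := by
        simpa using (hasDerivAt_id u).const_mul c
      have := HasDerivAt.comp u h1 h2
      rw [mul_comm] at this
      exact this.deriv
    rw [hev.iteratedDeriv_eq n]
    have han : AnalyticAt ℂ (fun u => deriv f (c * u)) 0 := by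
      have h1 : AnalyticAt ℂ (deriv f) (c * 0) := by simpa using hf.deriv
      have h2 : AnalyticAt ℂ (fun u : ℂ => c * u) 0 := by fun_prop
      exact h1.comp h2
    rw [iteratedDeriv_const_mul c han.contDiffAt, ih hf.deriv c]
    ring

lemma taylor0_comp_mul {f : ℂ → ℂ} (hf : AnalyticAt ℂ f 0) (c : ℂ) :
    taylor0 (fun u => f (c * u)) = PowerSeries.rescale c (taylor0 f) := by
  ext n
  rw [PowerSeries.coeff_rescale, coeff_taylor0, coeff_taylor0, iteratedDeriv_comp_mul_zero n hf c]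
  ring


/-! ## The Cayley coordinate at a point of the upper half plane -/

/-- The inverse Cayley map centred at `τ0`: `u ↦ (τ0 - conj τ0 * u) / (1 - u)`; it maps `0` to
`τ0` and is a local biholomorphism there. -/
def cay (τ0 : ℍ) (u : ℂ) : ℂ := ((τ0 : ℂ) - (starRingEnd ℂ) (τ0 : ℂ) * u) / (1 - u)

@[simp] lemma cay_zero (τ0 : ℍ) : cay τ0 0 = τ0 := by simp [cay]

lemma analyticAt_cay (τ0 : ℍ) : AnalyticAt ℂ (cay τ0) 0 := by
  unfold cay
  refine AnalyticAt.div (by fun_prop) (by fun_prop) (by simp)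

lemma hasDerivAt_cay_zero (τ0 : ℍ) :
    HasDerivAt (cay τ0) ((τ0 : ℂ) - (starRingEnd ℂ) (τ0 : ℂ)) 0 := by
  have h1 : HasDerivAt (fun u : ℂ => (τ0 : ℂ) - (starRingEnd ℂ) (τ0 : ℂ) * u)
      (-(starRingEnd ℂ) (τ0 : ℂ)) 0 := by
    simpa using ((hasDerivAt_id (0 : ℂ)).const_mul ((starRingEnd ℂ) (τ0 : ℂ))).const_sub (τ0 : ℂ)
  have h2 : HasDerivAt (fun u : ℂ => (1 : ℂ) - u) (-1) 0 := by
    simpa using (hasDerivAt_id (0 : ℂ)).const_sub (1 : ℂ)
  have h3 := h1.div h2 (by simp)
  have h4 : HasDerivAt (cay τ0) ((-(starRingEnd ℂ) (τ0 : ℂ) * (1 - 0)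
      - ((τ0 : ℂ) - (starRingEnd ℂ) (τ0 : ℂ) * 0) * -1) / (1 - 0) ^ 2) 0 := h3
  convert h4 using 1
  ring

lemma deriv_cay_zero_ne_zero (τ0 : ℍ) : deriv (cay τ0) 0 ≠ 0 := by
  rw [(hasDerivAt_cay_zero τ0).deriv]
  intro h
  have him := congrArg Complex.im h
  simp at him
  exact τ0.im_pos.ne' him

lemma eventually_cay_im_pos (τ0 : ℍ) : ∀ᶠ u in 𝓝 (0 : ℂ), 0 < (cay τ0 u).im := by
  have hc : ContinuousAt (cay τ0) 0 := (analyticAt_cay τ0).continuousAt
  have hopen : IsOpen {z : ℂ | 0 < z.im} := isOpen_lt continuous_const Complex.continuous_im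
  have hmem : cay τ0 0 ∈ {z : ℂ | 0 < z.im} := by
    simpa using τ0.im_pos
  exact hc.eventually (hopen.mem_nhds hmem)

/-- The Taylor series at `τ0` in the Cayley coordinate of a function on the upper half plane. -/
def tayH (τ0 : ℍ) (f : ℍ → ℂ) : PowerSeries ℂ :=
  taylor0 fun u => f (ofComplex (cay τ0 u))

lemma analyticAt_comp_ofComplex {f : ℍ → ℂ} (hf : MDiff f) (τ : ℍ) :
    AnalyticAt ℂ (fun z => f (ofComplex z)) (τ : ℂ) := by
  have h1 : DifferentiableOn ℂ (f ∘ ofComplex) {z | 0 < z.im} :=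
    UpperHalfPlane.mdifferentiable_iff.1 hf
  have hopen : IsOpen {z : ℂ | 0 < z.im} := isOpen_lt continuous_const Complex.continuous_im
  exact h1.analyticAt (hopen.mem_nhds τ.im_pos)

lemma analyticAt_comp_cay {f : ℍ → ℂ} (hf : MDiff f) (τ0 : ℍ) :
    AnalyticAt ℂ (fun u => f (ofComplex (cay τ0 u))) 0 := by
  have h1 : AnalyticAt ℂ (fun z => f (ofComplex z)) (cay τ0 0) := by
    simpa using analyticAt_comp_ofComplex hf τ0
  exact h1.comp (analyticAt_cay τ0)

lemma tayH_mul {f g : ℍ → ℂ} (hf : MDiff f) (hg : MDiff g) (τ0 : ℍ) :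
    tayH τ0 (f * g) = tayH τ0 f * tayH τ0 g :=
  taylor0_mul (analyticAt_comp_cay hf τ0) (analyticAt_comp_cay hg τ0)

lemma tayH_add {f g : ℍ → ℂ} (hf : MDiff f) (hg : MDiff g) (τ0 : ℍ) :
    tayH τ0 (f + g) = tayH τ0 f + tayH τ0 g :=
  taylor0_add (analyticAt_comp_cay hf τ0) (analyticAt_comp_cay hg τ0)

lemma tayH_const (τ0 : ℍ) (c : ℂ) : tayH τ0 (fun _ => c) = PowerSeries.C c :=
  taylor0_const c

lemma analyticOrderAt_comp_cay (f : ℍ → ℂ) (τ0 : ℍ) :
    analyticOrderAt (fun u => f (ofComplex (cay τ0 u))) 0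
      = analyticOrderAt (fun z => f (ofComplex z)) (τ0 : ℂ) := by
  have := analyticOrderAt_comp_of_deriv_ne_zero (f := fun z => f (ofComplex z))
    (analyticAt_cay τ0) (deriv_cay_zero_ne_zero τ0)
  simpa [Function.comp_def] using this

/-- The Taylor map is injective on holomorphic functions (identity theorem). -/
lemma eq_zero_of_tayH_eq_zero {f : ℍ → ℂ} (hf : MDiff f) (τ0 : ℍ) (h : tayH τ0 f = 0) :
    f = 0 := by
  have h1 : analyticOrderAt (fun u => f (ofComplex (cay τ0 u))) 0 = ⊤ :=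
    (taylor0_eq_zero_iff (analyticAt_comp_cay hf τ0)).1 h
  rw [analyticOrderAt_comp_cay, analyticOrderAt_eq_top] at h1
  have hopen : IsOpen {z : ℂ | 0 < z.im} := isOpen_lt continuous_const Complex.continuous_im
  have han : AnalyticOnNhd ℂ (fun z => f (ofComplex z)) {z : ℂ | 0 < z.im} := by
    intro z hz
    have := analyticAt_comp_ofComplex hf ⟨z, hz⟩
    simpa using this
  have hpre : IsPreconnected {z : ℂ | 0 < z.im} :=
    (convex_halfSpace_im_gt 0).isPreconnected
  have key := han.eqOn_zero_of_preconnected_of_eventuallyEq_zero hpre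
    (z₀ := (τ0 : ℂ)) τ0.im_pos h1
  funext τ
  have := key (show (τ : ℂ) ∈ {z : ℂ | 0 < z.im} from τ.im_pos)
  simpa using this

lemma tayH_order {f : ℍ → ℂ} (hf : MDiff f) (τ0 : ℍ) {n : ℕ}
    (h : analyticOrderAt (fun z => f (ofComplex z)) (τ0 : ℂ) = n) : (tayH τ0 f).order = n :=
  taylor0_order (analyticAt_comp_cay hf τ0) (by rw [analyticOrderAt_comp_cay, h])

/-- If `γ` fixes `τ0` and acts in the Cayley coordinate by `u ↦ lam * u`, then on Taylor series
pulling back by `γ` is the rescaling `X ↦ lam * X`. -/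
lemma tayH_comp_smul {f : ℍ → ℂ} (hf : MDiff f) (τ0 : ℍ) (γ : SL(2, ℤ)) (lam : ℂ)
    (h : ∀ᶠ u in 𝓝 (0 : ℂ), γ • ofComplex (cay τ0 u) = ofComplex (cay τ0 (lam * u))) :
    tayH τ0 (fun τ => f (γ • τ)) = PowerSeries.rescale lam (tayH τ0 f) := by
  unfold tayH
  rw [← taylor0_comp_mul (analyticAt_comp_cay hf τ0) lam]
  refine taylor0_congr ?_
  filter_upwards [h] with u hu
  rw [hu]

/-! ## The two elliptic points -/

/-- `S` acts in the Cayley coordinate at `I` by `u ↦ -u`. -/
lemma eventually_S_smul_cay :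
    ∀ᶠ u in 𝓝 (0 : ℂ), ModularGroup.S • ofComplex (cay UpperHalfPlane.I u)
      = ofComplex (cay UpperHalfPlane.I (-1 * u)) := by
  have h1 := eventually_cay_im_pos UpperHalfPlane.I
  have hmul : Tendsto (fun u : ℂ => -1 * u) (𝓝 0) (𝓝 0) := by
    have : Continuous fun u : ℂ => -1 * u := by fun_prop
    simpa using this.tendsto 0
  have h2 : ∀ᶠ u in 𝓝 (0 : ℂ), 0 < (cay UpperHalfPlane.I (-1 * u)).im := hmul.eventually h1
  filter_upwards [h1, h2] with u hu1 hu2
  rw [ofComplex_apply_of_im_pos hu1, ofComplex_apply_of_im_pos hu2, modular_S_smul]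
  apply UpperHalfPlane.ext
  show (-(cay UpperHalfPlane.I u))⁻¹ = cay UpperHalfPlane.I (-1 * u)
  have hb : (1 : ℂ) - u ≠ 0 := by
    intro h
    simp [cay, h] at hu1
  have hd : (1 : ℂ) - -1 * u ≠ 0 := by
    intro h
    unfold cay at hu2
    rw [h, div_zero] at hu2
    simp at hu2
  have ha : ((UpperHalfPlane.I : ℍ) : ℂ) - (starRingEnd ℂ) ((UpperHalfPlane.I : ℍ) : ℂ) * u ≠ 0 := by
    intro h
    unfold cay at hu1
    rw [h, zero_div] at hu1
    simp at hu1
  unfold cay
  rw [← neg_div, inv_div, eq_div_iff hd, div_mul_eq_mul_div,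
    div_eq_iff (neg_ne_zero.mpr ha)]
  simp only [UpperHalfPlane.coe_I, Complex.conj_I]
  linear_combination ((1 - u) * (1 + u)) * Complex.I_sq

/-- The elliptic point `ρ = -1/2 + (√3/2) i`, the fixed point of `S * T`. -/
def rhoPt : ℍ := ⟨-1 / 2 + (Real.sqrt 3 / 2 : ℝ) * Complex.I, by simp⟩

lemma coe_rhoPt : (rhoPt : ℂ) = -1 / 2 + (Real.sqrt 3 / 2 : ℝ) * Complex.I := rfl

lemma rhoPt_sq : (rhoPt : ℂ) ^ 2 + (rhoPt : ℂ) + 1 = 0 := by
  have h3 : ((Real.sqrt 3 : ℝ) : ℂ) ^ 2 = 3 := by
    norm_cast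
    exact Real.sq_sqrt (by norm_num)
  rw [coe_rhoPt]
  push_cast
  linear_combination (-1 / 4 : ℂ) * h3 + (((Real.sqrt 3 : ℝ) : ℂ) ^ 2 / 4) * Complex.I_sq

lemma conj_rhoPt : (starRingEnd ℂ) (rhoPt : ℂ) = -1 - (rhoPt : ℂ) := by
  rw [coe_rhoPt]
  simp only [map_add, map_mul, map_div₀, map_neg, map_one, Complex.conj_ofReal, Complex.conj_I,
    map_ofNat]
  ring

/-- The multiplier of `S * T` at `ρ`: a primitive cube root of unity. -/
def lamRho : ℂ := -1 - (rhoPt : ℂ)

lemma lamRho_sq : lamRho ^ 2 + lamRho + 1 = 0 := by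
  unfold lamRho
  linear_combination rhoPt_sq

lemma lamRho_ne_one : lamRho ≠ 1 := by
  intro h
  have h1 := lamRho_sq
  rw [h] at h1
  norm_num at h1

lemma lamRho_pow_three : lamRho ^ 3 = 1 := by
  linear_combination (lamRho - 1) * lamRho_sq

lemma isPrimitiveRoot_lamRho : IsPrimitiveRoot lamRho 3 := by
  refine IsPrimitiveRoot.mk_of_lt _ (by norm_num) lamRho_pow_three fun l hl0 hl3 => ?_
  interval_cases l
  · simpa using lamRho_ne_one
  · intro h
    have h2 : lamRho = -2 := by linear_combination lamRho_sq - h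
    rw [h2] at h
    norm_num at h

/-- `S * T` acts in the Cayley coordinate at `ρ` by `u ↦ lamRho * u`. -/
lemma eventually_ST_smul_cay :
    ∀ᶠ u in 𝓝 (0 : ℂ), (ModularGroup.S * ModularGroup.T) • ofComplex (cay rhoPt u)
      = ofComplex (cay rhoPt (lamRho * u)) := by
  have h1 := eventually_cay_im_pos rhoPt
  have hmul : Tendsto (fun u : ℂ => lamRho * u) (𝓝 0) (𝓝 0) := by
    have : Continuous fun u : ℂ => lamRho * u := by fun_prop
    simpa using this.tendsto 0
  have h2 : ∀ᶠ u in 𝓝 (0 : ℂ), 0 < (cay rhoPt (lamRho * u)).im := hmul.eventually h1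
  filter_upwards [h1, h2] with u hu1 hu2
  rw [ofComplex_apply_of_im_pos hu1, ofComplex_apply_of_im_pos hu2, mul_smul, modular_T_smul,
    modular_S_smul]
  apply UpperHalfPlane.ext
  show (-(((1 : ℝ) : ℂ) + cay rhoPt u))⁻¹ = cay rhoPt (lamRho * u)
  have hb : (1 : ℂ) - u ≠ 0 := by
    intro h
    simp [cay, h] at hu1
  have hd : (1 : ℂ) - lamRho * u ≠ 0 := by
    intro h
    unfold cay at hu2
    rw [h, div_zero] at hu2
    simp at hu2
  have hsum : (1 : ℂ) + cay rhoPt u ≠ 0 := by
    intro h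
    have := congrArg Complex.im h
    simp at this
    linarith
  have hba : (1 : ℂ) - u + ((rhoPt : ℂ) - (starRingEnd ℂ) (rhoPt : ℂ) * u) ≠ 0 := by
    intro h
    apply hsum
    unfold cay
    field_simp
    linear_combination h
  have e1 : ((1 : ℝ) : ℂ) + cay rhoPt u
      = ((1 : ℂ) - u + ((rhoPt : ℂ) - (starRingEnd ℂ) (rhoPt : ℂ) * u)) / (1 - u) := by
    unfold cay
    field_simp
    push_cast
    ring
  rw [e1, ← neg_div, inv_div]
  unfold cay
  rw [eq_div_iff hd, div_mul_eq_mul_div, div_eq_iff (neg_ne_zero.mpr hba)]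
  rw [conj_rhoPt]
  unfold lamRho
  linear_combination (1 - ((rhoPt : ℂ) + 1) * u - ((rhoPt : ℂ) + 1) * u ^ 2) * rhoPt_sq

/-! ## The coefficient twist `t ↦ lam * t` on Laurent series -/

/-- `x(t) ↦ x(lam * t)` on Laurent series: the `n`-th coefficient is multiplied by `lam ^ n`. -/
def twistFun (lam : ℂ) (x : LaurentSeries ℂ) : LaurentSeries ℂ where
  coeff n := lam ^ n * x.coeff n
  isPWO_support' := x.isPWO_support.mono fun n hn => by
    simp only [Function.mem_support, ne_eq] at hn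
    exact fun h => hn (by rw [h, mul_zero])

@[simp] lemma twistFun_coeff (lam : ℂ) (x : LaurentSeries ℂ) (n : ℤ) :
    (twistFun lam x).coeff n = lam ^ n * x.coeff n := rfl

lemma support_twistFun {lam : ℂ} (hlam : lam ≠ 0) (x : LaurentSeries ℂ) :
    (twistFun lam x).support = x.support := by
  ext n
  simp only [HahnSeries.mem_support, twistFun_coeff, ne_eq, mul_eq_zero, not_or]
  exact ⟨fun h => h.2, fun h => ⟨zpow_ne_zero n hlam, h⟩⟩

/-- The twist as a ring automorphism of `LaurentSeries ℂ`. -/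
def twist (lam : ℂ) (hlam : lam ≠ 0) : LaurentSeries ℂ ≃+* LaurentSeries ℂ where
  toFun := twistFun lam
  invFun := twistFun lam⁻¹
  left_inv x := by
    ext n
    simp only [twistFun_coeff, inv_zpow, ← mul_assoc]
    rw [inv_mul_cancel₀ (zpow_ne_zero n hlam), one_mul]
  right_inv x := by
    ext n
    simp only [twistFun_coeff, inv_zpow, ← mul_assoc]
    rw [mul_inv_cancel₀ (zpow_ne_zero n hlam), one_mul]
  map_mul' x y := by
    ext a
    simp only [twistFun_coeff, HahnSeries.coeff_mul]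
    have hfin : Finset.antidiagonal (twistFun lam x).isPWO_support (twistFun lam y).isPWO_support a
        = Finset.antidiagonal x.isPWO_support y.isPWO_support a := by
      ext ij
      simp only [Finset.mem_antidiagonal, support_twistFun hlam]
    rw [hfin, Finset.mul_sum]
    refine Finset.sum_congr rfl fun ij hij => ?_
    have hsum : ij.1 + ij.2 = a := (Finset.mem_antidiagonal.mp hij).2.2
    rw [← hsum, zpow_add₀ hlam]
    ring
  map_add' x y := by
    ext n
    simp only [twistFun_coeff, HahnSeries.coeff_add, mul_add]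

@[simp] lemma twist_coeff (lam : ℂ) (hlam : lam ≠ 0) (x : LaurentSeries ℂ) (n : ℤ) :
    (twist lam hlam x).coeff n = lam ^ n * x.coeff n := rfl

lemma twist_C (lam : ℂ) (hlam : lam ≠ 0) (a : ℂ) :
    twist lam hlam (HahnSeries.C a) = HahnSeries.C a := by
  ext n
  rw [twist_coeff]
  by_cases hn : n = 0
  · subst hn; simp
  · rw [HahnSeries.C_apply, HahnSeries.coeff_single_of_ne hn, mul_zero]

lemma twist_ofPowerSeries (lam : ℂ) (hlam : lam ≠ 0) (p : PowerSeries ℂ) :
    twist lam hlam (HahnSeries.ofPowerSeries ℤ ℂ p)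
      = HahnSeries.ofPowerSeries ℤ ℂ (PowerSeries.rescale lam p) := by
  ext n
  rw [twist_coeff]
  rcases lt_or_ge n 0 with hn | hn
  · have h1 : ∀ q : PowerSeries ℂ, (HahnSeries.ofPowerSeries ℤ ℂ q).coeff n = 0 := by
      intro q
      rw [HahnSeries.ofPowerSeries_apply]
      refine HahnSeries.embDomain_of_notMem_range ?_
      rintro ⟨m, rfl⟩
      exact absurd hn (not_lt.mpr (Int.natCast_nonneg m))
    rw [h1, h1, mul_zero]
  · obtain ⟨m, rfl⟩ := Int.eq_ofNat_of_zero_le hn
    rw [HahnSeries.ofPowerSeries_apply_coeff, HahnSeries.ofPowerSeries_apply_coeff,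
      PowerSeries.coeff_rescale, zpow_natCast]

lemma orderTop_twist (lam : ℂ) (hlam : lam ≠ 0) (x : LaurentSeries ℂ) :
    (twist lam hlam x).orderTop = x.orderTop := by
  by_cases hx : x = 0
  · subst hx; simp
  · have hx' : twist lam hlam x ≠ 0 := by
      simpa using hx
    rw [← HahnSeries.order_eq_orderTop_of_ne_zero hx, ← HahnSeries.order_eq_orderTop_of_ne_zero hx',
      HahnSeries.order_of_ne hx, HahnSeries.order_of_ne hx']
    congr 1
    have : (twist lam hlam x).support = x.support := support_twistFun hlam x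
    simp only [this]

lemma twist_iterate_coeff (lam : ℂ) (hlam : lam ≠ 0) (k : ℕ) (x : LaurentSeries ℂ) (n : ℤ) :
    (((twist lam hlam) : LaurentSeries ℂ → LaurentSeries ℂ)^[k] x).coeff n
      = lam ^ ((k : ℤ) * n) * x.coeff n := by
  induction k generalizing x with
  | zero => simp
  | succ k ih =>
    rw [Function.iterate_succ_apply, ih, twist_coeff, ← mul_assoc, ← zpow_add₀ hlam]
    congr 2
    push_cast
    ring

/-- A nonzero Laurent series fixed by the `k`-th power of the twist by a primitive `m`-th root of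
unity has order divisible by `m / gcd k m`. -/
lemma orderTop_of_twist_pow_fixed {lam : ℂ} {m : ℕ} (hm : 0 < m) (hprim : IsPrimitiveRoot lam m)
    (k : ℕ) {z : LaurentSeries ℂ} (hz : z ≠ 0)
    (hfix : ∀ n : ℤ, lam ^ ((k : ℤ) * n) * z.coeff n = z.coeff n) :
    ∃ l : ℤ, z.orderTop = (((m / Nat.gcd k m : ℕ) * l : ℤ) : WithTop ℤ) := by
  have hc : z.coeff z.order ≠ 0 := HahnSeries.coeff_order_eq_zero.not.2 hz
  have h1 : lam ^ ((k : ℤ) * z.order) = 1 := by
    have := hfix z.order
    exact mul_right_cancel₀ hc (by rw [this, one_mul])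
  have h2 : (m : ℤ) ∣ (k : ℤ) * z.order := (hprim.zpow_eq_one_iff_dvd _).1 h1
  have hg : 0 < Nat.gcd k m := Nat.gcd_pos_of_pos_right k hm
  have h3 : ((m / Nat.gcd k m : ℕ) : ℤ) ∣ z.order := by
    obtain ⟨m', hm'⟩ : Nat.gcd k m ∣ m := Nat.gcd_dvd_right k m
    obtain ⟨k', hk'⟩ : Nat.gcd k m ∣ k := Nat.gcd_dvd_left k m
    have hm'' : m / Nat.gcd k m = m' := Nat.div_eq_of_eq_mul_right hg hm'
    rw [hm'']
    have hcop : Nat.Coprime m' k' := by
      have := Nat.coprime_div_gcd_div_gcd hg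
      have hk'' : k / Nat.gcd k m = k' := Nat.div_eq_of_eq_mul_right hg hk'
      rw [hk'', hm''] at this
      exact this.symm
    have h4 : ((Nat.gcd k m : ℤ) * (m' : ℤ)) ∣ ((Nat.gcd k m : ℤ) * ((k' : ℤ) * z.order)) := by
      have e1 : (m : ℤ) = (Nat.gcd k m : ℤ) * (m' : ℤ) := by
        exact_mod_cast hm'
      have e2 : (k : ℤ) * z.order = (Nat.gcd k m : ℤ) * ((k' : ℤ) * z.order) := by
        have : (k : ℤ) = (Nat.gcd k m : ℤ) * (k' : ℤ) := by exact_mod_cast hk'
        rw [← mul_assoc, ← this]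
      rw [← e1, ← e2]
      exact h2
    have h5 : (m' : ℤ) ∣ (k' : ℤ) * z.order :=
      (mul_dvd_mul_iff_left (by exact_mod_cast hg.ne')).1 h4
    exact (Int.isCoprime_iff_gcd_eq_one.2 (by simpa [Int.gcd_natCast_natCast] using hcop)).dvd_of_dvd_mul_left h5
  obtain ⟨l, hl⟩ := h3
  refine ⟨l, ?_⟩
  rw [← HahnSeries.order_eq_orderTop_of_ne_zero hz, hl]

end

end Fermat.Agent.S24.helper633
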