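import Fermat.Agent.S24.helper24_Spec
import Fermat.Agent.S24.helper633_Taylor

/-!
# S24: the local data at the finite points (helper633)

Hypothesis-passing proofs of the three finite-point leaves of `helper24_Spec`:

* `stmt_LocalGeneric : Stmt_AnRel → Stmt_CosetSep → Stmt_JSurj → Stmt_OrdGeneric →
    Stmt_LocalGeneric`
* `stmt_Local1728 : Stmt_AnRel → Stmt_CosetSep → Stmt_OrdI → Stmt_Local1728`
* `stmt_LocalZero : Stmt_AnRel → Stmt_CosetSep → Stmt_OrdRho → Stmt_LocalZero`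

Design: `Ω = LaurentSeries ℂ` with the order valuation. For a base point `τ0` and `g ∈ SL(2, ℤ)`
the embedding `iota g` sends `f` to the Taylor expansion at `τ0`, in the Cayley coordinate, of
the conjugate `(ev f) ∘ g⁻¹`. An element `γ0` fixing `τ0` acts on these expansions by the
coefficient twist `t ↦ lam * t` (`lam = -1` for `S` at `i`, a primitive cube root of unity for
`S * T` at `ρ`), which gives `σ` and the divisibility property for free.

Inputs (all function-level statements, defined below):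
* `Stmt_AnRel`: the formal series `j(q^d)`, `d ∣ N`, and the analytic functions `j(dτ)` satisfy
  the same polynomial relations over `ℚ̄` (any analytic evaluation map with an injective
  `q`-expansion gives this in a few lines);
* `Stmt_CosetSep`: `j(N gτ) = j(Nτ)` for all `τ` implies `g ∈ Γ₀(N)`;
* `Stmt_JSurj`, `Stmt_OrdGeneric`, `Stmt_OrdI`, `Stmt_OrdRho`: surjectivity of `j` and the local
  orders `1`, `2`, `3` of `j - j(τ0)`.
-/

set_option autoImplicit false

open Complex UpperHalfPlane Filter Topology ModularCurve CongruenceSubgroup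
open scoped MatrixGroups Manifold ModularForm
open Fermat.Agent.S24.helper24

namespace Fermat.Agent.S24.helper633

noncomputable section

/-! ## The analytic `j`-function: holomorphy and invariance -/

lemma mdifferentiable_jFun : MDiff jFun := by
  have h4 : MDiff (fun z : ℍ => ModularForm.E₄ z ^ 3) := (ModularForm.E₄.holo').pow 3
  have hΔ : MDiff (ModularForm.discriminant : ℍ → ℂ) := CuspForm.discriminant.holo'
  exact h4.div hΔ ModularForm.discriminant_ne_zero

lemma jFun_smul (γ : SL(2, ℤ)) (z : ℍ) : jFun (γ • z) = jFun z := by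
  have hd : denom γ z ≠ 0 := denom_ne_zero γ z
  have hΔ : ModularForm.discriminant (γ • z) = denom γ z ^ (12 : ℤ) * ModularForm.discriminant z := by
    have hs : (ModularForm.discriminant : ℍ → ℂ) ∣[(12 : ℤ)] γ = ModularForm.discriminant :=
      CuspForm.discriminant.slash_action_eq' _ ⟨γ, rfl⟩
    have h := congrFun hs z
    rw [ModularForm.SL_slash_apply] at h
    rw [← h, mul_comm (ModularForm.discriminant (γ • z)), ← mul_assoc, ← zpow_add₀ hd]
    simp
  have hE : ModularForm.E₄ (γ • z) = denom γ z ^ (4 : ℤ) * ModularForm.E₄ z := by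
    have hs : (ModularForm.E₄ : ℍ → ℂ) ∣[(4 : ℤ)] γ = ModularForm.E₄ :=
      ModularForm.E₄.slash_action_eq' _ ⟨γ, rfl⟩
    have h := congrFun hs z
    rw [ModularForm.SL_slash_apply] at h
    rw [← h, mul_comm (ModularForm.E₄ (γ • z)), ← mul_assoc, ← zpow_add₀ hd]
    simp
  have h12 : (denom γ z ^ (4 : ℤ)) ^ 3 = denom γ z ^ (12 : ℤ) := by
    rw [← zpow_natCast, ← zpow_mul]; norm_num
  rw [jFun, jFun, hΔ, hE, mul_pow, h12, mul_div_mul_left _ _ (zpow_ne_zero 12 hd)]

/-- `τ ↦ d τ` on the upper half plane, for `d > 0`. -/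
def mulH (d : ℕ) (hd : 0 < d) (τ : ℍ) : ℍ :=
  ⟨(d : ℂ) * (τ : ℂ), by
    have h : ((d : ℂ) * (τ : ℂ)).im = (d : ℝ) * (τ : ℂ).im := by simp
    rw [h]
    exact mul_pos (by exact_mod_cast hd) τ.im_pos⟩

@[simp] lemma coe_mulH (d : ℕ) (hd : 0 < d) (τ : ℍ) : ((mulH d hd τ : ℍ) : ℂ) = d * τ := rfl

lemma ofComplex_natCast_mul (d : ℕ) (hd : 0 < d) (τ : ℍ) :
    ofComplex ((d : ℂ) * (τ : ℂ)) = mulH d hd τ :=
  ofComplex_apply_of_im_pos (mulH d hd τ).im_pos

/-- The analytic function `τ ↦ j(d τ)`. -/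
def Jd (d : ℕ) (τ : ℍ) : ℂ := jFun (ofComplex ((d : ℂ) * (τ : ℂ)))

lemma Jd_one (τ : ℍ) : Jd 1 τ = jFun τ := by
  simp [Jd]

lemma mdifferentiable_Jd (d : ℕ) (hd : 0 < d) : MDiff (Jd d) := by
  rw [UpperHalfPlane.mdifferentiable_iff]
  have hj : DifferentiableOn ℂ (jFun ∘ ofComplex) {z | 0 < z.im} :=
    UpperHalfPlane.mdifferentiable_iff.1 mdifferentiable_jFun
  have hmul : DifferentiableOn ℂ (fun z : ℂ => (d : ℂ) * z) {z | 0 < z.im} := by fun_prop
  have hmaps : Set.MapsTo (fun z : ℂ => (d : ℂ) * z) {z | 0 < z.im} {z | 0 < z.im} := by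
    intro z hz
    have h : ((d : ℂ) * z).im = (d : ℝ) * z.im := by simp
    simp only [Set.mem_ofPred_eq, h]
    exact mul_pos (by exact_mod_cast hd) hz
  refine (hj.comp hmul hmaps).congr ?_
  intro z hz
  simp only [Function.comp_apply, Jd]
  rw [ofComplex_apply_of_im_pos hz]

/-- `j(d γτ) = j(d τ)` for `γ ∈ Γ₀(N)` and `d ∣ N`. -/
lemma Jd_smul_of_mem_Gamma0 {N d : ℕ} (hdN : d ∣ N) (hd : 0 < d) {γ : SL(2, ℤ)}
    (hγ : γ ∈ Gamma0 N) (τ : ℍ) : Jd d (γ • τ) = Jd d τ := by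
  have hc : (N : ℤ) ∣ γ 1 0 := by
    rw [Gamma0_mem] at hγ
    exact (ZMod.intCast_zmod_eq_zero_iff_dvd _ N).1 hγ
  obtain ⟨c', hc'⟩ : (d : ℤ) ∣ γ 1 0 := (Int.natCast_dvd_natCast.2 hdN).trans hc
  have hdet : γ 0 0 * γ 1 1 - γ 0 1 * γ 1 0 = 1 := by
    have := γ.det_coe
    rwa [Matrix.det_fin_two] at this
  let γ' : SL(2, ℤ) := ⟨!![γ 0 0, γ 0 1 * d; c', γ 1 1], by
    rw [Matrix.det_fin_two_of]
    rw [hc'] at hdet
    linear_combination hdet⟩
  have key : γ' • mulH d hd τ = mulH d hd (γ • τ) := by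
    apply UpperHalfPlane.ext
    rw [UpperHalfPlane.coe_specialLinearGroup_apply, coe_mulH, coe_mulH,
      UpperHalfPlane.coe_specialLinearGroup_apply]
    have hden : ((γ 1 0 : ℤ) : ℂ) * (τ : ℂ) + ((γ 1 1 : ℤ) : ℂ) ≠ 0 := by
      have := denom_ne_zero γ τ
      rwa [ModularGroup.denom_apply] at this
    have e : ((c' : ℤ) : ℂ) * ((d : ℂ) * (τ : ℂ)) = ((γ 1 0 : ℤ) : ℂ) * (τ : ℂ) := by
      rw [hc']; push_cast; ring
    simp only [γ', Matrix.of_apply, Matrix.cons_val', Matrix.cons_val_zero,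
      Matrix.cons_val_one, Matrix.cons_val_fin_one, algebraMap_int_eq, eq_intCast,
      Complex.ofReal_intCast]
    rw [e]
    field_simp
    push_cast
    ring
  unfold Jd
  rw [ofComplex_natCast_mul d hd, ofComplex_natCast_mul d hd, ← key, jFun_smul]

/-! ## The ring of holomorphic functions on the upper half plane -/

/-- Holomorphic functions on the upper half plane, as a subring of all functions. -/
def Hol : Subring (ℍ → ℂ) where
  carrier := {f | MDiff f}
  mul_mem' hf hg := hf.mul hg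
  one_mem' := mdifferentiable_const
  add_mem' hf hg := hf.add hg
  zero_mem' := mdifferentiable_const
  neg_mem' hf := hf.neg

lemma mem_Hol {f : ℍ → ℂ} : f ∈ Hol ↔ MDiff f := Iff.rfl

/-- Constant functions. -/
def constHol : ℂ →+* Hol where
  toFun c := ⟨fun _ => c, mdifferentiable_const⟩
  map_one' := rfl
  map_mul' _ _ := rfl
  map_zero' := rfl
  map_add' _ _ := rfl

@[simp] lemma constHol_apply (c : ℂ) (τ : ℍ) : (constHol c : ℍ → ℂ) τ = c := rfl

lemma mdifferentiable_sl_smul (γ : SL(2, ℤ)) : MDiff (fun τ : ℍ => γ • τ) := by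
  have h : (0 : ℝ) < ((Matrix.SpecialLinearGroup.toGL
      ((Matrix.SpecialLinearGroup.map (Int.castRingHom ℝ)) γ) : GL (Fin 2) ℝ).det : ℝˣ) := by
    simp
  exact UpperHalfPlane.mdifferentiable_smul h

/-- Pull-back of holomorphic functions by an element of `SL(2, ℤ)`: `f ↦ f (γ • ·)`. -/
def pull (γ : SL(2, ℤ)) : Hol →+* Hol where
  toFun f := ⟨fun τ => (f : ℍ → ℂ) (γ • τ), f.2.comp (mdifferentiable_sl_smul γ)⟩
  map_one' := rfl
  map_mul' _ _ := rfl
  map_zero' := rfl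
  map_add' _ _ := rfl

@[simp] lemma pull_apply (γ : SL(2, ℤ)) (f : Hol) (τ : ℍ) :
    (pull γ f : ℍ → ℂ) τ = (f : ℍ → ℂ) (γ • τ) := rfl

lemma pull_pull (γ δ : SL(2, ℤ)) (f : Hol) : pull γ (pull δ f) = pull (δ * γ) f := by
  apply Subtype.ext
  funext τ
  simp [mul_smul]

/-- The Taylor expansion at `τ0` in the Cayley coordinate, as a ring homomorphism on holomorphic
functions. -/
def tayHom (τ0 : ℍ) : Hol →+* PowerSeries ℂ where
  toFun f := tayH τ0 f
  map_one' := by
    have : ((1 : Hol) : ℍ → ℂ) = fun _ => (1 : ℂ) := rfl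
    rw [this, tayH_const, map_one]
  map_mul' f g := tayH_mul f.2 g.2 τ0
  map_zero' := by
    have : ((0 : Hol) : ℍ → ℂ) = fun _ => (0 : ℂ) := rfl
    rw [this, tayH_const, map_zero]
  map_add' f g := tayH_add f.2 g.2 τ0

@[simp] lemma tayHom_apply (τ0 : ℍ) (f : Hol) : tayHom τ0 f = tayH τ0 f := rfl

lemma tayHom_injective (τ0 : ℍ) : Function.Injective (tayHom τ0) := by
  rw [injective_iff_map_eq_zero]
  intro f hf
  apply Subtype.ext
  exact eq_zero_of_tayH_eq_zero f.2 τ0 hf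

lemma tayHom_constHol (τ0 : ℍ) (c : ℂ) : tayHom τ0 (constHol c) = PowerSeries.C c :=
  tayH_const τ0 c

lemma tayHom_pull (τ0 : ℍ) (γ : SL(2, ℤ)) (lam : ℂ)
    (h : ∀ᶠ u in 𝓝 (0 : ℂ), γ • ofComplex (cay τ0 u) = ofComplex (cay τ0 (lam * u))) (f : Hol) :
    tayHom τ0 (pull γ f) = PowerSeries.rescale lam (tayHom τ0 f) :=
  tayH_comp_smul f.2 τ0 γ lam h


/-! ## Generators of the function field -/

/-- The generators `j(q^d)`, `d ∣ N`, of the function field of level `N`. -/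
def gen (N : ℕ) (d : N.divisors) : FN N :=
  haveI : NeZero (d : ℕ) := ⟨(Nat.pos_of_mem_divisors d.2).ne'⟩
  jBarD N d (Nat.dvd_of_mem_divisors d.2)

/-- The index of the generator `j = j(q^1)`. -/
def oneIdx (N : ℕ) [NeZero N] : N.divisors := ⟨1, Nat.one_mem_divisors.2 (NeZero.ne N)⟩

/-- The index of the generator `j(q^N)`. -/
def topIdx (N : ℕ) [NeZero N] : N.divisors := ⟨N, Nat.mem_divisors_self N (NeZero.ne N)⟩

lemma gen_oneIdx (N : ℕ) [NeZero N] : gen N (oneIdx N) = jBar N := rfl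

/-- The underlying Laurent series of the generators. -/
def genS (N : ℕ) (d : N.divisors) : LaurentSeries Kbar := (gen N d : FN N)

lemma coeffEmb_algebraMap (r : ℚ) :
    coeffEmb Kbar (algebraMap ℚ (LaurentSeries ℚ) r)
      = algebraMap Kbar (LaurentSeries Kbar) (algebraMap ℚ Kbar r) := by
  rw [algebraMap_apply_eq_single, algebraMap_laurentSeries_eq_single, coeffEmb, coeffMap_single]

lemma modularFunctionFieldBar_le_adjoin (N : ℕ) [NeZero N] :
    modularFunctionFieldBar N ≤ IntermediateField.adjoin Kbar (Set.range (genS N)) := by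
  show IntermediateField.adjoin Kbar
      (⇑(coeffEmb Kbar) '' ((modularFunctionFieldFull N : IntermediateField ℚ (LaurentSeries ℚ)) :
        Set (LaurentSeries ℚ))) ≤ _
  have key : ∀ x ∈ IntermediateField.adjoin ℚ (divisorExpansions N),
      coeffEmb Kbar x ∈ IntermediateField.adjoin Kbar (Set.range (genS N)) := by
    intro x hx
    induction hx using IntermediateField.adjoin_induction with
    | mem y hy =>
      obtain ⟨d, hne, hdvd, rfl⟩ := hy
      refine IntermediateField.subset_adjoin Kbar _ ?_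
      exact ⟨⟨d, Nat.mem_divisors.2 ⟨hdvd, NeZero.ne N⟩⟩, rfl⟩
    | algebraMap r =>
      rw [coeffEmb_algebraMap]
      exact IntermediateField.algebraMap_mem _ _
    | add y z _ _ hy hz =>
      rw [map_add]
      exact add_mem hy hz
    | inv y _ hy =>
      rw [map_inv₀]
      exact inv_mem hy
    | mul y z _ _ hy hz =>
      rw [map_mul]
      exact mul_mem hy hz
  rw [IntermediateField.adjoin_le_iff]
  rintro _ ⟨x, hx, rfl⟩
  exact key x hx

/-- Every element of the function field is a quotient of polynomials in the generators. -/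
lemma exists_aeval_div (N : ℕ) [NeZero N] (z : FN N) :
    ∃ P Q : MvPolynomial N.divisors Kbar, MvPolynomial.aeval (gen N) Q ≠ 0 ∧
      z * MvPolynomial.aeval (gen N) Q = MvPolynomial.aeval (gen N) P := by
  have hcoe : ∀ P : MvPolynomial N.divisors Kbar,
      ((MvPolynomial.aeval (gen N) P : FN N) : LaurentSeries Kbar)
        = MvPolynomial.aeval (genS N) P := by
    intro P
    have := MvPolynomial.comp_aeval (R := Kbar) (gen N) (modularFunctionFieldBar N).val
    exact congrArg (fun f => f P) this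
  have hz : (z : LaurentSeries Kbar) ∈ IntermediateField.adjoin Kbar (Set.range (genS N)) :=
    modularFunctionFieldBar_le_adjoin N z.2
  rw [IntermediateField.mem_adjoin_iff_div, Algebra.adjoin_range_eq_range_aeval] at hz
  obtain ⟨r, ⟨P, hP⟩, s, ⟨Q, hQ'⟩, hzrs⟩ := hz
  have hP' : MvPolynomial.aeval (genS N) P = r := hP
  have hQ'' : MvPolynomial.aeval (genS N) Q = s := hQ'
  subst hP' hQ''
  by_cases hQ : MvPolynomial.aeval (genS N) Q = 0
  · refine ⟨0, 1, by simp, ?_⟩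
    apply Subtype.ext
    have : (z : LaurentSeries Kbar) = 0 := by rw [hzrs, hQ, div_zero]
    simp [this]
  · refine ⟨P, Q, ?_, ?_⟩
    · intro h
      apply hQ
      rw [← hcoe, h]
      rfl
    · apply Subtype.ext
      show (z : LaurentSeries Kbar) * ((MvPolynomial.aeval (gen N) Q : FN N) : LaurentSeries Kbar)
        = ((MvPolynomial.aeval (gen N) P : FN N) : LaurentSeries Kbar)
      rw [hcoe, hcoe, hzrs, div_mul_cancel₀ _ hQ]

/-! ## Extending ring homomorphisms from polynomials in the generators to the field -/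

section Lift

variable {K F L D : Type*} [Field K] [Field F] [Algebra K F] [Field L]

/-- If every element of the field `F` is a quotient of polynomials in `gen`, and the ring
homomorphism `Ψ` on polynomials has the same kernel as evaluation at `gen`, then `Ψ` descends
to a ring homomorphism `F →+* L`. -/
theorem exists_ringHom_of_ker_eq (gen : D → F)
    (hgen : ∀ z : F, ∃ P Q : MvPolynomial D K, MvPolynomial.aeval gen Q ≠ 0 ∧
      z * MvPolynomial.aeval gen Q = MvPolynomial.aeval gen P)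
    (Ψ : MvPolynomial D K →+* L)
    (hΨ : ∀ P : MvPolynomial D K, MvPolynomial.aeval gen P = 0 ↔ Ψ P = 0) :
    ∃ ι : F →+* L, ∀ P : MvPolynomial D K, ι (MvPolynomial.aeval gen P) = Ψ P := by
  classical
  choose Pz Qz hQz hPQz using hgen
  have key : ∀ (z : F) (P Q : MvPolynomial D K), MvPolynomial.aeval gen Q ≠ 0 →
      z * MvPolynomial.aeval gen Q = MvPolynomial.aeval gen P →
      Ψ (Pz z) / Ψ (Qz z) = Ψ P / Ψ Q := by
    intro z P Q hQ hPQ
    have h1 : Ψ (Qz z) ≠ 0 := fun h => hQz z ((hΨ _).2 h)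
    have h2 : Ψ Q ≠ 0 := fun h => hQ ((hΨ _).2 h)
    rw [div_eq_div_iff h1 h2, ← map_mul, ← map_mul, ← sub_eq_zero, ← map_sub, ← hΨ, map_sub,
      map_mul, map_mul, ← hPQz z, ← hPQ]
    ring
  let f : F → L := fun z => Ψ (Pz z) / Ψ (Qz z)
  have hf : ∀ (z : F) (P Q : MvPolynomial D K), MvPolynomial.aeval gen Q ≠ 0 →
      z * MvPolynomial.aeval gen Q = MvPolynomial.aeval gen P → f z = Ψ P / Ψ Q := key
  have hne : ∀ z, Ψ (Qz z) ≠ 0 := fun z h => hQz z ((hΨ _).2 h)
  refine ⟨{ toFun := f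
            map_one' := ?_
            map_mul' := ?_
            map_zero' := ?_
            map_add' := ?_ }, ?_⟩
  · rw [hf 1 1 1 (by simp) (by simp), map_one, div_one]
  · intro z w
    rw [hf (z * w) (Pz z * Pz w) (Qz z * Qz w) (by rw [map_mul]; exact mul_ne_zero (hQz z) (hQz w))
      (by rw [map_mul, map_mul, ← hPQz z, ← hPQz w]; ring)]
    rw [map_mul, map_mul, mul_div_mul_comm]
  · rw [hf 0 0 1 (by simp) (by simp), map_zero, zero_div]
  · intro z w
    rw [hf (z + w) (Pz z * Qz w + Pz w * Qz z) (Qz z * Qz w)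
      (by rw [map_mul]; exact mul_ne_zero (hQz z) (hQz w))
      (by rw [map_mul, map_add, map_mul, map_mul, ← hPQz z, ← hPQz w]; ring)]
    rw [map_mul, map_add, map_mul, map_mul]
    show _ = Ψ (Pz z) / Ψ (Qz z) + Ψ (Pz w) / Ψ (Qz w)
    rw [div_add_div _ _ (hne z) (hne w)]
    ring
  · intro P
    show f (MvPolynomial.aeval gen P) = Ψ P
    rw [hf _ P 1 (by simp) (by simp), map_one, div_one]

/-- Two ring homomorphisms out of `F` that agree on polynomials in the generators are equal. -/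
theorem ringHom_ext_of_aeval (gen : D → F)
    (hgen : ∀ z : F, ∃ P Q : MvPolynomial D K, MvPolynomial.aeval gen Q ≠ 0 ∧
      z * MvPolynomial.aeval gen Q = MvPolynomial.aeval gen P)
    (ι₁ ι₂ : F →+* L)
    (h : ∀ P : MvPolynomial D K, ι₁ (MvPolynomial.aeval gen P) = ι₂ (MvPolynomial.aeval gen P)) :
    ι₁ = ι₂ := by
  ext z
  obtain ⟨P, Q, hQ, hPQ⟩ := hgen z
  have h1 : ι₁ (MvPolynomial.aeval gen Q) ≠ 0 := (map_ne_zero ι₁).2 hQ
  have e1 : ι₁ z * ι₁ (MvPolynomial.aeval gen Q) = ι₁ (MvPolynomial.aeval gen P) := by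
    rw [← map_mul, hPQ]
  have e2 : ι₂ z * ι₁ (MvPolynomial.aeval gen Q) = ι₁ (MvPolynomial.aeval gen P) := by
    rw [h Q, h P, ← map_mul, hPQ]
  exact mul_right_cancel₀ h1 (e1.trans e2.symm)

end Lift


/-! ## The analytic relation interface and the evaluation of polynomials in the generators -/

/-- `AnRel N φ`: the formal series `j(q^d)` (`d ∣ N`) and the analytic functions `j(dτ)` satisfy
the same polynomial relations over `ℚ̄` (through the embedding `φ : ℚ̄ → ℂ`). -/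
def AnRel (N : ℕ) (φ : Kbar →+* ℂ) : Prop :=
  ∀ P : MvPolynomial N.divisors Kbar, MvPolynomial.aeval (gen N) P = 0 ↔
    ∀ τ : ℍ, MvPolynomial.eval₂ φ (fun d : N.divisors => Jd (d : ℕ) τ) P = 0

/-- The generator functions `τ ↦ j(dτ)` as holomorphic functions. -/
def JdHol (N : ℕ) (d : N.divisors) : Hol :=
  ⟨Jd (d : ℕ), mdifferentiable_Jd _ (Nat.pos_of_mem_divisors d.2)⟩

/-- Evaluation of polynomials at the analytic generators. -/
def evHol (N : ℕ) (φ : Kbar →+* ℂ) : MvPolynomial N.divisors Kbar →+* Hol :=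
  MvPolynomial.eval₂Hom (constHol.comp φ) (JdHol N)

lemma evHol_C (N : ℕ) (φ : Kbar →+* ℂ) (a : Kbar) :
    evHol N φ (MvPolynomial.C a) = constHol (φ a) := by
  simp [evHol]

lemma evHol_X (N : ℕ) (φ : Kbar →+* ℂ) (d : N.divisors) :
    evHol N φ (MvPolynomial.X d) = JdHol N d := by
  simp [evHol]

lemma evHol_apply (N : ℕ) (φ : Kbar →+* ℂ) (P : MvPolynomial N.divisors Kbar) (τ : ℍ) :
    (evHol N φ P : ℍ → ℂ) τ
      = MvPolynomial.eval₂ φ (fun d : N.divisors => Jd (d : ℕ) τ) P := by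
  have h : ((Pi.evalRingHom (fun _ : ℍ => ℂ) τ).comp (Hol.subtype.comp (evHol N φ)))
      = MvPolynomial.eval₂Hom φ (fun d : N.divisors => Jd (d : ℕ) τ) := by
    apply MvPolynomial.ringHom_ext
    · intro r
      simp [evHol_C]
    · intro i
      simp [evHol_X, JdHol]
  exact RingHom.congr_fun h P

lemma evHol_eq_zero_iff {N : ℕ} {φ : Kbar →+* ℂ} (h : AnRel N φ)
    (P : MvPolynomial N.divisors Kbar) :
    evHol N φ P = 0 ↔ MvPolynomial.aeval (gen N) P = 0 := by
  rw [h P]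
  constructor
  · intro h0 τ
    rw [← evHol_apply, h0]
    rfl
  · intro h0
    apply Subtype.ext
    funext τ
    rw [evHol_apply, h0 τ]
    rfl

lemma pull_injective (γ : SL(2, ℤ)) : Function.Injective (pull γ) := by
  intro f g hfg
  have := congrArg (pull γ⁻¹) hfg
  rw [pull_pull, pull_pull] at this
  apply Subtype.ext
  funext τ
  have h2 := congrArg (fun F : Hol => (F : ℍ → ℂ) τ) this
  simpa using h2

/-- The composite `P ↦ Laurent series of the Taylor expansion at τ0 of (ev P) ∘ g⁻¹`. -/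
def psi (N : ℕ) (φ : Kbar →+* ℂ) (τ0 : ℍ) (g : SL(2, ℤ)) :
    MvPolynomial N.divisors Kbar →+* LaurentSeries ℂ :=
  (HahnSeries.ofPowerSeries ℤ ℂ).comp ((tayHom τ0).comp ((pull g⁻¹).comp (evHol N φ)))

lemma psi_apply (N : ℕ) (φ : Kbar →+* ℂ) (τ0 : ℍ) (g : SL(2, ℤ))
    (P : MvPolynomial N.divisors Kbar) :
    psi N φ τ0 g P = HahnSeries.ofPowerSeries ℤ ℂ (tayHom τ0 (pull g⁻¹ (evHol N φ P))) := rfl

lemma psi_eq_zero_iff {N : ℕ} {φ : Kbar →+* ℂ} (h : AnRel N φ) (τ0 : ℍ) (g : SL(2, ℤ))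
    (P : MvPolynomial N.divisors Kbar) :
    MvPolynomial.aeval (gen N) P = 0 ↔ psi N φ τ0 g P = 0 := by
  rw [← evHol_eq_zero_iff h, psi_apply]
  constructor
  · intro h0
    rw [h0, map_zero, map_zero, map_zero]
  · intro h0
    have h1 : tayHom τ0 (pull g⁻¹ (evHol N φ P)) = 0 :=
      HahnSeries.ofPowerSeries_injective (by rw [h0, map_zero])
    have h2 : pull g⁻¹ (evHol N φ P) = 0 := tayHom_injective τ0 (by rw [h1, map_zero])
    exact pull_injective g⁻¹ (by rw [h2, map_zero])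

lemma exists_iota {N : ℕ} [NeZero N] {φ : Kbar →+* ℂ} (h : AnRel N φ) (τ0 : ℍ) (g : SL(2, ℤ)) :
    ∃ ι : FN N →+* LaurentSeries ℂ,
      ∀ P : MvPolynomial N.divisors Kbar, ι (MvPolynomial.aeval (gen N) P) = psi N φ τ0 g P :=
  exists_ringHom_of_ker_eq (gen N) (exists_aeval_div N) (psi N φ τ0 g) (psi_eq_zero_iff h τ0 g)

/-- The embedding of the function field into Laurent series attached to `g ∈ SL(2, ℤ)` and the
base point `τ0`: `f ↦ Taylor expansion at τ0 of (ev f) ∘ g⁻¹`. -/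
def iota {N : ℕ} [NeZero N] {φ : Kbar →+* ℂ} (h : AnRel N φ) (τ0 : ℍ) (g : SL(2, ℤ)) :
    FN N →+* LaurentSeries ℂ :=
  (exists_iota h τ0 g).choose

lemma iota_aeval {N : ℕ} [NeZero N] {φ : Kbar →+* ℂ} (h : AnRel N φ) (τ0 : ℍ) (g : SL(2, ℤ))
    (P : MvPolynomial N.divisors Kbar) :
    iota h τ0 g (MvPolynomial.aeval (gen N) P) = psi N φ τ0 g P :=
  (exists_iota h τ0 g).choose_spec P

lemma iota_algebraMap {N : ℕ} [NeZero N] {φ : Kbar →+* ℂ} (h : AnRel N φ) (τ0 : ℍ)
    (g : SL(2, ℤ)) (a : Kbar) :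
    iota h τ0 g (algebraMap Kbar (FN N) a) = HahnSeries.C (φ a) := by
  have := iota_aeval h τ0 g (MvPolynomial.C a)
  rw [MvPolynomial.aeval_C] at this
  rw [this, psi_apply, evHol_C]
  have h2 : pull g⁻¹ (constHol (φ a)) = constHol (φ a) := rfl
  rw [h2, tayHom_constHol, HahnSeries.ofPowerSeries_C]

lemma iota_gen {N : ℕ} [NeZero N] {φ : Kbar →+* ℂ} (h : AnRel N φ) (τ0 : ℍ)
    (g : SL(2, ℤ)) (d : N.divisors) :
    iota h τ0 g (gen N d)
      = HahnSeries.ofPowerSeries ℤ ℂ (tayHom τ0 (pull g⁻¹ (JdHol N d))) := by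
  have := iota_aeval h τ0 g (MvPolynomial.X d)
  rw [MvPolynomial.aeval_X] at this
  rw [this, psi_apply, evHol_X]

lemma pull_JdHol_of_mem_Gamma0 {N : ℕ} {γ : SL(2, ℤ)} (hγ : γ ∈ Gamma0 N) (d : N.divisors) :
    pull γ (JdHol N d) = JdHol N d := by
  apply Subtype.ext
  funext τ
  exact Jd_smul_of_mem_Gamma0 (Nat.dvd_of_mem_divisors d.2) (Nat.pos_of_mem_divisors d.2) hγ τ

lemma psi_mul_right (N : ℕ) (φ : Kbar →+* ℂ) (τ0 : ℍ) (g : SL(2, ℤ)) {γ : SL(2, ℤ)}
    (hγ : γ ∈ Gamma0 N) : psi N φ τ0 (g * γ) = psi N φ τ0 g := by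
  apply MvPolynomial.ringHom_ext
  · intro r
    rw [psi_apply, psi_apply, evHol_C]
    rfl
  · intro d
    rw [psi_apply, psi_apply, evHol_X, mul_inv_rev, ← pull_pull,
      pull_JdHol_of_mem_Gamma0 (inv_mem hγ)]

lemma iota_mul_right {N : ℕ} [NeZero N] {φ : Kbar →+* ℂ} (h : AnRel N φ) (τ0 : ℍ)
    (g : SL(2, ℤ)) {γ : SL(2, ℤ)} (hγ : γ ∈ Gamma0 N) :
    iota h τ0 (g * γ) = iota h τ0 g := by
  apply ringHom_ext_of_aeval (gen N) (exists_aeval_div N)
  intro P
  rw [iota_aeval, iota_aeval, psi_mul_right N φ τ0 g hγ]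

lemma iota_eq_of_mk_eq {N : ℕ} [NeZero N] {φ : Kbar →+* ℂ} (h : AnRel N φ) (τ0 : ℍ)
    {g g' : SL(2, ℤ)} (hgg' : (g : XN N) = (g' : XN N)) :
    iota h τ0 g = iota h τ0 g' := by
  have hmem : g⁻¹ * g' ∈ Gamma0 N := QuotientGroup.eq.1 hgg'
  have := iota_mul_right h τ0 g hmem
  rw [mul_inv_cancel_left] at this
  exact this.symm

/-- Coset separation (`E5`) gives injectivity of `g ↦ iota g` on cosets. -/
lemma mem_Gamma0_of_iota_eq {N : ℕ} [NeZero N] {φ : Kbar →+* ℂ} (h : AnRel N φ)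
    (hsep : ∀ g : SL(2, ℤ), (∀ τ : ℍ, Jd N (g • τ) = Jd N τ) → g ∈ Gamma0 N)
    (τ0 : ℍ) {g g' : SL(2, ℤ)} (heq : iota h τ0 g = iota h τ0 g') :
    g⁻¹ * g' ∈ Gamma0 N := by
  apply hsep
  intro τ
  have h1 := RingHom.congr_fun heq (gen N (topIdx N))
  rw [iota_gen, iota_gen] at h1
  have h2 : pull g⁻¹ (JdHol N (topIdx N)) = pull g'⁻¹ (JdHol N (topIdx N)) :=
    tayHom_injective τ0 (HahnSeries.ofPowerSeries_injective h1)
  have h3 := congrArg (fun F : Hol => (F : ℍ → ℂ) (g' • τ)) h2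
  simp only [pull_apply, JdHol, topIdx, inv_smul_smul] at h3
  rw [mul_smul]
  exact h3

/-- Pulling back by an element fixing `τ0` corresponds to the coefficient twist. -/
lemma twist_iota {N : ℕ} [NeZero N] {φ : Kbar →+* ℂ} (h : AnRel N φ) (τ0 : ℍ) (γ0 : SL(2, ℤ))
    (lam : ℂ) (hlam : lam ≠ 0)
    (hfix : ∀ᶠ u in 𝓝 (0 : ℂ), γ0 • ofComplex (cay τ0 u) = ofComplex (cay τ0 (lam * u)))
    (g : SL(2, ℤ)) (f : FN N) :
    twist lam hlam (iota h τ0 g f) = iota h τ0 (γ0⁻¹ * g) f := by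
  have key : ((twist lam hlam : LaurentSeries ℂ ≃+* LaurentSeries ℂ) : LaurentSeries ℂ →+*
      LaurentSeries ℂ).comp (iota h τ0 g) = iota h τ0 (γ0⁻¹ * g) := by
    apply ringHom_ext_of_aeval (gen N) (exists_aeval_div N)
    intro P
    rw [RingHom.comp_apply, iota_aeval, iota_aeval, psi_apply, psi_apply]
    show twist lam hlam _ = _
    rw [twist_ofPowerSeries, ← tayHom_pull τ0 γ0 lam hfix, pull_pull, mul_inv_rev, inv_inv]
  exact RingHom.congr_fun key f

lemma orderTop_ofPowerSeries_of_order {p : PowerSeries ℂ} {m : ℕ} (h : p.order = m) :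
    (HahnSeries.ofPowerSeries ℤ ℂ p).orderTop = ((m : ℤ) : WithTop ℤ) := by
  rw [PowerSeries.order_eq_nat] at h
  refine HahnSeries.orderTop_eq_of_le ?_ ?_
  · rw [HahnSeries.mem_support, HahnSeries.ofPowerSeries_apply_coeff]
    exact h.1
  · intro n hn
    rw [HahnSeries.mem_support] at hn
    by_contra hlt
    rw [not_le] at hlt
    apply hn
    rcases lt_or_ge n 0 with hn0 | hn0
    · rw [HahnSeries.ofPowerSeries_apply]
      refine HahnSeries.embDomain_of_notMem_range ?_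
      rintro ⟨k, rfl⟩
      exact absurd hn0 (not_lt.mpr (Int.natCast_nonneg k))
    · obtain ⟨k, rfl⟩ := Int.eq_ofNat_of_zero_le hn0
      rw [HahnSeries.ofPowerSeries_apply_coeff]
      exact h.2 k (by exact_mod_cast hlt)


/-! ## The local datum at a finite point -/

lemma iota_sub_const {N : ℕ} [NeZero N] {φ : Kbar →+* ℂ} (h : AnRel N φ) (τ0 : ℍ)
    (g : SL(2, ℤ)) (c : Kbar) :
    iota h τ0 g (jBar N - algebraMap Kbar (FN N) c)
      = HahnSeries.ofPowerSeries ℤ ℂ (tayH τ0 (fun τ : ℍ => jFun τ - φ c)) := by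
  rw [map_sub, iota_algebraMap, ← gen_oneIdx, iota_gen, ← HahnSeries.ofPowerSeries_C,
    ← map_sub, ← tayHom_constHol τ0, ← map_sub]
  have e : pull g⁻¹ (JdHol N (oneIdx N)) - constHol (φ c)
      = ⟨fun τ : ℍ => jFun τ - φ c, mdifferentiable_jFun.sub mdifferentiable_const⟩ := by
    apply Subtype.ext
    funext τ
    show Jd 1 (g⁻¹ • τ) - φ c = jFun τ - φ c
    rw [Jd_one, jFun_smul]
  rw [e]
  rfl

/-- The local datum at a point `τ0` of the upper half plane with `j(τ0) = φ c`: if `γ0` fixes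
`τ0` and acts in the Cayley coordinate by the primitive `m`-th root of unity `lam`, and `j - φ c`
vanishes to order `m` at `τ0`, then the Taylor expansions at `τ0` of the conjugates
`(ev f) ∘ g⁻¹`, `g ∈ SL(2, ℤ) ⧸ Γ₀(N)`, form a `LocalDatum` for `y = j - c`. -/
theorem localDatum_of_fixed (N : ℕ) [NeZero N] {φ : Kbar →+* ℂ} (h : AnRel N φ)
    (hsep : ∀ g : SL(2, ℤ), (∀ τ : ℍ, Jd N (g • τ) = Jd N τ) → g ∈ Gamma0 N)
    (τ0 : ℍ) (γ0 : SL(2, ℤ)) (lam : ℂ) (m : ℕ) (hm : 0 < m) (hprim : IsPrimitiveRoot lam m)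
    (hfix : ∀ᶠ u in 𝓝 (0 : ℂ), γ0 • ofComplex (cay τ0 u) = ofComplex (cay τ0 (lam * u)))
    (c : Kbar)
    (hord : analyticOrderAt (fun z : ℂ => jFun (ofComplex z) - φ c) (τ0 : ℂ) = m) :
    LocalDatum N (jBar N - algebraMap Kbar (FN N) c) m γ0 := by
  have hlam : lam ≠ 0 := hprim.ne_zero hm.ne'
  let alg : Algebra Kbar (LaurentSeries ℂ) :=
    ((HahnSeries.C : ℂ →+* LaurentSeries ℂ).comp φ).toAlgebra
  have halg : ∀ a : Kbar, algebraMap Kbar (LaurentSeries ℂ) a = HahnSeries.C (φ a) := fun a => rfl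
  let ι : XN N → (FN N →ₐ[Kbar] LaurentSeries ℂ) := fun x =>
    { iota h τ0 (Quotient.out x) with
      commutes' := fun a => by
        rw [halg]
        exact iota_algebraMap h τ0 _ a }
  have hι : ∀ (x : XN N) (f : FN N), ι x f = iota h τ0 (Quotient.out x) f := fun x f => rfl
  let σ : LaurentSeries ℂ ≃ₐ[Kbar] LaurentSeries ℂ :=
    AlgEquiv.ofRingEquiv (f := twist lam hlam) (fun a => by
      rw [halg]
      exact twist_C lam hlam _)
  have hσ : ∀ z : LaurentSeries ℂ, σ z = twist lam hlam z := fun z => rfl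
  have hJ : MDiff (fun τ : ℍ => jFun τ - φ c) := mdifferentiable_jFun.sub mdifferentiable_const
  refine ⟨LaurentSeries ℂ, inferInstance, alg, HahnSeries.addVal ℤ ℂ, ι, σ,
    HahnSeries.ofPowerSeries ℤ ℂ (tayH τ0 (fun τ : ℍ => jFun τ - φ c)), ?_, ?_, ?_, hm, ?_, ?_,
    Or.inr ?_, ?_⟩
  · -- the valuation is trivial on nonzero constants
    intro a ha
    rw [halg, HahnSeries.addVal_apply, HahnSeries.C_apply]
    exact HahnSeries.orderTop_single ((map_ne_zero φ).2 ha)
  · -- injectivity in the coset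
    intro x x' hxx'
    have h1 : iota h τ0 (Quotient.out x) = iota h τ0 (Quotient.out x') := by
      refine RingHom.ext fun f => ?_
      have := congrArg (fun e : FN N →ₐ[Kbar] LaurentSeries ℂ => e f) hxx'
      exact this
    have h2 := mem_Gamma0_of_iota_eq h hsep τ0 h1
    rw [← QuotientGroup.out_eq' x, ← QuotientGroup.out_eq' x']
    exact QuotientGroup.eq.2 h2
  · -- all embeddings agree on `y`
    intro x
    exact iota_sub_const h τ0 _ c
  · -- the valuation of `ξ`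
    rw [HahnSeries.addVal_apply]
    exact orderTop_ofPowerSeries_of_order (tayH_order hJ τ0 hord)
  · -- `σ` preserves the valuation
    intro z
    rw [HahnSeries.addVal_apply, HahnSeries.addVal_apply, hσ, orderTop_twist]
  · -- `σ` permutes the embeddings
    intro x f
    rw [hσ, hι, hι, twist_iota h τ0 γ0 lam hlam hfix]
    refine RingHom.congr_fun (iota_eq_of_mk_eq h τ0 ?_) f
    have e1 : ((γ0⁻¹ * Quotient.out x : SL(2, ℤ)) : XN N) = γ0⁻¹ • x := by
      conv_rhs => rw [← QuotientGroup.out_eq' x]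
      rfl
    have e2 : ((Quotient.out (γ0⁻¹ • x) : SL(2, ℤ)) : XN N) = γ0⁻¹ • x :=
      QuotientGroup.out_eq' _
    exact e1.trans e2.symm
  · -- divisibility of the valuation of elements fixed by a power of `σ`
    intro k z hz hfixz
    have hco : ∀ n : ℤ, lam ^ ((k : ℤ) * n) * z.coeff n = z.coeff n := by
      intro n
      have h1 : ((twist lam hlam : LaurentSeries ℂ → LaurentSeries ℂ)^[k] z) = z := by
        have h2 : (σ ^ k) z = ((σ : LaurentSeries ℂ → LaurentSeries ℂ)^[k]) z := by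
          rw [AlgEquiv.coe_pow]
        rw [h2] at hfixz
        exact hfixz
      have h3 := congrArg (fun y : LaurentSeries ℂ => y.coeff n) h1
      simpa [twist_iterate_coeff] using h3
    obtain ⟨l, hl⟩ := orderTop_of_twist_pow_fixed hm hprim k hz hco
    exact ⟨l, by rw [HahnSeries.addVal_apply]; exact hl⟩

/-! ## The three finite-point statements of the spec -/

/-- Coset separation (`E5`): `j(N gτ) = j(Nτ)` for all `τ` forces `g ∈ Γ₀(N)`. -/
def Stmt_CosetSep : Prop :=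
  ∀ (N : ℕ) [NeZero N] (g : SL(2, ℤ)), (∀ τ : ℍ, Jd N (g • τ) = Jd N τ) → g ∈ Gamma0 N

/-- The formal and analytic generators satisfy the same polynomial relations. -/
def Stmt_AnRel : Prop := ∀ (N : ℕ) [NeZero N], ∃ φ : Kbar →+* ℂ, AnRel N φ

/-- Surjectivity of `j`. -/
def Stmt_JSurj : Prop := ∀ c : ℂ, ∃ τ : ℍ, jFun τ = c

/-- `j - j(τ0)` has a simple zero at `τ0` unless `j(τ0) ∈ {0, 1728}`. -/
def Stmt_OrdGeneric : Prop :=
  ∀ τ0 : ℍ, jFun τ0 ≠ 0 → jFun τ0 ≠ 1728 →
    analyticOrderAt (fun z : ℂ => jFun (ofComplex z) - jFun τ0) (τ0 : ℂ) = 1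

/-- `j - 1728` has a double zero at `i`. -/
def Stmt_OrdI : Prop :=
  analyticOrderAt (fun z : ℂ => jFun (ofComplex z) - 1728) ((UpperHalfPlane.I : ℍ) : ℂ) = 2

/-- `j` has a triple zero at `ρ`. -/
def Stmt_OrdRho : Prop :=
  analyticOrderAt (fun z : ℂ => jFun (ofComplex z)) ((rhoPt : ℍ) : ℂ) = 3

theorem stmt_LocalGeneric (h1 : Stmt_AnRel) (h2 : Stmt_CosetSep) (h3 : Stmt_JSurj)
    (h4 : Stmt_OrdGeneric) : Stmt_LocalGeneric := by
  intro N _ c hc0 hc1728
  obtain ⟨φ, hφ⟩ := h1 N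
  obtain ⟨τ0, hτ0⟩ := h3 (φ c)
  have hne0 : jFun τ0 ≠ 0 := by
    rw [hτ0]
    exact (map_ne_zero φ).2 hc0
  have hne1 : jFun τ0 ≠ 1728 := by
    rw [hτ0]
    intro hh
    apply hc1728
    apply φ.injective
    rw [hh, map_ofNat]
  have hord := h4 τ0 hne0 hne1
  rw [hτ0] at hord
  exact localDatum_of_fixed N hφ (h2 N) τ0 1 1 1 one_pos IsPrimitiveRoot.one
    (Filter.Eventually.of_forall fun u => by simp) c (by rw [Nat.cast_one]; exact hord)

theorem stmt_Local1728 (h1 : Stmt_AnRel) (h2 : Stmt_CosetSep) (h3 : Stmt_OrdI) :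
    Stmt_Local1728 := by
  intro N _
  obtain ⟨φ, hφ⟩ := h1 N
  have hprim : IsPrimitiveRoot (-1 : ℂ) 2 := by
    refine IsPrimitiveRoot.mk_of_lt _ (by norm_num) (by norm_num) fun l hl0 hl2 => ?_
    interval_cases l
    norm_num
  exact localDatum_of_fixed N hφ (h2 N) UpperHalfPlane.I ModularGroup.S (-1) 2 two_pos hprim
    eventually_S_smul_cay (1728 : Kbar) (by rw [map_ofNat]; exact h3)

theorem stmt_LocalZero (h1 : Stmt_AnRel) (h2 : Stmt_CosetSep) (h3 : Stmt_OrdRho) :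
    Stmt_LocalZero := by
  intro N _
  obtain ⟨φ, hφ⟩ := h1 N
  have := localDatum_of_fixed N hφ (h2 N) rhoPt (ModularGroup.S * ModularGroup.T) lamRho 3
    (by norm_num) isPrimitiveRoot_lamRho eventually_ST_smul_cay (0 : Kbar)
    (by rw [map_zero]; simpa [Stmt_OrdRho] using h3)
  simpa using this

end

end Fermat.Agent.S24.helper633
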