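import Fermat.Agent.S24.helper167_JFinrank
import Fermat.Agent.S24.helper315_CuspExp
import Fermat.Agent.S24.helper1644_AnalyticJ
import Fermat.Agent.S24.helper288_Conj
import Fermat.Agent.Lib.helper319_HermiteForm

/-!
# S24, EV-L (helper7318): analytic realisation of `A_N = ℚ̄[j(q^d) : d ∣ N]`

The Laurent expansion at the cusp `Λ = helper315.cuspExp 1` is an injective ring homomorphism
from functions on `ℍ` (holomorphic, `1`-periodic, meromorphic at the cusp) to `LaurentSeries ℂ`.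
The coefficient map `Φ = coeffMap κ` sends `A_N` into the range of `Λ` (the generators `j(q^d)`
are the expansions of `τ ↦ j(dτ)`), so `ev := Λ⁻¹ ∘ Φ` is a ring homomorphism from `A_N` to
functions on `ℍ`.  No products of series are ever computed by hand.
-/

set_option autoImplicit false

open UpperHalfPlane ModularForm MatrixGroups CongruenceSubgroup ModularCurve IntermediateField
open scoped Manifold

namespace Fermat.Agent.S24.helper7318

open Fermat.Agent.S24.helper24 Fermat.Agent.S24.helper3176 Fermat.Agent.S24.helper315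

noncomputable section

/-! ## The functions `τ ↦ j(dτ)` -/

/-- The function `τ ↦ j(dτ)`. -/
def jD (d : ℕ) (τ : ℍ) : ℂ := jFun (ofComplex ((d : ℂ) * (τ : ℂ)))

theorem im_natCast_mul_pos {d : ℕ} (hd : 0 < d) (τ : ℍ) : 0 < ((d : ℂ) * (τ : ℂ)).im := by
  have h : ((d : ℂ) * (τ : ℂ)).im = (d : ℝ) * τ.im := by
    simp [Complex.mul_im]
  rw [h]
  exact mul_pos (Nat.cast_pos.mpr hd) τ.im_pos

theorem coe_ofComplex_natCast_mul {d : ℕ} (hd : 0 < d) (τ : ℍ) :
    ((ofComplex ((d : ℂ) * (τ : ℂ)) : ℍ) : ℂ) = (d : ℂ) * (τ : ℂ) :=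
  ofComplex_apply_of_im_pos (im_natCast_mul_pos hd τ) ▸ rfl

theorem qH_one_eq (τ : ℍ) :
    qH ((1 : ℕ) : ℝ) τ = Function.Periodic.qParam 1 (τ : ℂ) := by
  rw [qH_apply, Nat.cast_one]

theorem qParam_ofComplex_mul {d : ℕ} (hd : 0 < d) (τ : ℍ) :
    Function.Periodic.qParam 1 ((ofComplex ((d : ℂ) * (τ : ℂ)) : ℍ) : ℂ)
      = Function.Periodic.qParam 1 (τ : ℂ) ^ d := by
  rw [coe_ofComplex_natCast_mul hd]
  unfold Function.Periodic.qParam
  rw [← Complex.exp_nat_mul]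
  congr 1
  push_cast
  ring

/-- Coefficients of `jNumQ` as complex numbers. -/
def cJ (n : ℕ) : ℂ := ((PowerSeries.coeff n jNumQ : ℚ) : ℂ)

/-- Coefficients of `q^d j(q^d)`. -/
def cD (d n : ℕ) : ℂ := if d ∣ n then cJ (n / d) else 0

theorem jD_mul_qH_pow {d : ℕ} (hd : 0 < d) (τ : ℍ) :
    qH ((1 : ℕ) : ℝ) τ ^ d * jD d τ = helper1644.jnFun (qH ((1 : ℕ) : ℝ) τ ^ d) := by
  have h := helper1644.jnFun_qParam (ofComplex ((d : ℂ) * (τ : ℂ)))
  rw [qParam_ofComplex_mul hd, ← qH_one_eq] at h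
  exact h.symm

theorem hasSum_jD {d : ℕ} (hd : 0 < d) (τ : ℍ) :
    HasSum (fun n : ℕ => cD d n * qH ((1 : ℕ) : ℝ) τ ^ n)
      (qH ((1 : ℕ) : ℝ) τ ^ d * jD d τ) := by
  have h := helper1644.hasSum_jNumQ (ofComplex ((d : ℂ) * (τ : ℂ)))
  rw [qParam_ofComplex_mul hd, ← qH_one_eq] at h
  have hi : Function.Injective (fun n : ℕ => d * n) :=
    fun a b hab => Nat.eq_of_mul_eq_mul_left hd hab
  rw [← hi.hasSum_iff]
  · have hfun : ((fun n : ℕ => cD d n * qH ((1 : ℕ) : ℝ) τ ^ n) ∘ fun n : ℕ => d * n)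
        = fun n : ℕ => ((PowerSeries.coeff n jNumQ : ℚ) : ℂ) * (qH ((1 : ℕ) : ℝ) τ ^ d) ^ n := by
      funext n
      simp only [Function.comp_apply, cD, cJ, dvd_mul_right, if_true,
        Nat.mul_div_cancel_left _ hd, pow_mul]
    rw [hfun]
    exact h
  · intro n hn
    have hnd : ¬ d ∣ n := fun ⟨m, hm⟩ => hn ⟨m, hm.symm⟩
    simp [cD, hnd]

theorem hPeriodic_jD {d : ℕ} (hd : 0 < d) : HPeriodic ((1 : ℕ) : ℝ) (jD d) := by
  intro τ
  have h1 := jD_mul_qH_pow hd (((1 : ℕ) : ℝ) +ᵥ τ)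
  have h2 := jD_mul_qH_pow hd τ
  have hq : qH ((1 : ℕ) : ℝ) (((1 : ℕ) : ℝ) +ᵥ τ) = qH ((1 : ℕ) : ℝ) τ :=
    hPeriodic_qH (by norm_num) τ
  rw [hq, ← h2] at h1
  exact mul_left_cancel₀ (pow_ne_zero d (qH_ne_zero _ τ)) h1

theorem mdiff_jD {d : ℕ} (hd : 0 < d) : MDiff (jD d) := by
  have h := helper288.mdiff_jFn_mul_smul 1 d hd
  have e : jD d = fun τ : ℍ =>
      helper288.jFn (ofComplex ((d : ℂ) * ((((1 : SL(2, ℤ)) • τ : ℍ) : ℂ)))) := by
    funext τ
    rw [one_smul]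
    rfl
  rw [e]
  exact h

theorem cuspExpFun_jD_aux {d : ℕ} (hd : 0 < d) :
    IsCuspHol ((1 : ℕ) : ℝ) (qH ((1 : ℕ) : ℝ) ^ d * jD d) ∧
      cuspExpFun ((1 : ℕ) : ℝ) (jD d) = HahnSeries.single (-(d : ℤ)) (1 : ℂ) *
        HahnSeries.ofPowerSeries ℤ ℂ (PowerSeries.mk (cD d)) :=
  cuspExpFun_eq_of_hasSum (natCast_pos' 1) (mdiff_jD hd) (hPeriodic_jD hd) (hasSum_jD hd)

theorem jD_mem_cuspMer {d : ℕ} (hd : 0 < d) : jD d ∈ cuspMer 1 :=
  ⟨d, (cuspExpFun_jD_aux hd).1⟩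

/-- The formal series `j(q^d)` with complex coefficients, in the same normal form. -/
theorem coeffMap_jSeries (κ : Kbar →+* ℂ) (d : ℕ) [NeZero d] :
    coeffMap κ (jSeries d) = HahnSeries.single (-(d : ℤ)) (1 : ℂ) *
      HahnSeries.ofPowerSeries ℤ ℂ (PowerSeries.mk (cD d)) := by
  have hd : 0 < d := Nat.pos_of_ne_zero (NeZero.ne d)
  ext k
  rw [HahnSeries.coeff_single_mul, one_mul, sub_neg_eq_add]
  have hL : (coeffMap κ (jSeries d)).coeff k = (((qExpand ℚ d jq).coeff k : ℚ) : ℂ) := by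
    show κ (algebraMap ℚ Kbar ((qExpand ℚ d jq).coeff k)) = _
    rw [eq_ratCast, map_ratCast]
  rw [hL]
  by_cases hk : (d : ℤ) ∣ k
  · obtain ⟨m, rfl⟩ := hk
    rw [qExpand_coeff_mul, helper1644.coeff_jq]
    by_cases hm : 0 ≤ m + 1
    · obtain ⟨n, hn⟩ := Int.eq_ofNat_of_zero_le hm
      have e : (d : ℤ) * m + d = ((d * n : ℕ) : ℤ) := by
        push_cast
        rw [← hn]
        ring
      rw [hn, e, HahnSeries.ofPowerSeries_apply_coeff, HahnSeries.ofPowerSeries_apply_coeff,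
        PowerSeries.coeff_mk]
      simp only [cD, cJ, dvd_mul_right, if_true, Nat.mul_div_cancel_left _ hd]
    · have h1 : (d : ℤ) * m + d < 0 := by
        have h2 : (d : ℤ) * m + d = (d : ℤ) * (m + 1) := by ring
        rw [h2]
        exact mul_neg_of_pos_of_neg (by exact_mod_cast hd) (by omega)
      rw [ModularCurve.ofPowerSeries_coeff_of_neg _ (by omega),
        ModularCurve.ofPowerSeries_coeff_of_neg _ h1]
      simp
  · rw [qExpand_coeff_of_not_dvd d _ hk]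
    by_cases hm : 0 ≤ k + d
    · obtain ⟨n, hn⟩ := Int.eq_ofNat_of_zero_le hm
      have hnd : ¬ d ∣ n := by
        intro hdn
        apply hk
        have h3 : (d : ℤ) ∣ (n : ℤ) := by exact_mod_cast hdn
        rw [← hn] at h3
        exact (Int.dvd_add_left (dvd_refl _)).mp h3
      rw [hn, HahnSeries.ofPowerSeries_apply_coeff, PowerSeries.coeff_mk]
      simp [cD, hnd]
    · rw [ModularCurve.ofPowerSeries_coeff_of_neg _ (by omega)]
      simp

/-! ## The evaluation homomorphism -/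

theorem coeffMap_injective (κ : Kbar →+* ℂ) : Function.Injective (coeffMap κ) := by
  intro x y h
  ext k
  have h1 := congrArg (fun z : LaurentSeries ℂ => z.coeff k) h
  simp only [coeffMap_coeff] at h1
  exact κ.injective h1

/-- `Φ`: the expansion of an element of `A_N`, with complex coefficients. -/
def Phi (κ : Kbar →+* ℂ) (N : ℕ) : AN N →+* LaurentSeries ℂ :=
  (coeffMap κ).comp
    (((modularFunctionFieldBar N).val : FN N →+* LaurentSeries Kbar).comp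
      ((AN N).val : AN N →+* FN N))

theorem Phi_apply (κ : Kbar →+* ℂ) (N : ℕ) (a : AN N) :
    Phi κ N a = coeffMap κ (((a : AN N) : FN N) : LaurentSeries Kbar) := rfl

theorem Phi_injective (κ : Kbar →+* ℂ) (N : ℕ) : Function.Injective (Phi κ N) := by
  intro a b h
  rw [Phi_apply, Phi_apply] at h
  exact Subtype.ext (Subtype.ext (coeffMap_injective κ h))

/-- Induction principle for `A_N`. -/
theorem AN_induction (N : ℕ) (P : AN N → Prop)
    (hgen : ∀ (d : ℕ) [NeZero d] (hd : d ∣ N), P ⟨jBarD N d hd, jBarD_mem_AN N d hd⟩)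
    (hconst : ∀ c : Kbar, P (algebraMap Kbar (AN N) c))
    (hadd : ∀ a b, P a → P b → P (a + b)) (hmul : ∀ a b, P a → P b → P (a * b)) :
    ∀ a, P a := by
  rintro ⟨a, ha⟩
  unfold AN at ha
  induction ha using Algebra.adjoin_induction with
  | mem x hx =>
      obtain ⟨d, hd0, hd, rfl⟩ := hx
      exact hgen d hd
  | algebraMap c => exact hconst c
  | add x y hx hy ihx ihy => exact hadd ⟨x, hx⟩ ⟨y, hy⟩ ihx ihy
  | mul x y hx hy ihx ihy => exact hmul ⟨x, hx⟩ ⟨y, hy⟩ ihx ihy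

theorem Phi_jBarD (κ : Kbar →+* ℂ) (N d : ℕ) [NeZero d] (hd : d ∣ N) :
    Phi κ N ⟨jBarD N d hd, jBarD_mem_AN N d hd⟩ = coeffMap κ (jSeries d) := rfl

theorem Phi_algebraMap (κ : Kbar →+* ℂ) (N : ℕ) (c : Kbar) :
    Phi κ N (algebraMap Kbar (AN N) c) = HahnSeries.C (κ c) := by
  show coeffMap κ (algebraMap Kbar (LaurentSeries Kbar) c) = HahnSeries.C (κ c)
  rw [algebraMap_laurentSeries_eq_single, coeffMap_single]
  rfl

theorem Phi_mem_range (κ : Kbar →+* ℂ) (N : ℕ) (a : AN N) :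
    Phi κ N a ∈ (cuspExp 1).range := by
  revert a
  apply AN_induction
  · intro d _ hd
    have hdpos : 0 < d := Nat.pos_of_ne_zero (NeZero.ne d)
    refine ⟨⟨jD d, jD_mem_cuspMer hdpos⟩, ?_⟩
    rw [cuspExp_apply, Phi_jBarD, coeffMap_jSeries]
    exact (cuspExpFun_jD_aux hdpos).2
  · intro c
    refine ⟨⟨fun _ => κ c, (IsCuspHol.const _ _).isCuspMer⟩, ?_⟩
    rw [cuspExp_apply, Phi_algebraMap]
    exact cuspExpFun_const (natCast_pos' 1) (κ c)
  · intro a b ha hb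
    rw [map_add]
    exact add_mem ha hb
  · intro a b ha hb
    rw [map_mul]
    exact mul_mem ha hb

/-- The cusp expansion as a ring isomorphism onto its range. -/
def lamEquiv : cuspMer 1 ≃+* (cuspExp 1).range :=
  RingEquiv.ofBijective (cuspExp 1).rangeRestrict
    ⟨fun _ _ h => cuspExp_injective 1 (congrArg Subtype.val h),
      (cuspExp 1).rangeRestrict_surjective⟩

theorem cuspExp_lamEquiv_symm (y : (cuspExp 1).range) : cuspExp 1 (lamEquiv.symm y) = y := by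
  have h := lamEquiv.apply_symm_apply y
  exact congrArg Subtype.val h

/-- The evaluation homomorphism, with values in `cuspMer 1`. -/
def evC (κ : Kbar →+* ℂ) (N : ℕ) : AN N →+* cuspMer 1 :=
  (lamEquiv.symm : (cuspExp 1).range →+* cuspMer 1).comp
    ((Phi κ N).codRestrict (cuspExp 1).range (Phi_mem_range κ N))

theorem cuspExp_evC (κ : Kbar →+* ℂ) (N : ℕ) (a : AN N) :
    cuspExp 1 (evC κ N a) = Phi κ N a :=
  cuspExp_lamEquiv_symm _

theorem evC_eq_of_cuspExp (κ : Kbar →+* ℂ) (N : ℕ) (a : AN N) (f : cuspMer 1)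
    (h : cuspExp 1 f = Phi κ N a) : evC κ N a = f :=
  cuspExp_injective 1 ((cuspExp_evC κ N a).trans h.symm)

/-- The evaluation homomorphism: `A_N` realised by holomorphic functions on `ℍ`. -/
def ev (κ : Kbar →+* ℂ) (N : ℕ) : AN N →+* (ℍ → ℂ) :=
  (cuspMer 1).subtype.comp (evC κ N)

theorem ev_apply (κ : Kbar →+* ℂ) (N : ℕ) (a : AN N) :
    ev κ N a = ((evC κ N a : cuspMer 1) : ℍ → ℂ) := rfl

theorem ev_mem_cuspMer (κ : Kbar →+* ℂ) (N : ℕ) (a : AN N) : ev κ N a ∈ cuspMer 1 :=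
  (evC κ N a).2

theorem isCuspMer_ev (κ : Kbar →+* ℂ) (N : ℕ) (a : AN N) :
    IsCuspMer ((1 : ℕ) : ℝ) (ev κ N a) :=
  (evC κ N a).2

/-- The defining property: the cusp expansion of `ev a` is `a` with complex coefficients. -/
theorem cuspExpFun_ev (κ : Kbar →+* ℂ) (N : ℕ) (a : AN N) :
    cuspExpFun ((1 : ℕ) : ℝ) (ev κ N a)
      = coeffMap κ (((a : AN N) : FN N) : LaurentSeries Kbar) :=
  cuspExp_evC κ N a

theorem ev_injective (κ : Kbar →+* ℂ) (N : ℕ) : Function.Injective (ev κ N) := by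
  intro a b h
  apply Phi_injective κ N
  rw [← cuspExp_evC, ← cuspExp_evC]
  exact congrArg (cuspExp 1) (Subtype.ext h)

theorem mdiff_ev (κ : Kbar →+* ℂ) (N : ℕ) (a : AN N) : MDiff (ev κ N a) :=
  (isCuspMer_ev κ N a).mdiff

theorem ev_vadd_one (κ : Kbar →+* ℂ) (N : ℕ) (a : AN N) (τ : ℍ) :
    ev κ N a (((1 : ℕ) : ℝ) +ᵥ τ) = ev κ N a τ :=
  (isCuspMer_ev κ N a).periodic (natCast_pos' 1) τ

theorem ev_jBarD (κ : Kbar →+* ℂ) (N d : ℕ) [NeZero d] (hd : d ∣ N) :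
    ev κ N ⟨jBarD N d hd, jBarD_mem_AN N d hd⟩ = jD d := by
  have hdpos : 0 < d := Nat.pos_of_ne_zero (NeZero.ne d)
  have h := evC_eq_of_cuspExp κ N ⟨jBarD N d hd, jBarD_mem_AN N d hd⟩
    ⟨jD d, jD_mem_cuspMer hdpos⟩ (by
      rw [cuspExp_apply, Phi_jBarD, coeffMap_jSeries]
      exact (cuspExpFun_jD_aux hdpos).2)
  rw [ev_apply, h]

theorem ev_algebraMap (κ : Kbar →+* ℂ) (N : ℕ) (c : Kbar) :
    ev κ N (algebraMap Kbar (AN N) c) = fun _ => κ c := by
  have h := evC_eq_of_cuspExp κ N (algebraMap Kbar (AN N) c)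
    ⟨fun _ => κ c, (IsCuspHol.const _ _).isCuspMer⟩ (by
      rw [cuspExp_apply, Phi_algebraMap]
      exact cuspExpFun_const (natCast_pos' 1) (κ c))
  rw [ev_apply, h]

theorem jD_one (τ : ℍ) : jD 1 τ = jFun τ := by
  unfold jD
  rw [Nat.cast_one, one_mul, ofComplex_apply]

theorem ev_jBar (κ : Kbar →+* ℂ) (N : ℕ) (τ : ℍ) :
    ev κ N ⟨jBar N, jBar_mem_AN N⟩ τ = jFun τ := by
  have h := ev_jBarD κ N 1 (one_dvd N)
  have h2 : ev κ N ⟨jBar N, jBar_mem_AN N⟩ = jD 1 := h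
  rw [h2, jD_one]

/-! ## Invariance, growth, linear relations -/

theorem jFun_smul (γ : SL(2, ℤ)) (τ : ℍ) : jFun (γ • τ) = jFun τ :=
  helper1644.jFun_smul γ τ

theorem mem_Gamma0_of_dvd {N d : ℕ} (hd : d ∣ N) {γ : SL(2, ℤ)} (hγ : γ ∈ Gamma0 N) :
    γ ∈ Gamma0 d := by
  rw [Gamma0_mem] at hγ ⊢
  rw [ZMod.intCast_zmod_eq_zero_iff_dvd] at hγ ⊢
  exact (Int.natCast_dvd_natCast.mpr hd).trans hγ

/-- `τ ↦ j(dτ)` is invariant under `Γ₀(N)` for `d ∣ N`. -/
theorem jD_smul_of_mem_Gamma0 {N d : ℕ} (hdpos : 0 < d) (hd : d ∣ N) {γ : SL(2, ℤ)}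
    (hγ : γ ∈ Gamma0 N) (τ : ℍ) : jD d (γ • τ) = jD d τ :=
  Lib.helper319.eq_of_mem_Gamma0 jFun jFun_smul d hdpos γ (mem_Gamma0_of_dvd hd hγ) τ _ _
    (coe_ofComplex_natCast_mul hdpos (γ • τ)) (coe_ofComplex_natCast_mul hdpos τ)

/-- `ev a` is `Γ₀(N)`-invariant. -/
theorem ev_smul_of_mem_Gamma0 (κ : Kbar →+* ℂ) (N : ℕ) (a : AN N) :
    ∀ γ ∈ Gamma0 N, ∀ τ : ℍ, ev κ N a (γ • τ) = ev κ N a τ := by
  revert a
  apply AN_induction
  · intro d _ hd γ hγ τ
    rw [ev_jBarD]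
    exact jD_smul_of_mem_Gamma0 (Nat.pos_of_ne_zero (NeZero.ne d)) hd hγ τ
  · intro c γ hγ τ
    rw [ev_algebraMap]
  · intro a b ha hb γ hγ τ
    rw [map_add, Pi.add_apply, Pi.add_apply, ha γ hγ τ, hb γ hγ τ]
  · intro a b ha hb γ hγ τ
    rw [map_mul, Pi.mul_apply, Pi.mul_apply, ha γ hγ τ, hb γ hγ τ]

/-- Every conjugate of `ev a` has at most exponential growth at `i∞`. -/
theorem hasExpGrowth_ev (κ : Kbar →+* ℂ) (N : ℕ) (a : AN N) :
    ∀ g : SL(2, ℤ), helper167.HasExpGrowth (fun τ => ev κ N a (g • τ)) := by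
  revert a
  apply AN_induction
  · intro d _ hd g
    rw [ev_jBarD]
    exact helper288.hasExpGrowth_jFn_mul_smul g d (Nat.pos_of_ne_zero (NeZero.ne d))
  · intro c g
    rw [ev_algebraMap]
    exact helper167.hasExpGrowth_const (κ c)
  · intro a b ha hb g
    rw [map_add]
    exact (ha g).add (hb g)
  · intro a b ha hb g
    rw [map_mul]
    exact (ha g).mul (hb g)

/-- Linear relations between the functions `ev b` hold between the formal series. -/
theorem linear_relation_transfer (κ : Kbar →+* ℂ) (N : ℕ) {ι : Type*} (s : Finset ι)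
    (c : ι → ℂ) (b : ι → AN N) (h : ∀ τ : ℍ, ∑ i ∈ s, c i * ev κ N (b i) τ = 0) :
    ∑ i ∈ s, c i • coeffMap κ (((b i : AN N) : FN N) : LaurentSeries Kbar) = 0 := by
  let cst : ℂ → cuspMer 1 := fun z => ⟨fun _ => z, (IsCuspHol.const _ _).isCuspMer⟩
  have hcst : ∀ z : ℂ, cuspExp 1 (cst z) = HahnSeries.C z := fun z => by
    rw [cuspExp_apply]
    exact cuspExpFun_const (natCast_pos' 1) z
  have hF : ∑ i ∈ s, cst (c i) * evC κ N (b i) = 0 := by
    apply Subtype.ext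
    funext τ
    have h1 : ((∑ i ∈ s, cst (c i) * evC κ N (b i) : cuspMer 1) : ℍ → ℂ)
        = ∑ i ∈ s, ((cst (c i) * evC κ N (b i) : cuspMer 1) : ℍ → ℂ) :=
      map_sum (cuspMer 1).subtype _ s
    rw [h1, Finset.sum_apply]
    exact h τ
  have h2 := congrArg (cuspExp 1) hF
  rw [map_sum, map_zero] at h2
  rw [← h2]
  refine Finset.sum_congr rfl fun i _ => ?_
  rw [map_mul, hcst, cuspExp_evC, Phi_apply, HahnSeries.C_mul_eq_smul]

/-- **EV-L**: the analytic realisation of `A_N`, in the shape of `helper167.EvDatum`. -/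
theorem evDatum_of (κ : Kbar →+* ℂ) (N : ℕ) [NeZero N] : helper167.EvDatum N :=
  ⟨κ, ev κ N, mdiff_ev κ N, ev_smul_of_mem_Gamma0 κ N, hasExpGrowth_ev κ N, ev_jBar κ N,
    fun s c b h => linear_relation_transfer κ N s c b h⟩

/-- An embedding of `ℚ̄` into `ℂ`. -/
def kappa : Kbar →+* ℂ :=
  letI : Algebra ℚ (AlgebraicClosure ℚ) := AlgebraicClosure.instAlgebra ℚ
  ((IsAlgClosed.lift : AlgebraicClosure ℚ →ₐ[ℚ] ℂ) : AlgebraicClosure ℚ →+* ℂ)

theorem evDatum (N : ℕ) [NeZero N] : helper167.EvDatum N := evDatum_of kappa N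

end

end Fermat.Agent.S24.helper7318
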