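import Fermat.Agent.S24.helper24_Spec

/-!
# S24, finite points: the field of meromorphic functions on the upper half plane (helper797)

`Hol` = ring of holomorphic functions on `ℍ` (a domain), `Mer κ` = its fraction field, seen as
an algebra over `Kbar` through an embedding `κ : Kbar →+* ℂ`, `ordAt κ τ0` = order at `τ0`
as an additive valuation with values in `WithTop ℤ`, `pull κ γ` = composition with the
Moebius action of `γ ∈ SL(2, ℤ)`, and the stabilizer lemma.
-/

set_option autoImplicit false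

open ModularCurve AlgebraicCurve IntermediateField CongruenceSubgroup UpperHalfPlane Filter
open scoped MatrixGroups Manifold Topology

namespace Fermat.Agent.S24.helper797

open Fermat.Agent.S24.helper24

/-! ## The ring of holomorphic functions -/

/-- Holomorphic functions on the upper half plane. -/
def Hol : Subring (ℍ → ℂ) where
  carrier := {f | MDiff f}
  mul_mem' hf hg := hf.mul hg
  one_mem' := mdifferentiable_const
  add_mem' hf hg := hf.add hg
  zero_mem' := mdifferentiable_const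
  neg_mem' hf := hf.neg

theorem mem_Hol {f : ℍ → ℂ} : f ∈ Hol ↔ MDiff f := Iff.rfl

theorem hol_mdiff (a : Hol) : MDiff (a : ℍ → ℂ) := a.2

instance : IsDomain Hol := by
  have : NoZeroDivisors Hol := by
    refine ⟨fun {a b} hab => ?_⟩
    have h : (a : ℍ → ℂ) * (b : ℍ → ℂ) = 0 := by
      have := congrArg (Subtype.val) hab
      simpa using this
    rcases (UpperHalfPlane.mul_eq_zero_iff (hol_mdiff a) (hol_mdiff b)).mp h with h | h
    · exact Or.inl (Subtype.ext h)
    · exact Or.inr (Subtype.ext h)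
  exact NoZeroDivisors.to_isDomain _

/-- Constant functions. -/
def constHol : ℂ →+* Hol where
  toFun c := ⟨fun _ => c, mdifferentiable_const⟩
  map_one' := rfl
  map_mul' _ _ := rfl
  map_zero' := rfl
  map_add' _ _ := rfl

@[simp] theorem constHol_apply (c : ℂ) (τ : ℍ) : (constHol c : ℍ → ℂ) τ = c := rfl

theorem constHol_injective : Function.Injective constHol := fun c d h => by
  have := congrFun (congrArg Subtype.val h) UpperHalfPlane.I
  simpa using this

/-- A holomorphic function on `ℍ`, read on `ℂ` through `ofComplex`, is analytic at every point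
of `ℍ`. -/
theorem hol_analyticAt (a : Hol) (τ0 : ℍ) :
    AnalyticAt ℂ (fun x : ℂ => (a : ℍ → ℂ) (ofComplex x)) (τ0 : ℂ) := by
  have h := UpperHalfPlane.mdifferentiable_iff.mp (hol_mdiff a)
  exact h.analyticAt (isOpen_upperHalfPlaneSet.mem_nhds τ0.im_pos)

/-- A nonzero holomorphic function has isolated zeros. -/
theorem hol_eventually_ne_zero {b : Hol} (hb : b ≠ 0) (τ0 : ℍ) :
    ∀ᶠ x in 𝓝[≠] (τ0 : ℂ), (b : ℍ → ℂ) (ofComplex x) ≠ 0 := by
  rcases (hol_analyticAt b τ0).eventually_eq_zero_or_eventually_ne_zero with h | h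
  · exfalso
    apply hb
    apply Subtype.ext
    refine UpperHalfPlane.eq_zero_of_frequently (hol_mdiff b) (τ := τ0) ?_
    apply Eventually.frequently
    have h2 : ∀ᶠ z : ℍ in 𝓝 τ0, (b : ℍ → ℂ) z = 0 := by
      have := (UpperHalfPlane.continuous_coe.tendsto τ0).eventually h
      filter_upwards [this] with z hz
      simpa [ofComplex_apply] using hz
    exact eventually_nhdsWithin_of_eventually_nhds h2
  · exact h


/-! ## The field of meromorphic functions -/

/-- Fractions of holomorphic functions on `ℍ`. The parameter records the embedding of `Kbar`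
into `ℂ` used for the `Kbar`-algebra structure. -/
def Mer (_κ : Kbar →+* ℂ) : Type := FractionRing Hol

section MerInstances

variable (κ : Kbar →+* ℂ)

noncomputable instance : Field (Mer κ) := inferInstanceAs (Field (FractionRing Hol))

noncomputable instance : Algebra Hol (Mer κ) :=
  inferInstanceAs (Algebra Hol (FractionRing Hol))

instance : IsFractionRing Hol (Mer κ) :=
  inferInstanceAs (IsFractionRing Hol (FractionRing Hol))

/-- Constants of `Kbar` as holomorphic functions. -/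
noncomputable def constK : Kbar →+* Hol := constHol.comp κ

noncomputable instance : Algebra Kbar (Mer κ) :=
  ((algebraMap Hol (Mer κ)).comp (constK κ)).toAlgebra

theorem algebraMap_Kbar_Mer (c : Kbar) :
    algebraMap Kbar (Mer κ) c = algebraMap Hol (Mer κ) (constK κ c) := rfl

theorem algebraMap_Hol_Mer_injective : Function.Injective (algebraMap Hol (Mer κ)) :=
  IsFractionRing.injective Hol (Mer κ)

end MerInstances

section Fn

variable {κ : Kbar →+* ℂ}

theorem exists_merNum_merDen (z : Mer κ) :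
    ∃ p : Hol × Hol, p.2 ≠ 0 ∧ algebraMap Hol (Mer κ) p.1 / algebraMap Hol (Mer κ) p.2 = z := by
  obtain ⟨x, y, hy, h⟩ := IsFractionRing.div_surjective (A := Hol) z
  exact ⟨(x, y), nonZeroDivisors.ne_zero hy, h⟩

/-- A chosen numerator. -/
noncomputable def merNum (z : Mer κ) : Hol := (exists_merNum_merDen z).choose.1

/-- A chosen denominator. -/
noncomputable def merDen (z : Mer κ) : Hol := (exists_merNum_merDen z).choose.2

theorem merDen_ne_zero (z : Mer κ) : merDen z ≠ 0 := (exists_merNum_merDen z).choose_spec.1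

theorem merNum_div_merDen (z : Mer κ) :
    algebraMap Hol (Mer κ) (merNum z) / algebraMap Hol (Mer κ) (merDen z) = z :=
  (exists_merNum_merDen z).choose_spec.2

/-- The quotient function of two holomorphic functions, on `ℍ`. -/
noncomputable def quotH (a b : Hol) : ℍ → ℂ := fun τ => (a : ℍ → ℂ) τ / (b : ℍ → ℂ) τ

/-- The quotient function of two holomorphic functions, read on `ℂ`. -/
noncomputable def quotC (a b : Hol) : ℂ → ℂ := fun x => quotH a b (ofComplex x)

theorem quotC_meromorphicAt (a b : Hol) (τ0 : ℍ) : MeromorphicAt (quotC a b) (τ0 : ℂ) :=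
  (hol_analyticAt a τ0).meromorphicAt.div (hol_analyticAt b τ0).meromorphicAt

/-- Two representations of the same fraction give eventually equal functions. -/
theorem quotC_eventuallyEq {a b c d : Hol} (hb : b ≠ 0) (hd : d ≠ 0)
    (h : algebraMap Hol (Mer κ) a / algebraMap Hol (Mer κ) b
      = algebraMap Hol (Mer κ) c / algebraMap Hol (Mer κ) d) (τ0 : ℍ) :
    quotC a b =ᶠ[𝓝[≠] (τ0 : ℂ)] quotC c d := by
  have hb' : algebraMap Hol (Mer κ) b ≠ 0 := by
    simpa using (algebraMap_Hol_Mer_injective κ).ne hb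
  have hd' : algebraMap Hol (Mer κ) d ≠ 0 := by
    simpa using (algebraMap_Hol_Mer_injective κ).ne hd
  have h2 : a * d = c * b := by
    apply algebraMap_Hol_Mer_injective κ
    rw [map_mul, map_mul]
    exact (div_eq_div_iff hb' hd').mp h
  filter_upwards [hol_eventually_ne_zero hb τ0, hol_eventually_ne_zero hd τ0] with x hbx hdx
  have h3 := congrFun (congrArg Subtype.val h2) (ofComplex x)
  simp only [Subring.coe_mul, Pi.mul_apply] at h3
  simp only [quotC, quotH]
  rw [div_eq_div_iff hbx hdx]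
  exact h3

/-- The function on `ℂ` attached to a meromorphic function (well defined up to eventual
equality in punctured neighbourhoods). -/
noncomputable def fn (z : Mer κ) : ℂ → ℂ := quotC (merNum z) (merDen z)

theorem fn_meromorphicAt (z : Mer κ) (τ0 : ℍ) : MeromorphicAt (fn z) (τ0 : ℂ) :=
  quotC_meromorphicAt _ _ τ0

theorem fn_eventuallyEq {z : Mer κ} {a b : Hol} (hb : b ≠ 0)
    (h : z = algebraMap Hol (Mer κ) a / algebraMap Hol (Mer κ) b) (τ0 : ℍ) :
    fn z =ᶠ[𝓝[≠] (τ0 : ℂ)] quotC a b :=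
  quotC_eventuallyEq (merDen_ne_zero z) hb ((merNum_div_merDen z).trans h) τ0

theorem fn_algebraMap_eventuallyEq (a : Hol) (τ0 : ℍ) :
    fn (algebraMap Hol (Mer κ) a) =ᶠ[𝓝[≠] (τ0 : ℂ)] fun x => (a : ℍ → ℂ) (ofComplex x) := by
  have h := fn_eventuallyEq (z := algebraMap Hol (Mer κ) a) (a := a) (b := 1) one_ne_zero
    (by simp) τ0
  filter_upwards [h] with x hx
  rw [hx]
  simp [quotC, quotH]

end Fn

/-! ## The order at a point as an additive valuation -/

section OrdAt

variable (κ : Kbar →+* ℂ)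

/-- Order of vanishing at `τ0`, as an additive valuation on `Mer κ`. -/
noncomputable def ordAt (τ0 : ℍ) : AddValuation (Mer κ) (WithTop ℤ) :=
  AddValuation.of (fun z => meromorphicOrderAt (fn z) (τ0 : ℂ))
    (by
      have h := fn_eventuallyEq (z := (0 : Mer κ)) (a := 0) (b := 1) one_ne_zero (by simp) τ0
      rw [meromorphicOrderAt_eq_top_iff]
      filter_upwards [h] with x hx
      rw [hx]
      simp [quotC, quotH])
    (by
      have h := fn_eventuallyEq (z := (1 : Mer κ)) (a := 1) (b := 1) one_ne_zero (by simp) τ0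
      rw [meromorphicOrderAt_congr h]
      have h1 : quotC (1 : Hol) 1 = fun _ => (1 : ℂ) := by
        funext x
        simp [quotC, quotH]
      rw [h1, meromorphicOrderAt_const]
      simp)
    (by
      intro x y
      have hxy : fn (x + y) =ᶠ[𝓝[≠] (τ0 : ℂ)] fn x + fn y := by
        have h := fn_eventuallyEq (z := x + y) (a := merNum x * merDen y + merNum y * merDen x)
          (b := merDen x * merDen y) (mul_ne_zero (merDen_ne_zero x) (merDen_ne_zero y))
          (by
            have hx' : algebraMap Hol (Mer κ) (merDen x) ≠ 0 := by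
              simpa using (algebraMap_Hol_Mer_injective κ).ne (merDen_ne_zero x)
            have hy' : algebraMap Hol (Mer κ) (merDen y) ≠ 0 := by
              simpa using (algebraMap_Hol_Mer_injective κ).ne (merDen_ne_zero y)
            conv_lhs => rw [← merNum_div_merDen x, ← merNum_div_merDen y]
            simp only [map_add, map_mul]
            field_simp) τ0
        filter_upwards [h, hol_eventually_ne_zero (merDen_ne_zero x) τ0,
          hol_eventually_ne_zero (merDen_ne_zero y) τ0] with t ht hxt hyt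
        rw [ht]
        simp only [fn, quotC, quotH, Pi.add_apply, Subring.coe_add, Subring.coe_mul,
          Pi.mul_apply]
        field_simp
      rw [meromorphicOrderAt_congr hxy]
      exact meromorphicOrderAt_add (fn_meromorphicAt x τ0) (fn_meromorphicAt y τ0))
    (by
      intro x y
      have hxy : fn (x * y) =ᶠ[𝓝[≠] (τ0 : ℂ)] fn x * fn y := by
        have h := fn_eventuallyEq (z := x * y) (a := merNum x * merNum y)
          (b := merDen x * merDen y) (mul_ne_zero (merDen_ne_zero x) (merDen_ne_zero y))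
          (by
            conv_lhs => rw [← merNum_div_merDen x, ← merNum_div_merDen y]
            simp only [map_mul]
            rw [div_mul_div_comm]) τ0
        filter_upwards [h] with t ht
        rw [ht]
        simp only [fn, quotC, quotH, Pi.mul_apply, Subring.coe_mul]
        rw [div_mul_div_comm]
      rw [meromorphicOrderAt_congr hxy]
      exact meromorphicOrderAt_mul (fn_meromorphicAt x τ0) (fn_meromorphicAt y τ0))

theorem ordAt_apply (τ0 : ℍ) (z : Mer κ) :
    ordAt κ τ0 z = meromorphicOrderAt (fn z) (τ0 : ℂ) := rfl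

/-- The order of a holomorphic function is its analytic order. -/
theorem ordAt_algebraMap (τ0 : ℍ) (a : Hol) :
    ordAt κ τ0 (algebraMap Hol (Mer κ) a)
      = (analyticOrderAt (fun x : ℂ => (a : ℍ → ℂ) (ofComplex x)) (τ0 : ℂ)).map (↑) := by
  rw [ordAt_apply, meromorphicOrderAt_congr (fn_algebraMap_eventuallyEq a τ0),
    (hol_analyticAt a τ0).meromorphicOrderAt_eq]

/-- Nonzero constants have order zero. -/
theorem ordAt_algebraMap_Kbar (τ0 : ℍ) (hκ : Function.Injective κ) {c : Kbar} (hc : c ≠ 0) :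
    ordAt κ τ0 (algebraMap Kbar (Mer κ) c) = 0 := by
  rw [algebraMap_Kbar_Mer, ordAt_algebraMap]
  have h : analyticOrderAt (fun x : ℂ => (constK κ c : ℍ → ℂ) (ofComplex x)) (τ0 : ℂ) = 0 := by
    rw [(hol_analyticAt _ τ0).analyticOrderAt_eq_zero]
    show κ c ≠ 0
    exact (map_ne_zero_iff κ hκ).mpr hc
  rw [h]
  rfl

end OrdAt


/-! ## Pulling back by the modular group -/

section Pull

theorem glDet_pos (γ : SL(2, ℤ)) : 0 < ((γ : GL (Fin 2) ℝ)).val.det := by
  have h : ((γ : GL (Fin 2) ℝ)).val.det = ((γ : GL (Fin 2) ℝ)).det.val := rfl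
  rw [h]
  simp

theorem mdiff_comp_smul (γ : SL(2, ℤ)) {f : ℍ → ℂ} (hf : MDiff f) :
    MDiff (fun τ : ℍ => f (γ • τ)) := by
  have h : MDiff (fun τ : ℍ => (γ : GL (Fin 2) ℝ) • τ) := mdifferentiable_smul (by simp)
  exact hf.comp h

/-- Composition with the action of `γ`, as a ring automorphism of `Hol`. -/
noncomputable def pullHol (γ : SL(2, ℤ)) : Hol ≃+* Hol where
  toFun a := ⟨fun τ => (a : ℍ → ℂ) (γ • τ), mdiff_comp_smul γ (hol_mdiff a)⟩
  invFun a := ⟨fun τ => (a : ℍ → ℂ) (γ⁻¹ • τ), mdiff_comp_smul γ⁻¹ (hol_mdiff a)⟩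
  left_inv a := Subtype.ext (funext fun τ => by simp)
  right_inv a := Subtype.ext (funext fun τ => by simp)
  map_mul' _ _ := rfl
  map_add' _ _ := rfl

@[simp] theorem pullHol_apply (γ : SL(2, ℤ)) (a : Hol) (τ : ℍ) :
    (pullHol γ a : ℍ → ℂ) τ = (a : ℍ → ℂ) (γ • τ) := rfl

theorem pullHol_constHol (γ : SL(2, ℤ)) (c : ℂ) : pullHol γ (constHol c) = constHol c := rfl

variable (κ : Kbar →+* ℂ)

/-- Composition with the action of `γ`, as a `Kbar`-algebra automorphism of `Mer κ`. -/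
noncomputable def pullMer (γ : SL(2, ℤ)) : Mer κ ≃ₐ[Kbar] Mer κ :=
  AlgEquiv.ofRingEquiv (f := IsFractionRing.ringEquivOfRingEquiv (K := Mer κ) (L := Mer κ)
    (pullHol γ)) (by
      intro c
      rw [algebraMap_Kbar_Mer, IsFractionRing.ringEquivOfRingEquiv_algebraMap]
      rfl)

theorem pullMer_algebraMap (γ : SL(2, ℤ)) (a : Hol) :
    pullMer κ γ (algebraMap Hol (Mer κ) a) = algebraMap Hol (Mer κ) (pullHol γ a) :=
  IsFractionRing.ringEquivOfRingEquiv_algebraMap (K := Mer κ) (L := Mer κ) (pullHol γ) a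

theorem pullMer_pullMer (γ δ : SL(2, ℤ)) (z : Mer κ) :
    pullMer κ γ (pullMer κ δ z) = pullMer κ (δ * γ) z := by
  obtain ⟨a, b, -, rfl⟩ := IsFractionRing.div_surjective (A := Hol) z
  simp only [map_div₀, pullMer_algebraMap]
  have h : ∀ c : Hol, pullHol γ (pullHol δ c) = pullHol (δ * γ) c := fun c =>
    Subtype.ext (funext fun τ => by simp [mul_smul])
  rw [h, h]

theorem pullMer_one (z : Mer κ) : pullMer κ 1 z = z := by
  obtain ⟨a, b, -, rfl⟩ := IsFractionRing.div_surjective (A := Hol) z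
  simp only [map_div₀, pullMer_algebraMap]
  have h : ∀ c : Hol, pullHol 1 c = c := fun c =>
    Subtype.ext (funext fun τ => by simp)
  rw [h, h]

theorem pullMer_pow (γ : SL(2, ℤ)) (k : ℕ) (z : Mer κ) :
    ((pullMer κ γ) ^ k) z = pullMer κ (γ ^ k) z := by
  induction k generalizing z with
  | zero => simp [pullMer_one]
  | succ k ih =>
    rw [pow_succ, AlgEquiv.mul_apply, ih, pullMer_pullMer, pow_succ']

/-- The order at `τ0` of the pull-back is the order at `γ • τ0`. -/
theorem ordAt_pullMer (γ : SL(2, ℤ)) (τ0 : ℍ) (z : Mer κ) :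
    ordAt κ τ0 (pullMer κ γ z) = ordAt κ (γ • τ0) z := by
  have h1 : pullMer κ γ z = algebraMap Hol (Mer κ) (pullHol γ (merNum z))
      / algebraMap Hol (Mer κ) (pullHol γ (merDen z)) := by
    conv_lhs => rw [← merNum_div_merDen z]
    simp only [map_div₀, pullMer_algebraMap]
  have hden : pullHol γ (merDen z) ≠ 0 := by
    simpa using (pullHol γ).injective.ne (merDen_ne_zero z)
  rw [ordAt_apply, meromorphicOrderAt_congr (fn_eventuallyEq hden h1 τ0), ordAt_apply]
  exact meromorphicOrderAt_comp_smul (f := quotH (merNum z) (merDen z)) (τ := τ0)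
    (g := (γ : GL (Fin 2) ℝ)) (glDet_pos γ)

/-- Denominators multiply along the stabilizer of a point. -/
theorem denom_mul_of_fixed (g h : SL(2, ℤ)) (τ0 : ℍ) (hh : h • τ0 = τ0) :
    denom ((g * h : SL(2, ℤ)) : GL (Fin 2) ℝ) τ0
      = denom (g : GL (Fin 2) ℝ) τ0 * denom (h : GL (Fin 2) ℝ) τ0 := by
  have h1 := denom_cocycle (g : GL (Fin 2) ℝ) (h : GL (Fin 2) ℝ) (z := (τ0 : ℂ)) τ0.im_ne_zero
  have h2 : UpperHalfPlane.num (h : GL (Fin 2) ℝ) τ0 / denom (h : GL (Fin 2) ℝ) τ0 = (τ0 : ℂ) := by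
    have h3 := coe_smul_of_det_pos (g := (h : GL (Fin 2) ℝ)) (by simp) τ0
    have h4 : ((h : GL (Fin 2) ℝ) • τ0 : ℍ) = τ0 := hh
    rw [h4] at h3
    exact h3.symm
  rw [h2] at h1
  rw [← h1]
  simp

theorem denom_pow_of_fixed (γ : SL(2, ℤ)) (τ0 : ℍ) (hγ : γ • τ0 = τ0) (k : ℕ) :
    denom ((γ ^ k : SL(2, ℤ)) : GL (Fin 2) ℝ) τ0 = denom (γ : GL (Fin 2) ℝ) τ0 ^ k := by
  induction k with
  | zero => simp [denom]
  | succ k ih => rw [pow_succ, denom_mul_of_fixed _ _ _ hγ, ih, pow_succ]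

theorem pow_smul_of_fixed (γ : SL(2, ℤ)) (τ0 : ℍ) (hγ : γ • τ0 = τ0) (k : ℕ) :
    γ ^ k • τ0 = τ0 := by
  induction k with
  | zero => simp
  | succ k ih => rw [pow_succ, mul_smul, hγ, ih]


theorem glDet_eq_one (γ : SL(2, ℤ)) : ((γ : GL (Fin 2) ℝ)).val.det = 1 := by
  have h : ((γ : GL (Fin 2) ℝ)).val.det = ((γ : GL (Fin 2) ℝ)).det.val := rfl
  rw [h]
  simp

/-- **Stabilizer lemma.** If `γ` fixes `τ0` and a nonzero meromorphic function `z` is invariant
under `γ`, then the multiplier `(c τ0 + d)^2` of `γ` at `τ0`, raised to the order of `z` at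
`τ0`, equals one. -/
theorem stabilizer_lemma (γ : SL(2, ℤ)) (τ0 : ℍ) (hγ : γ • τ0 = τ0) {z : Mer κ} (hz : z ≠ 0)
    (h : pullMer κ γ z = z) :
    ∃ n : ℤ, ordAt κ τ0 z = (n : WithTop ℤ)
      ∧ (denom (γ : GL (Fin 2) ℝ) τ0 ^ 2) ^ n = 1 := by
  have hmer : MeromorphicAt (fn z) (τ0 : ℂ) := fn_meromorphicAt z τ0
  have hne : meromorphicOrderAt (fn z) (τ0 : ℂ) ≠ ⊤ := by
    rw [← ordAt_apply κ τ0 z]
    exact (ordAt κ τ0).ne_top_iff.mpr hz
  obtain ⟨n, hn⟩ := WithTop.ne_top_iff_exists.mp hne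
  refine ⟨n, by rw [ordAt_apply]; exact hn.symm, ?_⟩
  obtain ⟨g, hg_an, hg_ne, hg_eq⟩ := (meromorphicOrderAt_eq_int_iff hmer).mp hn.symm
  -- the Moebius map on `ℂ`
  set G : ℂ → ℂ := fun x => (((γ : GL (Fin 2) ℝ) • ofComplex x : ℍ) : ℂ) with hG
  have hd_ne : denom (γ : GL (Fin 2) ℝ) τ0 ≠ 0 := denom_ne_zero _ τ0
  set lam : ℂ := 1 / denom (γ : GL (Fin 2) ℝ) τ0 ^ 2 with hlam
  have hlam_ne : lam ≠ 0 := by
    rw [hlam]
    exact one_div_ne_zero (pow_ne_zero _ hd_ne)
  have hGτ : G τ0 = τ0 := by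
    have h1 : ((γ : GL (Fin 2) ℝ) • τ0 : ℍ) = τ0 := hγ
    simp only [hG, ofComplex_apply, h1]
  have hGd : HasDerivAt G lam (τ0 : ℂ) := by
    have h1 := (hasStrictDerivAt_smul (g := (γ : GL (Fin 2) ℝ)) (glDet_pos γ) τ0).hasDerivAt
    rw [glDet_eq_one] at h1
    simpa [hlam] using h1
  have hG_tend : Tendsto G (𝓝[≠] (τ0 : ℂ)) (𝓝[≠] (τ0 : ℂ)) := by
    have h1 := hGd.tendsto_nhdsNE hlam_ne
    rwa [hGτ] at h1
  -- invariance of `fn z`
  have hinv : ∀ᶠ x in 𝓝[≠] (τ0 : ℂ), fn z x = fn z (G x) := by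
    have h1 : pullMer κ γ z = algebraMap Hol (Mer κ) (pullHol γ (merNum z))
        / algebraMap Hol (Mer κ) (pullHol γ (merDen z)) := by
      conv_lhs => rw [← merNum_div_merDen z]
      simp only [map_div₀, pullMer_algebraMap]
    have hden : pullHol γ (merDen z) ≠ 0 := by
      simpa using (pullHol γ).injective.ne (merDen_ne_zero z)
    have h2 := fn_eventuallyEq hden h1 τ0
    rw [h] at h2
    filter_upwards [h2] with x hx
    rw [hx]
    simp only [fn, quotC, quotH, pullHol_apply, hG, ofComplex_apply]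
    rfl
  have h1 : ∀ᶠ x in 𝓝[≠] (τ0 : ℂ), fn z (G x) = (G x - τ0) ^ n • g (G x) :=
    hG_tend.eventually hg_eq
  have hslope : Tendsto (slope G (τ0 : ℂ)) (𝓝[≠] (τ0 : ℂ)) (𝓝 lam) :=
    hasDerivAt_iff_tendsto_slope.mp hGd
  have h2 : ∀ᶠ x in 𝓝[≠] (τ0 : ℂ), g x = slope G (τ0 : ℂ) x ^ n * g (G x) := by
    filter_upwards [hg_eq, h1, hinv, self_mem_nhdsWithin] with x hx1 hx2 hx3 hx4
    have hx : x - (τ0 : ℂ) ≠ 0 := sub_ne_zero.mpr hx4
    have hs : G x - τ0 = (x - τ0) * slope G (τ0 : ℂ) x := by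
      rw [slope_def_field, hGτ]
      field_simp
    have h3 : (x - (τ0 : ℂ)) ^ n * g x
        = (x - (τ0 : ℂ)) ^ n * (slope G (τ0 : ℂ) x ^ n * g (G x)) := by
      rw [← smul_eq_mul, ← hx1, hx3, hx2, hs, mul_zpow, smul_eq_mul, mul_assoc]
    exact mul_left_cancel₀ (zpow_ne_zero n hx) h3
  have hl1 : Tendsto g (𝓝[≠] (τ0 : ℂ)) (𝓝 (g τ0)) :=
    hg_an.continuousAt.tendsto.mono_left nhdsWithin_le_nhds
  have hl2 : Tendsto (fun x => slope G (τ0 : ℂ) x ^ n * g (G x)) (𝓝[≠] (τ0 : ℂ))
      (𝓝 (lam ^ n * g τ0)) := by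
    refine Tendsto.mul (hslope.zpow₀ n (Or.inl hlam_ne)) ?_
    have h4 : Tendsto G (𝓝[≠] (τ0 : ℂ)) (𝓝 (τ0 : ℂ)) :=
      hG_tend.mono_right nhdsWithin_le_nhds
    exact (hg_an.continuousAt.tendsto).comp h4
  have h5 : g τ0 = lam ^ n * g τ0 := tendsto_nhds_unique (hl1.congr' h2) hl2
  have h6 : lam ^ n = 1 := by
    have h7 : (lam ^ n - 1) * g τ0 = 0 := by rw [sub_mul, one_mul, ← h5, sub_self]
    rcases mul_eq_zero.mp h7 with h8 | h8
    · exact sub_eq_zero.mp h8
    · exact absurd h8 hg_ne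
  rw [hlam, one_div, inv_zpow, inv_eq_one] at h6
  exact h6

/-- The divisibility hypothesis of the orbit counting lemma, at a point whose stabilizer
generator `γ` has a multiplier of exact order `m`. -/
theorem hdiv_of_isPrimitiveRoot (γ : SL(2, ℤ)) (τ0 : ℍ) (hγ : γ • τ0 = τ0) (m : ℕ)
    (hm : 0 < m) (hμ : IsPrimitiveRoot (denom (γ : GL (Fin 2) ℝ) τ0 ^ 2) m)
    (k : ℕ) (z : Mer κ) (hz : z ≠ 0) (h : ((pullMer κ γ) ^ k) z = z) :
    ∃ l : ℤ, ordAt κ τ0 z = (((m / Nat.gcd k m : ℕ) * l : ℤ) : WithTop ℤ) := by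
  rw [pullMer_pow] at h
  obtain ⟨n, hn, hn1⟩ := stabilizer_lemma κ (γ ^ k) τ0 (pow_smul_of_fixed γ τ0 hγ k) hz h
  rw [denom_pow_of_fixed γ τ0 hγ k, ← pow_mul, mul_comm k 2, pow_mul, ← zpow_natCast,
    ← zpow_mul, hμ.zpow_eq_one_iff_dvd] at hn1
  -- `m ∣ k * n`, hence `m / gcd k m ∣ n`
  have hg : 0 < Nat.gcd k m := Nat.gcd_pos_of_pos_right k hm
  obtain ⟨m', hm'⟩ : Nat.gcd k m ∣ m := Nat.gcd_dvd_right k m
  obtain ⟨k', hk'⟩ : Nat.gcd k m ∣ k := Nat.gcd_dvd_left k m
  have hm'' : m / Nat.gcd k m = m' := Nat.div_eq_of_eq_mul_right hg hm'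
  have hk'' : k / Nat.gcd k m = k' := Nat.div_eq_of_eq_mul_right hg hk'
  have hcop : Nat.Coprime k' m' := by
    have h1 := Nat.coprime_div_gcd_div_gcd hg
    rwa [hk'', hm''] at h1
  have hdvd : (m' : ℤ) ∣ n := by
    have h1 : ((Nat.gcd k m : ℤ) * m') ∣ (Nat.gcd k m : ℤ) * (k' * n) := by
      have h2 : (m : ℤ) = (Nat.gcd k m : ℤ) * m' := by exact_mod_cast hm'
      have h3 : (k : ℤ) = (Nat.gcd k m : ℤ) * k' := by exact_mod_cast hk'
      rw [← h2, ← mul_assoc, ← h3]
      exact hn1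
    have h4 : (m' : ℤ) ∣ (k' : ℤ) * n :=
      (mul_dvd_mul_iff_left (by exact_mod_cast hg.ne')).mp h1
    have h5 : IsCoprime (m' : ℤ) (k' : ℤ) := by
      exact_mod_cast (Nat.isCoprime_iff_coprime.mpr hcop.symm)
    exact h5.dvd_of_dvd_mul_left h4
  obtain ⟨l, hl⟩ := hdvd
  exact ⟨l, by rw [hn, hm'', hl]⟩

end Pull

end Fermat.Agent.S24.helper797
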