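import Fermat.Agent.S24.helper24_Spec
import Fermat.Agent.Lib.helper804_Gamma0Cosets
import Fermat.Agent.S24.helper227_CuspCount
import Fermat.Agent.S24.helper84_StmtINT

/-!
# S24, COMB column: the four counting leaves of `helper24_Spec` and `Stmt_INT`, unconditionally

* `stmt_Index    : helper24.Stmt_Index`     (`#(SL(2, ℤ) ⧸ Γ₀(N)) = ψ(N)`)
* `stmt_OrbitsT  : helper24.Stmt_OrbitsT`   (`#T`-orbits `= cuspCount N`, from `helper227`)
* `stmt_OrbitsS  : helper24.Stmt_OrbitsS`   (`2 · #S`-orbits `= ψ(N) + ν₂(N)`)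
* `stmt_OrbitsST : helper24.Stmt_OrbitsST`  (`3 · #ST`-orbits `= ψ(N) + 2 ν₃(N)`)
* `stmt_INT      : helper24.Stmt_INT`       (`genusFormula N` is a natural number)

No hypotheses: pure applications of `Lib/helper804_Gamma0Cosets`, `helper227_CuspCount`
and `helper84_StmtINT`.
-/

set_option autoImplicit false

namespace Fermat.Agent.S24.helper804

/-- C1 of the spec. -/
theorem stmt_Index : Fermat.Agent.S24.helper24.Stmt_Index :=
  fun N _ => Fermat.Agent.Lib.helper804.card_quotient_Gamma0 N

/-- C2 of the spec. -/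
theorem stmt_OrbitsT : Fermat.Agent.S24.helper24.Stmt_OrbitsT :=
  fun N _ => Fermat.Agent.S24.helper227.card_orbits_T N

/-- C3 of the spec. -/
theorem stmt_OrbitsS : Fermat.Agent.S24.helper24.Stmt_OrbitsS :=
  fun N _ => Fermat.Agent.Lib.helper804.card_orbits_S N

/-- C4 of the spec. -/
theorem stmt_OrbitsST : Fermat.Agent.S24.helper24.Stmt_OrbitsST :=
  fun N _ => Fermat.Agent.Lib.helper804.card_orbits_ST N

/-- T1 of the spec: the genus formula is a natural number. -/
theorem stmt_INT : Fermat.Agent.S24.helper24.Stmt_INT :=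
  Fermat.Agent.S24.helper84.stmt_INT stmt_Index stmt_OrbitsT stmt_OrbitsS stmt_OrbitsST

end Fermat.Agent.S24.helper804
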