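import Mathlib

/-!
# S24 module C4 (backup implementation): invariant holomorphic functions are polynomials in `J`

An `SL(2, ℤ)`-invariant holomorphic function `f` on the upper half plane such that `Δ ^ m * f`
is bounded at `i∞` is a polynomial of degree `≤ m` in `J = E₄ ^ 3 / Δ`.
-/

open UpperHalfPlane ModularForm EisensteinSeries MatrixGroups Manifold ModularFormClass
  SlashInvariantForm CuspFormClass OnePoint Filter Asymptotics Polynomial

namespace Fermat.Agent.S24.helper812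

local notation "Δ" => ModularForm.discriminant

/-- The constant `q`-coefficient of `E₄ ^ n` (cast to any weight) is `1`. -/
theorem polyInJ_E4pow_coeff_zero (n : ℕ) {k : ℤ} (h : (n : ℤ) * 4 = k) :
    (PowerSeries.coeff 0)
      (qExpansion 1 ⇑(ModularForm.mcast h (E₄.pow n) : ModularForm 𝒮ℒ k)) = 1 := by
  rw [coe_mcast, ModularForm.qExpansion_pow one_pos one_mem_strictPeriods_SL,
    PowerSeries.coeff_zero_eq_constantCoeff, map_pow,
    ← PowerSeries.coeff_zero_eq_constantCoeff, E_qExpansion_coeff_zero _ ⟨2, rfl⟩, one_pow]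

/-- Every level one modular form of weight `12 n` is `Δ ^ n` times a polynomial of degree `≤ n`
in `J = E₄ ^ 3 / Δ`. -/
theorem polyInJ_of_modularForm (n : ℕ) : ∀ (k : ℤ), k = 12 * (n : ℤ) → ∀ G : ModularForm 𝒮ℒ k,
    ∃ P : Polynomial ℂ, P.natDegree ≤ n ∧
      ∀ τ : ℍ, G τ = Δ τ ^ n * P.eval (E₄ τ ^ 3 / Δ τ) := by
  induction n with
  | zero =>
    intro k hk G
    have hk0 : k = 0 := by simpa using hk
    subst hk0
    obtain ⟨c, hc⟩ := levelOne_weight_zero_const G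
    refine ⟨C c, by simp, fun τ => ?_⟩
    simp [hc]
  | succ n ih =>
    intro k hk G
    have hE : ((3 * (n + 1) : ℕ) : ℤ) * 4 = k := by rw [hk]; push_cast; ring
    set E : ModularForm 𝒮ℒ k := ModularForm.mcast hE (E₄.pow (3 * (n + 1))) with hEdef
    have hE0 : (PowerSeries.coeff 0) (qExpansion 1 ⇑E) = 1 := polyInJ_E4pow_coeff_zero _ hE
    set c := (PowerSeries.coeff 0) (qExpansion 1 ⇑G) with hc
    have hcusp : (G - c • E).IsCuspForm := sub_smul_isCuspForm G E hE0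
    have h0 := (isCuspForm_iff_coeffZero_eq_zero _).mp hcusp
    obtain ⟨Q, hQdeg, hQ⟩ := ih (k - 12) (by rw [hk]; push_cast; ring)
      (CuspForm.discriminantEquiv (toCuspForm (G - c • E) h0))
    refine ⟨C c * X ^ (n + 1) + Q, ?_, fun τ => ?_⟩
    · refine (natDegree_add_le _ _).trans (max_le ?_ (hQdeg.trans (Nat.le_succ n)))
      exact (natDegree_C_mul_le _ _).trans (natDegree_X_pow_le _)
    · have h1 := hQ τ
      rw [CuspForm.discriminantEquiv_apply, toCuspForm_apply] at h1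
      have hEτ : E τ = E₄ τ ^ (3 * (n + 1)) := by
        rw [hEdef, coe_mcast, ModularForm.coe_pow, Pi.pow_apply]
      have hΔ := discriminant_ne_zero τ
      have h2 : (G - c • E) τ = G τ - c * E τ := rfl
      rw [h2, hEτ, div_eq_iff hΔ] at h1
      simp only [eval_add, eval_mul, eval_C, eval_pow, eval_X]
      have h3 : G τ = c * E₄ τ ^ (3 * (n + 1)) + Δ τ ^ n * eval (E₄ τ ^ 3 / Δ τ) Q * Δ τ := by
        linear_combination h1
      rw [h3, div_pow, pow_mul]
      field_simp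
      ring

/-- Powers of the discriminant are holomorphic. -/
theorem polyInJ_mdiff_discriminant_pow (m : ℕ) : MDiff (fun τ : ℍ => Δ τ ^ m) := by
  induction m with
  | zero => simpa using mdifferentiable_const
  | succ m ihm =>
    simp only [pow_succ]
    exact ihm.mul CuspForm.discriminant.holo'

/-- `Δ ^ m * f` as a level one modular form of weight `12 m`, for `f` holomorphic,
`SL(2, ℤ)`-invariant and with `Δ ^ m * f` bounded at `i∞`. -/
noncomputable def polyInJ_form (f : ℍ → ℂ) (hf : MDiff f)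
    (hinv : ∀ (γ : SL(2, ℤ)) (τ : ℍ), f (γ • τ) = f τ) (m : ℕ)
    (hbdd : IsBoundedAtImInfty (fun τ => Δ τ ^ m * f τ)) : ModularForm 𝒮ℒ (12 * (m : ℤ)) :=
  have hslash : ∀ γ : SL(2, ℤ),
      (fun τ => Δ τ ^ m * f τ) ∣[12 * (m : ℤ)] γ = fun τ => Δ τ ^ m * f τ := by
    intro γ
    ext τ
    have hΔ : (Δ ∣[(12 : ℤ)] γ) τ = Δ τ :=
      congrFun (CuspForm.discriminant.slash_action_eq' _ ⟨γ, rfl⟩) τ
    rw [SL_slash_apply] at hΔ ⊢
    rw [hinv]
    have hd := denom_ne_zero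
      (Matrix.SpecialLinearGroup.toGL ((Matrix.SpecialLinearGroup.map (Int.castRingHom ℝ)) γ)) τ
    have h2 : Δ (γ • τ) = Δ τ * denom (Matrix.SpecialLinearGroup.toGL
        ((Matrix.SpecialLinearGroup.map (Int.castRingHom ℝ)) γ)) τ ^ (12 : ℤ) := by
      rw [← hΔ, mul_assoc, ← zpow_add₀ hd]; simp
    rw [h2, mul_pow, ← zpow_natCast (_ ^ (12 : ℤ)) m, ← zpow_mul, neg_mul_eq_neg_mul,
      mul_right_comm, mul_assoc (Δ τ ^ m), ← zpow_add₀ hd]
    simp
  { toFun := fun τ => Δ τ ^ m * f τ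
    slash_action_eq' := fun _ ⟨γ, hγ⟩ ↦ hγ ▸ hslash γ
    holo' := (polyInJ_mdiff_discriminant_pow m).mul hf
    bdd_at_cusps' := fun {c} hc => by
      rw [Subgroup.IsArithmetic.isCusp_iff_isCusp_SL2Z] at hc
      rw [isBoundedAt_iff_forall_SL2Z hc]
      intro γ _
      rw [hslash γ]
      exact hbdd }

/-- **Module C4a.** An `SL(2, ℤ)`-invariant holomorphic function `f` on `ℍ` such that
`Δ ^ m * f` is bounded at `i∞` is a polynomial of degree `≤ m` in `J = E₄ ^ 3 / Δ`. -/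
theorem exists_polynomial_of_invariant (f : ℍ → ℂ) (hf : MDiff f)
    (hinv : ∀ (γ : SL(2, ℤ)) (τ : ℍ), f (γ • τ) = f τ) (m : ℕ)
    (hbdd : IsBoundedAtImInfty (fun τ => Δ τ ^ m * f τ)) :
    ∃ P : Polynomial ℂ, P.natDegree ≤ m ∧ ∀ τ, f τ = P.eval (E₄ τ ^ 3 / Δ τ) := by
  obtain ⟨P, hP, h⟩ := polyInJ_of_modularForm m _ rfl (polyInJ_form f hf hinv m hbdd)
  exact ⟨P, hP, fun τ => mul_left_cancel₀ (pow_ne_zero m (discriminant_ne_zero τ)) (h τ)⟩

/-- Growth criterion: if `‖f τ‖ ≤ C * exp (2 π m im τ)` for `im τ ≥ A`, then `Δ ^ m * f` is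
bounded at `i∞`. -/
theorem isBoundedAtImInfty_discriminant_pow_mul (f : ℍ → ℂ) (m : ℕ) (C A : ℝ)
    (hgrowth : ∀ τ : ℍ, A ≤ τ.im → ‖f τ‖ ≤ C * Real.exp (2 * Real.pi * m * τ.im)) :
    IsBoundedAtImInfty (fun τ => Δ τ ^ m * f τ) := by
  have h1 : (fun τ : ℍ => Δ τ) =O[atImInfty] fun τ => Real.exp (-2 * Real.pi * τ.im / 1) :=
    CuspFormClass.exp_decay_atImInfty CuspForm.discriminant one_pos one_mem_strictPeriods_SL
  have h2 : f =O[atImInfty] fun τ => Real.exp (2 * Real.pi * m * τ.im) := by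
    refine IsBigO.of_bound C ?_
    have hev : ∀ᶠ τ : ℍ in atImInfty, A ≤ τ.im :=
      (tendsto_comap (f := UpperHalfPlane.im)).eventually (eventually_ge_atTop A)
    filter_upwards [hev] with τ hτ
    rw [Real.norm_of_nonneg (Real.exp_pos _).le]
    exact hgrowth τ hτ
  have h3 := (h1.pow m).mul h2
  rw [IsBoundedAtImInfty, BoundedAtFilter]
  refine h3.trans (IsBigO.of_bound 1 (Eventually.of_forall fun τ => ?_))
  rw [← Real.exp_nat_mul, ← Real.exp_add]
  have : (m : ℝ) * (-2 * Real.pi * τ.im / 1) + 2 * Real.pi * m * τ.im = 0 := by ring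
  rw [this, Real.exp_zero]
  simp

/-- **Module C4, growth form.** An `SL(2, ℤ)`-invariant holomorphic function `f` on `ℍ` with
`‖f τ‖ ≤ C * exp (2 π m im τ)` for `im τ ≥ A` is a polynomial of degree `≤ m` in
`J = E₄ ^ 3 / Δ`. -/
theorem exists_polynomial_of_invariant_of_growth (f : ℍ → ℂ) (hf : MDiff f)
    (hinv : ∀ (γ : SL(2, ℤ)) (τ : ℍ), f (γ • τ) = f τ) (m : ℕ) (C A : ℝ)
    (hgrowth : ∀ τ : ℍ, A ≤ τ.im → ‖f τ‖ ≤ C * Real.exp (2 * Real.pi * m * τ.im)) :
    ∃ P : Polynomial ℂ, P.natDegree ≤ m ∧ ∀ τ, f τ = P.eval (E₄ τ ^ 3 / Δ τ) :=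
  exists_polynomial_of_invariant f hf hinv m
    (isBoundedAtImInfty_discriminant_pow_mul f m C A hgrowth)

end Fermat.Agent.S24.helper812
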