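import Fermat.Agent.S24.helper580_MerPackage
import Fermat.Agent.S24.helper1944_Ev

/-!
# S24 (helper8987): `helper481.Stmt_MerPackage` with no hypotheses

Glue: `helper580.Stmt_EvFun` is discharged by `helper1944.exists_evDatum`, hence
`helper580.stmt_MerPackage` yields the meromorphic package (P2 of the captain's list).
-/

set_option autoImplicit false

open UpperHalfPlane CongruenceSubgroup ModularCurve
open scoped MatrixGroups Manifold

namespace Fermat.Agent.S24.helper8987

/-- The function-level evaluation datum of `helper580`, from the landed EV core of `helper1944`. -/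
theorem stmt_EvFun : helper580.Stmt_EvFun := by
  intro N _
  obtain ⟨κ, ev, hc, _, hj, hmd, hinj, hinv, hsep, _⟩ := helper1944.exists_evDatum N
  exact ⟨κ, ev, hinj, hmd, hc, hj, hinv, hsep⟩

/-- P2: the meromorphic package, no hypotheses. -/
theorem stmt_MerPackage : helper481.Stmt_MerPackage :=
  helper580.stmt_MerPackage stmt_EvFun

end Fermat.Agent.S24.helper8987
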