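import Fermat.Agent.S24.helper24_Spec
import Fermat.Agent.S20.helper2600_Counts

/-!
# S24 combinatorics bridge (helper977): `Stmt_OrbitsS`, `Stmt_OrbitsST` from `Stmt_Index`

* `prime_mul_card_orbits` (generic): if `g ^ p` acts trivially on a finite set `X`, `p` prime,
  then `p * #orbits(⟨g⟩) = #X + (p - 1) * #Fix(g)`.
* `stmt_OrbitsS`, `stmt_OrbitsST`: the two Spec leaves, using the fixed point counts
  `card_fixedBy_S`, `card_fixedBy_ST` of `Fermat.Agent.S20.helper2600`.
-/

set_option autoImplicit false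

open ModularCurve CongruenceSubgroup
open scoped MatrixGroups

namespace Fermat.Agent.S24.helper977

open Fermat.Agent.S24.helper24

section PrimeOrbits

open MulAction Function

variable {G X : Type*} [Group G] [MulAction G X]

/-- The orbit of `x` under `⟨g⟩` has `minimalPeriod (g • ·) x` elements. -/
theorem natCard_orbit_zpowers (g : G) (x : X) :
    Nat.card (orbit (Subgroup.zpowers g) x) = minimalPeriod (g • ·) x := by
  rw [Nat.card_congr (orbitZPowersEquiv g x), Nat.card_zmod]

/-- If `g ^ p` acts trivially (`p` prime) on a finite set, then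
`p * #orbits = #X + (p - 1) * #Fix(g)`. -/
theorem prime_mul_card_orbits [Finite X] (g : G) (p : ℕ) (hp : p.Prime)
    (hg : ∀ x : X, g ^ p • x = x) :
    p * Nat.card (orbitRel.Quotient (Subgroup.zpowers g) X)
      = Nat.card X + (p - 1) * Nat.card (fixedBy X g) := by
  classical
  have hper : ∀ x : X, minimalPeriod (g • ·) x = 1 ∨ minimalPeriod (g • ·) x = p := fun x =>
    (Nat.dvd_prime hp).mp (pow_smul_eq_iff_minimalPeriod_dvd.mp (hg x))
  have : Fintype (orbitRel.Quotient (Subgroup.zpowers g) X) := Fintype.ofFinite _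
  have h1 : Nat.card X
      = ∑ ω : orbitRel.Quotient (Subgroup.zpowers g) X, Nat.card ω.orbit := by
    rw [Nat.card_congr (selfEquivSigmaOrbits' (Subgroup.zpowers g) X), Nat.card_sigma]
  have h2 : ∀ ω : orbitRel.Quotient (Subgroup.zpowers g) X,
      Nat.card ω.orbit = 1 ∨ Nat.card ω.orbit = p := by
    intro ω
    induction ω using Quotient.inductionOn' with
    | h x =>
      rw [orbitRel.Quotient.orbit_mk, natCard_orbit_zpowers]
      exact hper x
  have h3 : Nat.card (fixedBy X g)
      = (Finset.univ.filter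
          (fun ω : orbitRel.Quotient (Subgroup.zpowers g) X => Nat.card ω.orbit = 1)).card := by
    rw [← Fintype.card_subtype, ← Nat.card_eq_fintype_card]
    refine Nat.card_congr (Equiv.ofBijective
      (fun x : fixedBy X g => (⟨Quotient.mk'' x.1, ?_⟩ :
        {ω : orbitRel.Quotient (Subgroup.zpowers g) X // Nat.card ω.orbit = 1})) ⟨?_, ?_⟩)
    · rw [orbitRel.Quotient.orbit_mk, natCard_orbit_zpowers]
      exact minimalPeriod_eq_one_iff_fixedBy.mpr x.2
    · intro x y hxy
      have h := congrArg Subtype.val hxy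
      have h' : orbitRel (Subgroup.zpowers g) X x.1 y.1 := Quotient.exact' h
      rw [orbitRel_apply, mem_orbit_iff] at h'
      obtain ⟨⟨a, ha⟩, hay⟩ := h'
      obtain ⟨k, rfl⟩ := Subgroup.mem_zpowers_iff.mp ha
      have hy : g ^ k • y.1 = y.1 := mem_fixedBy_zpow y.2 k
      apply Subtype.ext
      rw [← hay]
      exact hy
    · rintro ⟨ω, hω⟩
      induction ω using Quotient.inductionOn' with
      | h x =>
        rw [orbitRel.Quotient.orbit_mk, natCard_orbit_zpowers] at hω
        exact ⟨⟨x, minimalPeriod_eq_one_iff_fixedBy.mp hω⟩, rfl⟩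
  have h4 : ∑ ω : orbitRel.Quotient (Subgroup.zpowers g) X, Nat.card ω.orbit
      = (Finset.univ.filter
          (fun ω : orbitRel.Quotient (Subgroup.zpowers g) X => Nat.card ω.orbit = 1)).card
        + (Finset.univ.filter
          (fun ω : orbitRel.Quotient (Subgroup.zpowers g) X => ¬ Nat.card ω.orbit = 1)).card
          * p := by
    rw [← Finset.sum_filter_add_sum_filter_not Finset.univ
      (fun ω : orbitRel.Quotient (Subgroup.zpowers g) X => Nat.card ω.orbit = 1)]
    congr 1
    · rw [Finset.sum_const_nat (m := 1), mul_one]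
      intro ω hω
      exact (Finset.mem_filter.mp hω).2
    · rw [Finset.sum_const_nat (m := p)]
      intro ω hω
      exact (h2 ω).resolve_left (Finset.mem_filter.mp hω).2
  have h5 := Finset.card_filter_add_card_filter_not (s := Finset.univ)
    (fun ω : orbitRel.Quotient (Subgroup.zpowers g) X => Nat.card ω.orbit = 1)
  rw [Finset.card_univ, ← Nat.card_eq_fintype_card] at h5
  rw [h1, h4, ← h5, ← h3]
  obtain ⟨q, rfl⟩ : ∃ q, p = q + 1 := ⟨p - 1, (Nat.succ_pred_eq_of_pos hp.pos).symm⟩
  rw [Nat.add_sub_cancel]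
  ring

end PrimeOrbits

/-! ## The two Spec leaves -/

theorem S_sq_smul (N : ℕ) (x : XN N) : ModularGroup.S ^ 2 • x = x := by
  obtain ⟨γ, rfl⟩ := QuotientGroup.mk_surjective x
  rw [sq, mul_smul, MulAction.Quotient.smul_mk, MulAction.Quotient.smul_mk, smul_eq_mul,
    smul_eq_mul, Fermat.Agent.S20.helper2600.mk_eq_mk_iff]
  simp only [Fermat.Agent.S20.helper2600.S_mul_apply_zero_zero,
    Fermat.Agent.S20.helper2600.S_mul_apply_one_zero]
  have : (-γ 0 0 * γ 1 0 - -γ 1 0 * γ 0 0 : ℤ) = 0 := by ring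
  rw [this]
  simp

theorem ST_cube_smul (N : ℕ) (x : XN N) :
    (ModularGroup.S * ModularGroup.T) ^ 3 • x = x := by
  obtain ⟨γ, rfl⟩ := QuotientGroup.mk_surjective x
  rw [pow_succ, pow_succ, pow_one, mul_smul, mul_smul, MulAction.Quotient.smul_mk,
    MulAction.Quotient.smul_mk, MulAction.Quotient.smul_mk, smul_eq_mul, smul_eq_mul,
    smul_eq_mul, Fermat.Agent.S20.helper2600.mk_eq_mk_iff]
  simp only [Fermat.Agent.S20.helper2600.ST_mul_apply_zero_zero,
    Fermat.Agent.S20.helper2600.ST_mul_apply_one_zero]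
  have : (-(-γ 1 0 + (γ 0 0 + γ 1 0)) * γ 1 0
      - (-(γ 0 0 + γ 1 0) + (-γ 1 0 + (γ 0 0 + γ 1 0))) * γ 0 0 : ℤ) = 0 := by ring
  rw [this]
  simp

/-- C3 of the Spec: `2 * #orbits(S) = ψ(N) + ν₂(N)`, given the index. -/
theorem stmt_OrbitsS (hI : Stmt_Index) : Stmt_OrbitsS := by
  intro N _
  refine (prime_mul_card_orbits ModularGroup.S 2 Nat.prime_two (S_sq_smul N)).trans ?_
  rw [hI N, Fermat.Agent.S20.helper2600.card_fixedBy_S N]
  simp

/-- C4 of the Spec: `3 * #orbits(S * T) = ψ(N) + 2 * ν₃(N)`, given the index. -/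
theorem stmt_OrbitsST (hI : Stmt_Index) : Stmt_OrbitsST := by
  intro N _
  refine (prime_mul_card_orbits (ModularGroup.S * ModularGroup.T) 3 Nat.prime_three
    (ST_cube_smul N)).trans ?_
  rw [hI N, Fermat.Agent.S20.helper2600.card_fixedBy_ST N]

end Fermat.Agent.S24.helper977
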