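import Fermat.Agent.S24.helper24_Spec

/-!
# S24 assembly (helper977): `Stmt_Places` from the Spec statements

Pure composition in hypothesis-passing style against `helper24_Spec`:

* `stmt_Places` : `Stmt_LOC`, `Stmt_FundId`, `Stmt_JTranscendental`, `Stmt_JFinrank`, the four
  local data and the combinatorial counts give `Stmt_Places`;
* `stmt_DEG` : `Stmt_RH` and `Stmt_Places` give `Stmt_DEG`.
-/

set_option autoImplicit false

open ModularCurve AlgebraicCurve KaehlerDifferential IntermediateField CongruenceSubgroup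
open scoped MatrixGroups

namespace Fermat.Agent.S24.helper977

open Fermat.Agent.S24.helper24

/-! ## Generic field lemmas -/

section Generic

variable {K F : Type} [Field K] [Field F] [Algebra K F]

theorem adjoin_sub_algebraMap (x : F) (c : K) : K⟮x - algebraMap K F c⟯ = K⟮x⟯ := by
  apply le_antisymm
  · rw [adjoin_simple_le_iff]
    exact sub_mem (mem_adjoin_simple_self K x) (IntermediateField.algebraMap_mem _ c)
  · rw [adjoin_simple_le_iff]
    have h : (x - algebraMap K F c) + algebraMap K F c ∈ K⟮x - algebraMap K F c⟯ :=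
      add_mem (mem_adjoin_simple_self K _) (IntermediateField.algebraMap_mem _ c)
    simpa using h

theorem adjoin_inv_eq (x : F) : K⟮x⁻¹⟯ = K⟮x⟯ := by
  apply le_antisymm
  · rw [adjoin_simple_le_iff]
    exact inv_mem (mem_adjoin_simple_self K x)
  · rw [adjoin_simple_le_iff]
    have h : (x⁻¹)⁻¹ ∈ K⟮x⁻¹⟯ := inv_mem (mem_adjoin_simple_self K _)
    simpa using h

theorem transcendental_sub_algebraMap {x : F} (hx : Transcendental K x) (c : K) :
    Transcendental K (x - algebraMap K F c) := by
  intro h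
  apply hx
  have h2 := h.add (isAlgebraic_algebraMap (R := K) (A := F) c)
  simpa using h2

theorem transcendental_inv_of {x : F} (hx : Transcendental K x) : Transcendental K x⁻¹ :=
  fun h => hx (IsAlgebraic.inv_iff.mp h)

theorem finiteDimensional_of_eq {E E' : IntermediateField K F} (h : E = E')
    [FiniteDimensional E' F] : FiniteDimensional E F := by
  subst h; infer_instance

theorem finrank_of_eq {E E' : IntermediateField K F} (h : E = E') :
    Module.finrank E F = Module.finrank E' F := by
  subst h; rfl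

/-- If the zeros of `y` are `n` in number and their orders add up to `n`, every zero is simple. -/
theorem ord_eq_one_of_card {y : F} (s : Finset (Place K F))
    (hs : ∀ v : Place K F, v ∈ s ↔ 0 < v.ord y) (n : ℕ)
    (hsum : ∑ v ∈ s, v.ord y = (n : ℤ))
    (hcard : Nat.card {v : Place K F // 0 < v.ord y} = n)
    (v : Place K F) (hv : 0 < v.ord y) : v.ord y = 1 := by
  have hc : s.card = n := by
    rw [← hcard]
    have e : {v : Place K F // 0 < v.ord y} ≃ s :=
      Equiv.subtypeEquivRight (fun v => (hs v).symm)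
    rw [Nat.card_congr e, Nat.card_eq_fintype_card, Fintype.card_coe]
  have h1 : ∑ v ∈ s, (v.ord y - 1) = 0 := by
    rw [Finset.sum_sub_distrib, hsum]
    simp [hc]
  have h2 := (Finset.sum_eq_zero_iff_of_nonneg (fun w hw => by
    have := (hs w).mp hw
    omega)).mp h1 v ((hs v).mpr hv)
  omega

end Generic

/-! ## Orbits of a cyclic group versus orbits of the corresponding permutation -/

section Orbits

variable {G X : Type*} [Group G] [MulAction G X]

theorem orbitRel_zpowers_toPerm (g : G) (a b : X) :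
    MulAction.orbitRel (Subgroup.zpowers (MulAction.toPerm g : Equiv.Perm X)) X a b ↔
      MulAction.orbitRel (Subgroup.zpowers g) X a b := by
  rw [MulAction.orbitRel_apply, MulAction.orbitRel_apply, MulAction.mem_orbit_iff,
    MulAction.mem_orbit_iff]
  constructor
  · rintro ⟨⟨h, hh⟩, rfl⟩
    obtain ⟨k, rfl⟩ := Subgroup.mem_zpowers_iff.mp hh
    refine ⟨⟨g ^ k, Subgroup.zpow_mem_zpowers g k⟩, ?_⟩
    show g ^ k • b = ((MulAction.toPerm g : Equiv.Perm X) ^ k) b
    rw [← MulAction.toPermHom_apply, ← map_zpow]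
    rfl
  · rintro ⟨⟨h, hh⟩, rfl⟩
    obtain ⟨k, rfl⟩ := Subgroup.mem_zpowers_iff.mp hh
    refine ⟨⟨(MulAction.toPerm g) ^ k, Subgroup.zpow_mem_zpowers _ k⟩, ?_⟩
    show ((MulAction.toPerm g : Equiv.Perm X) ^ k) b = g ^ k • b
    rw [← MulAction.toPermHom_apply, ← map_zpow]
    rfl

theorem card_orbits_toPerm (g : G) :
    Nat.card (MulAction.orbitRel.Quotient
        (Subgroup.zpowers (MulAction.toPerm g : Equiv.Perm X)) X) =
      Nat.card (MulAction.orbitRel.Quotient (Subgroup.zpowers g) X) :=
  Nat.card_congr (Quotient.congrRight (orbitRel_zpowers_toPerm g))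

theorem card_orbits_toPerm_inv (g : G) :
    Nat.card (MulAction.orbitRel.Quotient
        (Subgroup.zpowers (MulAction.toPerm g⁻¹ : Equiv.Perm X)) X) =
      Nat.card (MulAction.orbitRel.Quotient (Subgroup.zpowers g) X) := by
  rw [card_orbits_toPerm g⁻¹, Subgroup.zpowers_inv]

theorem card_orbits_one :
    Nat.card (MulAction.orbitRel.Quotient (Subgroup.zpowers (1 : G)) X) = Nat.card X := by
  symm
  apply Nat.card_congr
  refine Equiv.ofBijective (Quotient.mk (MulAction.orbitRel (Subgroup.zpowers (1 : G)) X))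
    ⟨?_, Quotient.mk_surjective⟩
  intro a b hab
  have h : MulAction.orbitRel (Subgroup.zpowers (1 : G)) X a b := Quotient.exact hab
  rw [MulAction.orbitRel_apply, MulAction.mem_orbit_iff] at h
  obtain ⟨⟨h', hh'⟩, rfl⟩ := h
  rw [Subgroup.zpowers_one_eq_bot, Subgroup.mem_bot] at hh'
  subst hh'
  exact one_smul G b

end Orbits

/-! ## The counting step -/

/-- `Stmt_LOC` applied to a local datum: the zeros of `y` are counted by the orbits of `g`. -/
theorem card_zeros_of_localDatum (hLOC : Stmt_LOC) (N : ℕ) [NeZero N] (y : FN N) (m : ℕ)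
    (g : SL(2, ℤ)) (hy : Transcendental Kbar y) [FiniteDimensional Kbar⟮y⟯ (FN N)]
    (hfr : Module.finrank Kbar⟮y⟯ (FN N) = Nat.card (XN N))
    (hL : LocalDatum N y m g) :
    Nat.card {v : Place Kbar (FN N) // 0 < v.ord y}
      = Nat.card (MulAction.orbitRel.Quotient (Subgroup.zpowers g) (XN N)) := by
  obtain ⟨Ω, instF, instA, w, ι, σ, ξ, hw, hι, hξ, hm, hwξ, hσ, hρ, hdiv⟩ := hL
  let _ : Fintype (XN N) := Fintype.ofFinite _
  have hcard : Fintype.card (XN N) = Module.finrank Kbar⟮y⟯ (FN N) := by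
    rw [hfr, Nat.card_eq_fintype_card]
  rcases hρ with hρ | hρ
  · rw [hLOC Kbar (FN N) Ω y hy w hw (XN N) hcard ι hι ξ hξ m hm hwξ σ hσ
      (MulAction.toPerm g) hρ hdiv]
    exact card_orbits_toPerm g
  · rw [hLOC Kbar (FN N) Ω y hy w hw (XN N) hcard ι hι ξ hξ m hm hwξ σ hσ
      (MulAction.toPerm g⁻¹) hρ hdiv]
    exact card_orbits_toPerm_inv g

/-! ## `Stmt_Places` -/

theorem stmt_Places (hLOC : Stmt_LOC) (hFund : Stmt_FundId) (hJT : Stmt_JTranscendental)
    (hJF : Stmt_JFinrank) (hG : Stmt_LocalGeneric) (h1728 : Stmt_Local1728)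
    (h0 : Stmt_LocalZero) (hInf : Stmt_LocalInf) (hT : Stmt_OrbitsT)
    (hS : Stmt_OrbitsS) (hST : Stmt_OrbitsST) : Stmt_Places := by
  intro N _
  have hj := hJT N
  obtain ⟨hfd, hfr⟩ := hJF N
  have := hfd
  have key : ∀ (c : Kbar) (m : ℕ) (g : SL(2, ℤ)),
      LocalDatum N (jBar N - algebraMap Kbar (FN N) c) m g →
      Nat.card {v : Place Kbar (FN N) // 0 < v.ord (jBar N - algebraMap Kbar (FN N) c)}
        = Nat.card (MulAction.orbitRel.Quotient (Subgroup.zpowers g) (XN N)) := by
    intro c m g hL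
    have : FiniteDimensional Kbar⟮jBar N - algebraMap Kbar (FN N) c⟯ (FN N) :=
      finiteDimensional_of_eq (adjoin_sub_algebraMap (jBar N) c)
    exact card_zeros_of_localDatum hLOC N _ m g (transcendental_sub_algebraMap hj c)
      (by rw [finrank_of_eq (adjoin_sub_algebraMap (jBar N) c), hfr]) hL
  refine ⟨?_, ?_, ?_, ?_⟩
  · intro c hc0 hc1 v hv
    have : FiniteDimensional Kbar⟮jBar N - algebraMap Kbar (FN N) c⟯ (FN N) :=
      finiteDimensional_of_eq (adjoin_sub_algebraMap (jBar N) c)
    obtain ⟨s, hs, hsum⟩ := hFund Kbar (FN N) (jBar N - algebraMap Kbar (FN N) c)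
      (transcendental_sub_algebraMap hj c)
    have hcount := (key c 1 1 (hG N c hc0 hc1)).trans card_orbits_one
    rw [finrank_of_eq (adjoin_sub_algebraMap (jBar N) c), hfr] at hsum
    exact ord_eq_one_of_card s hs _ hsum hcount v hv
  · rw [key 1728 2 ModularGroup.S (h1728 N)]
    exact hS N
  · have h := key 0 3 (ModularGroup.S * ModularGroup.T) (by
      rw [map_zero, sub_zero]
      exact h0 N)
    rw [h]
    exact hST N
  · have : FiniteDimensional Kbar⟮(jBar N)⁻¹⟯ (FN N) :=
      finiteDimensional_of_eq (adjoin_inv_eq (jBar N))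
    have h := card_zeros_of_localDatum hLOC N (jBar N)⁻¹ N ModularGroup.T
      (transcendental_inv_of hj)
      (by rw [finrank_of_eq (adjoin_inv_eq (jBar N)), hfr]) (hInf N)
    rw [← hT N, ← h]
    exact Nat.card_congr (Equiv.subtypeEquivRight (fun v => by rw [v.ord_inv]; omega))

end Fermat.Agent.S24.helper977
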