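import Fermat.Agent.S24.helper24_Spec

/-!
# S24, module LOC-D (helper985): orbit counting via rigidity of embeddings

`stmt_LOC : Stmt_FundId → Stmt_ResidueK → Stmt_LOC`.
-/

set_option autoImplicit false

open AlgebraicCurve IntermediateField

namespace Fermat.Agent.S24.helper985

section ValSubring

variable {L : Type} [Field L]

theorem exists_int_of_ne_zero (u : AddValuation L (WithTop ℤ)) {z : L} (hz : z ≠ 0) :
    ∃ k : ℤ, u z = (k : WithTop ℤ) :=
  ⟨_, (WithTop.coe_untop _ ((AddValuation.ne_top_iff u).mpr hz)).symm⟩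

theorem addVal_pow_int (u : AddValuation L (WithTop ℤ)) {z : L} {t : ℤ}
    (h : u z = (t : WithTop ℤ)) (n : ℕ) : u (z ^ n) = ((n * t : ℤ) : WithTop ℤ) := by
  rw [AddValuation.map_pow, h, ← WithTop.coe_nsmul]
  simp

theorem addVal_zpow_int (u : AddValuation L (WithTop ℤ)) {z : L} {t : ℤ}
    (h : u z = (t : WithTop ℤ)) (k : ℤ) : u (z ^ k) = ((k * t : ℤ) : WithTop ℤ) := by
  obtain ⟨n, rfl | rfl⟩ := Int.eq_nat_or_neg k
  · rw [zpow_natCast]
    exact addVal_pow_int u h n
  · rw [zpow_neg, zpow_natCast, AddValuation.map_inv, addVal_pow_int u h n]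
    simp

/-- The valuation subring `{z | 0 ≤ u z}` of an additive valuation with values in `WithTop ℤ`. -/
def valSubring (u : AddValuation L (WithTop ℤ)) : ValuationSubring L where
  carrier := {z | 0 ≤ u z}
  mul_mem' := by
    intro a b ha hb
    show 0 ≤ u (a * b)
    rw [AddValuation.map_mul]
    exact add_nonneg ha hb
  one_mem' := by
    show 0 ≤ u 1
    rw [AddValuation.map_one]
  add_mem' := by
    intro a b ha hb
    exact AddValuation.map_le_add u ha hb
  zero_mem' := by
    show 0 ≤ u 0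
    rw [AddValuation.map_zero]
    exact le_top
  neg_mem' := by
    intro a ha
    show 0 ≤ u (-a)
    rwa [AddValuation.map_neg]
  mem_or_inv_mem' := by
    intro a
    show 0 ≤ u a ∨ 0 ≤ u a⁻¹
    rw [AddValuation.map_inv]
    rcases le_total 0 (u a) with h | h
    · exact Or.inl h
    · right
      cases hua : u a with
      | top => rw [hua] at h; simp at h
      | coe n =>
        rw [hua] at h
        have h' : n ≤ 0 := by exact_mod_cast h
        have : (0 : WithTop ℤ) ≤ ((-n : ℤ) : WithTop ℤ) := by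
          exact_mod_cast neg_nonneg.mpr h'
        simpa using this

theorem mem_valSubring (u : AddValuation L (WithTop ℤ)) (z : L) :
    z ∈ valSubring u ↔ 0 ≤ u z := Iff.rfl

theorem valSubring_isUnit_iff (u : AddValuation L (WithTop ℤ)) (x : valSubring u) :
    IsUnit x ↔ u (x : L) = 0 := by
  constructor
  · rintro ⟨⟨a, b, hab, hba⟩, rfl⟩
    have h1 : (a : L) * (b : L) = 1 := by exact_mod_cast congrArg Subtype.val hab
    have h2 : u (a : L) + u (b : L) = 0 := by
      rw [← AddValuation.map_mul, h1, AddValuation.map_one]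
    have ha : (0 : WithTop ℤ) ≤ u (a : L) := a.2
    have hb : (0 : WithTop ℤ) ≤ u (b : L) := b.2
    have ha0 : (a : L) ≠ 0 := left_ne_zero_of_mul_eq_one h1
    have hb0 : (b : L) ≠ 0 := right_ne_zero_of_mul_eq_one h1
    obtain ⟨s, hs⟩ := exists_int_of_ne_zero u ha0
    obtain ⟨t, ht⟩ := exists_int_of_ne_zero u hb0
    show u (a : L) = 0
    rw [hs, ht] at h2
    rw [hs] at ha ⊢
    rw [ht] at hb
    norm_cast at *
    omega
  · intro h
    have hx0 : (x : L) ≠ 0 := by
      intro h0
      rw [h0, AddValuation.map_zero] at h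
      exact WithTop.top_ne_zero h
    have hinv : (0 : WithTop ℤ) ≤ u (x : L)⁻¹ := by
      rw [AddValuation.map_inv, h]
      simp
    refine ⟨⟨x, ⟨(x : L)⁻¹, hinv⟩, ?_, ?_⟩, rfl⟩
    · apply Subtype.ext
      show (x : L) * (x : L)⁻¹ = 1
      exact mul_inv_cancel₀ hx0
    · apply Subtype.ext
      show (x : L)⁻¹ * (x : L) = 1
      exact inv_mul_cancel₀ hx0

theorem valSubring_isPrincipalIdealRing (u : AddValuation L (WithTop ℤ)) :
    IsPrincipalIdealRing (valSubring u) := by
  classical
  refine ⟨fun I => ?_⟩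
  by_cases hI : I = ⊥
  · subst hI
    exact bot_isPrincipal
  · obtain ⟨x0, hx0I, hx0⟩ := Submodule.exists_mem_ne_zero_of_ne_bot hI
    let n : valSubring u → ℕ := fun x => ((u (x : L)).untopD 0).toNat
    have hex : ∃ k, ∃ x ∈ I, x ≠ 0 ∧ n x = k := ⟨n x0, x0, hx0I, hx0, rfl⟩
    obtain ⟨x, hxI, hx0', hxk⟩ := Nat.find_spec hex
    have hmin : ∀ z ∈ I, z ≠ 0 → n x ≤ n z := fun z hz hz0 =>
      hxk ▸ Nat.find_min' hex ⟨z, hz, hz0, rfl⟩
    refine ⟨x, ?_⟩
    apply le_antisymm
    · intro z hz
      rw [Ideal.submodule_span_eq, Ideal.mem_span_singleton']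
      by_cases hz0 : z = 0
      · exact ⟨0, by simp [hz0]⟩
      · have hxL : (x : L) ≠ 0 := fun h => hx0' (Subtype.ext h)
        have hzL : (z : L) ≠ 0 := fun h => hz0 (Subtype.ext h)
        obtain ⟨s, hs⟩ := exists_int_of_ne_zero u hxL
        obtain ⟨t, ht⟩ := exists_int_of_ne_zero u hzL
        have hs0 : (0 : WithTop ℤ) ≤ u (x : L) := x.2
        have ht0 : (0 : WithTop ℤ) ≤ u (z : L) := z.2
        have hle := hmin z hz hz0
        simp only [n, hs, ht, WithTop.untopD_coe] at hle
        rw [hs] at hs0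
        rw [ht] at ht0
        have hs0' : 0 ≤ s := by exact_mod_cast hs0
        have ht0' : 0 ≤ t := by exact_mod_cast ht0
        have hst : s ≤ t := by omega
        have hmem : (0 : WithTop ℤ) ≤ u ((z : L) / (x : L)) := by
          rw [AddValuation.map_div, hs, ht]
          have : (0 : WithTop ℤ) ≤ ((t - s : ℤ) : WithTop ℤ) := by
            exact_mod_cast sub_nonneg.mpr hst
          simpa using this
        refine ⟨⟨(z : L) / (x : L), hmem⟩, Subtype.ext ?_⟩
        show (z : L) / (x : L) * (x : L) = (z : L)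
        field_simp
    · rw [Ideal.submodule_span_eq, Ideal.span_singleton_le_iff_mem]
      exact hxI

/-- If `P ≡ P'` to higher order than their common valuation `κ`, then `P ^ j ≡ P' ^ j` to
higher order than `j * κ`. -/
theorem addVal_pow_sub_pow_gt (w : AddValuation L (WithTop ℤ)) {P P' : L} {κ : ℤ}
    (hP : w P = (κ : WithTop ℤ)) (hP' : w P' = (κ : WithTop ℤ))
    (hlt : (κ : WithTop ℤ) < w (P - P')) (j : ℕ) :
    ((j * κ : ℤ) : WithTop ℤ) < w (P ^ j - P' ^ j) := by
  induction j with
  | zero => simp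
  | succ j ih =>
    have hsplit : P ^ (j + 1) - P' ^ (j + 1) = P * (P ^ j - P' ^ j) + (P - P') * P' ^ j := by
      ring
    rw [hsplit]
    apply AddValuation.map_lt_add
    · rw [AddValuation.map_mul, hP]
      have h1 : (κ : WithTop ℤ) + ((j * κ : ℤ) : WithTop ℤ) < (κ : WithTop ℤ) + w (P ^ j - P' ^ j) :=
        WithTop.add_lt_add_left WithTop.coe_ne_top ih
      have h2 : (((j + 1 : ℕ) * κ : ℤ) : WithTop ℤ) = (κ : WithTop ℤ) + ((j * κ : ℤ) : WithTop ℤ) := by
        rw [← WithTop.coe_add]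
        congr 1
        push_cast
        ring
      rw [h2]
      exact h1
    · rw [AddValuation.map_mul, addVal_pow_int w hP' j]
      have h1 : (κ : WithTop ℤ) + ((j * κ : ℤ) : WithTop ℤ) < w (P - P') + ((j * κ : ℤ) : WithTop ℤ) :=
        WithTop.add_lt_add_right WithTop.coe_ne_top hlt
      have h2 : (((j + 1 : ℕ) * κ : ℤ) : WithTop ℤ) = (κ : WithTop ℤ) + ((j * κ : ℤ) : WithTop ℤ) := by
        rw [← WithTop.coe_add]
        congr 1
        push_cast
        ring
      rw [h2]
      exact h1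

/-- Exact valuation of `P ^ e - P' ^ e` when `P ≡ P'` to higher order (residue characteristic
zero). -/
theorem addVal_pow_sub_pow (w : AddValuation L (WithTop ℤ))
    (hnat : ∀ n : ℕ, n ≠ 0 → w (n : L) = 0) {P P' : L} {κ t : ℤ}
    (hP : w P = (κ : WithTop ℤ)) (hP' : w P' = (κ : WithTop ℤ))
    (hd : w (P - P') = (t : WithTop ℤ)) (hlt : κ < t) (e : ℕ) (he : 0 < e) :
    w (P ^ e - P' ^ e) = ((t + ((e : ℤ) - 1) * κ : ℤ) : WithTop ℤ) := by
  have hlt' : (κ : WithTop ℤ) < w (P - P') := by
    rw [hd]; exact_mod_cast hlt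
  set S := ∑ i ∈ Finset.range e, P ^ i * P' ^ (e - 1 - i) with hS
  have hgeom : S * (P - P') = P ^ e - P' ^ e := geom_sum₂_mul P P' e
  have hdiff : S - (e : L) * P' ^ (e - 1)
      = ∑ i ∈ Finset.range e, (P ^ i - P' ^ i) * P' ^ (e - 1 - i) := by
    have h1 : ∑ i ∈ Finset.range e, (P ^ i - P' ^ i) * P' ^ (e - 1 - i)
        = ∑ i ∈ Finset.range e, (P ^ i * P' ^ (e - 1 - i) - P' ^ (e - 1)) := by
      apply Finset.sum_congr rfl
      intro i hi
      have hi' : i < e := Finset.mem_range.mp hi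
      have : P' ^ i * P' ^ (e - 1 - i) = P' ^ (e - 1) := by
        rw [← pow_add]
        congr 1
        omega
      rw [sub_mul, this]
    rw [h1, Finset.sum_sub_distrib, Finset.sum_const, Finset.card_range, nsmul_eq_mul]
  have hdiffval : (((e : ℤ) - 1) * κ : ℤ) < w (S - (e : L) * P' ^ (e - 1)) := by
    rw [hdiff]
    apply AddValuation.map_lt_sum w WithTop.coe_ne_top
    intro i hi
    have hi' : i < e := Finset.mem_range.mp hi
    rw [AddValuation.map_mul, addVal_pow_int w hP' (e - 1 - i)]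
    have h1 := addVal_pow_sub_pow_gt w hP hP' hlt' i
    have h2 : ((i * κ : ℤ) : WithTop ℤ) + (((e - 1 - i : ℕ) * κ : ℤ) : WithTop ℤ)
        < w (P ^ i - P' ^ i) + (((e - 1 - i : ℕ) * κ : ℤ) : WithTop ℤ) :=
      WithTop.add_lt_add_right WithTop.coe_ne_top h1
    have h3 : ((((e : ℤ) - 1) * κ : ℤ) : WithTop ℤ)
        = ((i * κ : ℤ) : WithTop ℤ) + (((e - 1 - i : ℕ) * κ : ℤ) : WithTop ℤ) := by
      rw [← WithTop.coe_add]
      congr 1
      have : ((e - 1 - i : ℕ) : ℤ) = (e : ℤ) - 1 - i := by omega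
      rw [this]
      ring
    rw [h3]
    exact h2
  have hmain : w ((e : L) * P' ^ (e - 1)) = ((((e : ℤ) - 1) * κ : ℤ) : WithTop ℤ) := by
    rw [AddValuation.map_mul, hnat e (by omega), zero_add, addVal_pow_int w hP' (e - 1)]
    congr 2
    omega
  have hSval : w S = ((((e : ℤ) - 1) * κ : ℤ) : WithTop ℤ) := by
    have : S = (S - (e : L) * P' ^ (e - 1)) + (e : L) * P' ^ (e - 1) := by ring
    rw [this, AddValuation.map_add_eq_of_lt_right w (by rw [hmain]; exact hdiffval), hmain]
  rw [← hgeom, AddValuation.map_mul, hSval, hd, ← WithTop.coe_add]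
  congr 1
  ring

end ValSubring

section PlaceOf

variable {K F : Type} [Field K] [Field F] [Algebra K F]

/-- The place of `F` attached to a `ℤ`-valued additive valuation which is nonnegative on `K`
and takes a negative value. -/
def placeOfAddVal (u : AddValuation F (WithTop ℤ))
    (hK : ∀ a : K, 0 ≤ u (algebraMap K F a)) (hne : ∃ f : F, u f < 0) : Place K F where
  toValuationSubring := valSubring u
  algebraMap_mem' := hK
  ne_top' := by
    intro h
    obtain ⟨f, hf⟩ := hne
    have hmem : f ∈ valSubring u := by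
      rw [h]
      exact ValuationSubring.mem_top f
    exact absurd hmem (not_le.mpr hf)
  isPrincipalIdealRing' := valSubring_isPrincipalIdealRing u

theorem placeOfAddVal_mem (u : AddValuation F (WithTop ℤ))
    (hK : ∀ a : K, 0 ≤ u (algebraMap K F a)) (hne : ∃ f : F, u f < 0) (f : F) :
    f ∈ (placeOfAddVal u hK hne).toValuationSubring ↔ 0 ≤ u f := Iff.rfl

theorem placeOfAddVal_ord (u : AddValuation F (WithTop ℤ))
    (hK : ∀ a : K, 0 ≤ u (algebraMap K F a)) (hne : ∃ f : F, u f < 0) :
    ∃ κ : ℤ, 0 < κ ∧ ∀ f : F, f ≠ 0 →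
      u f = ((κ * (placeOfAddVal u hK hne).ord f : ℤ) : WithTop ℤ) := by
  set v := placeOfAddVal u hK hne with hv
  obtain ⟨π, hπ⟩ := IsDiscreteValuationRing.exists_irreducible v.toValuationSubring
  have hπ0 : (π : F) ≠ 0 := fun h => hπ.ne_zero (Subtype.ext h)
  obtain ⟨κ, hκ⟩ := exists_int_of_ne_zero u hπ0
  have hκ0 : (0 : WithTop ℤ) ≤ u (π : F) := π.2
  have hκ1 : u (π : F) ≠ 0 := fun h =>
    hπ.not_isUnit ((valSubring_isUnit_iff u π).mpr h)
  have hκpos : 0 < κ := by
    rw [hκ] at hκ0 hκ1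
    have h1 : 0 ≤ κ := by exact_mod_cast hκ0
    have h2 : κ ≠ 0 := by exact_mod_cast hκ1
    omega
  refine ⟨κ, hκpos, fun f hf => ?_⟩
  obtain ⟨un, hun⟩ := v.exists_unit_mul_zpow hf hπ
  have hun0 : u ((un : v.toValuationSubring) : F) = 0 :=
    (valSubring_isUnit_iff u (un : v.toValuationSubring)).mp un.isUnit
  conv_lhs => rw [hun]
  rw [AddValuation.map_mul, hun0, zero_add, addVal_zpow_int u hκ, mul_comm]

end PlaceOf

section Rigidity

variable {K F Ω : Type} [Field K] [Field F] [Algebra K F] [Field Ω] [Algebra K Ω]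

theorem ord_nonneg_of_mem (v : Place K F) {f : F} (hf : f ∈ v.toValuationSubring) :
    0 ≤ v.ord f := by
  rcases eq_or_ne f 0 with rfl | hf0
  · simp
  obtain ⟨π, hπ⟩ := IsDiscreteValuationRing.exists_irreducible v.toValuationSubring
  obtain ⟨n, u, hu⟩ :=
    IsDiscreteValuationRing.eq_unit_mul_pow_irreducible
      (x := (⟨f, hf⟩ : v.toValuationSubring)) (by simpa [Subtype.ext_iff] using hf0) hπ
  have hcoe : f = ((u : v.toValuationSubring) : F) * ((π : F) ^ (n : ℤ)) := by
    have h := congrArg (Subtype.val) hu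
    push_cast at h
    rw [zpow_natCast]
    exact h
  rw [hcoe, v.ord_unit_smul_zpow u hπ (n : ℤ)]
  exact Int.natCast_nonneg n

theorem mem_of_ord_nonneg (v : Place K F) {f : F} (hf : f ≠ 0) (h : 0 ≤ v.ord f) :
    f ∈ v.toValuationSubring := by
  obtain ⟨π, hπ⟩ := IsDiscreteValuationRing.exists_irreducible v.toValuationSubring
  obtain ⟨u, hu⟩ := v.exists_unit_mul_zpow hf hπ
  rw [hu, show v.ord f = (((v.ord f).toNat : ℕ) : ℤ) from (Int.toNat_of_nonneg h).symm,
    zpow_natCast]
  exact mul_mem (u : v.toValuationSubring).2 (pow_mem (π : v.toValuationSubring).2 _)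

/-- Residue decomposition `f = a + g * π` at a place with residue field `K`. -/
theorem exists_decomp (v : Place K F)
    (hres : Function.Surjective (algebraMap K v.ResidueField))
    {π : v.toValuationSubring} (hπ : Irreducible π) {f : F} (hf : f ∈ v.toValuationSubring) :
    ∃ a : K, ∃ g : F, g ∈ v.toValuationSubring ∧ f = algebraMap K F a + g * (π : F) := by
  obtain ⟨a, ha⟩ := hres (IsLocalRing.residue _ ⟨f, hf⟩)
  have h1 : IsLocalRing.residue v.toValuationSubring
      (⟨f, hf⟩ - algebraMap K v.toValuationSubring a) = 0 := by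
    rw [map_sub, ← ha]
    exact sub_self _
  rw [IsLocalRing.residue_eq_zero_iff, hπ.maximalIdeal_eq, Ideal.mem_span_singleton'] at h1
  obtain ⟨g, hg⟩ := h1
  refine ⟨a, g, g.2, ?_⟩
  have h2 : (g : F) * (π : F) = f - algebraMap K F a := by
    have := congrArg Subtype.val hg
    simpa using this
  rw [h2]
  ring

theorem addVal_nonneg_of_mem (w : AddValuation Ω (WithTop ℤ)) (v : Place K F) {κ : ℤ}
    (hκ : 0 < κ) (φ : F →ₐ[K] Ω)
    (hφ : ∀ f : F, f ≠ 0 → w (φ f) = ((κ * v.ord f : ℤ) : WithTop ℤ))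
    {f : F} (hf : f ∈ v.toValuationSubring) : 0 ≤ w (φ f) := by
  rcases eq_or_ne f 0 with rfl | hf0
  · simp
  · rw [hφ f hf0]
    exact_mod_cast mul_nonneg hκ.le (ord_nonneg_of_mem v hf)

/-- Rigidity: two embeddings inducing the same place which agree on `y` and agree on a
uniformizer to higher order are equal. -/
theorem rigidity [CharZero K] (w : AddValuation Ω (WithTop ℤ))
    (hwK : ∀ a : K, a ≠ 0 → w (algebraMap K Ω a) = 0)
    (v : Place K F) (hres : Function.Surjective (algebraMap K v.ResidueField))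
    {y : F} (hy : 0 < v.ord y) {κ : ℤ} (hκ : 0 < κ) (φ φ' : F →ₐ[K] Ω)
    (hφ : ∀ f : F, f ≠ 0 → w (φ f) = ((κ * v.ord f : ℤ) : WithTop ℤ))
    (hφ' : ∀ f : F, f ≠ 0 → w (φ' f) = ((κ * v.ord f : ℤ) : WithTop ℤ))
    (hyy : φ y = φ' y) {π : v.toValuationSubring} (hπ : Irreducible π)
    (hlt : (κ : WithTop ℤ) < w (φ (π : F) - φ' (π : F))) : φ = φ' := by
  have hnat : ∀ n : ℕ, n ≠ 0 → w (n : Ω) = 0 := by
    intro n hn
    have h := hwK (n : K) (Nat.cast_ne_zero.mpr hn)
    rwa [map_natCast] at h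
  have hπ0 : (π : F) ≠ 0 := fun h => hπ.ne_zero (Subtype.ext h)
  have hπord : v.ord (π : F) = 1 := v.ord_coe_irreducible hπ
  have hP : w (φ (π : F)) = (κ : WithTop ℤ) := by rw [hφ _ hπ0, hπord, mul_one]
  have hP' : w (φ' (π : F)) = (κ : WithTop ℤ) := by rw [hφ' _ hπ0, hπord, mul_one]
  have R0 : ∀ {f : F}, f ∈ v.toValuationSubring → 0 ≤ w (φ f) :=
    fun hf => addVal_nonneg_of_mem w v hκ φ hφ hf
  have R0' : ∀ {f : F}, f ∈ v.toValuationSubring → 0 ≤ w (φ' f) :=
    fun hf => addVal_nonneg_of_mem w v hκ φ' hφ' hf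
  set ν := w (φ (π : F) - φ' (π : F)) with hν
  have step : ∀ n : ℕ, ∀ f : F, f ∈ v.toValuationSubring → w (φ f - φ' f) < ν →
      ((n * κ : ℤ) : WithTop ℤ) ≤ w (φ f - φ' f) := by
    intro n
    induction n with
    | zero =>
      intro f hf _
      simp only [Nat.cast_zero, zero_mul, WithTop.coe_zero]
      exact AddValuation.map_le_sub w (R0 hf) (R0' hf)
    | succ n ih =>
      intro f hf hlt'
      obtain ⟨a, g, hg, hfg⟩ := exists_decomp v hres hπ hf
      have hsplit : φ f - φ' f
          = (φ (π : F) - φ' (π : F)) * φ g + φ' (π : F) * (φ g - φ' g) := by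
        rw [hfg]
        simp only [map_add, map_mul, AlgHom.commutes]
        ring
      by_cases hgν : w (φ g - φ' g) < ν
      · have ihg := ih g hg hgν
        rcases AddValuation.map_add' w ((φ (π : F) - φ' (π : F)) * φ g)
          (φ' (π : F) * (φ g - φ' g)) with h | h
        · exfalso
          rw [← hsplit, AddValuation.map_mul] at h
          have h' : ν ≤ ν + w (φ g) := le_add_of_nonneg_right (R0 hg)
          exact absurd (lt_of_le_of_lt (h'.trans h) hlt') (lt_irrefl _)
        · rw [← hsplit, AddValuation.map_mul, hP'] at h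
          refine le_trans ?_ h
          have h2 : (((n + 1 : ℕ) * κ : ℤ) : WithTop ℤ)
              = (κ : WithTop ℤ) + ((n * κ : ℤ) : WithTop ℤ) := by
            rw [← WithTop.coe_add]
            congr 1
            push_cast
            ring
          rw [h2]
          exact add_le_add le_rfl ihg
      · exfalso
        rw [not_lt] at hgν
        have h' : ν ≤ w (φ f - φ' f) := by
          rw [hsplit]
          apply AddValuation.map_le_add
          · rw [AddValuation.map_mul]
            exact le_add_of_nonneg_right (R0 hg)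
          · rw [AddValuation.map_mul, hP']
            exact hgν.trans (le_add_of_nonneg_left (by exact_mod_cast hκ.le))
        exact absurd (lt_of_le_of_lt h' hlt') (lt_irrefl _)
  have step' : ∀ f : F, f ∈ v.toValuationSubring → ν ≤ w (φ f - φ' f) := by
    intro f hf
    by_contra hcon
    rw [not_le] at hcon
    have hne : w (φ f - φ' f) ≠ ⊤ := ne_top_of_lt hcon
    obtain ⟨t, ht⟩ := WithTop.ne_top_iff_exists.mp hne
    have h1 := step (t.toNat + 1) f hf hcon
    rw [← ht] at h1
    have h2 : ((t.toNat + 1 : ℕ) : ℤ) * κ ≤ t := by exact_mod_cast h1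
    have h3 : t ≤ (t.toNat : ℤ) := Int.self_le_toNat t
    push_cast at h2
    nlinarith
  have hνtop : ν = ⊤ := by
    by_contra hne
    obtain ⟨t, ht⟩ := WithTop.ne_top_iff_exists.mp hne
    have hκt : κ < t := by
      rw [← ht] at hlt
      exact_mod_cast hlt
    set e := (v.ord y).toNat with he
    have hey : (e : ℤ) = v.ord y := Int.toNat_of_nonneg hy.le
    have he0 : 0 < e := by omega
    have hy0 : y ≠ 0 := by
      rintro rfl
      simp at hy
    set U := (π : F) ^ e / y with hU
    have hU0 : U ≠ 0 := div_ne_zero (pow_ne_zero _ hπ0) hy0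
    have hUord : v.ord U = 0 := by
      rw [hU, div_eq_mul_inv, v.ord_mul (pow_ne_zero _ hπ0) (inv_ne_zero hy0), v.ord_inv,
        ← zpow_natCast, v.ord_zpow, hπord, hey]
      ring
    have hUmem : U ∈ v.toValuationSubring := mem_of_ord_nonneg v hU0 hUord.ge
    have hπe : (π : F) ^ e = y * U := by
      rw [hU]
      field_simp
    have h1 : φ (π : F) ^ e - φ' (π : F) ^ e = φ y * (φ U - φ' U) := by
      rw [← map_pow, ← map_pow, hπe, map_mul, map_mul, ← hyy]
      ring
    have h2 := addVal_pow_sub_pow w hnat hP hP' ht.symm hκt e he0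
    have h3 : w (φ y) = ((κ * e : ℤ) : WithTop ℤ) := by rw [hφ y hy0, hey]
    have h4 := step' U hUmem
    rw [h1, AddValuation.map_mul, h3] at h2
    rw [← ht] at h4
    have h5 : ((κ * e : ℤ) : WithTop ℤ) + (t : WithTop ℤ)
        ≤ ((t + ((e : ℤ) - 1) * κ : ℤ) : WithTop ℤ) := by
      rw [← h2]
      exact add_le_add le_rfl h4
    have h6 : κ * e + t ≤ t + ((e : ℤ) - 1) * κ := by exact_mod_cast h5
    nlinarith
  have hA : ∀ f : F, f ∈ v.toValuationSubring → φ f = φ' f := by
    intro f hf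
    have h := step' f hf
    rw [hνtop, top_le_iff, AddValuation.top_iff] at h
    exact sub_eq_zero.mp h
  apply AlgHom.ext
  intro f
  rcases v.toValuationSubring.mem_or_inv_mem f with hf | hf
  · exact hA f hf
  · have h := hA _ hf
    rw [map_inv₀, map_inv₀] at h
    exact inv_injective h

end Rigidity

section Fibre

variable {K F Ω : Type} [Field K] [Field F] [Algebra K F] [Field Ω] [Algebra K Ω]

theorem valSubring_mem_maximalIdeal_iff {L : Type} [Field L] (u : AddValuation L (WithTop ℤ))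
    (x : valSubring u) : x ∈ IsLocalRing.maximalIdeal (valSubring u) ↔ 0 < u (x : L) := by
  rw [IsLocalRing.mem_maximalIdeal, mem_nonunits_iff, valSubring_isUnit_iff]
  have hx : (0 : WithTop ℤ) ≤ u (x : L) := x.2
  constructor
  · intro h
    exact lt_of_le_of_ne hx (Ne.symm h)
  · intro h
    exact h.ne'

/-- Fibre bound: at most `ord_v y` of the embeddings can induce the place `v`. -/
theorem fibre_card_le [CharZero K] (w : AddValuation Ω (WithTop ℤ))
    (hwK : ∀ a : K, a ≠ 0 → w (algebraMap K Ω a) = 0)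
    (v : Place K F) (hres : Function.Surjective (algebraMap K v.ResidueField))
    {y : F} (hy : 0 < v.ord y) {κ : ℤ} (hκ : 0 < κ)
    {X : Type} (ι : X → (F →ₐ[K] Ω)) (hinj : Function.Injective ι) (I : Finset X)
    (hφ : ∀ i ∈ I, ∀ f : F, f ≠ 0 → w (ι i f) = ((κ * v.ord f : ℤ) : WithTop ℤ))
    (hyy : ∀ i ∈ I, ∀ j ∈ I, ι i y = ι j y) :
    (I.card : ℤ) ≤ v.ord y := by
  classical
  rcases I.eq_empty_or_nonempty with rfl | ⟨i₀, hi₀⟩
  · simpa using hy.le
  obtain ⟨π, hπ⟩ := IsDiscreteValuationRing.exists_irreducible v.toValuationSubring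
  have hπ0 : (π : F) ≠ 0 := fun h => hπ.ne_zero (Subtype.ext h)
  have hπord : v.ord (π : F) = 1 := v.ord_coe_irreducible hπ
  set e := (v.ord y).toNat with he
  have hey : (e : ℤ) = v.ord y := Int.toNat_of_nonneg hy.le
  have he0 : 0 < e := by omega
  have hy0 : y ≠ 0 := by
    rintro rfl
    simp at hy
  set U := (π : F) ^ e / y with hU
  have hU0 : U ≠ 0 := div_ne_zero (pow_ne_zero _ hπ0) hy0
  have hUord : v.ord U = 0 := by
    rw [hU, div_eq_mul_inv, v.ord_mul (pow_ne_zero _ hπ0) (inv_ne_zero hy0), v.ord_inv,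
      ← zpow_natCast, v.ord_zpow, hπord, hey]
    ring
  have hUmem : U ∈ v.toValuationSubring := mem_of_ord_nonneg v hU0 hUord.ge
  have hπe : (π : F) ^ e = y * U := by
    rw [hU]
    field_simp
  obtain ⟨a, g, hg, hUg⟩ := exists_decomp v hres hπ hUmem
  have ha0 : a ≠ 0 := by
    rintro rfl
    rw [map_zero, zero_add] at hUg
    have hg0 : g ≠ 0 := by
      rintro rfl
      rw [zero_mul] at hUg
      exact hU0 hUg
    have h1 : v.ord U = v.ord g + 1 := by rw [hUg, v.ord_mul hg0 hπ0, hπord]
    have h2 := ord_nonneg_of_mem v hg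
    omega
  have hP : ∀ i ∈ I, w (ι i (π : F)) = (κ : WithTop ℤ) := fun i hi => by
    rw [hφ i hi _ hπ0, hπord, mul_one]
  have hP0 : ι i₀ (π : F) ≠ 0 := (map_ne_zero (ι i₀)).mpr hπ0
  have hUa : ∀ i ∈ I, 0 < w (ι i U - algebraMap K Ω a) := by
    intro i hi
    have h1 : ι i U - algebraMap K Ω a = ι i g * ι i (π : F) := by
      rw [hUg]
      simp only [map_add, map_mul, AlgHom.commutes]
      ring
    rw [h1, AddValuation.map_mul, hP i hi]
    have h0 : 0 ≤ w (ι i g) := addVal_nonneg_of_mem w v hκ (ι i) (hφ i hi) hg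
    calc (0 : WithTop ℤ) < (κ : WithTop ℤ) := by exact_mod_cast hκ
      _ ≤ w (ι i g) + κ := le_add_of_nonneg_left h0
  have hUval : ∀ i ∈ I, w (ι i U) = 0 := by
    intro i hi
    rw [hφ i hi U hU0, hUord]
    simp
  have hu : ∀ i ∈ I, w (ι i (π : F) / ι i₀ (π : F)) = 0 := by
    intro i hi
    rw [AddValuation.map_div, hP i hi, hP i₀ hi₀]
    simp
  -- the residue field of `(Ω, w)`
  let res := IsLocalRing.residue (valSubring w)
  let r : X → IsLocalRing.ResidueField (valSubring w) := fun i =>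
    if h : 0 ≤ w (ι i (π : F) / ι i₀ (π : F)) then res ⟨_, h⟩ else 0
  have hr : ∀ i (hi : i ∈ I), r i = res ⟨ι i (π : F) / ι i₀ (π : F), (hu i hi).ge⟩ :=
    fun i hi => dif_pos (hu i hi).ge
  let aO : valSubring w := ⟨algebraMap K Ω a, (hwK a ha0).ge⟩
  have haO : res aO ≠ 0 := by
    intro h
    have h1 := (valSubring_mem_maximalIdeal_iff w aO).mp ((IsLocalRing.residue_eq_zero_iff _).mp h)
    rw [show ((aO : valSubring w) : Ω) = algebraMap K Ω a from rfl, hwK a ha0] at h1
    exact lt_irrefl _ h1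
  have hresU : ∀ i (hi : i ∈ I), res ⟨ι i U, (hUval i hi).ge⟩ = res aO := by
    intro i hi
    rw [← sub_eq_zero, ← map_sub]
    exact (IsLocalRing.residue_eq_zero_iff _).mpr
      ((valSubring_mem_maximalIdeal_iff w _).mpr (hUa i hi))
  have hroot : ∀ i ∈ I, r i ^ e = 1 := by
    intro i hi
    have hξ : ι i y = ι i₀ y := hyy i hi i₀ hi₀
    have hξ0 : ι i₀ y ≠ 0 := (map_ne_zero (ι i₀)).mpr hy0
    have hU0' : ι i₀ U ≠ 0 := (map_ne_zero (ι i₀)).mpr hU0
    have hPi : ι i (π : F) ^ e = ι i₀ y * ι i U := by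
      rw [← map_pow, hπe, map_mul, hξ]
    have hPi₀ : ι i₀ (π : F) ^ e = ι i₀ y * ι i₀ U := by
      rw [← map_pow, hπe, map_mul]
    have hΩ : (ι i (π : F) / ι i₀ (π : F)) ^ e * ι i₀ U = ι i U := by
      rw [div_pow, hPi, hPi₀]
      field_simp
    have hO : (⟨ι i (π : F) / ι i₀ (π : F), (hu i hi).ge⟩ : valSubring w) ^ e
        * ⟨ι i₀ U, (hUval i₀ hi₀).ge⟩ = ⟨ι i U, (hUval i hi).ge⟩ := Subtype.ext hΩ
    have h1 := congrArg res hO
    rw [map_mul, map_pow, hresU i hi, hresU i₀ hi₀, ← hr i hi] at h1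
    exact mul_right_cancel₀ haO (by rw [h1, one_mul])
  have hmaps : Set.MapsTo r (I : Set X)
      (Polynomial.nthRootsFinset e (1 : IsLocalRing.ResidueField (valSubring w)) : Set _) := by
    intro i hi
    exact (Polynomial.mem_nthRootsFinset he0 1).mpr (hroot i hi)
  have hinjOn : Set.InjOn r (I : Set X) := by
    intro i hi i' hi' hrr
    rw [hr i hi, hr i' hi', ← sub_eq_zero, ← map_sub] at hrr
    have h1 := (valSubring_mem_maximalIdeal_iff w _).mp
      ((IsLocalRing.residue_eq_zero_iff _).mp hrr)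
    have h2 : (0 : WithTop ℤ) < w (ι i (π : F) / ι i₀ (π : F) - ι i' (π : F) / ι i₀ (π : F)) :=
      h1
    have h3 : ι i (π : F) - ι i' (π : F)
        = (ι i (π : F) / ι i₀ (π : F) - ι i' (π : F) / ι i₀ (π : F)) * ι i₀ (π : F) := by
      field_simp
    have h4 : (κ : WithTop ℤ) < w (ι i (π : F) - ι i' (π : F)) := by
      rw [h3, AddValuation.map_mul, hP i₀ hi₀]
      calc (κ : WithTop ℤ) = 0 + (κ : WithTop ℤ) := (zero_add _).symm
        _ < _ := WithTop.add_lt_add_right WithTop.coe_ne_top h2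
    exact hinj (rigidity w hwK v hres hy hκ (ι i) (ι i') (hφ i hi) (hφ i' hi')
      (hyy i hi i' hi') hπ h4)
  have hcard : I.card ≤ e := by
    calc I.card ≤ (Polynomial.nthRootsFinset e
          (1 : IsLocalRing.ResidueField (valSubring w))).card :=
        Finset.card_le_card_of_injOn r hmaps hinjOn
      _ ≤ Multiset.card (Polynomial.nthRoots e
          (1 : IsLocalRing.ResidueField (valSubring w))) := by
        rw [Polynomial.nthRootsFinset_def]
        exact Multiset.toFinset_card_le _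
      _ ≤ e := Polynomial.card_nthRoots e 1
  rw [← hey]
  exact_mod_cast hcard

end Fibre

section Counting

theorem orbit_period {X : Type} [Fintype X] (ρ : Equiv.Perm X) (i : X) :
    ∃ r : ℕ, 0 < r ∧ (ρ ^ r) i = i ∧
      r = (MulAction.orbit (Subgroup.zpowers ρ) i).ncard := by
  classical
  refine ⟨Function.minimalPeriod (fun x => ρ • x) i, ?_, ?_, ?_⟩
  · apply Function.minimalPeriod_pos_of_mem_periodicPts
    exact Function.Injective.mem_periodicPts (MulAction.injective ρ) i
  · have h : ρ ^ (Function.minimalPeriod (fun x => ρ • x) i) • i = i :=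
      MulAction.pow_smul_eq_iff_minimalPeriod_dvd.mpr dvd_rfl
    exact h
  · rw [MulAction.minimalPeriod_eq_card, ← Nat.card_eq_fintype_card, Nat.card_coe_set_eq]

theorem const_on_zpowers {X β : Type} (ρ : Equiv.Perm X) (V : X → β)
    (hV : ∀ i, V (ρ i) = V i) (g : Subgroup.zpowers ρ) (i : X) : V (g • i) = V i := by
  let T : Subgroup (Equiv.Perm X) :=
    { carrier := {g | ∀ i, V (g i) = V i}
      mul_mem' := by
        intro a b ha hb i
        rw [Equiv.Perm.mul_apply, ha, hb]
      one_mem' := fun i => rfl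
      inv_mem' := by
        intro a ha i
        have h := ha (a⁻¹ i)
        have h' : a (a⁻¹ i) = i := by simp
        rw [h'] at h
        exact h.symm }
  have hρT : ρ ∈ T := hV
  exact (Subgroup.zpowers_le.mpr hρT) g.2 i

/-- Pure counting: if `V` is constant on `ρ`-orbits, its fibres have at most `d v` elements,
orbits have at least `d (V i)` elements and the `d v` add up to `card X`, then the orbits are
in bijection with `s`. -/
theorem card_orbits_eq {X P : Type} [Fintype X] [DecidableEq P] (ρ : Equiv.Perm X) (V : X → P)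
    (s : Finset P) (d : P → ℕ) (hVs : ∀ i, V i ∈ s) (hVρ : ∀ i, V (ρ i) = V i)
    (hfib : ∀ v ∈ s, (Finset.univ.filter (fun i => V i = v)).card ≤ d v)
    (horb : ∀ i, d (V i) ≤ (MulAction.orbit (Subgroup.zpowers ρ) i).ncard)
    (hpos : ∀ v ∈ s, 0 < d v) (hsum : ∑ v ∈ s, d v = Fintype.card X) :
    Nat.card (MulAction.orbitRel.Quotient (Subgroup.zpowers ρ) X) = s.card := by
  have hcard : Fintype.card X = ∑ v ∈ s, (Finset.univ.filter (fun i => V i = v)).card := by
    rw [← Finset.card_univ]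
    exact Finset.card_eq_sum_card_fiberwise (f := V) (s := Finset.univ) (t := s)
      (fun i _ => hVs i)
  have heq : ∀ v ∈ s, (Finset.univ.filter (fun i => V i = v)).card = d v :=
    (Finset.sum_eq_sum_iff_of_le hfib).mp (by rw [← hcard, hsum])
  have hconst : ∀ (g : Subgroup.zpowers ρ) (i : X), V (g • i) = V i :=
    const_on_zpowers ρ V hVρ
  have horbit_eq : ∀ i, MulAction.orbit (Subgroup.zpowers ρ) i = {j | V j = V i} := by
    intro i
    apply Set.eq_of_subset_of_ncard_le
    · rintro _ ⟨g, rfl⟩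
      exact hconst g i
    · have h1 : ({j | V j = V i} : Set X)
          = ↑(Finset.univ.filter (fun j => V j = V i)) := by
        ext j
        simp
      rw [h1, Set.ncard_coe_finset, heq _ (hVs i)]
      exact horb i
    · exact Set.toFinite _
  let Φ : MulAction.orbitRel.Quotient (Subgroup.zpowers ρ) X → s :=
    Quotient.lift (fun i => (⟨V i, hVs i⟩ : s)) (by
      intro a b hab
      have hab' : a ∈ MulAction.orbit (Subgroup.zpowers ρ) b := hab
      rw [horbit_eq b] at hab'
      exact Subtype.ext hab')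
  have hΦ : Function.Bijective Φ := by
    constructor
    · intro q1 q2
      induction q1 using Quotient.inductionOn with
      | _ i =>
        induction q2 using Quotient.inductionOn with
        | _ j =>
          intro h
          apply Quotient.sound
          show i ∈ MulAction.orbit (Subgroup.zpowers ρ) j
          rw [horbit_eq j]
          exact congrArg Subtype.val h
    · rintro ⟨v, hv⟩
      have h1 : 0 < (Finset.univ.filter (fun i => V i = v)).card := by
        rw [heq v hv]
        exact hpos v hv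
      obtain ⟨i, hi⟩ := Finset.card_pos.mp h1
      refine ⟨Quotient.mk _ i, Subtype.ext ?_⟩
      exact (Finset.mem_filter.mp hi).2
  rw [Nat.card_eq_of_bijective Φ hΦ]
  simp

end Counting

section Main

open Fermat.Agent.S24.helper24

/-- Orbit counting (LOC), from the fundamental identity and `residue field = K`. -/
theorem stmt_LOC (h1 : Stmt_FundId) (h2 : Stmt_ResidueK) : Stmt_LOC := by
  intro K F _ _ _ _ _ Ω _ _ y hyT _ w hwK X _ hcard ι hι ξ hξ m hm hwξ σ hσ ρ hρ hdiv
  classical
  obtain ⟨s, hs, hsum⟩ := h1 K F y hyT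
  have hresK : ∀ v : Place K F, Function.Surjective (algebraMap K v.ResidueField) :=
    fun v => h2 K F y hyT v
  have hy0 : y ≠ 0 := by
    rintro rfl
    exact hyT (isAlgebraic_zero)
  -- the valuations `w ∘ ι i` and their places
  let u : X → AddValuation F (WithTop ℤ) := fun i => w.comap (ι i : F →+* Ω)
  have hu : ∀ i f, u i f = w (ι i f) := fun i f => rfl
  have huK : ∀ i (a : K), 0 ≤ u i (algebraMap K F a) := by
    intro i a
    rw [hu, AlgHom.commutes]
    rcases eq_or_ne a 0 with rfl | ha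
    · simp
    · exact (hwK a ha).ge
  have hune : ∀ i, ∃ f : F, u i f < 0 := by
    intro i
    refine ⟨y⁻¹, ?_⟩
    rw [hu, map_inv₀, AddValuation.map_inv, hξ i, hwξ]
    have h : ((-(m : ℤ) : ℤ) : WithTop ℤ) < 0 := by
      have : -(m : ℤ) < 0 := by omega
      exact_mod_cast this
    simpa using h
  let V : X → Place K F := fun i => placeOfAddVal (u i) (huK i) (hune i)
  have hVord : ∀ i, ∃ κ : ℤ, 0 < κ ∧ ∀ f : F, f ≠ 0 →
      w (ι i f) = ((κ * (V i).ord f : ℤ) : WithTop ℤ) :=
    fun i => placeOfAddVal_ord (u i) (huK i) (hune i)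
  choose κ hκ hord using hVord
  have hκm : ∀ i, κ i * (V i).ord y = m := by
    intro i
    have h := hord i y hy0
    rw [hξ i, hwξ] at h
    exact_mod_cast h.symm
  have hVpos : ∀ i, 0 < (V i).ord y := by
    intro i
    have h := hκm i
    have h' := hκ i
    have hm' : (0 : ℤ) < m := by exact_mod_cast hm
    by_contra hcon
    rw [not_lt] at hcon
    nlinarith
  have hVs : ∀ i, V i ∈ s := fun i => (hs _).mpr (hVpos i)
  have hVρ : ∀ i, V (ρ i) = V i := by
    intro i
    apply Place.ext
    apply SetLike.ext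
    intro f
    show 0 ≤ w (ι (ρ i) f) ↔ 0 ≤ w (ι i f)
    rw [← hρ i f, hσ]
  -- fibre bound
  have hfib : ∀ v ∈ s, (Finset.univ.filter (fun i => V i = v)).card ≤ (v.ord y).toNat := by
    intro v hv
    have hvpos : 0 < v.ord y := (hs v).mp hv
    rcases (Finset.univ.filter (fun i => V i = v)).eq_empty_or_nonempty with hemp | ⟨i₀, hi₀⟩
    · rw [hemp]
      simp
    · have hVi₀ : V i₀ = v := (Finset.mem_filter.mp hi₀).2
      have hκeq : ∀ i ∈ Finset.univ.filter (fun i => V i = v), κ i = κ i₀ := by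
        intro i hi
        have hVi : V i = v := (Finset.mem_filter.mp hi).2
        have e1 := hκm i
        have e2 := hκm i₀
        rw [hVi] at e1
        rw [hVi₀] at e2
        have : κ i * v.ord y = κ i₀ * v.ord y := by rw [e1, e2]
        exact mul_right_cancel₀ hvpos.ne' this
      have hbound := fibre_card_le w hwK v (hresK v) hvpos (hκ i₀) ι hι
        (Finset.univ.filter (fun i => V i = v))
        (fun i hi f hf => by
          have hVi : V i = v := (Finset.mem_filter.mp hi).2
          rw [hord i f hf, hκeq i hi, hVi])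
        (fun i _ j _ => by rw [hξ i, hξ j])
      omega
  -- orbit bound
  have hσpow : ∀ (k : ℕ) (i : X) (f : F), (σ ^ k) (ι i f) = ι ((ρ ^ k) i) f := by
    intro k
    induction k with
    | zero => intro i f; simp
    | succ k ih =>
      intro i f
      rw [pow_succ', pow_succ', AlgEquiv.mul_apply, ih, hρ, Equiv.Perm.mul_apply]
  have horb : ∀ i, ((V i).ord y).toNat ≤ (MulAction.orbit (Subgroup.zpowers ρ) i).ncard := by
    intro i
    obtain ⟨r, hr0, hri, hrcard⟩ := orbit_period ρ i
    rw [← hrcard]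
    obtain ⟨π, hπ⟩ := IsDiscreteValuationRing.exists_irreducible (V i).toValuationSubring
    have hπ0 : (π : F) ≠ 0 := fun h => hπ.ne_zero (Subtype.ext h)
    have hπord : (V i).ord (π : F) = 1 := (V i).ord_coe_irreducible hπ
    have hfix : (σ ^ r) (ι i (π : F)) = ι i (π : F) := by rw [hσpow, hri]
    obtain ⟨l, hl⟩ := hdiv r (ι i (π : F)) ((map_ne_zero (ι i)).mpr hπ0) hfix
    rw [hord i _ hπ0, hπord, mul_one] at hl
    have hl' : κ i = ((m / Nat.gcd r m : ℕ) : ℤ) * l := by exact_mod_cast hl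
    have hg : (m / Nat.gcd r m) * Nat.gcd r m = m := Nat.div_mul_cancel (Nat.gcd_dvd_right r m)
    have hgr : Nat.gcd r m ≤ r := Nat.gcd_le_left m hr0
    have hgpos : 0 < Nat.gcd r m := Nat.gcd_pos_of_pos_left m hr0
    have hqpos : 0 < m / Nat.gcd r m := Nat.div_pos (Nat.gcd_le_right r hm) hgpos
    have hκmi := hκm i
    have hepos := hVpos i
    -- `(q * l) * e = q * g`
    have hg' : ((m / Nat.gcd r m : ℕ) : ℤ) * (Nat.gcd r m : ℤ) = (m : ℤ) := by exact_mod_cast hg
    have hqpos' : (0 : ℤ) < ((m / Nat.gcd r m : ℕ) : ℤ) := by exact_mod_cast hqpos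
    have hle : l * (V i).ord y = (Nat.gcd r m : ℤ) := by
      have h3 : ((m / Nat.gcd r m : ℕ) : ℤ) * (l * (V i).ord y)
          = ((m / Nat.gcd r m : ℕ) : ℤ) * (Nat.gcd r m : ℤ) := by
        rw [hg', ← hκmi, hl']
        ring
      exact mul_left_cancel₀ hqpos'.ne' h3
    have hgpos' : (0 : ℤ) < (Nat.gcd r m : ℤ) := by exact_mod_cast hgpos
    have hlpos : 0 < l := by
      by_contra hcon
      rw [not_lt] at hcon
      nlinarith
    have hele : (V i).ord y ≤ (Nat.gcd r m : ℤ) := by nlinarith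
    have hgr' : (Nat.gcd r m : ℤ) ≤ (r : ℤ) := by exact_mod_cast hgr
    omega
  have hpos : ∀ v ∈ s, 0 < (v.ord y).toNat := by
    intro v hv
    have := (hs v).mp hv
    omega
  have hsum' : ∑ v ∈ s, (v.ord y).toNat = Fintype.card X := by
    have h3 : ((∑ v ∈ s, (v.ord y).toNat : ℕ) : ℤ) = (Fintype.card X : ℤ) := by
      rw [hcard, ← hsum, Nat.cast_sum]
      apply Finset.sum_congr rfl
      intro v hv
      exact Int.toNat_of_nonneg ((hs v).mp hv).le
    exact_mod_cast h3
  rw [card_orbits_eq ρ V s (fun v => (v.ord y).toNat) hVs hVρ hfib horb hpos hsum']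
  rw [Nat.card_congr (Equiv.subtypeEquivRight (fun v => (hs v).symm))]
  simp

end Main

end Fermat.Agent.S24.helper985
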