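import Mathlib

/-!
# S24, module M1c (helper987): Hermite form and coset separation for `j = E₄³/Δ`

All statements are about the analytic `j`-function `jInv τ = E₄ τ ^ 3 / Δ τ` on the upper half
plane (Mathlib only).

* `jInv_smul` : `jInv (γ • τ) = jInv τ` for `γ ∈ SL(2, ℤ)`.
* `tendsto_jInv_mul_qParam` : `jInv τ * exp (2πiτ) → 1` at `i∞`.
* `hermite` : for `g ∈ SL(2, ℤ)` and `d > 0` there are `A D : ℕ`, `B : ℤ`, `δ ∈ SL(2, ℤ)` with
  `A * D = d`, `A = gcd(d, g₁₀)` and `d * (g • τ) = δ • ((A τ + B) / D)`.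
* `jInv_hermite` : consequently `jInv (d * (g • τ)) = jInv ((A τ + B) / D)`.
* `exists_jInv_ne` : coset separation: if `N ∤ g₁₀` then the functions `τ ↦ jInv (N * (g • τ))` and
  `τ ↦ jInv (N * τ)` differ.
-/

set_option autoImplicit false

open UpperHalfPlane ModularForm Filter Topology Complex
open scoped Real MatrixGroups

namespace Fermat.Agent.S24.helper987

noncomputable section

local notation "𝕢" => Function.Periodic.qParam

/-- The analytic `j`-function `E₄³ / Δ` on the upper half plane. -/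
def jInv (τ : ℍ) : ℂ := E₄ τ ^ 3 / ModularForm.discriminant τ

theorem jInv_def (τ : ℍ) : jInv τ = E₄ τ ^ 3 / ModularForm.discriminant τ := rfl

/-- `jInv` is invariant under `SL(2, ℤ)`. -/
theorem jInv_smul (γ : SL(2, ℤ)) (τ : ℍ) : jInv (γ • τ) = jInv τ := by
  have hγ : Matrix.SpecialLinearGroup.mapGL ℝ γ ∈ 𝒮ℒ := ⟨γ, rfl⟩
  have h4 := SlashInvariantForm.slash_action_eqn'' (k := 4) E₄ hγ τ
  have h12 := SlashInvariantForm.slash_action_eqn'' (k := 12) CuspForm.discriminant hγ τ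
  have hd : denom (Matrix.SpecialLinearGroup.mapGL ℝ γ) τ ≠ 0 := denom_ne_zero _ _
  have hΔ : ModularForm.discriminant τ ≠ 0 := discriminant_ne_zero τ
  change E₄ ((Matrix.SpecialLinearGroup.mapGL ℝ γ) • τ) ^ 3 /
    ModularForm.discriminant ((Matrix.SpecialLinearGroup.mapGL ℝ γ) • τ) = _
  rw [CuspForm.coe_discriminant] at h12
  rw [jInv, h4, h12]
  generalize denom (Matrix.SpecialLinearGroup.mapGL ℝ γ) τ = x at hd ⊢
  have e4 : x ^ (4 : ℤ) = x ^ (4 : ℕ) := zpow_ofNat x 4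
  have e12 : x ^ (12 : ℤ) = x ^ (12 : ℕ) := zpow_ofNat x 12
  rw [e4, e12]
  field_simp

/-- `E₄ → 1` at `i∞`. -/
theorem tendsto_E₄_atImInfty : Tendsto (fun τ : ℍ => E₄ τ) atImInfty (𝓝 1) := by
  have hper : Function.Periodic (⇑E₄ ∘ ofComplex) (1 : ℝ) :=
    SlashInvariantFormClass.periodic_comp_ofComplex E₄ one_mem_strictPeriods_SL
  have han : AnalyticAt ℂ (cuspFunction 1 ⇑E₄) 0 :=
    ModularFormClass.analyticAt_cuspFunction_zero E₄ one_pos one_mem_strictPeriods_SL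
  have h0 : cuspFunction 1 ⇑E₄ 0 = 1 := by
    have h := EisensteinSeries.E_qExpansion_coeff_zero (k := 4) (by norm_num) ⟨2, rfl⟩
    rw [qExpansion_coeff] at h
    simpa using h
  have hcomp : (fun τ : ℍ => E₄ τ) = (cuspFunction 1 ⇑E₄) ∘ (fun τ : ℍ => 𝕢 1 τ) := by
    funext τ
    exact (eq_cuspFunction τ one_ne_zero hper).symm
  rw [hcomp, ← h0]
  exact han.continuousAt.tendsto.comp (qParam_tendsto_atImInfty one_pos)

/-- Leading term of `j` at `i∞`: `j(τ) · e^{2πiτ} → 1`. -/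
theorem tendsto_jInv_mul_qParam :
    Tendsto (fun τ : ℍ => jInv τ * 𝕢 1 τ) atImInfty (𝓝 1) := by
  have hP := tendsto_atImInfty_tprod_one_sub_eta_q_pow
  have hE := tendsto_E₄_atImInfty.pow 3
  have h := hE.div hP one_ne_zero
  simp only [one_pow, div_one] at h
  refine h.congr fun τ => ?_
  have hq : 𝕢 1 (τ : ℂ) ≠ 0 := by simp [Function.Periodic.qParam]
  have hΔ := discriminant_ne_zero τ
  rw [jInv, discriminant_eq_q_prod] at *
  have hP0 : (∏' (n : ℕ), (1 - eta_q n ↑τ) ^ 24) ≠ 0 := right_ne_zero_of_mul hΔ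
  simp only [Pi.div_apply]
  field_simp

/-- **Hermite form.** For `g ∈ SL(2, ℤ)` and `d > 0`, the matrix `diag(d, 1) * g` equals
`δ * [[A, B], [0, D]]` with `δ ∈ SL(2, ℤ)`, `A * D = d`, `A = gcd(d, g₁₀)`; stated through the
Möbius action on the upper half plane. -/
theorem hermite (g : SL(2, ℤ)) {d : ℕ} (hd : 0 < d) :
    ∃ (A D : ℕ) (B : ℤ) (δ : SL(2, ℤ)), 0 < A ∧ 0 < D ∧ A * D = d ∧
      A = Int.gcd (d : ℤ) (g 1 0) ∧
      ∀ τ σ σ' : ℍ, (σ : ℂ) = d * ((g • τ : ℍ) : ℂ) → (σ' : ℂ) = (A * τ + B) / D →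
        σ = δ • σ' := by
  -- entries
  obtain ⟨a₀, ha₀⟩ : ∃ a₀ : ℤ, a₀ = g 0 0 := ⟨_, rfl⟩
  obtain ⟨b₀, hb₀⟩ : ∃ b₀ : ℤ, b₀ = g 0 1 := ⟨_, rfl⟩
  obtain ⟨c, hc⟩ : ∃ c : ℤ, c = g 1 0 := ⟨_, rfl⟩
  obtain ⟨d₀, hd₀⟩ : ∃ d₀ : ℤ, d₀ = g 1 1 := ⟨_, rfl⟩
  have hdet : a₀ * d₀ - b₀ * c = 1 := by
    have h := g.det_coe
    rw [Matrix.det_fin_two] at h
    rw [ha₀, hb₀, hc, hd₀]
    exact h
  obtain ⟨A, hA⟩ : ∃ A : ℕ, A = Int.gcd (d : ℤ) c := ⟨_, rfl⟩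
  have hdne : (d : ℤ) ≠ 0 := by exact_mod_cast hd.ne'
  have hApos : 0 < A := hA ▸ Int.gcd_pos_of_ne_zero_left _ hdne
  have hAd : A ∣ d := by
    have h : ((Int.gcd (d : ℤ) c : ℕ) : ℤ) ∣ (d : ℤ) := Int.gcd_dvd_left _ _
    rw [← hA] at h
    exact Int.natCast_dvd_natCast.mp h
  obtain ⟨D, hD⟩ := hAd
  have hDpos : 0 < D := by
    rcases Nat.eq_zero_or_pos D with h | h
    · rw [h, mul_zero] at hD; omega
    · exact h
  obtain ⟨c', hc'⟩ : (A : ℤ) ∣ c := hA ▸ Int.gcd_dvd_right _ _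
  have hdD : (d : ℤ) = A * D := by exact_mod_cast hD
  -- Bezout for gcd
  obtain ⟨u, v, hbz⟩ : ∃ u v : ℤ, (d : ℤ) * u + c * v = A :=
    ⟨_, _, by rw [hA]; exact (Int.gcd_eq_gcd_ab _ _).symm⟩
  have hAne : (A : ℤ) ≠ 0 := by exact_mod_cast hApos.ne'
  have hcop1 : IsCoprime c' (D : ℤ) := by
    refine ⟨v, u, ?_⟩
    apply mul_left_cancel₀ hAne
    rw [hdD, hc'] at hbz
    linear_combination hbz
  have hcop2 : IsCoprime c' a₀ := by
    refine ⟨-(b₀ * A), d₀, ?_⟩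
    rw [hc'] at hdet
    linear_combination hdet
  obtain ⟨q, p, hbez⟩ : IsCoprime c' (a₀ * D) := hcop2.mul_right hcop1
  have hδdet : Matrix.det !![a₀ * D, -q; c', p] = 1 := by
    rw [Matrix.det_fin_two_of]
    linear_combination hbez
  obtain ⟨δ, hδ⟩ : ∃ δ : SL(2, ℤ), δ = ⟨!![a₀ * D, -q; c', p], hδdet⟩ := ⟨_, rfl⟩
  have hδ00 : δ 0 0 = a₀ * D := by rw [hδ]; rfl
  have hδ01 : δ 0 1 = -q := by rw [hδ]; rfl
  have hδ10 : δ 1 0 = c' := by rw [hδ]; rfl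
  have hδ11 : δ 1 1 = p := by rw [hδ]; rfl
  have h1 : a₀ * (p * d * b₀ + q * d₀) - q = A * b₀ := by
    linear_combination (a₀ * p * b₀) * hdD + q * hdet + (q * b₀) * hc' + (A * b₀) * hbez
  have h2 : c' * (p * d * b₀ + q * d₀) + p * D = d₀ := by
    linear_combination (c' * p * b₀) * hdD - (p * b₀ * D) * hc' - (p * D) * hdet + d₀ * hbez
  refine ⟨A, D, p * d * b₀ + q * d₀, δ, hApos, hDpos, hD.symm, by rw [hA, hc], ?_⟩
  intro τ σ σ' hσ hσ'
  apply UpperHalfPlane.ext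
  rw [hσ, coe_specialLinearGroup_apply, coe_specialLinearGroup_apply, hσ']
  rw [← ha₀, ← hb₀, ← hc, ← hd₀, hδ00, hδ01, hδ10, hδ11]
  simp only [algebraMap_int_eq, eq_intCast, ofReal_intCast]
  have hDC : (D : ℂ) ≠ 0 := by exact_mod_cast hDpos.ne'
  have h1C : (a₀ : ℂ) * (p * d * b₀ + q * d₀) - q = A * b₀ := by exact_mod_cast h1
  have h2C : (c' : ℂ) * (p * d * b₀ + q * d₀) + p * D = d₀ := by exact_mod_cast h2
  have hdDC : (d : ℂ) = A * D := by exact_mod_cast hdD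
  have hcC : (c : ℂ) = A * c' := by exact_mod_cast hc'
  have hden0 : (c : ℂ) * τ + d₀ ≠ 0 := by
    intro h0
    have him := congrArg Complex.im h0
    simp only [add_im, mul_im, intCast_re, intCast_im, zero_mul, add_zero, coe_im,
      zero_im] at him
    have hc0 : c = 0 := by
      have : (c : ℝ) = 0 := by
        rcases mul_eq_zero.mp him with h | h
        · exact h
        · exact absurd h τ.im_pos.ne'
      exact_mod_cast this
    have hd0 : d₀ = 0 := by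
      rw [hc0] at h0
      simpa using h0
    rw [hc0, hd0] at hdet
    simp at hdet
  have hnum : ((a₀ * D : ℤ) : ℂ) * ((A * τ + ((p * d * b₀ + q * d₀ : ℤ) : ℂ)) / D) + ((-q : ℤ) : ℂ)
      = A * (a₀ * τ + b₀) := by
    push_cast
    have e : ((a₀ : ℂ) * D) * ((A * τ + (p * d * b₀ + q * d₀)) / D)
        = a₀ * (A * τ + (p * d * b₀ + q * d₀)) := by
      field_simp
    rw [e]
    linear_combination h1C
  have hden : (c' : ℂ) * ((A * τ + ((p * d * b₀ + q * d₀ : ℤ) : ℂ)) / D) + p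
      = (c * τ + d₀) / D := by
    push_cast
    rw [eq_div_iff hDC]
    have e : ((c' : ℂ) * ((A * τ + (p * d * b₀ + q * d₀)) / D) + p) * D
        = c' * (A * τ + (p * d * b₀ + q * d₀)) + p * D := by
      field_simp
    rw [e]
    linear_combination h2C - (τ : ℂ) * hcC
  rw [hnum, hden, hdDC]
  field_simp

/-- Consequence of the Hermite form for `j`. -/
theorem jInv_hermite (g : SL(2, ℤ)) {d : ℕ} (hd : 0 < d) :
    ∃ (A D : ℕ) (B : ℤ), 0 < A ∧ 0 < D ∧ A * D = d ∧ A = Int.gcd (d : ℤ) (g 1 0) ∧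
      ∀ τ σ σ' : ℍ, (σ : ℂ) = d * ((g • τ : ℍ) : ℂ) → (σ' : ℂ) = (A * τ + B) / D →
        jInv σ = jInv σ' := by
  obtain ⟨A, D, B, δ, hA, hD, hAD, hgcd, h⟩ := hermite g hd
  exact ⟨A, D, B, hA, hD, hAD, hgcd, fun τ σ σ' hσ hσ' => by
    rw [h τ σ σ' hσ hσ', jInv_smul]⟩

/-- The point `(A τ + B) / D` of the upper half plane (`A, D > 0`). -/
def affPt (A D : ℕ) (B : ℤ) (hA : 0 < A) (hD : 0 < D) (τ : ℍ) : ℍ :=
  ⟨(A * τ + B) / D, by
    have h : (((A : ℂ) * τ + B) / D).im = (A : ℝ) * τ.im / D := by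
      have e : ((A : ℂ) * τ + B) / D = (((A : ℝ) / D : ℝ) : ℂ) * τ + (((B : ℝ) / D : ℝ) : ℂ) := by
        have hDC : (D : ℂ) ≠ 0 := by exact_mod_cast hD.ne'
        push_cast
        field_simp
      rw [e]
      simp only [add_im, mul_im, ofReal_re, ofReal_im, zero_mul, add_zero, coe_im]
      ring
    rw [h]
    have hA' : (0 : ℝ) < A := by exact_mod_cast hA
    have hD' : (0 : ℝ) < D := by exact_mod_cast hD
    exact div_pos (mul_pos hA' τ.im_pos) hD'⟩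

@[simp]
theorem coe_affPt (A D : ℕ) (B : ℤ) (hA : 0 < A) (hD : 0 < D) (τ : ℍ) :
    ((affPt A D B hA hD τ : ℍ) : ℂ) = (A * τ + B) / D := rfl

theorem im_affPt (A D : ℕ) (B : ℤ) (hA : 0 < A) (hD : 0 < D) (τ : ℍ) :
    (affPt A D B hA hD τ).im = (A : ℝ) / D * τ.im := by
  have e : ((A : ℂ) * τ + B) / D = (((A : ℝ) / D : ℝ) : ℂ) * τ + (((B : ℝ) / D : ℝ) : ℂ) := by
    have hDC : (D : ℂ) ≠ 0 := by exact_mod_cast hD.ne'
    push_cast
    field_simp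
  change (((A : ℂ) * τ + B) / D).im = _
  rw [e]
  simp only [add_im, mul_im, ofReal_re, ofReal_im, zero_mul, add_zero, coe_im]

theorem tendsto_affPt (A D : ℕ) (B : ℤ) (hA : 0 < A) (hD : 0 < D) :
    Tendsto (affPt A D B hA hD) atImInfty atImInfty := by
  rw [atImInfty, tendsto_comap_iff]
  have hA' : (0 : ℝ) < A := by exact_mod_cast hA
  have hD' : (0 : ℝ) < D := by exact_mod_cast hD
  have h : (UpperHalfPlane.im ∘ affPt A D B hA hD) = fun τ : ℍ => (A : ℝ) / D * τ.im := by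
    funext τ
    exact im_affPt A D B hA hD τ
  rw [h]
  exact Tendsto.const_mul_atTop (div_pos hA' hD') tendsto_comap

/-- Growth of `j((Aτ+B)/D)` at `i∞`: `‖j((Aτ+B)/D)‖ · e^{-2π(A/D) Im τ} → 1`. -/
theorem tendsto_norm_jInv_affPt (A D : ℕ) (B : ℤ) (hA : 0 < A) (hD : 0 < D) :
    Tendsto (fun τ : ℍ => ‖jInv (affPt A D B hA hD τ)‖ *
      Real.exp (-2 * π * ((A : ℝ) / D * τ.im))) atImInfty (𝓝 1) := by
  have h := (tendsto_jInv_mul_qParam.comp (tendsto_affPt A D B hA hD)).norm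
  rw [norm_one] at h
  refine h.congr fun τ => ?_
  simp only [Function.comp_apply, norm_mul, Function.Periodic.norm_qParam]
  rw [UpperHalfPlane.coe_im, im_affPt]
  simp

/-- **Coset separation.** If `N ∤ g₁₀` (i.e. `g ∉ Γ₀(N)`), the functions `τ ↦ j(N · gτ)` and
`τ ↦ j(Nτ)` are different. -/
theorem exists_jInv_ne {N : ℕ} (hN : 0 < N) (g : SL(2, ℤ)) (hg : ¬ (N : ℤ) ∣ g 1 0) :
    ∃ τ : ℍ, ∀ σ σ' : ℍ, (σ : ℂ) = N * ((g • τ : ℍ) : ℂ) → (σ' : ℂ) = N * τ →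
      jInv σ ≠ jInv σ' := by
  by_contra hcon
  push Not at hcon
  obtain ⟨A, D, B, hA, hD, hAD, hgcd, hj⟩ := jInv_hermite g hN
  -- `A < N`
  have hAN : A < N := by
    have hle : A ≤ N := Nat.le_of_dvd hN ⟨D, hAD.symm⟩
    rcases Nat.lt_or_ge A N with h | h
    · exact h
    · exfalso
      have hAeq : A = N := le_antisymm hle h
      apply hg
      have h1 : ((Int.gcd (N : ℤ) (g 1 0) : ℕ) : ℤ) ∣ g 1 0 := Int.gcd_dvd_right _ _
      rw [← hgcd, hAeq] at h1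
      exact h1
  have hN' : (0 : ℝ) < N := by exact_mod_cast hN
  have hD' : (1 : ℝ) ≤ D := by exact_mod_cast hD
  have hA' : (0 : ℝ) < A := by exact_mod_cast hA
  have hgap : (0 : ℝ) < N - (A : ℝ) / D := by
    have h1 : (A : ℝ) / D ≤ A := div_le_self hA'.le hD'
    have h2 : (A : ℝ) < N := by exact_mod_cast hAN
    linarith
  -- the two points
  have hone : (0 : ℕ) < 1 := Nat.one_pos
  have key : ∀ τ : ℍ, jInv (affPt N 1 0 hN hone τ) = jInv (affPt A D B hA hD τ) := by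
    intro τ
    obtain ⟨σ, σ', hσ, hσ', hjj⟩ := hcon τ
    have e1 : σ' = affPt N 1 0 hN hone τ := by
      apply UpperHalfPlane.ext
      rw [hσ', coe_affPt]
      simp
    rw [← e1, ← hjj]
    exact hj τ σ (affPt A D B hA hD τ) hσ (coe_affPt A D B hA hD τ)
  have h1 := tendsto_norm_jInv_affPt N 1 0 hN hone
  have h2 := tendsto_norm_jInv_affPt A D B hA hD
  -- the exponential factor tends to zero
  have h3 : Tendsto (fun τ : ℍ => Real.exp (-2 * π * ((N - (A : ℝ) / D) * τ.im)))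
      atImInfty (𝓝 0) := by
    have hlin : Tendsto (fun τ : ℍ => 2 * π * (N - (A : ℝ) / D) * τ.im) atImInfty atTop :=
      Tendsto.const_mul_atTop (by positivity) tendsto_comap
    have := Real.tendsto_exp_neg_atTop_nhds_zero.comp hlin
    refine this.congr fun τ => ?_
    simp only [Function.comp_apply]
    congr 1
    ring
  have h4 := h2.mul h3
  rw [mul_zero] at h4
  have h5 : Tendsto (fun τ : ℍ => ‖jInv (affPt N 1 0 hN hone τ)‖ *
      Real.exp (-2 * π * ((N : ℝ) / (1 : ℕ) * τ.im))) atImInfty (𝓝 0) := by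
    refine h4.congr fun τ => ?_
    rw [key τ, mul_assoc, ← Real.exp_add]
    congr 2
    push_cast
    ring
  exact zero_ne_one (tendsto_nhds_unique h5 h1)

/-- Coset separation, two-sided form: if `g₁ g₂⁻¹ ∉ Γ₀(N)` then `τ ↦ j(N · g₁τ)` and
`τ ↦ j(N · g₂τ)` are different functions. -/
theorem exists_jInv_ne_of_not_mem_Gamma0 {N : ℕ} (hN : 0 < N) (g₁ g₂ : SL(2, ℤ))
    (h : g₁ * g₂⁻¹ ∉ CongruenceSubgroup.Gamma0 N) :
    ∃ τ : ℍ, ∀ σ σ' : ℍ, (σ : ℂ) = N * ((g₁ • τ : ℍ) : ℂ) → (σ' : ℂ) = N * ((g₂ • τ : ℍ) : ℂ) →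
      jInv σ ≠ jInv σ' := by
  have hdvd : ¬ (N : ℤ) ∣ (g₁ * g₂⁻¹) 1 0 := by
    intro hd
    apply h
    rw [CongruenceSubgroup.Gamma0_mem]
    exact (ZMod.intCast_zmod_eq_zero_iff_dvd _ N).mpr hd
  obtain ⟨τ₀, hτ₀⟩ := exists_jInv_ne hN (g₁ * g₂⁻¹) hdvd
  refine ⟨g₂⁻¹ • τ₀, fun σ σ' hσ hσ' => ?_⟩
  have e1 : g₁ • g₂⁻¹ • τ₀ = (g₁ * g₂⁻¹) • τ₀ := (mul_smul g₁ g₂⁻¹ τ₀).symm
  have e2 : g₂ • g₂⁻¹ • τ₀ = τ₀ := smul_inv_smul g₂ τ₀
  rw [e1] at hσ
  rw [e2] at hσ'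
  exact hτ₀ σ σ' hσ hσ'

/-- The `q`-parameter of `(Aτ+B)/D` in terms of the parameter `q_N = e^{2πiτ/N}` when `D ∣ N`:
`e^{2πi(Aτ+B)/D} = e^{2πiB/D} · q_N^{A·(N/D)}`. -/
theorem qParam_affPt (A D : ℕ) (B : ℤ) (hA : 0 < A) (hD : 0 < D) {N : ℕ} (hN : 0 < N)
    (hDN : D ∣ N) (τ : ℍ) :
    𝕢 1 ((affPt A D B hA hD τ : ℍ) : ℂ)
      = cexp (2 * π * Complex.I * B / D) * 𝕢 N (τ : ℂ) ^ (A * (N / D)) := by
  obtain ⟨m, rfl⟩ := hDN
  have hDC : (D : ℂ) ≠ 0 := by exact_mod_cast hD.ne'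
  have hmpos : 0 < m := by
    rcases Nat.eq_zero_or_pos m with h | h
    · rw [h, mul_zero] at hN; exact absurd hN (lt_irrefl 0)
    · exact h
  have hmC : (m : ℂ) ≠ 0 := by exact_mod_cast hmpos.ne'
  rw [Nat.mul_div_cancel_left m hD, coe_affPt]
  simp only [Function.Periodic.qParam]
  rw [← Complex.exp_nat_mul, ← Complex.exp_add]
  congr 1
  push_cast
  field_simp
  ring

end

end Fermat.Agent.S24.helper987
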